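import Mathlib

/-!
# S18 (moonshot), leaf: separability of algebraic Laurent series

Let `k` be a perfect field and `μ ∈ k((t))` a Laurent series of order `-1` (or `1`).  Every
element of `k((t))` that is algebraic over `k(μ)` is separable over `k(μ)`
(`isSeparable_of_order_neg_one`, `isSeparable_of_order_one`).  Consequently every intermediate
field `k(μ) ⊆ F ⊆ k((t))` that is algebraic over `k(μ)` is separable over `k(μ)`
(`algebra_isSeparable`).

Proof (MacLane's criterion, by hand).  In characteristic `p` the powers `1, μ, …, μ^(p-1)` span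
`k(μ)` over its `p`-th powers (`k` is perfect) and are linearly independent over the `p`-th
powers of `k((t))` (the orders of the terms are pairwise distinct modulo `p`).  If the minimal
polynomial of `y` is `G(Y^p)`, decompose the coefficients of `G` along the powers of `μ`; the
relation `G(y^p) = 0` splits into relations `(∑ c_ij y^i)^p = 0`, which have degree at most
`deg G < p deg G` in `y`.
-/

set_option autoImplicit false
set_option linter.unusedSectionVars false
set_option linter.style.haveILetI false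

open Polynomial

noncomputable section

namespace Fermat.Agent.S18.SepLaurent

/-! ### A sum of terms with pairwise distinct valuations -/

section Val

variable {R Γ : Type*} [Ring R] [LinearOrderedAddCommMonoidWithTop Γ]

theorem sum_ne_zero_of_distinct {ι : Type*} [DecidableEq ι] (v : AddValuation R Γ)
    (s : Finset ι) (f : ι → R)
    (hne : ∃ i ∈ s, v (f i) ≠ ⊤)
    (hd : ∀ i ∈ s, ∀ j ∈ s, i ≠ j → v (f i) ≠ ⊤ → v (f j) ≠ ⊤ → v (f i) ≠ v (f j)) :
    ∑ i ∈ s, f i ≠ 0 := by
  classical
  obtain ⟨i₁, hi₁, hi₁'⟩ := hne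
  have hs' : (s.filter fun i => v (f i) ≠ ⊤).Nonempty :=
    ⟨i₁, Finset.mem_filter.2 ⟨hi₁, hi₁'⟩⟩
  obtain ⟨i₀, hi₀, hmin⟩ := Finset.exists_min_image _ (fun i => v (f i)) hs'
  rw [Finset.mem_filter] at hi₀
  have hrest : ∀ i ∈ s.erase i₀, v (f i₀) < v (f i) := by
    intro i hi
    rw [Finset.mem_erase] at hi
    by_cases htop : v (f i) = ⊤
    · rw [htop]
      exact lt_of_le_of_ne le_top hi₀.2
    · have hle := hmin i (Finset.mem_filter.2 ⟨hi.2, htop⟩)
      exact lt_of_le_of_ne hle (hd i₀ hi₀.1 i hi.2 (Ne.symm hi.1) hi₀.2 htop)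
  have hlt : v (f i₀) < v (∑ i ∈ s.erase i₀, f i) := v.map_lt_sum hi₀.2 hrest
  have hsum : ∑ i ∈ s, f i = f i₀ + ∑ i ∈ s.erase i₀, f i :=
    (Finset.add_sum_erase s f hi₀.1).symm
  intro h0
  have hv : v (∑ i ∈ s, f i) = v (f i₀) := by
    rw [hsum]
    exact v.map_add_eq_of_lt_left hlt
  rw [h0, v.map_zero] at hv
  exact hi₀.2 hv.symm

end Val

/-! ### MacLane's criterion, by hand -/

section MacLane

variable {k L : Type*} [Field k] [Field L] [Algebra k L]

theorem isSeparable_of_pBasis (p : ℕ) [Fact p.Prime] [CharP L p]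
    (K : IntermediateField k L) (μ : L)
    (hspan : ∀ a ∈ K, ∃ c : ℕ → L, (∀ j, c j ∈ K) ∧
      a = ∑ j ∈ Finset.range p, c j ^ p * μ ^ j)
    (hind : ∀ z : ℕ → L, ∑ j ∈ Finset.range p, z j ^ p * μ ^ j = 0 →
      ∀ j ∈ Finset.range p, z j = 0)
    (y : L) (hy : IsIntegral K y) : IsSeparable K y := by
  classical
  have hp : p.Prime := Fact.out
  have hcharK : CharP ↥K p := (algebraMap ↥K L).charP (algebraMap ↥K L).injective p
  have hirr : Irreducible (minpoly K y) := minpoly.irreducible hy
  rcases Polynomial.separable_or p hirr with h | ⟨-, G, hG, hexp⟩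
  · exact h
  exfalso
  have hG0 : G ≠ 0 := hG.ne_zero
  have hGdeg : 0 < G.natDegree := Polynomial.natDegree_pos_iff_degree_pos.2
    (Polynomial.degree_pos_of_irreducible hG)
  have hdeg : (minpoly K y).natDegree = G.natDegree * p := by
    rw [← hexp, Polynomial.natDegree_expand]
  -- the relation
  have hrel : Polynomial.aeval (y ^ p) G = 0 := by
    rw [← Polynomial.expand_aeval, hexp, minpoly.aeval]
  -- decompose the coefficients
  have hc : ∀ i : ℕ, ∃ c : ℕ → L, (∀ j, c j ∈ K) ∧
      ((G.coeff i : K) : L) = ∑ j ∈ Finset.range p, c j ^ p * μ ^ j :=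
    fun i => hspan _ (G.coeff i).2
  choose c hcK hcsum using hc
  set d := G.natDegree with hd
  have hrel' : ∑ j ∈ Finset.range p,
      (∑ i ∈ Finset.range (d + 1), c i j * y ^ i) ^ p * μ ^ j = 0 := by
    rw [Polynomial.aeval_eq_sum_range] at hrel
    rw [← hrel]
    have h1 : ∀ i ∈ Finset.range (d + 1), G.coeff i • (y ^ p) ^ i =
        ∑ j ∈ Finset.range p, (c i j * y ^ i) ^ p * μ ^ j := by
      intro i _
      rw [IntermediateField.smul_def, smul_eq_mul, hcsum i, Finset.sum_mul]
      refine Finset.sum_congr rfl fun j _ => ?_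
      ring
    rw [Finset.sum_congr rfl h1, Finset.sum_comm]
    refine Finset.sum_congr rfl fun j _ => ?_
    rw [sum_pow_char, Finset.sum_mul]
  have hzero := hind _ hrel'
  -- the polynomials `H_j`
  have hH : ∀ j ∈ Finset.range p, ∀ i ∈ Finset.range (d + 1), c i j = 0 := by
    intro j hj
    set H : K[X] := ∑ i ∈ Finset.range (d + 1),
      Polynomial.C (⟨c i j, hcK i j⟩ : K) * Polynomial.X ^ i with hHdef
    have hHy : Polynomial.aeval y H = 0 := by
      rw [hHdef, map_sum, ← hzero j hj]
      refine Finset.sum_congr rfl fun i _ => ?_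
      rw [map_mul, map_pow, Polynomial.aeval_X, Polynomial.aeval_C]
      rfl
    have hHdeg : H.natDegree ≤ d := by
      rw [hHdef]
      refine Polynomial.natDegree_sum_le_of_forall_le _ _ fun i hi => ?_
      refine (Polynomial.natDegree_C_mul_X_pow_le _ _).trans ?_
      exact Nat.lt_succ_iff.1 (Finset.mem_range.1 hi)
    have hH0 : H = 0 := by
      by_contra hne
      have hle := Polynomial.natDegree_le_of_dvd (minpoly.dvd K y hHy) hne
      rw [hdeg] at hle
      have : d * p ≤ d := hle.trans hHdeg
      have h2 : d * 2 ≤ d * p := Nat.mul_le_mul_left d hp.two_le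
      omega
    intro i hi
    have hcoeff : H.coeff i = (⟨c i j, hcK i j⟩ : K) := by
      rw [hHdef, Polynomial.finsetSum_coeff]
      rw [Finset.sum_eq_single i]
      · rw [Polynomial.coeff_C_mul_X_pow, if_pos rfl]
      · intro i' _ hi'
        rw [Polynomial.coeff_C_mul_X_pow, if_neg (Ne.symm hi')]
      · intro h
        exact absurd hi h
    rw [hH0, Polynomial.coeff_zero] at hcoeff
    exact (congrArg Subtype.val hcoeff).symm
  -- hence `G = 0`
  apply hG0
  refine Polynomial.ext fun i => ?_
  rw [Polynomial.coeff_zero]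
  by_cases hi : i ∈ Finset.range (d + 1)
  · apply Subtype.ext
    rw [hcsum i]
    change _ = (0 : L)
    refine Finset.sum_eq_zero fun j hj => ?_
    rw [hH j hj i hi, zero_pow hp.ne_zero, zero_mul]
  · rw [Finset.mem_range, not_lt] at hi
    have hlt : G.natDegree < i := by
      rw [← hd]
      omega
    exact Polynomial.coeff_eq_zero_of_natDegree_lt hlt

end MacLane

/-! ### The span condition for a simple extension of a perfect field -/

section Span

variable {k L : Type*} [Field k] [Field L] [Algebra k L]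

/-- `a` is a combination of `1, μ, …, μ^(p-1)` with `p`-th powers of elements of `K` as
coefficients. -/
def IsComb (p : ℕ) (K : IntermediateField k L) (μ a : L) : Prop :=
  ∃ c : ℕ → L, (∀ j, c j ∈ K) ∧ a = ∑ j ∈ Finset.range p, c j ^ p * μ ^ j

variable (p : ℕ) [Fact p.Prime] [CharP L p] (K : IntermediateField k L) (μ : L)

theorem isComb_zero : IsComb p K μ 0 :=
  ⟨fun _ => 0, fun _ => K.zero_mem, by
    have hp : p.Prime := Fact.out
    simp [zero_pow hp.ne_zero]⟩

theorem isComb_add {a b : L} (ha : IsComb p K μ a) (hb : IsComb p K μ b) :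
    IsComb p K μ (a + b) := by
  obtain ⟨c, hc, rfl⟩ := ha
  obtain ⟨d, hd, rfl⟩ := hb
  refine ⟨fun j => c j + d j, fun j => K.add_mem (hc j) (hd j), ?_⟩
  rw [← Finset.sum_add_distrib]
  refine Finset.sum_congr rfl fun j _ => ?_
  rw [add_pow_char, add_mul]

theorem isComb_sum {ι : Type*} (s : Finset ι) (f : ι → L) (h : ∀ i ∈ s, IsComb p K μ (f i)) :
    IsComb p K μ (∑ i ∈ s, f i) := by
  classical
  induction s using Finset.induction_on with
  | empty => simpa using isComb_zero p K μ
  | insert i s hi ih =>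
    rw [Finset.sum_insert hi]
    exact isComb_add p K μ (h i (Finset.mem_insert_self i s))
      (ih fun j hj => h j (Finset.mem_insert_of_mem hj))

theorem isComb_pow_mul {e a : L} (he : e ∈ K) (ha : IsComb p K μ a) :
    IsComb p K μ (e ^ p * a) := by
  obtain ⟨c, hc, rfl⟩ := ha
  refine ⟨fun j => e * c j, fun j => K.mul_mem he (hc j), ?_⟩
  rw [Finset.mul_sum]
  refine Finset.sum_congr rfl fun j _ => ?_
  rw [mul_pow, mul_assoc]

theorem isComb_pow {e : L} (he : e ∈ K) : IsComb p K μ (e ^ p) := by
  have hp : p.Prime := Fact.out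
  refine ⟨fun j => if j = 0 then e else 0, fun j => ?_, ?_⟩
  · by_cases hj : j = 0
    · simp only [hj, if_true]; exact he
    · simp only [hj, if_false]; exact K.zero_mem
  · rw [Finset.sum_eq_single 0]
    · simp
    · intro j _ hj
      simp [hj, zero_pow hp.ne_zero]
    · intro h
      exact absurd (Finset.mem_range.2 hp.pos) h

theorem isComb_mul_gen (hμ : μ ∈ K) {a : L} (ha : IsComb p K μ a) :
    IsComb p K μ (a * μ) := by
  have hp : p.Prime := Fact.out
  obtain ⟨c, hc, rfl⟩ := ha
  obtain ⟨n, hn⟩ : ∃ n, p = n + 1 := ⟨p - 1, by have := hp.pos; omega⟩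
  refine ⟨fun j => if j = 0 then c n * μ else c (j - 1), fun j => ?_, ?_⟩
  · by_cases hj : j = 0
    · simp only [hj, if_true]; exact K.mul_mem (hc n) hμ
    · simp only [hj, if_false]; exact hc _
  · rw [Finset.sum_mul]
    conv_lhs => rw [hn, Finset.sum_range_succ]
    conv_rhs => rw [hn, Finset.sum_range_succ']
    simp only [if_true, Nat.add_sub_cancel, Nat.succ_ne_zero, if_false, pow_zero, mul_one]
    congr 1
    · refine Finset.sum_congr rfl fun j _ => ?_
      rw [← hn, pow_succ, mul_assoc]
    · rw [← hn, mul_pow, mul_assoc, ← pow_succ, ← hn]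

theorem isComb_mul_gen_pow (hμ : μ ∈ K) {a : L} (ha : IsComb p K μ a) (j : ℕ) :
    IsComb p K μ (a * μ ^ j) := by
  induction j with
  | zero => simpa using ha
  | succ j ih =>
    rw [pow_succ, ← mul_assoc]
    exact isComb_mul_gen p K μ hμ ih

theorem isComb_mul (hμ : μ ∈ K) {a b : L} (ha : IsComb p K μ a) (hb : IsComb p K μ b) :
    IsComb p K μ (a * b) := by
  obtain ⟨d, hd, rfl⟩ := hb
  rw [Finset.mul_sum]
  refine isComb_sum p K μ _ _ fun j _ => ?_
  have h := isComb_pow_mul p K μ (hd j) (isComb_mul_gen_pow p K μ hμ ha j)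
  have e : a * (d j ^ p * μ ^ j) = d j ^ p * (a * μ ^ j) := by ring
  rw [e]
  exact h

theorem isComb_one : IsComb p K μ 1 := by
  have h := isComb_pow p K μ K.one_mem
  rwa [one_pow] at h

theorem isComb_npow (hμ : μ ∈ K) {a : L} (ha : IsComb p K μ a) (n : ℕ) :
    IsComb p K μ (a ^ n) := by
  induction n with
  | zero => simpa using isComb_one p K μ
  | succ n ih =>
    rw [pow_succ]
    exact isComb_mul p K μ hμ ih ha

theorem isComb_inv (hμ : μ ∈ K) {a : L} (haK : a ∈ K) (ha : IsComb p K μ a) :
    IsComb p K μ a⁻¹ := by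
  have hp : p.Prime := Fact.out
  by_cases h0 : a = 0
  · rw [h0, inv_zero]
    exact isComb_zero p K μ
  · have h := isComb_pow_mul p K μ (K.inv_mem haK) (isComb_npow p K μ hμ ha (p - 1))
    have e : a⁻¹ ^ p * a ^ (p - 1) = a⁻¹ := by
      obtain ⟨n, hn⟩ : ∃ n, p = n + 1 := ⟨p - 1, by have := hp.pos; omega⟩
      rw [hn, Nat.add_sub_cancel, pow_succ, inv_pow, mul_comm ((a ^ n)⁻¹) a⁻¹, mul_assoc,
        inv_mul_cancel₀ (pow_ne_zero n h0), mul_one]
    rwa [e] at h

end Span

/-! ### Simple extensions of a perfect field -/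

section Adjoin

variable {k L : Type*} [Field k] [Field L] [Algebra k L]

theorem isComb_of_mem_adjoin (p : ℕ) [Fact p.Prime] [CharP k p] [CharP L p] [PerfectField k]
    (μ : L) {a : L} (ha : a ∈ IntermediateField.adjoin k {μ}) :
    IsComb p (IntermediateField.adjoin k {μ}) μ a := by
  have hp : p.Prime := Fact.out
  have hμ : μ ∈ IntermediateField.adjoin k {μ} :=
    IntermediateField.subset_adjoin k _ (Set.mem_singleton μ)
  induction ha using IntermediateField.adjoin_induction with
  | mem x hx =>
    rw [Set.mem_singleton_iff] at hx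
    subst hx
    have h := isComb_mul_gen p (IntermediateField.adjoin k {x}) x hμ
      (isComb_one p (IntermediateField.adjoin k {x}) x)
    rwa [one_mul] at h
  | algebraMap c =>
    have h := isComb_pow p (IntermediateField.adjoin k {μ}) μ
      ((IntermediateField.adjoin k {μ}).algebraMap_mem ((frobeniusEquiv k p).symm c))
    rwa [← map_pow, frobeniusEquiv_symm_pow_p] at h
  | add x y _ _ hx hy => exact isComb_add p _ μ hx hy
  | inv x hxK hx => exact isComb_inv p _ μ hμ hxK hx
  | mul x y _ _ hx hy => exact isComb_mul p _ μ hμ hx hy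

end Adjoin

/-! ### Laurent series -/

section Laurent

variable {k : Type*} [Field k]

theorem laurent_independent (p : ℕ) [Fact p.Prime] (μ : LaurentSeries k)
    (hμ : ¬ (p : ℤ) ∣ μ.order) (z : ℕ → LaurentSeries k)
    (hz : ∑ j ∈ Finset.range p, z j ^ p * μ ^ j = 0) :
    ∀ j ∈ Finset.range p, z j = 0 := by
  classical
  have hp : p.Prime := Fact.out
  have hμ0 : μ ≠ 0 := by
    rintro rfl
    exact hμ (by rw [HahnSeries.order_zero]; exact dvd_zero _)
  by_contra hcon
  push Not at hcon
  obtain ⟨j₀, hj₀, hj₀'⟩ := hcon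
  have hterm : ∀ j, z j ≠ 0 → z j ^ p * μ ^ j ≠ 0 := fun j hj =>
    mul_ne_zero (pow_ne_zero p hj) (pow_ne_zero j hμ0)
  have hval : ∀ j, z j ≠ 0 → HahnSeries.addVal ℤ k (z j ^ p * μ ^ j) =
      (((p : ℤ) * (z j).order + (j : ℤ) * μ.order : ℤ) : WithTop ℤ) := by
    intro j hj
    rw [HahnSeries.addVal_apply_of_ne (hterm j hj),
      HahnSeries.order_mul (pow_ne_zero p hj) (pow_ne_zero j hμ0), HahnSeries.order_pow,
      HahnSeries.order_pow, nsmul_eq_mul, nsmul_eq_mul]
  have htop : ∀ j, HahnSeries.addVal ℤ k (z j ^ p * μ ^ j) ≠ ⊤ → z j ≠ 0 := by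
    intro j hj h0
    apply hj
    rw [h0, zero_pow hp.ne_zero, zero_mul, AddValuation.map_zero]
  refine sum_ne_zero_of_distinct (HahnSeries.addVal ℤ k) (Finset.range p)
    (fun j => z j ^ p * μ ^ j) ⟨j₀, hj₀, ?_⟩ ?_ hz
  · rw [hval j₀ hj₀']
    exact WithTop.coe_ne_top
  · intro i hi j hj hij hti htj heq
    rw [hval i (htop i hti), hval j (htop j htj), WithTop.coe_eq_coe] at heq
    have h1 : (p : ℤ) ∣ ((j : ℤ) - i) * μ.order :=
      ⟨(z i).order - (z j).order, by linear_combination -heq⟩
    have hpZ : Prime (p : ℤ) := Nat.prime_iff_prime_int.1 hp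
    rcases hpZ.dvd_or_dvd h1 with h2 | h2
    · have hi' := Finset.mem_range.1 hi
      have hj' := Finset.mem_range.1 hj
      have h3 := Int.eq_zero_of_abs_lt_dvd h2 (by
        rw [abs_lt]
        constructor <;> omega)
      apply hij
      omega
    · exact hμ h2

theorem isSeparable_of_not_dvd_order [PerfectField k] (μ y : LaurentSeries k)
    (hμ : ∀ p : ℕ, p.Prime → CharP k p → ¬ (p : ℤ) ∣ μ.order)
    (hy : IsIntegral (IntermediateField.adjoin k {μ}) y) :
    IsSeparable (IntermediateField.adjoin k {μ}) y := by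
  obtain ⟨p, hchar⟩ := CharP.exists k
  rcases CharP.char_is_prime_or_zero k p with hp | hp0
  · haveI : Fact p.Prime := ⟨hp⟩
    haveI : CharP (LaurentSeries k) p :=
      charP_of_injective_algebraMap (algebraMap k (LaurentSeries k)).injective p
    exact isSeparable_of_pBasis p (IntermediateField.adjoin k {μ}) μ
      (fun a ha => isComb_of_mem_adjoin p μ ha)
      (laurent_independent p μ (hμ p hp hchar)) y hy
  · subst hp0
    haveI : CharZero k := CharP.charP_to_charZero k
    haveI : CharZero ↥(IntermediateField.adjoin k {μ}) :=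
      charZero_of_injective_algebraMap (algebraMap k ↥(IntermediateField.adjoin k {μ})).injective
    exact (minpoly.irreducible hy).separable

/-- Every Laurent series that is algebraic over `k(μ)`, `μ` with a simple pole, is separable
over `k(μ)`. -/
theorem isSeparable_of_order_neg_one [PerfectField k] (μ y : LaurentSeries k)
    (hμ : μ.order = -1) (hy : IsIntegral (IntermediateField.adjoin k {μ}) y) :
    IsSeparable (IntermediateField.adjoin k {μ}) y := by
  refine isSeparable_of_not_dvd_order μ y (fun p hp _ h => ?_) hy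
  rw [hμ, dvd_neg] at h
  have := Int.le_of_dvd one_pos h
  have := hp.two_le
  omega

/-- Every Laurent series that is algebraic over `k(μ)`, `μ` with a simple zero, is separable
over `k(μ)`. -/
theorem isSeparable_of_order_one [PerfectField k] (μ y : LaurentSeries k)
    (hμ : μ.order = 1) (hy : IsIntegral (IntermediateField.adjoin k {μ}) y) :
    IsSeparable (IntermediateField.adjoin k {μ}) y := by
  refine isSeparable_of_not_dvd_order μ y (fun p hp _ h => ?_) hy
  rw [hμ] at h
  have := Int.le_of_dvd one_pos h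
  have := hp.two_le
  omega

/-- A field extension of `k(μ)` that is algebraic over `k(μ)` and embeds into `k((t))` over
`k(μ)` is separable, if the order of `μ` is prime to the characteristic. -/
theorem algebra_isSeparable_of_algHom [PerfectField k] (μ : LaurentSeries k)
    (hμ : ∀ p : ℕ, p.Prime → CharP k p → ¬ (p : ℤ) ∣ μ.order)
    {E : Type*} [Field E] [Algebra ↥(IntermediateField.adjoin k {μ}) E]
    [Algebra.IsAlgebraic ↥(IntermediateField.adjoin k {μ}) E]
    (φ : E →ₐ[↥(IntermediateField.adjoin k {μ})] LaurentSeries k) :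
    Algebra.IsSeparable ↥(IntermediateField.adjoin k {μ}) E := by
  refine ⟨fun x => ?_⟩
  have hx : IsIntegral ↥(IntermediateField.adjoin k {μ}) x :=
    (Algebra.IsAlgebraic.isAlgebraic x).isIntegral
  have h := isSeparable_of_not_dvd_order μ (φ x) hμ (hx.map φ)
  unfold IsSeparable at h ⊢
  rwa [minpoly.algHom_eq φ φ.injective] at h

/-- The case of a simple pole. -/
theorem algebra_isSeparable_of_order_neg_one [PerfectField k] (μ : LaurentSeries k)
    (hμ : μ.order = -1)
    {E : Type*} [Field E] [Algebra ↥(IntermediateField.adjoin k {μ}) E]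
    [Algebra.IsAlgebraic ↥(IntermediateField.adjoin k {μ}) E]
    (φ : E →ₐ[↥(IntermediateField.adjoin k {μ})] LaurentSeries k) :
    Algebra.IsSeparable ↥(IntermediateField.adjoin k {μ}) E := by
  refine algebra_isSeparable_of_algHom μ (fun p hp _ h => ?_) φ
  rw [hμ, dvd_neg] at h
  have := Int.le_of_dvd one_pos h
  have := hp.two_le
  omega

/-- An intermediate field of `k((t))` over `k(μ)`, algebraic over `k(μ)`, is separable over
`k(μ)`, if `μ` has a simple pole. -/
theorem intermediateField_isSeparable [PerfectField k] (μ : LaurentSeries k)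
    (hμ : μ.order = -1)
    (F : IntermediateField ↥(IntermediateField.adjoin k {μ}) (LaurentSeries k))
    [Algebra.IsAlgebraic ↥(IntermediateField.adjoin k {μ}) ↥F] :
    Algebra.IsSeparable ↥(IntermediateField.adjoin k {μ}) ↥F :=
  algebra_isSeparable_of_order_neg_one μ hμ F.val

end Laurent

end Fermat.Agent.S18.SepLaurent
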