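/-
S18 moonshot leaf (helper9): THE DISCRIMINANT ARGUMENT.

Pure commutative algebra over Mathlib.  Let `R` be free of finite rank over `P` with basis `b`
and nonzero discriminant, and let `T : R →+* R⟦X⟧` be a "Taylor homomorphism" (a ring
homomorphism with `T x ≡ x mod X`) which maps `P` into `P⟦X⟧` via `TP`.  Then

* `taylor_discr`   : `TP (discr b) = (unit)² * C (discr b)` in `P⟦X⟧`;
* `isUnit_discr_of_taylor` : if `TP` stays injective modulo every maximal ideal of `P`,
  then `discr b` is a unit of `P`;
* `isIntegrallyClosed_of_isUnit_discr` : unit discriminant and `P` integrally closed imply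
  that the domain `R` is integrally closed;
* `isIntegrallyClosed_of_taylor`, `isIntegrallyClosed_of_taylor_of_witness` : the combination.

No iterativity of the underlying higher derivation is used, no completion, no excellence.
-/
import Mathlib

namespace Fermat.Agent.S18.TaylorNormal

open Module

section Semilinear

variable {P R P' R' ι : Type*} [CommRing P] [CommRing R] [Algebra P R]
  [CommRing P'] [CommRing R'] [Algebra P' R'] [Fintype ι] [DecidableEq ι]

/-- The matrix of multiplication by `T x` in a basis `c`, where `T` is a ring homomorphism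
semilinear over `φ` which maps the basis `b` to the basis `c`. -/
theorem leftMulMatrix_map (φ : P →+* P') (T : R →+* R')
    (hT : ∀ a, T (algebraMap P R a) = algebraMap P' R' (φ a))
    (b : Basis ι P R) (c : Basis ι P' R') (hbc : ∀ i, T (b i) = c i) (x : R) :
    Algebra.leftMulMatrix c (T x) = (Algebra.leftMulMatrix b x).map φ := by
  ext i j
  rw [Algebra.leftMulMatrix_eq_repr_mul, Matrix.map_apply, Algebra.leftMulMatrix_eq_repr_mul]
  have h1 : T x * c j = ∑ i, φ (b.repr (x * b j) i) • c i := by
    rw [← hbc j, ← map_mul]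
    conv_lhs => rw [← b.sum_repr (x * b j)]
    rw [map_sum]
    refine Finset.sum_congr rfl fun i _ => ?_
    rw [Algebra.smul_def, map_mul, hT, hbc, ← Algebra.smul_def]
  rw [h1, map_sum, Finsupp.coe_finsetSum, Finset.sum_apply]
  simp [Finsupp.single_apply]

theorem trace_map (φ : P →+* P') (T : R →+* R')
    (hT : ∀ a, T (algebraMap P R a) = algebraMap P' R' (φ a))
    (b : Basis ι P R) (c : Basis ι P' R') (hbc : ∀ i, T (b i) = c i) (x : R) :
    Algebra.trace P' R' (T x) = φ (Algebra.trace P R x) := by
  rw [Algebra.trace_eq_matrix_trace c, Algebra.trace_eq_matrix_trace b,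
    leftMulMatrix_map φ T hT b c hbc]
  simp [Matrix.trace, map_sum]

theorem discr_map (φ : P →+* P') (T : R →+* R')
    (hT : ∀ a, T (algebraMap P R a) = algebraMap P' R' (φ a))
    (b : Basis ι P R) (c : Basis ι P' R') (hbc : ∀ i, T (b i) = c i) :
    Algebra.discr P' c = φ (Algebra.discr P b) := by
  rw [Algebra.discr_def, Algebra.discr_def, RingHom.map_det]
  congr 1
  ext i j
  simp only [Algebra.traceMatrix_apply, Algebra.traceForm_apply, RingHom.mapMatrix_apply,
    Matrix.map_apply]
  rw [← hbc, ← hbc, ← map_mul, trace_map φ T hT b c hbc]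

end Semilinear

section PowerSeriesBasis

variable {P R ι : Type*} [CommRing P] [CommRing R] [Algebra P R] [Fintype ι] [DecidableEq ι]

/-- Coordinates of a power series over `R` with respect to a basis of `R` over `P`,
as a `P⟦X⟧`-linear equivalence. -/
noncomputable def coordEquiv (b : Basis ι P R) :
    PowerSeries R ≃ₗ[PowerSeries P] (ι → PowerSeries P) where
  toFun z := fun j => PowerSeries.mk fun n => b.repr (PowerSeries.coeff n z) j
  invFun w := PowerSeries.mk fun n => ∑ j, PowerSeries.coeff n (w j) • b j
  map_add' := by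
    intro z w; ext j n; simp
  map_smul' := by
    intro p z; ext j n
    have h1 : p • z = PowerSeries.map (algebraMap P R) p * z := by
      rw [Algebra.smul_def]; rfl
    simp only [RingHom.id_apply, Pi.smul_apply, smul_eq_mul, PowerSeries.coeff_mk, h1,
      PowerSeries.coeff_mul, PowerSeries.coeff_map, map_sum, Finsupp.coe_finsetSum,
      Finset.sum_apply]
    refine Finset.sum_congr rfl fun x _ => ?_
    rw [← Algebra.smul_def, map_smul, Finsupp.smul_apply, smul_eq_mul]
  left_inv := by
    intro z; ext n
    simp [b.sum_repr]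
  right_inv := by
    intro w; ext j n
    simp [Finsupp.single_apply]

theorem coordEquiv_apply (b : Basis ι P R) (z : PowerSeries R) (j : ι) (n : ℕ) :
    PowerSeries.coeff n (coordEquiv b z j) = b.repr (PowerSeries.coeff n z) j := by
  simp [coordEquiv]

/-- The basis `C (b j)` of `R⟦X⟧` over `P⟦X⟧`. -/
noncomputable def cbasis (b : Basis ι P R) : Basis ι (PowerSeries P) (PowerSeries R) :=
  Basis.ofEquivFun (coordEquiv b)

theorem cbasis_apply (b : Basis ι P R) (j : ι) : cbasis b j = PowerSeries.C (b j) := by
  rw [cbasis, Basis.coe_ofEquivFun]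
  apply (coordEquiv b).injective
  rw [LinearEquiv.apply_symm_apply]
  ext i n
  rw [coordEquiv_apply, PowerSeries.coeff_C]
  by_cases hn : n = 0
  · subst hn
    by_cases hij : i = j
    · subst hij; simp
    · simp [hij]
  · by_cases hij : i = j
    · subst hij; simp [hn, PowerSeries.coeff_one]
    · simp [hn, hij]

theorem cbasis_repr (b : Basis ι P R) (z : PowerSeries R) (j : ι) (n : ℕ) :
    PowerSeries.coeff n ((cbasis b).repr z j) = b.repr (PowerSeries.coeff n z) j := by
  rw [cbasis, Basis.ofEquivFun_repr_apply, coordEquiv_apply]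

/-- The discriminant of the basis `C (b j)` of `R⟦X⟧` over `P⟦X⟧`. -/
theorem discr_cbasis (b : Basis ι P R) :
    Algebra.discr (PowerSeries P) (cbasis b) = PowerSeries.C (Algebra.discr P b) := by
  refine discr_map PowerSeries.C PowerSeries.C (fun a => ?_) b (cbasis b)
    (fun i => (cbasis_apply b i).symm)
  change _ = PowerSeries.map (algebraMap P R) _
  rw [PowerSeries.map_C]

end PowerSeriesBasis

section Taylor

variable {P R ι : Type*} [CommRing P] [CommRing R] [Algebra P R] [Fintype ι] [DecidableEq ι]

/-- The transition matrix from the basis `C (b j)` to the family `T (b i)`. -/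
noncomputable def tmatrix (b : Basis ι P R) (T : R →+* PowerSeries R) :
    Matrix ι ι (PowerSeries P) :=
  (cbasis b).toMatrix (fun i => T (b i))

theorem constantCoeff_tmatrix (b : Basis ι P R) (T : R →+* PowerSeries R)
    (hT0 : ∀ x, PowerSeries.constantCoeff (T x) = x) :
    (tmatrix b T).map PowerSeries.constantCoeff = 1 := by
  ext i j
  rw [Matrix.map_apply, tmatrix, Basis.toMatrix_apply,
    ← PowerSeries.coeff_zero_eq_constantCoeff_apply, cbasis_repr,
    PowerSeries.coeff_zero_eq_constantCoeff_apply, hT0, Basis.repr_self, Matrix.one_apply,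
    Finsupp.single_apply]
  simp [eq_comm]

theorem isUnit_det_tmatrix (b : Basis ι P R) (T : R →+* PowerSeries R)
    (hT0 : ∀ x, PowerSeries.constantCoeff (T x) = x) : IsUnit (tmatrix b T).det := by
  rw [PowerSeries.isUnit_iff_constantCoeff, RingHom.map_det, RingHom.mapMatrix_apply,
    constantCoeff_tmatrix b T hT0, Matrix.det_one]
  exact isUnit_one

theorem isBasis_taylor (b : Basis ι P R) (T : R →+* PowerSeries R)
    (hT0 : ∀ x, PowerSeries.constantCoeff (T x) = x) :
    LinearIndependent (PowerSeries P) (fun i => T (b i)) ∧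
      Submodule.span (PowerSeries P) (Set.range fun i => T (b i)) = ⊤ := by
  rw [(cbasis b).is_basis_iff_det, Basis.det_apply]
  exact isUnit_det_tmatrix b T hT0

/-- The basis `T (b i)` of `R⟦X⟧` over `P⟦X⟧`. -/
noncomputable def tbasis (b : Basis ι P R) (T : R →+* PowerSeries R)
    (hT0 : ∀ x, PowerSeries.constantCoeff (T x) = x) :
    Basis ι (PowerSeries P) (PowerSeries R) :=
  Basis.mk (isBasis_taylor b T hT0).1 (isBasis_taylor b T hT0).2.ge

theorem tbasis_apply (b : Basis ι P R) (T : R →+* PowerSeries R)
    (hT0 : ∀ x, PowerSeries.constantCoeff (T x) = x) (i : ι) :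
    tbasis b T hT0 i = T (b i) := by
  rw [tbasis, Basis.mk_apply]

theorem discr_tbasis (b : Basis ι P R) (T : R →+* PowerSeries R)
    (hT0 : ∀ x, PowerSeries.constantCoeff (T x) = x) :
    Algebra.discr (PowerSeries P) (tbasis b T hT0) =
      (tmatrix b T).det ^ 2 * PowerSeries.C (Algebra.discr P b) := by
  have h1 : (⇑(tbasis b T hT0) : ι → PowerSeries R) =
      Matrix.vecMul (⇑(cbasis b))
        ((tmatrix b T).map (algebraMap (PowerSeries P) (PowerSeries R))) := by
    rw [tmatrix, Basis.toMatrix_map_vecMul]
    ext1 i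
    exact tbasis_apply b T hT0 i
  rw [h1, Algebra.discr_of_matrix_vecMul, discr_cbasis]

/-- **Key identity**: the Taylor homomorphism multiplies the discriminant by the square of
a unit. -/
theorem taylor_discr (b : Basis ι P R) (T : R →+* PowerSeries R)
    (hT0 : ∀ x, PowerSeries.constantCoeff (T x) = x) (TP : P →+* PowerSeries P)
    (hTP : ∀ a, T (algebraMap P R a) = PowerSeries.map (algebraMap P R) (TP a)) :
    TP (Algebra.discr P b) = (tmatrix b T).det ^ 2 * PowerSeries.C (Algebra.discr P b) := by
  rw [← discr_tbasis b T hT0]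
  exact (discr_map TP T hTP b (tbasis b T hT0) (fun i => (tbasis_apply b T hT0 i).symm)).symm

/-- The Taylor trace formula. -/
theorem taylor_trace (b : Basis ι P R) (T : R →+* PowerSeries R)
    (hT0 : ∀ x, PowerSeries.constantCoeff (T x) = x) (TP : P →+* PowerSeries P)
    (hTP : ∀ a, T (algebraMap P R a) = PowerSeries.map (algebraMap P R) (TP a)) (x : R) :
    Algebra.trace (PowerSeries P) (PowerSeries R) (T x) = TP (Algebra.trace P R x) :=
  trace_map TP T hTP b (tbasis b T hT0) (fun i => (tbasis_apply b T hT0 i).symm) x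

/-- **Discriminant argument**: if the Taylor homomorphism of `P` stays injective modulo every
maximal ideal, a nonzero discriminant is a unit. -/
theorem isUnit_discr_of_taylor (b : Basis ι P R) (hδ : Algebra.discr P b ≠ 0)
    (T : R →+* PowerSeries R) (hT0 : ∀ x, PowerSeries.constantCoeff (T x) = x)
    (TP : P →+* PowerSeries P)
    (hTP : ∀ a, T (algebraMap P R a) = PowerSeries.map (algebraMap P R) (TP a))
    (hinj : ∀ 𝔭 : Ideal P, 𝔭.IsMaximal →
      Function.Injective ((PowerSeries.map (Ideal.Quotient.mk 𝔭)).comp TP)) :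
    IsUnit (Algebra.discr P b) := by
  by_contra hu
  obtain ⟨𝔭, h𝔭, hmem⟩ := exists_max_ideal_of_mem_nonunits (mem_nonunits_iff.mpr hu)
  apply hδ
  apply hinj 𝔭 h𝔭
  rw [map_zero, RingHom.comp_apply, taylor_discr b T hT0 TP hTP, map_mul, PowerSeries.map_C,
    Ideal.Quotient.eq_zero_iff_mem.mpr hmem, map_zero, mul_zero]

end Taylor

section Normal

open scoped nonZeroDivisors

/-- **Unit discriminant ⟹ normal**, abstract form: `K = Frac P`, `L` the localisation of `R`
at the nonzero elements of `P`. Every element of `L` integral over `P` comes from `R`. -/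
theorem exists_algebraMap_eq_of_isIntegral
    {P R K L ι : Type*} [CommRing P] [IsDomain P] [IsIntegrallyClosed P] [CommRing R]
    [Algebra P R] [Field K] [Algebra P K] [IsFractionRing P K]
    [Field L] [Algebra R L] [Algebra K L] [Algebra P L] [IsScalarTower P K L]
    [IsScalarTower P R L] [IsLocalization (Algebra.algebraMapSubmonoid R P⁰) L]
    [Fintype ι] [DecidableEq ι]
    (b : Basis ι P R) (hu : IsUnit (Algebra.discr P b)) (y : L) (hy : IsIntegral P y) :
    ∃ x : R, algebraMap R L x = y := by
  have : Module.Finite P R := Module.Finite.of_basis b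
  have : Module.Free P R := Module.Free.of_basis b
  let bL : Basis ι K L := b.localizationLocalization K P⁰ L
  have : FiniteDimensional K L := Module.Finite.of_basis bL
  have hbL : ∀ i, bL i = algebraMap R L (b i) :=
    fun i => b.localizationLocalization_apply K P⁰ L i
  have htr : ∀ i, ∃ τ : P, algebraMap P K τ = Algebra.trace K L (y * bL i) := by
    intro i
    apply IsIntegrallyClosed.isIntegral_iff.mp
    apply Algebra.isIntegral_trace
    refine hy.mul ?_
    rw [hbL]
    exact (Algebra.IsIntegral.isIntegral (R := P) (b i)).algebraMap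
  choose τ hτ using htr
  have hGu : IsUnit (Algebra.traceMatrix P b) := by
    rw [Matrix.isUnit_iff_isUnit_det]; exact hu
  have hGK : Algebra.traceMatrix K bL = (algebraMap P K).mapMatrix (Algebra.traceMatrix P b) :=
    Algebra.traceMatrix_localizationLocalization P P⁰ L b
  have hGKu : IsUnit ((algebraMap P K).mapMatrix (Algebra.traceMatrix P b)) := hGu.map _
  have h1 : ((algebraMap P K).mapMatrix (Algebra.traceMatrix P b)).mulVec (bL.equivFun y) =
      fun i => algebraMap P K (τ i) := by
    rw [← hGK, Algebra.traceMatrix_of_basis_mulVec]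
    ext i; rw [hτ]
  obtain ⟨d, hd⟩ : ∃ d : ι → P, (Algebra.traceMatrix P b).mulVec d = τ :=
    ⟨(Algebra.traceMatrix P b)⁻¹.mulVec τ, by
      rw [Matrix.mulVec_mulVec, Matrix.mul_nonsing_inv _ ((Matrix.isUnit_iff_isUnit_det _).mp hGu),
        Matrix.one_mulVec]⟩
  have h2 : ((algebraMap P K).mapMatrix (Algebra.traceMatrix P b)).mulVec
      (fun i => algebraMap P K (d i)) = fun i => algebraMap P K (τ i) := by
    ext i
    rw [← hd]
    exact (RingHom.map_mulVec (algebraMap P K) (Algebra.traceMatrix P b) d i).symm
  have h3 : bL.equivFun y = fun i => algebraMap P K (d i) :=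
    Matrix.mulVec_injective_of_isUnit hGKu (h1.trans h2.symm)
  refine ⟨∑ i, d i • b i, ?_⟩
  rw [map_sum]
  conv_rhs => rw [← bL.sum_equivFun y]
  refine Finset.sum_congr rfl fun i _ => ?_
  rw [h3, hbL, Algebra.smul_def, map_mul, ← IsScalarTower.algebraMap_apply,
    IsScalarTower.algebraMap_apply P K L, ← Algebra.smul_def]

/-- **Unit discriminant ⟹ normal.** A domain `R` which is free of finite rank over an
integrally closed domain `P`, with a basis of unit discriminant, is integrally closed. -/
theorem isIntegrallyClosed_of_isUnit_discr {P R ι : Type*} [CommRing P] [IsDomain P]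
    [IsIntegrallyClosed P] [CommRing R] [IsDomain R] [Algebra P R] [Fintype ι] [DecidableEq ι]
    (b : Basis ι P R) (hu : IsUnit (Algebra.discr P b)) : IsIntegrallyClosed R := by
  have : Module.Finite P R := Module.Finite.of_basis b
  have : Module.Free P R := Module.Free.of_basis b
  let _ : Algebra (FractionRing P) (FractionRing R) :=
    FractionRing.liftAlgebra P (FractionRing R)
  have : IsScalarTower P (FractionRing P) (FractionRing R) :=
    FractionRing.isScalarTower_liftAlgebra P (FractionRing R)
  rw [isIntegrallyClosed_iff (FractionRing R)]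
  intro y hy
  exact exists_algebraMap_eq_of_isIntegral (K := FractionRing P) b hu y (isIntegral_trans y hy)

end Normal

section Extras

open scoped nonZeroDivisors

/-- Bridge from separability of the fraction fields to `discr ≠ 0`. -/
theorem discr_ne_zero_of_isSeparable
    {P R K L ι : Type*} [CommRing P] [CommRing R]
    [Algebra P R] [Field K] [Algebra P K] [IsFractionRing P K]
    [Field L] [Algebra R L] [Algebra K L] [Algebra P L] [IsScalarTower P K L]
    [IsScalarTower P R L] [IsLocalization (Algebra.algebraMapSubmonoid R P⁰) L]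
    [Algebra.IsSeparable K L] [Fintype ι] [DecidableEq ι]
    (b : Basis ι P R) : Algebra.discr P b ≠ 0 := by
  intro h0
  have : Module.Finite K L := Module.Finite.of_basis (b.localizationLocalization K P⁰ L)
  apply Algebra.discr_not_zero_of_basis K (b.localizationLocalization K P⁰ L)
  rw [Algebra.discr_def, Algebra.traceMatrix_localizationLocalization P P⁰ L b,
    ← RingHom.map_det, ← Algebra.discr_def, h0, map_zero]

/-- In a domain of dimension `≤ 1`, the Taylor homomorphism modulo a maximal ideal `𝔭` is
injective as soon as some element of `𝔭` has a Taylor coefficient outside `𝔭`. -/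
theorem injective_map_comp_of_dimensionLEOne {P : Type*} [CommRing P] [IsDomain P]
    [Ring.DimensionLEOne P] (TP : P →+* PowerSeries P)
    (hTP0 : ∀ a, PowerSeries.constantCoeff (TP a) = a)
    (𝔭 : Ideal P) (h𝔭 : 𝔭.IsMaximal) (a : P) (ha : a ∈ 𝔭) (n : ℕ)
    (hn : PowerSeries.coeff n (TP a) ∉ 𝔭) :
    Function.Injective ((PowerSeries.map (Ideal.Quotient.mk 𝔭)).comp TP) := by
  rw [RingHom.injective_iff_ker_eq_bot]
  by_contra hne
  let _ : Field (P ⧸ 𝔭) := Ideal.Quotient.field 𝔭
  have hprime : (RingHom.ker ((PowerSeries.map (Ideal.Quotient.mk 𝔭)).comp TP)).IsPrime :=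
    RingHom.ker_isPrime _
  have hle : RingHom.ker ((PowerSeries.map (Ideal.Quotient.mk 𝔭)).comp TP) ≤ 𝔭 := by
    intro x hx
    have h0 := congrArg PowerSeries.constantCoeff (RingHom.mem_ker.mp hx)
    rw [RingHom.comp_apply, ← PowerSeries.coeff_zero_eq_constantCoeff_apply,
      PowerSeries.coeff_map, PowerSeries.coeff_zero_eq_constantCoeff_apply, hTP0,
      ← PowerSeries.coeff_zero_eq_constantCoeff_apply, map_zero] at h0
    exact Ideal.Quotient.eq_zero_iff_mem.mp h0
  have hmax : (RingHom.ker ((PowerSeries.map (Ideal.Quotient.mk 𝔭)).comp TP)).IsMaximal :=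
    hprime.isMaximal hne
  have heq : RingHom.ker ((PowerSeries.map (Ideal.Quotient.mk 𝔭)).comp TP) = 𝔭 :=
    hmax.eq_of_le h𝔭.ne_top hle
  have hmem : a ∈ RingHom.ker ((PowerSeries.map (Ideal.Quotient.mk 𝔭)).comp TP) := by
    rw [heq]; exact ha
  have h0 := congrArg (PowerSeries.coeff n) (RingHom.mem_ker.mp hmem)
  rw [RingHom.comp_apply, PowerSeries.coeff_map, map_zero] at h0
  exact hn (Ideal.Quotient.eq_zero_iff_mem.mp h0)

end Extras

/-- The constant coefficient of `TP a` is `a`. -/
theorem constantCoeff_TP {P R ι : Type*} [CommRing P] [CommRing R] [Nontrivial R] [Algebra P R]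
    (b : Basis ι P R)
    (T : R →+* PowerSeries R) (hT0 : ∀ x, PowerSeries.constantCoeff (T x) = x)
    (TP : P →+* PowerSeries P)
    (hTP : ∀ a, T (algebraMap P R a) = PowerSeries.map (algebraMap P R) (TP a)) (a : P) :
    PowerSeries.constantCoeff (TP a) = a := by
  have : Module.Free P R := Module.Free.of_basis b
  have hinj : Function.Injective (algebraMap P R) := FaithfulSMul.algebraMap_injective P R
  apply hinj
  have h := hT0 (algebraMap P R a)
  rw [hTP, ← PowerSeries.coeff_zero_eq_constantCoeff_apply, PowerSeries.coeff_map,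
    PowerSeries.coeff_zero_eq_constantCoeff_apply] at h
  exact h

section Main

variable {P R ι : Type*} [CommRing P] [IsDomain P] [IsIntegrallyClosed P] [CommRing R]
  [IsDomain R] [Algebra P R] [Fintype ι] [DecidableEq ι]

/-- **Taylor homomorphism ⟹ normal.** -/
theorem isIntegrallyClosed_of_taylor (b : Basis ι P R) (hδ : Algebra.discr P b ≠ 0)
    (T : R →+* PowerSeries R) (hT0 : ∀ x, PowerSeries.constantCoeff (T x) = x)
    (TP : P →+* PowerSeries P)
    (hTP : ∀ a, T (algebraMap P R a) = PowerSeries.map (algebraMap P R) (TP a))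
    (hinj : ∀ 𝔭 : Ideal P, 𝔭.IsMaximal →
      Function.Injective ((PowerSeries.map (Ideal.Quotient.mk 𝔭)).comp TP)) :
    IsIntegrallyClosed R :=
  isIntegrallyClosed_of_isUnit_discr b (isUnit_discr_of_taylor b hδ T hT0 TP hTP hinj)

/-- **Taylor homomorphism ⟹ normal**, over a base of dimension `≤ 1` (e.g. a principal ideal
domain), with the injectivity hypothesis replaced by a witness at each maximal ideal. -/
theorem isIntegrallyClosed_of_taylor_of_witness [Ring.DimensionLEOne P]
    (b : Basis ι P R) (hδ : Algebra.discr P b ≠ 0)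
    (T : R →+* PowerSeries R) (hT0 : ∀ x, PowerSeries.constantCoeff (T x) = x)
    (TP : P →+* PowerSeries P)
    (hTP : ∀ a, T (algebraMap P R a) = PowerSeries.map (algebraMap P R) (TP a))
    (hwit : ∀ 𝔭 : Ideal P, 𝔭.IsMaximal → ∃ a ∈ 𝔭, ∃ n, PowerSeries.coeff n (TP a) ∉ 𝔭) :
    IsIntegrallyClosed R := by
  refine isIntegrallyClosed_of_taylor b hδ T hT0 TP hTP fun 𝔭 h𝔭 => ?_
  obtain ⟨a, ha, n, hn⟩ := hwit 𝔭 h𝔭
  exact injective_map_comp_of_dimensionLEOne TP (constantCoeff_TP b T hT0 TP hTP) 𝔭 h𝔭 a ha n hn

end Main

end Fermat.Agent.S18.TaylorNormal
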