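import Mathlib
import Fermat.Agent.S18.TaylorNormal
import Fermat.Agent.S18.SepLaurent

/-!
# S18 (moonshot), leaf [E]: normality of a chart ring (abstract Taylor assembly)

Let `k` be an algebraically closed field, `μ ∈ k((q))` of order `-1`, and let
`T : k((q)) →+* k((q))⟦X⟧` be a Taylor homomorphism with respect to `μ`
(`T f = f mod X`, `T μ = μ + X`, `T c = c` for constants).  Let `R` be a `k`-subalgebra of
`k((q))` such that

* `μ ∈ R` and `1 / g(μ) ∈ R` for a polynomial `g`,
* `R` is integral over `P = k[μ, 1 / g(μ)]` (`base μ g`),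
* `R` is stable under all Taylor coefficients `f ↦ coeff n (T f)`,
* `R` spans a finite dimensional `k(μ)`-space.

Then `R` is integrally closed (`isIntegrallyClosed_chart`), and every quotient of elements of
`R` which is integral over a subalgebra of `R` lies in `R` (`mem_chart_of_isIntegral`).

Proof: `P` is a principal ideal domain (a quotient of a localisation of `k[X]`), `R` is a finite
free `P`-module (finiteness of the integral closure in the finite separable extension
`Frac R / k(μ)`; separability is `SepLaurent`), its discriminant is nonzero, `T` restricts to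
`R` and to `P`, every maximal ideal of `P` contains some `μ - c` (Nullstellensatz) whose Taylor
series `μ - c + X` has the unit coefficient `1`; so `TaylorNormal` applies.

The abstract form `isIntegrallyClosed_of_stable` works in any field `Ω` in place of `k((q))`,
given finiteness and separability of `Frac R` over `k(μ)`.
-/

set_option autoImplicit false
set_option linter.unusedSectionVars false
set_option linter.style.haveILetI false

open Polynomial

noncomputable section

namespace Fermat.Agent.S18.ChartNormal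

/-! ### Localisations of principal ideal rings -/

theorem isPrincipalIdealRing_of_isLocalization {A B : Type*} [CommRing A] [CommRing B]
    [Algebra A B] (M : Submonoid A) [IsLocalization M B] [IsPrincipalIdealRing A] :
    IsPrincipalIdealRing B :=
  ⟨fun I => by
    have h := IsLocalization.map_under M B I
    obtain ⟨a, ha⟩ := (IsPrincipalIdealRing.principal (Ideal.under A I)).principal
    refine ⟨⟨algebraMap A B a, ?_⟩⟩
    rw [← h, ha, Ideal.submodule_span_eq, Ideal.map_span, Set.image_singleton]⟩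

section Base

variable {k Ω : Type*} [Field k] [Field Ω] [Algebra k Ω]

/-- The base ring `k[μ, 1 / g(μ)]`. -/
def base (μ : Ω) (g : k[X]) : Subalgebra k Ω :=
  Algebra.adjoin k {μ, (Polynomial.aeval μ g)⁻¹}

theorem mu_mem_base (μ : Ω) (g : k[X]) : μ ∈ base μ g :=
  Algebra.subset_adjoin (by simp)

theorem inv_mem_base (μ : Ω) (g : k[X]) : (Polynomial.aeval μ g)⁻¹ ∈ base μ g :=
  Algebra.subset_adjoin (by simp)

theorem aeval_mem_base (μ : Ω) (g : k[X]) (p : k[X]) : Polynomial.aeval μ p ∈ base μ g := by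
  rw [← Polynomial.aeval_subalgebra_coe p (base μ g) ⟨μ, mu_mem_base μ g⟩]
  exact SetLike.coe_mem _

theorem base_le {μ : Ω} {g : k[X]} {R : Subalgebra k Ω} (hμ : μ ∈ R)
    (hg : (Polynomial.aeval μ g)⁻¹ ∈ R) : base μ g ≤ R := by
  apply Algebra.adjoin_le
  intro x hx
  simp only [Set.mem_insert_iff, Set.mem_singleton_iff] at hx
  rcases hx with rfl | rfl
  · exact hμ
  · exact hg

theorem base_le_range {A : Type*} [CommRing A] [Algebra k A] (μ : Ω) (g : k[X])
    (ψ : A →ₐ[k] Ω) (h1 : μ ∈ ψ.range) (h2 : (Polynomial.aeval μ g)⁻¹ ∈ ψ.range) :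
    base μ g ≤ ψ.range := by
  apply Algebra.adjoin_le
  intro x hx
  simp only [Set.mem_insert_iff, Set.mem_singleton_iff] at hx
  rcases hx with rfl | rfl
  · exact h1
  · exact h2

theorem isPrincipalIdealRing_of_surjective_base {A : Type*} [CommRing A] [Algebra k A]
    [IsPrincipalIdealRing A] (μ : Ω) (g : k[X])
    (ψ : A →ₐ[k] Ω) (h0 : ∀ a, ψ a ∈ base μ g) (h1 : μ ∈ ψ.range)
    (h2 : (Polynomial.aeval μ g)⁻¹ ∈ ψ.range) : IsPrincipalIdealRing (base μ g) := by
  let f : A →ₐ[k] base μ g := ψ.codRestrict (base μ g) h0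
  refine IsPrincipalIdealRing.of_surjective (f : A →+* base μ g) ?_
  rintro ⟨x, hx⟩
  obtain ⟨a, ha⟩ := base_le_range μ g ψ h1 h2 hx
  exact ⟨a, Subtype.ext ha⟩

instance isPrincipalIdealRing_base (μ : Ω) (g : k[X]) : IsPrincipalIdealRing (base μ g) := by
  classical
  by_cases h0 : Polynomial.aeval μ g = 0
  · refine isPrincipalIdealRing_of_surjective_base μ g (Polynomial.aeval μ : k[X] →ₐ[k] Ω)
      (aeval_mem_base μ g) ⟨X, by simp⟩ ⟨0, by simp [h0]⟩
  · haveI : IsPrincipalIdealRing (Localization.Away g) :=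
      isPrincipalIdealRing_of_isLocalization (Submonoid.powers g)
    have hu : ∀ y : Submonoid.powers g, IsUnit ((Polynomial.aeval μ : k[X] →ₐ[k] Ω) y) := by
      rintro ⟨y, n, rfl⟩
      rw [map_pow]
      exact (isUnit_iff_ne_zero.mpr h0).pow n
    let ψ : Localization.Away g →ₐ[k] Ω := IsLocalization.liftAlgHom (M := Submonoid.powers g) hu
    have hψ : ∀ p : k[X], ψ (algebraMap k[X] (Localization.Away g) p) = Polynomial.aeval μ p := by
      intro p
      exact IsLocalization.lift_eq _ p
    refine isPrincipalIdealRing_of_surjective_base μ g ψ ?_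
      ⟨algebraMap k[X] (Localization.Away g) X, ?_⟩
      ⟨IsLocalization.Away.invSelf g, ?_⟩
    · intro x
      obtain ⟨⟨a, ⟨s, n, rfl⟩⟩, hx⟩ := IsLocalization.surj (Submonoid.powers g) x
      have h := congrArg ψ hx
      rw [map_mul, hψ, hψ, map_pow] at h
      have h3 : ψ x = Polynomial.aeval μ a * ((Polynomial.aeval μ g)⁻¹) ^ n := by
        rw [← h, inv_pow, mul_assoc, mul_inv_cancel₀ (pow_ne_zero n h0), mul_one]
      rw [h3]
      exact (base μ g).mul_mem (aeval_mem_base μ g a) ((base μ g).pow_mem (inv_mem_base μ g) n)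
    · change ψ _ = μ
      rw [hψ, Polynomial.aeval_X]
    · change ψ _ = _
      have h := congrArg ψ (IsLocalization.Away.mul_invSelf (S := Localization.Away g) g)
      rw [map_mul, hψ, map_one] at h
      exact (eq_inv_of_mul_eq_one_right h)

instance isDomain_base (μ : Ω) (g : k[X]) : IsDomain (base μ g) := inferInstance

end Base


/-! ### Restriction of a Taylor homomorphism to a stable subalgebra -/

section Taylor

variable {k Ω : Type*} [Field k] [Field Ω] [Algebra k Ω]
variable (T : Ω →+* PowerSeries Ω)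

/-- A subalgebra is stable under the Taylor homomorphism `T` if all Taylor coefficients of its
elements belong to it. -/
def Stable (S : Subalgebra k Ω) : Prop := ∀ x ∈ S, ∀ n, PowerSeries.coeff n (T x) ∈ S

variable {T}

theorem map_val_injective (S : Subalgebra k Ω) :
    Function.Injective (PowerSeries.map (S.val : S →+* Ω)) := by
  intro a b hab
  ext n
  have h := congrArg (PowerSeries.coeff n) hab
  rw [PowerSeries.coeff_map, PowerSeries.coeff_map] at h
  exact h

/-- The restriction of `T` to a stable subalgebra, as a function. -/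
def restrictFun (S : Subalgebra k Ω) (h : Stable T S) (x : S) : PowerSeries S :=
  PowerSeries.mk fun n => ⟨PowerSeries.coeff n (T x), h x x.2 n⟩

theorem map_restrictFun (S : Subalgebra k Ω) (h : Stable T S) (x : S) :
    PowerSeries.map (S.val : S →+* Ω) (restrictFun S h x) = T x := by
  ext n
  rw [PowerSeries.coeff_map, restrictFun, PowerSeries.coeff_mk]
  rfl

/-- The restriction of `T` to a stable subalgebra. -/
def restrict (S : Subalgebra k Ω) (h : Stable T S) : S →+* PowerSeries S where
  toFun := restrictFun S h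
  map_one' := by
    apply map_val_injective S
    rw [map_restrictFun, map_one]
    simp
  map_mul' x y := by
    apply map_val_injective S
    rw [map_restrictFun, map_mul, map_restrictFun, map_restrictFun]
    simp
  map_zero' := by
    apply map_val_injective S
    rw [map_restrictFun, map_zero]
    simp
  map_add' x y := by
    apply map_val_injective S
    rw [map_restrictFun, map_add, map_restrictFun, map_restrictFun]
    simp

theorem map_restrict (S : Subalgebra k Ω) (h : Stable T S) (x : S) :
    PowerSeries.map (S.val : S →+* Ω) (restrict S h x) = T x :=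
  map_restrictFun S h x

theorem coe_coeff_restrict (S : Subalgebra k Ω) (h : Stable T S) (x : S) (n : ℕ) :
    ((PowerSeries.coeff n (restrict S h x) : S) : Ω) = PowerSeries.coeff n (T x) := by
  rw [← map_restrict S h x, PowerSeries.coeff_map]
  rfl

theorem constantCoeff_restrict (hT0 : ∀ f, PowerSeries.constantCoeff (T f) = f)
    (S : Subalgebra k Ω) (h : Stable T S) (x : S) :
    PowerSeries.constantCoeff (restrict S h x) = x := by
  apply Subtype.ext
  rw [← PowerSeries.coeff_zero_eq_constantCoeff_apply, coe_coeff_restrict,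
    PowerSeries.coeff_zero_eq_constantCoeff_apply, hT0]

/-- Compatibility of the restrictions to two stable subalgebras `S₁ ≤ S₂`. -/
theorem restrict_inclusion {S₁ S₂ : Subalgebra k Ω} (h₁ : Stable T S₁) (h₂ : Stable T S₂)
    (h12 : S₁ ≤ S₂) (a : S₁) :
    restrict S₂ h₂ (Subalgebra.inclusion h12 a) =
      PowerSeries.map (Subalgebra.inclusion h12 : S₁ →+* S₂) (restrict S₁ h₁ a) := by
  apply map_val_injective S₂
  rw [map_restrict]
  ext n
  rw [PowerSeries.coeff_map, PowerSeries.coeff_map]
  change PowerSeries.coeff n (T a) = ((PowerSeries.coeff n (restrict S₁ h₁ a) : S₁) : Ω)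
  rw [coe_coeff_restrict]

/-- The elements all of whose Taylor coefficients lie in `S`. -/
def stabSub (hTC : ∀ c : k, T (algebraMap k Ω c) = PowerSeries.C (algebraMap k Ω c))
    (S : Subalgebra k Ω) : Subalgebra k Ω where
  carrier := {x | ∀ n, PowerSeries.coeff n (T x) ∈ S}
  mul_mem' := by
    intro x y hx hy n
    rw [map_mul, PowerSeries.coeff_mul]
    exact S.sum_mem fun i _ => S.mul_mem (hx _) (hy _)
  add_mem' := by
    intro x y hx hy n
    rw [map_add, map_add]
    exact S.add_mem (hx n) (hy n)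
  algebraMap_mem' := by
    intro c n
    rw [hTC, PowerSeries.coeff_C]
    split_ifs
    · exact S.algebraMap_mem c
    · exact S.zero_mem

theorem mem_stabSub (hTC : ∀ c : k, T (algebraMap k Ω c) = PowerSeries.C (algebraMap k Ω c))
    (S : Subalgebra k Ω) (x : Ω) :
    x ∈ stabSub hTC S ↔ ∀ n, PowerSeries.coeff n (T x) ∈ S := Iff.rfl

theorem coeff_inv_mem (hT0 : ∀ f, PowerSeries.constantCoeff (T f) = f) (S : Subalgebra k Ω)
    (x : Ω) (hx : ∀ n, PowerSeries.coeff n (T x) ∈ S) (hxinv : x⁻¹ ∈ S) :
    ∀ n, PowerSeries.coeff n (T x⁻¹) ∈ S := by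
  by_cases hx0 : x = 0
  · intro n
    rw [hx0, inv_zero, map_zero, map_zero]
    exact S.zero_mem
  have hmul : T x * T x⁻¹ = 1 := by
    rw [← map_mul, mul_inv_cancel₀ hx0, map_one]
  intro n
  induction n using Nat.strong_induction_on with
  | _ n ih =>
    rcases Nat.eq_zero_or_pos n with rfl | hn
    · rw [PowerSeries.coeff_zero_eq_constantCoeff_apply, hT0]
      exact hxinv
    · have h := congrArg (PowerSeries.coeff n) hmul
      rw [PowerSeries.coeff_mul, Finset.Nat.sum_antidiagonal_eq_sum_range_succ_mk,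
        Finset.sum_range_succ', PowerSeries.coeff_one, if_neg hn.ne'] at h
      simp only [PowerSeries.coeff_zero_eq_constantCoeff_apply, hT0, Nat.sub_zero] at h
      have h2 : PowerSeries.coeff n (T x⁻¹) =
          -(x⁻¹ * ∑ i ∈ Finset.range n,
            PowerSeries.coeff (i + 1) (T x) * PowerSeries.coeff (n - (i + 1)) (T x⁻¹)) := by
        have h3 : x * PowerSeries.coeff n (T x⁻¹) =
            -∑ i ∈ Finset.range n,
              PowerSeries.coeff (i + 1) (T x) * PowerSeries.coeff (n - (i + 1)) (T x⁻¹) := by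
          rw [eq_neg_iff_add_eq_zero, add_comm]
          exact h
        rw [← mul_neg, ← h3, ← mul_assoc, inv_mul_cancel₀ hx0, one_mul]
      rw [h2]
      refine S.neg_mem (S.mul_mem hxinv (S.sum_mem fun i hi => S.mul_mem (hx _) (ih _ ?_)))
      have := Finset.mem_range.mp hi
      omega

/-- The base ring `k[μ, 1 / g(μ)]` is stable under `T`. -/
theorem stable_base (hT0 : ∀ f, PowerSeries.constantCoeff (T f) = f)
    (hTC : ∀ c : k, T (algebraMap k Ω c) = PowerSeries.C (algebraMap k Ω c))
    (μ : Ω) (hTμ : T μ = PowerSeries.C μ + PowerSeries.X) (g : k[X]) :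
    Stable T (base μ g) := by
  have hμ : μ ∈ stabSub hTC (base μ g) := by
    intro n
    rw [hTμ, map_add, PowerSeries.coeff_C, PowerSeries.coeff_X]
    refine (base μ g).add_mem ?_ ?_
    · split_ifs
      · exact mu_mem_base μ g
      · exact (base μ g).zero_mem
    · split_ifs
      · exact (base μ g).one_mem
      · exact (base μ g).zero_mem
  have hg : Polynomial.aeval μ g ∈ stabSub hTC (base μ g) := by
    rw [← Polynomial.aeval_subalgebra_coe g (stabSub hTC (base μ g)) ⟨μ, hμ⟩]
    exact SetLike.coe_mem _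
  have hginv : (Polynomial.aeval μ g)⁻¹ ∈ stabSub hTC (base μ g) :=
    coeff_inv_mem hT0 (base μ g) _ hg (inv_mem_base μ g)
  have hle : base μ g ≤ stabSub hTC (base μ g) := base_le hμ hginv
  exact fun x hx n => hle hx n

end Taylor

/-! ### The maximal ideals of the base ring -/

section Witness

variable {k Ω : Type*} [Field k] [IsAlgClosed k] [Field Ω] [Algebra k Ω]

theorem exists_sub_mem_of_isMaximal (μ : Ω) (g : k[X]) (𝔭 : Ideal (base μ g)) [h𝔭 : 𝔭.IsMaximal] :
    ∃ c : k, (⟨μ, mu_mem_base μ g⟩ : base μ g) - algebraMap k (base μ g) c ∈ 𝔭 := by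
  haveI : Algebra.FiniteType k (base μ g) :=
    (Subalgebra.fg_iff_finiteType _).mp
      (Subalgebra.fg_def.mpr ⟨_, Set.toFinite {μ, (Polynomial.aeval μ g)⁻¹}, rfl⟩)
  haveI : Algebra.FiniteType k (base μ g ⧸ 𝔭) :=
    Algebra.FiniteType.of_surjective (Ideal.Quotient.mkₐ k 𝔭) (Ideal.Quotient.mkₐ_surjective k 𝔭)
  letI : Field (base μ g ⧸ 𝔭) := Ideal.Quotient.field 𝔭
  haveI : Module.Finite k (base μ g ⧸ 𝔭) := finite_of_finite_type_of_isJacobsonRing k _
  haveI : Algebra.IsIntegral k (base μ g ⧸ 𝔭) := Algebra.IsIntegral.of_finite k _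
  obtain ⟨c, hc⟩ := (IsAlgClosed.algebraMap_bijective_of_isIntegral (k := k)
    (K := base μ g ⧸ 𝔭)).2 (Ideal.Quotient.mk 𝔭 (⟨μ, mu_mem_base μ g⟩ : base μ g))
  refine ⟨c, ?_⟩
  rw [← Ideal.Quotient.eq_zero_iff_mem, map_sub, ← hc, sub_eq_zero]
  rfl

end Witness


/-! ### The assembly -/

section Assembly

open scoped nonZeroDivisors IntermediateField

variable {k Ω : Type*} [Field k] [Field Ω] [Algebra k Ω]

/-- The field of fractions of `R`, as an extension of `k(μ)`. -/
abbrev fracField (μ : Ω) (R : Subalgebra k Ω) : IntermediateField k⟮μ⟯ Ω :=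
  IntermediateField.adjoin k⟮μ⟯ (R : Set Ω)

theorem base_le_adjoin (μ : Ω) (g : k[X]) : base μ g ≤ k⟮μ⟯.toSubalgebra := by
  apply Algebra.adjoin_le
  intro x hx
  simp only [Set.mem_insert_iff, Set.mem_singleton_iff] at hx
  have hμ : μ ∈ k⟮μ⟯ := IntermediateField.mem_adjoin_simple_self k μ
  have hp : ∀ p : k[X], Polynomial.aeval μ p ∈ k⟮μ⟯ := by
    intro p
    rw [← Polynomial.aeval_subalgebra_coe p k⟮μ⟯.toSubalgebra ⟨μ, hμ⟩]
    exact SetLike.coe_mem _
  rcases hx with rfl | rfl
  · exact hμ
  · exact k⟮μ⟯.inv_mem (hp g)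

/-- Clearing denominators: every element of `k(μ)` is a quotient of elements of `k[μ]`. -/
theorem exists_mul_mem_base (μ : Ω) (g : k[X]) (c : Ω) (hc : c ∈ k⟮μ⟯) :
    ∃ d ∈ base μ g, d ≠ 0 ∧ d * c ∈ base μ g := by
  obtain ⟨r, s, rfl⟩ := (IntermediateField.mem_adjoin_simple_iff k c).mp hc
  by_cases hs : Polynomial.aeval μ s = 0
  · refine ⟨1, (base μ g).one_mem, one_ne_zero, ?_⟩
    rw [hs, div_zero, mul_zero]
    exact (base μ g).zero_mem
  · refine ⟨Polynomial.aeval μ s, aeval_mem_base μ g s, hs, ?_⟩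
    rw [mul_div_cancel₀ _ hs]
    exact aeval_mem_base μ g r

/-- Clearing denominators in the `k(μ)`-algebra generated by `R`. -/
theorem exists_mul_mem (μ : Ω) (g : k[X]) (R : Subalgebra k Ω) (hPR : base μ g ≤ R)
    (x : Ω) (hx : x ∈ Algebra.adjoin k⟮μ⟯ (R : Set Ω)) :
    ∃ d ∈ base μ g, d ≠ 0 ∧ d * x ∈ R := by
  induction hx using Algebra.adjoin_induction with
  | mem x hx => exact ⟨1, (base μ g).one_mem, one_ne_zero, by rwa [one_mul]⟩
  | algebraMap c =>
    obtain ⟨d, hd, hd0, h⟩ := exists_mul_mem_base μ g (c : Ω) c.2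
    exact ⟨d, hd, hd0, hPR h⟩
  | add x y _ _ hx hy =>
    obtain ⟨d, hd, hd0, h⟩ := hx
    obtain ⟨e, he, he0, h'⟩ := hy
    refine ⟨d * e, (base μ g).mul_mem hd he, mul_ne_zero hd0 he0, ?_⟩
    have : d * e * (x + y) = (d * x) * e + d * (e * y) := by ring
    rw [this]
    exact R.add_mem (R.mul_mem h (hPR he)) (R.mul_mem (hPR hd) h')
  | mul x y _ _ hx hy =>
    obtain ⟨d, hd, hd0, h⟩ := hx
    obtain ⟨e, he, he0, h'⟩ := hy
    refine ⟨d * e, (base μ g).mul_mem hd he, mul_ne_zero hd0 he0, ?_⟩
    have : d * e * (x * y) = (d * x) * (e * y) := by ring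
    rw [this]
    exact R.mul_mem h h'

theorem exists_div_eq (μ : Ω) (g : k[X]) (R : Subalgebra k Ω) (hPR : base μ g ≤ R)
    (z : Ω) (hz : z ∈ fracField μ R) : ∃ x ∈ R, ∃ y ∈ R, z = x / y := by
  obtain ⟨x, hx, y, hy, rfl⟩ := IntermediateField.mem_adjoin_iff_div.mp hz
  obtain ⟨d, hd, hd0, h⟩ := exists_mul_mem μ g R hPR x hx
  obtain ⟨e, he, he0, h'⟩ := exists_mul_mem μ g R hPR y hy
  refine ⟨d * x * e, R.mul_mem h (hPR he), e * y * d, R.mul_mem h' (hPR hd), ?_⟩
  by_cases hy0 : y = 0
  · simp [hy0]
  · field_simp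


variable [IsAlgClosed k]

set_option maxHeartbeats 1000000 in
/-- **Normality of a chart ring** (abstract form): a `k`-subalgebra `R` of a field `Ω`,
integral over `k[μ, 1 / g(μ)]`, stable under a Taylor homomorphism `T` with `T μ = μ + X`, whose
field of fractions is finite and separable over `k(μ)`, is integrally closed. -/
theorem isIntegrallyClosed_of_stable (μ : Ω) (g : k[X])
    (T : Ω →+* PowerSeries Ω) (hT0 : ∀ f, PowerSeries.constantCoeff (T f) = f)
    (hTμ : T μ = PowerSeries.C μ + PowerSeries.X)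
    (hTC : ∀ c : k, T (algebraMap k Ω c) = PowerSeries.C (algebraMap k Ω c))
    (R : Subalgebra k Ω) (hμR : μ ∈ R) (hgR : (Polynomial.aeval μ g)⁻¹ ∈ R)
    (hint : ∀ x ∈ R, IsIntegral (base μ g) x)
    (hstab : Stable T R)
    [hfin : FiniteDimensional k⟮μ⟯ (fracField μ R)]
    [hsep : Algebra.IsSeparable k⟮μ⟯ (fracField μ R)] :
    IsIntegrallyClosed R := by
  classical
  have hPR : base μ g ≤ R := base_le hμR hgR
  -- the algebra structures
  letI algPR : Algebra (base μ g) R := (Subalgebra.inclusion hPR).toRingHom.toAlgebra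
  letI algPK : Algebra (base μ g) k⟮μ⟯ :=
    (RingHom.codRestrict ((base μ g).val : base μ g →+* Ω) k⟮μ⟯
      (fun x => base_le_adjoin μ g x.2)).toAlgebra
  letI algRL : Algebra R (fracField μ R) :=
    (RingHom.codRestrict (R.val : R →+* Ω) (fracField μ R)
      (fun x => IntermediateField.subset_adjoin _ _ x.2)).toAlgebra
  letI algPL : Algebra (base μ g) (fracField μ R) :=
    ((algebraMap R (fracField μ R)).comp (algebraMap (base μ g) R)).toAlgebra
  haveI tPKL : IsScalarTower (base μ g) k⟮μ⟯ (fracField μ R) :=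
    IsScalarTower.of_algebraMap_eq (fun x => rfl)
  haveI tPRL : IsScalarTower (base μ g) R (fracField μ R) :=
    IsScalarTower.of_algebraMap_eq (fun x => rfl)
  haveI tPRΩ : IsScalarTower (base μ g) R Ω :=
    IsScalarTower.of_algebraMap_eq (fun x => rfl)
  have injPR : Function.Injective (algebraMap (base μ g) R) := Subalgebra.inclusion_injective hPR
  have injPK : Function.Injective (algebraMap (base μ g) k⟮μ⟯) := fun x y h =>
    Subtype.ext (show (x : Ω) = y from congrArg (fun t : k⟮μ⟯ => (t : Ω)) h)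
  have injRL : Function.Injective (algebraMap R (fracField μ R)) := fun x y h =>
    Subtype.ext (show (x : Ω) = y from congrArg (fun t : fracField μ R => (t : Ω)) h)
  haveI fPR : FaithfulSMul (base μ g) R := (faithfulSMul_iff_algebraMap_injective _ _).mpr injPR
  haveI fPK : FaithfulSMul (base μ g) k⟮μ⟯ := (faithfulSMul_iff_algebraMap_injective _ _).mpr injPK
  haveI fRL : FaithfulSMul R (fracField μ R) := (faithfulSMul_iff_algebraMap_injective _ _).mpr injRL
  haveI frPK : IsFractionRing (base μ g) k⟮μ⟯ := IsFractionRing.of_field _ _ (fun z => by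
    obtain ⟨r, s, h⟩ := (IntermediateField.mem_adjoin_simple_iff k (z : Ω)).mp z.2
    exact ⟨⟨Polynomial.aeval μ r, aeval_mem_base μ g r⟩, ⟨Polynomial.aeval μ s, aeval_mem_base μ g s⟩,
      Subtype.ext h⟩)
  haveI frRL : IsFractionRing R (fracField μ R) := IsFractionRing.of_field _ _ (fun z => by
    obtain ⟨x, hx, y, hy, h⟩ := exists_div_eq μ g R hPR z z.2
    exact ⟨⟨x, hx⟩, ⟨y, hy⟩, Subtype.ext h⟩)
  haveI intPR : Algebra.IsIntegral (base μ g) R := ⟨fun x =>
    (isIntegral_algHom_iff (IsScalarTower.toAlgHom (base μ g) R Ω) Subtype.val_injective).mp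
      (hint x x.2)⟩
  -- finiteness and freeness
  haveI i1 : IsDomain (base μ g) := inferInstance
  haveI i2 : IsIntegrallyClosed (base μ g) := inferInstance
  haveI i3 : IsNoetherianRing (base μ g) := inferInstance
  haveI i4 : IsScalarTower (base μ g) (integralClosure (base μ g) (fracField μ R))
    (fracField μ R) := IsScalarTower.of_algebraMap_eq (fun x => rfl)
  haveI i5 : IsIntegralClosure (integralClosure (base μ g) (fracField μ R)) (base μ g)
    (fracField μ R) := inferInstance
  haveI noeth : IsNoetherian (base μ g) (integralClosure (base μ g) (fracField μ R)) :=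
    IsIntegralClosure.isNoetherian (base μ g) k⟮μ⟯ (fracField μ R)
      (integralClosure (base μ g) (fracField μ R))
  haveI finPR : Module.Finite (base μ g) R := by
    let f : R →ₗ[base μ g] integralClosure (base μ g) (fracField μ R) :=
      LinearMap.codRestrict (Subalgebra.toSubmodule (integralClosure (base μ g) (fracField μ R)))
        (IsScalarTower.toAlgHom (base μ g) R (fracField μ R)).toLinearMap
        (fun x => (Algebra.IsIntegral.isIntegral x).map
          (IsScalarTower.toAlgHom (base μ g) R (fracField μ R)))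
    refine Module.Finite.of_injective f ?_
    intro x y h
    exact injRL (congrArg Subtype.val h)
  haveI freePR : Module.Free (base μ g) R := inferInstance
  let b := Module.Free.chooseBasis (base μ g) R
  haveI locRL : IsLocalization (Algebra.algebraMapSubmonoid R (base μ g)⁰) (fracField μ R) :=
    inferInstance
  have hδ : Algebra.discr (base μ g) b ≠ 0 :=
    Fermat.Agent.S18.TaylorNormal.discr_ne_zero_of_isSeparable (K := k⟮μ⟯)
      (L := fracField μ R) b
  -- the Taylor homomorphisms
  have hstabP : Stable T (base μ g) := stable_base hT0 hTC μ hTμ g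
  have hTP : ∀ a : base μ g, restrict R hstab (algebraMap (base μ g) R a) =
      PowerSeries.map (algebraMap (base μ g) R) (restrict (base μ g) hstabP a) :=
    fun a => restrict_inclusion hstabP hstab hPR a
  refine Fermat.Agent.S18.TaylorNormal.isIntegrallyClosed_of_taylor_of_witness b hδ
    (restrict R hstab) (constantCoeff_restrict hT0 R hstab) (restrict (base μ g) hstabP) hTP ?_
  intro 𝔭 h𝔭
  obtain ⟨c, hc⟩ := exists_sub_mem_of_isMaximal μ g 𝔭
  refine ⟨_, hc, 1, ?_⟩
  have h1 : PowerSeries.coeff 1 (restrict (base μ g) hstabP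
      ((⟨μ, mu_mem_base μ g⟩ : base μ g) - algebraMap k (base μ g) c)) = 1 := by
    apply Subtype.ext
    rw [coe_coeff_restrict]
    change PowerSeries.coeff 1 (T (μ - algebraMap k Ω c)) = 1
    rw [map_sub, hTμ, hTC, map_sub, map_add, PowerSeries.coeff_C, PowerSeries.coeff_C,
      PowerSeries.coeff_X]
    simp
  rw [h1]
  exact fun h => h𝔭.ne_top ((Ideal.eq_top_iff_one 𝔭).mpr h)

end Assembly


/-! ### Finiteness of the field of fractions -/

section Finite

open scoped IntermediateField

variable {k Ω : Type*} [Field k] [Field Ω] [Algebra k Ω]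

theorem isAlgebraic_of_isIntegral_base (μ : Ω) (g : k[X]) (x : Ω)
    (hx : IsIntegral (base μ g) x) : IsAlgebraic k⟮μ⟯ x := by
  letI algPK : Algebra (base μ g) k⟮μ⟯ :=
    (RingHom.codRestrict ((base μ g).val : base μ g →+* Ω) k⟮μ⟯
      (fun x => base_le_adjoin μ g x.2)).toAlgebra
  haveI : IsScalarTower (base μ g) k⟮μ⟯ Ω := IsScalarTower.of_algebraMap_eq (fun x => rfl)
  exact (hx.tower_top (A := k⟮μ⟯)).isAlgebraic

theorem fracField_toSubmodule (μ : Ω) (g : k[X]) (R : Subalgebra k Ω)
    (hint : ∀ x ∈ R, IsIntegral (base μ g) x) :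
    Subalgebra.toSubmodule (fracField μ R).toSubalgebra =
      Submodule.span k⟮μ⟯ (R : Set Ω) := by
  have h1 : (fracField μ R).toSubalgebra = Algebra.adjoin k⟮μ⟯ (R : Set Ω) :=
    IntermediateField.adjoin_toSubalgebra_of_isAlgebraic
      (fun x hx => isAlgebraic_of_isIntegral_base μ g x (hint x hx))
  rw [h1, Algebra.adjoin_eq_span]
  congr 1
  exact congrArg _ (Submonoid.closure_eq R.toSubmonoid)

theorem finiteDimensional_fracField (μ : Ω) (g : k[X]) (R : Subalgebra k Ω)
    (hint : ∀ x ∈ R, IsIntegral (base μ g) x)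
    (hfin : FiniteDimensional k⟮μ⟯ (Submodule.span k⟮μ⟯ (R : Set Ω))) :
    FiniteDimensional k⟮μ⟯ (fracField μ R) := by
  have h := fracField_toSubmodule μ g R hint
  exact LinearEquiv.finiteDimensional (LinearEquiv.ofEq _ _ h.symm)

/-- Finiteness from a finite spanning set. -/
theorem finiteDimensional_span_of_finset (μ : Ω) (R : Subalgebra k Ω) (s : Finset Ω)
    (hs : ∀ x ∈ R, x ∈ Submodule.span k⟮μ⟯ (s : Set Ω)) :
    FiniteDimensional k⟮μ⟯ (Submodule.span k⟮μ⟯ (R : Set Ω)) := by
  haveI : FiniteDimensional k⟮μ⟯ (Submodule.span k⟮μ⟯ (s : Set Ω)) :=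
    FiniteDimensional.span_finset k⟮μ⟯ s
  exact Submodule.finiteDimensional_of_le (Submodule.span_le.mpr hs)

/-- Restriction of scalars for linear independence over intermediate fields. -/
theorem linearIndependent_of_le {ι : Type*} {K₁ K₂ : IntermediateField k Ω} (h : K₁ ≤ K₂)
    (y : ι → Ω) (hy : LinearIndependent K₂ y) : LinearIndependent K₁ y := by
  rw [linearIndependent_iff'] at hy ⊢
  intro s c hc i hi
  have h1 := hy s (fun i => (⟨(c i : Ω), h (c i).2⟩ : K₂)) hc i hi
  exact Subtype.ext (congrArg (fun t : K₂ => (t : Ω)) h1)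

/-- Finiteness from a bound for the length of linearly independent families. -/
theorem finiteDimensional_span_of_card_le (μ : Ω) (R : Subalgebra k Ω) (d : ℕ)
    (hd : ∀ (n : ℕ) (y : Fin n → Ω), (∀ i, y i ∈ R) → LinearIndependent k⟮μ⟯ y → n ≤ d) :
    FiniteDimensional k⟮μ⟯ (Submodule.span k⟮μ⟯ (R : Set Ω)) := by
  obtain ⟨b, hbR, hspan, hli⟩ := exists_linearIndependent k⟮μ⟯ (R : Set Ω)
  have hfin : b.Finite := by
    by_contra hinf
    obtain ⟨t, htb, htcard⟩ := Set.Infinite.exists_subset_card_eq hinf (d + 1)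
    let e : Fin (d + 1) ≃ (t : Set Ω) := (Fintype.equivFinOfCardEq (by simpa using htcard)).symm
    have h2 : LinearIndependent k⟮μ⟯ (fun i : Fin (d + 1) => ((e i : (t : Set Ω)) : Ω)) :=
      LinearIndependent.comp hli (fun i => Set.inclusion htb (e i))
        ((Set.inclusion_injective htb).comp e.injective)
    have h3 := hd (d + 1) _ (fun i => hbR (htb (e i).2)) h2
    omega
  rw [← hspan]
  exact FiniteDimensional.span_of_finite k⟮μ⟯ hfin

end Finite

/-! ### Elements integral over an integrally closed subalgebra -/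

section Mem

variable {k Ω : Type*} [Field k] [Field Ω] [Algebra k Ω]

theorem mem_of_isIntegral (R : Subalgebra k Ω) [IsIntegrallyClosed R] (y a b : Ω) (ha : a ∈ R)
    (hb : b ∈ R) (hb0 : b ≠ 0) (hy : y * b = a) (hint : IsIntegral R y) : y ∈ R := by
  have hinj : Function.Injective (algebraMap R Ω) := Subtype.val_injective
  haveI : FaithfulSMul R Ω := (faithfulSMul_iff_algebraMap_injective _ _).mpr hinj
  let φ : FractionRing R →ₐ[R] Ω := IsFractionRing.liftAlgHom (g := Algebra.ofId R Ω) hinj
  have hφ : Function.Injective φ := (φ : FractionRing R →+* Ω).injective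
  have hb' : algebraMap R (FractionRing R) ⟨b, hb⟩ ≠ 0 := by
    intro h
    apply hb0
    have := (map_eq_zero_iff _ (IsFractionRing.injective R (FractionRing R))).mp h
    exact congrArg Subtype.val this
  set q : FractionRing R := algebraMap R (FractionRing R) ⟨a, ha⟩ /
    algebraMap R (FractionRing R) ⟨b, hb⟩ with hq
  have hφq : φ q = y := by
    rw [hq, map_div₀, AlgHom.commutes, AlgHom.commutes]
    change a / b = y
    rw [← hy, mul_div_cancel_right₀ _ hb0]
  have hqint : IsIntegral R q := by
    rw [← isIntegral_algHom_iff φ hφ, hφq]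
    exact hint
  obtain ⟨x, hx⟩ := IsIntegrallyClosed.algebraMap_eq_of_integral hqint
  have : y = x := by
    rw [← hφq, ← hx, AlgHom.commutes]
    rfl
  rw [this]
  exact x.2

theorem isIntegral_of_le {R₀ R₁ : Subalgebra k Ω} (h : R₀ ≤ R₁) {y : Ω}
    (hint : IsIntegral R₀ y) : IsIntegral R₁ y := by
  letI : Algebra R₀ R₁ := (Subalgebra.inclusion h).toRingHom.toAlgebra
  haveI : IsScalarTower R₀ R₁ Ω := IsScalarTower.of_algebraMap_eq (fun x => rfl)
  exact hint.tower_top

theorem mem_of_isIntegral_of_le (R : Subalgebra k Ω) [IsIntegrallyClosed R] (R₀ : Subalgebra k Ω)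
    (h₀ : R₀ ≤ R) (y a b : Ω) (ha : a ∈ R) (hb : b ∈ R) (hb0 : b ≠ 0) (hy : y * b = a)
    (hint : IsIntegral R₀ y) : y ∈ R := by
  refine mem_of_isIntegral R y a b ha hb hb0 hy ?_
  letI : Algebra R₀ R := (Subalgebra.inclusion h₀).toRingHom.toAlgebra
  haveI : IsScalarTower R₀ R Ω := IsScalarTower.of_algebraMap_eq (fun x => rfl)
  exact hint.tower_top

end Mem

/-! ### Charts inside a field of Laurent series -/

section Laurent

open scoped IntermediateField

variable {k : Type*} [Field k] [IsAlgClosed k]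

/-- **Normality of a chart ring**: let `μ ∈ k((q))` have order `-1` and let `T` be the Taylor
homomorphism of `k((q))` with respect to `μ`.  A `k`-subalgebra `R` of `k((q))` which contains
`μ` and `1 / g(μ)`, is integral over `k[μ, 1 / g(μ)]`, is stable under all Taylor coefficients
and spans a finite dimensional `k(μ)`-space, is integrally closed. -/
theorem isIntegrallyClosed_chart (μ : LaurentSeries k) (hμ : μ.order = -1)
    (T : LaurentSeries k →+* PowerSeries (LaurentSeries k))
    (hT0 : ∀ f, PowerSeries.constantCoeff (T f) = f)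
    (hTμ : T μ = PowerSeries.C μ + PowerSeries.X)
    (hTC : ∀ c : k, T (HahnSeries.C c) = PowerSeries.C (HahnSeries.C c))
    (R : Subalgebra k (LaurentSeries k)) (hμR : μ ∈ R) (g : k[X])
    (hgR : (Polynomial.aeval μ g)⁻¹ ∈ R)
    (hint : ∀ x ∈ R, IsIntegral (base μ g) x)
    (hstab : ∀ x ∈ R, ∀ n, PowerSeries.coeff n (T x) ∈ R)
    (hfin : FiniteDimensional k⟮μ⟯ (Submodule.span k⟮μ⟯ (R : Set (LaurentSeries k)))) :
    IsIntegrallyClosed R := by
  haveI h1 : FiniteDimensional k⟮μ⟯ (fracField μ R) :=
    finiteDimensional_fracField μ g R hint hfin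
  haveI h2 : Algebra.IsAlgebraic k⟮μ⟯ (fracField μ R) := Algebra.IsAlgebraic.of_finite _ _
  haveI h3 : Algebra.IsSeparable k⟮μ⟯ (fracField μ R) :=
    Fermat.Agent.S18.SepLaurent.intermediateField_isSeparable μ hμ (fracField μ R)
  have hTC' : ∀ c : k, T (algebraMap k (LaurentSeries k) c) =
      PowerSeries.C (algebraMap k (LaurentSeries k) c) := by
    intro c
    rw [LaurentSeries.algebraMap_apply]
    exact hTC c
  exact isIntegrallyClosed_of_stable μ g T hT0 hTμ hTC' R hμR hgR hint hstab

/-- **The chart ring is the integral closure**: in the situation of `isIntegrallyClosed_chart`,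
every quotient `y = a / b` of elements of `R` which is integral over a subalgebra `R₀ ≤ R`
(e.g. `k[j̄]`) lies in `R`. -/
theorem mem_chart_of_isIntegral (μ : LaurentSeries k) (hμ : μ.order = -1)
    (T : LaurentSeries k →+* PowerSeries (LaurentSeries k))
    (hT0 : ∀ f, PowerSeries.constantCoeff (T f) = f)
    (hTμ : T μ = PowerSeries.C μ + PowerSeries.X)
    (hTC : ∀ c : k, T (HahnSeries.C c) = PowerSeries.C (HahnSeries.C c))
    (R : Subalgebra k (LaurentSeries k)) (hμR : μ ∈ R) (g : k[X])
    (hgR : (Polynomial.aeval μ g)⁻¹ ∈ R)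
    (hint : ∀ x ∈ R, IsIntegral (base μ g) x)
    (hstab : ∀ x ∈ R, ∀ n, PowerSeries.coeff n (T x) ∈ R)
    (hfin : FiniteDimensional k⟮μ⟯ (Submodule.span k⟮μ⟯ (R : Set (LaurentSeries k))))
    (R₀ : Subalgebra k (LaurentSeries k)) (h₀ : R₀ ≤ R) (y a b : LaurentSeries k)
    (ha : a ∈ R) (hb : b ∈ R) (hb0 : b ≠ 0) (hy : y * b = a) (hyint : IsIntegral R₀ y) :
    y ∈ R := by
  haveI := isIntegrallyClosed_chart μ hμ T hT0 hTμ hTC R hμR g hgR hint hstab hfin
  exact mem_of_isIntegral_of_le R R₀ h₀ y a b ha hb hb0 hy hyint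

end Laurent

end Fermat.Agent.S18.ChartNormal
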