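import Mathlib
import Fermat.Agent.S18.ChartNormal

/-!
# S18 (moonshot), leaf [E], adapter: normality of a chart ring inside a function field

`ChartNormal` restated for a subring `R` of an intermediate field `Fk` of `k((q)) / k`, with the
hypotheses in the shapes delivered by the other leaves:

* `integralClosure_le` : if `R ∋ μ, 1 / Bm(μ)` contains the constants, is integral over `k[j]`
  (`j = Am(μ) / Bm(μ)`), is stable under the Taylor coefficients with respect to `μ`, has field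
  of fractions `Fk`, and `Fk` is finite over `k(j)`, then `R` contains the integral closure of
  `k[j]` in `Fk`.
* `isIntegrallyClosed_chart'`, `mem_chart_of_isIntegral'` : `ChartNormal` for a coordinate `μ`
  whose order is prime to the characteristic (instead of `-1`).
-/

set_option autoImplicit false
set_option linter.unusedSectionVars false
set_option linter.style.haveILetI false

open Polynomial

noncomputable section

namespace Fermat.Agent.S18.ChartNormalFk

open Fermat.Agent.S18.ChartNormal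
open scoped IntermediateField

/-! ### A coordinate of order prime to the characteristic -/

section Order

variable {k : Type*} [Field k] [IsAlgClosed k]

theorem isIntegrallyClosed_chart' (μ : LaurentSeries k)
    (hμ : ∀ p : ℕ, p.Prime → CharP k p → ¬ (p : ℤ) ∣ μ.order)
    (T : LaurentSeries k →+* PowerSeries (LaurentSeries k))
    (hT0 : ∀ f, PowerSeries.constantCoeff (T f) = f)
    (hTμ : T μ = PowerSeries.C μ + PowerSeries.X)
    (hTC : ∀ c : k, T (HahnSeries.C c) = PowerSeries.C (HahnSeries.C c))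
    (R : Subalgebra k (LaurentSeries k)) (hμR : μ ∈ R) (g : k[X])
    (hgR : (Polynomial.aeval μ g)⁻¹ ∈ R)
    (hint : ∀ x ∈ R, IsIntegral (base μ g) x)
    (hstab : ∀ x ∈ R, ∀ n, PowerSeries.coeff n (T x) ∈ R)
    (hfin : FiniteDimensional k⟮μ⟯ (Submodule.span k⟮μ⟯ (R : Set (LaurentSeries k)))) :
    IsIntegrallyClosed R := by
  haveI h1 : FiniteDimensional k⟮μ⟯ (fracField μ R) :=
    finiteDimensional_fracField μ g R hint hfin
  haveI h2 : Algebra.IsAlgebraic k⟮μ⟯ (fracField μ R) := Algebra.IsAlgebraic.of_finite _ _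
  haveI h3 : Algebra.IsSeparable k⟮μ⟯ (fracField μ R) :=
    Fermat.Agent.S18.SepLaurent.algebra_isSeparable_of_algHom μ hμ (fracField μ R).val
  have hTC' : ∀ c : k, T (algebraMap k (LaurentSeries k) c) =
      PowerSeries.C (algebraMap k (LaurentSeries k) c) := by
    intro c
    rw [LaurentSeries.algebraMap_apply]
    exact hTC c
  exact isIntegrallyClosed_of_stable μ g T hT0 hTμ hTC' R hμR hgR hint hstab

theorem mem_chart_of_isIntegral' (μ : LaurentSeries k)
    (hμ : ∀ p : ℕ, p.Prime → CharP k p → ¬ (p : ℤ) ∣ μ.order)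
    (T : LaurentSeries k →+* PowerSeries (LaurentSeries k))
    (hT0 : ∀ f, PowerSeries.constantCoeff (T f) = f)
    (hTμ : T μ = PowerSeries.C μ + PowerSeries.X)
    (hTC : ∀ c : k, T (HahnSeries.C c) = PowerSeries.C (HahnSeries.C c))
    (R : Subalgebra k (LaurentSeries k)) (hμR : μ ∈ R) (g : k[X])
    (hgR : (Polynomial.aeval μ g)⁻¹ ∈ R)
    (hint : ∀ x ∈ R, IsIntegral (base μ g) x)
    (hstab : ∀ x ∈ R, ∀ n, PowerSeries.coeff n (T x) ∈ R)
    (hfin : FiniteDimensional k⟮μ⟯ (Submodule.span k⟮μ⟯ (R : Set (LaurentSeries k))))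
    (R₀ : Subalgebra k (LaurentSeries k)) (h₀ : R₀ ≤ R) (y a b : LaurentSeries k)
    (ha : a ∈ R) (hb : b ∈ R) (hb0 : b ≠ 0) (hy : y * b = a) (hyint : IsIntegral R₀ y) :
    y ∈ R := by
  haveI := isIntegrallyClosed_chart' μ hμ T hT0 hTμ hTC R hμR g hgR hint hstab hfin
  exact mem_of_isIntegral_of_le R R₀ h₀ y a b ha hb hb0 hy hyint

theorem not_dvd_of_order_neg_one (μ : LaurentSeries k) (hμ : μ.order = -1) :
    ∀ p : ℕ, p.Prime → CharP k p → ¬ (p : ℤ) ∣ μ.order := by
  intro p hp _ hdvd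
  rw [hμ, Int.dvd_neg] at hdvd
  have := Int.natCast_dvd_natCast.mp (show ((p : ℕ) : ℤ) ∣ ((1 : ℕ) : ℤ) by simpa using hdvd)
  exact hp.one_lt.ne' (Nat.dvd_one.mp this)

theorem not_dvd_of_order_one (μ : LaurentSeries k) (hμ : μ.order = 1) :
    ∀ p : ℕ, p.Prime → CharP k p → ¬ (p : ℤ) ∣ μ.order := by
  intro p hp _ hdvd
  rw [hμ] at hdvd
  have := Int.natCast_dvd_natCast.mp (show ((p : ℕ) : ℤ) ∣ ((1 : ℕ) : ℤ) by simpa using hdvd)
  exact hp.one_lt.ne' (Nat.dvd_one.mp this)

end Order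

/-! ### Subrings of an intermediate field -/

section Image

variable {k Ω : Type*} [Field k] [Field Ω] [Algebra k Ω]

/-- The image in `Ω` of a subring of an intermediate field containing the constants. -/
def image (Fk : IntermediateField k Ω) (R : Subring Fk) (hkR : ∀ c : k, algebraMap k Fk c ∈ R) :
    Subalgebra k Ω where
  carrier := {y | ∃ x ∈ R, (x : Ω) = y}
  mul_mem' := by
    rintro _ _ ⟨x, hx, rfl⟩ ⟨y, hy, rfl⟩
    exact ⟨x * y, R.mul_mem hx hy, rfl⟩
  one_mem' := ⟨1, R.one_mem, rfl⟩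
  add_mem' := by
    rintro _ _ ⟨x, hx, rfl⟩ ⟨y, hy, rfl⟩
    exact ⟨x + y, R.add_mem hx hy, rfl⟩
  zero_mem' := ⟨0, R.zero_mem, rfl⟩
  algebraMap_mem' := fun c => ⟨algebraMap k Fk c, hkR c, rfl⟩

theorem mem_image {Fk : IntermediateField k Ω} {R : Subring Fk}
    {hkR : ∀ c : k, algebraMap k Fk c ∈ R} {y : Ω} :
    y ∈ image Fk R hkR ↔ ∃ x ∈ R, (x : Ω) = y := Iff.rfl

theorem coe_mem_image {Fk : IntermediateField k Ω} {R : Subring Fk}
    {hkR : ∀ c : k, algebraMap k Fk c ∈ R} {x : Fk} :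
    (x : Ω) ∈ image Fk R hkR ↔ x ∈ R := by
  constructor
  · rintro ⟨x', hx', h⟩
    rwa [← Subtype.ext h]
  · exact fun h => ⟨x, h, rfl⟩

theorem coe_aeval (Fk : IntermediateField k Ω) (μ : Fk) (p : k[X]) :
    ((Polynomial.aeval μ p : Fk) : Ω) = Polynomial.aeval (μ : Ω) p :=
  (Polynomial.aeval_algHom_apply Fk.val μ p).symm

/-- Integrality over `k[j]` inside `Fk` and inside `Ω`. -/
theorem isIntegral_coe (Fk : IntermediateField k Ω) (j x : Fk)
    (hx : IsIntegral (Algebra.adjoin k {j}) x) :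
    IsIntegral (Algebra.adjoin k {(j : Ω)}) (x : Ω) := by
  have hmap : (Algebra.adjoin k {j}).map Fk.val = Algebra.adjoin k {(j : Ω)} :=
    AlgHom.map_adjoin_singleton Fk.val j
  let φ : Algebra.adjoin k {j} →+* Algebra.adjoin k {(j : Ω)} :=
    { toFun := fun a => ⟨((a : Fk) : Ω), by
        rw [← hmap]
        exact ⟨a, a.2, rfl⟩⟩
      map_one' := rfl
      map_mul' := fun _ _ => rfl
      map_zero' := rfl
      map_add' := fun _ _ => rfl }
  exact IsIntegral.map_of_comp_eq φ (Fk.val : Fk →+* Ω) rfl hx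

/-- The image of `k(j)` (inside `Fk`) in `Ω`. -/
theorem coe_mem_adjoin (Fk : IntermediateField k Ω) (j : Fk) (c : Fk) (hc : c ∈ k⟮j⟯) :
    (c : Ω) ∈ k⟮(j : Ω)⟯ := by
  have h := IntermediateField.adjoin_map k ({j} : Set Fk) Fk.val
  rw [Set.image_singleton] at h
  have h2 : (c : Ω) ∈ (IntermediateField.adjoin k ({j} : Set Fk)).map Fk.val := ⟨c, hc, rfl⟩
  rw [h] at h2
  exact h2

/-- Linear independence over `k(j)` inside `Fk` and inside `Ω`. -/
theorem linearIndependent_of_coe (Fk : IntermediateField k Ω) (j : Fk) {ι : Type*}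
    (x : ι → Fk) (h : LinearIndependent k⟮(j : Ω)⟯ (fun i => (x i : Ω))) :
    LinearIndependent k⟮j⟯ x := by
  rw [linearIndependent_iff'] at h ⊢
  intro s c hc i hi
  have h1 := h s (fun i => (⟨((c i : Fk) : Ω), coe_mem_adjoin Fk j _ (c i).2⟩ : k⟮(j : Ω)⟯)) ?_ i hi
  · apply Subtype.ext
    apply Subtype.ext
    exact congrArg (fun t : k⟮(j : Ω)⟯ => (t : Ω)) h1
  · have h2 : Fk.val (∑ i ∈ s, c i • x i) = 0 := by rw [hc, map_zero]
    rw [map_sum] at h2
    refine (Finset.sum_congr rfl (fun i _ => ?_)).trans h2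
    rw [Algebra.smul_def, Algebra.smul_def, map_mul]
    rfl

end Image


/-! ### The adapter -/

section Adapter

variable {k : Type*} [Field k] [IsAlgClosed k]

/-- **Normality of a chart ring inside a function field.**  Let `Fk ≤ k((q))` be finite over
`k(j)`, `μ ∈ Fk` a coordinate of order prime to the characteristic with `j Bm(μ) = Am(μ)`, and
`R` a subring of `Fk` containing the constants, `μ` and `1 / Bm(μ)`, integral over `k[j]`,
stable under the Taylor coefficients with respect to `μ`, with field of fractions `Fk`.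
Then `R` contains the integral closure of `k[j]` in `Fk`. -/
theorem integralClosure_le' (Fk : IntermediateField k (LaurentSeries k)) (j μ : Fk)
    (hμ : ∀ p : ℕ, p.Prime → CharP k p → ¬ (p : ℤ) ∣ (μ : LaurentSeries k).order)
    (Am Bm : k[X]) (hrel : j * Polynomial.aeval μ Bm = Polynomial.aeval μ Am)
    (hB0 : Polynomial.aeval μ Bm ≠ 0)
    [hfd : FiniteDimensional k⟮j⟯ Fk]
    (T : LaurentSeries k →+* PowerSeries (LaurentSeries k))
    (hT0 : ∀ f, PowerSeries.constantCoeff (T f) = f)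
    (hTμ : T (μ : LaurentSeries k) = PowerSeries.C (μ : LaurentSeries k) + PowerSeries.X)
    (hTC : ∀ c : k, T (HahnSeries.C c) = PowerSeries.C (HahnSeries.C c))
    (R : Subring Fk) (hkR : ∀ c : k, algebraMap k Fk c ∈ R) (hμR : μ ∈ R)
    (hBR : (Polynomial.aeval μ Bm)⁻¹ ∈ R)
    (hint : ∀ x ∈ R, IsIntegral (Algebra.adjoin k {j}) x)
    (hstab : ∀ x ∈ R, ∀ n, ∃ y ∈ R,
      (y : LaurentSeries k) = PowerSeries.coeff n (T (x : LaurentSeries k)))
    (hfrac : ∀ x : Fk, IsIntegral (Algebra.adjoin k {j}) x →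
      ∃ a ∈ R, ∃ b ∈ R, b ≠ 0 ∧ x * b = a) :
    ∀ x : Fk, IsIntegral (Algebra.adjoin k {j}) x → x ∈ R := by
  classical
  set μΩ : LaurentSeries k := (μ : LaurentSeries k) with hμΩ
  set jΩ : LaurentSeries k := (j : LaurentSeries k) with hjΩ
  set R' : Subalgebra k (LaurentSeries k) := image Fk R hkR with hR'
  have hB0' : Polynomial.aeval μΩ Bm ≠ 0 := by
    rw [← coe_aeval]
    exact fun h => hB0 (Subtype.ext h)
  have hμR' : μΩ ∈ R' := ⟨μ, hμR, rfl⟩
  have hgR' : (Polynomial.aeval μΩ Bm)⁻¹ ∈ R' :=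
    ⟨(Polynomial.aeval μ Bm)⁻¹, hBR, by rw [IntermediateField.coe_inv, coe_aeval]⟩
  -- `j = Am(μ) / Bm(μ)`
  have hj : jΩ = Polynomial.aeval μΩ Am * (Polynomial.aeval μΩ Bm)⁻¹ := by
    have h := congrArg (fun t : Fk => (t : LaurentSeries k)) hrel
    simp only [IntermediateField.coe_mul, coe_aeval] at h
    rw [← h, mul_assoc, mul_inv_cancel₀ hB0', mul_one]
  have hjbase : jΩ ∈ base μΩ Bm := by
    rw [hj]
    exact (base μΩ Bm).mul_mem (aeval_mem_base μΩ Bm Am) (inv_mem_base μΩ Bm)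
  have hR₀base : Algebra.adjoin k {jΩ} ≤ base μΩ Bm :=
    Algebra.adjoin_le (by simpa using hjbase)
  have hbaseR : base μΩ Bm ≤ R' := base_le hμR' hgR'
  have hjK : jΩ ∈ k⟮μΩ⟯ := base_le_adjoin μΩ Bm hjbase
  have hKK : k⟮jΩ⟯ ≤ k⟮μΩ⟯ := by
    rw [IntermediateField.adjoin_le_iff]
    intro y hy
    rw [Set.mem_singleton_iff] at hy
    rw [hy]
    exact hjK
  -- the hypotheses of `ChartNormal`
  have hint' : ∀ y ∈ R', IsIntegral (base μΩ Bm) y := by
    rintro _ ⟨x, hx, rfl⟩
    exact isIntegral_of_le hR₀base (isIntegral_coe Fk j x (hint x hx))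
  have hstab' : ∀ y ∈ R', ∀ n, PowerSeries.coeff n (T y) ∈ R' := by
    rintro _ ⟨x, hx, rfl⟩ n
    obtain ⟨y, hy, hyx⟩ := hstab x hx n
    exact ⟨y, hy, hyx⟩
  have hfin' : FiniteDimensional k⟮μΩ⟯
      (Submodule.span k⟮μΩ⟯ (R' : Set (LaurentSeries k))) := by
    refine finiteDimensional_span_of_card_le μΩ R' (Module.finrank k⟮j⟯ Fk) ?_
    intro n y hy hli
    choose x hx hxy using hy
    have h1 : LinearIndependent k⟮jΩ⟯ (fun i => ((x i : Fk) : LaurentSeries k)) := by
      have : (fun i => ((x i : Fk) : LaurentSeries k)) = y := funext hxy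
      rw [this]
      exact linearIndependent_of_le hKK y hli
    have h2 : LinearIndependent k⟮j⟯ x := linearIndependent_of_coe Fk j x h1
    simpa using h2.fintype_card_le_finrank
  intro x hx
  obtain ⟨a, ha, b, hb, hb0, hxab⟩ := hfrac x hx
  have hmem : (x : LaurentSeries k) ∈ R' := by
    refine mem_chart_of_isIntegral' μΩ hμ T hT0 hTμ hTC R' hμR' Bm hgR' hint' hstab' hfin'
      (Algebra.adjoin k {jΩ}) (hR₀base.trans hbaseR) (x : LaurentSeries k) (a : LaurentSeries k)
      (b : LaurentSeries k) ⟨a, ha, rfl⟩ ⟨b, hb, rfl⟩ ?_ ?_ (isIntegral_coe Fk j x hx)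
    · exact fun h => hb0 (Subtype.ext h)
    · rw [← hxab]
      rfl
  exact coe_mem_image.mp hmem

/-- `integralClosure_le'` for a coordinate of order `-1`. -/
theorem integralClosure_le (Fk : IntermediateField k (LaurentSeries k)) (j μ : Fk)
    (hμ : (μ : LaurentSeries k).order = -1)
    (Am Bm : k[X]) (hrel : j * Polynomial.aeval μ Bm = Polynomial.aeval μ Am)
    (hB0 : Polynomial.aeval μ Bm ≠ 0)
    [hfd : FiniteDimensional k⟮j⟯ Fk]
    (T : LaurentSeries k →+* PowerSeries (LaurentSeries k))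
    (hT0 : ∀ f, PowerSeries.constantCoeff (T f) = f)
    (hTμ : T (μ : LaurentSeries k) = PowerSeries.C (μ : LaurentSeries k) + PowerSeries.X)
    (hTC : ∀ c : k, T (HahnSeries.C c) = PowerSeries.C (HahnSeries.C c))
    (R : Subring Fk) (hkR : ∀ c : k, algebraMap k Fk c ∈ R) (hμR : μ ∈ R)
    (hBR : (Polynomial.aeval μ Bm)⁻¹ ∈ R)
    (hint : ∀ x ∈ R, IsIntegral (Algebra.adjoin k {j}) x)
    (hstab : ∀ x ∈ R, ∀ n, ∃ y ∈ R,
      (y : LaurentSeries k) = PowerSeries.coeff n (T (x : LaurentSeries k)))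
    (hfrac : ∀ x : Fk, IsIntegral (Algebra.adjoin k {j}) x →
      ∃ a ∈ R, ∃ b ∈ R, b ≠ 0 ∧ x * b = a) :
    ∀ x : Fk, IsIntegral (Algebra.adjoin k {j}) x → x ∈ R :=
  integralClosure_le' Fk j μ (not_dvd_of_order_neg_one _ hμ) Am Bm hrel hB0 T hT0 hTμ hTC R hkR
    hμR hBR hint hstab hfrac

end Adapter

end Fermat.Agent.S18.ChartNormalFk
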