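import Mathlib
import Fermat.Prelude.Def_ModularCurve_ReductionModL
import Fermat.Agent.S24.Eval
import Fermat.Agent.S24.Degree
import Fermat.Agent.S24.FFBasic
import Fermat.Agent.S24.FFFiber
import Fermat.Agent.S24.FFPrincipal

/-!
# S18, infrastructure (I2): the extension of the reduction to all functions

`A` is a valuation ring of `KK = AlgebraicClosure ℚ`, `π : A →+* k` a ring homomorphism to a field
(for S18: the residue map), `F = modularFunctionFieldBar N`, `Fk = modularFunctionFieldFullC k N`.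

* `IsInt A π N y` : the Laurent series `y` over `A` is an *integral function with nonzero
  reduction*: its image over `KK` lies in `F`, its reduction lies in `Fk` and is nonzero;
* `exists_presentation` : under `PrincipalGeneratedByIntegral`, every nonzero `f ∈ F` is
  `c * Y₁ / Y₂` with a constant `c ≠ 0` and `Y₁, Y₂` integral with nonzero reduction;
* `mapDomain_div_eq` : under `IsPlaceReductionAlong`, the reduction of the divisor of
  `f = c * Y₁ / Y₂` is the divisor of `Ȳ₁ / Ȳ₂`;
* `exists_lift` : if `π` is surjective, every nonzero element of `Fk` is `Ȳ₁ / Ȳ₂`.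
-/

set_option autoImplicit false
set_option linter.style.haveILetI false

noncomputable section

namespace Fermat.Agent.S18.RedExt

open ModularCurve AlgebraicCurve IntermediateField
open Fermat.Agent.S24 Fermat.Agent.S24.Eval

/-! ### Constants of the function field -/

section Constants

variable (N : ℕ) [NeZero N]

/-- A function without zeros is constant. -/
theorem mem_range_of_forall_ord_eq_zero (g : FF N) (h : ∀ P : Place KK (FF N), P.ord g = 0) :
    g ∈ Set.range (algebraMap KK (FF N)) := by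
  by_contra hr
  have ht : Transcendental KK g := transcendental_of_not_mem_range g hr
  haveI := Degree.finiteDimensional_jF N
  haveI : FiniteDimensional KK⟮g⟯ (FF N) :=
    finiteDimensional_adjoin (jF N) (Degree.transcendental_jF N) g ht
  have h1 := finsum_ord_placesOver g ht 0
  have h2 : placesOver (k := KK) g 0 = ∅ := by
    ext v
    simp only [Set.mem_empty_iff_false, mem_placesOver, map_zero, sub_zero, h v,
      lt_self_iff_false]
  rw [h2, finsum_mem_empty] at h1
  have h3 : 0 < Module.finrank KK⟮g⟯ (FF N) := Module.finrank_pos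
  omega

/-- The divisor of a function (S24). -/
def divF (g : FF N) : Divisor KK (FF N) :=
  haveI := Degree.finiteDimensional_jF N
  FFPrincipal.divOf (jF N) (Degree.transcendental_jF N) g

@[simp] theorem divF_apply (g : FF N) (P : Place KK (FF N)) : divF N g P = P.ord g := rfl

theorem divF_mul {f g : FF N} (hf : f ≠ 0) (hg : g ≠ 0) :
    divF N (f * g) = divF N f + divF N g :=
  Finsupp.ext fun P => by rw [Finsupp.add_apply, divF_apply, divF_apply, divF_apply,
    P.ord_mul hf hg]

theorem divF_inv (g : FF N) : divF N g⁻¹ = - divF N g :=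
  Finsupp.ext fun P => by rw [Finsupp.neg_apply, divF_apply, divF_apply, P.ord_inv]

theorem divF_one : divF N (1 : FF N) = 0 :=
  Finsupp.ext fun P => by rw [divF_apply, Place.ord_one, Finsupp.zero_apply]

theorem eq_divF {D : Divisor KK (FF N)} {g : FF N} (h : ∀ P, D P = P.ord g) : D = divF N g :=
  Finsupp.ext fun P => by rw [h P, divF_apply]

end Constants

/-! ### Integral functions with nonzero reduction -/

section Int

variable (A : ValuationSubring KK) {k : Type*} [Field k] (π : A →+* k) (N : ℕ)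

/-- `y` is an integral function with nonzero reduction. -/
def IsInt (y : LaurentSeries A) : Prop :=
  coeffMap A.subtype y ∈ modularFunctionFieldBar N ∧
    coeffMap π y ∈ modularFunctionFieldFullC k N ∧ coeffMap π y ≠ 0

variable {A π N}

theorem coeffMap_subtype_injective : Function.Injective (coeffMap A.subtype) := by
  intro x y h
  ext n
  have h1 := congrArg (fun z : LaurentSeries KK => z.coeff n) h
  simp only [coeffMap_coeff] at h1
  exact h1

theorem IsInt.one : IsInt A π N 1 := by
  refine ⟨?_, ?_, ?_⟩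
  · rw [map_one]; exact one_mem _
  · rw [map_one]; exact one_mem _
  · rw [map_one]; exact one_ne_zero

theorem IsInt.mul {y z : LaurentSeries A} (hy : IsInt A π N y) (hz : IsInt A π N z) :
    IsInt A π N (y * z) := by
  refine ⟨?_, ?_, ?_⟩
  · rw [map_mul]; exact mul_mem hy.1 hz.1
  · rw [map_mul]; exact mul_mem hy.2.1 hz.2.1
  · rw [map_mul]; exact mul_ne_zero hy.2.2 hz.2.2

theorem IsInt.pow {y : LaurentSeries A} (hy : IsInt A π N y) (n : ℕ) : IsInt A π N (y ^ n) := by
  induction n with
  | zero => rw [pow_zero]; exact IsInt.one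
  | succ n ih => rw [pow_succ]; exact ih.mul hy

theorem IsInt.ne_zero {y : LaurentSeries A} (hy : IsInt A π N y) :
    coeffMap A.subtype y ≠ 0 := by
  intro h
  have h0 : y = 0 := coeffMap_subtype_injective (by rw [h, map_zero])
  exact hy.2.2 (by rw [h0, map_zero])

/-- The function over `KK` of an integral series. -/
def IsInt.toF {y : LaurentSeries A} (hy : IsInt A π N y) : FF N := ⟨coeffMap A.subtype y, hy.1⟩

/-- The reduction of an integral series, as an element of the reduced function field. -/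
def IsInt.toFk {y : LaurentSeries A} (hy : IsInt A π N y) : modularFunctionFieldFullC k N :=
  ⟨coeffMap π y, hy.2.1⟩

theorem IsInt.toF_ne_zero {y : LaurentSeries A} (hy : IsInt A π N y) : hy.toF ≠ 0 :=
  fun h => hy.ne_zero (congrArg Subtype.val h)

theorem IsInt.toFk_ne_zero {y : LaurentSeries A} (hy : IsInt A π N y) : hy.toFk ≠ 0 :=
  fun h => hy.2.2 (congrArg Subtype.val h)

theorem IsInt.toF_mul {y z : LaurentSeries A} (hy : IsInt A π N y) (hz : IsInt A π N z) :
    (hy.mul hz).toF = hy.toF * hz.toF :=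
  Subtype.ext (map_mul _ _ _)

theorem IsInt.toFk_mul {y z : LaurentSeries A} (hy : IsInt A π N y) (hz : IsInt A π N z) :
    (hy.mul hz).toFk = hy.toFk * hz.toFk :=
  Subtype.ext (map_mul _ _ _)

theorem IsInt.toF_one : (IsInt.one : IsInt A π N 1).toF = 1 :=
  Subtype.ext (map_one _)

theorem IsInt.toFk_one : (IsInt.one : IsInt A π N 1).toFk = 1 :=
  Subtype.ext (map_one _)

end Int

/-! ### Presentations `f = c * Y₁ / Y₂` -/

section Presentation

variable (A : ValuationSubring KK) {k : Type*} [Field k] (π : A →+* k) (N : ℕ) [NeZero N]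

theorem mem_integralPrincipalDivisors_iff {D : Divisor KK (FF N)} :
    D ∈ integralPrincipalDivisors A π N ↔
      ∃ (y : LaurentSeries A) (hy : IsInt A π N y), D = divF N hy.toF := by
  constructor
  · rintro ⟨y, hy, hyk, hne, hD⟩
    exact ⟨y, ⟨hy, hyk, hne⟩, eq_divF N hD⟩
  · rintro ⟨y, hy, rfl⟩
    exact ⟨y, hy.1, hy.2.1, hy.2.2, fun P => rfl⟩

variable {A π N}

/-- Elements of the closure of the integral principal divisors are differences of divisors of
integral functions. -/
theorem exists_of_mem_closure {D : Divisor KK (FF N)}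
    (hD : D ∈ AddSubgroup.closure (integralPrincipalDivisors A π N)) :
    ∃ (Y₁ Y₂ : LaurentSeries A) (h₁ : IsInt A π N Y₁) (h₂ : IsInt A π N Y₂),
      D = divF N h₁.toF - divF N h₂.toF := by
  induction hD using AddSubgroup.closure_induction with
  | mem E hE =>
    obtain ⟨y, hy, rfl⟩ := (mem_integralPrincipalDivisors_iff A π N).mp hE
    refine ⟨y, 1, hy, IsInt.one, ?_⟩
    rw [IsInt.toF_one, divF_one, sub_zero]
  | zero =>
    refine ⟨1, 1, IsInt.one, IsInt.one, ?_⟩
    rw [sub_self]
  | add E E' _ _ hE hE' =>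
    obtain ⟨Y₁, Y₂, h₁, h₂, rfl⟩ := hE
    obtain ⟨Z₁, Z₂, g₁, g₂, rfl⟩ := hE'
    refine ⟨Y₁ * Z₁, Y₂ * Z₂, h₁.mul g₁, h₂.mul g₂, ?_⟩
    rw [IsInt.toF_mul h₁ g₁, IsInt.toF_mul h₂ g₂, divF_mul N h₁.toF_ne_zero g₁.toF_ne_zero,
      divF_mul N h₂.toF_ne_zero g₂.toF_ne_zero]
    abel
  | neg E _ hE =>
    obtain ⟨Y₁, Y₂, h₁, h₂, rfl⟩ := hE
    refine ⟨Y₂, Y₁, h₂, h₁, ?_⟩
    abel

/-- **Presentation**: every nonzero function is `c * Y₁ / Y₂` with a nonzero constant `c` and
integral functions `Y₁`, `Y₂` with nonzero reductions. -/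
theorem exists_presentation (hgen : PrincipalGeneratedByIntegral A π N) (f : FF N) (hf : f ≠ 0) :
    ∃ (c : KK) (Y₁ Y₂ : LaurentSeries A) (h₁ : IsInt A π N Y₁) (h₂ : IsInt A π N Y₂),
      c ≠ 0 ∧ f * h₂.toF = algebraMap KK (FF N) c * h₁.toF := by
  have hD : divF N f ∈ Divisor.principal (K := KK) (F := FF N) := ⟨f, hf, fun _ => rfl⟩
  obtain ⟨Y₁, Y₂, h₁, h₂, hdiv⟩ := exists_of_mem_closure (hgen hD)
  have h1 := h₁.toF_ne_zero
  have h2 := h₂.toF_ne_zero
  have hg0 : f * h₂.toF * h₁.toF⁻¹ ≠ 0 := mul_ne_zero (mul_ne_zero hf h2) (inv_ne_zero h1)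
  have hord : ∀ P : Place KK (FF N), P.ord (f * h₂.toF * h₁.toF⁻¹) = 0 := by
    intro P
    have h3 := congrArg (fun D : Divisor KK (FF N) => D P) hdiv
    simp only [Finsupp.sub_apply, divF_apply] at h3
    rw [P.ord_mul (mul_ne_zero hf h2) (inv_ne_zero h1), P.ord_mul hf h2, P.ord_inv, h3]
    ring
  obtain ⟨c, hc⟩ := mem_range_of_forall_ord_eq_zero N _ hord
  refine ⟨c, Y₁, Y₂, h₁, h₂, ?_, ?_⟩
  · rintro rfl
    rw [map_zero] at hc
    exact hg0 hc.symm
  · rw [hc, mul_assoc, inv_mul_cancel₀ h1, mul_one]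

end Presentation

/-! ### Reduction of divisors -/

section Divisors

variable {A : ValuationSubring KK} {k : Type*} [Field k] {π : A →+* k} {N : ℕ} [NeZero N]
variable {r : Place KK (FF N) → Place k (modularFunctionFieldFullC k N)}

/-- The reduction of the divisor of an integral function is the divisor of its reduction. -/
theorem mapDomain_divF_int (hr : IsPlaceReductionAlong A π N r) {y : LaurentSeries A}
    (hy : IsInt A π N y) (Q : Place k (modularFunctionFieldFullC k N)) :
    Finsupp.mapDomain r (divF N hy.toF) Q = Q.ord hy.toFk :=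
  hr.2 y hy.1 hy.2.1 hy.2.2 (divF N hy.toF) (fun _ => rfl) Q

/-- The divisor of `f = c * Y₁ / Y₂`. -/
theorem divF_eq_of_presentation {f : FF N} {c : KK} {Y₁ Y₂ : LaurentSeries A}
    (h₁ : IsInt A π N Y₁) (h₂ : IsInt A π N Y₂) (hc : c ≠ 0)
    (hf : f * h₂.toF = algebraMap KK (FF N) c * h₁.toF) :
    divF N f = divF N h₁.toF - divF N h₂.toF := by
  have hc' : algebraMap KK (FF N) c ≠ 0 := by
    rw [ne_eq, map_eq_zero]
    exact hc
  have hf0 : f ≠ 0 := by
    rintro rfl
    rw [zero_mul] at hf
    exact mul_ne_zero hc' h₁.toF_ne_zero hf.symm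
  have h := congrArg (divF N) hf
  rw [divF_mul N hf0 h₂.toF_ne_zero, divF_mul N hc' h₁.toF_ne_zero] at h
  have hconst : divF N (algebraMap KK (FF N) c) = 0 :=
    Finsupp.ext fun P => by
      rw [divF_apply, Finsupp.zero_apply]
      exact ord_algebraMap P c
  rw [hconst, zero_add] at h
  rw [← h]
  abel

/-- **Reduction of principal divisors**: for `f = c * Y₁ / Y₂`, the reduction of the divisor
of `f` is the divisor of `Ȳ₁ / Ȳ₂`. -/
theorem mapDomain_divF (hr : IsPlaceReductionAlong A π N r) {f : FF N} {c : KK}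
    {Y₁ Y₂ : LaurentSeries A} (h₁ : IsInt A π N Y₁) (h₂ : IsInt A π N Y₂) (hc : c ≠ 0)
    (hf : f * h₂.toF = algebraMap KK (FF N) c * h₁.toF)
    (Q : Place k (modularFunctionFieldFullC k N)) :
    Finsupp.mapDomain r (divF N f) Q = Q.ord (h₁.toFk * h₂.toFk⁻¹) := by
  have hneg : ∀ D : Divisor KK (FF N), Finsupp.mapDomain r (-D) = - Finsupp.mapDomain r D :=
    fun D => (Finsupp.mapDomain.addMonoidHom r).map_neg D
  rw [divF_eq_of_presentation h₁ h₂ hc hf, sub_eq_add_neg, Finsupp.mapDomain_add,
    Finsupp.add_apply, hneg, Finsupp.neg_apply, mapDomain_divF_int hr h₁,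
    mapDomain_divF_int hr h₂, Q.ord_mul h₁.toFk_ne_zero (inv_ne_zero h₂.toFk_ne_zero), Q.ord_inv]

end Divisors

/-! ### Lifting -/

section Lift

variable {A : ValuationSubring KK} {k : Type*} [Field k] {π : A →+* k} {N : ℕ} [NeZero N]

theorem coeffMap_C' {R S : Type*} [CommRing R] [CommRing S] (f : R →+* S) (a : R) :
    coeffMap f (HahnSeries.C a : LaurentSeries R) = HahnSeries.C (f a) := by
  change coeffMap f (HahnSeries.single 0 a) = HahnSeries.single 0 (f a)
  rw [coeffMap_single]

theorem algebraMap_eq_C' {K : Type*} [Field K] (c : K) :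
    algebraMap K (LaurentSeries K) c = HahnSeries.C c := by
  rw [ModularCurve.algebraMap_laurentSeries_eq_single]
  rfl

omit [NeZero N] in
theorem isInt_C {a : A} (ha : π a ≠ 0) : IsInt A π N (HahnSeries.C a) := by
  refine ⟨?_, ?_, ?_⟩
  · rw [coeffMap_C', ← algebraMap_eq_C']
    exact (modularFunctionFieldBar N).algebraMap_mem _
  · rw [coeffMap_C', ← algebraMap_eq_C']
    exact (modularFunctionFieldFullC k N).algebraMap_mem _
  · rw [coeffMap_C']
    intro h
    have h1 := congrArg (fun z : LaurentSeries k => z.coeff 0) h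
    simp at h1
    exact ha h1

omit [NeZero N] in
theorem isInt_jqNModC {d : ℕ} [NeZero d] (hd : d ∣ N) : IsInt A π N (jqNModC A d) := by
  refine ⟨?_, ?_, ?_⟩
  · rw [coeffMap_jqNModC]
    have h := jgenL_mem (N := N) hd
    have e : jgenL d = jqNModC KK d := by
      change coeffMap (algebraMap ℚ KK) (jqNModC ℚ d) = jqNModC KK d
      rw [coeffMap_jqNModC]
    rwa [e] at h
  · rw [coeffMap_jqNModC]
    exact jqModCd_mem_full k N hd
  · rw [coeffMap_jqNModC, jqNModC]
    intro h
    have h1 := qExpand_injective (R := k) d (h.trans (map_zero _).symm)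
    exact jqModC_ne_zero_of_nontrivial k h1

omit [NeZero N] in
/-- **Lifting**: every nonzero element of the reduced function field is a quotient of
reductions of integral functions. -/
theorem exists_lift (hπ : Function.Surjective π) (g : modularFunctionFieldFullC k N)
    (hg : g ≠ 0) :
    ∃ (Y₁ Y₂ : LaurentSeries A) (h₁ : IsInt A π N Y₁) (h₂ : IsInt A π N Y₂),
      g * h₂.toFk = h₁.toFk := by
  have key : ∀ z ∈ modularFunctionFieldFullC k N, z = 0 ∨
      ∃ (Y₁ Y₂ : LaurentSeries A) (_ : IsInt A π N Y₁) (_ : IsInt A π N Y₂),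
        z * coeffMap π Y₂ = coeffMap π Y₁ := by
    intro z hz
    unfold modularFunctionFieldFullC at hz
    induction hz using IntermediateField.adjoin_induction with
    | mem z hz =>
      obtain ⟨d, hne, hd, rfl⟩ := hz
      haveI := hne
      refine Or.inr ⟨jqNModC A d, 1, isInt_jqNModC hd, IsInt.one, ?_⟩
      rw [map_one, mul_one, coeffMap_jqNModC]
      rfl
    | algebraMap c =>
      by_cases hc : c = 0
      · left
        rw [hc, map_zero]
      · obtain ⟨a, rfl⟩ := hπ c
        refine Or.inr ⟨HahnSeries.C a, 1, isInt_C hc, IsInt.one, ?_⟩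
        rw [map_one, mul_one, coeffMap_C', algebraMap_eq_C']
    | add x y _ _ hx hy =>
      by_cases hxy : x + y = 0
      · exact Or.inl hxy
      rcases hx with rfl | ⟨Y₁, Y₂, h₁, h₂, e⟩
      · rw [zero_add]
        exact hy
      rcases hy with rfl | ⟨Z₁, Z₂, g₁, g₂, e'⟩
      · rw [add_zero]
        exact Or.inr ⟨Y₁, Y₂, h₁, h₂, e⟩
      have hsum : (x + y) * coeffMap π (Y₂ * Z₂) = coeffMap π (Y₁ * Z₂ + Z₁ * Y₂) := by
        rw [map_mul, map_add, map_mul, map_mul, ← e, ← e']
        ring
      refine Or.inr ⟨Y₁ * Z₂ + Z₁ * Y₂, Y₂ * Z₂, ⟨?_, ?_, ?_⟩, h₂.mul g₂, hsum⟩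
      · rw [map_add]
        exact add_mem (h₁.mul g₂).1 (g₁.mul h₂).1
      · rw [map_add]
        exact add_mem (h₁.mul g₂).2.1 (g₁.mul h₂).2.1
      · rw [← hsum]
        exact mul_ne_zero hxy (h₂.mul g₂).2.2
    | inv x _ hx =>
      rcases hx with rfl | ⟨Y₁, Y₂, h₁, h₂, e⟩
      · left
        rw [inv_zero]
      · refine Or.inr ⟨Y₂, Y₁, h₂, h₁, ?_⟩
        have hx0 : x ≠ 0 := by
          rintro rfl
          rw [zero_mul] at e
          exact h₁.2.2 e.symm
        rw [← e]
        field_simp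
    | mul x y _ _ hx hy =>
      rcases hx with rfl | ⟨Y₁, Y₂, h₁, h₂, e⟩
      · left
        rw [zero_mul]
      rcases hy with rfl | ⟨Z₁, Z₂, g₁, g₂, e'⟩
      · left
        rw [mul_zero]
      refine Or.inr ⟨Y₁ * Z₁, Y₂ * Z₂, h₁.mul g₁, h₂.mul g₂, ?_⟩
      rw [map_mul, map_mul, ← e, ← e']
      ring
  rcases key g g.2 with h | ⟨Y₁, Y₂, h₁, h₂, e⟩
  · exact absurd (Subtype.ext h) hg
  · exact ⟨Y₁, Y₂, h₁, h₂, Subtype.ext e⟩

end Lift

/-! ### Independence of the presentation -/

section WellDefined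

variable {A : ValuationSubring KK} {k : Type*} [Field k] {π : A →+* k} {N : ℕ}

/-- Two presentations `f * Y₂ = c * Y₁`, `f * Z₂ = c' * Z₁` with integral constants `c`, `c'`
give the same reduction `π c * Ȳ₁ / Ȳ₂ = π c' * Z̄₁ / Z̄₂`. -/
theorem reduction_wd {f : LaurentSeries KK} {c c' : A} {Y₁ Y₂ Z₁ Z₂ : LaurentSeries A}
    (hf : f * coeffMap A.subtype Y₂ = coeffMap A.subtype (HahnSeries.C c * Y₁))
    (hf' : f * coeffMap A.subtype Z₂ = coeffMap A.subtype (HahnSeries.C c' * Z₁)) :
    HahnSeries.C (π c) * coeffMap π Y₁ * coeffMap π Z₂ =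
      HahnSeries.C (π c') * coeffMap π Z₁ * coeffMap π Y₂ := by
  have h : coeffMap A.subtype (HahnSeries.C c * Y₁ * Z₂) =
      coeffMap A.subtype (HahnSeries.C c' * Z₁ * Y₂) := by
    rw [map_mul, ← hf, map_mul (coeffMap A.subtype) (HahnSeries.C c' * Z₁), ← hf']
    ring
  have h2 := congrArg (coeffMap π) (coeffMap_subtype_injective h)
  rw [map_mul, map_mul, map_mul, map_mul, coeffMap_C', coeffMap_C'] at h2
  exact h2

/-- For a presentation with a constant `c ∉ A` the function `f⁻¹` has a presentation with the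
constant `c⁻¹ ∈ A` (whose reduction is zero if `π` kills the nonunits). -/
theorem inv_mem_of_not_mem {c : KK} (hc : c ∉ A) : c⁻¹ ∈ A :=
  (A.mem_or_inv_mem c).resolve_left hc

end WellDefined

end Fermat.Agent.S18.RedExt
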