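import Mathlib
import Fermat.Prelude.Def_ModularCurve_ReductionModL
import Fermat.Prelude.Def_FLTPrelim_Ramification
import Fermat.Agent.S24.Eval
import Fermat.Agent.S28.Kbar
import Fermat.Agent.S28.PrimeField
import Fermat.Agent.S28.ModEq
import Fermat.Agent.S28.UnitEq
import Fermat.Agent.S28.StarFinal
import Fermat.Agent.S28.Tower
import Fermat.Agent.S28.DegreeL

/-!
# S18, infrastructure (I4a): the residue field of a valuation ring of `ℚ̄` over `ℓ`

For a valuation subring `A` of `KK = AlgebraicClosure ℚ` lying over a prime `ℓ`, the residue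
field `k = IsLocalRing.ResidueField A` is algebraically closed of characteristic `ℓ`, receives a
ring homomorphism from the algebraic integers of `ℂ`, and therefore carries prime data for every
prime `r ≠ ℓ`; hence the statements (B4) and (B5) of S28 hold over `k`.
-/

set_option autoImplicit false
set_option linter.style.haveILetI false

noncomputable section

namespace Fermat.Agent.S18.ResField

open Fermat.Agent.S24.Eval Fermat.Agent.S28.Kbar Fermat.Agent.S28.Basic

variable (A : ValuationSubring KK)

/-- The residue map is surjective. -/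
theorem residue_surjective : Function.Surjective (IsLocalRing.residue A) :=
  IsLocalRing.residue_surjective

/-- Elements of `KK` integral over `A` lie in `A`. -/
theorem mem_of_isIntegral {z : KK} (hz : IsIntegral A z) : z ∈ A := by
  obtain ⟨y, hy⟩ := (IsIntegrallyClosed.isIntegral_iff (R := A) (K := KK)).mp hz
  rw [← hy]
  exact y.2

/-- Algebraic integers lie in `A`. -/
theorem mem_of_isIntegral_int {z : KK} (hz : IsIntegral ℤ z) : z ∈ A :=
  mem_of_isIntegral A hz.tower_top

/-- The residue field of `A` is algebraically closed. -/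
instance isAlgClosed_residueField : IsAlgClosed (IsLocalRing.ResidueField A) := by
  refine IsAlgClosed.of_exists_root _ fun p hp hirr => ?_
  obtain ⟨P, hPmap, hPdeg, hPmonic⟩ := Polynomial.lifts_and_natDegree_eq_and_monic
    (f := IsLocalRing.residue A)
    ((Polynomial.mem_lifts p).mpr (Polynomial.map_surjective _ (residue_surjective A) p)) hp
  have hinj : Function.Injective (A.subtype : A →+* KK) := Subtype.val_injective
  have hdeg : (P.map (A.subtype : A →+* KK)).degree ≠ 0 := by
    rw [Polynomial.degree_map_eq_of_injective hinj,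
      Polynomial.degree_eq_natDegree hPmonic.ne_zero, hPdeg]
    have := hirr.natDegree_pos
    exact_mod_cast this.ne'
  obtain ⟨z, hz⟩ := IsAlgClosed.exists_root (P.map (A.subtype : A →+* KK)) hdeg
  have hzint : IsIntegral A z := ⟨P, hPmonic, by
    rw [Polynomial.IsRoot.def, Polynomial.eval_map] at hz
    exact hz⟩
  have hzA : z ∈ A := mem_of_isIntegral A hzint
  refine ⟨IsLocalRing.residue A ⟨z, hzA⟩, ?_⟩
  have h0 : P.eval (⟨z, hzA⟩ : A) = 0 := by
    apply hinj
    rw [map_zero, ← Polynomial.eval₂_at_apply, ← Polynomial.eval_map]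
    exact hz
  rw [← hPmap, Polynomial.eval_map, Polynomial.eval₂_at_apply, h0, map_zero]

/-! ### The characteristic -/

section Char

variable {A} {ℓ : ℕ}

theorem residue_natCast_eq_zero (hA : A.LiesOverPrime ℓ) :
    ((ℓ : ℕ) : IsLocalRing.ResidueField A) = 0 := by
  have h1 : ((ℓ : ℕ) : A) ∈ IsLocalRing.maximalIdeal A := by
    rw [IsLocalRing.mem_maximalIdeal, mem_nonunits_iff]
    intro hu
    have h2 : (ℓ : KK) ∈ A.nonunits := hA
    rw [ValuationSubring.mem_nonunits_iff_exists_mem_maximalIdeal] at h2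
    obtain ⟨ha, hm⟩ := h2
    rw [IsLocalRing.mem_maximalIdeal, mem_nonunits_iff] at hm
    apply hm
    have e : (⟨(ℓ : KK), ha⟩ : A) = ((ℓ : ℕ) : A) := Subtype.ext (by simp)
    rw [e]
    exact hu
  have h3 := (IsLocalRing.residue_eq_zero_iff ((ℓ : ℕ) : A)).mpr h1
  rwa [map_natCast] at h3

theorem charP_residueField [Fact ℓ.Prime] (hA : A.LiesOverPrime ℓ) :
    CharP (IsLocalRing.ResidueField A) ℓ := by
  have h := residue_natCast_eq_zero hA
  exact (CharP.charP_iff_prime_eq_zero (R := IsLocalRing.ResidueField A) Fact.out).mpr h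

theorem natCast_residue_ne_zero [Fact ℓ.Prime] (hA : A.LiesOverPrime ℓ) {r : ℕ} (hr : r.Prime)
    (hrℓ : r ≠ ℓ) : ((r : ℕ) : IsLocalRing.ResidueField A) ≠ 0 := by
  haveI := charP_residueField hA
  intro h
  have h2 := (CharP.cast_eq_zero_iff (IsLocalRing.ResidueField A) ℓ r).mp h
  exact hrℓ ((Nat.prime_dvd_prime_iff_eq Fact.out hr).mp h2).symm

end Char

/-! ### The homomorphism from the algebraic integers of `ℂ` -/

section Phi

/-- Algebraic integers of `ℂ` lie in the image of `iota : KK → ℂ`. -/
theorem mem_fieldRange_iota (x : OO) : (x : ℂ) ∈ (iota : KK →+* ℂ).fieldRange := by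
  haveI : IsAlgClosed ↥((iota : KK →+* ℂ).fieldRange) :=
    IsAlgClosed.of_ringEquiv KK _ (RingEquiv.ofBijective (iota : KK →+* ℂ).rangeRestrictField
      ⟨(iota : KK →+* ℂ).rangeRestrictField.injective,
        RingHom.rangeRestrictField_bijective _ |>.2⟩)
  have hx : IsIntegral ℤ (x : ℂ) := x.2
  have hx' : IsIntegral ↥((iota : KK →+* ℂ).fieldRange) (x : ℂ) := hx.tower_top
  obtain ⟨y, hy⟩ := minpoly.mem_range_of_degree_eq_one _ (x : ℂ)
    (IsAlgClosed.degree_eq_one_of_irreducible _ (minpoly.irreducible hx'))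
  rw [← hy]
  exact y.2

/-- The isomorphism of `KK` with its image in `ℂ`. -/
def iotaEquiv : KK ≃+* ↥((iota : KK →+* ℂ).fieldRange) :=
  RingEquiv.ofBijective (iota : KK →+* ℂ).rangeRestrictField
    ⟨(iota : KK →+* ℂ).rangeRestrictField.injective,
      RingHom.rangeRestrictField_bijective _ |>.2⟩

theorem coe_iotaEquiv (y : KK) : ((iotaEquiv y : ↥((iota : KK →+* ℂ).fieldRange)) : ℂ) = iota y :=
  rfl

/-- The algebraic integers of `ℂ` as elements of `KK`. -/
def toKK : OO →+* KK :=
  (iotaEquiv.symm : ↥((iota : KK →+* ℂ).fieldRange) →+* KK).comp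
    (((integralClosure ℤ ℂ).val : OO →+* ℂ).codRestrict (iota : KK →+* ℂ).fieldRange
      mem_fieldRange_iota)

theorem iota_toKK (x : OO) : iota (toKK x) = (x : ℂ) := by
  have h := coe_iotaEquiv (toKK x)
  rw [← h]
  unfold toKK
  rw [RingHom.comp_apply]
  change ((iotaEquiv (iotaEquiv.symm _) : ↥((iota : KK →+* ℂ).fieldRange)) : ℂ) = _
  rw [RingEquiv.apply_symm_apply]
  rfl

theorem isIntegral_toKK (x : OO) : IsIntegral ℤ (toKK x) := by
  have h : IsIntegral ℤ (iota (toKK x)) := by
    rw [iota_toKK]
    exact x.2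
  exact (isIntegral_algHom_iff (iota : KK →+* ℂ).toIntAlgHom iota_injective).mp h

/-- The algebraic integers of `ℂ` as elements of `A`. -/
def toA : OO →+* A :=
  toKK.codRestrict A.toSubring fun x => mem_of_isIntegral_int A (isIntegral_toKK x)

/-- The reduction of the algebraic integers of `ℂ` to the residue field of `A`. -/
def phiO : OO →+* IsLocalRing.ResidueField A :=
  (IsLocalRing.residue A).comp (toA A)

end Phi

/-! ### Prime data, (B4) and (B5) over the residue field -/

section PrimeData

variable {A} {ℓ : ℕ} [Fact ℓ.Prime]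

theorem primeData (hA : A.LiesOverPrime ℓ) (r : ℕ) (hr : r.Prime) (hrℓ : r ≠ ℓ) :
    Nonempty (PrimeData (IsLocalRing.ResidueField A) r) :=
  Fermat.Agent.S28.PrimeField.primeData_of_hom (IsLocalRing.ResidueField A) (phiO A) hr
    (natCast_residue_ne_zero hA hr hrℓ) (Fermat.Agent.S28.ModEq.exists_modEq r hr)
    (Fermat.Agent.S28.UnitEq.exists_unitEq r hr)

theorem starStmt (hA : A.LiesOverPrime ℓ) :
    Fermat.Agent.S28.DegreeL.StarStmt (IsLocalRing.ResidueField A) ℓ :=
  Fermat.Agent.S28.StarFinal.starStmt _ ℓ (primeData hA)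

theorem towerStmt (hA : A.LiesOverPrime ℓ) :
    Fermat.Agent.S28.DegreeL.TowerStmt (IsLocalRing.ResidueField A) ℓ :=
  Fermat.Agent.S28.Tower.towerStmt _ ℓ (primeData hA)

/-- **Lower bound for the degree** over the residue field: `ψ(N)` elements of the reduced
function field, linearly independent over `k(j̄)`. -/
theorem exists_indep (hA : A.LiesOverPrime ℓ) (N : ℕ) [NeZero N] (hℓN : ¬ ℓ ∣ N) :
    ∃ v : Fin (ModularCurve.dedekindPsi N) → LaurentSeries (IsLocalRing.ResidueField A),
      (∀ i, v i ∈ ModularCurve.modularFunctionFieldFullC (IsLocalRing.ResidueField A) N) ∧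
        LinearIndependent
          (IntermediateField.adjoin (IsLocalRing.ResidueField A)
            {ModularCurve.jqModC (IsLocalRing.ResidueField A)}) v :=
  Fermat.Agent.S28.DegreeL.exists_indep_big (IsLocalRing.ResidueField A) ℓ (starStmt hA)
    (towerStmt hA) N hℓN _ rfl

end PrimeData

end Fermat.Agent.S18.ResField
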