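import Mathlib
import Fermat.Prelude.Def_ModularCurve_ReductionModL
import Fermat.Agent.S24.Eval
import Fermat.Agent.S24.Degree
import Fermat.Agent.S20.Cosets
import Fermat.Agent.S28.PrimeCase
import Fermat.Agent.S28.DegreeZero
import Fermat.Agent.S18.RedExt
import Fermat.Agent.S18.ResField

/-!
# S18, infrastructure (I4b): the degree of the reduced function field

For a valuation subring `A` of `KK = AlgebraicClosure ℚ` over a prime `ℓ ∤ N`, with residue
field `k`: the reduced function field `Fk = modularFunctionFieldFullC k N` is finite over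
`k(j̄)` of degree `ψ(N) = [F : KK(j)]`.

* `exists_scaling` : in a finite family of elements of `KK`, not all zero, some nonzero member
  divides all the others in `A`;
* `eq_zero_of_residue_indep` : a family of Laurent series over `A` whose reductions are linearly
  independent over `k` is linearly independent over `KK`;
* `card_le` : at most `ψ(N)` elements of `Fk` are linearly independent over `k(j̄)`;
* `finiteDimensional_jk`, `finrank_jk` : `[Fk : k(j̄)] = ψ(N)`; `finrank_jF' : [F : KK(j)] = ψ(N)`.
-/

set_option autoImplicit false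
set_option linter.style.haveILetI false

noncomputable section

namespace Fermat.Agent.S18.DegEq

open ModularCurve AlgebraicCurve IntermediateField
open Fermat.Agent.S24 Fermat.Agent.S24.Eval Fermat.Agent.S18.RedExt

/-! ### Scaling -/

section Scaling

variable (A : ValuationSubring KK)

/-- In a finite family of elements of `KK`, not all zero, some nonzero member divides all the
others in `A`. -/
theorem exists_scaling {ι : Type*} (s : Finset ι) (c : ι → KK) (hne : ∃ i ∈ s, c i ≠ 0) :
    ∃ i₀ ∈ s, c i₀ ≠ 0 ∧ ∀ i ∈ s, c i / c i₀ ∈ A := by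
  obtain ⟨i₁, hi₁, hc₁⟩ := hne
  obtain ⟨i₀, hi₀, hmax⟩ := Finset.exists_max_image s (fun i => A.valuation (c i)) ⟨i₁, hi₁⟩
  have h0 : c i₀ ≠ 0 := by
    intro h
    have h1 := hmax i₁ hi₁
    rw [h, map_zero] at h1
    exact hc₁ ((map_eq_zero _).mp (le_antisymm h1 zero_le))
  refine ⟨i₀, hi₀, h0, fun i hi => ?_⟩
  rw [← A.valuation_le_one_iff, map_div₀]
  exact div_le_one_of_le₀ (hmax i hi) zero_le

end Scaling

/-! ### Lifting linear independence -/

section Indep

variable {A : ValuationSubring KK} {k : Type*} [Field k] (π : A →+* k)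

/-- A family of Laurent series over `A` whose reductions are linearly independent over `k` is
linearly independent over `KK`. -/
theorem linearIndependent_of_residue {I : Type*} (u : I → LaurentSeries A)
    (hu : LinearIndependent k (fun i => coeffMap π (u i))) :
    LinearIndependent KK (fun i => coeffMap A.subtype (u i)) := by
  classical
  rw [linearIndependent_iff']
  intro s g hg i hi
  by_contra hgi
  obtain ⟨i₀, hi₀, h0, hA⟩ := exists_scaling A s g ⟨i, hi, hgi⟩
  -- the coefficientwise relation over `KK`
  have hcoef : ∀ n : ℤ, ∑ j ∈ s, g j * (((u j).coeff n : A) : KK) = 0 := by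
    intro n
    have := congrArg (fun x : LaurentSeries KK => x.coeff n) hg
    simp only [HahnSeries.coeff_zero] at this
    rw [← this]
    have h2 : (∑ j ∈ s, g j • coeffMap A.subtype (u j)).coeff n
        = ∑ j ∈ s, (g j • coeffMap A.subtype (u j)).coeff n := by
      rw [← HahnSeries.coeff.addMonoidHom_apply, map_sum]
      rfl
    rw [h2]
    refine Finset.sum_congr rfl fun j _ => ?_
    rw [HahnSeries.coeff_smul, coeffMap_coeff, smul_eq_mul]
    rfl
  -- the scaled coefficients, in `A`
  let a : I → A := fun j => if hj : j ∈ s then ⟨g j / g i₀, hA j hj⟩ else 0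
  have ha : ∀ j ∈ s, ((a j : A) : KK) = g j / g i₀ := by
    intro j hj
    simp only [a, dif_pos hj]
  have hcoefA : ∀ n : ℤ, ∑ j ∈ s, a j * (u j).coeff n = 0 := by
    intro n
    apply Subtype.val_injective
    have h3 : ((∑ j ∈ s, a j * (u j).coeff n : A) : KK)
        = ∑ j ∈ s, g j / g i₀ * (((u j).coeff n : A) : KK) := by
      rw [← A.subtype_apply, map_sum]
      refine Finset.sum_congr rfl fun j hj => ?_
      rw [map_mul, A.subtype_apply, A.subtype_apply, ha j hj]
    rw [h3]
    have h4 : ∑ j ∈ s, g j / g i₀ * (((u j).coeff n : A) : KK)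
        = (∑ j ∈ s, g j * (((u j).coeff n : A) : KK)) / g i₀ := by
      rw [Finset.sum_div]
      refine Finset.sum_congr rfl fun j _ => ?_
      ring
    rw [h4, hcoef n, zero_div]
    rfl
  have hrelk : ∑ j ∈ s, π (a j) • coeffMap π (u j) = 0 := by
    ext n
    rw [HahnSeries.coeff_zero]
    have h2 : (∑ j ∈ s, π (a j) • coeffMap π (u j)).coeff n
        = ∑ j ∈ s, (π (a j) • coeffMap π (u j)).coeff n := by
      rw [← HahnSeries.coeff.addMonoidHom_apply, map_sum]
      rfl
    rw [h2]
    have h3 := congrArg π (hcoefA n)
    rw [map_sum, map_zero] at h3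
    rw [← h3]
    refine Finset.sum_congr rfl fun j _ => ?_
    rw [HahnSeries.coeff_smul, coeffMap_coeff, smul_eq_mul, map_mul]
  have hz : π (a i₀) = 0 := (linearIndependent_iff'.mp hu) s (fun j => π (a j)) hrelk i₀ hi₀
  have h1 : a i₀ = 1 := by
    apply Subtype.ext
    rw [ha i₀ hi₀, div_self h0]
    rfl
  rw [h1, map_one] at hz
  exact one_ne_zero hz

end Indep

/-! ### The upper bound -/

section Upper

open Fermat.Agent.S24.Degree Fermat.Agent.S20

/-- Multiplication by a nonzero element preserves linear independence. -/
theorem linearIndependent_mul_right {F E : Type*} [Field F] [Field E] [Algebra F E]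
    {I : Type*} (w : I → E) (d : E) (hd : d ≠ 0) (hw : LinearIndependent F w) :
    LinearIndependent F (fun i => w i * d) :=
  hw.map' (LinearMap.mulRight F d) (LinearMap.ker_eq_bot.mpr (mul_left_injective₀ hd))

variable {A : ValuationSubring KK} {k : Type*} [Field k] {π : A →+* k} (N : ℕ) [NeZero N]

omit [NeZero N] in
theorem isInt_prod {I : Type*} (s : Finset I) (Y : I → LaurentSeries A)
    (hY : ∀ i ∈ s, IsInt A π N (Y i)) : IsInt A π N (∏ i ∈ s, Y i) := by
  classical
  induction s using Finset.induction_on with
  | empty =>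
    rw [Finset.prod_empty]
    exact IsInt.one
  | insert i s hi ih =>
    rw [Finset.prod_insert hi]
    exact (hY i (Finset.mem_insert_self i s)).mul
      (ih fun j hj => hY j (Finset.mem_insert_of_mem hj))

/-- **Upper bound for the degree**: at most `ψ(N)` elements of the reduced function field are
linearly independent over `k(j̄)`. -/
theorem card_le (hπ : Function.Surjective π) {I : Type*} [Fintype I]
    (w : I → LaurentSeries k) (hw : ∀ i, w i ∈ modularFunctionFieldFullC k N)
    (hli : LinearIndependent k⟮jqModC k⟯ w) : Fintype.card I ≤ dedekindPsi N := by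
  classical
  have htr : Transcendental k (jqModC k) := Fermat.Agent.S28.PrimeCase.transcendental_jqModC k
  have hne : ∀ i, w i ≠ 0 := fun i => hli.ne_zero i
  have hlift : ∀ i, ∃ Y₁ Y₂ : LaurentSeries A, IsInt A π N Y₁ ∧ IsInt A π N Y₂ ∧
      w i * coeffMap π Y₂ = coeffMap π Y₁ := by
    intro i
    obtain ⟨Y₁, Y₂, h₁, h₂, h⟩ := exists_lift (A := A) (π := π) (N := N) hπ ⟨w i, hw i⟩
      (fun h => hne i (congrArg Subtype.val h))
    exact ⟨Y₁, Y₂, h₁, h₂, congrArg Subtype.val h⟩
  choose Y₁ Y₂ h₁ h₂ hY using hlift
  let D : LaurentSeries A := ∏ j, Y₂ j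
  let U : I → LaurentSeries A := fun i => Y₁ i * ∏ j ∈ Finset.univ.erase i, Y₂ j
  have hD : IsInt A π N D := isInt_prod N _ _ fun j _ => h₂ j
  have hU : ∀ i, IsInt A π N (U i) := fun i => (h₁ i).mul (isInt_prod N _ _ fun j _ => h₂ j)
  have hUD : ∀ i, coeffMap π (U i) = w i * coeffMap π D := by
    intro i
    show coeffMap π (Y₁ i * ∏ j ∈ Finset.univ.erase i, Y₂ j) = w i * coeffMap π (∏ j, Y₂ j)
    rw [map_mul, ← hY i, mul_assoc, ← map_mul, Finset.mul_prod_erase _ _ (Finset.mem_univ i)]
  have h1 : LinearIndependent k⟮jqModC k⟯ (fun i => coeffMap π (U i)) := by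
    have h := linearIndependent_mul_right w (coeffMap π D) hD.2.2 hli
    have e : (fun i => coeffMap π (U i)) = fun i => w i * coeffMap π D := funext hUD
    rw [e]
    exact h
  have h2 := (Fermat.Agent.S28.DegreeZero.linearIndependent_algebra_iff _).mp
    (Fermat.Agent.S28.DegreeZero.linearIndependent_pow_mul htr _ h1)
  -- the lifts
  let V : ℕ × I → LaurentSeries A := fun p => jqNModC A 1 ^ p.1 * U p.2
  have hV : (fun p : ℕ × I => coeffMap π (V p)) =
      fun p : ℕ × I => jqModC k ^ p.1 * coeffMap π (U p.2) := by
    funext p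
    show coeffMap π (jqNModC A 1 ^ p.1 * U p.2) = _
    rw [map_mul, map_pow, coeffMap_jqNModC, jqNModC_one]
  have h3 : LinearIndependent KK (fun p : ℕ × I => coeffMap A.subtype (V p)) :=
    linearIndependent_of_residue π V (by rw [hV]; exact h2)
  let W : I → FF N := fun i => (hU i).toF
  have h4 : LinearIndependent KK (fun p : ℕ × I => (jF N) ^ p.1 * W p.2) := by
    have h5 : (incl N).toLinearMap ∘ (fun p : ℕ × I => (jF N) ^ p.1 * W p.2) =
        fun p : ℕ × I => coeffMap A.subtype (V p) := by
      funext p
      have h6 : incl N (jF N) = coeffMap A.subtype (jqNModC A 1) := by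
        rw [incl_jF, coeffMap_jqNModC]
        change coeffMap (algebraMap ℚ KK) (jqNModC ℚ 1) = jqNModC KK 1
        rw [coeffMap_jqNModC]
      have h7 : incl N (W p.2) = coeffMap A.subtype (U p.2) := rfl
      show incl N ((jF N) ^ p.1 * W p.2) = coeffMap A.subtype (jqNModC A 1 ^ p.1 * U p.2)
      rw [map_mul, map_pow, map_mul, map_pow, h6, h7]
    have h8 : @LinearIndependent (ℕ × I) KK (LaurentSeries KK)
        ((incl N).toLinearMap ∘ (fun p : ℕ × I => (jF N) ^ p.1 * W p.2)) _ _
        Algebra.toModule := by
      rw [h5]
      exact (Fermat.Agent.S28.DegreeZero.linearIndependent_algebra_iff _).mpr h3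
    letI : Module KK (LaurentSeries KK) := Algebra.toModule
    exact LinearIndependent.of_comp (incl N).toLinearMap h8
  have h9 := Fermat.Agent.S28.DegreeZero.linearIndependent_adjoin_of_pow_mul W h4
  have := finiteDimensional_jF N
  calc Fintype.card I ≤ Module.finrank KK⟮jF N⟯ (FF N) := h9.fintype_card_le_finrank
    _ ≤ Nat.card (Q N) := finrank_jF_le N
    _ = dedekindPsi N := Fermat.Agent.S20.Cosets.card_Q N

end Upper

/-! ### The reduced function field as an extension of `k(j̄)` -/

section Sub

open Fermat.Agent.S24.Degree Fermat.Agent.S20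

variable (k : Type*) [Field k] (N : ℕ) [NeZero N]

/-- `j̄` as an element of the reduced function field. -/
def jk : modularFunctionFieldFullC k N := ⟨jqModC k, jqModC_mem_full k N⟩

omit [NeZero N] in
@[simp] theorem coe_jk : ((jk k N : modularFunctionFieldFullC k N) : LaurentSeries k) = jqModC k :=
  rfl

omit [NeZero N] in
theorem transcendental_jk : Transcendental k (jk k N) := by
  have h := Fermat.Agent.S28.PrimeCase.transcendental_jqModC k
  rw [transcendental_iff] at h ⊢
  intro p hp
  apply h p
  have h1 := congrArg (modularFunctionFieldFullC k N).val hp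
  rw [← Polynomial.aeval_algHom_apply, map_zero] at h1
  exact h1

variable {k N}

omit [NeZero N] in
/-- Linear independence over `k(j̄)` inside the reduced function field and inside the Laurent
series are the same. -/
theorem linearIndependent_coe_iff {I : Type*} [Fintype I] (w : I → modularFunctionFieldFullC k N) :
    LinearIndependent k⟮jk k N⟯ w ↔
      LinearIndependent k⟮jqModC k⟯ (fun i => ((w i : modularFunctionFieldFullC k N) :
        LaurentSeries k)) := by
  have e : (modularFunctionFieldFullC k N).val.toLinearMap ∘
      (fun p : ℕ × I => jk k N ^ p.1 * w p.2) =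
        fun p : ℕ × I => jqModC k ^ p.1 * ((w p.2 : modularFunctionFieldFullC k N) :
          LaurentSeries k) := by
    funext p
    show (modularFunctionFieldFullC k N).val (jk k N ^ p.1 * w p.2) = _
    rw [map_mul, map_pow]
    rfl
  constructor
  · intro h
    have h1 := Fermat.Agent.S28.DegreeZero.linearIndependent_pow_mul (transcendental_jk k N) w h
    have h2 : @LinearIndependent (ℕ × I) k (LaurentSeries k)
        (fun p : ℕ × I => jqModC k ^ p.1 * ((w p.2 : modularFunctionFieldFullC k N) :
          LaurentSeries k)) _ _ Algebra.toModule := by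
      letI : Module k (LaurentSeries k) := Algebra.toModule
      rw [← e]
      exact h1.map' (modularFunctionFieldFullC k N).val.toLinearMap
        (LinearMap.ker_eq_bot.mpr Subtype.val_injective)
    exact Fermat.Agent.S28.DegreeZero.linearIndependent_adjoin_of_pow_mul _ h2
  · intro h
    have h1 := Fermat.Agent.S28.DegreeZero.linearIndependent_pow_mul
      (Fermat.Agent.S28.PrimeCase.transcendental_jqModC k) _ h
    refine Fermat.Agent.S28.DegreeZero.linearIndependent_adjoin_of_pow_mul _ ?_
    letI : Module k (LaurentSeries k) := Algebra.toModule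
    refine LinearIndependent.of_comp (modularFunctionFieldFullC k N).val.toLinearMap ?_
    rw [e]
    exact h1

variable {A : ValuationSubring KK} {π : A →+* k}

/-- **Upper bound**, for families in the reduced function field. -/
theorem card_le_sub (hπ : Function.Surjective π) {I : Type*} [Fintype I]
    (w : I → modularFunctionFieldFullC k N) (hli : LinearIndependent k⟮jk k N⟯ w) :
    Fintype.card I ≤ dedekindPsi N :=
  card_le N hπ _ (fun i => (w i).2) ((linearIndependent_coe_iff w).mp hli)

/-- The reduced function field is finite over `k(j̄)`. -/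
theorem finiteDimensional_jk (hπ : Function.Surjective π) :
    FiniteDimensional k⟮jk k N⟯ (modularFunctionFieldFullC k N) := by
  have h : Module.rank k⟮jk k N⟯ (modularFunctionFieldFullC k N) ≤ (dedekindPsi N : ℕ) := by
    refine rank_le fun s hs => ?_
    have := card_le_sub hπ (fun i : s => (i : modularFunctionFieldFullC k N)) hs
    rwa [Fintype.card_coe] at this
  exact Module.rank_lt_aleph0_iff.mp (lt_of_le_of_lt h Cardinal.natCast_lt_aleph0)

theorem finrank_jk_le (hπ : Function.Surjective π) :
    Module.finrank k⟮jk k N⟯ (modularFunctionFieldFullC k N) ≤ dedekindPsi N := by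
  haveI := finiteDimensional_jk (N := N) hπ
  have h := card_le_sub hπ _
    (Module.finBasis k⟮jk k N⟯ (modularFunctionFieldFullC k N)).linearIndependent
  rwa [Fintype.card_fin] at h

end Sub

/-! ### The degree over the residue field of a valuation ring of `ℚ̄` -/

section Final

open Fermat.Agent.S24.Degree Fermat.Agent.S20

variable {A : ValuationSubring KK} {ℓ : ℕ} [Fact ℓ.Prime] (N : ℕ) [NeZero N]

/-- The reduced function field is finite over `k(j̄)`. -/
theorem finiteDimensional_residue :
    FiniteDimensional (IsLocalRing.ResidueField A)⟮jk (IsLocalRing.ResidueField A) N⟯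
      (modularFunctionFieldFullC (IsLocalRing.ResidueField A) N) :=
  finiteDimensional_jk (π := IsLocalRing.residue A) IsLocalRing.residue_surjective

/-- **The degree of the reduced function field**: `[F̄ : k(j̄)] = ψ(N)`. -/
theorem finrank_residue (hA : A.LiesOverPrime ℓ) (hℓN : ¬ ℓ ∣ N) :
    Module.finrank (IsLocalRing.ResidueField A)⟮jk (IsLocalRing.ResidueField A) N⟯
      (modularFunctionFieldFullC (IsLocalRing.ResidueField A) N) = dedekindPsi N := by
  refine le_antisymm (finrank_jk_le (π := IsLocalRing.residue A)
    IsLocalRing.residue_surjective) ?_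
  obtain ⟨v, hv, hli⟩ := Fermat.Agent.S18.ResField.exists_indep hA N hℓN
  haveI := finiteDimensional_residue (A := A) N
  have h := ((linearIndependent_coe_iff (fun i => (⟨v i, hv i⟩ :
    modularFunctionFieldFullC (IsLocalRing.ResidueField A) N))).mpr hli).fintype_card_le_finrank
  rwa [Fintype.card_fin] at h

/-- The degree of the function field over `KK(j)`. -/
theorem finrank_jF_eq : Module.finrank KK⟮jF N⟯ (FF N) = dedekindPsi N :=
  (finrank_jF N).trans (Fermat.Agent.S20.Cosets.card_Q N)

/-- **The degrees agree**: `[F̄ : k(j̄)] = [F : KK(j)]`. -/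
theorem finrank_residue_eq (hA : A.LiesOverPrime ℓ) (hℓN : ¬ ℓ ∣ N) :
    Module.finrank (IsLocalRing.ResidueField A)⟮jk (IsLocalRing.ResidueField A) N⟯
      (modularFunctionFieldFullC (IsLocalRing.ResidueField A) N) =
        Module.finrank KK⟮jF N⟯ (FF N) :=
  (finrank_residue N hA hℓN).trans (finrank_jF_eq N).symm

end Final

end Fermat.Agent.S18.DegEq
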