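import Mathlib
import Fermat.Prelude.Def_ModularCurve_LaurentCoeff

/-!
# S18 infrastructure (I3a): the Gauss valuation ring of a field of Laurent series

Let `A` be a valuation ring of a field `L`, with residue field `k`, let `F ⊆ L((q))` and
`Fk ⊆ k((q))` be intermediate fields.  A series `y ∈ A((q))` is *integral* (`IsInt`) if its image
in `L((q))` lies in `F` and its reduction lies in `Fk`; it is a *Gauss unit* (`IsIntU`) if moreover
the reduction is nonzero.

* `gaussRing` : the subring of `F` of all `f` with `f * Y = n`, `n` integral, `Y` a Gauss unit.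
* `red : gaussRing →+* Fk`, `f ↦ n̄ / Ȳ` : the residue homomorphism (a ring homomorphism, well
  defined).
* Under the decomposition hypothesis `Dec` (every nonzero `f ∈ F` is `c * Y₁ / Y₂` with a
  constant `c ∈ Lˣ` and Gauss units `Y₁, Y₂`): `gaussRing` is a valuation ring of `F`
  (`mem_or_inv_mem`), the kernel of `red` consists of the `c • g` with `c` a nonunit of `A`
  (`exists_smul_of_red_eq_zero`), every nonzero `f` can be normalised (`exists_normalize`), and
  reductions that are linearly independent over `k` lift to linearly independent elements over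
  `L` (`linearIndependent_of_red`).
-/

set_option autoImplicit false

noncomputable section

namespace Fermat.Agent.S18.Gauss

open ModularCurve HahnSeries

variable {L : Type*} [Field L] (A : ValuationSubring L)

/-- The inclusion `A((q)) → L((q))`. -/
abbrev inc : LaurentSeries A →+* LaurentSeries L := coeffMap A.subtype

/-- The reduction `A((q)) → k((q))`. -/
abbrev rd : LaurentSeries A →+* LaurentSeries (IsLocalRing.ResidueField A) :=
  coeffMap (IsLocalRing.residue A)

theorem inc_injective : Function.Injective (inc A) := by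
  intro x y h
  ext n
  have h1 := congrArg (fun z : LaurentSeries L => z.coeff n) h
  simp only [coeffMap_coeff] at h1
  exact h1

theorem inc_C (c : A) : inc A (HahnSeries.C c) = algebraMap L (LaurentSeries L) (c : L) := by
  rw [algebraMap_laurentSeries_eq_single]
  exact coeffMap_single _ _ _

theorem rd_C (c : A) : rd A (HahnSeries.C c) =
    algebraMap (IsLocalRing.ResidueField A) (LaurentSeries (IsLocalRing.ResidueField A))
      (IsLocalRing.residue A c) := by
  rw [algebraMap_laurentSeries_eq_single]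
  exact coeffMap_single _ _ _

/-- If the reduction of a series is zero, all its coefficients are nonunits. -/
theorem coeff_mem_nonunits_of_rd_eq_zero {y : LaurentSeries A} (h : rd A y = 0) (n : ℤ) :
    y.coeff n ∈ nonunits A := by
  have h1 := congrArg (fun z : LaurentSeries (IsLocalRing.ResidueField A) => z.coeff n) h
  simp only [coeffMap_coeff, HahnSeries.coeff_zero] at h1
  exact (IsLocalRing.residue_eq_zero_iff _).mp h1

/-- Multiplying by a nonunit constant kills the reduction. -/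
theorem rd_C_mul_of_nonunit {c : A} (hc : c ∈ nonunits A) (y : LaurentSeries A) :
    rd A (HahnSeries.C c * y) = 0 := by
  rw [map_mul, rd_C, (IsLocalRing.residue_eq_zero_iff c).mpr hc, map_zero, zero_mul]

variable (F : IntermediateField L (LaurentSeries L))
  (Fk : IntermediateField (IsLocalRing.ResidueField A)
    (LaurentSeries (IsLocalRing.ResidueField A)))

/-- A series with coefficients in `A` is *integral* for `(F, Fk)`. -/
def IsInt (y : LaurentSeries A) : Prop := inc A y ∈ F ∧ rd A y ∈ Fk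

/-- A *Gauss unit*: an integral series with nonzero reduction. -/
def IsIntU (y : LaurentSeries A) : Prop := IsInt A F Fk y ∧ rd A y ≠ 0

variable {A F Fk}

theorem IsInt.zero : IsInt A F Fk 0 := ⟨by rw [map_zero]; exact zero_mem F,
  by rw [map_zero]; exact zero_mem Fk⟩

theorem IsInt.one : IsInt A F Fk 1 := ⟨by rw [map_one]; exact one_mem F,
  by rw [map_one]; exact one_mem Fk⟩

theorem IsInt.add {x y : LaurentSeries A} (hx : IsInt A F Fk x) (hy : IsInt A F Fk y) :
    IsInt A F Fk (x + y) :=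
  ⟨by rw [map_add]; exact add_mem hx.1 hy.1, by rw [map_add]; exact add_mem hx.2 hy.2⟩

theorem IsInt.mul {x y : LaurentSeries A} (hx : IsInt A F Fk x) (hy : IsInt A F Fk y) :
    IsInt A F Fk (x * y) :=
  ⟨by rw [map_mul]; exact mul_mem hx.1 hy.1, by rw [map_mul]; exact mul_mem hx.2 hy.2⟩

theorem IsInt.neg {x : LaurentSeries A} (hx : IsInt A F Fk x) : IsInt A F Fk (-x) :=
  ⟨by rw [map_neg]; exact neg_mem hx.1, by rw [map_neg]; exact neg_mem hx.2⟩

theorem IsInt.sub {x y : LaurentSeries A} (hx : IsInt A F Fk x) (hy : IsInt A F Fk y) :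
    IsInt A F Fk (x - y) := by
  rw [sub_eq_add_neg]; exact hx.add hy.neg

theorem IsInt.const (c : A) : IsInt A F Fk (HahnSeries.C c) :=
  ⟨by rw [inc_C]; exact F.algebraMap_mem _, by rw [rd_C]; exact Fk.algebraMap_mem _⟩

theorem IsInt.pow {x : LaurentSeries A} (hx : IsInt A F Fk x) (n : ℕ) : IsInt A F Fk (x ^ n) :=
  ⟨by rw [map_pow]; exact pow_mem hx.1 n, by rw [map_pow]; exact pow_mem hx.2 n⟩

theorem IsIntU.one : IsIntU A F Fk 1 := ⟨IsInt.one, by rw [map_one]; exact one_ne_zero⟩

theorem IsIntU.mul {x y : LaurentSeries A} (hx : IsIntU A F Fk x) (hy : IsIntU A F Fk y) :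
    IsIntU A F Fk (x * y) :=
  ⟨hx.1.mul hy.1, by rw [map_mul]; exact mul_ne_zero hx.2 hy.2⟩

theorem IsIntU.pow {x : LaurentSeries A} (hx : IsIntU A F Fk x) (n : ℕ) :
    IsIntU A F Fk (x ^ n) :=
  ⟨hx.1.pow n, by rw [map_pow]; exact pow_ne_zero n hx.2⟩

theorem IsIntU.isInt {x : LaurentSeries A} (hx : IsIntU A F Fk x) : IsInt A F Fk x := hx.1

theorem IsIntU.ne_zero {x : LaurentSeries A} (hx : IsIntU A F Fk x) : x ≠ 0 := by
  rintro rfl
  exact hx.2 (map_zero _)

theorem IsIntU.inc_ne_zero {x : LaurentSeries A} (hx : IsIntU A F Fk x) : inc A x ≠ 0 := by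
  intro h
  exact hx.ne_zero (inc_injective A (h.trans (map_zero _).symm))

theorem IsIntU.const {c : A} (hc : IsUnit c) : IsIntU A F Fk (HahnSeries.C c) := by
  refine ⟨IsInt.const c, ?_⟩
  rw [rd_C]
  intro h
  have h0 : IsLocalRing.residue A c = 0 :=
    (algebraMap (IsLocalRing.ResidueField A)
      (LaurentSeries (IsLocalRing.ResidueField A))).injective (h.trans (map_zero _).symm)
  exact ((IsLocalRing.residue_eq_zero_iff c).mp h0) hc

variable (A F Fk)

/-- The Gauss ring of `F`: all quotients `n / Y` with `n` integral and `Y` a Gauss unit. -/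
def gaussRing : Subring F where
  carrier := {f | ∃ n Y : LaurentSeries A, IsInt A F Fk n ∧ IsIntU A F Fk Y ∧
    (f : LaurentSeries L) * inc A Y = inc A n}
  mul_mem' := by
    rintro f g ⟨n, Y, hn, hY, h⟩ ⟨m, Z, hm, hZ, h'⟩
    refine ⟨n * m, Y * Z, hn.mul hm, hY.mul hZ, ?_⟩
    rw [map_mul, map_mul, ← h, ← h']
    push_cast
    ring
  one_mem' := ⟨1, 1, IsInt.one, IsIntU.one, by simp⟩
  add_mem' := by
    rintro f g ⟨n, Y, hn, hY, h⟩ ⟨m, Z, hm, hZ, h'⟩
    refine ⟨n * Z + m * Y, Y * Z, (hn.mul hZ.1).add (hm.mul hY.1), hY.mul hZ, ?_⟩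
    rw [map_add, map_mul, map_mul, map_mul, ← h, ← h']
    push_cast
    ring
  zero_mem' := ⟨0, 1, IsInt.zero, IsIntU.one, by simp⟩
  neg_mem' := by
    rintro f ⟨n, Y, hn, hY, h⟩
    refine ⟨-n, Y, hn.neg, hY, ?_⟩
    rw [map_neg, ← h]
    push_cast
    ring

variable {A F Fk}

theorem mem_gaussRing {f : F} :
    f ∈ gaussRing A F Fk ↔ ∃ n Y : LaurentSeries A, IsInt A F Fk n ∧ IsIntU A F Fk Y ∧
      (f : LaurentSeries L) * inc A Y = inc A n := Iff.rfl

/-- The candidate value of the reduction for a presentation `f * Y = n`. -/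
def redAux (n Y : LaurentSeries A) (hn : IsInt A F Fk n) (hY : IsIntU A F Fk Y) : Fk :=
  (⟨rd A n, hn.2⟩ : Fk) / (⟨rd A Y, hY.1.2⟩ : Fk)

theorem redAux_mul (n Y : LaurentSeries A) (hn : IsInt A F Fk n) (hY : IsIntU A F Fk Y) :
    redAux n Y hn hY * (⟨rd A Y, hY.1.2⟩ : Fk) = (⟨rd A n, hn.2⟩ : Fk) := by
  have hne : (⟨rd A Y, hY.1.2⟩ : Fk) ≠ 0 := fun h => hY.2 (congrArg Subtype.val h)
  rw [redAux, div_mul_cancel₀ _ hne]

theorem redAux_eq_iff (n Y : LaurentSeries A) (hn : IsInt A F Fk n) (hY : IsIntU A F Fk Y)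
    (x : Fk) : redAux n Y hn hY = x ↔ (x : LaurentSeries (IsLocalRing.ResidueField A)) * rd A Y
      = rd A n := by
  have hne : (⟨rd A Y, hY.1.2⟩ : Fk) ≠ 0 := fun h => hY.2 (congrArg Subtype.val h)
  rw [redAux, div_eq_iff hne]
  constructor
  · intro h
    have := congrArg Subtype.val h
    simpa using this.symm
  · intro h
    exact Subtype.ext (by simpa using h.symm)

theorem redAux_eq_of_eq {f : LaurentSeries L} {n Y m Z : LaurentSeries A}
    (hn : IsInt A F Fk n) (hY : IsIntU A F Fk Y) (hm : IsInt A F Fk m) (hZ : IsIntU A F Fk Z)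
    (h : f * inc A Y = inc A n) (h' : f * inc A Z = inc A m) :
    redAux n Y hn hY = redAux m Z hm hZ := by
  have key : n * Z = m * Y := by
    apply inc_injective A
    rw [map_mul, map_mul, ← h, ← h']
    ring
  rw [redAux_eq_iff]
  have hne : rd A Z ≠ 0 := hZ.2
  apply mul_right_cancel₀ hne
  have h1 := redAux_mul m Z hm hZ
  have h2 := congrArg Subtype.val h1
  simp only [MulMemClass.coe_mul] at h2
  calc ((redAux m Z hm hZ : Fk) : LaurentSeries (IsLocalRing.ResidueField A)) * rd A Y * rd A Z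
      = (((redAux m Z hm hZ : Fk) : LaurentSeries (IsLocalRing.ResidueField A)) * rd A Z)
          * rd A Y := by ring
    _ = rd A m * rd A Y := by rw [h2]
    _ = rd A (m * Y) := by rw [map_mul]
    _ = rd A (n * Z) := by rw [key]
    _ = rd A n * rd A Z := by rw [map_mul]

/-- The residue map of the Gauss ring, as a function. -/
def redFun (f : gaussRing A F Fk) : Fk :=
  redAux f.2.choose f.2.choose_spec.choose f.2.choose_spec.choose_spec.1
    f.2.choose_spec.choose_spec.2.1

theorem redFun_eq (f : gaussRing A F Fk) {n Y : LaurentSeries A} (hn : IsInt A F Fk n)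
    (hY : IsIntU A F Fk Y) (h : ((f : F) : LaurentSeries L) * inc A Y = inc A n) :
    redFun f = redAux n Y hn hY :=
  redAux_eq_of_eq _ _ hn hY f.2.choose_spec.choose_spec.2.2 h

theorem exists_pres (f : gaussRing A F Fk) : ∃ (n Y : LaurentSeries A) (hn : IsInt A F Fk n)
    (hY : IsIntU A F Fk Y), ((f : F) : LaurentSeries L) * inc A Y = inc A n ∧
      redFun f = redAux n Y hn hY := by
  obtain ⟨n, Y, hn, hY, h⟩ := f.2
  exact ⟨n, Y, hn, hY, h, redFun_eq f hn hY h⟩

variable (A F Fk)

/-- The residue homomorphism `gaussRing → Fk`. -/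
def red : gaussRing A F Fk →+* Fk where
  toFun := redFun
  map_one' := by
    rw [redFun_eq (1 : gaussRing A F Fk) IsInt.one IsIntU.one (by simp), redAux_eq_iff]
    simp
  map_zero' := by
    rw [redFun_eq (0 : gaussRing A F Fk) IsInt.zero IsIntU.one (by simp), redAux_eq_iff]
    simp
  map_mul' := by
    intro f g
    obtain ⟨n, Y, hn, hY, h, hf⟩ := exists_pres f
    obtain ⟨m, Z, hm, hZ, h', hg⟩ := exists_pres g
    have hfg : (((f * g : gaussRing A F Fk) : F) : LaurentSeries L) * inc A (Y * Z)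
        = inc A (n * m) := by
      rw [map_mul, map_mul, ← h, ← h']
      push_cast
      ring
    rw [redFun_eq (f * g) (hn.mul hm) (hY.mul hZ) hfg, redAux_eq_iff, hf, hg]
    have h1 := congrArg Subtype.val (redAux_mul n Y hn hY)
    have h2 := congrArg Subtype.val (redAux_mul m Z hm hZ)
    simp only [MulMemClass.coe_mul] at h1 h2 ⊢
    rw [map_mul, map_mul, ← h1, ← h2]
    ring
  map_add' := by
    intro f g
    obtain ⟨n, Y, hn, hY, h, hf⟩ := exists_pres f
    obtain ⟨m, Z, hm, hZ, h', hg⟩ := exists_pres g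
    have hfg : (((f + g : gaussRing A F Fk) : F) : LaurentSeries L) * inc A (Y * Z)
        = inc A (n * Z + m * Y) := by
      rw [map_add, map_mul, map_mul, map_mul, ← h, ← h']
      push_cast
      ring
    rw [redFun_eq (f + g) ((hn.mul hZ.1).add (hm.mul hY.1)) (hY.mul hZ) hfg, redAux_eq_iff, hf,
      hg]
    have h1 := congrArg Subtype.val (redAux_mul n Y hn hY)
    have h2 := congrArg Subtype.val (redAux_mul m Z hm hZ)
    simp only [MulMemClass.coe_mul, AddMemClass.coe_add] at h1 h2 ⊢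
    rw [map_add, map_mul, map_mul, map_mul, ← h1, ← h2]
    ring

variable {A F Fk}

theorem red_eq (f : gaussRing A F Fk) {n Y : LaurentSeries A} (hn : IsInt A F Fk n)
    (hY : IsIntU A F Fk Y) (h : ((f : F) : LaurentSeries L) * inc A Y = inc A n) :
    red A F Fk f = redAux n Y hn hY :=
  redFun_eq f hn hY h

/-- Characterisation of the residue map: `red f * Ȳ = n̄` for every presentation `f * Y = n`. -/
theorem red_mul_rd (f : gaussRing A F Fk) {n Y : LaurentSeries A} (hn : IsInt A F Fk n)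
    (hY : IsIntU A F Fk Y) (h : ((f : F) : LaurentSeries L) * inc A Y = inc A n) :
    ((red A F Fk f : Fk) : LaurentSeries (IsLocalRing.ResidueField A)) * rd A Y = rd A n :=
  (redAux_eq_iff n Y hn hY _).mp (red_eq f hn hY h).symm

/-- `red f = 0` iff the numerator of some (any) presentation reduces to zero. -/
theorem red_eq_zero_iff (f : gaussRing A F Fk) {n Y : LaurentSeries A} (hn : IsInt A F Fk n)
    (hY : IsIntU A F Fk Y) (h : ((f : F) : LaurentSeries L) * inc A Y = inc A n) :
    red A F Fk f = 0 ↔ rd A n = 0 := by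
  have h1 := red_mul_rd f hn hY h
  constructor
  · intro h0
    rw [h0] at h1
    simpa using h1.symm
  · intro h0
    rw [h0] at h1
    have h2 := (mul_eq_zero.mp h1).resolve_right hY.2
    exact Subtype.ext h2

/-- Integral series are in the Gauss ring, with the expected reduction. -/
theorem inc_mem_gaussRing {y : LaurentSeries A} (hy : IsInt A F Fk y) :
    (⟨inc A y, hy.1⟩ : F) ∈ gaussRing A F Fk :=
  ⟨y, 1, hy, IsIntU.one, by simp⟩

theorem red_inc {y : LaurentSeries A} (hy : IsInt A F Fk y) :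
    red A F Fk ⟨⟨inc A y, hy.1⟩, inc_mem_gaussRing hy⟩ = ⟨rd A y, hy.2⟩ := by
  have h := red_mul_rd (F := F) (Fk := Fk) ⟨⟨inc A y, hy.1⟩, inc_mem_gaussRing hy⟩ hy
    IsIntU.one (by simp)
  exact Subtype.ext (by simpa using h)

/-- Constants of `A` are in the Gauss ring. -/
theorem algebraMap_mem_gaussRing (c : A) : algebraMap L F (c : L) ∈ gaussRing A F Fk :=
  ⟨HahnSeries.C c, 1, IsInt.const c, IsIntU.one, by
    rw [map_one, mul_one, inc_C]; rfl⟩

theorem red_algebraMap (c : A) :
    red A F Fk ⟨algebraMap L F (c : L), algebraMap_mem_gaussRing c⟩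
      = algebraMap (IsLocalRing.ResidueField A) Fk (IsLocalRing.residue A c) := by
  have h := red_mul_rd (F := F) (Fk := Fk) ⟨algebraMap L F (c : L), algebraMap_mem_gaussRing c⟩
    (IsInt.const c) IsIntU.one (by rw [map_one, mul_one, inc_C]; rfl)
  apply Subtype.ext
  rw [map_one, mul_one, rd_C] at h
  rw [h]
  rfl

/-- Quotients of Gauss units are units of the Gauss ring with nonzero reduction. -/
theorem div_mem_gaussRing {f : F} {Y₁ Y₂ : LaurentSeries A} (h₁ : IsIntU A F Fk Y₁)
    (h₂ : IsIntU A F Fk Y₂) (h : (f : LaurentSeries L) * inc A Y₂ = inc A Y₁) :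
    f ∈ gaussRing A F Fk :=
  ⟨Y₁, Y₂, h₁.1, h₂, h⟩

/-! ### Consequences of the decomposition hypothesis -/

variable (A F Fk)

/-- The decomposition hypothesis: every nonzero element of `F` is a constant times a quotient of
Gauss units. -/
def Dec : Prop := ∀ f : F, f ≠ 0 → ∃ c : L, c ≠ 0 ∧ ∃ Y₁ Y₂ : LaurentSeries A,
  IsIntU A F Fk Y₁ ∧ IsIntU A F Fk Y₂ ∧
    (f : LaurentSeries L) * inc A Y₂ = algebraMap L (LaurentSeries L) c * inc A Y₁

variable {A F Fk}

/-- Normal form: every nonzero `f` is `c • u` with `c ∈ Lˣ` and `u` a unit of the Gauss ring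
(nonzero reduction). -/
theorem exists_normalize (hdec : Dec A F Fk) (f : F) (hf : f ≠ 0) :
    ∃ (c : L) (u : gaussRing A F Fk), c ≠ 0 ∧ red A F Fk u ≠ 0 ∧ f = c • (u : F) := by
  obtain ⟨c, hc, Y₁, Y₂, h₁, h₂, h⟩ := hdec f hf
  have hY₂ : inc A Y₂ ≠ 0 := h₂.inc_ne_zero
  have hcF : algebraMap L F c ≠ 0 := by
    rw [Ne, map_eq_zero_iff _ (algebraMap L F).injective]; exact hc
  set u : F := (algebraMap L F c)⁻¹ * f with hu
  have hu' : (u : LaurentSeries L) * inc A Y₂ = inc A Y₁ := by
    have hcL : algebraMap L (LaurentSeries L) c ≠ 0 := by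
      rw [Ne, map_eq_zero_iff _ (algebraMap L (LaurentSeries L)).injective]; exact hc
    have : (u : LaurentSeries L) = (algebraMap L (LaurentSeries L) c)⁻¹ * (f : LaurentSeries L) := by
      rw [hu]; push_cast; rfl
    rw [this, mul_assoc, h, ← mul_assoc, inv_mul_cancel₀ hcL, one_mul]
  have hmem : u ∈ gaussRing A F Fk := div_mem_gaussRing h₁ h₂ hu'
  refine ⟨c, ⟨u, hmem⟩, hc, ?_, ?_⟩
  · rw [Ne, red_eq_zero_iff ⟨u, hmem⟩ h₁.1 h₂ hu']
    exact h₁.2
  · show f = c • u
    rw [Algebra.smul_def, hu, ← mul_assoc, mul_inv_cancel₀ hcF, one_mul]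

/-- The reduction of a unit of the Gauss ring is nonzero. -/
theorem red_ne_zero_of_inv_mem {f : gaussRing A F Fk} (hf : ((f : F))⁻¹ ∈ gaussRing A F Fk)
    (hf0 : (f : F) ≠ 0) : red A F Fk f ≠ 0 := by
  intro h
  have h1 : f * ⟨(f : F)⁻¹, hf⟩ = 1 := Subtype.ext (mul_inv_cancel₀ hf0)
  have h2 := congrArg (red A F Fk) h1
  rw [map_mul, h, zero_mul, map_one] at h2
  exact zero_ne_one h2

/-- If `c ∈ L` is nonzero and not in `A`, then `c⁻¹` is a nonunit of `A`. -/
theorem inv_mem_nonunits_of_not_mem {c : L} (hc : c ∉ A) :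
    ∃ d : A, (d : L) = c⁻¹ ∧ d ∈ nonunits A := by
  have hc0 : c ≠ 0 := fun h => hc (h ▸ A.zero_mem)
  have hmem : c⁻¹ ∈ A := (A.mem_or_inv_mem c).resolve_left hc
  refine ⟨⟨c⁻¹, hmem⟩, rfl, ?_⟩
  intro hu
  obtain ⟨e, he⟩ := hu.exists_right_inv
  have h1 : c⁻¹ * (e : L) = 1 := by
    have := congrArg Subtype.val he
    simpa using this
  have h2 : (e : L) = c := by
    have h3 : c * (c⁻¹ * (e : L)) = c * 1 := by rw [h1]
    rwa [← mul_assoc, mul_inv_cancel₀ hc0, one_mul, mul_one] at h3
  exact hc (h2 ▸ e.2)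

/-- In a normal form `f = c • u` of an element of the Gauss ring, the constant lies in `A`. -/
theorem const_mem_of_smul_mem {c : L} {u : gaussRing A F Fk} (hu : red A F Fk u ≠ 0)
    (h : c • (u : F) ∈ gaussRing A F Fk) : c ∈ A := by
  by_contra hc
  obtain ⟨d, hd, hdn⟩ := inv_mem_nonunits_of_not_mem hc
  have hc0 : c ≠ 0 := fun h0 => hc (h0 ▸ A.zero_mem)
  -- `u = d • (c • u)`
  have h1 : (u : F) = algebraMap L F (d : L) * (c • (u : F)) := by
    rw [hd, Algebra.smul_def, ← mul_assoc, ← map_mul, inv_mul_cancel₀ hc0, map_one, one_mul]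
  have h2 : u = ⟨algebraMap L F (d : L), algebraMap_mem_gaussRing d⟩ * ⟨c • (u : F), h⟩ :=
    Subtype.ext h1
  have h3 := congrArg (red A F Fk) h2
  rw [map_mul, red_algebraMap, (IsLocalRing.residue_eq_zero_iff d).mpr hdn, map_zero,
    zero_mul] at h3
  exact hu h3

/-- The Gauss ring is a valuation ring of `F`. -/
theorem mem_or_inv_mem (hdec : Dec A F Fk) (f : F) :
    f ∈ gaussRing A F Fk ∨ f⁻¹ ∈ gaussRing A F Fk := by
  rcases eq_or_ne f 0 with rfl | hf
  · exact Or.inl (zero_mem _)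
  obtain ⟨c, hc, Y₁, Y₂, h₁, h₂, h⟩ := hdec f hf
  have hcL : algebraMap L (LaurentSeries L) c ≠ 0 := by
    rw [Ne, map_eq_zero_iff _ (algebraMap L (LaurentSeries L)).injective]; exact hc
  rcases A.mem_or_inv_mem c with hcA | hcA
  · left
    refine ⟨HahnSeries.C ⟨c, hcA⟩ * Y₁, Y₂, (IsInt.const _).mul h₁.1, h₂, ?_⟩
    rw [h, map_mul, inc_C]
  · right
    refine ⟨HahnSeries.C ⟨c⁻¹, hcA⟩ * Y₂, Y₁, (IsInt.const _).mul h₂.1, h₁, ?_⟩
    rw [map_mul, inc_C]
    have hfL : (f : LaurentSeries L) ≠ 0 := fun h0 => hf (Subtype.ext h0)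
    have h4 : ((f⁻¹ : F) : LaurentSeries L) = ((f : F) : LaurentSeries L)⁻¹ := rfl
    rw [h4]
    have h5 : algebraMap L (LaurentSeries L) ((⟨c⁻¹, hcA⟩ : A) : L)
        = (algebraMap L (LaurentSeries L) c)⁻¹ := by
      rw [← map_inv₀]
    rw [h5]
    rw [inv_mul_eq_iff_eq_mul₀ hfL, ← mul_assoc, mul_comm (f : LaurentSeries L), mul_assoc, h,
      ← mul_assoc, inv_mul_cancel₀ hcL, one_mul]

/-- The kernel of the residue map: `red f = 0` forces `f = c • u` with `c` a nonunit of `A` and
`u` a unit of the Gauss ring. -/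
theorem exists_smul_of_red_eq_zero (hdec : Dec A F Fk) {f : gaussRing A F Fk}
    (hf0 : (f : F) ≠ 0) (hf : red A F Fk f = 0) :
    ∃ (c : A) (u : gaussRing A F Fk), c ∈ nonunits A ∧ c ≠ 0 ∧ red A F Fk u ≠ 0 ∧
      (f : F) = (c : L) • (u : F) := by
  obtain ⟨c, u, hc, hu, hfu⟩ := exists_normalize hdec (f : F) hf0
  have hcA : c ∈ A := const_mem_of_smul_mem hu (hfu ▸ f.2)
  refine ⟨⟨c, hcA⟩, u, ?_, fun h => hc (congrArg Subtype.val h), hu, hfu⟩
  intro hunit
  have h2 : f = ⟨algebraMap L F c, algebraMap_mem_gaussRing ⟨c, hcA⟩⟩ * u :=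
    Subtype.ext (by rw [hfu, Algebra.smul_def]; rfl)
  have h3 := congrArg (red A F Fk) h2
  rw [map_mul, hf, red_algebraMap ⟨c, hcA⟩] at h3
  have h4 : IsLocalRing.residue A ⟨c, hcA⟩ ≠ 0 := fun h =>
    ((IsLocalRing.residue_eq_zero_iff _).mp h) hunit
  have h5 : algebraMap (IsLocalRing.ResidueField A) Fk (IsLocalRing.residue A ⟨c, hcA⟩) ≠ 0 := by
    rw [Ne, map_eq_zero_iff _ (algebraMap (IsLocalRing.ResidueField A) Fk).injective]
    exact h4
  exact (mul_ne_zero h5 hu) h3.symm

/-- If `red f ≠ 0` then `f⁻¹` is in the Gauss ring (no hypothesis needed). -/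
theorem inv_mem_of_red_ne_zero {f : gaussRing A F Fk} (h : red A F Fk f ≠ 0) :
    ((f : F))⁻¹ ∈ gaussRing A F Fk := by
  obtain ⟨n, Y, hn, hY, hfY, -⟩ := exists_pres f
  have hn' : rd A n ≠ 0 := fun h0 => h ((red_eq_zero_iff f hn hY hfY).mpr h0)
  have hnU : IsIntU A F Fk n := ⟨hn, hn'⟩
  have hf0 : ((f : F) : LaurentSeries L) ≠ 0 := by
    intro h0
    rw [h0, zero_mul] at hfY
    exact hnU.inc_ne_zero hfY.symm
  refine ⟨Y, n, hY.1, hnU, ?_⟩
  have h4 : (((f : F)⁻¹ : F) : LaurentSeries L) = ((f : F) : LaurentSeries L)⁻¹ := rfl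
  rw [h4, ← hfY, ← mul_assoc, inv_mul_cancel₀ hf0, one_mul]

/-- `red f ≠ 0` iff `f` is a unit of the Gauss ring. -/
theorem red_ne_zero_iff {f : gaussRing A F Fk} (hf0 : (f : F) ≠ 0) :
    red A F Fk f ≠ 0 ↔ ((f : F))⁻¹ ∈ gaussRing A F Fk :=
  ⟨inv_mem_of_red_ne_zero, fun h => red_ne_zero_of_inv_mem h hf0⟩

/-- Reductions that are linearly independent over the residue field lift to linearly independent
elements over `L`. -/
theorem linearIndependent_of_red {ι : Type*} (f : ι → gaussRing A F Fk)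
    (h : LinearIndependent (IsLocalRing.ResidueField A) fun i => red A F Fk (f i)) :
    LinearIndependent L fun i => ((f i : gaussRing A F Fk) : F) := by
  classical
  rw [linearIndependent_iff']
  intro s g hg
  by_contra hne
  push Not at hne
  obtain ⟨i₀, hi₀, hgi₀⟩ := hne
  -- choose an index where the coefficient has maximal absolute value
  have hsne : (s.filter fun i => g i ≠ 0).Nonempty := ⟨i₀, Finset.mem_filter.mpr ⟨hi₀, hgi₀⟩⟩
  obtain ⟨j, hj, hjmax⟩ := Finset.exists_max_image (s.filter fun i => g i ≠ 0)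
    (fun i => A.valuation (g i)) hsne
  have hjs : j ∈ s := (Finset.mem_filter.mp hj).1
  have hgj : g j ≠ 0 := (Finset.mem_filter.mp hj).2
  -- the normalised coefficients lie in `A`
  have hmem : ∀ i ∈ s, g i / g j ∈ A := by
    intro i hi
    by_cases hgi : g i = 0
    · rw [hgi, zero_div]; exact A.zero_mem
    · have hle := hjmax i (Finset.mem_filter.mpr ⟨hi, hgi⟩)
      rw [← A.valuation_le_one_iff, map_div₀]
      exact div_le_one_of_le₀ hle zero_le
  set c : ι → A := fun i => if hi : i ∈ s then ⟨g i / g j, hmem i hi⟩ else 0 with hc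
  have hcj : c j = 1 := by
    rw [hc]
    simp only [hjs, dif_pos]
    exact Subtype.ext (div_self hgj)
  -- the normalised relation in the Gauss ring
  have hrel : ∑ i ∈ s, (⟨algebraMap L F (c i : L), algebraMap_mem_gaussRing (c i)⟩ :
      gaussRing A F Fk) * f i = 0 := by
    apply Subtype.ext
    have h1 : ∀ i ∈ s, (((⟨algebraMap L F (c i : L), algebraMap_mem_gaussRing (c i)⟩ :
        gaussRing A F Fk) * f i : gaussRing A F Fk) : F) = (g j)⁻¹ • (g i • ((f i : gaussRing A F Fk) : F)) := by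
      intro i hi
      have : (c i : L) = g i / g j := by rw [hc]; simp only [hi, dif_pos]
      show algebraMap L F (c i : L) * ((f i : gaussRing A F Fk) : F) = _
      rw [this, smul_smul, Algebra.smul_def, div_eq_inv_mul]
    have h2 : ((∑ i ∈ s, (⟨algebraMap L F (c i : L), algebraMap_mem_gaussRing (c i)⟩ :
        gaussRing A F Fk) * f i : gaussRing A F Fk) : F)
        = ∑ i ∈ s, (((⟨algebraMap L F (c i : L), algebraMap_mem_gaussRing (c i)⟩ :
        gaussRing A F Fk) * f i : gaussRing A F Fk) : F) :=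
      map_sum (gaussRing A F Fk).subtype _ s
    rw [h2, Finset.sum_congr rfl h1, ← Finset.smul_sum, hg, smul_zero]
    rfl
  have hred := congrArg (red A F Fk) hrel
  rw [map_sum, map_zero] at hred
  have hred' : ∑ i ∈ s, IsLocalRing.residue A (c i) • red A F Fk (f i) = 0 := by
    rw [← hred]
    refine Finset.sum_congr rfl fun i _ => ?_
    rw [map_mul, red_algebraMap, Algebra.smul_def]
  have h0 := (linearIndependent_iff'.mp h) s (fun i => IsLocalRing.residue A (c i)) hred' j hjs
  rw [hcj, map_one] at h0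
  exact one_ne_zero h0

end Fermat.Agent.S18.Gauss
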