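import Mathlib
import Fermat.Prelude.Def_ModularCurve_ReductionModL
import Fermat.Prelude.Def_AlgebraicCurve_Repartitions
import Fermat.Agent.S24.FFBasic
import Fermat.Agent.S24.FFPrincipal
import Fermat.Agent.S24.Degree
import Fermat.Agent.S18.Gauss
import Fermat.Agent.S18.RedExt

/-!
# S18 infrastructure (I3): reduction of Riemann–Roch lattices

`A` is a valuation ring of `ℚ̄`, `k` its residue field, `F = modularFunctionFieldBar N`,
`Fk = modularFunctionFieldFullC k N`, and `r` a place reduction map in the sense of the prelude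
(`IsPlaceReductionModL A N r`).  With the Gauss ring `O = gaussRing A F Fk` and its residue
homomorphism `red : O →+* Fk` (file `Gauss`):

* `mapDomain_dv_red` : for `f ∈ O` with `red f ≠ 0`, `r_* (div f) = div (red f)`;
* `red_mem_riemannRochSpace` : `red` maps `Λ(D) = L(D) ∩ O` into `L̄(r_* D)`;
* `exists_smul_of_mem_of_red_eq_zero` : (under `Dec`) the kernel of `red` on `Λ(D)` consists of
  the `c • u` with `c` a nonunit of `A` and `u ∈ Λ(D)`, `red u ≠ 0` (injectivity modulo `𝔪_A`);
* `linearIndependent_of_red` (file `Gauss`) : linear independence lifts;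
* `card_le_finrank_of_linearIndependent_red` : the resulting dimension inequality;
* `dec_of_hgen` : the decomposition hypothesis `Dec` holds under `PrincipalGeneratedByIntegral`
  (adapter to `RedExt.exists_presentation`), so that the Gauss ring is a valuation ring of `F`
  (`mem_or_inv_mem_OO`);
* `redN_surjective` : the residue homomorphism is onto `Fk` (adapter to `RedExt.exists_lift`).
-/

set_option autoImplicit false

noncomputable section

namespace Fermat.Agent.S18.Lattice

open ModularCurve AlgebraicCurve HahnSeries Fermat.Agent.S18.Gauss Fermat.Agent.S24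

variable (A : ValuationSubring (AlgebraicClosure ℚ)) (N : ℕ) [NeZero N]

/-- The function field in characteristic `ℓ` (over the residue field of `A`). -/
abbrev FkN : IntermediateField (IsLocalRing.ResidueField A)
    (LaurentSeries (IsLocalRing.ResidueField A)) :=
  modularFunctionFieldFullC (IsLocalRing.ResidueField A) N

/-- The Gauss ring of `modularFunctionFieldBar N`. -/
abbrev OO : Subring (modularFunctionFieldBar N) :=
  gaussRing A (modularFunctionFieldBar N) (FkN A N)

/-- The residue homomorphism of the Gauss ring. -/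
abbrev redN : OO A N →+* FkN A N := red A (modularFunctionFieldBar N) (FkN A N)

/-- The divisor of a function of `modularFunctionFieldBar N`. -/
def dv (f : modularFunctionFieldBar N) : Divisor (AlgebraicClosure ℚ) (modularFunctionFieldBar N) :=
  haveI := Degree.finiteDimensional_jF N
  FFPrincipal.divOf (Eval.jF N) (Degree.transcendental_jF N) f

@[simp]
theorem dv_apply (f : modularFunctionFieldBar N)
    (P : Place (AlgebraicClosure ℚ) (modularFunctionFieldBar N)) : dv N f P = P.ord f := rfl

theorem dv_eq {D : Divisor (AlgebraicClosure ℚ) (modularFunctionFieldBar N)}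
    {f : modularFunctionFieldBar N} (h : ∀ P, D P = P.ord f) : D = dv N f :=
  Finsupp.ext fun P => by rw [h P, dv_apply]

variable {A N}
variable {r : Place (AlgebraicClosure ℚ) (modularFunctionFieldBar N) →
  Place (IsLocalRing.ResidueField A) (modularFunctionFieldFullC (IsLocalRing.ResidueField A) N)}

/-- The hypothesis of the prelude, for Gauss units. -/
theorem mapDomain_dv_of_isIntU (hr : IsPlaceReductionModL A N r) {y : LaurentSeries A}
    (hy : IsIntU A (modularFunctionFieldBar N) (FkN A N) y)
    (Q : Place (IsLocalRing.ResidueField A) (FkN A N)) :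
    Finsupp.mapDomain r (dv N ⟨inc A y, hy.1.1⟩) Q = Q.ord (⟨rd A y, hy.1.2⟩ : FkN A N) :=
  hr.2 y hy.1.1 hy.1.2 hy.2 _ (fun _ => rfl) Q

/-- **Divisor compatibility**: `r_* (div f) = div (red f)` for the units of the Gauss ring. -/
theorem mapDomain_dv_red (hr : IsPlaceReductionModL A N r) (f : OO A N)
    (hf : redN A N f ≠ 0) (Q : Place (IsLocalRing.ResidueField A) (FkN A N)) :
    Finsupp.mapDomain r (dv N (f : modularFunctionFieldBar N)) Q = Q.ord (redN A N f) := by
  obtain ⟨n, Y, hn, hY, hfY, -⟩ := exists_pres f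
  have hn' : rd A n ≠ 0 := fun h0 => hf ((red_eq_zero_iff f hn hY hfY).mpr h0)
  have hnU : IsIntU A (modularFunctionFieldBar N) (FkN A N) n := ⟨hn, hn'⟩
  -- in `F`: `f * Y = n`
  have hF : (f : modularFunctionFieldBar N) * ⟨inc A Y, hY.1.1⟩ = ⟨inc A n, hn.1⟩ :=
    Subtype.ext hfY
  have hYF : (⟨inc A Y, hY.1.1⟩ : modularFunctionFieldBar N) ≠ 0 :=
    fun h => hY.inc_ne_zero (congrArg Subtype.val h)
  have hnF : (⟨inc A n, hn.1⟩ : modularFunctionFieldBar N) ≠ 0 :=
    fun h => hnU.inc_ne_zero (congrArg Subtype.val h)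
  have hfF : (f : modularFunctionFieldBar N) ≠ 0 := by
    intro h0
    rw [h0, zero_mul] at hF
    exact hnF hF.symm
  have hdv : dv N (f : modularFunctionFieldBar N)
      = dv N ⟨inc A n, hn.1⟩ - dv N ⟨inc A Y, hY.1.1⟩ := by
    ext P
    rw [Finsupp.sub_apply, dv_apply, dv_apply, dv_apply, ← hF, P.ord_mul hfF hYF]
    ring
  rw [hdv, Finsupp.mapDomain_sub, Finsupp.sub_apply, mapDomain_dv_of_isIntU hr hnU,
    mapDomain_dv_of_isIntU hr hY]
  -- in `Fk`: `red f * Ȳ = n̄`
  have hk : redN A N f * (⟨rd A Y, hY.1.2⟩ : FkN A N) = ⟨rd A n, hn.2⟩ :=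
    Subtype.ext (red_mul_rd f hn hY hfY)
  have hYk : (⟨rd A Y, hY.1.2⟩ : FkN A N) ≠ 0 := fun h => hY.2 (congrArg Subtype.val h)
  rw [← hk, Q.ord_mul hf hYk]
  ring

/-- Push-forward of divisors preserves non-negativity. -/
theorem mapDomain_nonneg {α β : Type*} (φ : α → β) {E : α →₀ ℤ} (hE : ∀ a, 0 ≤ E a) (b : β) :
    0 ≤ Finsupp.mapDomain φ E b := by
  classical
  rw [Finsupp.mapDomain, Finsupp.sum, Finsupp.finsetSum_apply]
  refine Finset.sum_nonneg fun a _ => ?_
  rw [Finsupp.single_apply]
  split_ifs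
  · exact hE a
  · exact le_rfl

/-- **`red` maps `Λ(D)` into `L̄(r_* D)`.** -/
theorem red_mem_riemannRochSpace (hr : IsPlaceReductionModL A N r)
    (D : Divisor (AlgebraicClosure ℚ) (modularFunctionFieldBar N)) (f : OO A N)
    (hf : (f : modularFunctionFieldBar N) ∈ riemannRochSpace D) :
    redN A N f ∈ riemannRochSpace (Finsupp.mapDomain r D) := by
  rw [mem_riemannRochSpace_iff]
  intro Q
  by_cases h0 : redN A N f = 0
  · exact Or.inl h0
  right
  have hfF : (f : modularFunctionFieldBar N) ≠ 0 := by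
    intro h
    apply h0
    have : f = 0 := Subtype.ext h
    rw [this, map_zero]
  have hpos : ∀ P, 0 ≤ (dv N (f : modularFunctionFieldBar N) + D) P := by
    intro P
    rw [Finsupp.add_apply, dv_apply]
    rcases (mem_riemannRochSpace_iff.mp hf) P with h | h
    · exact absurd h hfF
    · linarith
  have h1 := mapDomain_nonneg r hpos Q
  rw [Finsupp.mapDomain_add, Finsupp.add_apply, mapDomain_dv_red hr f h0] at h1
  linarith

omit [NeZero N] in
/-- **Injectivity modulo `𝔪_A`**: an element of `Λ(D)` with zero reduction is `c • u` with `c` a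
nonzero nonunit of `A` and `u ∈ Λ(D)` with `red u ≠ 0`. -/
theorem exists_smul_of_mem_of_red_eq_zero
    (hdec : Dec A (modularFunctionFieldBar N) (FkN A N))
    (D : Divisor (AlgebraicClosure ℚ) (modularFunctionFieldBar N)) (f : OO A N)
    (hf : (f : modularFunctionFieldBar N) ∈ riemannRochSpace D)
    (hf0 : (f : modularFunctionFieldBar N) ≠ 0) (hred : redN A N f = 0) :
    ∃ (c : A) (u : OO A N), c ∈ nonunits A ∧ c ≠ 0 ∧ redN A N u ≠ 0 ∧
      (u : modularFunctionFieldBar N) ∈ riemannRochSpace D ∧
      (f : modularFunctionFieldBar N) = (c : AlgebraicClosure ℚ) • (u : modularFunctionFieldBar N) := by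
  obtain ⟨c, u, hc, hc0, hu, hfu⟩ := exists_smul_of_red_eq_zero hdec hf0 hred
  refine ⟨c, u, hc, hc0, hu, ?_, hfu⟩
  have hcL : (c : AlgebraicClosure ℚ) ≠ 0 := fun h => hc0 (Subtype.ext h)
  have : (u : modularFunctionFieldBar N) = (c : AlgebraicClosure ℚ)⁻¹ • (f : modularFunctionFieldBar N) := by
    rw [hfu, smul_smul, inv_mul_cancel₀ hcL, one_smul]
  rw [this]
  exact Submodule.smul_mem _ _ hf

omit [NeZero N] in
/-- Every nonzero element of `L(D)` is a constant multiple of an element of `Λ(D)` with nonzero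
reduction. -/
theorem exists_normalize_mem (hdec : Dec A (modularFunctionFieldBar N) (FkN A N))
    (D : Divisor (AlgebraicClosure ℚ) (modularFunctionFieldBar N))
    (f : modularFunctionFieldBar N) (hf : f ∈ riemannRochSpace D) (hf0 : f ≠ 0) :
    ∃ (c : AlgebraicClosure ℚ) (u : OO A N), c ≠ 0 ∧ redN A N u ≠ 0 ∧
      (u : modularFunctionFieldBar N) ∈ riemannRochSpace D ∧
      f = c • (u : modularFunctionFieldBar N) := by
  obtain ⟨c, u, hc, hu, hfu⟩ := exists_normalize hdec f hf0
  refine ⟨c, u, hc, hu, ?_, hfu⟩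
  have : (u : modularFunctionFieldBar N) = c⁻¹ • f := by
    rw [hfu, smul_smul, inv_mul_cancel₀ hc, one_smul]
  rw [this]
  exact Submodule.smul_mem _ _ hf

omit [NeZero N] in
/-- **The easy half of (1b)**: a family of elements of `Λ(D)` whose reductions are linearly
independent over `k` has at most `dim L(D)` members. -/
theorem card_le_finrank_of_linearIndependent_red
    (D : Divisor (AlgebraicClosure ℚ) (modularFunctionFieldBar N))
    [FiniteDimensional (AlgebraicClosure ℚ) (riemannRochSpace D)]
    {ι : Type*} [Fintype ι] (f : ι → OO A N)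
    (hf : ∀ i, ((f i : OO A N) : modularFunctionFieldBar N) ∈ riemannRochSpace D)
    (h : LinearIndependent (IsLocalRing.ResidueField A) fun i => redN A N (f i)) :
    Fintype.card ι ≤ Module.finrank (AlgebraicClosure ℚ) (riemannRochSpace D) := by
  have h1 : LinearIndependent (AlgebraicClosure ℚ)
      fun i => ((f i : OO A N) : modularFunctionFieldBar N) := linearIndependent_of_red f h
  have h2 : LinearIndependent (AlgebraicClosure ℚ)
      fun i => (⟨((f i : OO A N) : modularFunctionFieldBar N), hf i⟩ : riemannRochSpace D) := by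
    apply LinearIndependent.of_comp (riemannRochSpace D).subtype
    exact h1
  exact h2.fintype_card_le_finrank

/-! ### Adapters to `RedExt` -/

omit [NeZero N] in
theorem isIntU_of_isInt {y : LaurentSeries A}
    (hy : RedExt.IsInt A (IsLocalRing.residue A) N y) :
    IsIntU A (modularFunctionFieldBar N) (FkN A N) y :=
  ⟨⟨hy.1, hy.2.1⟩, hy.2.2⟩

omit [NeZero N] in
theorem isInt_of_isIntU {y : LaurentSeries A}
    (hy : IsIntU A (modularFunctionFieldBar N) (FkN A N) y) :
    RedExt.IsInt A (IsLocalRing.residue A) N y :=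
  ⟨hy.1.1, hy.1.2, hy.2⟩

theorem dv_eq_divF (f : modularFunctionFieldBar N) : dv N f = RedExt.divF N f := rfl

/-- The decomposition hypothesis holds under `PrincipalGeneratedByIntegral`. -/
theorem dec_of_hgen (hgen : PrincipalGeneratedByIntegral A (IsLocalRing.residue A) N) :
    Dec A (modularFunctionFieldBar N) (FkN A N) := by
  intro f hf
  obtain ⟨c, Y₁, Y₂, h₁, h₂, hc, h⟩ := RedExt.exists_presentation hgen f hf
  refine ⟨c, hc, Y₁, Y₂, isIntU_of_isInt h₁, isIntU_of_isInt h₂, ?_⟩
  have := congrArg Subtype.val h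
  exact this

/-- Under `PrincipalGeneratedByIntegral` the Gauss ring is a valuation ring of `F`. -/
theorem mem_or_inv_mem_OO (hgen : PrincipalGeneratedByIntegral A (IsLocalRing.residue A) N)
    (f : modularFunctionFieldBar N) : f ∈ OO A N ∨ f⁻¹ ∈ OO A N :=
  mem_or_inv_mem (dec_of_hgen hgen) f

omit [NeZero N] in
/-- The residue homomorphism of the Gauss ring is onto the function field in characteristic
`ℓ`. -/
theorem redN_surjective : Function.Surjective (redN A N) := by
  intro g
  rcases eq_or_ne g 0 with rfl | hg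
  · exact ⟨0, map_zero _⟩
  obtain ⟨Y₁, Y₂, h₁, h₂, h⟩ := RedExt.exists_lift (A := A) (N := N)
    (π := IsLocalRing.residue A) IsLocalRing.residue_surjective g hg
  have hU₁ := isIntU_of_isInt h₁
  have hU₂ := isIntU_of_isInt h₂
  -- the lift `Y₁ / Y₂`
  set f : modularFunctionFieldBar N := h₁.toF / h₂.toF with hf
  have hne : h₂.toF ≠ 0 := h₂.toF_ne_zero
  have hfY : (f : LaurentSeries (AlgebraicClosure ℚ)) * inc A Y₂ = inc A Y₁ := by
    have h3 : f * h₂.toF = h₁.toF := div_mul_cancel₀ _ hne
    exact congrArg Subtype.val h3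
  have hmem : f ∈ OO A N := div_mem_gaussRing hU₁ hU₂ hfY
  refine ⟨⟨f, hmem⟩, ?_⟩
  have h4 := red_mul_rd (F := modularFunctionFieldBar N) (Fk := FkN A N) ⟨f, hmem⟩ hU₁.1 hU₂ hfY
  have hk : (⟨rd A Y₂, hU₂.1.2⟩ : FkN A N) ≠ 0 := fun h0 => hU₂.2 (congrArg Subtype.val h0)
  apply mul_right_cancel₀ hk
  apply Subtype.ext
  rw [MulMemClass.coe_mul]
  rw [h4]
  exact (congrArg Subtype.val h).symm

end Fermat.Agent.S18.Lattice
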