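import Mathlib
import Fermat.Agent.S18.Lattice
import Fermat.Agent.S18.DegEq

/-!
# S18 infrastructure: the two charts of level `N` and the normality statement `(N)_N`

Shared literal definitions for the leaves of the S18 design.

`A` is a valuation ring of `KK = ℚ̄`, `k` its residue field, `F = FF N`, `Fk = FkN A N`,
`O_v = OO A N` the Gauss ring and `redN A N : O_v →+* Fk` its residue homomorphism.

* `regAt N g` : the functions regular at every place at which `g` is regular;
* `O1 A N` (`O2 A N`) : Gauss-integral functions regular wherever `j` (resp. `1/j`) is regular;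
* `O1int A N` : the elements of `O1 A N` whose `q`-expansion has coefficients in `A`;
* `R1, R2, R1int` : their images under `redN`;
* `B1b, B2b` : the integral closures of `k[j̄]`, `k[1/j̄]` in `Fk`;
* `NormalStmt A N` : `R1 = B1b ∧ R2 = B2b`.
-/

set_option autoImplicit false

noncomputable section

namespace Fermat.Agent.S18.Charts

open ModularCurve AlgebraicCurve HahnSeries Fermat.Agent.S18.Gauss Fermat.Agent.S18.Lattice
  Fermat.Agent.S24 Fermat.Agent.S24.Eval

variable (A : ValuationSubring KK) (N : ℕ) [NeZero N]

/-- The functions of `FF N` that are regular at every place at which `g` is regular. -/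
def regAt (g : FF N) : Subring (FF N) where
  carrier := {f | ∀ P : Place KK (FF N), g ∈ P.toValuationSubring → f ∈ P.toValuationSubring}
  mul_mem' := fun hf hg P hP => mul_mem (hf P hP) (hg P hP)
  one_mem' := fun P _ => one_mem _
  add_mem' := fun hf hg P hP => add_mem (hf P hP) (hg P hP)
  zero_mem' := fun P _ => zero_mem _
  neg_mem' := fun hf P hP => neg_mem (hf P hP)

theorem mem_regAt {g f : FF N} :
    f ∈ regAt N g ↔ ∀ P : Place KK (FF N), g ∈ P.toValuationSubring → f ∈ P.toValuationSubring :=
  Iff.rfl

theorem self_mem_regAt (g : FF N) : g ∈ regAt N g := fun _ hP => hP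

theorem algebraMap_mem_regAt (g : FF N) (c : KK) : algebraMap KK (FF N) c ∈ regAt N g :=
  fun P _ => P.algebraMap_mem' c

/-- Chart 1 over `A`: Gauss-integral functions regular at the finite places. -/
def O1 : Subring (FF N) := OO A N ⊓ regAt N (jF N)

/-- Chart 2 over `A`: Gauss-integral functions regular away from the zeros of `j`. -/
def O2 : Subring (FF N) := OO A N ⊓ regAt N (jF N)⁻¹

theorem mem_O1 {f : FF N} : f ∈ O1 A N ↔ f ∈ OO A N ∧ f ∈ regAt N (jF N) := Iff.rfl

theorem mem_O2 {f : FF N} : f ∈ O2 A N ↔ f ∈ OO A N ∧ f ∈ regAt N (jF N)⁻¹ := Iff.rfl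

/-- The functions whose `q`-expansion has coefficients in `A`. -/
def intSeries : Subring (FF N) where
  carrier := {f | ∃ y : LaurentSeries A, inc A y = (f : LaurentSeries KK)}
  mul_mem' := by
    rintro f g ⟨y, hy⟩ ⟨z, hz⟩
    exact ⟨y * z, by rw [map_mul, hy, hz]; rfl⟩
  one_mem' := ⟨1, by rw [map_one]; rfl⟩
  add_mem' := by
    rintro f g ⟨y, hy⟩ ⟨z, hz⟩
    exact ⟨y + z, by rw [map_add, hy, hz]; rfl⟩
  zero_mem' := ⟨0, by rw [map_zero]; rfl⟩
  neg_mem' := by
    rintro f ⟨y, hy⟩
    exact ⟨-y, by rw [map_neg, hy]; rfl⟩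

theorem mem_intSeries {f : FF N} :
    f ∈ intSeries A N ↔ ∃ y : LaurentSeries A, inc A y = (f : LaurentSeries KK) := Iff.rfl

/-- The integral part of chart 1: Gauss-integral, regular at the finite places, and with
`q`-expansion in `A((q))`. -/
def O1int : Subring (FF N) := O1 A N ⊓ intSeries A N

theorem mem_O1int {f : FF N} :
    f ∈ O1int A N ↔ f ∈ OO A N ∧ f ∈ regAt N (jF N) ∧ f ∈ intSeries A N := by
  simp only [O1int, O1, Subring.mem_inf, and_assoc]

theorem O1int_le_O1 : O1int A N ≤ O1 A N := inf_le_left

theorem O1_le_OO : O1 A N ≤ OO A N := inf_le_left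

theorem O2_le_OO : O2 A N ≤ OO A N := inf_le_left

/-- A series with coefficients in `A` representing a Gauss-integral function is integral in the
sense of `Gauss.IsInt` (its reduction lies in `Fk`). -/
theorem isInt_of_mem {f : FF N} (hf : f ∈ OO A N) {y : LaurentSeries A}
    (hy : inc A y = (f : LaurentSeries KK)) : IsInt A (modularFunctionFieldBar N) (FkN A N) y := by
  obtain ⟨n, Y, hn, hY, h⟩ := hf
  refine ⟨by rw [hy]; exact f.2, ?_⟩
  have h1 : y * Y = n := by
    apply inc_injective A
    rw [map_mul, hy, h]
  have h2 : rd A y * rd A Y = rd A n := by rw [← map_mul, h1]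
  have h3 : rd A y = rd A n * (rd A Y)⁻¹ := by
    rw [← h2, mul_assoc, mul_inv_cancel₀ hY.2, mul_one]
  rw [h3]
  exact mul_mem hn.2 (inv_mem hY.1.2)

/-- The reduction of a function with `q`-expansion `y ∈ A((q))` is the coefficientwise
reduction of `y`. -/
theorem redN_eq_rd {f : FF N} (hf : f ∈ OO A N) {y : LaurentSeries A}
    (hy : inc A y = (f : LaurentSeries KK)) :
    ((redN A N ⟨f, hf⟩ : FkN A N) : LaurentSeries (IsLocalRing.ResidueField A)) = rd A y := by
  have hI := isInt_of_mem A N hf hy
  have h := red_mul_rd (F := modularFunctionFieldBar N) (Fk := FkN A N) ⟨f, hf⟩ hI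
    IsIntU.one (by simpa using hy.symm)
  simpa using h

/-- The image under `redN` of a subring of `FF N` (intersected with the Gauss ring). -/
def redImage (S : Subring (FF N)) : Subring (FkN A N) :=
  (S.comap (OO A N).subtype).map (redN A N)

theorem mem_redImage {S : Subring (FF N)} {x : FkN A N} :
    x ∈ redImage A N S ↔ ∃ f : OO A N, (f : FF N) ∈ S ∧ redN A N f = x := by
  simp only [redImage, Subring.mem_map, Subring.mem_comap, Subring.coe_subtype]

theorem redImage_mono {S T : Subring (FF N)} (h : S ≤ T) : redImage A N S ≤ redImage A N T := by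
  intro x hx
  obtain ⟨f, hf, rfl⟩ := (mem_redImage A N).mp hx
  exact (mem_redImage A N).mpr ⟨f, h hf, rfl⟩

/-- The reduction of chart 1. -/
def R1 : Subring (FkN A N) := redImage A N (O1 A N)

/-- The reduction of chart 2. -/
def R2 : Subring (FkN A N) := redImage A N (O2 A N)

/-- The reduction of the integral part of chart 1. -/
def R1int : Subring (FkN A N) := redImage A N (O1int A N)

theorem R1int_le_R1 : R1int A N ≤ R1 A N := redImage_mono A N (O1int_le_O1 A N)

/-- The integral closure of `k[j̄]` in `Fk`, for an arbitrary field `k`. -/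
def B1k (k : Type) [Field k] (N : ℕ) : Subring (modularFunctionFieldFullC k N) :=
  (integralClosure (Algebra.adjoin k {DegEq.jk k N}) (modularFunctionFieldFullC k N)).toSubring

/-- The integral closure of `k[1/j̄]` in `Fk`, for an arbitrary field `k`. -/
def B2k (k : Type) [Field k] (N : ℕ) : Subring (modularFunctionFieldFullC k N) :=
  (integralClosure (Algebra.adjoin k {(DegEq.jk k N)⁻¹}) (modularFunctionFieldFullC k N)).toSubring

theorem mem_B1k {k : Type} [Field k] {N : ℕ} {x : modularFunctionFieldFullC k N} :
    x ∈ B1k k N ↔ IsIntegral (Algebra.adjoin k {DegEq.jk k N}) x := Iff.rfl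

theorem mem_B2k {k : Type} [Field k] {N : ℕ} {x : modularFunctionFieldFullC k N} :
    x ∈ B2k k N ↔ IsIntegral (Algebra.adjoin k {(DegEq.jk k N)⁻¹}) x := Iff.rfl

/-- `j̄` as an element of `Fk`. -/
abbrev jb : FkN A N := DegEq.jk (IsLocalRing.ResidueField A) N

/-- The integral closure of `k[j̄]` in `Fk`. -/
def B1b : Subring (FkN A N) := B1k (IsLocalRing.ResidueField A) N

/-- The integral closure of `k[1/j̄]` in `Fk`. -/
def B2b : Subring (FkN A N) := B2k (IsLocalRing.ResidueField A) N

/-- Normality of the reduction of chart 1. -/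
def NormalStmt1 : Prop := R1 A N = B1b A N

/-- Normality of the reduction of chart 2. -/
def NormalStmt2 : Prop := R2 A N = B2b A N

/-- `(N)_N`: the reductions of both charts of level `N` are normal. -/
def NormalStmt : Prop := NormalStmt1 A N ∧ NormalStmt2 A N

/-- The form in which the Taylor leaf delivers normality at the auxiliary level: the reduction
of the integral part of chart 1 already contains the integral closure of `k[j̄]`. -/
def NormalStmtInt : Prop := B1b A N ≤ R1int A N

end Fermat.Agent.S18.Charts
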