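import Mathlib
import Fermat.Agent.S18.Gauss

/-!
# S18 infrastructure: the decomposition property `Dec` from a degree inequality

Setting of `Gauss.lean`: `A` a valuation ring of a field `L` with residue field `k`,
`F ⊆ L((q))` and `Fk ⊆ k((q))` intermediate fields.  At a level where no hypothesis
`PrincipalGeneratedByIntegral` is available, the decomposition property `Dec A F Fk`
(every nonzero `f ∈ F` is `c * Y₁ / Y₂` with `c ∈ Lˣ` and Gauss units `Y₁`, `Y₂`) follows from
the degree inequality:

* `dec_of_finrank` : if `J` is integral with `j̄ = rd J` transcendental over `k`, the integral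
  series `Y_i` (`i ∈ ι`) have reductions linearly independent over `k(j̄)`, and
  `[F : L(j)] ≤ #ι`, then `Dec A F Fk`.
* `dec_of_poly` : the same in polynomial form (no field-theoretic bookkeeping).
* `exists_primitive` : primitive scaling of a finite family of polynomials over `L`.
* `polyIndep_inc`, `linearIndependent_inc`, `transcendental_inc` : independence lifts from the
  reductions to characteristic `0`.

Proof: the `Y_i` are a basis of `F` over `L(j)`; write `f * Q(j) = ∑ P_i(j) Y_i`, scale `Q` and
the family `(P_i)` to primitive polynomials over `A`; then `Y₂ = Q'(J)` and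
`Y₁ = ∑ P_i'(J) Y_i` have nonzero reductions.
-/

set_option autoImplicit false

noncomputable section

namespace Fermat.Agent.S18.DecDeg

open ModularCurve HahnSeries Fermat.Agent.S18.Gauss Polynomial

variable {L : Type*} [Field L] (A : ValuationSubring L)

/-- Evaluation of a polynomial with coefficients in `A` at a series of `A((q))`. -/
def evA (J : LaurentSeries A) (P : Polynomial A) : LaurentSeries A :=
  Polynomial.eval₂ (HahnSeries.C : A →+* LaurentSeries A) J P

theorem inc_comp_C : (inc A).comp (HahnSeries.C : A →+* LaurentSeries A) =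
    (algebraMap L (LaurentSeries L)).comp A.subtype :=
  RingHom.ext fun c => inc_C A c

theorem rd_comp_C : (rd A).comp (HahnSeries.C : A →+* LaurentSeries A) =
    (algebraMap (IsLocalRing.ResidueField A) (LaurentSeries (IsLocalRing.ResidueField A))).comp
      (IsLocalRing.residue A) :=
  RingHom.ext fun c => rd_C A c

theorem inc_evA (J : LaurentSeries A) (P : Polynomial A) :
    inc A (evA A J P) = Polynomial.aeval (inc A J) (P.map A.subtype) := by
  rw [evA, Polynomial.hom_eval₂, Polynomial.aeval_def, Polynomial.eval₂_map, inc_comp_C]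

theorem rd_evA (J : LaurentSeries A) (P : Polynomial A) :
    rd A (evA A J P) = Polynomial.aeval (rd A J) (P.map (IsLocalRing.residue A)) := by
  rw [evA, Polynomial.hom_eval₂, Polynomial.aeval_def, Polynomial.eval₂_map, rd_comp_C]

variable {A}
variable {F : IntermediateField L (LaurentSeries L)}
  {Fk : IntermediateField (IsLocalRing.ResidueField A)
    (LaurentSeries (IsLocalRing.ResidueField A))}

theorem aeval_mem_intermediateField {K E : Type*} [Field K] [Field E] [Algebra K E]
    (S : IntermediateField K E) {x : E} (hx : x ∈ S) (P : Polynomial K) :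
    Polynomial.aeval x P ∈ S := by
  have h : Polynomial.aeval x P = ((Polynomial.aeval (⟨x, hx⟩ : S) P : S) : E) := by
    rw [← IntermediateField.coe_val, ← Polynomial.aeval_algHom_apply]
    rfl
  rw [h]
  exact Subtype.property _

theorem isInt_evA {J : LaurentSeries A} (hJ : IsInt A F Fk J) (P : Polynomial A) :
    IsInt A F Fk (evA A J P) :=
  ⟨by rw [inc_evA]; exact aeval_mem_intermediateField F hJ.1 _,
   by rw [rd_evA]; exact aeval_mem_intermediateField Fk hJ.2 _⟩

/-- **Primitive scaling**: a finite family of polynomials over `L`, not all zero, is a nonzero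
constant times a family of polynomials over `A` one of which has nonzero reduction. -/
theorem exists_primitive {ι : Type*} [Fintype ι] (P : ι → Polynomial L) (hP : ∃ i, P i ≠ 0) :
    ∃ (c : L) (P' : ι → Polynomial A), c ≠ 0 ∧
      (∀ i, P i = Polynomial.C c * (P' i).map A.subtype) ∧
      ∃ i, (P' i).map (IsLocalRing.residue A) ≠ 0 := by
  classical
  obtain ⟨i₀, hi₀⟩ := hP
  -- the finite set of nonzero coefficients
  set S : Finset (ι × ℕ) :=
    (Finset.univ : Finset ι).biUnion fun i => (P i).support.image fun m => (i, m) with hS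
  have hmemS : ∀ p : ι × ℕ, p ∈ S ↔ (P p.1).coeff p.2 ≠ 0 := by
    rintro ⟨i, m⟩
    simp only [hS, Finset.mem_biUnion, Finset.mem_univ, true_and, Finset.mem_image,
      Polynomial.mem_support_iff, Prod.mk.injEq]
    constructor
    · rintro ⟨i', m', h, rfl, rfl⟩
      exact h
    · intro h
      exact ⟨i, m, h, rfl, rfl⟩
  have hne : S.Nonempty := by
    obtain ⟨m, hm⟩ : ∃ m, (P i₀).coeff m ≠ 0 := by
      by_contra hcon
      push Not at hcon
      exact hi₀ (Polynomial.ext fun m => by rw [hcon m, Polynomial.coeff_zero])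
    exact ⟨(i₀, m), (hmemS _).mpr hm⟩
  obtain ⟨⟨j, n⟩, hjS, hmax⟩ := Finset.exists_max_image S
    (fun p => A.valuation ((P p.1).coeff p.2)) hne
  set c : L := (P j).coeff n with hc
  have hc0 : c ≠ 0 := (hmemS (j, n)).mp hjS
  have hmem : ∀ i m, c⁻¹ * (P i).coeff m ∈ A := by
    intro i m
    by_cases h0 : (P i).coeff m = 0
    · rw [h0, mul_zero]; exact A.zero_mem
    · have hle := hmax (i, m) ((hmemS (i, m)).mpr h0)
      rw [← A.valuation_le_one_iff, map_mul, map_inv₀, mul_comm, ← div_eq_mul_inv]
      exact div_le_one_of_le₀ hle zero_le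
  have hlift : ∀ i, ∃ Q : Polynomial A, Q.map A.subtype = Polynomial.C c⁻¹ * P i := by
    intro i
    have : Polynomial.C c⁻¹ * P i ∈ Polynomial.lifts A.subtype := by
      rw [Polynomial.lifts_iff_coeff_lifts]
      intro m
      rw [Polynomial.coeff_C_mul]
      exact ⟨⟨_, hmem i m⟩, rfl⟩
    exact (Polynomial.mem_lifts _).mp this
  choose P' hP' using hlift
  refine ⟨c, P', hc0, fun i => ?_, j, ?_⟩
  · rw [hP' i, ← mul_assoc, ← Polynomial.C_mul, mul_inv_cancel₀ hc0, Polynomial.C_1, one_mul]
  · intro h
    have h1 : ((P' j).map A.subtype).coeff n = 1 := by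
      rw [hP' j, Polynomial.coeff_C_mul, ← hc, inv_mul_cancel₀ hc0]
    rw [Polynomial.coeff_map] at h1
    have h2 : (P' j).coeff n = 1 := Subtype.ext h1
    have h3 := congrArg (fun Q : Polynomial (IsLocalRing.ResidueField A) => Q.coeff n) h
    simp only [Polynomial.coeff_map, Polynomial.coeff_zero, h2, map_one] at h3
    exact one_ne_zero h3


/-- A finite sum of products `P_i(J) * Y_i`. -/
theorem inc_sum_evA {ι : Type*} [Fintype ι] (J : LaurentSeries A) (Y : ι → LaurentSeries A)
    (P' : ι → Polynomial A) :
    inc A (∑ i, evA A J (P' i) * Y i) =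
      ∑ i, Polynomial.aeval (inc A J) ((P' i).map A.subtype) * inc A (Y i) := by
  rw [map_sum]
  exact Finset.sum_congr rfl fun i _ => by rw [map_mul, inc_evA]

theorem rd_sum_evA {ι : Type*} [Fintype ι] (J : LaurentSeries A) (Y : ι → LaurentSeries A)
    (P' : ι → Polynomial A) :
    rd A (∑ i, evA A J (P' i) * Y i) =
      ∑ i, Polynomial.aeval (rd A J) ((P' i).map (IsLocalRing.residue A)) * rd A (Y i) := by
  rw [map_sum]
  exact Finset.sum_congr rfl fun i _ => by rw [map_mul, rd_evA]

theorem isInt_sum_evA {ι : Type*} [Fintype ι] {J : LaurentSeries A} (hJ : IsInt A F Fk J)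
    {Y : ι → LaurentSeries A} (hY : ∀ i, IsInt A F Fk (Y i)) (P' : ι → Polynomial A) :
    IsInt A F Fk (∑ i, evA A J (P' i) * Y i) := by
  classical
  have key : ∀ s : Finset ι, IsInt A F Fk (∑ i ∈ s, evA A J (P' i) * Y i) := by
    intro s
    induction s using Finset.induction_on with
    | empty => rw [Finset.sum_empty]; exact IsInt.zero
    | insert a s ha ih =>
      rw [Finset.sum_insert ha]
      exact ((isInt_evA hJ _).mul (hY a)).add ih
  exact key _

/-- The polynomial form of "the reductions `Ȳ_i` are linearly independent over `k(j̄)`". -/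
def PolyIndep (J : LaurentSeries A) {ι : Type*} [Fintype ι] (Y : ι → LaurentSeries A) : Prop :=
  ∀ P : ι → Polynomial (IsLocalRing.ResidueField A),
    ∑ i, Polynomial.aeval (rd A J) (P i) * rd A (Y i) = 0 → ∀ i, P i = 0

/-- If the reductions are polynomially independent, a primitive combination has nonzero
reduction. -/
theorem rd_sum_evA_ne_zero {ι : Type*} [Fintype ι] {J : LaurentSeries A}
    {Y : ι → LaurentSeries A} (hind : PolyIndep J Y) {P' : ι → Polynomial A}
    (hP' : ∃ i, (P' i).map (IsLocalRing.residue A) ≠ 0) :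
    rd A (∑ i, evA A J (P' i) * Y i) ≠ 0 := by
  intro h
  rw [rd_sum_evA] at h
  obtain ⟨i, hi⟩ := hP'
  exact hi (hind _ h i)

/-- **Independence lifts**: if the reductions `Ȳ_i` are polynomially independent over `k[j̄]`,
the `Y_i` are polynomially independent over `L[j]`. -/
theorem polyIndep_inc {ι : Type*} [Fintype ι] {J : LaurentSeries A}
    {Y : ι → LaurentSeries A} (hind : PolyIndep J Y) (P : ι → Polynomial L)
    (h : ∑ i, Polynomial.aeval (inc A J) (P i) * inc A (Y i) = 0) : ∀ i, P i = 0 := by
  by_contra hcon
  push Not at hcon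
  obtain ⟨c, P', hc, hPP', hprim⟩ := exists_primitive (A := A) P hcon
  have h1 : algebraMap L (LaurentSeries L) c * inc A (∑ i, evA A J (P' i) * Y i) = 0 := by
    rw [inc_sum_evA, Finset.mul_sum, ← h]
    refine Finset.sum_congr rfl fun i _ => ?_
    rw [hPP' i, map_mul, Polynomial.aeval_C, mul_assoc]
  have hcL : algebraMap L (LaurentSeries L) c ≠ 0 := by
    rw [Ne, map_eq_zero_iff _ (algebraMap L (LaurentSeries L)).injective]; exact hc
  have h2 : inc A (∑ i, evA A J (P' i) * Y i) = 0 := by
    rcases mul_eq_zero.mp h1 with h | h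
    · exact absurd h hcL
    · exact h
  have h3 : ∑ i, evA A J (P' i) * Y i = 0 := inc_injective A (h2.trans (map_zero _).symm)
  exact rd_sum_evA_ne_zero hind hprim (by rw [h3, map_zero])

/-- Transcendence of the reduction `j̄` gives polynomial independence of the family `{1}`. -/
theorem polyIndep_one {J : LaurentSeries A}
    (hJt : Transcendental (IsLocalRing.ResidueField A) (rd A J)) :
    PolyIndep J (fun _ : Unit => (1 : LaurentSeries A)) := by
  intro P h i
  rw [Fintype.sum_unique, map_one, mul_one] at h
  have := (transcendental_iff.mp hJt) _ h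
  cases i
  exact this

/-- If `j̄` is transcendental over `k`, then `j` is transcendental over `L`. -/
theorem transcendental_inc {J : LaurentSeries A}
    (hJt : Transcendental (IsLocalRing.ResidueField A) (rd A J)) :
    Transcendental L (inc A J) := by
  rw [transcendental_iff]
  intro P hP
  have := polyIndep_inc (polyIndep_one hJt) (fun _ : Unit => P) (by
    rw [Fintype.sum_unique, map_one, mul_one]; exact hP)
  exact this ()

/-- **The decomposition property from a spanning family with independent reductions**
(polynomial form). -/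
theorem dec_of_poly {J : LaurentSeries A} (hJ : IsInt A F Fk J)
    (hJt : Transcendental (IsLocalRing.ResidueField A) (rd A J))
    {ι : Type*} [Fintype ι] {Y : ι → LaurentSeries A} (hY : ∀ i, IsInt A F Fk (Y i))
    (hind : PolyIndep J Y)
    (hspan : ∀ f : F, ∃ Q : Polynomial L, Q ≠ 0 ∧ ∃ P : ι → Polynomial L,
      (f : LaurentSeries L) * Polynomial.aeval (inc A J) Q =
        ∑ i, Polynomial.aeval (inc A J) (P i) * inc A (Y i)) :
    Dec A F Fk := by
  intro f hf
  obtain ⟨Q, hQ, P, hfQ⟩ := hspan f
  have hjt := transcendental_inc hJt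
  have hQj : Polynomial.aeval (inc A J) Q ≠ 0 := fun h => hQ ((transcendental_iff.mp hjt) _ h)
  have hfL : (f : LaurentSeries L) ≠ 0 := fun h => hf (Subtype.ext h)
  have hP : ∃ i, P i ≠ 0 := by
    by_contra hcon
    push Not at hcon
    have : (f : LaurentSeries L) * Polynomial.aeval (inc A J) Q = 0 := by
      rw [hfQ]
      exact Finset.sum_eq_zero fun i _ => by rw [hcon i, map_zero, zero_mul]
    exact mul_ne_zero hfL hQj this
  -- scale the denominator and the numerators
  obtain ⟨c₁, Q', hc₁, hQQ', hQprim⟩ :=
    exists_primitive (A := A) (fun _ : Unit => Q) ⟨(), hQ⟩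
  obtain ⟨c₂, P', hc₂, hPP', hPprim⟩ := exists_primitive (A := A) P hP
  have hY₂ : IsIntU A F Fk (evA A J (Q' ())) := by
    refine ⟨isInt_evA hJ _, ?_⟩
    rw [rd_evA]
    obtain ⟨u, hu⟩ := hQprim
    cases u
    exact fun h => hu ((transcendental_iff.mp hJt) _ h)
  have hY₁ : IsIntU A F Fk (∑ i, evA A J (P' i) * Y i) :=
    ⟨isInt_sum_evA hJ hY P', rd_sum_evA_ne_zero hind hPprim⟩
  refine ⟨c₁⁻¹ * c₂, mul_ne_zero (inv_ne_zero hc₁) hc₂, _, _, hY₁, hY₂, ?_⟩
  have hcL : algebraMap L (LaurentSeries L) c₁ ≠ 0 := by
    rw [Ne, map_eq_zero_iff _ (algebraMap L (LaurentSeries L)).injective]; exact hc₁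
  have e1 : Polynomial.aeval (inc A J) Q =
      algebraMap L (LaurentSeries L) c₁ * inc A (evA A J (Q' ())) := by
    rw [inc_evA, hQQ' (), map_mul, Polynomial.aeval_C]
  have e2 : ∑ i, Polynomial.aeval (inc A J) (P i) * inc A (Y i) =
      algebraMap L (LaurentSeries L) c₂ * inc A (∑ i, evA A J (P' i) * Y i) := by
    rw [inc_sum_evA, Finset.mul_sum]
    refine Finset.sum_congr rfl fun i _ => ?_
    rw [hPP' i, map_mul, Polynomial.aeval_C, mul_assoc]
  rw [e1, e2] at hfQ
  rw [map_mul, map_inv₀, mul_assoc, ← hfQ]
  field_simp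


/-! ### Bridges to the field-theoretic formulations -/

/-- Linear independence of the reductions over `k(j̄)` (inside `k((q))`) gives polynomial
independence. -/
theorem polyIndep_of_linearIndependent {J : LaurentSeries A} {ι : Type*} [Fintype ι]
    {Y : ι → LaurentSeries A}
    (hJt : Transcendental (IsLocalRing.ResidueField A) (rd A J))
    (h : LinearIndependent (IntermediateField.adjoin (IsLocalRing.ResidueField A) {rd A J})
      (fun i => rd A (Y i))) : PolyIndep J Y := by
  intro P hsum i
  have hmem : ∀ i, Polynomial.aeval (rd A J) (P i) ∈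
      IntermediateField.adjoin (IsLocalRing.ResidueField A) {rd A J} := fun i =>
    aeval_mem_intermediateField _ (IntermediateField.mem_adjoin_simple_self _ _) _
  have h1 : ∑ i, (⟨Polynomial.aeval (rd A J) (P i), hmem i⟩ :
      IntermediateField.adjoin (IsLocalRing.ResidueField A) {rd A J}) • rd A (Y i) = 0 := by
    rw [← hsum]
    rfl
  have h2 := (Fintype.linearIndependent_iff.mp h) _ h1 i
  have h3 : Polynomial.aeval (rd A J) (P i) = 0 := congrArg Subtype.val h2
  exact (transcendental_iff.mp hJt) _ h3

/-- Polynomial independence gives linear independence over `L(j)` of the lifts, as elements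
of `F`. -/
theorem linearIndependent_inc {J : LaurentSeries A} {ι : Type*} [Fintype ι]
    {Y : ι → LaurentSeries A} (hind : PolyIndep J Y) (jF : F)
    (hjF : (jF : LaurentSeries L) = inc A J) (yF : ι → F)
    (hyF : ∀ i, (yF i : LaurentSeries L) = inc A (Y i)) :
    LinearIndependent (IntermediateField.adjoin L {jF}) yF := by
  classical
  open IntermediateField.algebraAdjoinAdjoin in
  rw [← LinearIndependent.iff_fractionRing (Algebra.adjoin L {jF})
    (IntermediateField.adjoin L {jF})]
  rw [Fintype.linearIndependent_iff]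
  intro g hg i
  have hP : ∀ j, ∃ P : Polynomial L, ((g j : Algebra.adjoin L {jF}) : F) =
      Polynomial.aeval jF P := by
    intro j
    obtain ⟨P, hP⟩ : ((g j : Algebra.adjoin L {jF}) : F) ∈
        (Polynomial.aeval jF : Polynomial L →ₐ[L] F).range := by
      rw [← Algebra.adjoin_singleton_eq_range_aeval]
      exact (g j).2
    exact ⟨P, hP.symm⟩
  choose P hP using hP
  have hval : ∀ (x : F) (Q : Polynomial L),
      ((Polynomial.aeval x Q : F) : LaurentSeries L) =
        Polynomial.aeval (x : LaurentSeries L) Q := by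
    intro x Q
    rw [← IntermediateField.coe_val, ← Polynomial.aeval_algHom_apply]
  have hrel : ∑ j, Polynomial.aeval (inc A J) (P j) * inc A (Y j) = 0 := by
    have h1 : ((∑ j, g j • yF j : F) : LaurentSeries L) = ((0 : F) : LaurentSeries L) :=
      congrArg (fun x : F => (x : LaurentSeries L)) hg
    rw [ZeroMemClass.coe_zero] at h1
    rw [← h1]
    have h2 : ((∑ j, g j • yF j : F) : LaurentSeries L) =
        ∑ j, ((g j • yF j : F) : LaurentSeries L) := map_sum F.val _ _
    rw [h2]
    refine Finset.sum_congr rfl fun j _ => ?_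
    have h3 : (g j • yF j : F) = ((g j : Algebra.adjoin L {jF}) : F) * yF j := rfl
    rw [h3, hP j]
    push_cast
    rw [hval, hjF, hyF]
  have hPi := polyIndep_inc hind P hrel i
  apply Subtype.ext
  rw [hP i, hPi, map_zero]
  rfl

/-- **Spanning in polynomial form** from the degree inequality
`[F : L(j)] ≤ #(independent reductions)`. -/
theorem exists_poly_of_finrank {J : LaurentSeries A} {ι : Type*} [Fintype ι]
    {Y : ι → LaurentSeries A} (hind : PolyIndep J Y) (jF : F)
    (hjF : (jF : LaurentSeries L) = inc A J) (hY : ∀ i, inc A (Y i) ∈ F)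
    [FiniteDimensional (IntermediateField.adjoin L {jF}) F]
    (hrank : Module.finrank (IntermediateField.adjoin L {jF}) F ≤ Fintype.card ι) (f : F) :
    ∃ Q : Polynomial L, Q ≠ 0 ∧ ∃ P : ι → Polynomial L,
      (f : LaurentSeries L) * Polynomial.aeval (inc A J) Q =
        ∑ i, Polynomial.aeval (inc A J) (P i) * inc A (Y i) := by
  classical
  set yF : ι → F := fun i => ⟨inc A (Y i), hY i⟩ with hyF
  have hli : LinearIndependent (IntermediateField.adjoin L {jF}) yF :=
    linearIndependent_inc hind jF hjF yF fun _ => rfl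
  have hcard : Fintype.card ι = Module.finrank (IntermediateField.adjoin L {jF}) F :=
    le_antisymm hli.fintype_card_le_finrank hrank
  have htop := hli.span_eq_top_of_card_eq_finrank' hcard
  have hf : f ∈ Submodule.span (IntermediateField.adjoin L {jF}) (Set.range yF) := by
    rw [htop]; exact Submodule.mem_top
  have hval : ∀ (Q : Polynomial L),
      ((Polynomial.aeval jF Q : F) : LaurentSeries L) = Polynomial.aeval (inc A J) Q := by
    intro Q
    rw [← hjF, ← IntermediateField.coe_val, ← Polynomial.aeval_algHom_apply]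
  induction hf using Submodule.span_induction with
  | mem x hx =>
    obtain ⟨i₀, rfl⟩ := hx
    refine ⟨1, one_ne_zero, fun i => if i = i₀ then 1 else 0, ?_⟩
    rw [map_one, mul_one, Finset.sum_eq_single i₀]
    · dsimp only
      rw [if_pos rfl, map_one, one_mul]
    · intro i _ hi
      dsimp only
      rw [if_neg hi, map_zero, zero_mul]
    · intro h
      exact absurd (Finset.mem_univ _) h
  | zero =>
    refine ⟨1, one_ne_zero, fun _ => 0, ?_⟩
    rw [Finset.sum_eq_zero fun i _ => by rw [map_zero, zero_mul]]
    simp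
  | add x y _ _ hx hy =>
    obtain ⟨Q₁, hQ₁, P₁, h₁⟩ := hx
    obtain ⟨Q₂, hQ₂, P₂, h₂⟩ := hy
    refine ⟨Q₁ * Q₂, mul_ne_zero hQ₁ hQ₂, fun i => P₁ i * Q₂ + P₂ i * Q₁, ?_⟩
    have e : ((x + y : F) : LaurentSeries L) * Polynomial.aeval (inc A J) (Q₁ * Q₂) =
        ((x : LaurentSeries L) * Polynomial.aeval (inc A J) Q₁) * Polynomial.aeval (inc A J) Q₂
        + ((y : LaurentSeries L) * Polynomial.aeval (inc A J) Q₂) *
          Polynomial.aeval (inc A J) Q₁ := by
      push_cast
      rw [map_mul]
      ring
    rw [e, h₁, h₂, Finset.sum_mul, Finset.sum_mul, ← Finset.sum_add_distrib]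
    refine Finset.sum_congr rfl fun i _ => ?_
    rw [map_add, map_mul, map_mul]
    ring
  | smul c x _ hx =>
    obtain ⟨Q, hQ, P, h⟩ := hx
    obtain ⟨r, s, hrs⟩ := (IntermediateField.mem_adjoin_simple_iff L (c : F)).mp c.2
    by_cases hs : Polynomial.aeval jF s = 0
    · refine ⟨1, one_ne_zero, fun _ => 0, ?_⟩
      have hc0 : (c : F) = 0 := by rw [hrs, hs, div_zero]
      have e : (c • x : F) = (c : F) * x := rfl
      rw [e, hc0, zero_mul, Finset.sum_eq_zero fun i _ => by rw [map_zero, zero_mul]]
      simp
    · have hs0 : s ≠ 0 := by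
        rintro rfl
        exact hs (map_zero _)
      refine ⟨s * Q, mul_ne_zero hs0 hQ, fun i => r * P i, ?_⟩
      have e : (c • x : F) = (c : F) * x := rfl
      have hcs : (c : F) * Polynomial.aeval jF s = Polynomial.aeval jF r := by
        rw [hrs, div_mul_cancel₀ _ hs]
      have hcs' : ((c : F) : LaurentSeries L) * Polynomial.aeval (inc A J) s =
          Polynomial.aeval (inc A J) r := by
        rw [← hval, ← hval, ← hcs]
        push_cast
        rfl
      have e2 : ((c • x : F) : LaurentSeries L) * Polynomial.aeval (inc A J) (s * Q) =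
          (((c : F) : LaurentSeries L) * Polynomial.aeval (inc A J) s) *
            ((x : LaurentSeries L) * Polynomial.aeval (inc A J) Q) := by
        rw [e, map_mul]
        push_cast
        ring
      rw [e2, hcs', h, Finset.mul_sum]
      refine Finset.sum_congr rfl fun i _ => ?_
      rw [map_mul, mul_assoc]

/-- **The decomposition property from the degree inequality**: if `j̄` is transcendental, the
reductions of the integral series `Y_i` are linearly independent over `k(j̄)`, and
`[F : L(j)] ≤ #ι`, then every nonzero element of `F` is a constant times a quotient of Gauss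
units. -/
theorem dec_of_finrank {J : LaurentSeries A} (hJ : IsInt A F Fk J)
    (hJt : Transcendental (IsLocalRing.ResidueField A) (rd A J))
    {ι : Type*} [Fintype ι] {Y : ι → LaurentSeries A} (hY : ∀ i, IsInt A F Fk (Y i))
    (hind : LinearIndependent (IntermediateField.adjoin (IsLocalRing.ResidueField A) {rd A J})
      (fun i => rd A (Y i)))
    (jF : F) (hjF : (jF : LaurentSeries L) = inc A J)
    [FiniteDimensional (IntermediateField.adjoin L {jF}) F]
    (hrank : Module.finrank (IntermediateField.adjoin L {jF}) F ≤ Fintype.card ι) :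
    Dec A F Fk :=
  dec_of_poly hJ hJt hY (polyIndep_of_linearIndependent hJt hind)
    (exists_poly_of_finrank (polyIndep_of_linearIndependent hJt hind) jF hjF
      (fun i => (hY i).1) hrank)

end Fermat.Agent.S18.DecDeg
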