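import Mathlib
import Fermat.Agent.S18.DecDeg
import Fermat.Agent.S18.DegEq
import Fermat.Agent.S18.Lattice

/-!
# S18 infrastructure: the Gauss valuation of the modular function field at every level

For a valuation ring `A` of `ℚ̄` over a prime `ℓ` and EVERY level `N` prime to `ℓ` (no place
reduction map, no hypothesis `PrincipalGeneratedByIntegral`), the decomposition property
`Dec A F_N F̄_N` holds (`dec`): every nonzero function is `c * Y₁ / Y₂` with `c ∈ ℚ̄ˣ` and
integral `Y₁`, `Y₂` with nonzero reductions.  Consequently the Gauss ring `OO A N` is a valuation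
ring of `F_N` with residue homomorphism `redN` onto `F̄_N`, whose kernel consists of the
`𝔪_A`-multiples.

Inputs: the degree equality `[F̄ : k(j̄)] = ψ(N) = [F : ℚ̄(j)]` (`ResField.exists_indep`,
`DegEq.finrank_jF_eq`) and the abstract criterion `DecDeg.dec_of_finrank`.
-/

set_option autoImplicit false

noncomputable section

namespace Fermat.Agent.S18.DecMod

open ModularCurve AlgebraicCurve HahnSeries IntermediateField
open Fermat.Agent.S18.Gauss Fermat.Agent.S18.Lattice Fermat.Agent.S24 Fermat.Agent.S24.Eval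

variable {A : ValuationSubring KK} {ℓ : ℕ} [Fact ℓ.Prime] (N : ℕ) [NeZero N]

omit [NeZero N] in
/-- The integral lift of `j`. -/
theorem isInt_J : IsInt A (modularFunctionFieldBar N) (FkN A N) (jqNModC A 1) :=
  (isIntU_of_isInt (RedExt.isInt_jqNModC (A := A) (π := IsLocalRing.residue A) (N := N)
    (one_dvd N))).1

theorem rd_J : rd A (jqNModC A 1) = jqModC (IsLocalRing.ResidueField A) := by
  show coeffMap (IsLocalRing.residue A) (jqNModC A 1) = _
  rw [coeffMap_jqNModC, jqNModC_one]

theorem inc_J : ((jF N : FF N) : LaurentSeries KK) = inc A (jqNModC A 1) := by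
  show Degree.incl N (jF N) = coeffMap A.subtype (jqNModC A 1)
  rw [Degree.incl_jF, coeffMap_jqNModC]
  change coeffMap (algebraMap ℚ KK) (jqNModC ℚ 1) = jqNModC KK 1
  rw [coeffMap_jqNModC]

/-- **The decomposition property at every level prime to `ℓ`.** -/
theorem dec (hA : A.LiesOverPrime ℓ) (hℓN : ¬ ℓ ∣ N) :
    Dec A (modularFunctionFieldBar N) (FkN A N) := by
  classical
  obtain ⟨w, hw, hli⟩ := ResField.exists_indep hA N hℓN
  have htr : Transcendental (IsLocalRing.ResidueField A)
      (jqModC (IsLocalRing.ResidueField A)) :=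
    Fermat.Agent.S28.PrimeCase.transcendental_jqModC _
  have hne : ∀ i, w i ≠ 0 := fun i => hli.ne_zero i
  have hlift : ∀ i, ∃ Y₁ Y₂ : LaurentSeries A,
      RedExt.IsInt A (IsLocalRing.residue A) N Y₁ ∧
      RedExt.IsInt A (IsLocalRing.residue A) N Y₂ ∧
      w i * coeffMap (IsLocalRing.residue A) Y₂ = coeffMap (IsLocalRing.residue A) Y₁ := by
    intro i
    obtain ⟨Y₁, Y₂, h₁, h₂, h⟩ := RedExt.exists_lift (A := A) (π := IsLocalRing.residue A)
      (N := N) IsLocalRing.residue_surjective ⟨w i, hw i⟩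
      (fun h => hne i (congrArg Subtype.val h))
    exact ⟨Y₁, Y₂, h₁, h₂, congrArg Subtype.val h⟩
  choose Y₁ Y₂ h₁ h₂ hY using hlift
  let D : LaurentSeries A := ∏ j, Y₂ j
  let U : Fin (dedekindPsi N) → LaurentSeries A :=
    fun i => Y₁ i * ∏ j ∈ Finset.univ.erase i, Y₂ j
  have hD : RedExt.IsInt A (IsLocalRing.residue A) N D :=
    DegEq.isInt_prod N _ _ fun j _ => h₂ j
  have hU : ∀ i, RedExt.IsInt A (IsLocalRing.residue A) N (U i) := fun i =>
    (h₁ i).mul (DegEq.isInt_prod N _ _ fun j _ => h₂ j)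
  have hUD : ∀ i, coeffMap (IsLocalRing.residue A) (U i) =
      w i * coeffMap (IsLocalRing.residue A) D := by
    intro i
    show coeffMap (IsLocalRing.residue A) (Y₁ i * ∏ j ∈ Finset.univ.erase i, Y₂ j) =
      w i * coeffMap (IsLocalRing.residue A) (∏ j, Y₂ j)
    rw [map_mul, ← hY i, mul_assoc, ← map_mul, Finset.mul_prod_erase _ _ (Finset.mem_univ i)]
  have h1 : LinearIndependent
      (IntermediateField.adjoin (IsLocalRing.ResidueField A)
        {jqModC (IsLocalRing.ResidueField A)})
      (fun i => coeffMap (IsLocalRing.residue A) (U i)) := by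
    have h := DegEq.linearIndependent_mul_right w (coeffMap (IsLocalRing.residue A) D)
      hD.2.2 hli
    have e : (fun i => coeffMap (IsLocalRing.residue A) (U i)) =
        fun i => w i * coeffMap (IsLocalRing.residue A) D := funext hUD
    rw [e]
    exact h
  have := Degree.finiteDimensional_jF N
  refine DecDeg.dec_of_finrank (J := jqNModC A 1) (isInt_J N) ?_ (Y := U)
    (fun i => (isIntU_of_isInt (hU i)).1) ?_ (jF N) (inc_J N) ?_
  · rw [rd_J]; exact htr
  · rw [rd_J]; exact h1
  · rw [DegEq.finrank_jF_eq, Fintype.card_fin]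

/-- At every level prime to `ℓ` the Gauss ring is a valuation ring of the function field. -/
theorem mem_or_inv_mem_OO (hA : A.LiesOverPrime ℓ) (hℓN : ¬ ℓ ∣ N)
    (f : modularFunctionFieldBar N) : f ∈ OO A N ∨ f⁻¹ ∈ OO A N :=
  mem_or_inv_mem (dec N hA hℓN) f

/-- Normal form: every nonzero function is a constant times a unit of the Gauss ring. -/
theorem exists_normalize_OO (hA : A.LiesOverPrime ℓ) (hℓN : ¬ ℓ ∣ N)
    (f : modularFunctionFieldBar N) (hf : f ≠ 0) :
    ∃ (c : KK) (u : OO A N), c ≠ 0 ∧ redN A N u ≠ 0 ∧ f = c • (u : modularFunctionFieldBar N) :=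
  exists_normalize (dec N hA hℓN) f hf

end Fermat.Agent.S18.DecMod
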