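/-
S18 moonshot leaf (helper9): THE TAYLOR HOMOMORPHISM `exp (X d/dμ)` ON `L((q))`, char `L = 0`.

Mathlib only.  For `μ = q⁻¹ + a₀ + a₁ q + ⋯` in `L((q))`:

* `TL μ : L((q)) →+* L((q))⟦X⟧` with `constantCoeff (TL μ f) = f`, `TL μ (C a) = C (C a)`,
  `TL μ μ = C μ + X`;
* `DL μ` is a derivation (`d/dμ`) and `coeff n (TL μ f) = dpow (DL μ) n f`, the divided power
  `(1/n!) (d/dμ)ⁿ f`;  `(n+1) * coeff (n+1) (TL μ f) = DL μ (coeff n (TL μ f))`;
* integrality (`pcoeffIn_TL`): if the coefficients of `μ` lie in a subring `A` of `L` and the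
  coefficients of `f` lie in an `A`-stable additive subgroup `I` of `L`, then all coefficients
  of all `coeff n (TL μ f)` lie in `I`.
-/
import Mathlib

namespace Fermat.Agent.S18.TaylorQ

open Finset

section ExpDer

variable {B : Type*} [CommRing B] [Algebra ℚ B]

/-- Divided powers of a derivation. -/
noncomputable def dpow (d : Derivation ℚ B B) (n : ℕ) (x : B) : B :=
  ((n.factorial : ℚ)⁻¹) • (d^[n] x)

theorem dpow_zero (d : Derivation ℚ B B) (x : B) : dpow d 0 x = x := by
  simp [dpow]

theorem dpow_one (d : Derivation ℚ B B) (x : B) : dpow d 1 x = d x := by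
  simp [dpow]

theorem dpow_add (d : Derivation ℚ B B) (n : ℕ) (x y : B) :
    dpow d n (x + y) = dpow d n x + dpow d n y := by
  have h : ∀ n : ℕ, d^[n] (x + y) = d^[n] x + d^[n] y := by
    intro n
    induction n with
    | zero => simp
    | succ n ih => rw [Function.iterate_succ_apply', ih, map_add, ← Function.iterate_succ_apply' d,
        ← Function.iterate_succ_apply' d]
  rw [dpow, h, smul_add]; rfl

theorem succ_smul_dpow_succ (d : Derivation ℚ B B) (n : ℕ) (x : B) :
    ((n + 1 : ℕ) : ℚ) • dpow d (n + 1) x = d (dpow d n x) := by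
  rw [dpow, dpow, Derivation.map_smul, smul_smul, Function.iterate_succ_apply']
  congr 1
  rw [Nat.factorial_succ, Nat.cast_mul]
  have h1 : ((n + 1 : ℕ) : ℚ) ≠ 0 := by positivity
  have h2 : ((n.factorial : ℕ) : ℚ) ≠ 0 := by positivity
  field_simp

theorem dpow_succ (d : Derivation ℚ B B) (n : ℕ) (x : B) :
    dpow d (n + 1) x = (((n + 1 : ℕ) : ℚ)⁻¹) • d (dpow d n x) := by
  have h1 : ((n + 1 : ℕ) : ℚ) ≠ 0 := by positivity
  rw [← succ_smul_dpow_succ, smul_smul, inv_mul_cancel₀ h1, one_smul]

theorem dpow_mul (d : Derivation ℚ B B) (n : ℕ) (x y : B) :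
    dpow d n (x * y) = ∑ p ∈ antidiagonal n, dpow d p.1 x * dpow d p.2 y := by
  induction n with
  | zero => simp [dpow_zero]
  | succ n ih =>
    have h1 : ((n + 1 : ℕ) : ℚ) ≠ 0 := by positivity
    have key : ((n + 1 : ℕ) : ℚ) • dpow d (n + 1) (x * y) =
        ((n + 1 : ℕ) : ℚ) • ∑ p ∈ antidiagonal (n + 1), dpow d p.1 x * dpow d p.2 y := by
      rw [succ_smul_dpow_succ, ih, map_sum]
      have e1 : ∀ p ∈ antidiagonal n, d (dpow d p.1 x * dpow d p.2 y) =
          ((p.2 + 1 : ℕ) : ℚ) • (dpow d p.1 x * dpow d (p.2 + 1) y) +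
          ((p.1 + 1 : ℕ) : ℚ) • (dpow d (p.1 + 1) x * dpow d p.2 y) := by
        intro p _
        rw [Derivation.leibniz, ← succ_smul_dpow_succ, ← succ_smul_dpow_succ]
        simp only [smul_eq_mul, Algebra.mul_smul_comm]
        rw [mul_comm (dpow d p.2 y) (dpow d (p.1 + 1) x)]
      rw [Finset.sum_congr rfl e1, Finset.sum_add_distrib]
      have e2 : ((n + 1 : ℕ) : ℚ) • ∑ p ∈ antidiagonal (n + 1), dpow d p.1 x * dpow d p.2 y =
          ∑ p ∈ antidiagonal (n + 1), ((p.2 : ℕ) : ℚ) • (dpow d p.1 x * dpow d p.2 y) +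
          ∑ p ∈ antidiagonal (n + 1), ((p.1 : ℕ) : ℚ) • (dpow d p.1 x * dpow d p.2 y) := by
        rw [Finset.smul_sum, ← Finset.sum_add_distrib]
        refine Finset.sum_congr rfl fun p hp => ?_
        rw [← add_smul]
        congr 1
        rw [Finset.HasAntidiagonal.mem_antidiagonal] at hp
        rw [← hp]; push_cast; ring_nf
      rw [e2]
      congr 1
      · rw [Finset.Nat.sum_antidiagonal_succ']
        simp
      · rw [Finset.Nat.sum_antidiagonal_succ]
        simp
    have := congrArg (fun z => (((n + 1 : ℕ) : ℚ)⁻¹) • z) key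
    simp only [smul_smul] at this
    rwa [inv_mul_cancel₀ h1, one_smul, one_smul] at this

theorem dpow_eq_zero (d : Derivation ℚ B B) (n : ℕ) (hn : n ≠ 0) (x : B) (hx : d x = 0) :
    dpow d n x = 0 := by
  obtain ⟨m, rfl⟩ := Nat.exists_eq_succ_of_ne_zero hn
  rw [dpow, Function.iterate_succ_apply, hx]
  have h : ∀ m : ℕ, d^[m] (0 : B) = 0 := by
    intro m
    induction m with
    | zero => rfl
    | succ m ih => rw [Function.iterate_succ_apply, map_zero, ih]
  rw [h, smul_zero]

/-- `exp (X d)` as a ring homomorphism `B →+* B⟦X⟧`. -/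
noncomputable def expDer (d : Derivation ℚ B B) : B →+* PowerSeries B where
  toFun x := PowerSeries.mk fun n => dpow d n x
  map_one' := by
    ext n
    rw [PowerSeries.coeff_mk, PowerSeries.coeff_one]
    split_ifs with h
    · subst h; exact dpow_zero d 1
    · exact dpow_eq_zero d n h 1 (by simp)
  map_mul' x y := by
    ext n
    rw [PowerSeries.coeff_mk, PowerSeries.coeff_mul, dpow_mul]
    refine Finset.sum_congr rfl fun p _ => ?_
    rw [PowerSeries.coeff_mk, PowerSeries.coeff_mk]
  map_zero' := by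
    ext n
    rw [PowerSeries.coeff_mk, map_zero]
    by_cases h : n = 0
    · subst h; exact dpow_zero d 0
    · exact dpow_eq_zero d n h 0 (by simp)
  map_add' x y := by
    ext n
    simp only [PowerSeries.coeff_mk, map_add, dpow_add]

theorem coeff_expDer (d : Derivation ℚ B B) (n : ℕ) (x : B) :
    PowerSeries.coeff n (expDer d x) = dpow d n x := by
  simp [expDer]

theorem constantCoeff_expDer (d : Derivation ℚ B B) (x : B) :
    PowerSeries.constantCoeff (expDer d x) = x := by
  rw [← PowerSeries.coeff_zero_eq_constantCoeff_apply, coeff_expDer, dpow_zero]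

theorem expDer_of_eq_zero (d : Derivation ℚ B B) (x : B) (hx : d x = 0) :
    expDer d x = PowerSeries.C x := by
  ext n
  rw [coeff_expDer, PowerSeries.coeff_C]
  split_ifs with h
  · subst h; exact dpow_zero d x
  · exact dpow_eq_zero d n h x hx

end ExpDer

section PS

variable {L : Type*} [Field L] [CharZero L]

/-- The derivation `d/dμ = -s² (ds/dq)⁻¹ d/dq` of `L⟦q⟧`, where `s = 1/μ`. -/
noncomputable def der (s : PowerSeries L) : Derivation ℚ (PowerSeries L) (PowerSeries L) :=
  ((-s ^ 2 * (PowerSeries.derivative L s)⁻¹) • PowerSeries.derivative L).restrictScalars ℚ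

theorem der_apply (s f : PowerSeries L) :
    der s f = -s ^ 2 * (PowerSeries.derivative L s)⁻¹ * PowerSeries.derivative L f := by
  simp [der]

theorem constantCoeff_derivative (s : PowerSeries L) :
    PowerSeries.constantCoeff (PowerSeries.derivative L s) = PowerSeries.coeff 1 s := by
  rw [← PowerSeries.coeff_zero_eq_constantCoeff_apply, PowerSeries.coeff_derivative]
  simp

theorem der_self (s : PowerSeries L) (h1 : PowerSeries.coeff 1 s = 1) : der s s = -s ^ 2 := by
  rw [der_apply, mul_assoc, PowerSeries.inv_mul_cancel, mul_one]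
  rw [constantCoeff_derivative, h1]
  exact one_ne_zero

theorem der_C (s : PowerSeries L) (a : L) : der s (PowerSeries.C a) = 0 := by
  rw [der_apply, PowerSeries.derivative_C, mul_zero]

theorem dpow_der_self (s : PowerSeries L) (h1 : PowerSeries.coeff 1 s = 1) (n : ℕ) :
    dpow (der s) n s = (-1) ^ n * s ^ (n + 1) := by
  induction n with
  | zero => simp [dpow_zero]
  | succ n ih =>
    rw [dpow_succ, ih, Derivation.leibniz, Derivation.leibniz_pow, der_self s h1]
    have h0 : der s ((-1 : PowerSeries L) ^ n) = 0 := by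
      rw [Derivation.leibniz_pow]
      have : der s (-1 : PowerSeries L) = 0 := by
        rw [map_neg, Derivation.map_one_eq_zero, neg_zero]
      rw [this, smul_zero, smul_zero]
    rw [h0, smul_zero, add_zero]
    simp only [smul_eq_mul, nsmul_eq_mul, Nat.add_sub_cancel]
    have h1 : ((n + 1 : ℕ) : ℚ) ≠ 0 := by positivity
    have e : ((-1 : PowerSeries L) ^ n * (((n + 1 : ℕ) : PowerSeries L) * (s ^ n * -s ^ 2))) =
        ((n + 1 : ℕ) : ℚ) • ((-1) ^ (n + 1) * s ^ (n + 1 + 1)) := by
      rw [Nat.cast_smul_eq_nsmul, nsmul_eq_mul]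
      ring_nf
    rw [e, smul_smul, inv_mul_cancel₀ h1, one_smul]

/-- The Taylor homomorphism on power series. -/
noncomputable def T0 (s : PowerSeries L) : PowerSeries L →+* PowerSeries (PowerSeries L) :=
  expDer (der s)

theorem constantCoeff_T0 (s f : PowerSeries L) : PowerSeries.constantCoeff (T0 s f) = f :=
  constantCoeff_expDer _ _

theorem T0_C (s : PowerSeries L) (a : L) : T0 s (PowerSeries.C a) = PowerSeries.C (PowerSeries.C a) :=
  expDer_of_eq_zero _ _ (der_C s a)

theorem coeff_T0_self (s : PowerSeries L) (h1 : PowerSeries.coeff 1 s = 1) (n : ℕ) :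
    PowerSeries.coeff n (T0 s s) = (-1) ^ n * s ^ (n + 1) := by
  rw [T0, coeff_expDer, dpow_der_self s h1]

theorem T0_self_mul (s : PowerSeries L) (h1 : PowerSeries.coeff 1 s = 1) :
    T0 s s * (1 + PowerSeries.C s * PowerSeries.X) = PowerSeries.C s := by
  ext n
  rw [mul_add, mul_one, map_add, ← mul_assoc, PowerSeries.coeff_C]
  cases n with
  | zero =>
    simp [coeff_T0_self s h1]
  | succ n =>
    rw [PowerSeries.coeff_succ_mul_X, PowerSeries.coeff_mul_C, coeff_T0_self s h1,
      coeff_T0_self s h1, if_neg (Nat.succ_ne_zero n)]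
    ring_nf

end PS

section Integral

variable {L : Type*} [Field L]

/-- Peeling off the constant term with respect to the parameter `s`, with coefficients in an
`A`-stable additive subgroup `I`. -/
theorem exists_eq_C_add_mul (A : Subring L) (I : AddSubgroup L)
    (hI : ∀ a ∈ A, ∀ x ∈ I, a * x ∈ I) (s : PowerSeries L)
    (hs0 : PowerSeries.constantCoeff s = 0) (h1 : PowerSeries.coeff 1 s = 1)
    (hsA : ∀ i, PowerSeries.coeff i s ∈ A) (f : PowerSeries L)
    (hf : ∀ i, PowerSeries.coeff i f ∈ I) :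
    ∃ g : PowerSeries L, (∀ i, PowerSeries.coeff i g ∈ I) ∧
      f = PowerSeries.C (PowerSeries.constantCoeff f) + s * g := by
  -- integral model of `v = s / X`
  let vA : PowerSeries A := PowerSeries.mk fun p => ⟨PowerSeries.coeff (p + 1) s, hsA (p + 1)⟩
  have hvA0 : PowerSeries.constantCoeff vA = ((1 : Aˣ) : A) := by
    rw [← PowerSeries.coeff_zero_eq_constantCoeff_apply, PowerSeries.coeff_mk]
    ext
    simpa using h1
  let f1 : PowerSeries L := PowerSeries.mk fun p => PowerSeries.coeff (p + 1) f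
  have hs : s = PowerSeries.X * PowerSeries.map A.subtype vA := by
    conv_lhs => rw [PowerSeries.eq_X_mul_shift_add_const s, hs0, map_zero, add_zero]
    congr 1
  have hf1 : f = PowerSeries.X * f1 + PowerSeries.C (PowerSeries.constantCoeff f) :=
    PowerSeries.eq_X_mul_shift_add_const f
  refine ⟨PowerSeries.map A.subtype (PowerSeries.invOfUnit vA 1) * f1, fun i => ?_, ?_⟩
  · rw [PowerSeries.coeff_mul]
    refine I.sum_mem fun p _ => hI _ ?_ _ ?_
    · rw [PowerSeries.coeff_map]
      exact (PowerSeries.coeff p.1 (PowerSeries.invOfUnit vA 1)).2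
    · rw [PowerSeries.coeff_mk]
      exact hf _
  · conv_lhs => rw [hf1]
    rw [add_comm]
    congr 1
    rw [hs, mul_assoc, ← mul_assoc (PowerSeries.map A.subtype vA), ← map_mul,
      PowerSeries.mul_invOfUnit vA 1 hvA0, map_one, one_mul]

variable [CharZero L]

/-- **Integrality of the divided powers** of `d/dμ` on power series. -/
theorem coeff_dpow_der_mem (A : Subring L) (I : AddSubgroup L)
    (hI : ∀ a ∈ A, ∀ x ∈ I, a * x ∈ I) (s : PowerSeries L)
    (hs0 : PowerSeries.constantCoeff s = 0) (h1 : PowerSeries.coeff 1 s = 1)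
    (hsA : ∀ i, PowerSeries.coeff i s ∈ A) :
    ∀ k : ℕ, ∀ f : PowerSeries L, (∀ i, PowerSeries.coeff i f ∈ I) →
      ∀ n, PowerSeries.coeff k (dpow (der s) n f) ∈ I := by
  intro k
  induction k using Nat.strong_induction_on with
  | _ k ih =>
    intro f hf n
    obtain ⟨g, hg, hfg⟩ := exists_eq_C_add_mul A I hI s hs0 h1 hsA f hf
    have hc : PowerSeries.coeff k (dpow (der s) n (PowerSeries.C (PowerSeries.constantCoeff f)))
        ∈ I := by
      by_cases hn : n = 0
      · subst hn
        rw [dpow_zero, PowerSeries.coeff_C]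
        split_ifs
        · have := hf 0
          rwa [PowerSeries.coeff_zero_eq_constantCoeff_apply] at this
        · exact I.zero_mem
      · rw [dpow_eq_zero _ n hn _ (der_C s _), map_zero]
        exact I.zero_mem
    rw [hfg, dpow_add, map_add, dpow_mul, map_sum]
    refine I.add_mem hc (I.sum_mem fun p _ => ?_)
    rw [dpow_der_self s h1, PowerSeries.coeff_mul]
    refine I.sum_mem fun ab hab => ?_
    have hσ : ∀ i, PowerSeries.coeff i ((-1 : PowerSeries L) ^ p.1 * s ^ (p.1 + 1)) ∈ A := by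
      intro i
      have hmem : ((-1 : PowerSeries L) ^ p.1 * s ^ (p.1 + 1)) ∈
          (PowerSeries.map A.subtype).range := by
        have hsr : s ∈ (PowerSeries.map A.subtype).range :=
          ⟨PowerSeries.mk fun i => ⟨PowerSeries.coeff i s, hsA i⟩, by ext i; simp⟩
        exact Subring.mul_mem _ (Subring.pow_mem _ (Subring.neg_mem _ (Subring.one_mem _)) _)
          (Subring.pow_mem _ hsr _)
      obtain ⟨z, hz⟩ := hmem
      rw [← hz, PowerSeries.coeff_map]
      exact (PowerSeries.coeff i z).2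
    by_cases ha : ab.1 = 0
    · have h0 : PowerSeries.coeff ab.1 ((-1 : PowerSeries L) ^ p.1 * s ^ (p.1 + 1)) = 0 := by
        rw [ha, PowerSeries.coeff_zero_eq_constantCoeff_apply, map_mul, map_pow, map_pow, hs0,
          zero_pow (Nat.succ_ne_zero _), mul_zero]
      rw [h0, zero_mul]
      exact I.zero_mem
    · refine hI _ (hσ _) _ (ih ab.2 ?_ g hg p.2)
      have := Finset.HasAntidiagonal.mem_antidiagonal.mp hab
      omega

end Integral

section Laurent

variable {L : Type*} [Field L] [CharZero L]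

/-- The Taylor homomorphism on power series, with values in Laurent series. -/
noncomputable def T1 (s : PowerSeries L) : PowerSeries L →+* PowerSeries (LaurentSeries L) :=
  (PowerSeries.map (HahnSeries.ofPowerSeries ℤ L)).comp (T0 s)

theorem coeff_T1 (s f : PowerSeries L) (n : ℕ) :
    PowerSeries.coeff n (T1 s f) = HahnSeries.ofPowerSeries ℤ L (dpow (der s) n f) := by
  rw [T1, RingHom.comp_apply, PowerSeries.coeff_map, T0, coeff_expDer]

theorem constantCoeff_T1 (s f : PowerSeries L) :
    PowerSeries.constantCoeff (T1 s f) = HahnSeries.ofPowerSeries ℤ L f := by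
  rw [← PowerSeries.coeff_zero_eq_constantCoeff_apply, coeff_T1, dpow_zero]

theorem isUnit_T1 (s : PowerSeries L) (y : Submonoid.powers (PowerSeries.X : PowerSeries L)) :
    IsUnit (T1 s y) := by
  rw [PowerSeries.isUnit_iff_constantCoeff, constantCoeff_T1]
  apply IsUnit.mk0
  intro h
  obtain ⟨n, hn⟩ := y.2
  have h2 := HahnSeries.ofPowerSeries_injective (Γ := ℤ) (R := L) (h.trans (map_zero _).symm)
  rw [← hn] at h2
  exact pow_ne_zero n PowerSeries.X_ne_zero h2

/-- **The Taylor homomorphism** `exp (X d/dμ)` on Laurent series, `μ = 1/s`. -/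
noncomputable def T (s : PowerSeries L) : LaurentSeries L →+* PowerSeries (LaurentSeries L) :=
  IsLocalization.lift (M := Submonoid.powers (PowerSeries.X : PowerSeries L)) (g := T1 s)
    (isUnit_T1 s)

theorem T_coe (s f : PowerSeries L) : T s (HahnSeries.ofPowerSeries ℤ L f) = T1 s f :=
  IsLocalization.lift_eq (M := Submonoid.powers (PowerSeries.X : PowerSeries L)) (isUnit_T1 s) f

omit [CharZero L] in
theorem ringHom_ext_laurent {S : Type*} [Semiring S] {φ ψ : LaurentSeries L →+* S}
    (h : ∀ f : PowerSeries L, φ (HahnSeries.ofPowerSeries ℤ L f) =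
      ψ (HahnSeries.ofPowerSeries ℤ L f)) : φ = ψ :=
  IsLocalization.ringHom_ext (Submonoid.powers (PowerSeries.X : PowerSeries L))
    (RingHom.ext h)

theorem constantCoeff_T (s : PowerSeries L) (f : LaurentSeries L) :
    PowerSeries.constantCoeff (T s f) = f := by
  have h : (PowerSeries.constantCoeff).comp (T s) = RingHom.id (LaurentSeries L) :=
    ringHom_ext_laurent fun g => by
      rw [RingHom.comp_apply, T_coe, constantCoeff_T1, RingHom.id_apply]
  exact congrArg (fun φ => φ f) h

theorem T_C (s : PowerSeries L) (a : L) :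
    T s (HahnSeries.C a) = PowerSeries.C (HahnSeries.C a) := by
  rw [← HahnSeries.ofPowerSeries_C, T_coe, T1, RingHom.comp_apply, T0_C, PowerSeries.map_C]

theorem T_mul_inv (s : PowerSeries L) (h1 : PowerSeries.coeff 1 s = 1) (μ : LaurentSeries L)
    (hμ : μ * HahnSeries.ofPowerSeries ℤ L s = 1) :
    T s μ = PowerSeries.C μ + PowerSeries.X := by
  have e1 : T s (HahnSeries.ofPowerSeries ℤ L s) *
      (1 + PowerSeries.C (HahnSeries.ofPowerSeries ℤ L s) * PowerSeries.X) =
      PowerSeries.C (HahnSeries.ofPowerSeries ℤ L s) := by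
    have := congrArg (PowerSeries.map (HahnSeries.ofPowerSeries ℤ L)) (T0_self_mul s h1)
    rw [map_mul, map_add, map_one, map_mul, PowerSeries.map_C, PowerSeries.map_X] at this
    rw [T_coe, T1, RingHom.comp_apply]
    exact this
  have e2 : T s μ * T s (HahnSeries.ofPowerSeries ℤ L s) = 1 := by
    rw [← map_mul, hμ, map_one]
  have e3 : (PowerSeries.C μ + PowerSeries.X) * T s (HahnSeries.ofPowerSeries ℤ L s) = 1 := by
    have : (PowerSeries.C μ + PowerSeries.X : PowerSeries (LaurentSeries L)) =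
        PowerSeries.C μ * (1 + PowerSeries.C (HahnSeries.ofPowerSeries ℤ L s) * PowerSeries.X) := by
      rw [mul_add, mul_one, ← mul_assoc, ← map_mul, hμ, map_one, one_mul]
    rw [this, mul_assoc, mul_comm _ (T s _), e1, ← map_mul, hμ, map_one]
  calc T s μ = T s μ * ((PowerSeries.C μ + PowerSeries.X) *
        T s (HahnSeries.ofPowerSeries ℤ L s)) := by rw [e3, mul_one]
    _ = (T s μ * T s (HahnSeries.ofPowerSeries ℤ L s)) * (PowerSeries.C μ + PowerSeries.X) := by
        ring
    _ = PowerSeries.C μ + PowerSeries.X := by rw [e2, one_mul]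

end Laurent

section LaurentIntegral

variable {L : Type*} [Field L]

/-- all coefficients of a Laurent series lie in `S` -/
def LCoeffIn (S : Set L) (f : LaurentSeries L) : Prop := ∀ i, f.coeff i ∈ S

/-- all coefficients of all coefficients lie in `S` -/
def PCoeffIn (S : Set L) (G : PowerSeries (LaurentSeries L)) : Prop :=
  ∀ n, LCoeffIn S (PowerSeries.coeff n G)

theorem lcoeffIn_mul (A : Subring L) (I : AddSubgroup L) (hI : ∀ a ∈ A, ∀ x ∈ I, a * x ∈ I)
    {x y : LaurentSeries L} (hx : LCoeffIn A x) (hy : LCoeffIn I y) : LCoeffIn I (x * y) := by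
  intro i
  rw [HahnSeries.coeff_mul]
  exact I.sum_mem fun p _ => hI _ (hx _) _ (hy _)

theorem lcoeffIn_one (A : Subring L) : LCoeffIn A (1 : LaurentSeries L) := by
  intro i
  rw [HahnSeries.coeff_one]
  split_ifs
  · exact A.one_mem
  · exact A.zero_mem

theorem lcoeffIn_add (I : AddSubgroup L) {x y : LaurentSeries L} (hx : LCoeffIn I x)
    (hy : LCoeffIn I y) : LCoeffIn I (x + y) := by
  intro i
  rw [HahnSeries.coeff_add]
  exact I.add_mem (hx i) (hy i)

theorem lcoeffIn_zero (I : AddSubgroup L) : LCoeffIn I (0 : LaurentSeries L) := by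
  intro i
  rw [HahnSeries.coeff_zero]
  exact I.zero_mem

theorem lcoeffIn_sum (I : AddSubgroup L) {ι : Type*} (t : Finset ι) (x : ι → LaurentSeries L)
    (hx : ∀ j ∈ t, LCoeffIn I (x j)) : LCoeffIn I (∑ j ∈ t, x j) := by
  classical
  induction t using Finset.induction_on with
  | empty => simpa using lcoeffIn_zero I
  | insert a t ha ih =>
    rw [Finset.sum_insert ha]
    exact lcoeffIn_add I (hx a (Finset.mem_insert_self a t))
      (ih fun j hj => hx j (Finset.mem_insert_of_mem hj))

theorem lcoeffIn_ofPowerSeries (I : AddSubgroup L) {g : PowerSeries L}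
    (hg : ∀ i, PowerSeries.coeff i g ∈ I) : LCoeffIn I (HahnSeries.ofPowerSeries ℤ L g) := by
  intro i
  have := PowerSeries.coeff_coe g i
  rw [show (HahnSeries.ofPowerSeries ℤ L g).coeff i = _ from this]
  split_ifs
  · exact I.zero_mem
  · exact hg _

theorem pcoeffIn_mul (A : Subring L) (I : AddSubgroup L) (hI : ∀ a ∈ A, ∀ x ∈ I, a * x ∈ I)
    {G H : PowerSeries (LaurentSeries L)} (hG : PCoeffIn A G) (hH : PCoeffIn I H) :
    PCoeffIn I (G * H) := by
  intro n
  rw [PowerSeries.coeff_mul]
  exact lcoeffIn_sum I _ _ fun p _ => lcoeffIn_mul A I hI (hG _) (hH _)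

theorem pcoeffIn_one (A : Subring L) : PCoeffIn A (1 : PowerSeries (LaurentSeries L)) := by
  intro n
  rw [PowerSeries.coeff_one]
  split_ifs
  · exact lcoeffIn_one A
  · exact lcoeffIn_zero A.toAddSubgroup

theorem pcoeffIn_pow (A : Subring L) {G : PowerSeries (LaurentSeries L)} (hG : PCoeffIn A G)
    (k : ℕ) : PCoeffIn A (G ^ k) := by
  induction k with
  | zero => rw [pow_zero]; exact pcoeffIn_one A
  | succ k ih =>
    rw [pow_succ]
    exact pcoeffIn_mul A A.toAddSubgroup (fun a ha x hx => A.mul_mem ha hx) ih hG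

theorem pcoeffIn_C (S : AddSubgroup L) {x : LaurentSeries L} (hx : LCoeffIn S x) :
    PCoeffIn S (PowerSeries.C x) := by
  intro n
  rw [PowerSeries.coeff_C]
  split_ifs
  · exact hx
  · exact lcoeffIn_zero S

theorem pcoeffIn_X (A : Subring L) : PCoeffIn A (PowerSeries.X : PowerSeries (LaurentSeries L)) := by
  intro n
  rw [PowerSeries.coeff_X]
  split_ifs
  · exact lcoeffIn_one A
  · exact lcoeffIn_zero A.toAddSubgroup

theorem pcoeffIn_add (I : AddSubgroup L) {G H : PowerSeries (LaurentSeries L)}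
    (hG : PCoeffIn I G) (hH : PCoeffIn I H) : PCoeffIn I (G + H) := by
  intro n
  rw [map_add]
  exact lcoeffIn_add I (hG n) (hH n)

/-- every Laurent series is `q^(-k)` times a power series with the same coefficients -/
theorem exists_single_mul_eq (f : LaurentSeries L) :
    ∃ (k : ℕ) (g : PowerSeries L), (∀ i, PowerSeries.coeff i g = f.coeff (i - k)) ∧
      f = (HahnSeries.single (-1 : ℤ) (1 : L)) ^ k * HahnSeries.ofPowerSeries ℤ L g := by
  refine ⟨(-f.order).toNat, PowerSeries.mk fun i => f.coeff (i - (-f.order).toNat),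
    fun i => by rw [PowerSeries.coeff_mk], ?_⟩
  set k := (-f.order).toNat with hk
  have hpow : (HahnSeries.single (-1 : ℤ) (1 : L)) ^ k = HahnSeries.single (-(k : ℤ)) (1 : L) := by
    rw [HahnSeries.single_pow]
    simp
  rw [hpow]
  ext i
  have h1 : i = (i + k) + (-(k : ℤ)) := by ring
  conv_rhs => rw [h1, HahnSeries.coeff_single_mul_add, one_mul]
  have := PowerSeries.coeff_coe (PowerSeries.mk fun i => f.coeff (i - (k : ℤ))) (i + k)
  rw [show (HahnSeries.ofPowerSeries ℤ L _).coeff (i + k) = _ from this]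
  split_ifs with h
  · apply HahnSeries.coeff_eq_zero_of_lt_order
    have : (k : ℤ) = max (-f.order) 0 := by rw [hk]; exact Int.toNat_eq_max _
    omega
  · rw [PowerSeries.coeff_mk]
    congr 1
    have : ((i + k).natAbs : ℤ) = i + k := by
      rw [Int.natAbs_of_nonneg]; omega
    rw [this]; ring

end LaurentIntegral

section LaurentIntegral2

variable {L : Type*} [Field L] [CharZero L]

theorem pcoeffIn_T1 (A : Subring L) (I : AddSubgroup L) (hI : ∀ a ∈ A, ∀ x ∈ I, a * x ∈ I)
    (s : PowerSeries L) (hs0 : PowerSeries.constantCoeff s = 0)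
    (h1 : PowerSeries.coeff 1 s = 1) (hsA : ∀ i, PowerSeries.coeff i s ∈ A)
    {g : PowerSeries L} (hg : ∀ i, PowerSeries.coeff i g ∈ I) : PCoeffIn I (T1 s g) := by
  intro n
  rw [coeff_T1]
  exact lcoeffIn_ofPowerSeries I fun i => coeff_dpow_der_mem A I hI s hs0 h1 hsA i g hg n

theorem pcoeffIn_T_single (A : Subring L)
    (s : PowerSeries L) (hs0 : PowerSeries.constantCoeff s = 0)
    (h1 : PowerSeries.coeff 1 s = 1) (hsA : ∀ i, PowerSeries.coeff i s ∈ A)
    (μ : LaurentSeries L) (hμ : μ * HahnSeries.ofPowerSeries ℤ L s = 1)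
    (hμA : LCoeffIn A μ) : PCoeffIn A (T s (HahnSeries.single (-1 : ℤ) (1 : L))) := by
  set v : PowerSeries L := PowerSeries.mk fun p => PowerSeries.coeff (p + 1) s with hv
  have hs : s = PowerSeries.X * v := by
    conv_lhs => rw [PowerSeries.eq_X_mul_shift_add_const s, hs0, map_zero, add_zero]
  have hvA : ∀ i, PowerSeries.coeff i v ∈ A := fun i => by
    rw [hv, PowerSeries.coeff_mk]; exact hsA _
  have e : HahnSeries.single (-1 : ℤ) (1 : L) = μ * HahnSeries.ofPowerSeries ℤ L v := by
    have h2 : HahnSeries.ofPowerSeries ℤ L s =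
        HahnSeries.single (1 : ℤ) (1 : L) * HahnSeries.ofPowerSeries ℤ L v := by
      rw [hs, map_mul, HahnSeries.ofPowerSeries_X]
    rw [h2, ← mul_assoc, mul_comm μ, mul_assoc] at hμ
    calc HahnSeries.single (-1 : ℤ) (1 : L)
        = HahnSeries.single (-1 : ℤ) (1 : L) *
          (HahnSeries.single (1 : ℤ) (1 : L) * (μ * HahnSeries.ofPowerSeries ℤ L v)) := by
          rw [hμ, mul_one]
      _ = (HahnSeries.single (-1 : ℤ) (1 : L) * HahnSeries.single (1 : ℤ) (1 : L)) *
          (μ * HahnSeries.ofPowerSeries ℤ L v) := by rw [mul_assoc]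
      _ = μ * HahnSeries.ofPowerSeries ℤ L v := by
          rw [HahnSeries.single_mul_single]
          simp
  rw [e, map_mul, T_mul_inv s h1 μ hμ, T_coe]
  exact pcoeffIn_mul A A.toAddSubgroup (fun a ha x hx => A.mul_mem ha hx)
    (pcoeffIn_add A.toAddSubgroup (pcoeffIn_C A.toAddSubgroup hμA) (pcoeffIn_X A))
    (pcoeffIn_T1 A A.toAddSubgroup (fun a ha x hx => A.mul_mem ha hx) s hs0 h1 hsA hvA)

/-- **Integrality of the Taylor homomorphism**: if `μ` has coefficients in the subring `A`
and `f` has coefficients in the `A`-stable additive subgroup `I`, then all coefficients of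
all Hasse derivatives of `f` lie in `I`. -/
theorem pcoeffIn_T (A : Subring L) (I : AddSubgroup L) (hI : ∀ a ∈ A, ∀ x ∈ I, a * x ∈ I)
    (s : PowerSeries L) (hs0 : PowerSeries.constantCoeff s = 0)
    (h1 : PowerSeries.coeff 1 s = 1) (hsA : ∀ i, PowerSeries.coeff i s ∈ A)
    (μ : LaurentSeries L) (hμ : μ * HahnSeries.ofPowerSeries ℤ L s = 1)
    (hμA : LCoeffIn A μ) {f : LaurentSeries L} (hf : LCoeffIn I f) : PCoeffIn I (T s f) := by
  obtain ⟨k, g, hg, hfg⟩ := exists_single_mul_eq f
  rw [hfg, map_mul, map_pow, T_coe]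
  exact pcoeffIn_mul A I hI (pcoeffIn_pow A (pcoeffIn_T_single A s hs0 h1 hsA μ hμ hμA) k)
    (pcoeffIn_T1 A I hI s hs0 h1 hsA fun i => by rw [hg]; exact hf _)

end LaurentIntegral2

section DerOfHom

variable {B : Type*} [CommRing B] [Algebra ℚ B]

/-- The first coefficient of a ring homomorphism `T : B →+* B⟦X⟧` with `T x ≡ x mod X` is a
derivation. -/
noncomputable def derOfHom (T : B →+* PowerSeries B)
    (hT0 : ∀ x, PowerSeries.constantCoeff (T x) = x) : Derivation ℚ B B :=
  Derivation.mk'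
    { toFun := fun f => PowerSeries.coeff 1 (T f)
      map_add' := fun f g => by rw [map_add, map_add]
      map_smul' := fun c f => by
        rw [RingHom.id_apply]
        exact map_rat_smul ((PowerSeries.coeff (R := B) 1).toAddMonoidHom.comp
          T.toAddMonoidHom) c f }
    (fun f g => by
      change PowerSeries.coeff 1 (T (f * g)) =
        f • PowerSeries.coeff 1 (T g) + g • PowerSeries.coeff 1 (T f)
      rw [map_mul, PowerSeries.coeff_mul, Finset.Nat.antidiagonal_succ]
      simp only [Finset.Nat.antidiagonal_zero, Finset.map_singleton,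
        Function.Embedding.coe_prodMap,
        Function.Embedding.coeFn_mk, Prod.map_apply, Nat.succ_eq_add_one, zero_add,
        Function.Embedding.refl_apply]
      rw [Finset.sum_cons, Finset.sum_singleton]
      simp only [PowerSeries.coeff_zero_eq_constantCoeff_apply, hT0, smul_eq_mul]
      ring)

theorem derOfHom_apply (T : B →+* PowerSeries B)
    (hT0 : ∀ x, PowerSeries.constantCoeff (T x) = x) (f : B) :
    derOfHom T hT0 f = PowerSeries.coeff 1 (T f) := rfl

theorem succ_mul_dpow_succ (d : Derivation ℚ B B) (n : ℕ) (x : B) :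
    ((n + 1 : ℕ) : B) * dpow d (n + 1) x = d (dpow d n x) := by
  rw [← succ_smul_dpow_succ, Nat.cast_smul_eq_nsmul, nsmul_eq_mul]

theorem map_dpow_succ {C : Type*} [CommRing C] [Algebra ℚ C] (φ : B →+* C)
    (d : Derivation ℚ B B) (e : Derivation ℚ C C) (n : ℕ) (x : B)
    (h : φ (d (dpow d n x)) = e (dpow e n (φ x))) :
    φ (dpow d (n + 1) x) = dpow e (n + 1) (φ x) := by
  rw [dpow_succ, dpow_succ, ← h]
  exact map_rat_smul φ _ _

end DerOfHom

section DerL

variable {L : Type*} [Field L] [CharZero L]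

/-- The derivation `d/dμ` of `L((q))`, `μ = 1/s`. -/
noncomputable def derQ (s : PowerSeries L) :=
  derOfHom (T s) (constantCoeff_T s)

theorem derQ_apply (s : PowerSeries L) (f : LaurentSeries L) :
    derQ s f = PowerSeries.coeff 1 (T s f) := rfl

theorem derQ_coe (s g : PowerSeries L) :
    derQ s (HahnSeries.ofPowerSeries ℤ L g) = HahnSeries.ofPowerSeries ℤ L (der s g) := by
  rw [derQ_apply, T_coe, coeff_T1, dpow_one]

theorem derQ_C (s : PowerSeries L) (a : L) : derQ s (HahnSeries.C a) = 0 := by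
  rw [derQ_apply, T_C, PowerSeries.coeff_C, if_neg one_ne_zero]

theorem derQ_mul_inv (s : PowerSeries L) (h1 : PowerSeries.coeff 1 s = 1) (μ : LaurentSeries L)
    (hμ : μ * HahnSeries.ofPowerSeries ℤ L s = 1) : derQ s μ = 1 := by
  rw [derQ_apply, T_mul_inv s h1 μ hμ, map_add, PowerSeries.coeff_C, if_neg one_ne_zero,
    PowerSeries.coeff_one_X, zero_add]

theorem dpow_derQ_coe (s g : PowerSeries L) (n : ℕ) :
    dpow (derQ s) n (HahnSeries.ofPowerSeries ℤ L g) =
      HahnSeries.ofPowerSeries ℤ L (dpow (der s) n g) := by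
  induction n with
  | zero => rw [dpow_zero, dpow_zero]
  | succ n ih =>
    refine (map_dpow_succ (HahnSeries.ofPowerSeries ℤ L) (der s) (derQ s) n g ?_).symm
    rw [ih, derQ_coe]

/-- **The Taylor homomorphism is `exp (X d/dμ)`.** -/
theorem T_eq_expDer (s : PowerSeries L) : T s = expDer (derQ s) := by
  refine ringHom_ext_laurent fun g => ?_
  ext n : 1
  rw [T_coe, coeff_T1, coeff_expDer, dpow_derQ_coe]

theorem coeff_T (s : PowerSeries L) (f : LaurentSeries L) (n : ℕ) :
    PowerSeries.coeff n (T s f) = dpow (derQ s) n f := by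
  rw [T_eq_expDer, coeff_expDer]

/-- The recursion characterising the Hasse derivatives `D_n = coeff n ∘ T` in
characteristic zero: `(n + 1) D_{n+1} = D ∘ D_n`. -/
theorem succ_mul_coeff_T (s : PowerSeries L) (f : LaurentSeries L) (n : ℕ) :
    ((n + 1 : ℕ) : LaurentSeries L) * PowerSeries.coeff (n + 1) (T s f) =
      derQ s (PowerSeries.coeff n (T s f)) := by
  rw [coeff_T, coeff_T, succ_mul_dpow_succ]

end DerL

section Wrapper

variable {L : Type*} [Field L]

/-- `μ = q⁻¹ + a₀ + a₁ q + ⋯`: a simple pole with leading coefficient `1`. -/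
def IsLead (μ : LaurentSeries L) : Prop := μ.coeff (-1) = 1 ∧ ∀ i : ℤ, i < -1 → μ.coeff i = 0

/-- the power series `q μ` -/
noncomputable def uOf (μ : LaurentSeries L) : PowerSeries L :=
  PowerSeries.mk fun n => μ.coeff ((n : ℤ) - 1)

/-- the local parameter `s = 1/μ` as a power series -/
noncomputable def sOf (μ : LaurentSeries L) : PowerSeries L := PowerSeries.X * (uOf μ)⁻¹

theorem constantCoeff_uOf {μ : LaurentSeries L} (hμ : IsLead μ) :
    PowerSeries.constantCoeff (uOf μ) = 1 := by
  rw [← PowerSeries.coeff_zero_eq_constantCoeff_apply, uOf, PowerSeries.coeff_mk]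
  simpa using hμ.1

theorem single_mul_uOf {μ : LaurentSeries L} (hμ : IsLead μ) :
    HahnSeries.single (-1 : ℤ) (1 : L) * HahnSeries.ofPowerSeries ℤ L (uOf μ) = μ := by
  ext i
  have h1 : i = (i + 1) + (-1 : ℤ) := by ring
  conv_lhs => rw [h1, HahnSeries.coeff_single_mul_add, one_mul]
  have := PowerSeries.coeff_coe (uOf μ) (i + 1)
  rw [show (HahnSeries.ofPowerSeries ℤ L _).coeff (i + 1) = _ from this]
  split_ifs with h
  · exact (hμ.2 i (by omega)).symm
  · rw [uOf, PowerSeries.coeff_mk]
    congr 1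
    have : ((i + 1).natAbs : ℤ) = i + 1 := by
      rw [Int.natAbs_of_nonneg]; omega
    rw [this]; ring

theorem constantCoeff_sOf (μ : LaurentSeries L) : PowerSeries.constantCoeff (sOf μ) = 0 := by
  rw [sOf, map_mul, PowerSeries.constantCoeff_X, zero_mul]

theorem coeff_one_sOf {μ : LaurentSeries L} (hμ : IsLead μ) :
    PowerSeries.coeff 1 (sOf μ) = 1 := by
  rw [sOf, show (1 : ℕ) = 0 + 1 from rfl, PowerSeries.coeff_succ_X_mul,
    PowerSeries.coeff_zero_eq_constantCoeff_apply, PowerSeries.constantCoeff_inv,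
    constantCoeff_uOf hμ, inv_one]

theorem mul_sOf {μ : LaurentSeries L} (hμ : IsLead μ) :
    μ * HahnSeries.ofPowerSeries ℤ L (sOf μ) = 1 := by
  have h2 : HahnSeries.ofPowerSeries ℤ L (uOf μ) * HahnSeries.ofPowerSeries ℤ L (uOf μ)⁻¹ = 1 := by
    rw [← map_mul, PowerSeries.mul_inv_cancel _ (by rw [constantCoeff_uOf hμ]; exact one_ne_zero),
      map_one]
  calc μ * HahnSeries.ofPowerSeries ℤ L (sOf μ)
      = HahnSeries.single (-1 : ℤ) (1 : L) * HahnSeries.ofPowerSeries ℤ L (uOf μ) *
        (HahnSeries.single (1 : ℤ) (1 : L) * HahnSeries.ofPowerSeries ℤ L (uOf μ)⁻¹) := by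
        rw [single_mul_uOf hμ, sOf, map_mul, HahnSeries.ofPowerSeries_X]
    _ = (HahnSeries.single (-1 : ℤ) (1 : L) * HahnSeries.single (1 : ℤ) (1 : L)) *
        (HahnSeries.ofPowerSeries ℤ L (uOf μ) * HahnSeries.ofPowerSeries ℤ L (uOf μ)⁻¹) := by
        ring
    _ = 1 := by
        rw [h2, HahnSeries.single_mul_single]
        simp

theorem coeff_sOf_mem (A : Subring L) {μ : LaurentSeries L} (hμ : IsLead μ)
    (hμA : LCoeffIn A μ) (i : ℕ) : PowerSeries.coeff i (sOf μ) ∈ A := by
  let uA : PowerSeries A := PowerSeries.mk fun n => ⟨μ.coeff ((n : ℤ) - 1), hμA _⟩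
  have huA : PowerSeries.map A.subtype uA = uOf μ := by
    ext n; simp [uA, uOf]
  have huA0 : PowerSeries.constantCoeff uA = ((1 : Aˣ) : A) := by
    rw [← PowerSeries.coeff_zero_eq_constantCoeff_apply, PowerSeries.coeff_mk]
    ext
    simpa using hμ.1
  have hinv : (uOf μ)⁻¹ = PowerSeries.map A.subtype (PowerSeries.invOfUnit uA 1) := by
    have h1 : uOf μ * PowerSeries.map A.subtype (PowerSeries.invOfUnit uA 1) = 1 := by
      rw [← huA, ← map_mul, PowerSeries.mul_invOfUnit uA 1 huA0, map_one]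
    have h2 : (uOf μ)⁻¹ * uOf μ = 1 :=
      PowerSeries.inv_mul_cancel _ (by rw [constantCoeff_uOf hμ]; exact one_ne_zero)
    calc (uOf μ)⁻¹ = (uOf μ)⁻¹ * (uOf μ * PowerSeries.map A.subtype
          (PowerSeries.invOfUnit uA 1)) := by rw [h1, mul_one]
      _ = PowerSeries.map A.subtype (PowerSeries.invOfUnit uA 1) := by
          rw [← mul_assoc, h2, one_mul]
  rw [sOf, hinv]
  cases i with
  | zero =>
    rw [PowerSeries.coeff_zero_X_mul]
    exact A.zero_mem
  | succ i =>
    rw [PowerSeries.coeff_succ_X_mul, PowerSeries.coeff_map]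
    exact (PowerSeries.coeff i (PowerSeries.invOfUnit uA 1)).2

variable [CharZero L]

/-- **The Taylor homomorphism `exp (X d/dμ)`** of `L((q))` attached to `μ = q⁻¹ + ⋯`. -/
noncomputable def TL (μ : LaurentSeries L) : LaurentSeries L →+* PowerSeries (LaurentSeries L) :=
  T (sOf μ)

/-- The derivation `d/dμ` of `L((q))` attached to `μ = q⁻¹ + ⋯`. -/
noncomputable def DL (μ : LaurentSeries L) := derQ (sOf μ)

theorem constantCoeff_TL (μ f : LaurentSeries L) : PowerSeries.constantCoeff (TL μ f) = f :=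
  constantCoeff_T _ _

theorem TL_C (μ : LaurentSeries L) (a : L) :
    TL μ (HahnSeries.C a) = PowerSeries.C (HahnSeries.C a) :=
  T_C _ _

theorem TL_self {μ : LaurentSeries L} (hμ : IsLead μ) :
    TL μ μ = PowerSeries.C μ + PowerSeries.X :=
  T_mul_inv _ (coeff_one_sOf hμ) μ (mul_sOf hμ)

theorem pcoeffIn_TL (A : Subring L) (I : AddSubgroup L) (hI : ∀ a ∈ A, ∀ x ∈ I, a * x ∈ I)
    {μ : LaurentSeries L} (hμ : IsLead μ) (hμA : LCoeffIn A μ) {f : LaurentSeries L}
    (hf : LCoeffIn I f) : PCoeffIn I (TL μ f) :=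
  pcoeffIn_T A I hI (sOf μ) (constantCoeff_sOf μ) (coeff_one_sOf hμ) (coeff_sOf_mem A hμ hμA)
    μ (mul_sOf hμ) hμA hf

theorem DL_apply (μ f : LaurentSeries L) : DL μ f = PowerSeries.coeff 1 (TL μ f) := rfl

theorem DL_C (μ : LaurentSeries L) (a : L) : DL μ (HahnSeries.C a) = 0 := derQ_C _ _

theorem DL_self {μ : LaurentSeries L} (hμ : IsLead μ) : DL μ μ = 1 :=
  derQ_mul_inv _ (coeff_one_sOf hμ) μ (mul_sOf hμ)

theorem coeff_TL (μ f : LaurentSeries L) (n : ℕ) :
    PowerSeries.coeff n (TL μ f) = dpow (DL μ) n f :=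
  coeff_T _ _ _

theorem succ_mul_coeff_TL (μ f : LaurentSeries L) (n : ℕ) :
    ((n + 1 : ℕ) : LaurentSeries L) * PowerSeries.coeff (n + 1) (TL μ f) =
      DL μ (PowerSeries.coeff n (TL μ f)) :=
  succ_mul_coeff_T _ _ _

end Wrapper

end Fermat.Agent.S18.TaylorQ
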