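/-
S18 moonshot leaf [C] (helper9): THE TAYLOR HOMOMORPHISM OVER `A`, `L` AND `k`.

Setting: `L` a field of characteristic `0`, `A` a commutative ring with an injective ring
homomorphism `ι : A →+* L` (e.g. a valuation subring with `ι = A.subtype`), `π : A →+* k` a
surjective ring homomorphism (e.g. the residue map), `muA = q⁻¹ + a₀ + a₁ q + ⋯` in `A((q))`.

* `TA : A((q)) →+* A((q))⟦X⟧`, `Tk : k((q)) →+* k((q))⟦X⟧` (and `TaylorQ.TL` over `L`);
* naturality: `map_TA`, `map_Tk`;
* `constantCoeff`, constants, `T μ = C μ + X` for all three.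
-/
import Mathlib
import Fermat.Prelude.Def_ModularCurve_LaurentCoeff
import Fermat.Agent.S18.TaylorQ

namespace Fermat.Agent.S18.HasseLaurent

open Fermat.Agent.S18.TaylorQ ModularCurve

section General

variable {A B : Type*} [CommRing A] [CommRing B]

theorem coeffMap_injective (φ : A →+* B) (hφ : Function.Injective φ) :
    Function.Injective (coeffMap φ) := by
  intro x y h
  ext i
  apply hφ
  have := congrArg (fun z => z.coeff i) h
  simpa using this

theorem coeffMap_C (φ : A →+* B) (a : A) :
    coeffMap φ (HahnSeries.C a) = HahnSeries.C (φ a) := by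
  rw [HahnSeries.C_apply, HahnSeries.C_apply, coeffMap_single]

open Classical in
/-- a section of a surjective ring homomorphism, mapping `0` to `0` -/
noncomputable def secFun (π : A →+* B) (hπ : Function.Surjective π) (b : B) : A :=
  if b = 0 then 0 else Function.surjInv hπ b

theorem secFun_zero (π : A →+* B) (hπ : Function.Surjective π) : secFun π hπ 0 = 0 := by
  unfold secFun
  rw [if_pos rfl]

theorem secFun_spec (π : A →+* B) (hπ : Function.Surjective π) (b : B) :
    π (secFun π hπ b) = b := by
  unfold secFun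
  split_ifs with h
  · rw [map_zero, h]
  · exact Function.surjInv_eq hπ b

/-- a zero-preserving section of a surjective ring homomorphism -/
noncomputable def sec (π : A →+* B) (hπ : Function.Surjective π) : ZeroHom B A where
  toFun := secFun π hπ
  map_zero' := secFun_zero π hπ

theorem sec_spec (π : A →+* B) (hπ : Function.Surjective π) (b : B) : π (sec π hπ b) = b :=
  secFun_spec π hπ b

/-- coefficientwise lift along a surjective ring homomorphism -/
noncomputable def liftL (π : A →+* B) (hπ : Function.Surjective π) (x : LaurentSeries B) :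
    LaurentSeries A :=
  x.map (sec π hπ)

theorem coeffMap_liftL (π : A →+* B) (hπ : Function.Surjective π) (x : LaurentSeries B) :
    coeffMap π (liftL π hπ x) = x := by
  ext i
  rw [coeffMap_coeff, liftL, HahnSeries.map_coeff, sec_spec]

theorem coeffMap_surjective (π : A →+* B) (hπ : Function.Surjective π) :
    Function.Surjective (coeffMap π) :=
  fun x => ⟨liftL π hπ x, coeffMap_liftL π hπ x⟩

open Classical in
/-- a retraction of a ring homomorphism, mapping `0` to `0` -/
noncomputable def retFun (ι : A →+* B) (b : B) : A :=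
  if h : ∃ a, ι a = b ∧ b ≠ 0 then h.choose else 0

theorem retFun_zero (ι : A →+* B) : retFun ι 0 = 0 := by
  unfold retFun
  rw [dif_neg]
  rintro ⟨a, -, h⟩
  exact h rfl

theorem retFun_spec (ι : A →+* B) {b : B} (hb : b ∈ Set.range ι) : ι (retFun ι b) = b := by
  unfold retFun
  by_cases h0 : b = 0
  · rw [dif_neg (fun h => h.choose_spec.2 h0), map_zero, h0]
  · obtain ⟨a, ha⟩ := hb
    have h : ∃ a, ι a = b ∧ b ≠ 0 := ⟨a, ha, h0⟩
    rw [dif_pos h]
    exact h.choose_spec.1

/-- a zero-preserving retraction of an injective ring homomorphism -/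
noncomputable def ret (ι : A →+* B) : ZeroHom B A where
  toFun := retFun ι
  map_zero' := retFun_zero ι

theorem ret_spec (ι : A →+* B) {b : B} (hb : b ∈ Set.range ι) : ι (ret ι b) = b :=
  retFun_spec ι hb

end General

section Main

variable {L : Type*} [Field L] [CharZero L] {A : Type*} [CommRing A] (ι : A →+* L)
  (hι : Function.Injective ι) {k : Type*} [CommRing k] (π : A →+* k)
  (hπ : Function.Surjective π) (muA : LaurentSeries A)
  (hmu : muA.coeff (-1) = 1 ∧ ∀ i : ℤ, i < -1 → muA.coeff i = 0)

omit [CharZero L] in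
include hmu in
theorem isLead_coeffMap : IsLead (coeffMap ι muA) := by
  refine ⟨?_, fun i hi => ?_⟩
  · rw [coeffMap_coeff, hmu.1, map_one]
  · rw [coeffMap_coeff, hmu.2 i hi, map_zero]

omit [CharZero L] in
theorem lcoeffIn_coeffMap (f : LaurentSeries A) :
    LCoeffIn (ι.range : Set L) (coeffMap ι f) := fun i => ⟨f.coeff i, rfl⟩

omit [CharZero L] in
/-- a series all of whose coefficients are in the range of `ι` comes from `A` -/
theorem exists_map_eq (G : PowerSeries (LaurentSeries L))
    (hG : PCoeffIn (ι.range : Set L) G) :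
    ∃ G' : PowerSeries (LaurentSeries A), PowerSeries.map (coeffMap ι) G' = G := by
  refine ⟨PowerSeries.mk fun n => (PowerSeries.coeff n G).map (ret ι), ?_⟩
  ext n i
  rw [PowerSeries.coeff_map, PowerSeries.coeff_mk, coeffMap_coeff, HahnSeries.map_coeff]
  exact ret_spec ι (hG n i)

include hmu in
theorem exists_TA (f : LaurentSeries A) :
    ∃ G' : PowerSeries (LaurentSeries A),
      PowerSeries.map (coeffMap ι) G' = TL (coeffMap ι muA) (coeffMap ι f) :=
  exists_map_eq ι _ (pcoeffIn_TL ι.range ι.range.toAddSubgroup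
    (fun _ ha _ hx => ι.range.mul_mem ha hx) (isLead_coeffMap ι muA hmu)
    (lcoeffIn_coeffMap ι muA) (lcoeffIn_coeffMap ι f))

omit [CharZero L] in
theorem map_coeffMap_injective (hι : Function.Injective ι) :
    Function.Injective (PowerSeries.map (coeffMap ι)) :=
  PowerSeries.map_injective _ (coeffMap_injective ι hι)

/-- **The Taylor homomorphism over `A`.** -/
noncomputable def TA : LaurentSeries A →+* PowerSeries (LaurentSeries A) where
  toFun f := (exists_TA ι muA hmu f).choose
  map_one' := by
    apply map_coeffMap_injective ι hι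
    rw [(exists_TA ι muA hmu 1).choose_spec, map_one, map_one, map_one]
  map_mul' x y := by
    apply map_coeffMap_injective ι hι
    rw [(exists_TA ι muA hmu (x * y)).choose_spec, map_mul, map_mul, map_mul,
      (exists_TA ι muA hmu x).choose_spec, (exists_TA ι muA hmu y).choose_spec]
  map_zero' := by
    apply map_coeffMap_injective ι hι
    rw [(exists_TA ι muA hmu 0).choose_spec, map_zero, map_zero, map_zero]
  map_add' x y := by
    apply map_coeffMap_injective ι hι
    rw [(exists_TA ι muA hmu (x + y)).choose_spec, map_add, map_add, map_add,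
      (exists_TA ι muA hmu x).choose_spec, (exists_TA ι muA hmu y).choose_spec]

/-- **Naturality along `A → L`.** -/
theorem map_TA (f : LaurentSeries A) :
    PowerSeries.map (coeffMap ι) (TA ι hι muA hmu f) = TL (coeffMap ι muA) (coeffMap ι f) :=
  (exists_TA ι muA hmu f).choose_spec

theorem coeff_TL_coeffMap (f : LaurentSeries A) (n : ℕ) :
    PowerSeries.coeff n (TL (coeffMap ι muA) (coeffMap ι f)) =
      coeffMap ι (PowerSeries.coeff n (TA ι hι muA hmu f)) := by
  rw [← map_TA ι hι muA hmu, PowerSeries.coeff_map]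

theorem constantCoeff_TA (f : LaurentSeries A) :
    PowerSeries.constantCoeff (TA ι hι muA hmu f) = f := by
  apply coeffMap_injective ι hι
  have := congrArg PowerSeries.constantCoeff (map_TA ι hι muA hmu f)
  rw [constantCoeff_TL, ← PowerSeries.coeff_zero_eq_constantCoeff_apply, PowerSeries.coeff_map,
    PowerSeries.coeff_zero_eq_constantCoeff_apply] at this
  exact this

theorem TA_C (a : A) :
    TA ι hι muA hmu (HahnSeries.C a) = PowerSeries.C (HahnSeries.C a) := by
  apply map_coeffMap_injective ι hι
  rw [map_TA, coeffMap_C, TL_C, PowerSeries.map_C, coeffMap_C]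

theorem TA_self : TA ι hι muA hmu muA = PowerSeries.C muA + PowerSeries.X := by
  apply map_coeffMap_injective ι hι
  rw [map_TA, TL_self (isLead_coeffMap ι muA hmu), map_add, PowerSeries.map_C,
    PowerSeries.map_X]

/-- coefficients in the kernel of `π` stay in the kernel of `π` -/
theorem map_TA_eq_zero (f : LaurentSeries A) (hf : coeffMap π f = 0) :
    PowerSeries.map (coeffMap π) (TA ι hι muA hmu f) = 0 := by
  have hI : ∀ a ∈ ι.range, ∀ x ∈ (RingHom.ker π).toAddSubgroup.map ι.toAddMonoidHom,
      a * x ∈ (RingHom.ker π).toAddSubgroup.map ι.toAddMonoidHom := by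
    rintro _ ⟨a, rfl⟩ _ ⟨x, hx, rfl⟩
    refine ⟨a * x, ?_, map_mul ι a x⟩
    exact (RingHom.ker π).mul_mem_left a hx
  have hfI : LCoeffIn ((RingHom.ker π).toAddSubgroup.map ι.toAddMonoidHom : Set L)
      (coeffMap ι f) := by
    intro i
    refine ⟨f.coeff i, ?_, rfl⟩
    have := congrArg (fun z => z.coeff i) hf
    simpa using this
  have h := pcoeffIn_TL ι.range _ hI (isLead_coeffMap ι muA hmu) (lcoeffIn_coeffMap ι muA) hfI
  ext n i
  rw [PowerSeries.coeff_map, coeffMap_coeff, map_zero, HahnSeries.coeff_zero]
  obtain ⟨x, hx, hxe⟩ := h n i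
  rw [coeff_TL_coeffMap ι hι muA hmu, coeffMap_coeff] at hxe
  have : x = (PowerSeries.coeff n (TA ι hι muA hmu f)).coeff i := hι hxe
  rw [← this]
  exact hx

/-- the reduction of `TA`, which kills the kernel of the reduction map -/
noncomputable def TkAux :
    { g : LaurentSeries A →+* PowerSeries (LaurentSeries k) //
      RingHom.ker (coeffMap π) ≤ RingHom.ker g } :=
  ⟨(PowerSeries.map (coeffMap π)).comp (TA ι hι muA hmu), fun f hf => by
    rw [RingHom.mem_ker] at hf ⊢
    rw [RingHom.comp_apply]
    exact map_TA_eq_zero ι hι π muA hmu f hf⟩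

/-- **The Taylor homomorphism over `k`.** -/
noncomputable def Tk : LaurentSeries k →+* PowerSeries (LaurentSeries k) :=
  (coeffMap π).liftOfRightInverse (liftL π hπ) (coeffMap_liftL π hπ) (TkAux ι hι π muA hmu)

/-- **Naturality along `A → k`.** -/
theorem map_Tk (f : LaurentSeries A) :
    PowerSeries.map (coeffMap π) (TA ι hι muA hmu f) = Tk ι hι π hπ muA hmu (coeffMap π f) :=
  ((coeffMap π).liftOfRightInverse_comp_apply (liftL π hπ) (coeffMap_liftL π hπ)
    (TkAux ι hι π muA hmu) f).symm

theorem coeff_Tk_coeffMap (f : LaurentSeries A) (n : ℕ) :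
    PowerSeries.coeff n (Tk ι hι π hπ muA hmu (coeffMap π f)) =
      coeffMap π (PowerSeries.coeff n (TA ι hι muA hmu f)) := by
  rw [← map_Tk, PowerSeries.coeff_map]

theorem constantCoeff_Tk (x : LaurentSeries k) :
    PowerSeries.constantCoeff (Tk ι hι π hπ muA hmu x) = x := by
  obtain ⟨f, rfl⟩ := coeffMap_surjective π hπ x
  rw [← PowerSeries.coeff_zero_eq_constantCoeff_apply, coeff_Tk_coeffMap,
    PowerSeries.coeff_zero_eq_constantCoeff_apply, constantCoeff_TA]

theorem Tk_C (c : k) :
    Tk ι hι π hπ muA hmu (HahnSeries.C c) = PowerSeries.C (HahnSeries.C c) := by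
  obtain ⟨a, rfl⟩ := hπ c
  rw [← coeffMap_C, ← map_Tk, TA_C, PowerSeries.map_C]

theorem Tk_self :
    Tk ι hι π hπ muA hmu (coeffMap π muA) = PowerSeries.C (coeffMap π muA) + PowerSeries.X := by
  rw [← map_Tk, TA_self, map_add, PowerSeries.map_C, PowerSeries.map_X]

/-- Transfer of stability: the image under reduction of a set stable under the Hasse
derivatives over `A` is stable under the Hasse derivatives over `k`. -/
theorem coeff_Tk_mem_image (O : Set (LaurentSeries A))
    (hO : ∀ f ∈ O, ∀ n, PowerSeries.coeff n (TA ι hι muA hmu f) ∈ O)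
    (x : LaurentSeries k) (hx : x ∈ coeffMap π '' O) (n : ℕ) :
    PowerSeries.coeff n (Tk ι hι π hπ muA hmu x) ∈ coeffMap π '' O := by
  obtain ⟨f, hf, rfl⟩ := hx
  exact ⟨_, hO f hf n, (coeff_Tk_coeffMap ι hι π hπ muA hmu f n).symm⟩

end Main

end Fermat.Agent.S18.HasseLaurent
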