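/-
S18 moonshot leaf [D], field part (helper9): the derivation `d/dμ` and all Hasse derivatives
with respect to `μ` preserve every intermediate field of `L((q))` which contains `μ` and is
algebraic over `L(μ)` (characteristic `0`).
-/
import Mathlib
import Fermat.Agent.S18.TaylorQ

namespace Fermat.Agent.S18.HasseField

open Fermat.Agent.S18.TaylorQ Polynomial

section Abstract

variable {L E : Type*} [Field L] [Field E] [Algebra L E]

theorem map_zero_of_add (d : E → E) (hadd : ∀ x y, d (x + y) = d x + d y) : d 0 = 0 := by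
  have h := hadd 0 0
  rw [add_zero] at h
  exact left_eq_add.mp h

theorem map_sum_of_add (d : E → E) (hadd : ∀ x y, d (x + y) = d x + d y) {ι : Type*}
    (s : Finset ι) (g : ι → E) : d (∑ i ∈ s, g i) = ∑ i ∈ s, d (g i) := by
  classical
  induction s using Finset.induction_on with
  | empty => simpa using map_zero_of_add d hadd
  | insert a s ha ih => rw [Finset.sum_insert ha, Finset.sum_insert ha, hadd, ih]

theorem map_one_of_leibniz (d : E → E) (hmul : ∀ x y, d (x * y) = x * d y + y * d x) :
    d 1 = 0 := by
  have h := hmul 1 1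
  simp only [mul_one, one_mul] at h
  exact left_eq_add.mp h

theorem map_pow_of_leibniz (d : E → E) (hmul : ∀ x y, d (x * y) = x * d y + y * d x)
    (h1 : d 1 = 0) (x : E) (n : ℕ) : d (x ^ n) = (n : E) * x ^ (n - 1) * d x := by
  induction n with
  | zero => simp [h1]
  | succ n ih =>
    rw [pow_succ, hmul, ih]
    cases n with
    | zero => simp
    | succ n =>
      simp only [Nat.add_sub_cancel, Nat.cast_add, Nat.cast_one]
      rw [pow_succ]
      ring

/-- A derivation of `E` which preserves the subfield `K` maps every element `f` which is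
separable algebraic over `K` into `K(f)`; in particular into every intermediate field containing
`K` and `f`. -/
theorem derivation_mem (d : E → E) (hadd : ∀ x y, d (x + y) = d x + d y)
    (hmul : ∀ x y, d (x * y) = x * d y + y * d x)
    (K F : IntermediateField L E) (hKF : K ≤ F) (hK : ∀ x ∈ K, d x ∈ K)
    {f : E} (hf : f ∈ F) (hsep : (minpoly K f).Separable) :
    d f ∈ F := by
  have h1 : d 1 = 0 := map_one_of_leibniz d hmul
  set P := minpoly K f with hP
  have hroot : aeval f P = 0 := minpoly.aeval K f
  have hder : aeval f (derivative P) ≠ 0 := hsep.aeval_derivative_ne_zero hroot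
  -- expand
  have e1 : aeval f P = ∑ i ∈ P.support, ((P.coeff i : K) : E) * f ^ i := by
    rw [aeval_def, eval₂_eq_sum, Polynomial.sum_def]
    rfl
  have e2 : aeval f (derivative P) =
      ∑ i ∈ P.support, ((P.coeff i : K) : E) * ((i : E) * f ^ (i - 1)) := by
    rw [derivative_apply, Polynomial.sum_def, map_sum]
    refine Finset.sum_congr rfl fun i _ => ?_
    rw [map_mul, aeval_C, map_pow, aeval_X, map_mul, map_natCast, IntermediateField.algebraMap_apply]
    ring
  have e3 : d (aeval f P) = aeval f (derivative P) * d f +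
      ∑ i ∈ P.support, f ^ i * d ((P.coeff i : K) : E) := by
    rw [e1, map_sum_of_add d hadd, e2, Finset.sum_mul, ← Finset.sum_add_distrib]
    refine Finset.sum_congr rfl fun i _ => ?_
    rw [hmul, map_pow_of_leibniz d hmul h1]
    ring
  rw [hroot, map_zero_of_add d hadd] at e3
  have hQ : (∑ i ∈ P.support, f ^ i * d ((P.coeff i : K) : E)) ∈ F :=
    F.sum_mem fun i _ => F.mul_mem (pow_mem hf i) (hKF (hK _ (P.coeff i).2))
  have hS : aeval f (derivative P) ∈ F := by
    rw [e2]
    exact F.sum_mem fun i _ => F.mul_mem (hKF (P.coeff i).2)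
      (F.mul_mem (natCast_mem F i) (pow_mem hf _))
  have e4 : d f = -(∑ i ∈ P.support, f ^ i * d ((P.coeff i : K) : E)) /
      aeval f (derivative P) := by
    field_simp
    linear_combination -e3
  rw [e4]
  exact F.div_mem (F.neg_mem hQ) hS

/-- A derivation of `E` vanishing on `L` with `d μ ∈ L(μ)` preserves `L(μ)`. -/
theorem derivation_mem_adjoin (d : E → E) (hadd : ∀ x y, d (x + y) = d x + d y)
    (hmul : ∀ x y, d (x * y) = x * d y + y * d x) (hL : ∀ c : L, d (algebraMap L E c) = 0)
    (μ : E) (hμ : d μ ∈ IntermediateField.adjoin L {μ}) {x : E}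
    (hx : x ∈ IntermediateField.adjoin L {μ}) : d x ∈ IntermediateField.adjoin L {μ} := by
  have h1 : d 1 = 0 := map_one_of_leibniz d hmul
  induction hx using IntermediateField.adjoin_induction with
  | mem y hy =>
    rw [Set.mem_singleton_iff] at hy
    rw [hy]; exact hμ
  | algebraMap c => rw [hL]; exact zero_mem _
  | add y z _ _ hy hz => rw [hadd]; exact add_mem hy hz
  | inv y hy0 hy =>
    by_cases h0 : y = 0
    · rw [h0, inv_zero, map_zero_of_add d hadd]; exact zero_mem _
    · have h := hmul y y⁻¹
      rw [mul_inv_cancel₀ h0, h1] at h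
      have e : d y⁻¹ = -(y⁻¹ * d y) / y := by
        rw [eq_div_iff h0]
        linear_combination -h
      rw [e]
      exact div_mem (neg_mem (mul_mem (inv_mem hy0) hy)) hy0
  | mul y z hy0 hz0 hy hz =>
    rw [hmul]
    exact add_mem (mul_mem hy0 hz) (mul_mem hz0 hy)

end Abstract

section Generic

variable {B : Type*} [CommRing B] [Algebra ℚ B]

theorem leibniz_mul (d : Derivation ℚ B B) (x y : B) : d (x * y) = x * d y + y * d x := by
  rw [d.leibniz, smul_eq_mul, smul_eq_mul]

end Generic

section Laurent

variable {L : Type*} [Field L] [CharZero L]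

omit [CharZero L] in
theorem natCast_ne_zero' [CharZero L] (n : ℕ) : ((n + 1 : ℕ) : LaurentSeries L) ≠ 0 := by
  have h : ((n + 1 : ℕ) : LaurentSeries L) = HahnSeries.C ((n + 1 : ℕ) : L) := by
    rw [map_natCast]
  rw [h]
  intro h0
  have h1 : ((n + 1 : ℕ) : L) = 0 := HahnSeries.C_injective (h0.trans (map_zero _).symm)
  exact Nat.succ_ne_zero n (by exact_mod_cast h1)

omit [CharZero L] in
theorem algebraMap_eq_C (c : L) : algebraMap L (LaurentSeries L) c = HahnSeries.C c := by
  have h1 : algebraMap L (PowerSeries L) c = PowerSeries.C c := by simp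
  rw [HahnSeries.algebraMap_apply', h1, HahnSeries.ofPowerSeries_C]

/-- **`d/dμ` preserves every intermediate field containing `μ` and algebraic over `L(μ)`.** -/
theorem DL_mem {μ : LaurentSeries L} (hμ : IsLead μ)
    (F : IntermediateField L (LaurentSeries L)) (hμF : μ ∈ F)
    (halg : ∀ f ∈ F, IsAlgebraic (IntermediateField.adjoin L {μ}) f)
    {f : LaurentSeries L} (hf : f ∈ F) : DL μ f ∈ F := by
  have hadd : ∀ x y, DL μ (x + y) = DL μ x + DL μ y := fun x y => map_add _ x y
  have hmul : ∀ x y, DL μ (x * y) = x * DL μ y + y * DL μ x := fun x y =>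
    leibniz_mul (DL μ) x y
  have hKF : IntermediateField.adjoin L {μ} ≤ F := by
    rw [IntermediateField.adjoin_le_iff]
    intro x hx
    rw [Set.mem_singleton_iff] at hx
    rw [hx]; exact hμF
  have hK : ∀ x ∈ IntermediateField.adjoin L {μ}, DL μ x ∈ IntermediateField.adjoin L {μ} :=
    fun x hx => derivation_mem_adjoin (DL μ) hadd hmul
      (fun c => by rw [algebraMap_eq_C, DL_C]) μ (by rw [DL_self hμ]; exact one_mem _) hx
  have hint : IsIntegral (IntermediateField.adjoin L {μ}) f := (halg f hf).isIntegral
  exact derivation_mem (DL μ) hadd hmul _ F hKF hK hf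
    ((minpoly.irreducible hint).separable)

/-- **All Hasse derivatives with respect to `μ` preserve `F`.** -/
theorem coeff_TL_mem {μ : LaurentSeries L} (hμ : IsLead μ)
    (F : IntermediateField L (LaurentSeries L)) (hμF : μ ∈ F)
    (halg : ∀ f ∈ F, IsAlgebraic (IntermediateField.adjoin L {μ}) f)
    {f : LaurentSeries L} (hf : f ∈ F) (n : ℕ) : PowerSeries.coeff n (TL μ f) ∈ F := by
  induction n with
  | zero =>
    rw [PowerSeries.coeff_zero_eq_constantCoeff_apply, constantCoeff_TL]
    exact hf
  | succ n ih =>
    have h := succ_mul_coeff_TL μ f n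
    have h0 : ((n + 1 : ℕ) : LaurentSeries L) ≠ 0 := natCast_ne_zero' n
    have e : PowerSeries.coeff (n + 1) (TL μ f) =
        DL μ (PowerSeries.coeff n (TL μ f)) / ((n + 1 : ℕ) : LaurentSeries L) := by
      rw [← h, mul_div_assoc, mul_comm, div_mul_cancel₀ _ h0]
    rw [e]
    exact F.div_mem (DL_mem hμ F hμF halg ih) (natCast_mem F _)

end Laurent

end Fermat.Agent.S18.HasseField
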