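/-
S18 moonshot leaf [D], place-theoretic part (helper9): a derivation `d` of a function field
`F / k` (one variable, `k` algebraically closed of characteristic `0`) with `d t = 1` for a
local parameter `t` at a place `P` preserves the valuation ring of `P`.  Consequently all Hasse
derivatives with respect to `μ` preserve regularity at every place at which `μ - b` is a local
parameter.

The proof avoids completions: `B` = integral closure of `k[t]` is a finite `k[t]`-module, so
`t ^ M * d B ⊆ O_P` for some `M`; `O_P` is a localisation of `B`, so `t ^ M * d O_P ⊆ O_P`;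
finally `f = c + t f₁` gives `d f = f₁ + t d f₁`, and `M` iterations remove the denominator.
-/
import Mathlib
import Fermat.Agent.S24.FFPlaces
import Fermat.Agent.S18.HasseField

set_option autoImplicit false

namespace Fermat.Agent.S18.HasseReg

open AlgebraicCurve IntermediateField IsDedekindDomain
open Fermat.Agent.S24 Fermat.Agent.S18.HasseField Fermat.Agent.S18.TaylorQ

section Abstract

variable {k F : Type*} [Field k] [Field F] [Algebra k F]

/-- A derivation vanishing on `k` with `d t ∈ k[t]` preserves `k[t]`. -/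
theorem derivation_mem_algebra_adjoin (d : F → F) (hadd : ∀ x y, d (x + y) = d x + d y)
    (hmul : ∀ x y, d (x * y) = x * d y + y * d x) (hL : ∀ c : k, d (algebraMap k F c) = 0)
    (t : F) (ht : d t ∈ Algebra.adjoin k {t}) {a : F} (ha : a ∈ Algebra.adjoin k {t}) :
    d a ∈ Algebra.adjoin k {t} := by
  induction ha using Algebra.adjoin_induction with
  | mem y hy =>
    rw [Set.mem_singleton_iff] at hy
    rw [hy]; exact ht
  | algebraMap c => rw [hL]; exact zero_mem _
  | add y z _ _ hy hz => rw [hadd]; exact add_mem hy hz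
  | mul y z hy0 hz0 hy hz =>
    rw [hmul]
    exact add_mem (mul_mem hy0 hz) (mul_mem hz0 hy)

/-- **Regularity of derivations.**  If `t` is a local parameter at `P` and `d t = 1`, then the
derivation `d` preserves the valuation ring of `P`. -/
theorem derivation_mem_valuationSubring [IsAlgClosed k] [CharZero k] (x : F)
    (hx : Transcendental k x) [FiniteDimensional k⟮x⟯ F]
    (d : F → F) (hadd : ∀ a b, d (a + b) = d a + d b)
    (hmul : ∀ a b, d (a * b) = a * d b + b * d a) (hL : ∀ c : k, d (algebraMap k F c) = 0)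
    (P : Place k F) (t : F) (hPt : P.ord t = 1) (hdt : d t = 1)
    {f : F} (hf : f ∈ P.toValuationSubring) : d f ∈ P.toValuationSubring := by
  classical
  have h1 : d 1 = 0 := map_one_of_leibniz d hmul
  have h0 : d 0 = 0 := map_zero_of_add d hadd
  have ht0 : t ≠ 0 := by
    rintro rfl
    rw [P.ord_zero] at hPt
    exact zero_ne_one hPt
  have hPt0 : (0 : ℤ) ≤ P.ord t := by rw [hPt]; norm_num
  have htO : t ∈ P.toValuationSubring := mem_of_ord_nonneg P ht0 hPt0
  have htr : Transcendental k t := by
    apply transcendental_of_not_mem_range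
    rintro ⟨c, rfl⟩
    rw [ord_algebraMap] at hPt
    exact zero_ne_one hPt
  have : FiniteDimensional k⟮t⟯ F := finiteDimensional_adjoin x hx t htr
  have := isDedekindDomain_integralClosure t htr
  have hAO : ∀ a ∈ Algebra.adjoin k {t}, a ∈ P.toValuationSubring :=
    fun a ha => adjoin_mem_of_ord_nonneg t P hPt0 a ha
  have hBO : ∀ b ∈ integralClosure (Algebra.adjoin k {t}) F, b ∈ P.toValuationSubring :=
    fun b hb => integralClosure_mem_of_ord_nonneg t P hPt0 b hb
  have hdA : ∀ a ∈ Algebra.adjoin k {t}, d a ∈ Algebra.adjoin k {t} := fun a ha =>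
    derivation_mem_algebra_adjoin d hadd hmul hL t (by rw [hdt]; exact one_mem _) ha
  -- every element of `F` is bounded by a power of `t`
  have hbd : ∀ y : F, ∃ M : ℕ, t ^ M * y ∈ P.toValuationSubring := by
    intro y
    rcases eq_or_ne y 0 with rfl | hy
    · exact ⟨0, by rw [mul_zero]; exact zero_mem _⟩
    · refine ⟨(-(P.ord y)).toNat, ?_⟩
      apply mem_of_ord_nonneg P (mul_ne_zero (pow_ne_zero _ ht0) hy)
      rw [P.ord_mul (pow_ne_zero _ ht0) hy, ord_pow, hPt, mul_one]
      have := Int.self_le_toNat (-(P.ord y))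
      omega
  have hmono : ∀ (y : F) (M M' : ℕ), M ≤ M' → t ^ M * y ∈ P.toValuationSubring →
      t ^ M' * y ∈ P.toValuationSubring := by
    intro y M M' hMM h
    obtain ⟨e, rfl⟩ := Nat.exists_eq_add_of_le hMM
    have e1 : t ^ (M + e) * y = t ^ e * (t ^ M * y) := by ring
    rw [e1]
    exact mul_mem (pow_mem htO e) h
  -- a uniform bound on the generators of `B`
  have hfin := finite_integralClosure t htr
  obtain ⟨s, hs⟩ := hfin.fg_top
  have hMs : ∀ s' : Finset (integralClosure (Algebra.adjoin k {t}) F), ∃ M : ℕ,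
      ∀ b ∈ s', t ^ M * d (b : F) ∈ P.toValuationSubring := by
    intro s'
    induction s' using Finset.induction_on with
    | empty => exact ⟨0, fun b hb => absurd hb (Finset.notMem_empty b)⟩
    | insert a s' _ ih =>
      obtain ⟨M₁, hM₁⟩ := ih
      obtain ⟨M₂, hM₂⟩ := hbd (d (a : F))
      refine ⟨max M₁ M₂, fun b hb => ?_⟩
      rcases Finset.mem_insert.mp hb with rfl | hb
      · exact hmono _ _ _ (le_max_right _ _) hM₂
      · exact hmono _ _ _ (le_max_left _ _) (hM₁ b hb)
  obtain ⟨M, hM⟩ := hMs s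
  -- the bound on all of `B`
  have hB : ∀ b : integralClosure (Algebra.adjoin k {t}) F,
      t ^ M * d (b : F) ∈ P.toValuationSubring := by
    intro b
    have hb : b ∈ Submodule.span (Algebra.adjoin k {t}) (s : Set _) := by
      rw [hs]; trivial
    induction hb using Submodule.span_induction with
    | mem y hy => exact hM y hy
    | zero =>
      have e : ((0 : integralClosure (Algebra.adjoin k {t}) F) : F) = 0 := rfl
      rw [e, h0, mul_zero]
      exact zero_mem _
    | add y z _ _ hy hz =>
      have e : ((y + z : integralClosure (Algebra.adjoin k {t}) F) : F) = (y : F) + (z : F) :=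
        rfl
      rw [e, hadd, mul_add]
      exact add_mem hy hz
    | smul a y _ hy =>
      have e : ((a • y : integralClosure (Algebra.adjoin k {t}) F) : F) = (a : F) * (y : F) :=
        rfl
      rw [e, hmul, mul_add]
      refine add_mem ?_ ?_
      · rw [mul_left_comm]
        exact mul_mem (hAO _ a.2) hy
      · exact mul_mem (pow_mem htO M) (mul_mem (hBO _ y.2) (hAO _ (hdA _ a.2)))
  -- the bound on the valuation ring
  have hO : ∀ g ∈ P.toValuationSubring, t ^ M * d g ∈ P.toValuationSubring := by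
    intro g hg
    obtain ⟨w, hw, hwmem⟩ := exists_eq_ofHeightOneSpectrum_integralClosure t htr P hPt0
    have hgval : w.valuation F g ≤ 1 := by
      have hg' := hg
      rw [hw, mem_ofHeightOneSpectrum_iff] at hg'
      exact hg'
    obtain ⟨n, e, hne⟩ := w.exists_primeCompl_mul_eq_of_integer g hgval
    have heP : (e : integralClosure (Algebra.adjoin k {t}) F) ∉ w.asIdeal := e.2
    have he0 : ((e : integralClosure (Algebra.adjoin k {t}) F) : F) ≠ 0 := by
      intro h0'
      apply heP
      have : (e : integralClosure (Algebra.adjoin k {t}) F) = 0 := Subtype.ext h0'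
      rw [this]
      exact zero_mem _
    have heord : P.ord ((e : integralClosure (Algebra.adjoin k {t}) F) : F) = 0 := by
      have h1' : ¬ ((e : integralClosure (Algebra.adjoin k {t}) F) ≠ 0 ∧
          0 < P.ord ((e : integralClosure (Algebra.adjoin k {t}) F) : F)) := by
        intro h
        exact heP ((hwmem _).mpr (Or.inl h))
      have h2 : 0 ≤ P.ord ((e : integralClosure (Algebra.adjoin k {t}) F) : F) :=
        ord_nonneg_of_mem P (hBO _ (e : integralClosure (Algebra.adjoin k {t}) F).2)
      by_contra hne'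
      apply h1'
      refine ⟨fun h0' => he0 (by rw [h0']; rfl), by omega⟩
    set ε : F := ((e : integralClosure (Algebra.adjoin k {t}) F) : F) with hε
    have hεinv : ε⁻¹ ∈ P.toValuationSubring := by
      apply mem_of_ord_nonneg P (inv_ne_zero he0)
      rw [P.ord_inv, heord]
      norm_num
    have hgn : g = (n : F) * ε⁻¹ := by
      have h2 : g * ε = (n : F) := hne
      rw [← h2, mul_assoc, mul_inv_cancel₀ he0, mul_one]
    have hdinv : d ε⁻¹ = -(ε⁻¹ * ε⁻¹ * d ε) := by
      have h := hmul ε ε⁻¹
      rw [mul_inv_cancel₀ he0, h1] at h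
      have h3 : ε * d ε⁻¹ = -(ε⁻¹ * d ε) := by linear_combination -h
      have h4 : d ε⁻¹ = ε⁻¹ * (ε * d ε⁻¹) := by
        rw [← mul_assoc, inv_mul_cancel₀ he0, one_mul]
      rw [h4, h3]
      ring
    have e1 : t ^ M * d g = ε⁻¹ * (t ^ M * d (n : F)) -
        (n : F) * ε⁻¹ * ε⁻¹ * (t ^ M * d ε) := by
      rw [hgn, hmul, hdinv]
      ring
    rw [e1]
    exact sub_mem (mul_mem hεinv (hB n))
      (mul_mem (mul_mem (mul_mem (hBO _ n.2) hεinv) hεinv) (hB e))
  -- the residue field is `k`
  have hH1 : ∀ g ∈ P.toValuationSubring, ∃ c : k, ∃ g₁ ∈ P.toValuationSubring,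
      g = algebraMap k F c + t * g₁ := by
    intro g hg
    obtain ⟨c, hc⟩ := exists_sub_algebraMap_ord_pos x hx P (ord_nonneg_of_mem P hg)
    rcases hc with hc | hc
    · exact ⟨c, 0, zero_mem _, by rw [hc]; ring⟩
    · have hne : g - algebraMap k F c ≠ 0 := by
        intro h
        rw [h, P.ord_zero] at hc
        exact lt_irrefl _ hc
      refine ⟨c, (g - algebraMap k F c) / t, ?_, by field_simp; ring⟩
      apply mem_of_ord_nonneg P (div_ne_zero hne ht0)
      rw [ord_div P hne ht0, hPt]
      omega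
  -- descent
  have hC : ∀ n : ℕ, ∀ g ∈ P.toValuationSubring, ∃ a ∈ P.toValuationSubring, ∃ b : F,
      t ^ M * b ∈ P.toValuationSubring ∧ d g = a + t ^ n * b := by
    intro n
    induction n with
    | zero =>
      intro g hg
      exact ⟨0, zero_mem _, d g, hO g hg, by rw [pow_zero, one_mul, zero_add]⟩
    | succ n ih =>
      intro g hg
      obtain ⟨c, g₁, hg₁, rfl⟩ := hH1 g hg
      obtain ⟨a, ha, b, hb, hab⟩ := ih g₁ hg₁
      refine ⟨g₁ + t * a, add_mem hg₁ (mul_mem htO ha), b, hb, ?_⟩
      rw [hadd, hL, zero_add, hmul, hab, hdt]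
      ring
  obtain ⟨a, ha, b, hb, hab⟩ := hC M f hf
  rw [hab]
  exact add_mem ha hb

/-- **Regularity of derivations**, in terms of orders. -/
theorem derivation_regular [IsAlgClosed k] [CharZero k] (x : F)
    (hx : Transcendental k x) [FiniteDimensional k⟮x⟯ F]
    (d : F → F) (hadd : ∀ a b, d (a + b) = d a + d b)
    (hmul : ∀ a b, d (a * b) = a * d b + b * d a) (hL : ∀ c : k, d (algebraMap k F c) = 0)
    (P : Place k F) (t : F) (hPt : P.ord t = 1) (hdt : d t = 1)
    {f : F} (hf : 0 ≤ P.ord f) : 0 ≤ P.ord (d f) := by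
  apply ord_nonneg_of_mem
  apply derivation_mem_valuationSubring x hx d hadd hmul hL P t hPt hdt
  rcases eq_or_ne f 0 with rfl | h
  · exact zero_mem _
  · exact mem_of_ord_nonneg P h hf

end Abstract

section Transfer

variable {L E : Type*} [Field L] [Field E] [Algebra L E]

/-- Algebraicity over `L(μ)` computed inside an intermediate field `F` is algebraicity over
`L(μ)` in the ambient field. -/
theorem isAlgebraic_adjoin_of_mem (F : IntermediateField L E) {μ : E} (hμF : μ ∈ F)
    [Algebra.IsAlgebraic L⟮(⟨μ, hμF⟩ : F)⟯ F] {f : E} (hf : f ∈ F) :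
    IsAlgebraic L⟮μ⟯ f := by
  have hmap : (L⟮(⟨μ, hμF⟩ : F)⟯ : IntermediateField L F).map F.val = L⟮μ⟯ := by
    rw [IntermediateField.adjoin_map]
    congr 1
    simp
  have hmem : ∀ y : L⟮(⟨μ, hμF⟩ : F)⟯,
      ((algebraMap F E).comp (algebraMap L⟮(⟨μ, hμF⟩ : F)⟯ F)) y ∈ L⟮μ⟯ := by
    intro y
    rw [← hmap]
    exact ⟨(y : F), y.2, rfl⟩
  let φ : L⟮(⟨μ, hμF⟩ : F)⟯ →+* L⟮μ⟯ :=
    ((algebraMap F E).comp (algebraMap L⟮(⟨μ, hμF⟩ : F)⟯ F)).codRestrict L⟮μ⟯ hmem
  have hint : IsIntegral L⟮(⟨μ, hμF⟩ : F)⟯ (⟨f, hf⟩ : F) :=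
    (Algebra.IsAlgebraic.isAlgebraic (⟨f, hf⟩ : F)).isIntegral
  have h := IsIntegral.map_of_comp_eq φ (algebraMap F E) (by rfl) hint
  exact h.isAlgebraic

end Transfer

section Laurent

variable {L : Type*} [Field L] [CharZero L] [IsAlgClosed L]

/-- A series with a simple pole is transcendental. -/
theorem transcendental_of_isLead {μ : LaurentSeries L} (hμ : IsLead μ)
    (F : IntermediateField L (LaurentSeries L)) (hμF : μ ∈ F) :
    Transcendental L (⟨μ, hμF⟩ : F) := by
  apply transcendental_of_not_mem_range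
  rintro ⟨c, hc⟩
  have h1 : algebraMap L (LaurentSeries L) c = μ := congrArg Subtype.val hc
  rw [algebraMap_eq_C] at h1
  have h2 := hμ.1
  rw [← h1, HahnSeries.C_apply, HahnSeries.coeff_single_of_ne (by norm_num)] at h2
  exact zero_ne_one h2

/-- The hypothesis `halg` of `HasseField.coeff_TL_mem` for a function field of one variable. -/
theorem halg_of_finiteDimensional {μ : LaurentSeries L} (hμ : IsLead μ)
    (F : IntermediateField L (LaurentSeries L)) (hμF : μ ∈ F)
    (x : F) (hx : Transcendental L x) [FiniteDimensional L⟮x⟯ F] :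
    ∀ f ∈ F, IsAlgebraic (IntermediateField.adjoin L {μ}) f := by
  intro f hf
  have : FiniteDimensional L⟮(⟨μ, hμF⟩ : F)⟯ F :=
    finiteDimensional_adjoin x hx _ (transcendental_of_isLead hμ F hμF)
  have : Algebra.IsAlgebraic L⟮(⟨μ, hμF⟩ : F)⟯ F := Algebra.IsAlgebraic.of_finite _ _
  exact isAlgebraic_adjoin_of_mem F hμF hf

/-- **Hasse derivatives preserve regularity at a place.**  If `μ - b` is a local parameter at
the place `P` of `F` and `f ∈ F` is regular at `P`, then every Hasse derivative
`coeff n (TL μ f)` (an element of `F` by `HasseField.coeff_TL_mem`) is regular at `P`. -/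
theorem coeff_TL_mem_place {μ : LaurentSeries L} (hμ : IsLead μ)
    (F : IntermediateField L (LaurentSeries L)) (hμF : μ ∈ F)
    (x : F) (hx : Transcendental L x) [FiniteDimensional L⟮x⟯ F]
    (P : Place L F) (b : L) (hPb : P.ord ((⟨μ, hμF⟩ : F) - algebraMap L F b) = 1)
    (f : F) (hreg : f ∈ P.toValuationSubring) (n : ℕ) :
    ∃ g : F, (g : LaurentSeries L) = PowerSeries.coeff n (TL μ (f : LaurentSeries L)) ∧
      g ∈ P.toValuationSubring := by
  have halg := halg_of_finiteDimensional hμ F hμF x hx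
  let d : F → F := fun y => ⟨DL μ (y : LaurentSeries L), DL_mem hμ F hμF halg y.2⟩
  have hd : ∀ y : F, ((d y : F) : LaurentSeries L) = DL μ (y : LaurentSeries L) := fun _ => rfl
  have hadd : ∀ a b, d (a + b) = d a + d b := fun a b => Subtype.ext (map_add (DL μ) _ _)
  have hmul : ∀ a b, d (a * b) = a * d b + b * d a := fun a b =>
    Subtype.ext (leibniz_mul (DL μ) _ _)
  have hL : ∀ c : L, d (algebraMap L F c) = 0 := fun c => Subtype.ext (by
    show DL μ (algebraMap L (LaurentSeries L) c) = 0
    rw [algebraMap_eq_C, DL_C])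
  have hdt : d ((⟨μ, hμF⟩ : F) - algebraMap L F b) = 1 := by
    have e : (⟨μ, hμF⟩ : F) - algebraMap L F b = (⟨μ, hμF⟩ : F) + algebraMap L F (-b) := by
      rw [map_neg, sub_eq_add_neg]
    rw [e, hadd, hL, add_zero]
    exact Subtype.ext (DL_self hμ)
  induction n with
  | zero =>
    exact ⟨f, by rw [PowerSeries.coeff_zero_eq_constantCoeff_apply, constantCoeff_TL], hreg⟩
  | succ n ih =>
    obtain ⟨g, hg, hgP⟩ := ih
    have hn0 : ((n + 1 : ℕ) : L) ≠ 0 := Nat.cast_ne_zero.mpr (Nat.succ_ne_zero n)
    refine ⟨d g * algebraMap L F ((n + 1 : ℕ) : L)⁻¹, ?_,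
      mul_mem (derivation_mem_valuationSubring x hx d hadd hmul hL P _ hPb hdt hgP)
        (P.algebraMap_mem' _)⟩
    have h := succ_mul_coeff_TL μ (f : LaurentSeries L) n
    have e1 : ((d g * algebraMap L F ((n + 1 : ℕ) : L)⁻¹ : F) : LaurentSeries L) =
        DL μ (g : LaurentSeries L) * HahnSeries.C ((n + 1 : ℕ) : L)⁻¹ := by
      rw [← algebraMap_eq_C]
      rfl
    have e2 : ((n + 1 : ℕ) : LaurentSeries L) = HahnSeries.C ((n + 1 : ℕ) : L) := by
      rw [map_natCast]
    rw [e1, hg, ← h, e2, mul_comm, ← mul_assoc, ← map_mul, inv_mul_cancel₀ hn0, map_one, one_mul]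

/-- **Hasse derivatives preserve the ring of functions regular where `j` is regular**, provided
`μ` is a local coordinate at all these places. -/
theorem coeff_TL_regular {μ : LaurentSeries L} (hμ : IsLead μ)
    (F : IntermediateField L (LaurentSeries L)) (hμF : μ ∈ F)
    (x : F) (hx : Transcendental L x) [FiniteDimensional L⟮x⟯ F] (j : F)
    (hpar : ∀ P : Place L F, j ∈ P.toValuationSubring →
      ∃ b : L, P.ord ((⟨μ, hμF⟩ : F) - algebraMap L F b) = 1)
    (f : F) (hf : ∀ P : Place L F, j ∈ P.toValuationSubring → f ∈ P.toValuationSubring)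
    (n : ℕ) :
    ∃ g : F, (g : LaurentSeries L) = PowerSeries.coeff n (TL μ (f : LaurentSeries L)) ∧
      ∀ P : Place L F, j ∈ P.toValuationSubring → g ∈ P.toValuationSubring := by
  have halg := halg_of_finiteDimensional hμ F hμF x hx
  refine ⟨⟨_, coeff_TL_mem hμ F hμF halg f.2 n⟩, rfl, fun P hP => ?_⟩
  obtain ⟨b, hb⟩ := hpar P hP
  obtain ⟨g, hg, hgP⟩ := coeff_TL_mem_place hμ F hμF x hx P b hb f (hf P hP) n
  have e : g = ⟨_, coeff_TL_mem hμ F hμF halg f.2 n⟩ := Subtype.ext hg
  rw [← e]
  exact hgP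

end Laurent

end Fermat.Agent.S18.HasseReg
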