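/-
S18 moonshot leaf [D], stability part (helper9): the integral part `O1int` of chart 1 and its
reduction `R1int` are stable under all Hasse derivatives with respect to a Hauptmodul `μ`
which is a local coordinate at the finite places and has an integral `q`-expansion with a
simple pole with leading coefficient `1`.

* `mem_gaussRing_of_inc` / `mem_OO_of_inc` / `intSeries_le_OO`: a function whose `q`-expansion
  has coefficients in `A` lies in the Gauss ring;
* `stable_O1int`: stability of `Charts.O1int A N` under `coeff n ∘ TA`;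
* `stable_R1int`: stability of `Charts.R1int A N` under `coeff n ∘ Tk`, in the literal shape of
  the hypothesis `hstab` of `ChartNormalFk.integralClosure_le`.
-/
import Mathlib
import Fermat.Agent.S18.HasseReg
import Fermat.Agent.S18.HasseLaurent
import Fermat.Agent.S18.Charts
import Fermat.Agent.S18.DecMod

set_option autoImplicit false

namespace Fermat.Agent.S18.HasseStab

open ModularCurve AlgebraicCurve HahnSeries
open Fermat.Agent.S18.Gauss Fermat.Agent.S18.Lattice Fermat.Agent.S24 Fermat.Agent.S24.Eval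
open Fermat.Agent.S18.TaylorQ

section Gauss

variable {L : Type*} [Field L] {A : ValuationSubring L}
  {F : IntermediateField L (LaurentSeries L)}
  {Fk : IntermediateField (IsLocalRing.ResidueField A)
    (LaurentSeries (IsLocalRing.ResidueField A))}

/-- Under the decomposition hypothesis, a function whose `q`-expansion has coefficients in `A`
lies in the Gauss ring. -/
theorem mem_gaussRing_of_inc (hdec : Dec A F Fk) {f : F} {y : LaurentSeries A}
    (hy : inc A y = (f : LaurentSeries L)) : f ∈ gaussRing A F Fk := by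
  rcases eq_or_ne f 0 with rfl | hf
  · exact zero_mem _
  obtain ⟨c, u, hc, hu, hfu⟩ := exists_normalize hdec f hf
  by_cases hcA : c ∈ A
  · rw [hfu, Algebra.smul_def]
    exact mul_mem (algebraMap_mem_gaussRing ⟨c, hcA⟩) u.2
  · exfalso
    obtain ⟨d, hd, hdn⟩ := inv_mem_nonunits_of_not_mem hcA
    obtain ⟨n, Y, hn, hY, hfY, -⟩ := exists_pres u
    -- `u = d • f`
    have h1 : ((u : F) : LaurentSeries L) = inc A (HahnSeries.C d * y) := by
      have h2 : (f : LaurentSeries L) = algebraMap L (LaurentSeries L) c *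
          ((u : F) : LaurentSeries L) := by
        rw [hfu, Algebra.smul_def]
        rfl
      rw [map_mul, inc_C, hy, h2, hd, ← mul_assoc, ← map_mul, inv_mul_cancel₀ hc, map_one,
        one_mul]
    have h3 : HahnSeries.C d * y * Y = n := by
      apply inc_injective A
      rw [map_mul, ← h1, hfY]
    have h4 : rd A n = 0 := by
      rw [← h3, mul_assoc, rd_C_mul_of_nonunit A hdn]
    exact hu ((red_eq_zero_iff u hn hY hfY).mpr h4)

end Gauss

section Level

variable (A : ValuationSubring KK) {ℓ : ℕ} [Fact ℓ.Prime] (N : ℕ) [NeZero N]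

/-- At a level prime to `ℓ`, a function whose `q`-expansion has coefficients in `A` lies in the
Gauss ring. -/
theorem mem_OO_of_inc (hA : A.LiesOverPrime ℓ) (hℓN : ¬ ℓ ∣ N) {f : FF N}
    {y : LaurentSeries A} (hy : inc A y = (f : LaurentSeries KK)) : f ∈ OO A N :=
  mem_gaussRing_of_inc (DecMod.dec N hA hℓN) hy

theorem intSeries_le_OO (hA : A.LiesOverPrime ℓ) (hℓN : ¬ ℓ ∣ N) :
    Charts.intSeries A N ≤ OO A N := by
  rintro f ⟨y, hy⟩
  exact mem_OO_of_inc A N hA hℓN hy

/-- Membership in the integral part of chart 1, at a level prime to `ℓ`: regular at the finite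
places and integral `q`-expansion. -/
theorem mem_O1int_iff (hA : A.LiesOverPrime ℓ) (hℓN : ¬ ℓ ∣ N) {f : FF N} :
    f ∈ Charts.O1int A N ↔ f ∈ Charts.regAt N (jF N) ∧ f ∈ Charts.intSeries A N := by
  rw [Charts.mem_O1int]
  exact ⟨fun h => h.2, fun h => ⟨intSeries_le_OO A N hA hℓN h.2, h⟩⟩

/-- **Stability of the integral part of chart 1 under the Hasse derivatives.** -/
theorem stable_O1int (hA : A.LiesOverPrime ℓ) (hℓN : ¬ ℓ ∣ N) (μ : FF N)
    (muA : LaurentSeries A) (hmu : muA.coeff (-1) = 1 ∧ ∀ i : ℤ, i < -1 → muA.coeff i = 0)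
    (hμ : (μ : LaurentSeries KK) = inc A muA)
    (hpar : ∀ v : Place KK (FF N), 0 ≤ v.ord (jF N) →
      ∃ b : KK, v.ord (μ - algebraMap KK (FF N) b) = 1)
    {f : FF N} (hf : f ∈ Charts.O1int A N) {y : LaurentSeries A}
    (hy : inc A y = (f : LaurentSeries KK)) (n : ℕ) :
    ∃ g ∈ Charts.O1int A N, (g : LaurentSeries KK) =
      inc A (PowerSeries.coeff n (HasseLaurent.TA A.subtype Subtype.val_injective muA hmu y)) := by
  have hlead : IsLead (inc A muA) := HasseLaurent.isLead_coeffMap A.subtype muA hmu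
  have hμF : inc A muA ∈ modularFunctionFieldBar N := hμ ▸ μ.2
  have hμe : (⟨inc A muA, hμF⟩ : FF N) = μ := Subtype.ext hμ.symm
  have := Degree.finiteDimensional_jF N
  obtain ⟨g, hg, hgP⟩ := HasseReg.coeff_TL_regular hlead (modularFunctionFieldBar N) hμF (jF N)
    (Degree.transcendental_jF N) (jF N)
    (fun P hP => by rw [hμe]; exact hpar P (ord_nonneg_of_mem P hP)) f
    ((Charts.mem_O1int A N).mp hf).2.1 n
  have hg' : (g : LaurentSeries KK) =
      inc A (PowerSeries.coeff n (HasseLaurent.TA A.subtype Subtype.val_injective muA hmu y)) := by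
    rw [hg, ← hy]
    exact HasseLaurent.coeff_TL_coeffMap A.subtype Subtype.val_injective muA hmu y n
  exact ⟨g, (mem_O1int_iff A N hA hℓN).mpr ⟨hgP, ⟨_, hg'.symm⟩⟩, hg'⟩

/-- **Stability of the reduction of the integral part of chart 1 under the Hasse derivatives
over the residue field**: the hypothesis `hstab` of `ChartNormalFk.integralClosure_le`. -/
theorem stable_R1int (hA : A.LiesOverPrime ℓ) (hℓN : ¬ ℓ ∣ N) (μ : FF N)
    (muA : LaurentSeries A) (hmu : muA.coeff (-1) = 1 ∧ ∀ i : ℤ, i < -1 → muA.coeff i = 0)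
    (hμ : (μ : LaurentSeries KK) = inc A muA)
    (hpar : ∀ v : Place KK (FF N), 0 ≤ v.ord (jF N) →
      ∃ b : KK, v.ord (μ - algebraMap KK (FF N) b) = 1) :
    ∀ x ∈ Charts.R1int A N, ∀ n : ℕ, ∃ z ∈ Charts.R1int A N,
      (z : LaurentSeries (IsLocalRing.ResidueField A)) =
        PowerSeries.coeff n (HasseLaurent.Tk A.subtype Subtype.val_injective
          (IsLocalRing.residue A) IsLocalRing.residue_surjective muA hmu
          (x : LaurentSeries (IsLocalRing.ResidueField A))) := by
  intro x hx n
  obtain ⟨f, hf, rfl⟩ := (Charts.mem_redImage A N).mp hx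
  obtain ⟨y, hy⟩ := ((Charts.mem_O1int A N).mp hf).2.2
  obtain ⟨g, hgO, hg⟩ := stable_O1int A N hA hℓN μ muA hmu hμ hpar hf hy n
  have hgOO : g ∈ OO A N := ((Charts.mem_O1int A N).mp hgO).1
  refine ⟨redN A N ⟨g, hgOO⟩, (Charts.mem_redImage A N).mpr ⟨⟨g, hgOO⟩, hgO, rfl⟩, ?_⟩
  have e1 := Charts.redN_eq_rd A N hgOO hg.symm
  have e2 := Charts.redN_eq_rd A N f.2 hy
  rw [e1]
  have e3 : ((redN A N f : FkN A N) : LaurentSeries (IsLocalRing.ResidueField A)) = rd A y := e2
  rw [e3]
  exact (HasseLaurent.coeff_Tk_coeffMap A.subtype Subtype.val_injective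
    (IsLocalRing.residue A) IsLocalRing.residue_surjective muA hmu y n).symm

end Level

end Fermat.Agent.S18.HasseStab
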