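import Mathlib
import Fermat.Agent.S24.JqExpansion

/-!
# S18 moonshot, leaf (Hb), numerics library: certified truncated power series arithmetic

Lists of integers model power series modulo `X ^ n`.  Every operation on lists used below is
defined by structural recursion, so that closed instances are evaluated by the kernel.
-/

set_option autoImplicit false

namespace Fermat.Agent.S18.HauptBNumLib

open PowerSeries ModularCurve Filter Topology
open Fermat.Agent.S24.JqExpansion

/-! ### Lists -/

/-- the `i`-th entry of a list of integers (zero beyond the end) -/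
def cof (l : List ℤ) (i : ℕ) : ℤ := l.getD i 0

/-- the list of the first `n` values of a function -/
def tab (n : ℕ) (F : ℕ → ℤ) : List ℤ := (List.range n).map F

theorem cof_tab {n : ℕ} (F : ℕ → ℤ) {i : ℕ} (hi : i < n) : cof (tab n F) i = F i := by
  unfold cof tab
  rw [List.getD_eq_getElem _ _ (by simpa using hi)]
  simp

def lmul (n : ℕ) (a b : List ℤ) : List ℤ :=
  tab n fun k => ((List.range (k + 1)).map fun i => cof a i * cof b (k - i)).sum

def ladd (n : ℕ) (a b : List ℤ) : List ℤ := tab n fun k => cof a k + cof b k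

def lsub (n : ℕ) (a b : List ℤ) : List ℤ := tab n fun k => cof a k - cof b k

def lsmul (n : ℕ) (c : ℤ) (a : List ℤ) : List ℤ := tab n fun k => c * cof a k

def lshift (n s : ℕ) (a : List ℤ) : List ℤ := tab n fun k => if s ≤ k then cof a (k - s) else 0

def lexpand (n M : ℕ) (a : List ℤ) : List ℤ := tab n fun k => if M ∣ k then cof a (k / M) else 0

def lone (n : ℕ) : List ℤ := tab n fun k => if k = 0 then 1 else 0

def lpow (n : ℕ) (a : List ℤ) : ℕ → List ℤ
  | 0 => lone n
  | e + 1 => lmul n (lpow n a e) a

/-- the truncations of the partial products of `∏ (1 - X ^ (k + 1))` -/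
def etaL (n : ℕ) : ℕ → List ℤ
  | 0 => lone n
  | m + 1 => lsub n (etaL n m) (lshift n (m + 1) (etaL n m))

def sig3 (k : ℕ) : ℤ := ((List.range (k + 1)).map fun d => if d ∣ k then (d : ℤ) ^ 3 else 0).sum

def e4L (n : ℕ) : List ℤ := tab n fun k => if k = 0 then 1 else 240 * sig3 k

theorem sum_map_range (m : ℕ) (F : ℕ → ℤ) :
    ((List.range m).map F).sum = ∑ i ∈ Finset.range m, F i := by
  induction m with
  | zero => simp
  | succ m ih =>
    rw [List.range_succ, List.map_append, List.sum_append, ih, Finset.sum_range_succ]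
    simp

/-! ### Truncations -/

/-- `l` lists the first `n` coefficients of `f` -/
def IsTr (n : ℕ) (f : PowerSeries ℤ) (l : List ℤ) : Prop := ∀ i < n, coeff i f = cof l i

variable {n : ℕ} {f g : PowerSeries ℤ} {a b : List ℤ}

theorem IsTr.congr (h : IsTr n f a) (e : a = b) : IsTr n f b := e ▸ h

theorem IsTr.mul (hf : IsTr n f a) (hg : IsTr n g b) : IsTr n (f * g) (lmul n a b) := by
  intro k hk
  unfold lmul
  rw [cof_tab _ hk, sum_map_range, PowerSeries.coeff_mul,
    Finset.Nat.sum_antidiagonal_eq_sum_range_succ (fun i j => coeff i f * coeff j g) k]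
  refine Finset.sum_congr rfl fun i hi => ?_
  have hi' := Finset.mem_range.mp hi
  rw [hf i (by omega), hg (k - i) (by omega)]

theorem IsTr.add (hf : IsTr n f a) (hg : IsTr n g b) : IsTr n (f + g) (ladd n a b) := by
  intro k hk
  unfold ladd
  rw [cof_tab _ hk, map_add, hf k hk, hg k hk]

theorem IsTr.sub (hf : IsTr n f a) (hg : IsTr n g b) : IsTr n (f - g) (lsub n a b) := by
  intro k hk
  unfold lsub
  rw [cof_tab _ hk, map_sub, hf k hk, hg k hk]

theorem IsTr.smul (c : ℤ) (hf : IsTr n f a) : IsTr n (PowerSeries.C c * f) (lsmul n c a) := by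
  intro k hk
  unfold lsmul
  rw [cof_tab _ hk, PowerSeries.coeff_C_mul, hf k hk]

theorem IsTr.shift (s : ℕ) (hf : IsTr n f a) :
    IsTr n (PowerSeries.X ^ s * f) (lshift n s a) := by
  intro k hk
  unfold lshift
  rw [cof_tab _ hk, PowerSeries.coeff_X_pow_mul']
  split_ifs with h
  · exact hf _ (by omega)
  · rfl

theorem isTr_one (n : ℕ) : IsTr n 1 (lone n) := by
  intro k hk
  unfold lone
  rw [cof_tab _ hk, PowerSeries.coeff_one]

theorem IsTr.pow (hf : IsTr n f a) (e : ℕ) : IsTr n (f ^ e) (lpow n a e) := by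
  induction e with
  | zero =>
    rw [pow_zero]
    exact isTr_one n
  | succ e ih =>
    rw [pow_succ]
    exact ih.mul hf

theorem IsTr.X_pow_dvd (hf : IsTr n f a) (ha : a = List.replicate n 0) :
    PowerSeries.X ^ n ∣ f := by
  rw [PowerSeries.X_pow_dvd_iff]
  intro k hk
  rw [hf k hk, ha]
  unfold cof
  rw [List.getD_eq_getElem _ _ (by simpa using hk)]
  simp

/-! ### The eta product -/

theorem isTr_etaPartial (n m : ℕ) : IsTr n (etaPartial m) (etaL n m) := by
  induction m with
  | zero =>
    have e : etaPartial 0 = 1 := by simp [etaPartial]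
    rw [e]
    exact isTr_one n
  | succ m ih =>
    have e : etaPartial (m + 1) = etaPartial m - PowerSeries.X ^ (m + 1) * etaPartial m := by
      unfold etaPartial
      rw [Finset.prod_range_succ]
      ring
    rw [e]
    exact ih.sub (ih.shift (m + 1))

theorem coeff_etaPartial_succ {k m : ℕ} (hk : k ≤ m) :
    coeff k (etaPartial (m + 1)) = coeff k (etaPartial m) := by
  have e : etaPartial (m + 1) = etaPartial m - PowerSeries.X ^ (m + 1) * etaPartial m := by
    unfold etaPartial
    rw [Finset.prod_range_succ]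
    ring
  rw [e, map_sub, PowerSeries.coeff_X_pow_mul', if_neg (by omega), sub_zero]

theorem coeff_etaPartial_of_le {k n m : ℕ} (hk : k < n) (hm : n ≤ m) :
    coeff k (etaPartial m) = coeff k (etaPartial n) := by
  induction m, hm using Nat.le_induction with
  | base => rfl
  | succ m hm ih => rw [coeff_etaPartial_succ (by omega), ih]

theorem coeff_etaProd {k n : ℕ} (hk : k < n) : coeff k etaProd = coeff k (etaPartial n) := by
  have h1 := tendsto_coeff_etaPartial k
  have h2 : Tendsto (fun M : ℕ => ((PowerSeries.coeff k (etaPartial M) : ℤ) : ℂ)) atTop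
      (𝓝 ((PowerSeries.coeff k (etaPartial n) : ℤ) : ℂ)) := by
    refine tendsto_const_nhds.congr' ?_
    filter_upwards [Filter.eventually_ge_atTop n] with m hm
    rw [coeff_etaPartial_of_le hk hm]
  have h3 := tendsto_nhds_unique h1 h2
  exact_mod_cast h3

theorem isTr_etaProd (n : ℕ) : IsTr n etaProd (etaL n n) := by
  intro k hk
  rw [coeff_etaProd hk]
  exact isTr_etaPartial n n k hk

/-- the substitution `X ↦ X ^ M` in the eta product -/
noncomputable def etaSub (M : ℕ) : PowerSeries ℤ :=
  PowerSeries.mk fun k => if M ∣ k then coeff (k / M) etaProd else 0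

theorem isTr_etaSub (n M : ℕ) :
    IsTr n (etaSub M) (lexpand n M (etaL n n)) := by
  intro k hk
  unfold lexpand etaSub
  rw [cof_tab _ hk, PowerSeries.coeff_mk]
  split_ifs with h
  · exact isTr_etaProd n _ (lt_of_le_of_lt (Nat.div_le_self k M) hk)
  · rfl

/-! ### The Eisenstein series -/

theorem sig3_eq {k : ℕ} (hk : k ≠ 0) : sig3 k = ∑ d ∈ k.divisors, (d : ℤ) ^ 3 := by
  unfold sig3
  rw [sum_map_range, ← Finset.sum_filter]
  refine Finset.sum_congr ?_ fun _ _ => rfl
  ext d
  rw [Finset.mem_filter, Finset.mem_range, Nat.mem_divisors]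
  constructor
  · rintro ⟨-, h⟩
    exact ⟨h, hk⟩
  · rintro ⟨h, -⟩
    exact ⟨Nat.lt_succ_of_le (Nat.le_of_dvd (Nat.pos_of_ne_zero hk) h), h⟩

theorem isTr_eisenstein4 (n : ℕ) : IsTr n eisenstein4 (e4L n) := by
  intro k hk
  unfold e4L eisenstein4
  rw [cof_tab _ hk, PowerSeries.coeff_mk]
  split_ifs with h
  · rfl
  · rw [sig3_eq h]

end Fermat.Agent.S18.HauptBNumLib
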