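import Mathlib
import Fermat.Agent.S18.HauptBNumLib

/-!
# S18 moonshot, leaf (Hb), numerics: the two power series congruences

For `U = ∏ (1 - X ^ n) ^ 8`, `V = ∏ (1 - X ^ (4 n)) ^ 8` and the Eisenstein series `E₄`:
`(U² + 256 X U V + 4096 X² V²)³ ≡ E₄³ U V (U + 16 X V)` modulo `X ^ 12`;
for `U = ∏ (1 - X ^ n) ^ 3`, `V = ∏ (1 - X ^ (9 n)) ^ 3`:
`((U + 9 X V)(U³ + 243 X U² V + 2187 X² U V² + 6561 X³ V³))³ ≡ E₄³ U V (U² + 9 X U V + 27 X² V²)`
modulo `X ^ 24`.  Both are checked by evaluation of certified list arithmetic in the kernel.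
-/

set_option autoImplicit false

namespace Fermat.Agent.S18.HauptBNum

open PowerSeries ModularCurve
open Fermat.Agent.S18.HauptBNumLib

/-! ### Level `4` -/

/-- the difference of the two sides at level `4`, for arbitrary `U`, `V`, `E` -/
noncomputable def dFour (U V E : PowerSeries ℤ) : PowerSeries ℤ :=
  (U ^ 2 + PowerSeries.C 256 * (PowerSeries.X ^ 1 * (U * V))
      + PowerSeries.C 4096 * (PowerSeries.X ^ 2 * (V * V))) ^ 3
    - E ^ 3 * (U * V) * (U + PowerSeries.C 16 * (PowerSeries.X ^ 1 * V))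

/-- the same on lists -/
def dFourL (n : ℕ) (U V E : List ℤ) : List ℤ :=
  lsub n
    (lpow n (ladd n (ladd n (lpow n U 2) (lsmul n 256 (lshift n 1 (lmul n U V))))
      (lsmul n 4096 (lshift n 2 (lmul n V V)))) 3)
    (lmul n (lmul n (lpow n E 3) (lmul n U V)) (ladd n U (lsmul n 16 (lshift n 1 V))))

theorem isTr_dFour {n : ℕ} {U V E : PowerSeries ℤ} {u v e : List ℤ} (hU : IsTr n U u)
    (hV : IsTr n V v) (hE : IsTr n E e) : IsTr n (dFour U V E) (dFourL n u v e) := by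
  unfold dFour dFourL
  exact (((((hU.pow 2).add (((hU.mul hV).shift 1).smul 256)).add
    (((hV.mul hV).shift 2).smul 4096)).pow 3)).sub
    ((((hE.pow 3).mul (hU.mul hV))).mul (hU.add ((hV.shift 1).smul 16)))

set_option maxRecDepth 1000000 in
theorem dFourL_eq :
    dFourL 12 (lpow 12 (etaL 12 12) 8) (lpow 12 (lexpand 12 4 (etaL 12 12)) 8) (e4L 12)
      = List.replicate 12 0 := by
  decide +kernel

/-- **The congruence at level `4`.** -/
theorem X_pow_dvd_dFour :
    PowerSeries.X ^ 12 ∣ dFour (etaProd ^ 8) (etaSub 4 ^ 8) eisenstein4 :=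
  (isTr_dFour ((isTr_etaProd 12).pow 8) ((isTr_etaSub 12 4).pow 8)
    (isTr_eisenstein4 12)).X_pow_dvd dFourL_eq

/-! ### Level `9` -/

/-- the difference of the two sides at level `9`, for arbitrary `U`, `V`, `E` -/
noncomputable def dNine (U V E : PowerSeries ℤ) : PowerSeries ℤ :=
  ((U + PowerSeries.C 9 * (PowerSeries.X ^ 1 * V)) *
      (U ^ 3 + PowerSeries.C 243 * (PowerSeries.X ^ 1 * (U ^ 2 * V))
        + PowerSeries.C 2187 * (PowerSeries.X ^ 2 * (U * V ^ 2))
        + PowerSeries.C 6561 * (PowerSeries.X ^ 3 * V ^ 3))) ^ 3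
    - E ^ 3 * (U * V) * (U ^ 2 + PowerSeries.C 9 * (PowerSeries.X ^ 1 * (U * V))
        + PowerSeries.C 27 * (PowerSeries.X ^ 2 * V ^ 2))

/-- the same on lists -/
def dNineL (n : ℕ) (U V E : List ℤ) : List ℤ :=
  lsub n
    (lpow n (lmul n (ladd n U (lsmul n 9 (lshift n 1 V)))
      (ladd n (ladd n (ladd n (lpow n U 3) (lsmul n 243 (lshift n 1 (lmul n (lpow n U 2) V))))
        (lsmul n 2187 (lshift n 2 (lmul n U (lpow n V 2)))))
        (lsmul n 6561 (lshift n 3 (lpow n V 3))))) 3)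
    (lmul n (lmul n (lpow n E 3) (lmul n U V))
      (ladd n (ladd n (lpow n U 2) (lsmul n 9 (lshift n 1 (lmul n U V))))
        (lsmul n 27 (lshift n 2 (lpow n V 2)))))

theorem isTr_dNine {n : ℕ} {U V E : PowerSeries ℤ} {u v e : List ℤ} (hU : IsTr n U u)
    (hV : IsTr n V v) (hE : IsTr n E e) : IsTr n (dNine U V E) (dNineL n u v e) := by
  unfold dNine dNineL
  exact (((hU.add ((hV.shift 1).smul 9)).mul
    ((((hU.pow 3).add ((((hU.pow 2).mul hV).shift 1).smul 243)).add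
      (((hU.mul (hV.pow 2)).shift 2).smul 2187)).add (((hV.pow 3).shift 3).smul 6561))).pow 3).sub
    (((hE.pow 3).mul (hU.mul hV)).mul
      (((hU.pow 2).add (((hU.mul hV).shift 1).smul 9)).add (((hV.pow 2).shift 2).smul 27)))

set_option maxRecDepth 1000000 in
theorem dNineL_eq :
    dNineL 24 (lpow 24 (etaL 24 24) 3) (lpow 24 (lexpand 24 9 (etaL 24 24)) 3) (e4L 24)
      = List.replicate 24 0 := by
  decide +kernel

/-- **The congruence at level `9`.** -/
theorem X_pow_dvd_dNine :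
    PowerSeries.X ^ 24 ∣ dNine (etaProd ^ 3) (etaSub 9 ^ 3) eisenstein4 :=
  (isTr_dNine ((isTr_etaProd 24).pow 3) ((isTr_etaSub 24 9).pow 3)
    (isTr_eisenstein4 24)).X_pow_dvd dNineL_eq

end Fermat.Agent.S18.HauptBNum
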