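import Mathlib
import Fermat.Agent.S24.Degree
import Fermat.Agent.S28.LReprX

/-!
# S18 moonshot, leaf (Hb), part 1: invariant functions lie in the function field

Let `Θ : ℍ → ℂ` be invariant under `Γ₀(M)`, all of whose translates are holomorphic and
meromorphic at `i∞`, and let `ΘL` be a Laurent series with coefficients in `KK = ℚ̄` whose
image over `ℂ` converges to `Θ` (as a function of `q`).  Then `ΘL` lies in the function field
`modularFunctionFieldBar M = KK(j(q^d) : d ∣ M)` of `X₀(M)`.

The proof is the degree argument of `S24.Degree` with one extra generator: every polynomial in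
the `j(q^d)` and `ΘL` is a root of a polynomial of degree `≤ [SL(2, ℤ) : Γ₀(M)]` over `KK[j]`,
so the field generated by the `j(q^d)` and `ΘL` has degree `≤ [SL(2, ℤ) : Γ₀(M)]` over `KK(j)`,
which is the degree of the function field.
-/

set_option autoImplicit false
set_option linter.style.haveILetI false
set_option linter.unusedSectionVars false

namespace Fermat.Agent.S18.HauptB

open UpperHalfPlane CongruenceSubgroup ModularForm Filter Topology Polynomial
open Fermat.Agent.S20
open Fermat.Agent.S24.Eval Fermat.Agent.S24.Jq Fermat.Agent.S24.JqCriterion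
open Fermat.Agent.S24.Distinct Fermat.Agent.S24.CharPoly Fermat.Agent.S24.Degree
open ModularCurve IntermediateField
open scoped MatrixGroups ModularForm Manifold

attribute [local instance] Fermat.Agent.S20.Dual.fintypeQ

local notation "𝕢" => Function.Periodic.qParam

variable (M : ℕ) [NeZero M]

/-! ### The extended family of generators -/

/-- the generators `j(q^d)`, `d ∣ M`, together with one extra series -/
noncomputable def gX (ΘL : LaurentSeries KK) : Option (Dv M) → LaurentSeries KK
  | none => ΘL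
  | some i => jgenL (i : ℕ)

/-- the functions on the punctured disc represented by the generators -/
noncomputable def fX (θ : ℂ → ℂ) : Option (Dv M) → ℂ → ℂ
  | none => θ
  | some i => fun q => jDisc (q ^ (i : ℕ))

/-- the functions on the upper half plane -/
noncomputable def vX (Θ : ℍ → ℂ) (z : ℍ) : Option (Dv M) → ℂ
  | none => Θ z
  | some i => JN (i : ℕ) z

theorem lrepr_gX {ΘL : LaurentSeries KK} {θ : ℂ → ℂ} (hL : LRepr (coeffMap iota ΘL) θ)
    (o : Option (Dv M)) : LRepr (coeffMap iota (gX M ΘL o)) (fX M θ o) := by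
  cases o with
  | none => exact hL
  | some i => exact lrepr_jgenL (i : ℕ)

theorem fX_qParam {Θ : ℍ → ℂ} {θ : ℂ → ℂ} (hθ : ∀ z : ℍ, θ (𝕢 1 z) = Θ z) (z : ℍ)
    (o : Option (Dv M)) : fX M θ o (𝕢 1 z) = vX M Θ z o := by
  cases o with
  | none => exact hθ z
  | some i => exact jDisc_qParam_pow (i : ℕ) z

theorem lrepr_aevalX {ΘL : LaurentSeries KK} {θ : ℂ → ℂ} (hL : LRepr (coeffMap iota ΘL) θ)
    (P : MvPolynomial (Option (Dv M)) ℂ) :
    LRepr (MvPolynomial.aeval (fun o => coeffMap iota (gX M ΘL o)) P)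
      (fun q => MvPolynomial.eval (fun o => fX M θ o q) P) := by
  induction P using MvPolynomial.induction_on with
  | C a =>
    simp only [MvPolynomial.aeval_C, MvPolynomial.eval_C]
    rw [algebraMap_laurentSeries_eq_single]
    exact lrepr_C a
  | add p q hp hq =>
    simp only [map_add]
    exact hp.add hq
  | mul_X p i hp =>
    simp only [map_mul, MvPolynomial.aeval_X, MvPolynomial.eval_X]
    exact hp.mul (lrepr_gX M hL i)

/-- a polynomial relation between the functions gives the relation between the series -/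
theorem aevalX_eq_zero {Θ : ℍ → ℂ} {ΘL : LaurentSeries KK} {θ : ℂ → ℂ}
    (hL : LRepr (coeffMap iota ΘL) θ) (hθ : ∀ z : ℍ, θ (𝕢 1 z) = Θ z)
    (P : MvPolynomial (Option (Dv M)) ℂ)
    (h : ∀ τ : ℍ, MvPolynomial.eval (vX M Θ τ) P = 0) :
    MvPolynomial.aeval (fun o => coeffMap iota (gX M ΘL o)) P = 0 := by
  rw [(lrepr_aevalX M hL P).eq_zero_iff]
  intro q hq0 hq
  obtain ⟨w, rfl⟩ := Fermat.Agent.S28.LReprX.exists_qParam_eq hq0 hq
  have h1 := h w
  have e : (fun o => fX M θ o (𝕢 1 (w : ℂ))) = vX M Θ w := by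
    funext o
    exact fX_qParam M hθ w o
  rw [e]
  exact h1

theorem coeffMap_aevalX (ΘL : LaurentSeries KK) (P : MvPolynomial (Option (Dv M)) KK) :
    coeffMap iota (MvPolynomial.aeval (gX M ΘL) P) =
      MvPolynomial.aeval (fun o => coeffMap iota (gX M ΘL o)) (MvPolynomial.map iota P) := by
  induction P using MvPolynomial.induction_on with
  | C a =>
    simp only [MvPolynomial.aeval_C, MvPolynomial.map_C]
    rw [algebraMap_laurentSeries_eq_single, algebraMap_laurentSeries_eq_single, coeffMap_single]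
  | add p q hp hq =>
    simp only [map_add, hp, hq]
  | mul_X p i hp =>
    simp only [map_mul, MvPolynomial.aeval_X, MvPolynomial.map_X, hp]

/-! ### The analytic relation -/

/-- the analytic realisation of a polynomial in the extended generators -/
noncomputable def thetaX (Θ : ℍ → ℂ) (P : MvPolynomial (Option (Dv M)) KK) (z : ℍ) : ℂ :=
  MvPolynomial.eval₂ iota (vX M Θ z) P

theorem good_thetaX {Θ : ℍ → ℂ} (hΘ : Good Θ) (P : MvPolynomial (Option (Dv M)) KK) :
    Good (thetaX M Θ P) := by
  induction P using MvPolynomial.induction_on with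
  | C a =>
    have e : thetaX M Θ (MvPolynomial.C a) = fun _ => iota a := by
      funext z
      simp [thetaX]
    rw [e]
    exact Good.const _
  | add p q hp hq =>
    have e : thetaX M Θ (p + q) = fun z => thetaX M Θ p z + thetaX M Θ q z := by
      funext z
      simp [thetaX]
    rw [e]
    exact hp.add hq
  | mul_X p i hp =>
    cases i with
    | none =>
      have e : thetaX M Θ (p * MvPolynomial.X none) = fun z => thetaX M Θ p z * Θ z := by
        funext z
        simp [thetaX, vX]
      rw [e]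
      exact hp.mul hΘ
    | some i =>
      have e : thetaX M Θ (p * MvPolynomial.X (some i)) =
          fun z => thetaX M Θ p z * JN (i : ℕ) z := by
        funext z
        simp [thetaX, vX]
      rw [e]
      exact hp.mul (good_JN _ (Nat.pos_of_ne_zero (dv_ne_zero i)))

theorem thetaX_smul {Θ : ℍ → ℂ} (hinv : ∀ γ ∈ Gamma0 M, ∀ z, Θ (γ • z) = Θ z)
    (P : MvPolynomial (Option (Dv M)) KK) {γ : SL(2, ℤ)} (hγ : γ ∈ Gamma0 M) (z : ℍ) :
    thetaX M Θ P (γ • z) = thetaX M Θ P z := by
  have e : vX M Θ (γ • z) = vX M Θ z := by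
    funext o
    cases o with
    | none => exact hinv γ hγ z
    | some i =>
      exact JN_smul_of_mem_Gamma0_of_dvd (i : ℕ) M (Nat.pos_of_ne_zero (dv_ne_zero i)) i.2 hγ z
  simp only [thetaX, e]

theorem exists_monic_relation_thetaX {Θ : ℍ → ℂ} (hΘ : Good Θ)
    (hinv : ∀ γ ∈ Gamma0 M, ∀ z, Θ (γ • z) = Θ z) (P : MvPolynomial (Option (Dv M)) KK) :
    ∃ G : ℂ[X][X], G.Monic ∧ G.natDegree = Nat.card (Q M) ∧
      ∀ z : ℍ, Polynomial.eval₂ (Polynomial.evalRingHom (Fermat.Agent.S24.JFunction.jfun z))
        (thetaX M Θ P z) G = 0 := by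
  obtain ⟨hmd, K, hmero⟩ := good_thetaX M hΘ P
  exact Fermat.Agent.S24.CharPoly.exists_monic_relation K hmd (fun γ hγ z => thetaX_smul M hinv P hγ z) hmero

/-- **Bivariate relations.** Every polynomial in the generators `j(q^d)` and `ΘL` is a root of
a nonzero bivariate polynomial in `j` of `Y`-degree at most `[SL(2, ℤ) : Γ₀(M)]`. -/
theorem exists_relation_aevalX {Θ : ℍ → ℂ} (hΘ : Good Θ)
    (hinv : ∀ γ ∈ Gamma0 M, ∀ z, Θ (γ • z) = Θ z) {ΘL : LaurentSeries KK} {θ : ℂ → ℂ}
    (hL : LRepr (coeffMap iota ΘL) θ) (hθ : ∀ z : ℍ, θ (𝕢 1 z) = Θ z)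
    (P : MvPolynomial (Option (Dv M)) KK) :
    ∃ G : KK[X][X], G ≠ 0 ∧ G.natDegree ≤ Nat.card (Q M) ∧
      Polynomial.eval₂ (Polynomial.aeval (jgenL 1)).toRingHom
        (MvPolynomial.aeval (gX M ΘL) P) G = 0 := by
  obtain ⟨Gc, hmonic, hdeg, hz⟩ := exists_monic_relation_thetaX M hΘ hinv P
  have h1 : ∀ τ : ℍ, MvPolynomial.eval (vX M Θ τ)
      (substMv (some (one M)) (MvPolynomial.map iota P) Gc) = 0 := by
    intro τ
    rw [eval_substMv, MvPolynomial.eval_map]
    have e1 : vX M Θ τ (some (one M)) = Fermat.Agent.S24.JFunction.jfun τ := JN_one τ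
    rw [e1]
    exact hz τ
  have h2 := aevalX_eq_zero M hL hθ _ h1
  rw [aeval_substMv, ← coeffMap_aevalX] at h2
  obtain ⟨G', hG', hdeg', hroot⟩ := Fermat.Agent.S24.DegreeBridge.exists_bivariate_descent iota
    (jgenL 1) (MvPolynomial.aeval (gX M ΘL) P) Gc hmonic.ne_zero h2
  exact ⟨G', hG', hdeg'.trans hdeg.le, hroot⟩

/-! ### Field theory -/

/-- transport of the degree along the inclusion of an intermediate field -/
theorem relfinrank_adjoin_val {K L : Type*} [Field K] [Field L] [Algebra K L]
    (E : IntermediateField K L) (x : ↥E) :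
    IntermediateField.relfinrank (IntermediateField.adjoin K {(x : L)}) E
      = Module.finrank (IntermediateField.adjoin K {x}) ↥E := by
  have h := IntermediateField.relfinrank_map_map (IntermediateField.adjoin K {x})
    (⊤ : IntermediateField K ↥E) E.val
  rw [IntermediateField.relfinrank_top_right] at h
  rw [← h, IntermediateField.adjoin_map, Set.image_singleton, ← AlgHom.fieldRange_eq_map,
    IntermediateField.fieldRange_val]
  rfl

theorem val_eval₂ {K L : Type*} [Field K] [Field L] [Algebra K L]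
    (E : IntermediateField K L) (x r : ↥E) (G : K[X][X]) :
    E.val (Polynomial.eval₂ (Polynomial.aeval x).toRingHom r G)
      = Polynomial.eval₂ (Polynomial.aeval (x : L)).toRingHom (r : L) G := by
  have h := Polynomial.hom_eval₂ G (Polynomial.aeval (R := K) x).toRingHom
    E.val.toRingHom r
  have e : E.val.toRingHom.comp (Polynomial.aeval (R := K) x).toRingHom
      = (Polynomial.aeval (R := K) (x : L)).toRingHom := by
    apply Polynomial.ringHom_ext
    · intro a
      simp
    · simp
  rw [e] at h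
  exact h

/-- the field generated by the `j(q^d)` and the extra series -/
noncomputable def EX (ΘL : LaurentSeries KK) : IntermediateField KK (LaurentSeries KK) :=
  IntermediateField.adjoin KK (Set.range (gX M ΘL))

/-- the generators as elements of `EX` -/
noncomputable def gE (ΘL : LaurentSeries KK) (o : Option (Dv M)) : ↥(EX M ΘL) :=
  ⟨gX M ΘL o, IntermediateField.subset_adjoin KK _ ⟨o, rfl⟩⟩

theorem gens_subset_range (ΘL : LaurentSeries KK) : gens M ⊆ Set.range (gX M ΘL) := by
  rintro x ⟨d, hd, hdM, rfl⟩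
  exact ⟨some ⟨d, hdM⟩, rfl⟩

theorem le_EX (ΘL : LaurentSeries KK) : modularFunctionFieldBar M ≤ EX M ΘL := by
  rw [modularFunctionFieldBar_eq_adjoin]
  exact IntermediateField.adjoin.mono KK _ _ (gens_subset_range M ΘL)

theorem mem_EX (ΘL : LaurentSeries KK) : ΘL ∈ EX M ΘL :=
  IntermediateField.subset_adjoin KK _ ⟨none, rfl⟩

omit [NeZero M] in
theorem transcendental_jgenL_one : Transcendental KK (jgenL 1) := by
  rw [transcendental_iff]
  intro p hp
  have h1 : Polynomial.aeval (jF 1) p = 0 := by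
    apply incl_injective 1
    rw [map_zero, ← Polynomial.aeval_algHom_apply, incl_jF]
    exact hp
  exact (transcendental_iff.mp (transcendental_jF 1)) p h1

theorem transcendental_gE (ΘL : LaurentSeries KK) :
    Transcendental KK (gE M ΘL (some (one M))) := by
  rw [transcendental_iff]
  intro p hp
  have h1 : Polynomial.aeval (jgenL 1) p = 0 := by
    have h := congrArg (EX M ΘL).val hp
    rw [map_zero, ← Polynomial.aeval_algHom_apply] at h
    exact h
  exact (transcendental_iff.mp transcendental_jgenL_one) p h1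

theorem adjoin_range_gE (ΘL : LaurentSeries KK) :
    IntermediateField.adjoin KK (Set.range (gE M ΘL)) = ⊤ := by
  apply IntermediateField.lift_injective (EX M ΘL)
  rw [IntermediateField.lift_adjoin, IntermediateField.lift_top]
  have h : Subtype.val '' Set.range (gE M ΘL) = Set.range (gX M ΘL) := by
    rw [← Set.range_comp]
    rfl
  rw [h]
  rfl

theorem insert_gE (ΘL : LaurentSeries KK) :
    insert (gE M ΘL (some (one M))) (Set.range (gE M ΘL)) = Set.range (gE M ΘL) :=
  Set.insert_eq_of_mem ⟨some (one M), rfl⟩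

theorem val_aeval_gE (ΘL : LaurentSeries KK) (P : MvPolynomial (Option (Dv M)) KK) :
    (EX M ΘL).val (MvPolynomial.aeval (gE M ΘL) P) = MvPolynomial.aeval (gX M ΘL) P := by
  rw [MvPolynomial.comp_aeval_apply]
  rfl

theorem exists_relation_of_mem_EX {Θ : ℍ → ℂ} (hΘ : Good Θ)
    (hinv : ∀ γ ∈ Gamma0 M, ∀ z, Θ (γ • z) = Θ z) {ΘL : LaurentSeries KK} {θ : ℂ → ℂ}
    (hL : LRepr (coeffMap iota ΘL) θ) (hθ : ∀ z : ℍ, θ (𝕢 1 z) = Θ z)
    (r : ↥(EX M ΘL))
    (hr : r ∈ Algebra.adjoin KK (insert (gE M ΘL (some (one M))) (Set.range (gE M ΘL)))) :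
    ∃ G : KK[X][X], G ≠ 0 ∧ G.natDegree ≤ Nat.card (Q M) ∧
      Polynomial.eval₂ (Polynomial.aeval (gE M ΘL (some (one M)))).toRingHom r G = 0 := by
  rw [insert_gE, Algebra.adjoin_range_eq_range_aeval] at hr
  obtain ⟨P, hP⟩ := hr
  have hP' : r = MvPolynomial.aeval (gE M ΘL) P := hP.symm
  obtain ⟨G, hG, hdeg, hroot⟩ := exists_relation_aevalX M hΘ hinv hL hθ P
  refine ⟨G, hG, hdeg, ?_⟩
  apply Subtype.val_injective
  have h1 := val_eval₂ (EX M ΘL) (gE M ΘL (some (one M))) r G
  have h2 : ((r : ↥(EX M ΘL)) : LaurentSeries KK) = MvPolynomial.aeval (gX M ΘL) P := by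
    rw [hP']
    exact val_aeval_gE M ΘL P
  rw [h2] at h1
  have h3 : ((gE M ΘL (some (one M)) : ↥(EX M ΘL)) : LaurentSeries KK) = jgenL 1 := rfl
  rw [h3, hroot] at h1
  exact h1

/-- **Membership.** A `Γ₀(M)`-invariant function, all of whose translates are holomorphic and
meromorphic at `i∞`, with a convergent `q`-expansion with coefficients in `KK`, lies in the
function field of `X₀(M)`. -/
theorem mem_FF {Θ : ℍ → ℂ} (hΘ : Good Θ)
    (hinv : ∀ γ ∈ Gamma0 M, ∀ z, Θ (γ • z) = Θ z) {ΘL : LaurentSeries KK} {θ : ℂ → ℂ}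
    (hL : LRepr (coeffMap iota ΘL) θ) (hθ : ∀ z : ℍ, θ (𝕢 1 z) = Θ z) :
    ΘL ∈ modularFunctionFieldBar M := by
  set x : ↥(EX M ΘL) := gE M ΘL (some (one M)) with hx
  have hfd : FiniteDimensional KK⟮x⟯ ↥(EX M ΘL) :=
    Fermat.Agent.S24.DegreeAlg.finiteDimensional x (transcendental_gE M ΘL)
      (Set.range (gE M ΘL)) (Set.finite_range _)
      (by rw [insert_gE, adjoin_range_gE]) (Nat.card (Q M))
      (exists_relation_of_mem_EX M hΘ hinv hL hθ)
  have hle : Module.finrank KK⟮x⟯ ↥(EX M ΘL) ≤ Nat.card (Q M) :=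
    Fermat.Agent.S24.DegreeAlg.finrank_le x (transcendental_gE M ΘL)
      (Set.range (gE M ΘL)) (Set.finite_range _)
      (by rw [insert_gE, adjoin_range_gE]) (Nat.card (Q M))
      (exists_relation_of_mem_EX M hΘ hinv hL hθ)
  have hpos : 0 < Module.finrank KK⟮x⟯ ↥(EX M ΘL) := Module.finrank_pos
  have h1 : IntermediateField.relfinrank (IntermediateField.adjoin KK {jgenL 1}) (EX M ΘL)
      = Module.finrank KK⟮x⟯ ↥(EX M ΘL) := relfinrank_adjoin_val (EX M ΘL) x
  have h2 : IntermediateField.relfinrank (IntermediateField.adjoin KK {jgenL 1})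
      (modularFunctionFieldBar M) = Nat.card (Q M) := by
    have h := relfinrank_adjoin_val (modularFunctionFieldBar M) (jF M)
    rw [finrank_jF] at h
    exact h
  have hK : IntermediateField.adjoin KK {jgenL 1} ≤ modularFunctionFieldBar M := by
    rw [IntermediateField.adjoin_le_iff]
    rintro y hy
    rw [Set.mem_singleton_iff] at hy
    rw [hy]
    exact jgenL_mem (one_dvd M)
  have h3 := IntermediateField.relfinrank_mul_relfinrank hK (le_EX M ΘL)
  rw [h1, h2] at h3
  have hQ : 0 < Nat.card (Q M) := by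
    rcases Nat.eq_zero_or_pos (Nat.card (Q M)) with h0 | h0
    · rw [h0, zero_mul] at h3
      omega
    · exact h0
  have h4 : IntermediateField.relfinrank (modularFunctionFieldBar M) (EX M ΘL) = 1 := by
    have h5 : Nat.card (Q M) * IntermediateField.relfinrank (modularFunctionFieldBar M)
        (EX M ΘL) ≤ Nat.card (Q M) * 1 := by
      rw [h3, mul_one]
      exact hle
    have h6 := Nat.le_of_mul_le_mul_left h5 hQ
    have h7 : IntermediateField.relfinrank (modularFunctionFieldBar M) (EX M ΘL) ≠ 0 := by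
      intro h0
      rw [h0, mul_zero] at h3
      omega
    omega
  exact (IntermediateField.relfinrank_eq_one_iff.mp h4) (mem_EX M ΘL)

end Fermat.Agent.S18.HauptB
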