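import Mathlib
import Fermat.Agent.S24.Degree
import Fermat.Agent.S28.LReprX
import Fermat.Agent.S28.UnitEq
import Fermat.Agent.S28.Formal

/-!
# S18 moonshot, leaf (Hb), part 2: the relation `A(Θ) = j B(Θ)` of a Hauptmodul

Let `Θ` be a `Γ₀(M)`-invariant function, all of whose translates are holomorphic, with at most a
simple pole at `i∞` and such that the translates `Θ ∘ γ`, `γ ∉ Γ₀(M)`, are bounded at `i∞`.
Then the coefficients of the characteristic polynomial of `Θ` over `ℂ[j]` have degree `≤ 1` in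
`j`, i.e. `A(Θ) = j B(Θ)` with `A` monic of degree `ψ = [SL(2, ℤ) : Γ₀(M)]` and `deg B < ψ`.

If moreover the `q`-expansion of `Θ` starts with `q⁻¹`, then any pair of candidates `(A₀, B₀)`
such that the `q`-expansion of `A₀(Θ) - j B₀(Θ)` vanishes up to (excluding) the exponent `ψ`
satisfies `A₀(Θ) = j B₀(Θ)`: a finite criterion for the explicit relation.
-/

set_option autoImplicit false
set_option linter.style.haveILetI false
set_option linter.unusedSectionVars false

namespace Fermat.Agent.S18.HauptBRel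

open UpperHalfPlane CongruenceSubgroup ModularForm Filter Topology Polynomial
open Fermat.Agent.S20
open Fermat.Agent.S24.Eval Fermat.Agent.S24.JqCriterion Fermat.Agent.S24.CharPoly
open Fermat.Agent.S28.Basic Fermat.Agent.S28.UnitEq Fermat.Agent.S28.LReprX
open ModularCurve
open scoped MatrixGroups ModularForm Manifold

attribute [local instance] Fermat.Agent.S20.Dual.fintypeQ

local notation "𝕢" => Function.Periodic.qParam
local notation "Δ" => ModularForm.discriminant

/-! ### Coefficients of products of linear factors, with individual pole orders -/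

theorem coeff_prod_mero {ι : Type*} (s : Finset ι) (g : ι → ℍ → ℂ) (m : ι → ℕ)
    (hg : ∀ q ∈ s, MDiff (g q) ∧ Mero (m q) (g q)) :
    ∀ i : ℕ, MDiff (prodCoeff s g i) ∧ Mero (∑ q ∈ s, m q) (prodCoeff s g i) := by
  classical
  induction s using Finset.induction_on with
  | empty =>
    intro i
    have e : prodCoeff (∅ : Finset ι) g i = fun _ => ((1 : ℂ[X]).coeff i : ℂ) := by
      funext z
      simp [prodCoeff]
    rw [e, Finset.sum_empty]
    exact ⟨mdifferentiable_const, Mero.const _⟩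
  | insert a s ha ih =>
    have hs : ∀ q ∈ s, MDiff (g q) ∧ Mero (m q) (g q) :=
      fun q hq => hg q (Finset.mem_insert_of_mem hq)
    obtain ⟨ha1, ha2⟩ := hg a (Finset.mem_insert_self a s)
    have ih' := ih hs
    have hcard : ∑ q ∈ insert a s, m q = m a + ∑ q ∈ s, m q := Finset.sum_insert ha
    intro i
    rcases i with _ | k
    · have e : prodCoeff (insert a s) g 0 = fun z : ℍ => (- g a z) * prodCoeff s g 0 z := by
        funext z
        simp only [prodCoeff]
        rw [Finset.prod_insert ha, Polynomial.mul_coeff_zero]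
        simp
      rw [e, hcard]
      exact ⟨ha1.neg.mul (ih' 0).1, ha2.neg.mul (ih' 0).2⟩
    · have e : prodCoeff (insert a s) g (k + 1)
          = fun z : ℍ => prodCoeff s g k z - g a z * prodCoeff s g (k + 1) z := by
        funext z
        simp only [prodCoeff]
        rw [Finset.prod_insert ha, Polynomial.coeff_X_sub_C_mul]
      rw [e, hcard]
      refine ⟨(ih' k).1.sub (ha1.mul (ih' (k + 1)).1), ?_⟩
      exact ((ih' k).2.mono (Nat.le_add_left _ _)).sub (ha2.mul (ih' (k + 1)).2)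

/-! ### The shape of the characteristic polynomial -/

section Shape

variable (M : ℕ) [NeZero M] {Θ : ℍ → ℂ}

theorem out_notMem {q : Q M} (hq : q ≠ QuotientGroup.mk 1) :
    ((q.out : SL(2, ℤ))⁻¹) ∉ Gamma0 M := by
  intro h
  apply hq
  have h1 : (q.out : SL(2, ℤ)) ∈ Gamma0 M := by
    have := inv_mem h
    rwa [inv_inv] at this
  have h2 : (QuotientGroup.mk (q.out : SL(2, ℤ)) : Q M) = QuotientGroup.mk 1 := by
    rw [QuotientGroup.eq]
    simpa using inv_mem h1
  rw [← h2]
  exact (QuotientGroup.out_eq' q).symm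

/-- the coefficients of the characteristic polynomial have at most a simple pole -/
theorem chi_coeff_mero (hmd : ∀ γ : SL(2, ℤ), MDiff (fun z : ℍ => Θ (γ • z)))
    (hinv : ∀ γ ∈ Gamma0 M, ∀ z, Θ (γ • z) = Θ z) (hpole : Mero 1 Θ)
    (hbdd : ∀ γ : SL(2, ℤ), γ ∉ Gamma0 M → IsBoundedAtImInfty (fun z : ℍ => Θ (γ • z)))
    (i : ℕ) :
    MDiff (fun z => (chi M Θ z).coeff i) ∧ Mero 1 (fun z => (chi M Θ z).coeff i) := by
  classical
  have h := coeff_prod_mero (Finset.univ : Finset (Q M)) (conj M Θ)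
    (fun q => if q = QuotientGroup.mk 1 then 1 else 0) (fun q _ => ?_) i
  · have hsum : (∑ q : Q M, (if q = QuotientGroup.mk 1 then 1 else 0 : ℕ)) = 1 := by
      rw [Finset.sum_ite_eq' Finset.univ (QuotientGroup.mk 1 : Q M) (fun _ => (1 : ℕ))]
      simp
    rw [hsum] at h
    exact h
  · refine ⟨hmd _, ?_⟩
    by_cases hq : q = QuotientGroup.mk 1
    · rw [if_pos hq, hq]
      have e : conj M Θ (QuotientGroup.mk 1) = Θ := funext fun z => conj_one hinv z
      rw [e]
      exact hpole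
    · rw [if_neg hq]
      have hb := hbdd _ (out_notMem M hq)
      unfold Mero
      have e : (fun z : ℍ => Δ z ^ 0 * conj M Θ q z)
          = fun z : ℍ => Θ ((q.out : SL(2, ℤ))⁻¹ • z) := by
        funext z
        rw [pow_zero, one_mul]
        rfl
      rw [e]
      exact hb

/-- **Shape of the relation.** -/
theorem exists_rel (hmd : ∀ γ : SL(2, ℤ), MDiff (fun z : ℍ => Θ (γ • z)))
    (hinv : ∀ γ ∈ Gamma0 M, ∀ z, Θ (γ • z) = Θ z) (hpole : Mero 1 Θ)
    (hbdd : ∀ γ : SL(2, ℤ), γ ∉ Gamma0 M → IsBoundedAtImInfty (fun z : ℍ => Θ (γ • z))) :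
    ∃ A B : ℂ[X], A.Monic ∧ A.natDegree = Nat.card (Q M) ∧ B.degree < Nat.card (Q M) ∧
      ∀ z : ℍ, A.eval (Θ z) = Fermat.Agent.S24.JFunction.jfun z * B.eval (Θ z) := by
  classical
  set μ : ℕ := Nat.card (Q M) with hμ
  have hcoef : ∀ i : ℕ, ∃ P : ℂ[X], P.natDegree ≤ 1 ∧
      ∀ z : ℍ, (chi M Θ z).coeff i = P.eval (Fermat.Agent.S24.JFunction.jfun z) := by
    intro i
    obtain ⟨h1, h2⟩ := chi_coeff_mero M hmd hinv hpole hbdd i
    have hinv' : ∀ (γ : SL(2, ℤ)) (z : ℍ), (chi M Θ (γ • z)).coeff i = (chi M Θ z).coeff i :=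
      fun γ z => by rw [chi_smul hinv]
    exact Fermat.Agent.S24.PolyJ.exists_poly 1 (f := fun z => (chi M Θ z).coeff i) h1 hinv' h2
  choose P hPdeg hP using hcoef
  set LA : ℂ[X] := ∑ i ∈ Finset.range μ, Polynomial.C ((P i).coeff 0) * X ^ i with hLA
  set LB : ℂ[X] := ∑ i ∈ Finset.range μ, Polynomial.C ((P i).coeff 1) * X ^ i with hLB
  have hdegsum : ∀ c : ℕ → ℂ,
      (∑ i ∈ Finset.range μ, Polynomial.C (c i) * X ^ i : ℂ[X]).degree < (μ : WithBot ℕ) := by
    intro c
    rw [Polynomial.degree_lt_iff_coeff_zero]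
    intro m hm
    rw [Polynomial.finsetSum_coeff]
    refine Finset.sum_eq_zero fun i hi => ?_
    rw [Polynomial.coeff_C_mul_X_pow, if_neg]
    have := Finset.mem_range.mp hi
    omega
  refine ⟨X ^ μ + LA, -LB, Polynomial.monic_X_pow_add (hdegsum _), ?_, ?_, fun z => ?_⟩
  · have h0 : LA.degree < (X ^ μ : ℂ[X]).degree := by
      rw [Polynomial.degree_X_pow]
      exact hdegsum _
    rw [Polynomial.natDegree_add_eq_left_of_degree_lt h0, Polynomial.natDegree_X_pow]
  · rw [Polynomial.degree_neg]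
    exact hdegsum _
  · have h1 := chi_eval (N := M) hinv z
    have h2 := (chi_monic (N := M) (Θ := Θ) z).as_sum
    rw [chi_natDegree] at h2
    rw [h2] at h1
    rw [Polynomial.eval_add, Polynomial.eval_pow, Polynomial.eval_X,
      Polynomial.eval_finsetSum] at h1
    have h3 : ∀ i, (P i).eval (Fermat.Agent.S24.JFunction.jfun z)
        = (P i).coeff 0 + (P i).coeff 1 * Fermat.Agent.S24.JFunction.jfun z := by
      intro i
      rw [Polynomial.eval_eq_sum_range' (Nat.lt_succ_of_le (hPdeg i))]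
      simp [Finset.sum_range_succ]
    rw [Polynomial.eval_add, Polynomial.eval_pow, Polynomial.eval_X, hLA, hLB,
      Polynomial.eval_neg, Polynomial.eval_finsetSum, Polynomial.eval_finsetSum]
    have h4 : ∑ i ∈ Finset.range μ, Polynomial.eval (Θ z)
        (Polynomial.C ((chi M Θ z).coeff i) * X ^ i)
        = ∑ i ∈ Finset.range μ, Polynomial.eval (Θ z) (Polynomial.C ((P i).coeff 0) * X ^ i)
          + Fermat.Agent.S24.JFunction.jfun z *
            ∑ i ∈ Finset.range μ, Polynomial.eval (Θ z) (Polynomial.C ((P i).coeff 1) * X ^ i) := by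
      rw [Finset.mul_sum, ← Finset.sum_add_distrib]
      refine Finset.sum_congr rfl fun i _ => ?_
      simp only [Polynomial.eval_mul, Polynomial.eval_C, Polynomial.eval_pow, Polynomial.eval_X]
      rw [hP i z, h3 i]
      ring
    rw [h4] at h1
    linear_combination h1

end Shape

/-! ### Transfer to the `q`-expansions -/

theorem evalAt_rel_series {Θ : ℍ → ℂ} {ΘC : LaurentSeries ℂ} {θ : ℂ → ℂ}
    (hL : LRepr ΘC θ) (hθ : ∀ z : ℍ, θ (𝕢 1 z) = Θ z) {A B : ℂ[X]}
    (h : ∀ z : ℍ, A.eval (Θ z) = Fermat.Agent.S24.JFunction.jfun z * B.eval (Θ z)) :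
    evalAt ℂ ΘC A = jqC * evalAt ℂ ΘC B := by
  refine LRepr.eq_of_forall_qParam (lrepr_evalAt hL A)
    (lrepr_jqC.mul (lrepr_evalAt hL B)) fun w => ?_
  rw [hθ, jDisc_qParam]
  exact h w

/-! ### Leading terms of polynomials in a series with a simple pole -/

section Order

variable {R : Type*} [CommRing R]

theorem isLead_one : IsLead 0 (1 : R) (1 : LaurentSeries R) := by
  have h := isLead_C (1 : R)
  rwa [map_one] at h

theorem isLead_pow {T : LaurentSeries R} (hT : IsLead (-1) 1 T) (n : ℕ) :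
    IsLead (-(n : ℤ)) 1 (T ^ n) := by
  induction n with
  | zero =>
    rw [pow_zero, Nat.cast_zero, neg_zero]
    exact isLead_one
  | succ n ih =>
    have h := ih.mul hT
    rw [pow_succ]
    have e : (-(n : ℤ) + -1) = -((n + 1 : ℕ) : ℤ) := by push_cast; ring
    rw [e, mul_one] at h
    exact h

theorem coeff_C_mul (c : R) (F : LaurentSeries R) (m : ℤ) :
    (HahnSeries.C c * F).coeff m = c * F.coeff m := by
  rw [HahnSeries.C_mul_eq_smul, HahnSeries.coeff_smul, smul_eq_mul]

theorem evalAt_eq_sum (T : LaurentSeries R) (P : R[X]) :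
    evalAt R T P = ∑ i ∈ Finset.range (P.natDegree + 1), HahnSeries.C (P.coeff i) * T ^ i := by
  unfold evalAt
  rw [Polynomial.coe_eval₂RingHom, Polynomial.eval₂_eq_sum_range]

theorem coeff_sum' {ι : Type*} (s : Finset ι) (F : ι → LaurentSeries R) (m : ℤ) :
    (∑ i ∈ s, F i).coeff m = ∑ i ∈ s, (F i).coeff m := by
  classical
  induction s using Finset.induction_on with
  | empty => simp
  | insert a s ha ih => rw [Finset.sum_insert ha, Finset.sum_insert ha, HahnSeries.coeff_add, ih]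

theorem coeff_evalAt_of_lt {T : LaurentSeries R} (hT : IsLead (-1) 1 T) (P : R[X]) {m : ℤ}
    (hm : m < -(P.natDegree : ℤ)) : (evalAt R T P).coeff m = 0 := by
  rw [evalAt_eq_sum, coeff_sum']
  refine Finset.sum_eq_zero fun i hi => ?_
  have hi' := Finset.mem_range.mp hi
  rw [coeff_C_mul, (isLead_pow hT i).2 m (by omega), mul_zero]

theorem coeff_evalAt_natDegree {T : LaurentSeries R} (hT : IsLead (-1) 1 T) (P : R[X]) :
    (evalAt R T P).coeff (-(P.natDegree : ℤ)) = P.leadingCoeff := by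
  rw [evalAt_eq_sum, coeff_sum', Finset.sum_eq_single P.natDegree]
  · rw [coeff_C_mul, (isLead_pow hT _).1, mul_one]
    rfl
  · intro i hi hne
    have hi' := Finset.mem_range.mp hi
    rw [coeff_C_mul, (isLead_pow hT i).2 _ (by omega), mul_zero]
  · intro h
    exact absurd (Finset.mem_range.mpr (Nat.lt_succ_self _)) h

theorem isLead_evalAt {T : LaurentSeries R} (hT : IsLead (-1) 1 T) (P : R[X]) :
    IsLead (-(P.natDegree : ℤ)) P.leadingCoeff (evalAt R T P) :=
  ⟨coeff_evalAt_natDegree hT P, fun _ hm => coeff_evalAt_of_lt hT P hm⟩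

end Order

/-! ### The finite criterion -/

/-- **The finite criterion.** If `A(T) = J B(T)` with `A` monic of degree `n` and `deg B < n`,
`T = q⁻¹ + ⋯`, and if the coefficients of `A₀(T) - J B₀(T)` vanish at all exponents `< n`, then
`A₀(T) = J B₀(T)`. -/
theorem eq_of_coeff_eq_zero {K : Type*} [Field K] {T J : LaurentSeries K}
    (hT : IsLead (-1) 1 T) {A B A₀ B₀ : K[X]} (hA : A.Monic) (hB : B.degree < A.natDegree)
    (hrel : evalAt K T A = J * evalAt K T B)
    (hnum : ∀ m : ℤ, m < (A.natDegree : ℤ) →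
      (evalAt K T A₀ - J * evalAt K T B₀).coeff m = 0) :
    evalAt K T A₀ = J * evalAt K T B₀ := by
  set F : LaurentSeries K := evalAt K T A₀ - J * evalAt K T B₀ with hF
  by_contra hne
  have hF0 : F ≠ 0 := fun h => hne (sub_eq_zero.mp h)
  -- `B ≠ 0`
  have hB0 : B ≠ 0 := by
    intro h0
    have h1 := coeff_evalAt_natDegree hT A
    rw [hrel, h0, map_zero, mul_zero, HahnSeries.coeff_zero, hA.leadingCoeff] at h1
    exact zero_ne_one h1
  have hdB : (B.natDegree : ℤ) < A.natDegree := by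
    have := (Polynomial.natDegree_lt_iff_degree_lt hB0).mpr hB
    exact_mod_cast this
  -- the leading term of `F`
  have hFlead : IsLead F.order (F.coeff F.order) F :=
    ⟨rfl, fun m hm => HahnSeries.coeff_eq_zero_of_lt_order hm⟩
  have hFc : F.coeff F.order ≠ 0 := fun h => hF0 (HahnSeries.coeff_order_eq_zero.mp h)
  have hord : (A.natDegree : ℤ) ≤ F.order := by
    by_contra hlt
    exact hFc (hnum _ (not_le.mp hlt))
  -- the key identity
  have hkey : evalAt K T (A₀ * B - A * B₀) = evalAt K T B * F := by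
    rw [map_sub, map_mul, map_mul, hrel, hF]
    ring
  have hprod := (isLead_evalAt hT B).mul hFlead
  rw [← hkey] at hprod
  have hlc : B.leadingCoeff * F.coeff F.order ≠ 0 :=
    mul_ne_zero (Polynomial.leadingCoeff_ne_zero.mpr hB0) hFc
  by_cases hR : A₀ * B - A * B₀ = 0
  · rw [hR, map_zero] at hprod
    exact hlc (by rw [← hprod.1, HahnSeries.coeff_zero])
  · have h1 := coeff_evalAt_natDegree hT (A₀ * B - A * B₀)
    have h2 := hprod.2 (-((A₀ * B - A * B₀).natDegree : ℤ)) (by omega)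
    rw [h1] at h2
    exact hR (Polynomial.leadingCoeff_eq_zero.mp h2)

/-! ### The criterion for integral series -/

theorem coeffMap_intCast_injective :
    Function.Injective (coeffMap (Int.castRingHom ℂ) : LaurentSeries ℤ → LaurentSeries ℂ) := by
  intro x y hxy
  ext k
  have := congrArg (fun z => HahnSeries.coeff z k) hxy
  simp only [coeffMap_coeff] at this
  exact Int.cast_injective this

theorem jqC_eq : jqC = jqModC ℂ := rfl

/-- **The explicit relation from a finite computation.** -/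
theorem rel_of_numerics (M : ℕ) [NeZero M] {Θ : ℍ → ℂ}
    (hmd : ∀ γ : SL(2, ℤ), MDiff (fun z : ℍ => Θ (γ • z)))
    (hinv : ∀ γ ∈ Gamma0 M, ∀ z, Θ (γ • z) = Θ z) (hpole : Mero 1 Θ)
    (hbdd : ∀ γ : SL(2, ℤ), γ ∉ Gamma0 M → IsBoundedAtImInfty (fun z : ℍ => Θ (γ • z)))
    {ΘZ : LaurentSeries ℤ} (hlead : IsLead (-1) 1 ΘZ) {θ : ℂ → ℂ}
    (hL : LRepr (coeffMap (Int.castRingHom ℂ) ΘZ) θ) (hθ : ∀ z : ℍ, θ (𝕢 1 z) = Θ z)
    (A₀ B₀ : ℤ[X])
    (hnum : ∀ m : ℤ, m < (Nat.card (Q M) : ℤ) →
      (evalAt ℤ ΘZ A₀ - jqModC ℤ * evalAt ℤ ΘZ B₀).coeff m = 0) :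
    evalAt ℤ ΘZ A₀ = jqModC ℤ * evalAt ℤ ΘZ B₀ := by
  obtain ⟨A, B, hA, hAdeg, hBdeg, hAB⟩ := exists_rel M hmd hinv hpole hbdd
  have hrel := evalAt_rel_series hL hθ hAB
  have hleadC : IsLead (-1) 1 (coeffMap (Int.castRingHom ℂ) ΘZ) := by
    refine ⟨?_, fun m hm => ?_⟩
    · rw [coeffMap_coeff, hlead.1, map_one]
    · rw [coeffMap_coeff, hlead.2 m hm, map_zero]
  have hmain := eq_of_coeff_eq_zero (A₀ := A₀.map (Int.castRingHom ℂ))
    (B₀ := B₀.map (Int.castRingHom ℂ)) hleadC hA (by rw [hAdeg]; exact hBdeg) hrel ?_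
  · apply coeffMap_intCast_injective
    rw [map_mul, Fermat.Agent.S28.Formal.coeffMap_evalAt, Fermat.Agent.S28.Formal.coeffMap_evalAt,
      coeffMap_jqModC, ← jqC_eq]
    exact hmain
  · intro m hm
    rw [hAdeg] at hm
    have h := hnum m hm
    have h2 := congrArg (Int.castRingHom ℂ) h
    rw [← coeffMap_coeff, map_sub, map_mul, Fermat.Agent.S28.Formal.coeffMap_evalAt,
      Fermat.Agent.S28.Formal.coeffMap_evalAt, coeffMap_jqModC, ← jqC_eq, map_zero] at h2
    exact h2

end Fermat.Agent.S18.HauptBRel
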