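import Mathlib

/-!
# S18 (moonshot), Hauptmodul package, group theory: generators of `Γ₀(4)` and `Γ₀(9)`

* `gamma0_four_eq_closure` : `Γ₀(4)` is generated by `-1`, `T` and `[[1, 0], [4, 1]]`.
* `gamma0_nine_eq_closure` : `Γ₀(9)` is generated by `-1`, `T`, `[[1, 0], [9, 1]]` and the two
  parabolic elements `σ T σ⁻¹`, `σ = [[1, 0], [±3, 1]]`.
* `invariant_four`, `invariant_four'`, `invariant_nine` : a function on the upper half plane
  which is fixed by the generators (equivalently: whose translates by the cusp representatives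
  are periodic with the cusp widths) is invariant under `Γ₀(4)` resp. `Γ₀(9)`.

The proof is a descent on the absolute value of the upper left entry under right multiplication
by the generators (`le_of_descent`).
-/

set_option autoImplicit false

namespace Fermat.Agent.S18.Gamma0Gen

open Matrix CongruenceSubgroup ModularGroup
open scoped MatrixGroups

/-- The matrix `[[a, b], [c, d]]` of determinant one. -/
def mk (a b c d : ℤ) (h : a * d - b * c = 1) : SL(2, ℤ) :=
  ⟨!![a, b; c, d], by rw [Matrix.det_fin_two_of]; exact h⟩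

@[simp] theorem mk_zero_zero (a b c d : ℤ) (h : a * d - b * c = 1) : (mk a b c d h) 0 0 = a := rfl
@[simp] theorem mk_zero_one (a b c d : ℤ) (h : a * d - b * c = 1) : (mk a b c d h) 0 1 = b := rfl
@[simp] theorem mk_one_zero (a b c d : ℤ) (h : a * d - b * c = 1) : (mk a b c d h) 1 0 = c := rfl
@[simp] theorem mk_one_one (a b c d : ℤ) (h : a * d - b * c = 1) : (mk a b c d h) 1 1 = d := rfl

theorem ext_entries {g h : SL(2, ℤ)} (h00 : g 0 0 = h 0 0) (h01 : g 0 1 = h 0 1)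
    (h10 : g 1 0 = h 1 0) (h11 : g 1 1 = h 1 1) : g = h := by
  ext i j
  fin_cases i <;> fin_cases j
  · exact h00
  · exact h01
  · exact h10
  · exact h11

theorem mul_zero_zero (g h : SL(2, ℤ)) : (g * h) 0 0 = g 0 0 * h 0 0 + g 0 1 * h 1 0 := by
  simp [Matrix.SpecialLinearGroup.coe_mul, Matrix.mul_apply, Fin.sum_univ_two]

theorem mul_zero_one (g h : SL(2, ℤ)) : (g * h) 0 1 = g 0 0 * h 0 1 + g 0 1 * h 1 1 := by
  simp [Matrix.SpecialLinearGroup.coe_mul, Matrix.mul_apply, Fin.sum_univ_two]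

theorem mul_one_zero (g h : SL(2, ℤ)) : (g * h) 1 0 = g 1 0 * h 0 0 + g 1 1 * h 1 0 := by
  simp [Matrix.SpecialLinearGroup.coe_mul, Matrix.mul_apply, Fin.sum_univ_two]

theorem mul_one_one (g h : SL(2, ℤ)) : (g * h) 1 1 = g 1 0 * h 0 1 + g 1 1 * h 1 1 := by
  simp [Matrix.SpecialLinearGroup.coe_mul, Matrix.mul_apply, Fin.sum_univ_two]

theorem det_entries (g : SL(2, ℤ)) : g 0 0 * g 1 1 - g 0 1 * g 1 0 = 1 := by
  have := g.det_coe
  rw [Matrix.det_fin_two] at this
  exact this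

theorem T_zpow_entries (n : ℤ) :
    (T ^ n) 0 0 = 1 ∧ (T ^ n) 0 1 = n ∧ (T ^ n) 1 0 = 0 ∧ (T ^ n) 1 1 = 1 := by
  have h := ModularGroup.coe_T_zpow n
  refine ⟨?_, ?_, ?_, ?_⟩
  all_goals
    first
    | exact congrFun (congrFun h 0) 0
    | exact congrFun (congrFun h 0) 1
    | exact congrFun (congrFun h 1) 0
    | exact congrFun (congrFun h 1) 1

theorem T_entries : T 0 0 = 1 ∧ T 0 1 = 1 ∧ T 1 0 = 0 ∧ T 1 1 = 1 := by
  have h := ModularGroup.coe_T
  refine ⟨?_, ?_, ?_, ?_⟩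
  · exact congrFun (congrFun h 0) 0
  · exact congrFun (congrFun h 0) 1
  · exact congrFun (congrFun h 1) 0
  · exact congrFun (congrFun h 1) 1

theorem S_entries : S 0 0 = 0 ∧ S 0 1 = -1 ∧ S 1 0 = 1 ∧ S 1 1 = 0 := by
  have h := ModularGroup.coe_S
  refine ⟨?_, ?_, ?_, ?_⟩
  · exact congrFun (congrFun h 0) 0
  · exact congrFun (congrFun h 0) 1
  · exact congrFun (congrFun h 1) 0
  · exact congrFun (congrFun h 1) 1

theorem neg_entries (g : SL(2, ℤ)) (i j : Fin 2) : (-g) i j = - g i j := by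
  simp [Matrix.SpecialLinearGroup.coe_neg]

theorem one_entries : (1 : SL(2, ℤ)) 0 0 = 1 ∧ (1 : SL(2, ℤ)) 0 1 = 0 ∧
    (1 : SL(2, ℤ)) 1 0 = 0 ∧ (1 : SL(2, ℤ)) 1 1 = 1 := by
  simp

theorem mem_Gamma0_iff {N : ℕ} {g : SL(2, ℤ)} : g ∈ Gamma0 N ↔ (N : ℤ) ∣ g 1 0 := by
  rw [Gamma0_mem, ZMod.intCast_zmod_eq_zero_iff_dvd]

/-- The lower unipotent matrix `[[1, 0], [n, 1]]`. -/
def lowerU (n : ℤ) : SL(2, ℤ) := mk 1 0 n 1 (by ring)

theorem lowerU_zero : lowerU 0 = 1 := by
  apply ext_entries <;> simp [lowerU]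

theorem lowerU_add (m n : ℤ) : lowerU (m + n) = lowerU m * lowerU n := by
  apply ext_entries
  · rw [mul_zero_zero]; simp [lowerU]
  · rw [mul_zero_one]; simp [lowerU]
  · rw [mul_one_zero]; simp [lowerU]
  · rw [mul_one_one]; simp [lowerU]

theorem lowerU_neg (n : ℤ) : lowerU (-n) = (lowerU n)⁻¹ := by
  rw [eq_inv_iff_mul_eq_one, ← lowerU_add, neg_add_cancel, lowerU_zero]

theorem lowerU_mul_eq_zpow (M n : ℤ) : lowerU (M * n) = lowerU M ^ n := by
  induction n using Int.induction_on with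
  | zero => simp [lowerU_zero]
  | succ k ih =>
    rw [mul_add, mul_one, lowerU_add, ih, _root_.zpow_add_one]
  | pred k ih =>
    rw [mul_sub, mul_one, sub_eq_add_neg, lowerU_add, ih, lowerU_neg, _root_.zpow_sub_one]


theorem lowerU_entries (n : ℤ) :
    (lowerU n) 0 0 = 1 ∧ (lowerU n) 0 1 = 0 ∧ (lowerU n) 1 0 = n ∧ (lowerU n) 1 1 = 1 :=
  ⟨rfl, rfl, rfl, rfl⟩

theorem lowerU_mem_Gamma0 (N : ℕ) (n : ℤ) : lowerU ((N : ℤ) * n) ∈ Gamma0 N := by
  rw [mem_Gamma0_iff, (lowerU_entries _).2.2.1]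
  exact dvd_mul_right _ _

theorem T_zpow_mem_Gamma0 (N : ℕ) (n : ℤ) : T ^ n ∈ Gamma0 N := by
  rw [mem_Gamma0_iff, (T_zpow_entries n).2.2.1]
  exact dvd_zero _

/-- `[[1, 0], [n, 1]] = S T^(-n) S⁻¹`. -/
theorem lowerU_eq_conj (n : ℤ) : lowerU n = S * T ^ (-n) * S⁻¹ := by
  rw [eq_mul_inv_iff_mul_eq]
  obtain ⟨t00, t01, t10, t11⟩ := T_zpow_entries (-n)
  obtain ⟨s00, s01, s10, s11⟩ := S_entries
  obtain ⟨l00, l01, l10, l11⟩ := lowerU_entries n
  apply ext_entries
  · rw [mul_zero_zero, mul_zero_zero, l00, l01, s00, s10, s01, t00, t10]; ring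
  · rw [mul_zero_one, mul_zero_one, l00, l01, s01, s11, s00, t01, t11]; ring
  · rw [mul_one_zero, mul_one_zero, l10, l11, s00, s10, s11, t00, t10]; ring
  · rw [mul_one_one, mul_one_one, l10, l11, s01, s11, s10, t01, t11]; ring

/-- The parabolic element `σ T^n σ⁻¹`, `σ = [[1, 0], [s, 1]]`, fixing the cusp `1 / s`. -/
def parab (s n : ℤ) : SL(2, ℤ) := lowerU s * T ^ n * (lowerU s)⁻¹

theorem parab_eq_mk (s n : ℤ) :
    parab s n = mk (1 - s * n) n (-(s * s * n)) (1 + s * n) (by ring) := by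
  unfold parab
  rw [mul_inv_eq_iff_eq_mul]
  obtain ⟨t00, t01, t10, t11⟩ := T_zpow_entries n
  obtain ⟨l00, l01, l10, l11⟩ := lowerU_entries s
  apply ext_entries
  · rw [mul_zero_zero, mul_zero_zero, l00, l01, l10, t00, t10, mk_zero_zero, mk_zero_one]; ring
  · rw [mul_zero_one, mul_zero_one, l00, l01, l11, t01, t11, mk_zero_zero, mk_zero_one]; ring
  · rw [mul_one_zero, mul_one_zero, l10, l11, l00, t00, t10, mk_one_zero, mk_one_one]; ring
  · rw [mul_one_one, mul_one_one, l10, l11, l01, t01, t11, mk_one_zero, mk_one_one]; ring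

theorem parab_entries (s n : ℤ) :
    (parab s n) 0 0 = 1 - s * n ∧ (parab s n) 0 1 = n ∧ (parab s n) 1 0 = -(s * s * n) ∧
      (parab s n) 1 1 = 1 + s * n := by
  rw [parab_eq_mk]
  exact ⟨rfl, rfl, rfl, rfl⟩

theorem parab_neg (s n : ℤ) : parab s (-n) = (parab s n)⁻¹ := by
  unfold parab
  rw [_root_.zpow_neg]
  group

theorem parab_one (s : ℤ) : parab s 1 = lowerU s * T * (lowerU s)⁻¹ := by
  unfold parab
  rw [zpow_one]

theorem parab_mem_Gamma0 (N : ℕ) (s n : ℤ) (h : (N : ℤ) ∣ s * s) : parab s n ∈ Gamma0 N := by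
  rw [mem_Gamma0_iff, (parab_entries s n).2.2.1]
  exact (dvd_mul_of_dvd_left h n).neg_right

/-! ### The descent -/

theorem exists_balanced (a b : ℤ) (ha : a ≠ 0) : ∃ n : ℤ, 2 * |b + n * a| ≤ |a| := by
  have hr0 : 0 ≤ b % a := Int.emod_nonneg b ha
  have hr1 : b % a < |a| := Int.emod_lt_abs b ha
  have hdiv : a * (b / a) + b % a = b := Int.mul_ediv_add_emod b a
  by_cases h2 : 2 * (b % a) ≤ |a|
  · refine ⟨-(b / a), ?_⟩
    have : b + -(b / a) * a = b % a := by linarith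
    rw [this, abs_of_nonneg hr0]
    exact h2
  · push Not at h2
    rcases lt_or_gt_of_ne ha with hneg | hpos
    · refine ⟨-(b / a) + 1, ?_⟩
      have : b + (-(b / a) + 1) * a = b % a + a := by linarith
      rw [this]
      rw [abs_of_neg hneg] at hr1 h2 ⊢
      rw [abs_of_nonpos (by linarith)]
      linarith
    · refine ⟨-(b / a) - 1, ?_⟩
      have : b + (-(b / a) - 1) * a = b % a - a := by linarith
      rw [this]
      rw [abs_of_pos hpos] at hr1 h2 ⊢
      rw [abs_of_nonpos (by linarith)]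
      linarith

theorem topLeft_ne_zero {M : ℕ} (hM : 1 < M) {γ : SL(2, ℤ)} (hγ : γ ∈ Gamma0 M) : γ 0 0 ≠ 0 := by
  intro h0
  have hdet := det_entries γ
  rw [mem_Gamma0_iff] at hγ
  rw [h0, zero_mul, zero_sub] at hdet
  have h1 : (M : ℤ) ∣ 1 := by
    have : (M : ℤ) ∣ -(γ 0 1 * γ 1 0) := (dvd_mul_of_dvd_right hγ _).neg_right
    rwa [hdet] at this
  have := Int.le_of_dvd one_pos h1
  omega

/-- The descent principle: a subgroup containing `-1`, `T`, `[[1, 0], [M, 1]]` and, for every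
element of `Γ₀(M)` with balanced top row `(a, b)`, `b ≠ 0`, an element of `Γ₀(M)` decreasing
`|a|`, contains `Γ₀(M)`. -/
theorem le_of_descent (M : ℕ) (hM : 1 < M) (H : Subgroup SL(2, ℤ)) (hneg : (-1 : SL(2, ℤ)) ∈ H)
    (hT : T ∈ H) (hV : lowerU M ∈ H)
    (hstep : ∀ γ : SL(2, ℤ), γ ∈ Gamma0 M → 2 * |γ 0 1| ≤ |γ 0 0| → γ 0 1 ≠ 0 →
      ∃ g ∈ H, g ∈ Gamma0 M ∧ |(γ * g) 0 0| < |γ 0 0|) :
    Gamma0 M ≤ H := by
  have key : ∀ n : ℕ, ∀ γ : SL(2, ℤ), γ ∈ Gamma0 M → (γ 0 0).natAbs = n → γ ∈ H := by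
    intro n
    induction n using Nat.strong_induction_on with
    | _ n ih =>
      intro γ hγ hn
      have ha : γ 0 0 ≠ 0 := topLeft_ne_zero hM hγ
      obtain ⟨m, hm⟩ := exists_balanced (γ 0 0) (γ 0 1) ha
      obtain ⟨t00, t01, t10, t11⟩ := T_zpow_entries m
      have hTm : T ^ m ∈ H := H.zpow_mem hT m
      set γ' := γ * T ^ m with hγ'
      have hγ'mem : γ' ∈ Gamma0 M := (Gamma0 M).mul_mem hγ (T_zpow_mem_Gamma0 M m)
      have h00 : γ' 0 0 = γ 0 0 := by rw [hγ', mul_zero_zero, t00, t10]; ring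
      have h01 : γ' 0 1 = γ 0 1 + m * γ 0 0 := by rw [hγ', mul_zero_one, t01, t11]; ring
      suffices hsuff : γ' ∈ H by
        have : γ = γ' * (T ^ m)⁻¹ := by rw [hγ']; group
        rw [this]
        exact H.mul_mem hsuff (H.inv_mem hTm)
      by_cases hb : γ' 0 1 = 0
      · -- `γ' = ± lowerU c`
        have hdet := det_entries γ'
        rw [hb, zero_mul, sub_zero] at hdet
        have hc : (M : ℤ) ∣ γ' 1 0 := mem_Gamma0_iff.mp hγ'mem
        obtain ⟨c₀, hc₀⟩ := hc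
        rcases Int.eq_one_or_neg_one_of_mul_eq_one' hdet with ⟨h1, h2⟩ | ⟨h1, h2⟩
        · have : γ' = lowerU ((M : ℤ) * c₀) := by
            obtain ⟨l00, l01, l10, l11⟩ := lowerU_entries ((M : ℤ) * c₀)
            apply ext_entries
            · rw [h1, l00]
            · rw [hb, l01]
            · rw [hc₀, l10]
            · rw [h2, l11]
          rw [this, lowerU_mul_eq_zpow]
          exact H.zpow_mem hV _
        · have : γ' = -lowerU ((M : ℤ) * (-c₀)) := by
            obtain ⟨l00, l01, l10, l11⟩ := lowerU_entries ((M : ℤ) * (-c₀))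
            apply ext_entries
            · rw [neg_entries, h1, l00]
            · rw [neg_entries, hb, l01]; ring
            · rw [neg_entries, hc₀, l10]; ring
            · rw [neg_entries, h2, l11]
          rw [this, lowerU_mul_eq_zpow]
          have h := H.mul_mem hneg (H.zpow_mem hV (-c₀))
          rwa [neg_one_mul] at h
      · have hbal : 2 * |γ' 0 1| ≤ |γ' 0 0| := by rw [h00, h01]; exact hm
        obtain ⟨g, hgH, hgΓ, hlt⟩ := hstep γ' hγ'mem hbal hb
        have hlt' : ((γ' * g) 0 0).natAbs < n := by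
          rw [← hn, ← h00]
          have := Int.natAbs_lt_natAbs_of_nonneg_of_lt (abs_nonneg _) hlt
          rwa [Int.natAbs_abs, Int.natAbs_abs] at this
        have hmem := ih _ hlt' (γ' * g) ((Gamma0 M).mul_mem hγ'mem hgΓ) rfl
        have : γ' = γ' * g * g⁻¹ := by group
        rw [this]
        exact H.mul_mem hmem (H.inv_mem hgH)
  intro γ hγ
  exact key _ γ hγ rfl


/-! ### Level four -/

theorem step_four (a b : ℤ) (hodd : ¬ (2 : ℤ) ∣ a) (hb : b ≠ 0) (h : 2 * |b| ≤ |a|) :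
    |a + b * 4| < |a| ∨ |a + b * (-4)| < |a| := by
  rcases le_total 0 a with ha | ha <;> rcases le_total 0 b with hb' | hb'
  · rw [abs_of_nonneg ha, abs_of_nonneg hb'] at h
    right
    rw [abs_lt, abs_of_nonneg ha]
    constructor <;> omega
  · rw [abs_of_nonneg ha, abs_of_nonpos hb'] at h
    left
    rw [abs_lt, abs_of_nonneg ha]
    constructor <;> omega
  · rw [abs_of_nonpos ha, abs_of_nonneg hb'] at h
    left
    rw [abs_lt, abs_of_nonpos ha]
    constructor <;> omega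
  · rw [abs_of_nonpos ha, abs_of_nonpos hb'] at h
    right
    rw [abs_lt, abs_of_nonpos ha]
    constructor <;> omega

theorem not_dvd_topLeft {M : ℕ} {p : ℤ} (hp : ¬ IsUnit p) (hpM : p ∣ (M : ℤ)) {γ : SL(2, ℤ)}
    (hγ : γ ∈ Gamma0 M) : ¬ p ∣ γ 0 0 := by
  intro h
  have hdet := det_entries γ
  rw [mem_Gamma0_iff] at hγ
  have h1 : p ∣ γ 0 0 * γ 1 1 - γ 0 1 * γ 1 0 :=
    dvd_sub (dvd_mul_of_dvd_left h _) (dvd_mul_of_dvd_right (hpM.trans hγ) _)
  rw [hdet] at h1
  exact hp (isUnit_of_dvd_one h1)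

/-- `Γ₀(4)` is generated by `-1`, `T` and `[[1, 0], [4, 1]]`. -/
theorem gamma0_four_le_closure :
    Gamma0 4 ≤ Subgroup.closure ({-1, T, lowerU 4} : Set SL(2, ℤ)) := by
  set H := Subgroup.closure ({-1, T, lowerU 4} : Set SL(2, ℤ)) with hH
  have hneg : (-1 : SL(2, ℤ)) ∈ H := Subgroup.subset_closure (by simp)
  have hT : T ∈ H := Subgroup.subset_closure (by simp)
  have hV : lowerU 4 ∈ H := Subgroup.subset_closure (by simp)
  refine le_of_descent 4 (by norm_num) H hneg hT (by exact_mod_cast hV) ?_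
  intro γ hγ hbal hb
  have hodd : ¬ (2 : ℤ) ∣ γ 0 0 :=
    not_dvd_topLeft (M := 4) (by decide) (by norm_num) hγ
  rcases step_four _ _ hodd hb hbal with h | h
  · refine ⟨lowerU 4, hV, by simpa using lowerU_mem_Gamma0 4 1, ?_⟩
    rw [mul_zero_zero, (lowerU_entries 4).1, (lowerU_entries 4).2.2.1, mul_one]
    exact h
  · refine ⟨(lowerU 4)⁻¹, H.inv_mem hV, (Gamma0 4).inv_mem (by simpa using lowerU_mem_Gamma0 4 1),
      ?_⟩
    rw [← lowerU_neg, mul_zero_zero, (lowerU_entries (-4)).1, (lowerU_entries (-4)).2.2.1, mul_one]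
    exact h

theorem closure_four_le_gamma0 :
    Subgroup.closure ({-1, T, lowerU 4} : Set SL(2, ℤ)) ≤ Gamma0 4 := by
  rw [Subgroup.closure_le]
  intro g hg
  simp only [Set.mem_insert_iff, Set.mem_singleton_iff] at hg
  rcases hg with rfl | rfl | rfl
  · change (-1 : SL(2, ℤ)) ∈ Gamma0 4
    rw [mem_Gamma0_iff, neg_entries, one_entries.2.2.1]
    simp
  · have := T_zpow_mem_Gamma0 4 1
    rwa [zpow_one] at this
  · simpa using lowerU_mem_Gamma0 4 1

theorem gamma0_four_eq_closure :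
    Gamma0 4 = Subgroup.closure ({-1, T, lowerU 4} : Set SL(2, ℤ)) :=
  le_antisymm gamma0_four_le_closure closure_four_le_gamma0

/-! ### Level nine -/

theorem step_nine (a b : ℤ) (h3 : ¬ (3 : ℤ) ∣ a) (hb : b ≠ 0) (h : 2 * |b| ≤ |a|) :
    |a + b * 9| < |a| ∨ |a + b * (-9)| < |a| ∨
    |a * (1 - 3 * 1) + b * (-(3 * 3 * 1))| < |a| ∨
    |a * (1 - 3 * (-1)) + b * (-(3 * 3 * (-1)))| < |a| ∨
    |a * (1 - (-3) * 1) + b * (-((-3) * (-3) * 1))| < |a| ∨
    |a * (1 - (-3) * (-1)) + b * (-((-3) * (-3) * (-1)))| < |a| := by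
  rcases le_total 0 a with ha | ha <;> rcases le_total 0 b with hb' | hb'
  · rw [abs_of_nonneg ha, abs_of_nonneg hb'] at h
    simp only [abs_lt, abs_of_nonneg ha]
    omega
  · rw [abs_of_nonneg ha, abs_of_nonpos hb'] at h
    simp only [abs_lt, abs_of_nonneg ha]
    omega
  · rw [abs_of_nonpos ha, abs_of_nonneg hb'] at h
    simp only [abs_lt, abs_of_nonpos ha]
    omega
  · rw [abs_of_nonpos ha, abs_of_nonpos hb'] at h
    simp only [abs_lt, abs_of_nonpos ha]
    omega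

/-- The generators of `Γ₀(9)`: `-1`, `T`, `[[1, 0], [9, 1]]` and the parabolic elements
`σ T σ⁻¹` for `σ = [[1, 0], [3, 1]]` and `σ = [[1, 0], [-3, 1]]` (fixing the cusps `±1/3`). -/
def gens9 : Set SL(2, ℤ) := {-1, T, lowerU 9, parab 3 1, parab (-3) 1}

/-- `Γ₀(9)` is generated by `-1` and parabolic elements. -/
theorem gamma0_nine_le_closure : Gamma0 9 ≤ Subgroup.closure gens9 := by
  set H := Subgroup.closure gens9 with hH
  have hneg : (-1 : SL(2, ℤ)) ∈ H := Subgroup.subset_closure (by simp [gens9])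
  have hT : T ∈ H := Subgroup.subset_closure (by simp [gens9])
  have hV : lowerU 9 ∈ H := Subgroup.subset_closure (by simp [gens9])
  have hP : parab 3 1 ∈ H := Subgroup.subset_closure (by simp [gens9])
  have hP' : parab (-3) 1 ∈ H := Subgroup.subset_closure (by simp [gens9])
  have hVm : lowerU 9 ∈ Gamma0 9 := by simpa using lowerU_mem_Gamma0 9 1
  have hPm : ∀ n, parab 3 n ∈ Gamma0 9 := fun n => parab_mem_Gamma0 9 3 n (by norm_num)
  have hP'm : ∀ n, parab (-3) n ∈ Gamma0 9 := fun n => parab_mem_Gamma0 9 (-3) n (by norm_num)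
  refine le_of_descent 9 (by norm_num) H hneg hT (by exact_mod_cast hV) ?_
  intro γ hγ hbal hb
  have h3 : ¬ (3 : ℤ) ∣ γ 0 0 :=
    not_dvd_topLeft (M := 9) (by decide) (by norm_num) hγ
  rcases step_nine _ _ h3 hb hbal with h | h | h | h | h | h
  · refine ⟨lowerU 9, hV, hVm, ?_⟩
    rw [mul_zero_zero, (lowerU_entries 9).1, (lowerU_entries 9).2.2.1, mul_one]
    exact h
  · refine ⟨(lowerU 9)⁻¹, H.inv_mem hV, (Gamma0 9).inv_mem hVm, ?_⟩
    rw [← lowerU_neg, mul_zero_zero, (lowerU_entries (-9)).1, (lowerU_entries (-9)).2.2.1, mul_one]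
    exact h
  · refine ⟨parab 3 1, hP, hPm 1, ?_⟩
    rw [mul_zero_zero, (parab_entries 3 1).1, (parab_entries 3 1).2.2.1]
    exact h
  · refine ⟨(parab 3 1)⁻¹, H.inv_mem hP, (Gamma0 9).inv_mem (hPm 1), ?_⟩
    rw [← parab_neg, mul_zero_zero, (parab_entries 3 (-1)).1, (parab_entries 3 (-1)).2.2.1]
    exact h
  · refine ⟨parab (-3) 1, hP', hP'm 1, ?_⟩
    rw [mul_zero_zero, (parab_entries (-3) 1).1, (parab_entries (-3) 1).2.2.1]
    exact h
  · refine ⟨(parab (-3) 1)⁻¹, H.inv_mem hP', (Gamma0 9).inv_mem (hP'm 1), ?_⟩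
    rw [← parab_neg, mul_zero_zero, (parab_entries (-3) (-1)).1,
      (parab_entries (-3) (-1)).2.2.1]
    exact h

theorem closure_nine_le_gamma0 : Subgroup.closure gens9 ≤ Gamma0 9 := by
  rw [Subgroup.closure_le]
  intro g hg
  simp only [gens9, Set.mem_insert_iff, Set.mem_singleton_iff] at hg
  rcases hg with rfl | rfl | rfl | rfl | rfl
  · change (-1 : SL(2, ℤ)) ∈ Gamma0 9
    rw [mem_Gamma0_iff, neg_entries, one_entries.2.2.1]
    simp
  · have := T_zpow_mem_Gamma0 9 1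
    rwa [zpow_one] at this
  · simpa using lowerU_mem_Gamma0 9 1
  · exact parab_mem_Gamma0 9 3 1 (by norm_num)
  · exact parab_mem_Gamma0 9 (-3) 1 (by norm_num)

theorem gamma0_nine_eq_closure : Gamma0 9 = Subgroup.closure gens9 :=
  le_antisymm gamma0_nine_le_closure closure_nine_le_gamma0

/-! ### Invariance from the generators -/

section Invariance

open UpperHalfPlane

variable {Y : Type*}

/-- The elements of `SL(2, ℤ)` fixing a function on the upper half plane. -/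
def stab (f : ℍ → Y) : Subgroup SL(2, ℤ) where
  carrier := {g | ∀ z : ℍ, f (g • z) = f z}
  one_mem' := fun z => by rw [one_smul]
  mul_mem' := fun {g h} hg hh z => by rw [mul_smul, hg, hh]
  inv_mem' := fun {g} hg z => by
    have := hg (g⁻¹ • z)
    rw [smul_inv_smul] at this
    exact this.symm

theorem mem_stab {f : ℍ → Y} {g : SL(2, ℤ)} : g ∈ stab f ↔ ∀ z : ℍ, f (g • z) = f z := Iff.rfl

theorem neg_one_mem_stab (f : ℍ → Y) : (-1 : SL(2, ℤ)) ∈ stab f := by
  intro z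
  rw [ModularGroup.SL_neg_smul, one_smul]

/-- A conjugate `σ T^w σ⁻¹` fixes `f` as soon as `f ∘ σ` has period `w`. -/
theorem conj_mem_stab (f : ℍ → Y) (σ : SL(2, ℤ)) (w : ℤ)
    (h : ∀ z : ℍ, f (σ • (T ^ w • z)) = f (σ • z)) : σ * T ^ w * σ⁻¹ ∈ stab f := by
  intro z
  rw [mul_smul, mul_smul, h, smul_inv_smul]

/-- A function on the upper half plane fixed by `T` and by `[[1, 0], [4, 1]]` is
`Γ₀(4)`-invariant. -/
theorem invariant_four (f : ℍ → Y) (hT : ∀ z : ℍ, f (T • z) = f z)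
    (hV : ∀ z : ℍ, f (lowerU 4 • z) = f z) :
    ∀ γ ∈ Gamma0 4, ∀ z : ℍ, f (γ • z) = f z := by
  have hle : Subgroup.closure ({-1, T, lowerU 4} : Set SL(2, ℤ)) ≤ stab f := by
    rw [Subgroup.closure_le]
    intro g hg
    simp only [Set.mem_insert_iff, Set.mem_singleton_iff] at hg
    rcases hg with rfl | rfl | rfl
    · exact neg_one_mem_stab f
    · exact hT
    · exact hV
  exact fun γ hγ => hle (gamma0_four_le_closure hγ)

/-- A function on the upper half plane of period `1` such that `f ∘ S` has period `4` is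
`Γ₀(4)`-invariant. -/
theorem invariant_four' (f : ℍ → Y) (hT : ∀ z : ℍ, f (T • z) = f z)
    (hS : ∀ z : ℍ, f (S • (T ^ (4 : ℤ) • z)) = f (S • z)) :
    ∀ γ ∈ Gamma0 4, ∀ z : ℍ, f (γ • z) = f z := by
  refine invariant_four f hT ?_
  have h1 : S * T ^ (4 : ℤ) * S⁻¹ ∈ stab f := conj_mem_stab f S 4 hS
  have h2 : lowerU 4 = (S * T ^ (4 : ℤ) * S⁻¹)⁻¹ := by
    rw [lowerU_eq_conj, _root_.zpow_neg]
    group
  rw [h2]
  exact (stab f).inv_mem h1

/-- A function on the upper half plane of period `1` such that `f ∘ S` has period `9` and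
`f ∘ σ` has period `1` for `σ = [[1, 0], [±3, 1]]` is `Γ₀(9)`-invariant. -/
theorem invariant_nine (f : ℍ → Y) (hT : ∀ z : ℍ, f (T • z) = f z)
    (hS : ∀ z : ℍ, f (S • (T ^ (9 : ℤ) • z)) = f (S • z))
    (hP : ∀ z : ℍ, f (lowerU 3 • (T • z)) = f (lowerU 3 • z))
    (hP' : ∀ z : ℍ, f (lowerU (-3) • (T • z)) = f (lowerU (-3) • z)) :
    ∀ γ ∈ Gamma0 9, ∀ z : ℍ, f (γ • z) = f z := by
  have h1 : S * T ^ (9 : ℤ) * S⁻¹ ∈ stab f := conj_mem_stab f S 9 hS
  have h2 : lowerU 9 = (S * T ^ (9 : ℤ) * S⁻¹)⁻¹ := by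
    rw [lowerU_eq_conj, _root_.zpow_neg]
    group
  have hle : Subgroup.closure gens9 ≤ stab f := by
    rw [Subgroup.closure_le]
    intro g hg
    simp only [gens9, Set.mem_insert_iff, Set.mem_singleton_iff] at hg
    rcases hg with rfl | rfl | rfl | rfl | rfl
    · exact neg_one_mem_stab f
    · exact hT
    · change lowerU 9 ∈ stab f
      rw [h2]
      exact (stab f).inv_mem h1
    · change parab 3 1 ∈ stab f
      unfold parab
      exact conj_mem_stab f (lowerU 3) 1 (by simpa using hP)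
    · change parab (-3) 1 ∈ stab f
      unfold parab
      exact conj_mem_stab f (lowerU (-3)) 1 (by simpa using hP')
  exact fun γ hγ => hle (gamma0_nine_le_closure hγ)

end Invariance

end Fermat.Agent.S18.Gamma0Gen
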