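import Mathlib
import Fermat.Agent.S20.Stab
import Fermat.Agent.S16.Gr
import Fermat.Agent.S20.Div
import Fermat.Agent.S18.Gamma0Gen

/-!
# S18 moonshot, Hauptmodul package, part (Ha): the eta quotient `Θ = (η(z)/η(Mz))^a`

For `a * (M - 1) = 24` (in the application `(M, a) = (4, 8)` or `(9, 3)`):

* `Theta M a z = (η z / η (M z)) ^ a`, holomorphic and nowhere zero on the upper half plane,
  `Theta ^ (M - 1) = Δ(z) / Δ(M z)`;
* for every `σ ∈ SL(2, ℤ)`, `Theta (σ • z) = κ * (η z / η ((A z + B)/D)) ^ a` with a constant `κ`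
  (Hermite reduction, modularity of `Δ`, and connectedness of the upper half plane: no
  transformation formula for `η` under `S` is used);
* invariance of `Theta` under every parabolic element `σ T^w σ⁻¹` of `Γ₀(M)` (`T`-rule for `η`).
-/

set_option autoImplicit false

namespace Fermat.Agent.S18.HauptA

open UpperHalfPlane hiding I
open CongruenceSubgroup ModularForm Complex Filter Topology
open Fermat.Agent.S20.Stab Fermat.Agent.S16.Gr
open scoped MatrixGroups ModularForm Manifold Real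

local notation "Δ" => ModularForm.discriminant
local notation "𝕢" => Function.Periodic.qParam

/-! ### The `T`-rule for `η` -/

theorem eta_add_int (z : ℂ) (n : ℤ) : η (z + n) = cexp (2 * π * I * n / 24) * η z := by
  unfold ModularForm.eta
  have h1 : 𝕢 24 (z + n) = cexp (2 * π * I * n / 24) * 𝕢 24 z := by
    simp only [Function.Periodic.qParam]
    rw [← Complex.exp_add]
    congr 1
    push_cast
    ring
  have h2 : ∀ k, eta_q k (z + n) = eta_q k z := by
    intro k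
    simp only [eta_q, Function.Periodic.qParam]
    congr 1
    rw [show 2 * (π : ℂ) * I * (z + n) / ((1 : ℝ) : ℂ) =
      2 * π * I * z / ((1 : ℝ) : ℂ) + n * (2 * π * I) by push_cast; ring, Complex.exp_add,
      Complex.exp_int_mul_two_pi_mul_I, mul_one]
  simp_rw [h1, h2]
  ring

/-! ### The natural roots -/

/-- `(η(z) / η((A z + B) / D)) ^ a`. -/
noncomputable def natF (a A D : ℕ) (B : ℤ) (z : ℍ) : ℂ :=
  (η (z : ℂ) / η (aff A D B z)) ^ a

/-- The eta quotient `(η(z) / η(M z)) ^ a`. -/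
noncomputable def Theta (M a : ℕ) (z : ℍ) : ℂ := (η (z : ℂ) / η ((M : ℂ) * z)) ^ a

theorem Theta_eq_natF (M a : ℕ) (z : ℍ) : Theta M a z = natF a M 1 0 z := by
  unfold Theta natF aff
  simp

theorem aff_mem {A D : ℕ} (hA : 0 < A) (hD : 0 < D) (B : ℤ) (z : ℍ) :
    aff A D B z ∈ upperHalfPlaneSet :=
  aff_im_pos hA hD B z.im_pos

theorem natF_ne_zero (a : ℕ) {A D : ℕ} (hA : 0 < A) (hD : 0 < D) (B : ℤ) (z : ℍ) :
    natF a A D B z ≠ 0 :=
  pow_ne_zero _ (div_ne_zero (eta_ne_zero z.im_pos) (eta_ne_zero (aff_mem hA hD B z)))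

theorem Theta_ne_zero (M a : ℕ) [NeZero M] (z : ℍ) : Theta M a z ≠ 0 := by
  rw [Theta_eq_natF]
  exact natF_ne_zero a (NeZero.pos M) one_pos 0 z

theorem discriminant_ofComplex {w : ℂ} (hw : w ∈ upperHalfPlaneSet) :
    Δ (ofComplex w) = η w ^ 24 := by
  have : ((ofComplex w : ℍ) : ℂ) = w := by
    have h := ofComplex_apply ⟨w, hw⟩
    rw [← Subtype.coe_mk (p := fun z : ℂ => 0 < z.im) w hw] 
    exact congrArg _ h
  unfold ModularForm.discriminant
  rw [this]

theorem natF_pow {a n : ℕ} (han : a * n = 24) {A D : ℕ} (hA : 0 < A) (hD : 0 < D) (B : ℤ)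
    (z : ℍ) : natF a A D B z ^ n = Δ z / Δ (ofComplex (aff A D B z)) := by
  unfold natF
  rw [← pow_mul, han, div_pow, discriminant_ofComplex (aff_mem hA hD B z)]
  rfl

/-! ### Holomorphy -/

/-- A function on `ℍ` which is the restriction of a function differentiable on the open upper
half plane is holomorphic. -/
theorem mdiff_of_differentiableOn (G : ℂ → ℂ) (hG : DifferentiableOn ℂ G upperHalfPlaneSet) :
    MDiff (fun z : ℍ => G z) := by
  rw [UpperHalfPlane.mdifferentiable_iff]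
  refine hG.congr fun w hw => ?_
  simp only [Function.comp_apply]
  rw [ofComplex_apply_of_im_pos hw]

theorem differentiableOn_eta : DifferentiableOn ℂ η upperHalfPlaneSet := fun _ hw =>
  (differentiableAt_eta_of_mem_upperHalfPlaneSet hw).differentiableWithinAt

theorem differentiable_aff (A D : ℕ) (B : ℤ) : Differentiable ℂ (aff A D B) := by
  unfold aff
  fun_prop

theorem mdiff_natF (a : ℕ) {A D : ℕ} (hA : 0 < A) (hD : 0 < D) (B : ℤ) :
    MDiff (natF a A D B) := by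
  have hmaps : Set.MapsTo (aff A D B) upperHalfPlaneSet upperHalfPlaneSet :=
    fun w hw => aff_im_pos hA hD B hw
  have h1 : DifferentiableOn ℂ (fun w : ℂ => η (aff A D B w)) upperHalfPlaneSet :=
    differentiableOn_eta.comp (differentiable_aff A D B).differentiableOn hmaps
  have h2 : DifferentiableOn ℂ (fun w : ℂ => (η w / η (aff A D B w)) ^ a) upperHalfPlaneSet :=
    (differentiableOn_eta.div h1 fun w hw => eta_ne_zero (hmaps hw)).pow a
  exact mdiff_of_differentiableOn _ h2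

theorem mdiff_Theta (M a : ℕ) [NeZero M] : MDiff (Theta M a) := by
  have h := mdiff_natF a (NeZero.pos M) one_pos 0
  have e : Theta M a = natF a M 1 0 := funext (Theta_eq_natF M a)
  rwa [e]

theorem mdiff_smul {f : ℍ → ℂ} (hf : MDiff f) (γ : SL(2, ℤ)) :
    MDiff (fun z : ℍ => f (γ • z)) := by
  have h : MDiff (f ∣[(0 : ℤ)] γ) := hf.slash (0 : ℤ) _
  have e : (f ∣[(0 : ℤ)] γ) = fun z : ℍ => f (γ • z) := by
    ext z
    rw [SL_slash_apply]
    simp
  rwa [e] at h

/-! ### The translates of `Θ` -/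

theorem Theta_pow {M a : ℕ} [NeZero M] (han : a * (M - 1) = 24) (z : ℍ) :
    Theta M a z ^ (M - 1) = Δ z / fN M z := by
  rw [Theta_eq_natF, natF_pow han (NeZero.pos M) one_pos]
  unfold fN aff
  simp

/-- A continuous function on `ℍ` whose `n`-th power is constant is constant (`n ≠ 0`). -/
theorem const_of_pow_const {g : ℍ → ℂ} (hg : Continuous g) {n : ℕ} (hn : n ≠ 0) (c : ℂ)
    (h : ∀ z, g z ^ n = c) (z w : ℍ) : g z = g w := by
  have hfin : {ζ : ℂ | ζ ^ n = c}.Finite := by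
    have : {ζ : ℂ | ζ ^ n = c} ⊆ ((Polynomial.nthRoots n c).toFinset : Set ℂ) := by
      intro ζ hζ
      simp only [Finset.mem_coe, Multiset.mem_toFinset]
      rw [Polynomial.mem_nthRoots (Nat.pos_of_ne_zero hn)]
      exact hζ
    exact (Finset.finite_toSet _).subset this
  have hdisc : IsDiscrete {ζ : ℂ | ζ ^ n = c} := hfin.isDiscrete
  exact (isPreconnected_univ (α := ℍ)).constant_of_mapsTo hdisc hg.continuousOn
    (fun z _ => h z) (Set.mem_univ z) (Set.mem_univ w)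

theorem fN_smul_eq {M : ℕ} (σ : SL(2, ℤ)) (z : ℍ) (c : ℂ)
    (hsl : (fN M ∣[(12 : ℤ)] σ) z = c) : fN M (σ • z) = denom σ z ^ (12 : ℕ) * c := by
  rw [SL_slash_apply] at hsl
  have hden : denom σ z ≠ 0 := denom_ne_zero σ z
  rw [← hsl, mul_comm, mul_assoc, ← zpow_natCast, ← zpow_add₀ hden]
  simp

theorem key_algebra {u x y d : ℂ} (hu : u ≠ 0) (hx : x ≠ 0) (hy : y ≠ 0) (hd : d ≠ 0) :
    u * x / (u * (d⁻¹ * y)) / (x / y) = d := by
  field_simp

/-- **The translates of `Θ`**: `Θ(σ z) = κ (η(z) / η((A z + B) / D)) ^ a` with a constant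
`κ`, where `A = gcd(M, σ₁₀)` and `A D = M`. -/
theorem Theta_smul_eq {M a : ℕ} [NeZero M] (han : a * (M - 1) = 24) (σ : SL(2, ℤ)) :
    ∃ (A D : ℕ) (B : ℤ) (κ : ℂ), 0 < A ∧ 0 < D ∧ A * D = M ∧ A = Int.gcd M (σ 1 0) ∧ κ ≠ 0 ∧
      κ ^ (M - 1) = (D : ℂ) ^ 12 ∧
      ∀ z : ℍ, Theta M a (σ • z) = κ * natF a A D B z := by
  obtain ⟨A, D, B, hA, hD, hAD, hgcd, hsl⟩ := fN_slash_apply M (NeZero.pos M) σ
  have hM1 : M - 1 ≠ 0 := by
    intro h0
    rw [h0, mul_zero] at han
    omega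
  have hDC : (D : ℂ) ≠ 0 := by exact_mod_cast hD.ne'
  -- the key identity of powers
  have key : ∀ z : ℍ, (Theta M a (σ • z) / natF a A D B z) ^ (M - 1) = (D : ℂ) ^ 12 := by
    intro z
    rw [div_pow, Theta_pow han, natF_pow han hA hD, fN_smul_eq σ z _ (hsl z), discriminant_smul]
    exact key_algebra (pow_ne_zero _ (denom_ne_zero σ z)) (discriminant_ne_zero z)
      (discriminant_ne_zero _) (pow_ne_zero _ hDC)
  have hcont : Continuous (fun z : ℍ => Theta M a (σ • z) / natF a A D B z) :=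
    ((mdiff_smul (mdiff_Theta M a) σ).continuous).div (mdiff_natF a hA hD B).continuous
      (natF_ne_zero a hA hD B)
  have hconst := const_of_pow_const hcont hM1 _ key
  refine ⟨A, D, B, Theta M a (σ • UpperHalfPlane.I) / natF a A D B UpperHalfPlane.I, hA, hD, hAD,
    hgcd, div_ne_zero (Theta_ne_zero M a _) (natF_ne_zero a hA hD B _), key _, fun z => ?_⟩
  rw [← hconst z UpperHalfPlane.I, div_mul_cancel₀ _ (natF_ne_zero a hA hD B z)]

/-! ### Parabolic invariance -/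

theorem coe_T_zpow_smul (w : ℤ) (z : ℍ) : ((ModularGroup.T ^ w • z : ℍ) : ℂ) = (z : ℂ) + w := by
  rw [UpperHalfPlane.modular_T_zpow_smul, UpperHalfPlane.coe_vadd]
  push_cast
  ring

/-- The `T`-rule for the natural roots. -/
theorem natF_T_zpow (a : ℕ) {A D : ℕ} (hD : 0 < D) (B : ℤ) (w n : ℤ)
    (hn : (A : ℤ) * w = D * n) (h24 : (24 : ℤ) ∣ a * (w - n)) (z : ℍ) :
    natF a A D B (ModularGroup.T ^ w • z) = natF a A D B z := by
  unfold natF
  have hDC : (D : ℂ) ≠ 0 := by exact_mod_cast hD.ne'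
  have hnC : (A : ℂ) * w = D * n := by exact_mod_cast hn
  have haff : aff A D B ((z : ℂ) + w) = aff A D B z + n := by
    unfold aff
    field_simp
    linear_combination hnC
  rw [coe_T_zpow_smul, haff, eta_add_int, eta_add_int]
  obtain ⟨k, hk⟩ := h24
  have h1 : cexp (2 * π * I * w / 24) / cexp (2 * π * I * n / 24) =
      cexp (2 * π * I * (w - n) / 24) := by
    rw [← Complex.exp_sub]
    congr 1
    ring
  have hk' : (a : ℂ) * (w - n) = 24 * k := by exact_mod_cast hk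
  have h2 : (a : ℂ) * (2 * π * I * (w - n) / 24) = k * (2 * π * I) := by
    linear_combination (2 * π * I / 24) * hk'
  rw [mul_div_mul_comm, h1, mul_pow, ← Complex.exp_nat_mul, h2, Complex.exp_int_mul_two_pi_mul_I,
    one_mul]

theorem conj_T_zpow_entry (σ : SL(2, ℤ)) (w : ℤ) :
    (σ * ModularGroup.T ^ w * σ⁻¹) 1 0 = -(w * σ 1 0 ^ 2) := by
  simp only [Matrix.SpecialLinearGroup.coe_mul, Matrix.SpecialLinearGroup.coe_inv,
    ModularGroup.coe_T_zpow, Matrix.adjugate_fin_two, Matrix.mul_apply, Fin.sum_univ_two]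
  simp
  ring

/-- The arithmetic of the three shapes `A = 1`, `D = 1`, `A = D` of the Hermite form. -/
theorem exists_shift {M a A D : ℕ} (hM : ∀ A D : ℕ, A * D = M → A = 1 ∨ D = 1 ∨ A = D)
    (han : a * (M - 1) = 24) (hAD : A * D = M) (r w : ℤ) (hA : A = Int.gcd M r)
    (hdvd : (M : ℤ) ∣ w * r ^ 2) :
    ∃ n : ℤ, (A : ℤ) * w = D * n ∧ (24 : ℤ) ∣ a * (w - n) := by
  have hM1 : 1 ≤ M := by
    rcases Nat.eq_zero_or_pos M with h0 | h0
    · rw [h0] at han; simp at han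
    · exact h0
  have hanZ : (a : ℤ) * ((M : ℤ) - 1) = 24 := by
    have : ((a * (M - 1) : ℕ) : ℤ) = 24 := by rw [han]; rfl
    rw [← this]
    push_cast [Nat.cast_sub hM1]
    ring
  rcases hM A D hAD with h | h | h
  · -- `A = 1`: `M` is prime to `r`, so `M ∣ w`
    have hcop : IsCoprime (M : ℤ) r := by
      rw [Int.isCoprime_iff_gcd_eq_one, ← hA, h]
    have hdvd' : (M : ℤ) ∣ w := (hcop.pow_right (n := 2)).dvd_of_dvd_mul_right hdvd
    obtain ⟨w', hw'⟩ := hdvd'
    have hDM : D = M := by rw [← hAD, h, one_mul]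
    refine ⟨w', ?_, ⟨w', ?_⟩⟩
    · rw [h, hDM, hw']; push_cast; ring
    · rw [hw']
      linear_combination (w' : ℤ) * hanZ
  · -- `D = 1`
    have hAM : A = M := by rw [← hAD, h, mul_one]
    refine ⟨M * w, ?_, ⟨-w, ?_⟩⟩
    · rw [h, hAM]; push_cast; ring
    · linear_combination (-w : ℤ) * hanZ
  · -- `A = D`
    refine ⟨w, by rw [h], ⟨0, by ring⟩⟩

/-- **Periodicity of the translates**: `Θ ∘ σ` has period `w` as soon as `M ∣ w σ₁₀²`. -/
theorem Theta_period {M a : ℕ} [NeZero M]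
    (hM : ∀ A D : ℕ, A * D = M → A = 1 ∨ D = 1 ∨ A = D) (han : a * (M - 1) = 24)
    (σ : SL(2, ℤ)) (w : ℤ) (hdvd : (M : ℤ) ∣ w * σ 1 0 ^ 2) (z : ℍ) :
    Theta M a (σ • (ModularGroup.T ^ w • z)) = Theta M a (σ • z) := by
  obtain ⟨A, D, B, κ, hA, hD, hAD, hgcd, -, -, hκ⟩ := Theta_smul_eq han σ
  obtain ⟨n, hn, h24⟩ := exists_shift hM han hAD (σ 1 0) w hgcd hdvd
  rw [hκ, hκ, natF_T_zpow a hD B w n hn h24]

/-- **Parabolic invariance**: `Θ` is invariant under every conjugate `σ T^w σ⁻¹` lying in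
`Γ₀(M)`. -/
theorem Theta_parabolic {M a : ℕ} [NeZero M]
    (hM : ∀ A D : ℕ, A * D = M → A = 1 ∨ D = 1 ∨ A = D) (han : a * (M - 1) = 24)
    (σ : SL(2, ℤ)) (w : ℤ) (hmem : σ * ModularGroup.T ^ w * σ⁻¹ ∈ Gamma0 M) (z : ℍ) :
    Theta M a ((σ * ModularGroup.T ^ w * σ⁻¹) • z) = Theta M a z := by
  rw [Gamma0_mem, conj_T_zpow_entry] at hmem
  have hdvd : (M : ℤ) ∣ w * σ 1 0 ^ 2 := by
    have := (ZMod.intCast_zmod_eq_zero_iff_dvd _ _).mp hmem
    exact (dvd_neg).mp this
  have e1 : (σ * ModularGroup.T ^ w * σ⁻¹) • z = σ • (ModularGroup.T ^ w • (σ⁻¹ • z)) := by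
    rw [mul_smul, mul_smul]
  have e2 : Theta M a z = Theta M a (σ • (σ⁻¹ • z)) := by
    rw [smul_inv_smul]
  rw [e1, e2, Theta_period hM han σ w hdvd]

theorem Theta_T_smul {M a : ℕ} [NeZero M]
    (hM : ∀ A D : ℕ, A * D = M → A = 1 ∨ D = 1 ∨ A = D) (han : a * (M - 1) = 24) (z : ℍ) :
    Theta M a (ModularGroup.T • z) = Theta M a z := by
  have h := Theta_period hM han 1 1 (by simp) z
  rwa [one_smul, one_smul, zpow_one] at h

/-! ### Invariance under `Γ₀(4)` and `Γ₀(9)` -/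

theorem shape_four : ∀ A D : ℕ, A * D = 4 → A = 1 ∨ D = 1 ∨ A = D := by
  intro A D h
  have hA : A ≤ 4 := Nat.le_of_dvd (by norm_num) ⟨D, h.symm⟩
  have hD : D ≤ 4 := Nat.le_of_dvd (by norm_num) ⟨A, by rw [mul_comm]; exact h.symm⟩
  interval_cases A <;> interval_cases D <;> simp_all

theorem shape_nine : ∀ A D : ℕ, A * D = 9 → A = 1 ∨ D = 1 ∨ A = D := by
  intro A D h
  have hA : A ≤ 9 := Nat.le_of_dvd (by norm_num) ⟨D, h.symm⟩
  have hD : D ≤ 9 := Nat.le_of_dvd (by norm_num) ⟨A, by rw [mul_comm]; exact h.symm⟩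
  interval_cases A <;> interval_cases D <;> simp_all

/-- The Hauptmodul of `Γ₀(4)`: `(η(z) / η(4 z)) ^ 8`. -/
noncomputable abbrev Theta4 : ℍ → ℂ := Theta 4 8

/-- The Hauptmodul of `Γ₀(9)`: `(η(z) / η(9 z)) ^ 3`. -/
noncomputable abbrev Theta9 : ℍ → ℂ := Theta 9 3

/-- **`Θ₄` is `Γ₀(4)`-invariant.** -/
theorem Theta4_smul_of_mem {γ : SL(2, ℤ)} (hγ : γ ∈ Gamma0 4) (z : ℍ) :
    Theta4 (γ • z) = Theta4 z := by
  refine Fermat.Agent.S18.Gamma0Gen.invariant_four' Theta4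
    (Theta_T_smul shape_four (by norm_num)) (fun z => ?_) γ hγ z
  refine Theta_period shape_four (by norm_num) ModularGroup.S 4 ?_ z
  rw [Fermat.Agent.S18.Gamma0Gen.S_entries.2.2.1]
  norm_num

/-- **`Θ₉` is `Γ₀(9)`-invariant.** -/
theorem Theta9_smul_of_mem {γ : SL(2, ℤ)} (hγ : γ ∈ Gamma0 9) (z : ℍ) :
    Theta9 (γ • z) = Theta9 z := by
  refine Fermat.Agent.S18.Gamma0Gen.invariant_nine Theta9
    (Theta_T_smul shape_nine (by norm_num)) (fun z => ?_) (fun z => ?_) (fun z => ?_) γ hγ z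
  · refine Theta_period shape_nine (by norm_num) ModularGroup.S 9 ?_ z
    rw [Fermat.Agent.S18.Gamma0Gen.S_entries.2.2.1]
    norm_num
  · have h := Theta_period shape_nine (a := 3) (by norm_num)
      (Fermat.Agent.S18.Gamma0Gen.lowerU 3) 1 ?_ z
    · rwa [zpow_one] at h
    · rw [(Fermat.Agent.S18.Gamma0Gen.lowerU_entries 3).2.2.1]
      norm_num
  · have h := Theta_period shape_nine (a := 3) (by norm_num)
      (Fermat.Agent.S18.Gamma0Gen.lowerU (-3)) 1 ?_ z
    · rwa [zpow_one] at h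
    · rw [(Fermat.Agent.S18.Gamma0Gen.lowerU_entries (-3)).2.2.1]
      norm_num

end Fermat.Agent.S18.HauptA
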