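import Mathlib
import Fermat.Agent.S18.HauptA
import Fermat.Agent.S24.CharPoly
import Fermat.Agent.S24.Degree

/-!
# S18 moonshot, Hauptmodul package, part (Ha), second file: behaviour at the cusps

For `a * (M - 1) = 24` and the eta quotient `Θ = Theta M a = (η(z)/η(Mz))^a`:

* every translate `Θ ∘ σ` and every translate of `Θ⁻¹` is meromorphic at `i∞` with a pole of order
  at most one (`Mero 1`), hence `Θ` and `Θ⁻¹` are `Good`;
* if `A = gcd(M, σ₁₀) ≤ D = M / A`, then `Θ ∘ σ` is bounded at `i∞`; for `M = 4, 9` this holds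
  for every `σ ∉ Γ₀(M)` ("only the identity coset has a pole").
-/

set_option autoImplicit false

namespace Fermat.Agent.S18.HauptMero

open UpperHalfPlane hiding I
open CongruenceSubgroup ModularForm Complex Filter Topology
open Fermat.Agent.S20.Stab Fermat.Agent.S16.Gr Fermat.Agent.S18.HauptA
open Fermat.Agent.S24.CharPoly Fermat.Agent.S24.Degree
open scoped MatrixGroups ModularForm Manifold Real

local notation "Δ" => ModularForm.discriminant

/-! ### Real estimates -/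

theorem ratio_le {u v x x' : ℝ} (hv : 0 < v) (hx : 0 < x) (_hx' : 0 < x')
    (h1 : u * x ≤ 2) (h2 : 1 / 2 ≤ v * x') : u / v ≤ 4 * x' / x := by
  rw [div_le_div_iff₀ hv hx]
  nlinarith

theorem le_max_of_pow_le {t C : ℝ} (_ht : 0 ≤ t) {n : ℕ} (hn : n ≠ 0) (h : t ^ n ≤ C) :
    t ≤ max 1 C := by
  rcases le_or_gt t 1 with h1 | h1
  · exact le_max_of_le_left h1
  · exact le_max_of_le_right ((le_self_pow₀ h1.le hn).trans h)

/-- Two sided bounds for `Δ` near `i∞`. -/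
theorem discriminant_bounds :
    ∃ Y : ℝ, ∀ z : ℍ, Y ≤ z.im →
      1 / 2 ≤ ‖Δ z‖ * Real.exp (2 * π * z.im) ∧ ‖Δ z‖ * Real.exp (2 * π * z.im) ≤ 2 := by
  have h := tendsto_norm_discriminant_mul_exp
  have hmem : Set.Icc (1 / 2 : ℝ) 2 ∈ 𝓝 (1 : ℝ) := Icc_mem_nhds (by norm_num) (by norm_num)
  have h2 := h hmem
  rw [Filter.mem_map, atImInfty_mem] at h2
  obtain ⟨Y, hY⟩ := h2
  exact ⟨Y, fun z hz => hY z hz⟩

/-- Two sided bounds for `Δ((A z + B) / D)` near `i∞`. -/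
theorem discriminant_aff_bounds {A D : ℕ} (hA : 0 < A) (hD : 0 < D) (B : ℤ) :
    ∃ Y : ℝ, ∀ z : ℍ, Y ≤ z.im →
      1 / 2 ≤ ‖Δ (ofComplex (aff A D B z))‖ * Real.exp (2 * π * ((A : ℝ) / D * z.im)) ∧
        ‖Δ (ofComplex (aff A D B z))‖ * Real.exp (2 * π * ((A : ℝ) / D * z.im)) ≤ 2 := by
  have hr : (0 : ℝ) < (A : ℝ) / D := by positivity
  have h := tendsto_norm_discriminant_comp (fun z : ℍ => aff A D B z) ((A : ℝ) / D) hr
    (fun z => by rw [aff_im]; simp only [UpperHalfPlane.coe_im]; ring)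
  have hmem : Set.Icc (1 / 2 : ℝ) 2 ∈ 𝓝 (1 : ℝ) := Icc_mem_nhds (by norm_num) (by norm_num)
  have h2 := h hmem
  rw [Filter.mem_map, atImInfty_mem] at h2
  obtain ⟨Y, hY⟩ := h2
  exact ⟨Y, fun z hz => hY z hz⟩

/-- The basic estimate: `‖natF‖ ^ n ≤ 4 exp(2π (A/D - 1) y)` near `i∞`. -/
theorem norm_natF_pow_le {a n : ℕ} (han : a * n = 24) {A D : ℕ} (hA : 0 < A) (hD : 0 < D)
    (B : ℤ) :
    ∃ Y : ℝ, ∀ z : ℍ, Y ≤ z.im →
      ‖natF a A D B z‖ ^ n ≤
        4 * Real.exp (2 * π * ((A : ℝ) / D * z.im)) / Real.exp (2 * π * z.im) ∧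
      ‖Δ z‖ * Real.exp (2 * π * z.im) ≤ 2 := by
  obtain ⟨Y₁, h1⟩ := discriminant_bounds
  obtain ⟨Y₂, h2⟩ := discriminant_aff_bounds hA hD B
  refine ⟨max Y₁ Y₂, fun z hz => ⟨?_, (h1 z ((le_max_left _ _).trans hz)).2⟩⟩
  have hz1 := h1 z ((le_max_left _ _).trans hz)
  have hz2 := h2 z ((le_max_right _ _).trans hz)
  rw [← norm_pow, natF_pow han hA hD, norm_div]
  exact ratio_le (norm_pos_iff.mpr (discriminant_ne_zero _)) (Real.exp_pos _) (Real.exp_pos _)
    hz1.2 hz2.1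

/-! ### Boundedness and meromorphy of the natural roots -/

theorem isBoundedAtImInfty_natF {a n : ℕ} (han : a * n = 24) {A D : ℕ} (hA : 0 < A)
    (hD : 0 < D) (hAD : A ≤ D) (B : ℤ) : IsBoundedAtImInfty (natF a A D B) := by
  have hn : n ≠ 0 := by
    rintro rfl
    simp at han
  obtain ⟨Y, hY⟩ := norm_natF_pow_le han hA hD B
  rw [UpperHalfPlane.isBoundedAtImInfty_iff]
  refine ⟨max 1 4, max Y 0, fun z hz => ?_⟩
  have hz1 := (hY z ((le_max_left _ _).trans hz)).1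
  have hy : 0 ≤ z.im := (le_max_right _ _).trans hz
  refine le_max_of_pow_le (norm_nonneg _) hn (hz1.trans ?_)
  have hDr : (0 : ℝ) < D := by exact_mod_cast hD
  have hle : (A : ℝ) / D * z.im ≤ z.im := by
    have : (A : ℝ) / D ≤ 1 := by
      rw [div_le_one hDr]
      exact_mod_cast hAD
    nlinarith
  have hexp : Real.exp (2 * π * ((A : ℝ) / D * z.im)) ≤ Real.exp (2 * π * z.im) := by
    apply Real.exp_le_exp.mpr
    have := Real.pi_pos
    nlinarith
  rw [div_le_iff₀ (Real.exp_pos _)]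
  nlinarith [Real.exp_pos (2 * π * z.im)]

/-- `Δ * natF` is bounded at `i∞` when `A ≤ (n + 1) D`. -/
theorem isBoundedAtImInfty_discriminant_mul_natF {a n : ℕ} (han : a * n = 24) {A D : ℕ}
    (hA : 0 < A) (hD : 0 < D) (hAD : A ≤ (n + 1) * D) (B : ℤ) :
    IsBoundedAtImInfty (fun z : ℍ => Δ z * natF a A D B z) := by
  have hn : n ≠ 0 := by
    rintro rfl
    simp at han
  obtain ⟨Y, hY⟩ := norm_natF_pow_le han hA hD B
  rw [UpperHalfPlane.isBoundedAtImInfty_iff]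
  refine ⟨max 1 (2 ^ n * 4), max Y 0, fun z hz => ?_⟩
  obtain ⟨hz1, hz2⟩ := hY z ((le_max_left _ _).trans hz)
  have hy : 0 ≤ z.im := (le_max_right _ _).trans hz
  refine le_max_of_pow_le (norm_nonneg _) hn ?_
  rw [norm_mul, mul_pow]
  have hDr : (0 : ℝ) < D := by exact_mod_cast hD
  set x : ℝ := Real.exp (2 * π * z.im) with hx
  have hxpos : 0 < x := Real.exp_pos _
  have hle : (A : ℝ) / D * z.im ≤ (n + 1) * z.im := by
    have : (A : ℝ) / D ≤ n + 1 := by
      rw [div_le_iff₀ hDr]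
      exact_mod_cast hAD
    nlinarith
  have hexp : Real.exp (2 * π * ((A : ℝ) / D * z.im)) ≤ x ^ (n + 1) := by
    rw [hx, ← Real.exp_nat_mul]
    apply Real.exp_le_exp.mpr
    have := Real.pi_pos
    push_cast
    nlinarith
  have hu : ‖Δ z‖ ≤ 2 / x := by
    rw [le_div_iff₀ hxpos]
    exact hz2
  have hun : ‖Δ z‖ ^ n ≤ (2 / x) ^ n := pow_le_pow_left₀ (norm_nonneg _) hu n
  have h3 : ‖natF a A D B z‖ ^ n ≤ 4 * x ^ (n + 1) / x :=
    hz1.trans (by gcongr)
  calc ‖Δ z‖ ^ n * ‖natF a A D B z‖ ^ n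
      ≤ (2 / x) ^ n * (4 * x ^ (n + 1) / x) :=
        mul_le_mul hun h3 (by positivity) (by positivity)
    _ = 2 ^ n * 4 := by
        rw [div_pow, pow_succ]
        field_simp

/-- `Δ / natF` is bounded at `i∞`. -/
theorem isBoundedAtImInfty_discriminant_div_natF {a n : ℕ} (han : a * n = 24) {A D : ℕ}
    (hA : 0 < A) (hD : 0 < D) (B : ℤ) :
    IsBoundedAtImInfty (fun z : ℍ => Δ z * (natF a A D B z)⁻¹) := by
  have hn : n ≠ 0 := by
    rintro rfl
    simp at han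
  obtain ⟨Y₁, h1⟩ := discriminant_bounds
  obtain ⟨Y₂, h2⟩ := discriminant_aff_bounds hA hD B
  rw [UpperHalfPlane.isBoundedAtImInfty_iff]
  refine ⟨max 1 (2 ^ (n - 1) * 2), max (max Y₁ Y₂) 0, fun z hz => ?_⟩
  have hz' : max Y₁ Y₂ ≤ z.im := (le_max_left _ _).trans hz
  have hy : 0 ≤ z.im := (le_max_right _ _).trans hz
  have hz1 := (h1 z ((le_max_left _ _).trans hz')).2
  have hz2 := (h2 z ((le_max_right _ _).trans hz')).2
  refine le_max_of_pow_le (norm_nonneg _) hn ?_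
  have hΔ : ‖Δ z‖ ≠ 0 := norm_ne_zero_iff.mpr (discriminant_ne_zero z)
  have e : ‖Δ z * (natF a A D B z)⁻¹‖ ^ n =
      ‖Δ z‖ ^ (n - 1) * ‖Δ (ofComplex (aff A D B z))‖ := by
    rw [norm_mul, norm_inv, mul_pow, inv_pow, ← norm_pow (natF a A D B z),
      natF_pow han hA hD, norm_div, inv_div]
    obtain ⟨m, rfl⟩ : ∃ m, n = m + 1 := ⟨n - 1, by omega⟩
    rw [Nat.add_sub_cancel, pow_succ]
    field_simp
  rw [e]
  have hpi := Real.pi_pos
  have hx1 : 1 ≤ Real.exp (2 * π * z.im) := by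
    rw [← Real.exp_zero]
    exact Real.exp_le_exp.mpr (by positivity)
  have hx2 : 1 ≤ Real.exp (2 * π * ((A : ℝ) / D * z.im)) := by
    rw [← Real.exp_zero]
    exact Real.exp_le_exp.mpr (by positivity)
  have hu : ‖Δ z‖ ≤ 2 := by
    have := norm_nonneg (Δ z)
    nlinarith
  have hv : ‖Δ (ofComplex (aff A D B z))‖ ≤ 2 := by
    have := norm_nonneg (Δ (ofComplex (aff A D B z)))
    nlinarith
  exact mul_le_mul (pow_le_pow_left₀ (norm_nonneg _) hu _) hv (norm_nonneg _) (by positivity)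

/-! ### The translates of `Θ` -/

section Theta

variable {M a : ℕ} [NeZero M]

theorem mero_Theta_smul (han : a * (M - 1) = 24) (σ : SL(2, ℤ)) :
    Mero 1 (fun z : ℍ => Theta M a (σ • z)) := by
  obtain ⟨A, D, B, κ, hA, hD, hAD, -, -, -, hκ⟩ := Theta_smul_eq han σ
  unfold Mero
  have hle : A ≤ (M - 1 + 1) * D := by
    have hM : 1 ≤ M := NeZero.pos M
    rw [Nat.sub_add_cancel hM, ← hAD]
    nlinarith
  have e : (fun z : ℍ => Δ z ^ 1 * Theta M a (σ • z)) =
      fun z : ℍ => κ * (Δ z * natF a A D B z) := by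
    funext z
    rw [hκ, pow_one]
    ring
  rw [e]
  exact (Filter.const_boundedAtFilter atImInfty κ).mul
    (isBoundedAtImInfty_discriminant_mul_natF han hA hD hle B)

theorem mero_Theta_inv_smul (han : a * (M - 1) = 24) (σ : SL(2, ℤ)) :
    Mero 1 (fun z : ℍ => (Theta M a (σ • z))⁻¹) := by
  obtain ⟨A, D, B, κ, hA, hD, hAD, -, -, -, hκ⟩ := Theta_smul_eq han σ
  unfold Mero
  have e : (fun z : ℍ => Δ z ^ 1 * (Theta M a (σ • z))⁻¹) =
      fun z : ℍ => κ⁻¹ * (Δ z * (natF a A D B z)⁻¹) := by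
    funext z
    rw [hκ, pow_one, mul_inv]
    ring
  rw [e]
  exact (Filter.const_boundedAtFilter atImInfty κ⁻¹).mul
    (isBoundedAtImInfty_discriminant_div_natF han hA hD B)

/-- **Only the identity coset has a pole**: the translates of `Θ` by elements outside `Γ₀(M)`
are bounded at `i∞`. -/
theorem isBoundedAtImInfty_Theta_smul_of_notMem
    (hM : ∀ A D : ℕ, A * D = M → A = 1 ∨ D = 1 ∨ A = D) (han : a * (M - 1) = 24)
    {σ : SL(2, ℤ)} (hσ : σ ∉ Gamma0 M) :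
    IsBoundedAtImInfty (fun z : ℍ => Theta M a (σ • z)) := by
  obtain ⟨A, D, B, κ, hA, hD, hAD, hgcd, -, -, hκ⟩ := Theta_smul_eq han σ
  have hle : A ≤ D := by
    rcases hM A D hAD with h | h | h
    · rw [h]; exact hD
    · exfalso
      apply hσ
      rw [Gamma0_mem, ZMod.intCast_zmod_eq_zero_iff_dvd]
      have hAM : A = M := by rw [← hAD, h, mul_one]
      have : ((Int.gcd M (σ 1 0) : ℕ) : ℤ) ∣ σ 1 0 := Int.gcd_dvd_right _ _
      rwa [← hgcd, hAM] at this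
    · exact h.le
  have e : (fun z : ℍ => Theta M a (σ • z)) = fun z : ℍ => κ * natF a A D B z := funext hκ
  rw [e]
  exact (Filter.const_boundedAtFilter atImInfty κ).mul (isBoundedAtImInfty_natF han hA hD hle B)

theorem good_Theta (han : a * (M - 1) = 24) : Good (Theta M a) :=
  ⟨fun σ => mdiff_smul (mdiff_Theta M a) σ, 1, fun σ => mero_Theta_smul han σ⟩

theorem mdiff_Theta_inv : MDiff (fun z : ℍ => (Theta M a z)⁻¹) := by
  have h := Fermat.Agent.S20.Div.mdiff_div (mdifferentiable_const (c := (1 : ℂ)))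
    (mdiff_Theta M a) (Theta_ne_zero M a)
  have e : (fun z : ℍ => (Theta M a z)⁻¹) = fun z : ℍ => (1 : ℂ) / Theta M a z := by
    funext z
    rw [one_div]
  rw [e]
  exact h

theorem good_Theta_inv (han : a * (M - 1) = 24) : Good (fun z : ℍ => (Theta M a z)⁻¹) :=
  ⟨fun σ => mdiff_smul (mdiff_Theta_inv (M := M) (a := a)) σ, 1,
    fun σ => mero_Theta_inv_smul han σ⟩

/-! ### The two Hauptmoduln -/

theorem mero_Theta4_smul (σ : SL(2, ℤ)) : Mero 1 (fun z : ℍ => Theta4 (σ • z)) :=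
  mero_Theta_smul (by norm_num) σ

theorem mero_Theta9_smul (σ : SL(2, ℤ)) : Mero 1 (fun z : ℍ => Theta9 (σ • z)) :=
  mero_Theta_smul (by norm_num) σ

theorem mero_Theta4_inv_smul (σ : SL(2, ℤ)) : Mero 1 (fun z : ℍ => (Theta4 (σ • z))⁻¹) :=
  mero_Theta_inv_smul (by norm_num) σ

theorem mero_Theta9_inv_smul (σ : SL(2, ℤ)) : Mero 1 (fun z : ℍ => (Theta9 (σ • z))⁻¹) :=
  mero_Theta_inv_smul (by norm_num) σ

theorem isBoundedAtImInfty_Theta4_smul_of_notMem {σ : SL(2, ℤ)} (hσ : σ ∉ Gamma0 4) :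
    IsBoundedAtImInfty (fun z : ℍ => Theta4 (σ • z)) :=
  isBoundedAtImInfty_Theta_smul_of_notMem shape_four (by norm_num) hσ

theorem isBoundedAtImInfty_Theta9_smul_of_notMem {σ : SL(2, ℤ)} (hσ : σ ∉ Gamma0 9) :
    IsBoundedAtImInfty (fun z : ℍ => Theta9 (σ • z)) :=
  isBoundedAtImInfty_Theta_smul_of_notMem shape_nine (by norm_num) hσ

theorem good_Theta4 : Good Theta4 := good_Theta (by norm_num)

theorem good_Theta9 : Good Theta9 := good_Theta (by norm_num)

theorem good_Theta4_inv : Good (fun z : ℍ => (Theta4 z)⁻¹) := good_Theta_inv (by norm_num)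

theorem good_Theta9_inv : Good (fun z : ℍ => (Theta9 z)⁻¹) := good_Theta_inv (by norm_num)

end Theta

end Fermat.Agent.S18.HauptMero
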