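import Mathlib
import Fermat.Agent.S18.HauptA
import Fermat.Agent.S28.UnitEq

/-!
# S18 moonshot, Hauptmodul package, part (Ha), third file: the formal `q`-expansion

The formal Laurent series `ThetaL R M a = q⁻¹ ∏ (1 - qⁿ)^a / (1 - q^(M n))^a` over an arbitrary
commutative ring `R`, its compatibility with coefficient maps, its leading term, and the fact
that over `ℂ` it converges to the function `thetaDisc M a` on the punctured unit disc with
`thetaDisc M a (e^{2πiz}) = Theta M a z` (for `a * (M - 1) = 24`).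
-/

set_option autoImplicit false

namespace Fermat.Agent.S18.HauptSeries

open UpperHalfPlane hiding I
open ModularForm Complex Filter Topology ModularCurve
open Fermat.Agent.S24.JqCriterion Fermat.Agent.S24.DiscSeries Fermat.Agent.S24.JqExpansion
open Fermat.Agent.S28.Basic Fermat.Agent.S28.Formal Fermat.Agent.S28.LReprX
open Fermat.Agent.S28.UnitEq Fermat.Agent.S18.HauptA
open scoped Real

local notation "𝕢" => Function.Periodic.qParam

/-! ### The formal series -/

/-- The formal inverse of the eta product `∏ (1 - qⁿ)`. -/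
noncomputable def etaInvPS : PowerSeries ℤ := etaProd ^ 23 * dedekindEtaUnitInv

theorem etaProd_mul_etaInvPS : etaProd * etaInvPS = 1 := by
  unfold etaInvPS
  rw [← mul_assoc, ← pow_succ']
  exact dedekindEtaUnit_mul_inv

theorem constantCoeff_etaInvPS : PowerSeries.constantCoeff etaInvPS = 1 := by
  have h := congrArg PowerSeries.constantCoeff etaProd_mul_etaInvPS
  rwa [map_mul, constantCoeff_etaProd, one_mul, map_one] at h

section Ring

variable (R : Type*) [CommRing R]

/-- `∏ (1 - qⁿ)` as a Laurent series over `R`. -/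
noncomputable def EtaL : LaurentSeries R :=
  HahnSeries.ofPowerSeries ℤ R (etaProd.map (Int.castRingHom R))

/-- `∏ (1 - qⁿ)⁻¹` as a Laurent series over `R`. -/
noncomputable def EtaInvL : LaurentSeries R :=
  HahnSeries.ofPowerSeries ℤ R (etaInvPS.map (Int.castRingHom R))

theorem EtaL_mul_EtaInvL : EtaL R * EtaInvL R = 1 := by
  unfold EtaL EtaInvL
  rw [← map_mul, ← map_mul, etaProd_mul_etaInvPS, map_one, map_one]

/-- The formal `q`-expansion `q⁻¹ ∏ (1 - qⁿ)^a / (1 - q^(M n))^a` of `Theta M a`. -/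
noncomputable def ThetaL (M a : ℕ) [NeZero M] : LaurentSeries R :=
  HahnSeries.single (-1 : ℤ) 1 * (EtaL R ^ a * qExpand R M (EtaInvL R) ^ a)

/-- The formal `q`-expansion of `1 / Theta M a`. -/
noncomputable def ThetaInvL (M a : ℕ) [NeZero M] : LaurentSeries R :=
  HahnSeries.single (1 : ℤ) 1 * (EtaInvL R ^ a * qExpand R M (EtaL R) ^ a)

theorem ThetaL_mul_ThetaInvL (M a : ℕ) [NeZero M] : ThetaL R M a * ThetaInvL R M a = 1 := by
  unfold ThetaL ThetaInvL
  have h1 : EtaL R ^ a * EtaInvL R ^ a = 1 := by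
    rw [← mul_pow, EtaL_mul_EtaInvL, one_pow]
  have h2 : qExpand R M (EtaInvL R) ^ a * qExpand R M (EtaL R) ^ a = 1 := by
    rw [← mul_pow, ← map_mul, mul_comm, EtaL_mul_EtaInvL, map_one, one_pow]
  have h3 : (HahnSeries.single (-1 : ℤ) (1 : R)) * HahnSeries.single (1 : ℤ) (1 : R) = 1 := by
    rw [HahnSeries.single_mul_single, mul_one]
    rfl
  calc HahnSeries.single (-1 : ℤ) 1 * (EtaL R ^ a * qExpand R M (EtaInvL R) ^ a) *
        (HahnSeries.single (1 : ℤ) 1 * (EtaInvL R ^ a * qExpand R M (EtaL R) ^ a))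
      = (HahnSeries.single (-1 : ℤ) (1 : R) * HahnSeries.single (1 : ℤ) (1 : R)) *
          (EtaL R ^ a * EtaInvL R ^ a) *
          (qExpand R M (EtaInvL R) ^ a * qExpand R M (EtaL R) ^ a) := by ring
    _ = 1 := by rw [h1, h2, h3, one_mul, one_mul]

variable {R}

theorem coeffMap_EtaL {S : Type*} [CommRing S] (φ : R →+* S) : coeffMap φ (EtaL R) = EtaL S :=
  coeffMap_ofPowerSeries_intCast φ _

theorem coeffMap_EtaInvL {S : Type*} [CommRing S] (φ : R →+* S) :
    coeffMap φ (EtaInvL R) = EtaInvL S :=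
  coeffMap_ofPowerSeries_intCast φ _

theorem coeffMap_ThetaL {S : Type*} [CommRing S] (φ : R →+* S) (M a : ℕ) [NeZero M] :
    coeffMap φ (ThetaL R M a) = ThetaL S M a := by
  unfold ThetaL
  rw [map_mul, map_mul, map_pow, map_pow, coeffMap_single, map_one, ModularCurve.coeffMap_qExpand,
    coeffMap_EtaL, coeffMap_EtaInvL]

theorem coeffMap_ThetaInvL {S : Type*} [CommRing S] (φ : R →+* S) (M a : ℕ) [NeZero M] :
    coeffMap φ (ThetaInvL R M a) = ThetaInvL S M a := by
  unfold ThetaInvL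
  rw [map_mul, map_mul, map_pow, map_pow, coeffMap_single, map_one, ModularCurve.coeffMap_qExpand,
    coeffMap_EtaL, coeffMap_EtaInvL]

/-! ### Leading terms -/

theorem isLead_zero_one_pow {F : LaurentSeries R} (h : IsLead 0 1 F) (n : ℕ) :
    IsLead 0 1 (F ^ n) := by
  induction n with
  | zero =>
    rw [pow_zero]
    exact isLead_C (1 : R)
  | succ n ih =>
    have := ih.mul h
    rwa [add_zero, mul_one, ← pow_succ] at this

variable (R)

theorem isLead_EtaL : IsLead 0 1 (EtaL R) := by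
  have h := isLead_ofPowerSeries (etaProd.map (Int.castRingHom R))
  have e : PowerSeries.constantCoeff (etaProd.map (Int.castRingHom R)) = 1 := by
    rw [← PowerSeries.coeff_zero_eq_constantCoeff, PowerSeries.coeff_map,
      PowerSeries.coeff_zero_eq_constantCoeff, constantCoeff_etaProd]
    simp
  rwa [e] at h

theorem isLead_EtaInvL : IsLead 0 1 (EtaInvL R) := by
  have h := isLead_ofPowerSeries (etaInvPS.map (Int.castRingHom R))
  have e : PowerSeries.constantCoeff (etaInvPS.map (Int.castRingHom R)) = 1 := by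
    rw [← PowerSeries.coeff_zero_eq_constantCoeff, PowerSeries.coeff_map,
      PowerSeries.coeff_zero_eq_constantCoeff, constantCoeff_etaInvPS]
    simp
  rwa [e] at h

theorem isLead_qExpand {F : LaurentSeries R} (h : IsLead 0 1 F) (M : ℕ) [NeZero M] :
    IsLead 0 1 (qExpand R M F) := by
  have := h.subst (NeZero.ne M)
  rwa [mul_zero, Fermat.Agent.S28.Basic.sub_apply] at this

/-- `ThetaL = q⁻¹ + …`. -/
theorem isLead_ThetaL (M a : ℕ) [NeZero M] : IsLead (-1) 1 (ThetaL R M a) := by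
  have h := (isLead_single (-1 : ℤ) (1 : R)).mul
    ((isLead_zero_one_pow (isLead_EtaL R) a).mul
      (isLead_zero_one_pow (isLead_qExpand R (isLead_EtaInvL R) M) a))
  rwa [add_zero, add_zero, mul_one, mul_one] at h

/-- `ThetaInvL = q + …`. -/
theorem isLead_ThetaInvL (M a : ℕ) [NeZero M] : IsLead 1 1 (ThetaInvL R M a) := by
  have h := (isLead_single (1 : ℤ) (1 : R)).mul
    ((isLead_zero_one_pow (isLead_EtaInvL R) a).mul
      (isLead_zero_one_pow (isLead_qExpand R (isLead_EtaL R) M) a))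
  rwa [add_zero, add_zero, mul_one, mul_one] at h

end Ring

/-! ### Convergence -/

theorem lrepr_EtaL : LRepr (EtaL ℂ) etaFun := by
  refine ⟨0, toC etaProd, etaFun, ?_, repr_etaProd, fun q _ _ => by simp⟩
  rw [Nat.cast_zero, HahnSeries.single_zero_one, one_mul]
  rfl

theorem lrepr_EtaInvL : LRepr (EtaInvL ℂ) (fun q => (etaFun q)⁻¹) := by
  refine ⟨0, toC etaInvPS, fun q => etaFun q ^ 23 * (etaFun q ^ 24)⁻¹, ?_, ?_,
    fun q _ hq => ?_⟩
  · rw [Nat.cast_zero, HahnSeries.single_zero_one, one_mul]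
    rfl
  · unfold etaInvPS
    rw [map_mul, map_pow]
    exact (repr_etaProd.pow 23).mul repr_dedekindEtaUnitInv
  · have hη : etaFun q ≠ 0 := etaFun_ne_zero hq
    simp only [pow_zero, one_mul]
    field_simp

theorem lrepr_single_neg_one : LRepr (HahnSeries.single (-1 : ℤ) (1 : ℂ)) (fun q => q⁻¹) := by
  refine ⟨1, 1, fun _ => 1, ?_, repr_one, fun q hq0 _ => ?_⟩
  · rw [HahnSeries.single_mul_single, Nat.cast_one, add_neg_cancel, mul_one,
      HahnSeries.single_zero_one, map_one]
  · rw [pow_one, mul_inv_cancel₀ hq0]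

theorem lrepr_single_one : LRepr (HahnSeries.single (1 : ℤ) (1 : ℂ)) (fun q => q) := by
  refine ⟨0, PowerSeries.X, fun q => q, ?_, repr_X, fun q _ _ => by simp⟩
  rw [Nat.cast_zero, HahnSeries.single_zero_one, one_mul, HahnSeries.ofPowerSeries_X]

/-- The function on the punctured disc attached to `Theta M a`. -/
noncomputable def thetaDisc (M a : ℕ) (q : ℂ) : ℂ :=
  q⁻¹ * (etaFun q ^ a * ((etaFun (q ^ M))⁻¹) ^ a)

/-- The function on the punctured disc attached to `1 / Theta M a`. -/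
noncomputable def thetaInvDisc (M a : ℕ) (q : ℂ) : ℂ :=
  q * ((etaFun q)⁻¹ ^ a * (etaFun (q ^ M)) ^ a)

theorem lrepr_ThetaL (M a : ℕ) [NeZero M] : LRepr (ThetaL ℂ M a) (thetaDisc M a) :=
  lrepr_single_neg_one.mul ((LRepr.pow lrepr_EtaL a).mul (LRepr.pow (lrepr_EtaInvL.qExpand M) a))

theorem lrepr_ThetaInvL (M a : ℕ) [NeZero M] : LRepr (ThetaInvL ℂ M a) (thetaInvDisc M a) :=
  lrepr_single_one.mul ((LRepr.pow lrepr_EtaInvL a).mul (LRepr.pow (lrepr_EtaL.qExpand M) a))

/-! ### The values on the upper half plane -/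

theorem eta_eq_etaFun (w : ℂ) : η w = 𝕢 24 w * etaFun (𝕢 1 w) := rfl

theorem qParam_one_mul (M : ℕ) (w : ℂ) : 𝕢 1 ((M : ℂ) * w) = 𝕢 1 w ^ M := by
  simp only [Function.Periodic.qParam]
  rw [← Complex.exp_nat_mul]
  congr 1
  push_cast
  ring

theorem natCast_mul_pred {M a : ℕ} (han : a * (M - 1) = 24) :
    (a : ℂ) * ((M : ℂ) - 1) = 24 := by
  have hM : 1 ≤ M := by
    rcases Nat.eq_zero_or_pos M with h0 | h0
    · rw [h0] at han
      simp at han
    · exact h0
  have : ((a * (M - 1) : ℕ) : ℂ) = 24 := by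
    rw [han]
    norm_num
  rw [← this]
  push_cast [Nat.cast_sub hM]
  ring

theorem qParam_ratio {M a : ℕ} (han : a * (M - 1) = 24) (w : ℂ) :
    (𝕢 24 w / 𝕢 24 ((M : ℂ) * w)) ^ a = (𝕢 1 w)⁻¹ := by
  simp only [Function.Periodic.qParam]
  rw [← Complex.exp_sub, ← Complex.exp_nat_mul, ← Complex.exp_neg]
  congr 1
  have h := natCast_mul_pred han
  push_cast
  linear_combination (-(2 * π * I * w / 24)) * h

/-- **The function on the disc represents `Θ`.** -/
theorem thetaDisc_qParam {M a : ℕ} (han : a * (M - 1) = 24) (z : ℍ) :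
    thetaDisc M a (𝕢 1 (z : ℂ)) = Theta M a z := by
  unfold thetaDisc Theta
  rw [eta_eq_etaFun, eta_eq_etaFun, qParam_one_mul, mul_div_mul_comm, mul_pow, qParam_ratio han,
    div_eq_mul_inv (etaFun _), mul_pow]

theorem thetaInvDisc_qParam {M a : ℕ} (han : a * (M - 1) = 24) (z : ℍ) :
    thetaInvDisc M a (𝕢 1 (z : ℂ)) = (Theta M a z)⁻¹ := by
  rw [← thetaDisc_qParam han]
  unfold thetaDisc thetaInvDisc
  rw [mul_inv, mul_inv, inv_inv, ← inv_pow, ← inv_pow, inv_inv]

/-! ### Coefficients in `KK` -/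

open Fermat.Agent.S24.Eval in
theorem lrepr_ThetaL_KK (M a : ℕ) [NeZero M] :
    LRepr (coeffMap iota (ThetaL KK M a)) (thetaDisc M a) := by
  rw [coeffMap_ThetaL]
  exact lrepr_ThetaL M a

open Fermat.Agent.S24.Eval in
theorem lrepr_ThetaInvL_KK (M a : ℕ) [NeZero M] :
    LRepr (coeffMap iota (ThetaInvL KK M a)) (thetaInvDisc M a) := by
  rw [coeffMap_ThetaInvL]
  exact lrepr_ThetaInvL M a

end Fermat.Agent.S18.HauptSeries
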