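import Mathlib
import Fermat.Agent.S18.HauptMero
import Fermat.Agent.S18.HauptSeries
import Fermat.Agent.S18.HauptB
import Fermat.Agent.S18.HauptBRel

/-!
# S18 moonshot, Hauptmodul package: (Ha) plugged into (Hb)

* the formal Hauptmoduln `ThetaL KK 4 8` and `ThetaL KK 9 3` lie in the function fields of
  `X₀(4)` and `X₀(9)`;
* any candidate relation `A₀(Θ) = j B₀(Θ)` with integer coefficients holds as soon as the
  `q`-coefficients of the difference vanish at the exponents `< ψ(M)`;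
* the defining property of the formal series, for the numerics.
-/

set_option autoImplicit false

namespace Fermat.Agent.S18.HauptGlue

open UpperHalfPlane hiding I
open CongruenceSubgroup ModularForm Filter Topology Polynomial
open Fermat.Agent.S20
open Fermat.Agent.S24.Eval Fermat.Agent.S24.JqCriterion Fermat.Agent.S24.CharPoly
open Fermat.Agent.S28.Basic Fermat.Agent.S28.UnitEq Fermat.Agent.S28.LReprX
open Fermat.Agent.S18.HauptA Fermat.Agent.S18.HauptMero Fermat.Agent.S18.HauptSeries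
open ModularCurve
open scoped MatrixGroups ModularForm Manifold

local notation "𝕢" => Function.Periodic.qParam

/-! ### The pole at `i∞` -/

theorem mero_Theta {M a : ℕ} [NeZero M] (han : a * (M - 1) = 24) : Mero 1 (Theta M a) := by
  have h := mero_Theta_smul han (1 : SL(2, ℤ))
  simpa only [one_smul] using h

theorem mero_Theta4 : Mero 1 Theta4 := mero_Theta (by norm_num)

theorem mero_Theta9 : Mero 1 Theta9 := mero_Theta (by norm_num)

/-! ### The series with integer coefficients -/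

theorem lrepr_ThetaL_int (M a : ℕ) [NeZero M] :
    LRepr (coeffMap (Int.castRingHom ℂ) (ThetaL ℤ M a)) (thetaDisc M a) := by
  rw [coeffMap_ThetaL]
  exact lrepr_ThetaL M a

/-- The defining property of the formal series: `ThetaL * η(q^M)^a = q⁻¹ η(q)^a`. -/
theorem ThetaL_mul_qExpand (R : Type*) [CommRing R] (M a : ℕ) [NeZero M] :
    ThetaL R M a * qExpand R M (EtaL R) ^ a = HahnSeries.single (-1 : ℤ) 1 * EtaL R ^ a := by
  unfold ThetaL
  have h2 : qExpand R M (EtaInvL R) ^ a * qExpand R M (EtaL R) ^ a = 1 := by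
    rw [← mul_pow, ← map_mul, mul_comm, EtaL_mul_EtaInvL, map_one, one_pow]
  rw [mul_assoc, mul_assoc, h2, mul_one]

/-! ### Membership in the function fields -/

/-- **The Hauptmodul of `Γ₀(4)` lies in the function field of `X₀(4)`.** -/
theorem ThetaL_four_mem : ThetaL KK 4 8 ∈ modularFunctionFieldBar 4 :=
  Fermat.Agent.S18.HauptB.mem_FF 4 good_Theta4 (fun _ hγ z => Theta4_smul_of_mem hγ z)
    (lrepr_ThetaL_KK 4 8) (thetaDisc_qParam (by norm_num))

/-- **The Hauptmodul of `Γ₀(9)` lies in the function field of `X₀(9)`.** -/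
theorem ThetaL_nine_mem : ThetaL KK 9 3 ∈ modularFunctionFieldBar 9 :=
  Fermat.Agent.S18.HauptB.mem_FF 9 good_Theta9 (fun _ hγ z => Theta9_smul_of_mem hγ z)
    (lrepr_ThetaL_KK 9 3) (thetaDisc_qParam (by norm_num))

/-! ### Relations from numerics -/

/-- **Level 4**: a candidate relation holds as soon as finitely many `q`-coefficients vanish. -/
theorem rel_four_of_numerics (A₀ B₀ : ℤ[X])
    (hnum : ∀ m : ℤ, m < (Nat.card (Q 4) : ℤ) →
      (evalAt ℤ (ThetaL ℤ 4 8) A₀ - jqModC ℤ * evalAt ℤ (ThetaL ℤ 4 8) B₀).coeff m = 0) :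
    evalAt ℤ (ThetaL ℤ 4 8) A₀ = jqModC ℤ * evalAt ℤ (ThetaL ℤ 4 8) B₀ :=
  Fermat.Agent.S18.HauptBRel.rel_of_numerics 4 (Θ := Theta4)
    (fun γ => mdiff_smul (mdiff_Theta 4 8) γ) (fun _ hγ z => Theta4_smul_of_mem hγ z)
    mero_Theta4 (fun _ hγ => isBoundedAtImInfty_Theta4_smul_of_notMem hγ)
    (isLead_ThetaL ℤ 4 8) (lrepr_ThetaL_int 4 8) (thetaDisc_qParam (by norm_num)) A₀ B₀ hnum

/-- **Level 9**: a candidate relation holds as soon as finitely many `q`-coefficients vanish. -/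
theorem rel_nine_of_numerics (A₀ B₀ : ℤ[X])
    (hnum : ∀ m : ℤ, m < (Nat.card (Q 9) : ℤ) →
      (evalAt ℤ (ThetaL ℤ 9 3) A₀ - jqModC ℤ * evalAt ℤ (ThetaL ℤ 9 3) B₀).coeff m = 0) :
    evalAt ℤ (ThetaL ℤ 9 3) A₀ = jqModC ℤ * evalAt ℤ (ThetaL ℤ 9 3) B₀ :=
  Fermat.Agent.S18.HauptBRel.rel_of_numerics 9 (Θ := Theta9)
    (fun γ => mdiff_smul (mdiff_Theta 9 3) γ) (fun _ hγ z => Theta9_smul_of_mem hγ z)
    mero_Theta9 (fun _ hγ => isBoundedAtImInfty_Theta9_smul_of_notMem hγ)
    (isLead_ThetaL ℤ 9 3) (lrepr_ThetaL_int 9 3) (thetaDisc_qParam (by norm_num)) A₀ B₀ hnum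

end Fermat.Agent.S18.HauptGlue
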