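import Mathlib
import Fermat.Agent.S18.HauptGlue
import Fermat.Agent.S18.HauptBNum
import Fermat.Agent.S20.Cosets

/-!
# S18 moonshot, Hauptmodul package: the relations of the Hauptmoduln of `X₀(4)` and `X₀(9)`

The finite congruences of `HauptBNum` are turned into the vanishing of the first `ψ(M)`
`q`-coefficients of `A(Θ) - j B(Θ)`; the criterion of `HauptGlue` then gives the relations

* `j Θ⁴ (Θ + 16) = (Θ² + 256 Θ + 4096)³` for `Θ = ThetaL R 4 8`,
* `j Θ⁹ (Θ² + 9 Θ + 27) = ((Θ + 9)(Θ³ + 243 Θ² + 2187 Θ + 6561))³` for `Θ = ThetaL R 9 3`,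

as identities of Laurent series over an arbitrary commutative ring `R`.
-/

set_option autoImplicit false

namespace Fermat.Agent.S18.HauptBFin

open PowerSeries ModularCurve Polynomial
open Fermat.Agent.S20
open Fermat.Agent.S28.Basic Fermat.Agent.S28.UnitEq Fermat.Agent.S28.Formal
open Fermat.Agent.S18.HauptSeries Fermat.Agent.S18.HauptBNum Fermat.Agent.S18.HauptBNumLib

/-! ### Bridges between the formal series and the power series of the numerics -/

theorem map_intCast_self (P : PowerSeries ℤ) : P.map (Int.castRingHom ℤ) = P := by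
  ext n
  simp

theorem EtaL_int : EtaL ℤ = HahnSeries.ofPowerSeries ℤ ℤ etaProd := by
  unfold EtaL
  rw [map_intCast_self]

theorem qExpand_ofPowerSeries_int (M : ℕ) [NeZero M] (P : PowerSeries ℤ) :
    qExpand ℤ M (HahnSeries.ofPowerSeries ℤ ℤ P) =
      HahnSeries.ofPowerSeries ℤ ℤ
        (PowerSeries.mk fun k => if M ∣ k then coeff (k / M) P else 0) := by
  have hd : 0 < M := Nat.pos_of_ne_zero (NeZero.ne M)
  have hdZ : (0 : ℤ) < (M : ℤ) := by exact_mod_cast hd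
  ext k
  rcases lt_or_ge k 0 with hk | hk
  · rw [ofPowerSeries_coeff_of_neg _ hk]
    by_cases hdk : (M : ℤ) ∣ k
    · obtain ⟨k', rfl⟩ := hdk
      rw [qExpand_coeff_mul]
      exact ofPowerSeries_coeff_of_neg _ (by nlinarith)
    · exact qExpand_coeff_of_not_dvd M _ hdk
  · obtain ⟨n, rfl⟩ := Int.eq_ofNat_of_zero_le hk
    rw [HahnSeries.ofPowerSeries_apply_coeff, PowerSeries.coeff_mk]
    split_ifs with hdn
    · obtain ⟨n', rfl⟩ := hdn
      rw [Nat.mul_div_cancel_left n' hd, Nat.cast_mul, qExpand_coeff_mul,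
        HahnSeries.ofPowerSeries_apply_coeff]
    · exact qExpand_coeff_of_not_dvd M _ (fun h => hdn (Int.natCast_dvd_natCast.mp h))

theorem qExpand_EtaL_int (M : ℕ) [NeZero M] :
    qExpand ℤ M (EtaL ℤ) = HahnSeries.ofPowerSeries ℤ ℤ (etaSub M) := by
  rw [EtaL_int, qExpand_ofPowerSeries_int]
  rfl

theorem jqModC_int :
    jqModC ℤ = HahnSeries.single (-1 : ℤ) 1 * HahnSeries.ofPowerSeries ℤ ℤ jNum := by
  unfold jqModC
  rw [map_intCast_self]

theorem jNum_mul_etaProd_pow : jNum * etaProd ^ 24 = eisenstein4 ^ 3 := by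
  have h : dedekindEtaUnitInv * etaProd ^ 24 = 1 := by
    rw [mul_comm]
    exact dedekindEtaUnit_mul_inv
  unfold jNum
  rw [mul_assoc, h, mul_one]

theorem single_neg_one_mul_single_one (R : Type*) [CommRing R] :
    (HahnSeries.single (-1 : ℤ) (1 : R)) * HahnSeries.single (1 : ℤ) (1 : R) = 1 := by
  rw [HahnSeries.single_mul_single]
  simp

theorem ofPowerSeries_X_int :
    HahnSeries.ofPowerSeries ℤ ℤ (PowerSeries.X) = HahnSeries.single (1 : ℤ) (1 : ℤ) := by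
  rw [HahnSeries.ofPowerSeries_X]

/-! ### The two polynomial identities -/

theorem alg_four {S : Type*} [CommRing S] (y V U s x jn e J c1 c2 c3 : S)
    (h1 : y * V = s * U) (h2 : s * x = 1) (h3 : J = s * jn) (h4 : jn * U ^ 3 = e ^ 3) :
    ((y ^ 2 + c1 * y + c2) ^ 3 - J * (y ^ 4 * (y + c3))) * (x ^ 6 * V ^ 6) =
      (U ^ 2 + c1 * (x ^ 1 * (U * V)) + c2 * (x ^ 2 * (V * V))) ^ 3
        - e ^ 3 * (U * V) * (U + c3 * (x ^ 1 * V)) := by
  have hU : U = x * y * V := by linear_combination (-x) * h1 + (-U) * h2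
  subst h3
  rw [← h4]
  subst hU
  linear_combination (-(jn * x ^ 5 * y ^ 4 * V ^ 6 * (y + c3))) * h2

theorem alg_nine {S : Type*} [CommRing S] (y V U s x jn e J c1 c2 c3 c4 c5 c6 : S)
    (h1 : y * V = s * U) (h2 : s * x = 1) (h3 : J = s * jn) (h4 : jn * U ^ 8 = e ^ 3) :
    (((y + c1) * (y ^ 3 + c2 * y ^ 2 + c3 * y + c4)) ^ 3
        - J * (y ^ 9 * (y ^ 2 + c5 * y + c6))) * (x ^ 12 * V ^ 12) =
      ((U + c1 * (x ^ 1 * V)) *
          (U ^ 3 + c2 * (x ^ 1 * (U ^ 2 * V)) + c3 * (x ^ 2 * (U * V ^ 2))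
            + c4 * (x ^ 3 * V ^ 3))) ^ 3
        - e ^ 3 * (U * V) * (U ^ 2 + c5 * (x ^ 1 * (U * V)) + c6 * (x ^ 2 * V ^ 2)) := by
  have hU : U = x * y * V := by linear_combination (-x) * h1 + (-U) * h2
  subst h3
  rw [← h4]
  subst hU
  linear_combination (-(jn * x ^ 11 * y ^ 9 * V ^ 12 * (y ^ 2 + c5 * y + c6))) * h2

/-! ### Dividing by a series with leading coefficient `1` -/

theorem coeff_eq_zero_of_mul {R : Type*} [CommRing R] {F P G : LaurentSeries R} {a n : ℤ}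
    (hP : IsLead a 1 P) (h : F * P = G) (hG : ∀ m : ℤ, m < n + a → G.coeff m = 0) :
    ∀ m : ℤ, m < n → F.coeff m = 0 := by
  by_cases hF : F = 0
  · intro m _
    rw [hF, HahnSeries.coeff_zero]
  have h0 : F.coeff F.order ≠ 0 := fun h0 => hF (HahnSeries.coeff_order_eq_zero.mp h0)
  have hlead : IsLead F.order (F.coeff F.order) F :=
    ⟨rfl, fun m hm => HahnSeries.coeff_eq_zero_of_lt_order hm⟩
  have hmul := hlead.mul hP
  rw [mul_one, h] at hmul
  have hn : n ≤ F.order := by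
    by_contra hlt
    have hlt' : F.order < n := not_le.mp hlt
    exact h0 (hmul.1 ▸ hG _ (by linarith))
  intro m hm
  exact HahnSeries.coeff_eq_zero_of_lt_order (lt_of_lt_of_le hm hn)

theorem coeff_ofPowerSeries_eq_zero_of_dvd {P : PowerSeries ℤ} {n : ℕ}
    (h : PowerSeries.X ^ n ∣ P) (m : ℤ) (hm : m < (n : ℤ)) :
    (HahnSeries.ofPowerSeries ℤ ℤ P).coeff m = 0 := by
  rcases lt_or_ge m 0 with hk | hk
  · exact ofPowerSeries_coeff_of_neg _ hk
  · obtain ⟨k, rfl⟩ := Int.eq_ofNat_of_zero_le hk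
    rw [HahnSeries.ofPowerSeries_apply_coeff]
    exact (PowerSeries.X_pow_dvd_iff.mp h) k (by exact_mod_cast hm)

/-! ### The indices -/

theorem card_Q_four : Nat.card (Q 4) = 6 := by
  rw [Fermat.Agent.S20.Cosets.card_Q]
  have h := Fermat.Agent.S20.Cosets.PsiIdentity.dedekindPsi_prime_pow Nat.prime_two 2 (by norm_num)
  norm_num at h
  exact h

theorem card_Q_nine : Nat.card (Q 9) = 12 := by
  rw [Fermat.Agent.S20.Cosets.card_Q]
  have h := Fermat.Agent.S20.Cosets.PsiIdentity.dedekindPsi_prime_pow Nat.prime_three 2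
    (by norm_num)
  norm_num at h
  exact h

/-! ### Level `4` -/

/-- the numerator `(X² + 256 X + 4096)³` of `j` as a function of the Hauptmodul of `X₀(4)` -/
noncomputable def AFour : ℤ[X] :=
  (Polynomial.X ^ 2 + Polynomial.C 256 * Polynomial.X + Polynomial.C 4096) ^ 3

/-- the denominator `X⁴ (X + 16)` of `j` as a function of the Hauptmodul of `X₀(4)` -/
noncomputable def BFour : ℤ[X] := Polynomial.X ^ 4 * (Polynomial.X + Polynomial.C 16)

theorem evalAt_AFour_int (y : LaurentSeries ℤ) :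
    evalAt ℤ y AFour = (y ^ 2 + HahnSeries.C 256 * y + HahnSeries.C 4096) ^ 3 := by
  unfold AFour
  simp only [map_pow, map_add, map_mul, evalAt_X, evalAt_C]

theorem evalAt_BFour_int (y : LaurentSeries ℤ) :
    evalAt ℤ y BFour = y ^ 4 * (y + HahnSeries.C 16) := by
  unfold BFour
  simp only [map_pow, map_add, map_mul, evalAt_X, evalAt_C]

theorem key_four :
    (evalAt ℤ (ThetaL ℤ 4 8) AFour - jqModC ℤ * evalAt ℤ (ThetaL ℤ 4 8) BFour) *
        (HahnSeries.single (1 : ℤ) (1 : ℤ) ^ 6 * (qExpand ℤ 4 (EtaL ℤ) ^ 8) ^ 6) =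
      HahnSeries.ofPowerSeries ℤ ℤ (dFour (etaProd ^ 8) (etaSub 4 ^ 8) eisenstein4) := by
  have h4 : HahnSeries.ofPowerSeries ℤ ℤ jNum * (EtaL ℤ ^ 8) ^ 3 =
      HahnSeries.ofPowerSeries ℤ ℤ eisenstein4 ^ 3 := by
    rw [EtaL_int, ← pow_mul, ← map_pow, ← map_pow, ← map_mul, jNum_mul_etaProd_pow]
  have h := alg_four (ThetaL ℤ 4 8) (qExpand ℤ 4 (EtaL ℤ) ^ 8) (EtaL ℤ ^ 8)
    (HahnSeries.single (-1 : ℤ) 1) (HahnSeries.single (1 : ℤ) 1)
    (HahnSeries.ofPowerSeries ℤ ℤ jNum) (HahnSeries.ofPowerSeries ℤ ℤ eisenstein4) (jqModC ℤ)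
    (HahnSeries.C 256) (HahnSeries.C 4096) (HahnSeries.C 16)
    (Fermat.Agent.S18.HauptGlue.ThetaL_mul_qExpand ℤ 4 8) (single_neg_one_mul_single_one ℤ)
    jqModC_int h4
  rw [evalAt_AFour_int, evalAt_BFour_int, h, qExpand_EtaL_int, EtaL_int]
  unfold dFour
  simp only [map_sub, map_pow, map_add, map_mul, HahnSeries.ofPowerSeries_C,
    HahnSeries.ofPowerSeries_X]

theorem isLead_den (M a e : ℕ) [NeZero M] :
    IsLead (e : ℤ) 1
      (HahnSeries.single (1 : ℤ) (1 : ℤ) ^ e * (qExpand ℤ M (EtaL ℤ) ^ a) ^ e) := by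
  have h1 : HahnSeries.single (1 : ℤ) (1 : ℤ) ^ e = HahnSeries.single (e : ℤ) (1 : ℤ) := by
    rw [HahnSeries.single_pow]
    simp
  rw [h1]
  have h := (isLead_single (e : ℤ) (1 : ℤ)).mul
    (isLead_zero_one_pow (isLead_zero_one_pow (isLead_qExpand ℤ (isLead_EtaL ℤ) M) a) e)
  rwa [add_zero, mul_one] at h

/-- **The numerics at level `4`**: the first `ψ(4) = 6` coefficients vanish. -/
theorem hnum_four (m : ℤ) (hm : m < (Nat.card (Q 4) : ℤ)) :
    (evalAt ℤ (ThetaL ℤ 4 8) AFour - jqModC ℤ * evalAt ℤ (ThetaL ℤ 4 8) BFour).coeff m = 0 := by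
  rw [card_Q_four] at hm
  refine coeff_eq_zero_of_mul (n := 6) (a := 6) (by exact_mod_cast isLead_den 4 8 6) key_four
    (fun k hk => ?_) m (by exact_mod_cast hm)
  exact coeff_ofPowerSeries_eq_zero_of_dvd X_pow_dvd_dFour k (by norm_num at hk ⊢; exact hk)

/-- **The relation of the Hauptmodul of `X₀(4)`**, over `ℤ`. -/
theorem rel_four_int :
    evalAt ℤ (ThetaL ℤ 4 8) AFour = jqModC ℤ * evalAt ℤ (ThetaL ℤ 4 8) BFour :=
  Fermat.Agent.S18.HauptGlue.rel_four_of_numerics AFour BFour hnum_four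

/-- **The relation of the Hauptmodul of `X₀(4)`**, over any commutative ring:
`j Θ⁴ (Θ + 16) = (Θ² + 256 Θ + 4096)³`. -/
theorem rel_four (R : Type*) [CommRing R] :
    jqModC R * ThetaL R 4 8 ^ 4 * (ThetaL R 4 8 + 16) =
      (ThetaL R 4 8 ^ 2 + 256 * ThetaL R 4 8 + 4096) ^ 3 := by
  have h := congrArg (coeffMap (Int.castRingHom R)) rel_four_int
  rw [evalAt_AFour_int, evalAt_BFour_int] at h
  simp only [map_mul, map_pow, map_add, map_ofNat, coeffMap_ThetaL, coeffMap_jqModC] at h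
  rw [h, mul_assoc]

/-! ### Level `9` -/

/-- the numerator of `j` as a function of the Hauptmodul of `X₀(9)` -/
noncomputable def ANine : ℤ[X] :=
  ((Polynomial.X + Polynomial.C 9) *
    (Polynomial.X ^ 3 + Polynomial.C 243 * Polynomial.X ^ 2 + Polynomial.C 2187 * Polynomial.X
      + Polynomial.C 6561)) ^ 3

/-- the denominator of `j` as a function of the Hauptmodul of `X₀(9)` -/
noncomputable def BNine : ℤ[X] :=
  Polynomial.X ^ 9 * (Polynomial.X ^ 2 + Polynomial.C 9 * Polynomial.X + Polynomial.C 27)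

theorem evalAt_ANine_int (y : LaurentSeries ℤ) :
    evalAt ℤ y ANine =
      ((y + HahnSeries.C 9) *
        (y ^ 3 + HahnSeries.C 243 * y ^ 2 + HahnSeries.C 2187 * y + HahnSeries.C 6561)) ^ 3 := by
  unfold ANine
  simp only [map_pow, map_add, map_mul, evalAt_X, evalAt_C]

theorem evalAt_BNine_int (y : LaurentSeries ℤ) :
    evalAt ℤ y BNine = y ^ 9 * (y ^ 2 + HahnSeries.C 9 * y + HahnSeries.C 27) := by
  unfold BNine
  simp only [map_pow, map_add, map_mul, evalAt_X, evalAt_C]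

theorem key_nine :
    (evalAt ℤ (ThetaL ℤ 9 3) ANine - jqModC ℤ * evalAt ℤ (ThetaL ℤ 9 3) BNine) *
        (HahnSeries.single (1 : ℤ) (1 : ℤ) ^ 12 * (qExpand ℤ 9 (EtaL ℤ) ^ 3) ^ 12) =
      HahnSeries.ofPowerSeries ℤ ℤ (dNine (etaProd ^ 3) (etaSub 9 ^ 3) eisenstein4) := by
  have h4 : HahnSeries.ofPowerSeries ℤ ℤ jNum * (EtaL ℤ ^ 3) ^ 8 =
      HahnSeries.ofPowerSeries ℤ ℤ eisenstein4 ^ 3 := by
    rw [EtaL_int, ← pow_mul, ← map_pow, ← map_pow, ← map_mul, jNum_mul_etaProd_pow]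
  have h := alg_nine (ThetaL ℤ 9 3) (qExpand ℤ 9 (EtaL ℤ) ^ 3) (EtaL ℤ ^ 3)
    (HahnSeries.single (-1 : ℤ) 1) (HahnSeries.single (1 : ℤ) 1)
    (HahnSeries.ofPowerSeries ℤ ℤ jNum) (HahnSeries.ofPowerSeries ℤ ℤ eisenstein4) (jqModC ℤ)
    (HahnSeries.C 9) (HahnSeries.C 243) (HahnSeries.C 2187) (HahnSeries.C 6561)
    (HahnSeries.C 9) (HahnSeries.C 27)
    (Fermat.Agent.S18.HauptGlue.ThetaL_mul_qExpand ℤ 9 3) (single_neg_one_mul_single_one ℤ)
    jqModC_int h4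
  rw [evalAt_ANine_int, evalAt_BNine_int, h, qExpand_EtaL_int, EtaL_int]
  unfold dNine
  simp only [map_sub, map_pow, map_add, map_mul, HahnSeries.ofPowerSeries_C,
    HahnSeries.ofPowerSeries_X]

/-- **The numerics at level `9`**: the first `ψ(9) = 12` coefficients vanish. -/
theorem hnum_nine (m : ℤ) (hm : m < (Nat.card (Q 9) : ℤ)) :
    (evalAt ℤ (ThetaL ℤ 9 3) ANine - jqModC ℤ * evalAt ℤ (ThetaL ℤ 9 3) BNine).coeff m = 0 := by
  rw [card_Q_nine] at hm
  refine coeff_eq_zero_of_mul (n := 12) (a := 12) (by exact_mod_cast isLead_den 9 3 12) key_nine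
    (fun k hk => ?_) m (by exact_mod_cast hm)
  exact coeff_ofPowerSeries_eq_zero_of_dvd X_pow_dvd_dNine k (by norm_num at hk ⊢; exact hk)

/-- **The relation of the Hauptmodul of `X₀(9)`**, over `ℤ`. -/
theorem rel_nine_int :
    evalAt ℤ (ThetaL ℤ 9 3) ANine = jqModC ℤ * evalAt ℤ (ThetaL ℤ 9 3) BNine :=
  Fermat.Agent.S18.HauptGlue.rel_nine_of_numerics ANine BNine hnum_nine

/-- **The relation of the Hauptmodul of `X₀(9)`**, over any commutative ring:
`j Θ⁹ (Θ² + 9 Θ + 27) = ((Θ + 9)(Θ³ + 243 Θ² + 2187 Θ + 6561))³`. -/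
theorem rel_nine (R : Type*) [CommRing R] :
    jqModC R * ThetaL R 9 3 ^ 9 * (ThetaL R 9 3 ^ 2 + 9 * ThetaL R 9 3 + 27) =
      ((ThetaL R 9 3 + 9) *
        (ThetaL R 9 3 ^ 3 + 243 * ThetaL R 9 3 ^ 2 + 2187 * ThetaL R 9 3 + 6561)) ^ 3 := by
  have h := congrArg (coeffMap (Int.castRingHom R)) rel_nine_int
  rw [evalAt_ANine_int, evalAt_BNine_int] at h
  simp only [map_mul, map_pow, map_add, map_ofNat, coeffMap_ThetaL, coeffMap_jqModC] at h
  rw [h, mul_assoc]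

/-! ### The identities over `ℤ` in the literal shape of `HauptMu` -/

/-- the hypothesis `hZ` of `HauptMu.hrel_four` / `HauptMu.mu4_localParameter` -/
theorem hZ_four :
    (ThetaL ℤ 4 8 ^ 2 + 256 * ThetaL ℤ 4 8 + 4096) ^ 3 =
      jqModC ℤ * (ThetaL ℤ 4 8 ^ 4 * (ThetaL ℤ 4 8 + 16)) := by
  rw [← rel_four ℤ, mul_assoc]

/-- the hypothesis `hZ` of `HauptMu.hrel_nine` / `HauptMu.mu9_localParameter` -/
theorem hZ_nine :
    ((ThetaL ℤ 9 3 + 9) *
        (ThetaL ℤ 9 3 ^ 3 + 243 * ThetaL ℤ 9 3 ^ 2 + 2187 * ThetaL ℤ 9 3 + 6561)) ^ 3 =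
      jqModC ℤ * (ThetaL ℤ 9 3 ^ 9 * (ThetaL ℤ 9 3 ^ 2 + 9 * ThetaL ℤ 9 3 + 27)) := by
  rw [← rel_nine ℤ, mul_assoc]

/-! ### The relations inside the function fields -/

open Fermat.Agent.S24.Eval

theorem coe_jF_eq_jqModC (N : ℕ) : ((jF N : FF N) : LaurentSeries KK) = jqModC KK := by
  rw [coe_jF, ← jqModC_rat]
  exact coeffMap_jqModC (algebraMap ℚ KK)

/-- **Level 4**, in the literal shape of `HauptParamFF.ord_sub_eq_one_four`: any element of
`FF N` whose `q`-expansion is `ThetaL KK 4 8` satisfies the relation with `j`. -/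
theorem hrel_four (N : ℕ) (μ : FF N) (hμ : (μ : LaurentSeries KK) = ThetaL KK 4 8) :
    jF N * μ ^ 4 * (μ + 16) = (μ ^ 2 + 256 * μ + 4096) ^ 3 := by
  apply (modularFunctionFieldBar N).val.injective
  simp only [map_mul, map_pow, map_add, map_ofNat]
  change ((jF N : FF N) : LaurentSeries KK) * (μ : LaurentSeries KK) ^ 4 *
      ((μ : LaurentSeries KK) + 16) =
    ((μ : LaurentSeries KK) ^ 2 + 256 * (μ : LaurentSeries KK) + 4096) ^ 3
  rw [coe_jF_eq_jqModC, hμ]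
  exact rel_four KK

/-- **Level 9**, in the literal shape of `HauptParamFF.ord_sub_eq_one_nine`. -/
theorem hrel_nine (N : ℕ) (μ : FF N) (hμ : (μ : LaurentSeries KK) = ThetaL KK 9 3) :
    jF N * μ ^ 9 * (μ ^ 2 + 9 * μ + 27) =
      ((μ + 9) * (μ ^ 3 + 243 * μ ^ 2 + 2187 * μ + 6561)) ^ 3 := by
  apply (modularFunctionFieldBar N).val.injective
  simp only [map_mul, map_pow, map_add, map_ofNat]
  change ((jF N : FF N) : LaurentSeries KK) * (μ : LaurentSeries KK) ^ 9 *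
      ((μ : LaurentSeries KK) ^ 2 + 9 * (μ : LaurentSeries KK) + 27) =
    (((μ : LaurentSeries KK) + 9) *
      ((μ : LaurentSeries KK) ^ 3 + 243 * (μ : LaurentSeries KK) ^ 2
        + 2187 * (μ : LaurentSeries KK) + 6561)) ^ 3
  rw [coe_jF_eq_jqModC, hμ]
  exact rel_nine KK

end Fermat.Agent.S18.HauptBFin
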