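import Mathlib
import Fermat.Agent.S18.HauptSeries

/-!
# S18 moonshot, Hauptmodul package: integrality of inverses

* a Laurent series with leading coefficient `1` over any commutative ring is a unit, and its
  inverse again has leading coefficient `1`;
* the series `B₄(Θ) = Θ⁴ (Θ + 16)` and `B₉(Θ) = Θ⁹ (Θ² + 9 Θ + 27)` (the denominators of `j` as
  a rational function of the Hauptmoduln) have inverses with **integer** coefficients, natural in
  the coefficient ring.
-/

set_option autoImplicit false

namespace Fermat.Agent.S18.HauptInt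

open ModularCurve
open Fermat.Agent.S28.UnitEq Fermat.Agent.S18.HauptSeries

section Unit

variable {R : Type*} [CommRing R]

/-- A Laurent series without negative terms comes from a power series. -/
theorem exists_ofPowerSeries {G : LaurentSeries R} (h : ∀ m < 0, G.coeff m = 0) :
    ∃ P : PowerSeries R, HahnSeries.ofPowerSeries ℤ R P = G ∧
      PowerSeries.constantCoeff P = G.coeff 0 := by
  refine ⟨PowerSeries.mk fun i => G.coeff i, ?_, ?_⟩
  · ext k
    rcases lt_or_ge k 0 with hk | hk
    · rw [ofPowerSeries_coeff_of_neg _ hk, h k hk]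
    · obtain ⟨n, rfl⟩ := Int.eq_ofNat_of_zero_le hk
      rw [HahnSeries.ofPowerSeries_apply_coeff, PowerSeries.coeff_mk]
  · rw [← PowerSeries.coeff_zero_eq_constantCoeff, PowerSeries.coeff_mk]
    rfl

/-- **A Laurent series with leading coefficient `1` is a unit.** -/
theorem exists_inverse_of_isLead {n : ℤ} {F : LaurentSeries R} (h : IsLead n 1 F) :
    ∃ G : LaurentSeries R, F * G = 1 ∧ IsLead (-n) 1 G := by
  have h0 : IsLead 0 1 (HahnSeries.single (-n) (1 : R) * F) := by
    have := (isLead_single (-n) (1 : R)).mul h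
    rwa [neg_add_cancel, mul_one] at this
  obtain ⟨P, hP, hc⟩ := exists_ofPowerSeries h0.2
  rw [h0.1] at hc
  have hPu : P * P.invOfUnit 1 = 1 := PowerSeries.mul_invOfUnit _ _ (by rw [hc]; rfl)
  have hc' : PowerSeries.constantCoeff (P.invOfUnit 1) = 1 := by
    have := congrArg PowerSeries.constantCoeff hPu
    rwa [map_mul, hc, one_mul, map_one] at this
  refine ⟨HahnSeries.single (-n) (1 : R) * HahnSeries.ofPowerSeries ℤ R (P.invOfUnit 1), ?_, ?_⟩
  · calc F * (HahnSeries.single (-n) (1 : R) * HahnSeries.ofPowerSeries ℤ R (P.invOfUnit 1))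
        = (HahnSeries.single (-n) (1 : R) * F) *
            HahnSeries.ofPowerSeries ℤ R (P.invOfUnit 1) := by ring
      _ = 1 := by rw [← hP, ← map_mul, hPu, map_one]
  · have := (isLead_single (-n) (1 : R)).mul (isLead_ofPowerSeries (P.invOfUnit 1))
    rwa [hc', add_zero, mul_one] at this

theorem isUnit_of_isLead {n : ℤ} {F : LaurentSeries R} (h : IsLead n 1 F) : IsUnit F := by
  obtain ⟨G, hG, -⟩ := exists_inverse_of_isLead h
  exact IsUnit.of_mul_eq_one G hG

theorem IsLead.add_of_lt {n m : ℤ} {c : R} {F G : LaurentSeries R} (h : IsLead n c F)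
    (hG : ∀ i ≤ n, G.coeff i = 0) (_hm : n < m) : IsLead n c (F + G) := by
  constructor
  · rw [HahnSeries.coeff_add, h.1, hG n le_rfl, add_zero]
  · intro i hi
    rw [HahnSeries.coeff_add, h.2 i hi, hG i hi.le, add_zero]

theorem isLead_pow {n : ℤ} {F : LaurentSeries R} (h : IsLead n 1 F) (k : ℕ) :
    IsLead (k * n) 1 (F ^ k) := by
  induction k with
  | zero =>
    rw [pow_zero, Nat.cast_zero, zero_mul]
    exact isLead_C (1 : R)
  | succ k ih =>
    have := ih.mul h
    rw [mul_one, ← pow_succ] at this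
    convert this using 1
    push_cast
    ring

end Unit

section Denominators

variable (R : Type*) [CommRing R]

/-- `Θ₄ + 16 = q⁻¹ + …`. -/
theorem isLead_ThetaL_add (M a : ℕ) [NeZero M] (c : ℤ) :
    IsLead (-1) 1 (ThetaL R M a + HahnSeries.C (c : R)) := by
  refine IsLead.add_of_lt (isLead_ThetaL R M a) (fun i hi => ?_) (by norm_num : (-1 : ℤ) < 0)
  rw [HahnSeries.C_apply, HahnSeries.coeff_single_of_ne (by omega)]

/-- The denominator `B₄(Θ) = Θ⁴ (Θ + 16)` at level `4`. -/
noncomputable def B4L : LaurentSeries R := ThetaL R 4 8 ^ 4 * (ThetaL R 4 8 + 16)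

/-- The denominator `B₉(Θ) = Θ⁹ (Θ² + 9 Θ + 27)` at level `9`. -/
noncomputable def B9L : LaurentSeries R :=
  ThetaL R 9 3 ^ 9 * (ThetaL R 9 3 ^ 2 + 9 * ThetaL R 9 3 + 27)

variable {R}

theorem coeffMap_B4L {S : Type*} [CommRing S] (φ : R →+* S) : coeffMap φ (B4L R) = B4L S := by
  unfold B4L
  simp only [map_mul, map_pow, map_add, map_ofNat, coeffMap_ThetaL]

theorem coeffMap_B9L {S : Type*} [CommRing S] (φ : R →+* S) : coeffMap φ (B9L R) = B9L S := by
  unfold B9L
  simp only [map_mul, map_pow, map_add, map_ofNat, coeffMap_ThetaL]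

variable (R)

theorem isLead_B4L : IsLead (-5) 1 (B4L R) := by
  unfold B4L
  have h1 := isLead_pow (isLead_ThetaL R 4 8) 4
  have h2 := isLead_ThetaL_add R 4 8 16
  have e : (HahnSeries.C (((16 : ℤ) : R)) : LaurentSeries R) = 16 := by
    rw [map_intCast]
    norm_cast
  rw [e] at h2
  have := h1.mul h2
  rw [mul_one] at this
  convert this using 1
  norm_num

theorem isLead_B9L : IsLead (-11) 1 (B9L R) := by
  unfold B9L
  have h1 := isLead_pow (isLead_ThetaL R 9 3) 9
  have h2 := isLead_pow (isLead_ThetaL R 9 3) 2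
  have e9 : (HahnSeries.C (((9 : ℤ) : R)) : LaurentSeries R) = 9 := by
    rw [map_intCast]
    norm_cast
  have e27 : (HahnSeries.C (((27 : ℤ) : R)) : LaurentSeries R) = 27 := by
    rw [map_intCast]
    norm_cast
  have h3 : IsLead (-1) (9 : R) (9 * ThetaL R 9 3) := by
    have := (isLead_C ((9 : ℤ) : R)).mul (isLead_ThetaL R 9 3)
    rw [e9, zero_add, mul_one] at this
    convert this using 1
    norm_cast
  have h4 : IsLead (-2) 1 (ThetaL R 9 3 ^ 2 + 9 * ThetaL R 9 3 + 27) := by
    rw [add_assoc]
    refine IsLead.add_of_lt (by convert h2 using 1; norm_num) (fun i hi => ?_)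
      (by norm_num : (-2 : ℤ) < 0)
    rw [HahnSeries.coeff_add, h3.2 i (by omega), ← e27, HahnSeries.C_apply,
      HahnSeries.coeff_single_of_ne (by omega), add_zero]
  have := h1.mul h4
  rw [mul_one] at this
  convert this using 1
  norm_num

/-- The inverse of `B₄(Θ)` over `ℤ`. -/
noncomputable def B4InvZ : LaurentSeries ℤ := (exists_inverse_of_isLead (isLead_B4L ℤ)).choose

/-- The inverse of `B₉(Θ)` over `ℤ`. -/
noncomputable def B9InvZ : LaurentSeries ℤ := (exists_inverse_of_isLead (isLead_B9L ℤ)).choose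

/-- The inverse of `B₄(Θ)`, with integer coefficients. -/
noncomputable def B4InvL : LaurentSeries R := coeffMap (Int.castRingHom R) B4InvZ

/-- The inverse of `B₉(Θ)`, with integer coefficients. -/
noncomputable def B9InvL : LaurentSeries R := coeffMap (Int.castRingHom R) B9InvZ

theorem B4L_mul_B4InvL : B4L R * B4InvL R = 1 := by
  have h := (exists_inverse_of_isLead (isLead_B4L ℤ)).choose_spec.1
  have h2 := congrArg (coeffMap (Int.castRingHom R)) h
  rwa [map_mul, coeffMap_B4L, map_one] at h2

theorem B9L_mul_B9InvL : B9L R * B9InvL R = 1 := by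
  have h := (exists_inverse_of_isLead (isLead_B9L ℤ)).choose_spec.1
  have h2 := congrArg (coeffMap (Int.castRingHom R)) h
  rwa [map_mul, coeffMap_B9L, map_one] at h2

variable {R}

theorem coeffMap_B4InvL {S : Type*} [CommRing S] (φ : R →+* S) :
    coeffMap φ (B4InvL R) = B4InvL S := by
  unfold B4InvL
  rw [coeffMap_coeffMap]
  exact coeffMap_congr (RingHom.ext_int _ _) _

theorem coeffMap_B9InvL {S : Type*} [CommRing S] (φ : R →+* S) :
    coeffMap φ (B9InvL R) = B9InvL S := by
  unfold B9InvL
  rw [coeffMap_coeffMap]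
  exact coeffMap_congr (RingHom.ext_int _ _) _

variable (R)

theorem isLead_B4InvZ : IsLead 5 1 B4InvZ := by
  have h := (exists_inverse_of_isLead (isLead_B4L ℤ)).choose_spec.2
  exact h

theorem isLead_B9InvZ : IsLead 11 1 B9InvZ := by
  have h := (exists_inverse_of_isLead (isLead_B9L ℤ)).choose_spec.2
  exact h

theorem isLead_coeffMap_intCast {n : ℤ} {F : LaurentSeries ℤ} (h : IsLead n 1 F) :
    IsLead n 1 (coeffMap (Int.castRingHom R) F) := by
  refine ⟨?_, fun m hm => ?_⟩
  · rw [coeffMap_coeff, h.1, map_one]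
  · rw [coeffMap_coeff, h.2 m hm, map_zero]

theorem isLead_B4InvL : IsLead 5 1 (B4InvL R) := isLead_coeffMap_intCast R isLead_B4InvZ

theorem isLead_B9InvL : IsLead 11 1 (B9InvL R) := isLead_coeffMap_intCast R isLead_B9InvZ

end Denominators

end Fermat.Agent.S18.HauptInt
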