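import Mathlib
import Fermat.Prelude.Def_AlgebraicCurve_CanonicalDivisor
import Fermat.Agent.S24.FFBasic
import Fermat.Agent.S24.FFPlaces

/-!
# S18 (infrastructure): a rational parameter is a local parameter at every finite place

Let `F / K` be a function field, `x, μ : F` with `x * B(μ) = Q(μ) ^ 3` for polynomials
`Q` (monic), `B` over `K` with `deg B < 3 deg Q`, without common root, and such that
`Q ^ 3 - 1728 * B = C ^ 2` is a square.  Assume that `x` is unramified outside `0, 1728, ∞`,
that the ramification indices over `0` are at most `3` and those over `1728` at most `2`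
(this is what the function field of `X₀(N)` satisfies for `x = j`).  Then `μ` is regular at every
place `v` with `ord_v x ≥ 0`, and `μ - μ(v)` is a uniformizer there.

This is the abstract form of: *the Hauptmodul of `Γ₀(4)` (resp. `Γ₀(9)`) is a local parameter
at every non-cuspidal point of `X₀(N)`, `4 ∣ N` (resp. `9 ∣ N`)*.
-/

set_option autoImplicit false

open AlgebraicCurve Polynomial

namespace Fermat.Agent.S18.HauptParam

open Fermat.Agent.S24

variable {K F : Type*} [Field K] [Field F] [Algebra K F]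

section Local

variable (v : Place K F)

/-- polynomial expressions in an element of `O_v` lie in `O_v` -/
theorem ord_aeval_nonneg {μ : F} (hμ : 0 ≤ v.ord μ) (P : K[X]) : 0 ≤ v.ord (aeval μ P) := by
  apply ord_nonneg_of_mem
  exact adjoin_mem_of_ord_nonneg μ v hμ _ (aeval_mem_adjoin_singleton K μ)

theorem ord_nonneg_of_sub {μ : F} {b : K} (h : 0 < v.ord (μ - algebraMap K F b)) :
    0 ≤ v.ord μ := by
  have h1 : μ - algebraMap K F b ≠ 0 := by
    intro h0
    rw [h0, v.ord_zero] at h
    exact lt_irrefl _ h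
  have h2 : μ - algebraMap K F b ∈ v.toValuationSubring := mem_of_ord_nonneg v h1 h.le
  have h3 : μ ∈ v.toValuationSubring := by
    have := add_mem h2 (v.algebraMap_mem' b)
    simpa using this
  exact ord_nonneg_of_mem v h3

/-- division with remainder by `X - b`, evaluated at `μ` -/
theorem aeval_eq_sub_mul_add (μ : F) (b : K) (P : K[X]) :
    aeval μ P = (μ - algebraMap K F b) * aeval μ (P /ₘ (X - C b)) +
      algebraMap K F (P.eval b) := by
  have h := Polynomial.modByMonic_add_div P (X - C b)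
  rw [Polynomial.modByMonic_X_sub_C_eq_C_eval] at h
  have h2 := congrArg (aeval μ) h
  simp only [map_add, map_mul, map_sub, aeval_X, aeval_C] at h2
  rw [← h2]
  ring

/-- a polynomial which does not vanish at the residue of `μ` is a unit at `v` -/
theorem ord_aeval_eq_zero {μ : F} {b : K} (h : 0 < v.ord (μ - algebraMap K F b)) (P : K[X])
    (hP : P.eval b ≠ 0) : aeval μ P ≠ 0 ∧ v.ord (aeval μ P) = 0 := by
  have hμ := ord_nonneg_of_sub v h
  have h1 : μ - algebraMap K F b ≠ 0 := by
    intro h0
    rw [h0, v.ord_zero] at h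
    exact lt_irrefl _ h
  have hc : algebraMap K F (P.eval b) ≠ 0 := fun h0 =>
    hP ((map_eq_zero (algebraMap K F)).mp h0)
  have hcord : v.ord (algebraMap K F (P.eval b)) = 0 := ord_algebraMap v _
  rw [aeval_eq_sub_mul_add μ b P]
  rcases eq_or_ne (aeval μ (P /ₘ (X - C b))) 0 with h0 | h0
  · rw [h0, mul_zero, zero_add]
    exact ⟨hc, hcord⟩
  · have h2 : (μ - algebraMap K F b) * aeval μ (P /ₘ (X - C b)) ≠ 0 := mul_ne_zero h1 h0
    have h3 : 0 < v.ord ((μ - algebraMap K F b) * aeval μ (P /ₘ (X - C b))) := by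
      rw [v.ord_mul h1 h0]
      have := ord_aeval_nonneg v hμ (P /ₘ (X - C b))
      omega
    have h4 := ord_add_eq_of_lt v hc h2 (by rw [hcord]; exact h3)
    rw [add_comm] at h4
    rw [h4, hcord]
    refine ⟨?_, rfl⟩
    intro h5
    rw [h5, v.ord_zero] at h4
    rw [hcord] at h4
    rw [add_comm] at h5
    have h6 := ord_add_eq_of_lt v hc h2 (by rw [hcord]; exact h3)
    rw [h5, v.ord_zero, hcord] at h6
    -- `0 = 0`: derive the contradiction from `c = -(...)`
    have h7 : algebraMap K F (P.eval b) =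
        -((μ - algebraMap K F b) * aeval μ (P /ₘ (X - C b))) := by
      linear_combination h5
    have h8 : v.ord (algebraMap K F (P.eval b)) =
        v.ord ((μ - algebraMap K F b) * aeval μ (P /ₘ (X - C b))) := by
      rw [h7, ord_neg]
    rw [hcord] at h8
    omega

/-- a polynomial with a zero of `P(μ)` at `v` vanishes at the residue of `μ` -/
theorem eval_eq_zero_of_ord_pos {μ : F} {b : K} (h : 0 < v.ord (μ - algebraMap K F b))
    (P : K[X]) (hP : 0 < v.ord (aeval μ P)) : P.eval b = 0 := by
  by_contra hne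
  have := (ord_aeval_eq_zero v h P hne).2
  omega

/-- if `P(μ)` has a simple zero at `v`, then `μ - b` is a uniformizer at `v` -/
theorem ord_sub_eq_one_of_aeval {μ : F} {b : K} (h : 0 < v.ord (μ - algebraMap K F b))
    (P : K[X]) (hP : v.ord (aeval μ P) = 1) : v.ord (μ - algebraMap K F b) = 1 := by
  have hμ := ord_nonneg_of_sub v h
  have hPb : P.eval b = 0 := eval_eq_zero_of_ord_pos v h P (by omega)
  have h1 : μ - algebraMap K F b ≠ 0 := by
    intro h0
    rw [h0, v.ord_zero] at h
    exact lt_irrefl _ h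
  have h2 := aeval_eq_sub_mul_add μ b P
  rw [hPb, map_zero, add_zero] at h2
  have h3 : aeval μ P ≠ 0 := by
    intro h0
    rw [h0, v.ord_zero] at hP
    omega
  have h4 : aeval μ (P /ₘ (X - C b)) ≠ 0 := by
    intro h0
    rw [h0, mul_zero] at h2
    exact h3 h2
  rw [h2, v.ord_mul h1 h4] at hP
  have := ord_aeval_nonneg v hμ (P /ₘ (X - C b))
  omega

end Local

section Integral

/-- `μ` is integral over `K[x]` if `x * B(μ) = Q(μ) ^ 3` with `Q` monic, `deg B < 3 deg Q` -/
theorem isIntegral_of_rel (x μ : F) (Q B : K[X]) (hQ : Q.Monic)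
    (hdeg : B.natDegree < 3 * Q.natDegree)
    (hrel : x * aeval μ B = (aeval μ Q) ^ 3) :
    IsIntegral (Algebra.adjoin K {x}) μ := by
  let xA : Algebra.adjoin K {x} := ⟨x, Algebra.self_mem_adjoin_singleton K x⟩
  have hQ' : (Q.map (algebraMap K (Algebra.adjoin K {x}))).Monic := hQ.map _
  have hQ3 : ((Q.map (algebraMap K (Algebra.adjoin K {x}))) ^ 3).Monic := hQ'.pow 3
  have hnd : ((Q.map (algebraMap K (Algebra.adjoin K {x}))) ^ 3).natDegree = 3 * Q.natDegree := by
    rw [hQ'.natDegree_pow, hQ.natDegree_map]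
  refine ⟨(Q.map (algebraMap K (Algebra.adjoin K {x}))) ^ 3 -
    C xA * B.map (algebraMap K (Algebra.adjoin K {x})), ?_, ?_⟩
  · apply hQ3.sub_of_left
    apply Polynomial.degree_lt_degree
    rw [hnd]
    calc (C xA * B.map (algebraMap K (Algebra.adjoin K {x}))).natDegree
        ≤ (B.map (algebraMap K (Algebra.adjoin K {x}))).natDegree := natDegree_C_mul_le _ _
      _ ≤ B.natDegree := natDegree_map_le
      _ < 3 * Q.natDegree := hdeg
  · rw [eval₂_sub, eval₂_mul, eval₂_pow, eval₂_C, eval₂_map, eval₂_map]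
    have h1 : (algebraMap (Algebra.adjoin K {x}) F).comp (algebraMap K (Algebra.adjoin K {x})) =
        algebraMap K F := by
      ext a
      rfl
    rw [h1]
    have h2 : algebraMap (Algebra.adjoin K {x}) F xA = x := rfl
    rw [h2]
    have h3 : ∀ P : K[X], eval₂ (algebraMap K F) μ P = aeval μ P := fun P => rfl
    rw [h3, h3, hrel, sub_self]

theorem ord_nonneg_of_rel (v : Place K F) (x μ : F) (Q B : K[X]) (hQ : Q.Monic)
    (hdeg : B.natDegree < 3 * Q.natDegree)
    (hrel : x * aeval μ B = (aeval μ Q) ^ 3) (hv : 0 ≤ v.ord x) : 0 ≤ v.ord μ := by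
  apply ord_nonneg_of_mem
  exact integralClosure_mem_of_ord_nonneg x v hv μ (isIntegral_of_rel x μ Q B hQ hdeg hrel)

end Integral

section Main

/-- **A rational parameter is a local parameter at every finite place.** -/
theorem ord_sub_eq_one_of_param (x μ : F) (Q Cp B : K[X]) (hQ : Q.Monic)
    (hdeg : B.natDegree < 3 * Q.natDegree)
    (hcop : ∀ b : K, Q.eval b = 0 → B.eval b ≠ 0)
    (hpoly : Q ^ 3 - C (1728 : K) * B = Cp ^ 2)
    (hrel : x * aeval μ B = (aeval μ Q) ^ 3)
    (hx : Transcendental K x)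
    (H1 : ∀ (v : Place K F) (f : F), 0 ≤ v.ord f →
      ∃ c : K, f = algebraMap K F c ∨ 0 < v.ord (f - algebraMap K F c))
    (hgen : ∀ a : K, a ≠ 0 → a ≠ 1728 → ∀ v ∈ placesOver (k := K) x a,
      v.ord (x - algebraMap K F a) = 1)
    (h0 : ∀ v ∈ placesOver (k := K) x 0, v.ord (x - algebraMap K F 0) ≤ 3)
    (h1728 : ∀ v ∈ placesOver (k := K) x 1728, v.ord (x - algebraMap K F 1728) ≤ 2)
    (v : Place K F) (hv : 0 ≤ v.ord x) :
    0 ≤ v.ord μ ∧ ∃ b : K, v.ord (μ - algebraMap K F b) = 1 := by
  have hμ : 0 ≤ v.ord μ := ord_nonneg_of_rel v x μ Q B hQ hdeg hrel hv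
  refine ⟨hμ, ?_⟩
  have hxc : ∀ c : K, x ≠ algebraMap K F c := fun c h => hx (h ▸ isAlgebraic_algebraMap c)
  -- the residue `a` of `x`
  obtain ⟨a, ha⟩ := H1 v x hv
  replace ha : 0 < v.ord (x - algebraMap K F a) := by
    rcases ha with ha | ha
    · exact absurd ha (hxc a)
    · exact ha
  have hxa : x - algebraMap K F a ≠ 0 := sub_ne_zero.mpr (hxc a)
  -- the residue `b` of `μ`
  obtain ⟨b, hb⟩ := H1 v μ hμ
  have hBne : ∀ c : K, μ = algebraMap K F c → False := by
    intro c hc
    -- `x * B(c) = Q(c)^3` with constants: `x` would be algebraic, or `B(c) = Q(c) = 0`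
    rw [hc, aeval_algebraMap_apply, aeval_algebraMap_apply] at hrel
    have e1 : ∀ P : K[X], aeval c P = P.eval c := fun P => by
      rw [Polynomial.aeval_def, Polynomial.eval₂_eq_eval_map]
      simp
    rw [e1, e1] at hrel
    by_cases hB0 : B.eval c = 0
    · rw [hB0, map_zero, mul_zero] at hrel
      have hQ0 : Q.eval c = 0 := by
        have h1 : (algebraMap K F (Q.eval c)) ^ 3 = 0 := hrel.symm
        have h2 := pow_eq_zero_iff (n := 3) (by norm_num) |>.mp h1
        exact (map_eq_zero (algebraMap K F)).mp h2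
      exact hcop c hQ0 hB0
    · apply hxc ((Q.eval c) ^ 3 / B.eval c)
      have hB0' : algebraMap K F (B.eval c) ≠ 0 := fun h0 =>
        hB0 ((map_eq_zero (algebraMap K F)).mp h0)
      rw [map_div₀, map_pow, eq_div_iff hB0']
      exact hrel
  replace hb : 0 < v.ord (μ - algebraMap K F b) := by
    rcases hb with hb | hb
    · exact absurd hb (fun h => hBne b h)
    · exact hb
  refine ⟨b, ?_⟩
  -- `B(μ)` is a unit at `v`
  have hBb : B.eval b ≠ 0 := by
    intro hB0
    apply hcop b ?_ hB0
    -- `Q(μ)^3 = x B(μ)` has positive order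
    by_contra hQ0
    have h1 := ord_aeval_eq_zero v hb Q hQ0
    have h2 : v.ord ((aeval μ Q) ^ 3) = 0 := by rw [ord_pow, h1.2, mul_zero]
    rw [← hrel] at h2
    have hx0 : x ≠ 0 := fun h => hxc 0 (by rw [h, map_zero])
    rcases eq_or_ne (aeval μ B) 0 with h3 | h3
    · rw [h3, mul_zero] at hrel
      exact h1.1 (pow_eq_zero_iff (n := 3) (by norm_num) |>.mp hrel.symm)
    · rw [v.ord_mul hx0 h3] at h2
      have h4 : 0 < v.ord (aeval μ B) := by
        have h5 := aeval_eq_sub_mul_add μ b B
        rw [hB0, map_zero, add_zero] at h5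
        have h6 : μ - algebraMap K F b ≠ 0 := by
          intro h0
          rw [h0, v.ord_zero] at hb
          exact lt_irrefl _ hb
        have h7 : aeval μ (B /ₘ (X - C b)) ≠ 0 := by
          intro h0
          rw [h0, mul_zero] at h5
          exact h3 h5
        rw [h5, v.ord_mul h6 h7]
        have := ord_aeval_nonneg v hμ (B /ₘ (X - C b))
        omega
      omega
  obtain ⟨hB1, hB2⟩ := ord_aeval_eq_zero v hb B hBb
  -- `(x - a) B(μ) = P_a(μ)`
  have hPa : aeval μ (Q ^ 3 - C a * B) = (x - algebraMap K F a) * aeval μ B := by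
    rw [map_sub, map_pow, map_mul, aeval_C, ← hrel]
    ring
  have hPaord : v.ord (aeval μ (Q ^ 3 - C a * B)) = v.ord (x - algebraMap K F a) := by
    rw [hPa, v.ord_mul hxa hB1, hB2, add_zero]
  by_cases ha0 : a = 0
  · -- over `0`: `3 ord Q(μ) = ord x ≤ 3`
    subst ha0
    have h3 := h0 v ha
    have h4 : aeval μ (Q ^ 3 - C (0 : K) * B) = (aeval μ Q) ^ 3 := by
      rw [map_zero, zero_mul, sub_zero, map_pow]
    rw [h4, ord_pow] at hPaord
    have h5 : v.ord (aeval μ Q) = 1 := by
      have h6 : (3 : ℤ) * v.ord (aeval μ Q) = v.ord (x - algebraMap K F 0) := by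
        rw [← hPaord]
        norm_num
      omega
    exact ord_sub_eq_one_of_aeval v hb Q h5
  by_cases ha1 : a = 1728
  · -- over `1728`: `2 ord C(μ) = ord (x - 1728) ≤ 2`
    subst ha1
    have h3 := h1728 v ha
    rw [hpoly, map_pow, ord_pow] at hPaord
    have h5 : v.ord (aeval μ Cp) = 1 := by
      have h6 : (2 : ℤ) * v.ord (aeval μ Cp) = v.ord (x - algebraMap K F 1728) := by
        rw [← hPaord]
        norm_num
      omega
    exact ord_sub_eq_one_of_aeval v hb Cp h5
  · -- generic point
    have h3 := hgen a ha0 ha1 v ha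
    rw [h3] at hPaord
    exact ord_sub_eq_one_of_aeval v hb _ hPaord

end Main

end Fermat.Agent.S18.HauptParam
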