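import Mathlib
import Fermat.Agent.S24.FiberInputs
import Fermat.Agent.S24.SigmaCusp
import Fermat.Agent.S24.Degree
import Fermat.Agent.S24.FFPrincipal
import Fermat.Agent.S18.HauptParam

/-!
# S18 (infrastructure): the Hauptmodul of `Γ₀(4)` / `Γ₀(9)` is a local parameter at every
non-cuspidal place of the function field of `X₀(N)`

Input: an element `μ` of the function field `FF N` of `X₀(N)` over `ℚ̄` with
`j μ⁴ (μ + 16) = (μ² + 256 μ + 4096)³` (level `4`), resp.
`j μ⁹ (μ² + 9 μ + 27) = ((μ + 9) (μ³ + 243 μ² + 2187 μ + 6561))³` (level `9`).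
Output: `μ` is regular at every place `v` with `ord_v j ≥ 0` and `μ - μ(v)` is a uniformizer.

The ramification of `j` (unramified outside `0, 1728, ∞`, indices dividing `3` over `0` and `2`
over `1728`) is the local data of S24.
-/

set_option autoImplicit false

open AlgebraicCurve Polynomial

namespace Fermat.Agent.S18.HauptParamFF

open Fermat.Agent.S24 Fermat.Agent.S24.Eval Fermat.Agent.S24.Embed Fermat.Agent.S20
open Fermat.Agent.S18.HauptParam
open scoped MatrixGroups

variable (N : ℕ) [NeZero N]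

/-- the inputs of the Riemann–Hurwitz computation of S24, for `FF N` -/
theorem inputsFF :
    Fiber.Inputs (Q N) (jF N) iota (ModularGroup.S * ModularGroup.T) ModularGroup.S
      ModularGroup.T (0 : KK) (1728 : KK) :=
  haveI := Degree.finiteDimensional_jF N
  FiberInputs.inputs N (Degree.transcendental_jF N) (Degree.finiteDimensional_jF N)
    (Degree.finrank_jF N)
    (FFPrincipal.exists_divisor (Eval.jF N) (Degree.transcendental_jF N))
    ⟨SigmaCusp.sigma N, N, (SigmaCusp.zeta N)⁻¹, SigmaCusp.localData N⟩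

/-- the residue field of every place of `FF N` is `KK` -/
theorem H1_FF (v : Place KK (FF N)) (f : FF N) (hf : 0 ≤ v.ord f) :
    ∃ c : KK, f = algebraMap KK (FF N) c ∨ 0 < v.ord (f - algebraMap KK (FF N) c) :=
  (inputsFF N).H1 v f hf

/-- `j` is unramified outside `0, 1728, ∞` -/
theorem ord_eq_one_generic (a : KK) (h0 : a ≠ 0) (h1 : a ≠ 1728) (v : Place KK (FF N))
    (hv : v ∈ placesOver (k := KK) (jF N) a) : v.ord (jF N - algebraMap KK (FF N) a) = 1 :=
  (inputsFF N).ord_eq_one a h0 h1 v hv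

/-- the ramification indices of `j` over `0` divide `3` -/
theorem ord_le_three (v : Place KK (FF N)) (hv : v ∈ placesOver (k := KK) (jF N) 0) :
    v.ord (jF N - algebraMap KK (FF N) 0) ≤ 3 := by
  obtain ⟨σ, ζ, D⟩ := SigmaPoint.exists_localData_zero N
  obtain ⟨a, g, hg, h⟩ := exists_induced_placesOver (inputsFF N).H1 D ((inputsFF N).H2 0) v hv
  have hpos : 0 < v.ord (jF N - algebraMap KK (FF N) 0) := hv
  have hg1 : (1 : ℤ) ≤ g := by exact_mod_cast hg.pos
  have h3 : ((3 : ℕ) : ℤ) = 3 := by norm_num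
  rw [h3] at h
  nlinarith

/-- the ramification indices of `j` over `1728` divide `2` -/
theorem ord_le_two (v : Place KK (FF N)) (hv : v ∈ placesOver (k := KK) (jF N) 1728) :
    v.ord (jF N - algebraMap KK (FF N) 1728) ≤ 2 := by
  obtain ⟨σ, D⟩ := SigmaPoint.exists_localData_1728 N
  obtain ⟨a, g, hg, h⟩ := exists_induced_placesOver (inputsFF N).H1 D ((inputsFF N).H2 1728) v hv
  have hpos : 0 < v.ord (jF N - algebraMap KK (FF N) 1728) := hv
  have hg1 : (1 : ℤ) ≤ g := by exact_mod_cast hg.pos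
  have h3 : ((2 : ℕ) : ℤ) = 2 := by norm_num
  rw [h3] at h
  nlinarith

/-- the general form: a rational parameter of `FF N` is a local parameter at the finite places -/
theorem ord_sub_eq_one_of_rel (μ : FF N) (Q Cp B : KK[X]) (hQ : Q.Monic)
    (hdeg : B.natDegree < 3 * Q.natDegree)
    (hcop : ∀ b : KK, Q.eval b = 0 → B.eval b ≠ 0)
    (hpoly : Q ^ 3 - C (1728 : KK) * B = Cp ^ 2)
    (hrel : jF N * aeval μ B = (aeval μ Q) ^ 3)
    (v : Place KK (FF N)) (hv : 0 ≤ v.ord (jF N)) :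
    0 ≤ v.ord μ ∧ ∃ b : KK, v.ord (μ - algebraMap KK (FF N) b) = 1 :=
  ord_sub_eq_one_of_param (jF N) μ Q Cp B hQ hdeg hcop hpoly hrel (Degree.transcendental_jF N)
    (H1_FF N) (ord_eq_one_generic N) (ord_le_three N) (ord_le_two N) v hv

/-! ### Level 4 -/

/-- `Q₄ = X² + 256 X + 4096` -/
noncomputable def Q4 : KK[X] := X ^ 2 + 256 * X + 4096

/-- `B₄ = X⁴ (X + 16)` -/
noncomputable def B4 : KK[X] := X ^ 4 * (X + 16)

/-- `C₄ = X³ - 480 X² - 24576 X - 262144` -/
noncomputable def C4 : KK[X] := X ^ 3 - 480 * X ^ 2 - 24576 * X - 262144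

theorem Q4_monic : Q4.Monic := by
  unfold Q4
  monicity!

theorem natDegree_Q4 : Q4.natDegree = 2 := by
  unfold Q4
  compute_degree!

theorem natDegree_B4_le : B4.natDegree ≤ 5 := by
  unfold B4
  compute_degree

theorem poly_four : Q4 ^ 3 - C (1728 : KK) * B4 = C4 ^ 2 := by
  have h : (C (1728 : KK) : KK[X]) = 1728 := map_ofNat C 1728
  rw [h]
  unfold Q4 B4 C4
  ring

theorem eval_Q4 (b : KK) : Q4.eval b = b ^ 2 + 256 * b + 4096 := by
  simp [Q4]

theorem eval_B4 (b : KK) : B4.eval b = b ^ 4 * (b + 16) := by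
  simp [B4]

theorem coprime_four (b : KK) (hQ : Q4.eval b = 0) : B4.eval b ≠ 0 := by
  rw [eval_Q4] at hQ
  rw [eval_B4]
  intro hB
  rcases mul_eq_zero.mp hB with h | h
  · have hb : b = 0 := pow_eq_zero_iff (by norm_num) |>.mp h
    rw [hb] at hQ
    norm_num at hQ
  · have hb : b = -16 := by linear_combination h
    rw [hb] at hQ
    norm_num at hQ

theorem aeval_Q4 (μ : FF N) : aeval μ Q4 = μ ^ 2 + 256 * μ + 4096 := by
  simp only [Q4, map_add, map_mul, map_pow, aeval_X, map_ofNat]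

theorem aeval_B4 (μ : FF N) : aeval μ B4 = μ ^ 4 * (μ + 16) := by
  simp only [B4, map_add, map_mul, map_pow, aeval_X, map_ofNat]

/-- **Level 4**: an element `μ` with `j μ⁴ (μ + 16) = (μ² + 256 μ + 4096)³` is a local parameter
at every place of `FF N` at which `j` is regular. -/
theorem ord_sub_eq_one_four (μ : FF N)
    (hrel : jF N * μ ^ 4 * (μ + 16) = (μ ^ 2 + 256 * μ + 4096) ^ 3)
    (v : Place KK (FF N)) (hv : 0 ≤ v.ord (jF N)) :
    0 ≤ v.ord μ ∧ ∃ b : KK, v.ord (μ - algebraMap KK (FF N) b) = 1 := by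
  refine ord_sub_eq_one_of_rel N μ Q4 C4 B4 Q4_monic ?_ coprime_four poly_four ?_ v hv
  · rw [natDegree_Q4]
    have := natDegree_B4_le
    omega
  · rw [aeval_Q4, aeval_B4, ← hrel]
    ring

/-! ### Level 9 -/

/-- `Q₉ = (X + 9) (X³ + 243 X² + 2187 X + 6561)` -/
noncomputable def Q9 : KK[X] := (X + 9) * (X ^ 3 + 243 * X ^ 2 + 2187 * X + 6561)

/-- `B₉ = X⁹ (X² + 9 X + 27)` -/
noncomputable def B9 : KK[X] := X ^ 9 * (X ^ 2 + 9 * X + 27)

/-- `C₉` -/
noncomputable def C9 : KK[X] :=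
  X ^ 6 - 486 * X ^ 5 - 24057 * X ^ 4 - 367416 * X ^ 3 - 2657205 * X ^ 2 - 9565938 * X - 14348907

theorem Q9_monic : Q9.Monic := by
  unfold Q9
  apply Monic.mul
  · monicity!
  · monicity!

theorem natDegree_Q9 : Q9.natDegree = 4 := by
  have h1 : (X + 9 : KK[X]).Monic := by monicity!
  have h2 : (X ^ 3 + 243 * X ^ 2 + 2187 * X + 6561 : KK[X]).Monic := by monicity!
  have h3 : (X + 9 : KK[X]).natDegree = 1 := by compute_degree!
  have h4 : (X ^ 3 + 243 * X ^ 2 + 2187 * X + 6561 : KK[X]).natDegree = 3 := by compute_degree!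
  unfold Q9
  rw [h1.natDegree_mul h2, h3, h4]

theorem natDegree_B9_le : B9.natDegree ≤ 11 := by
  unfold B9
  compute_degree

theorem poly_nine : Q9 ^ 3 - C (1728 : KK) * B9 = C9 ^ 2 := by
  have h : (C (1728 : KK) : KK[X]) = 1728 := map_ofNat C 1728
  rw [h]
  unfold Q9 B9 C9
  ring

theorem eval_Q9 (b : KK) :
    Q9.eval b = (b + 9) * (b ^ 3 + 243 * b ^ 2 + 2187 * b + 6561) := by
  simp [Q9]

theorem eval_B9 (b : KK) : B9.eval b = b ^ 9 * (b ^ 2 + 9 * b + 27) := by
  simp [B9]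

theorem coprime_nine (b : KK) (hQ : Q9.eval b = 0) : B9.eval b ≠ 0 := by
  rw [eval_Q9] at hQ
  rw [eval_B9]
  intro hB
  rcases mul_eq_zero.mp hB with h | h
  · have hb : b = 0 := pow_eq_zero_iff (by norm_num) |>.mp h
    rw [hb] at hQ
    norm_num at hQ
  · rcases mul_eq_zero.mp hQ with h1 | h1
    · have hb : b = -9 := by linear_combination h1
      rw [hb] at h
      norm_num at h
    · -- `54 b + 243 = cubic - (b + 234) (b² + 9 b + 27)`, then `4 (b² + 9b + 27) = (2b+9)² + 27`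
      have h2 : 2 * b + 9 = 0 := by
        have h3 : (27 : KK) * (2 * b + 9) = 0 := by linear_combination h1 - (b + 234) * h
        rcases mul_eq_zero.mp h3 with h4 | h4
        · norm_num at h4
        · exact h4
      have h5 : (27 : KK) = 0 := by linear_combination 4 * h - (2 * b + 9) * h2
      norm_num at h5

theorem aeval_Q9 (μ : FF N) :
    aeval μ Q9 = (μ + 9) * (μ ^ 3 + 243 * μ ^ 2 + 2187 * μ + 6561) := by
  simp only [Q9, map_add, map_mul, map_pow, aeval_X, map_ofNat]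

theorem aeval_B9 (μ : FF N) : aeval μ B9 = μ ^ 9 * (μ ^ 2 + 9 * μ + 27) := by
  simp only [B9, map_add, map_mul, map_pow, aeval_X, map_ofNat]

/-- **Level 9**: an element `μ` with
`j μ⁹ (μ² + 9 μ + 27) = ((μ + 9) (μ³ + 243 μ² + 2187 μ + 6561))³` is a local parameter at every
place of `FF N` at which `j` is regular. -/
theorem ord_sub_eq_one_nine (μ : FF N)
    (hrel : jF N * μ ^ 9 * (μ ^ 2 + 9 * μ + 27) =
      ((μ + 9) * (μ ^ 3 + 243 * μ ^ 2 + 2187 * μ + 6561)) ^ 3)
    (v : Place KK (FF N)) (hv : 0 ≤ v.ord (jF N)) :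
    0 ≤ v.ord μ ∧ ∃ b : KK, v.ord (μ - algebraMap KK (FF N) b) = 1 := by
  refine ord_sub_eq_one_of_rel N μ Q9 C9 B9 Q9_monic ?_ coprime_nine poly_nine ?_ v hv
  · rw [natDegree_Q9]
    have := natDegree_B9_le
    omega
  · rw [aeval_Q9, aeval_B9, ← hrel]
    ring

end Fermat.Agent.S18.HauptParamFF
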