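import Mathlib
import Fermat.Agent.S18.Gauss
import Fermat.Agent.S18.DecDeg

/-!
# S18 infrastructure (A2, A2'): change of fields for the Gauss ring, orthonormal families

Setting of `Gauss.lean`: `A` a valuation ring of `L` with residue field `k`; two pairs of
intermediate fields `F ≤ F' ≤ L((q))`, `Fk ≤ Fk' ≤ k((q))`, with Gauss rings `O`, `O'` and
residue homomorphisms `red`, `red'`.

* `incG : O →+* O'`, `red_incG` : the Gauss rings and the residue maps are compatible.
* `mem_gaussRing_of_inclusion` : `O' ∩ F = O` (under `Dec A F Fk`).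
* `exists_max` : a finite family of `F` has a member of maximal Gauss valuation.
* `mem_of_sum_mem`, `sum_mem` : **orthonormality** - for `U_i ∈ O'` with reductions linearly
  independent over `Fk` and `a_i ∈ F`: `∑ a_i U_i ∈ O'` iff all `a_i ∈ O`.
* `red_sum` : the reduction of such a combination is `∑ red (a_i) * red' (U_i)`.
* `linearIndependent_of_red_rel` : the `U_i` are linearly independent over `F`.
* `dec_adjoin` : the decomposition property for the pair `L(j)`, `k(j̄)`, so that all of the
  above applies to `F = L(j)` (the Gauss lemma A2).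
* `polyJ_mem_gaussRing_iff`, `red_polyJ` : `L[j] ∩ O = A[j]`, with coefficientwise reduction.
-/

set_option autoImplicit false

noncomputable section

namespace Fermat.Agent.S18.Ortho

open ModularCurve HahnSeries Fermat.Agent.S18.Gauss Polynomial

variable {L : Type*} [Field L] {A : ValuationSubring L}
variable {F F' : IntermediateField L (LaurentSeries L)}
  {Fk Fk' : IntermediateField (IsLocalRing.ResidueField A)
    (LaurentSeries (IsLocalRing.ResidueField A))}

/-! ### Change of fields -/

theorem isInt_mono (hF : F ≤ F') (hk : Fk ≤ Fk') {y : LaurentSeries A}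
    (hy : IsInt A F Fk y) : IsInt A F' Fk' y := ⟨hF hy.1, hk hy.2⟩

theorem isIntU_mono (hF : F ≤ F') (hk : Fk ≤ Fk') {y : LaurentSeries A}
    (hy : IsIntU A F Fk y) : IsIntU A F' Fk' y := ⟨isInt_mono hF hk hy.1, hy.2⟩

/-- The Gauss ring of the small field is contained in the Gauss ring of the big field. -/
theorem inclusion_mem_gaussRing (hF : F ≤ F') (hk : Fk ≤ Fk') {f : F}
    (hf : f ∈ gaussRing A F Fk) : IntermediateField.inclusion hF f ∈ gaussRing A F' Fk' := by
  obtain ⟨n, Y, hn, hY, h⟩ := hf
  exact ⟨n, Y, isInt_mono hF hk hn, isIntU_mono hF hk hY, h⟩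

/-- The inclusion of Gauss rings. -/
def incG (hF : F ≤ F') (hk : Fk ≤ Fk') : gaussRing A F Fk →+* gaussRing A F' Fk' where
  toFun f := ⟨IntermediateField.inclusion hF f, inclusion_mem_gaussRing hF hk f.2⟩
  map_one' := rfl
  map_mul' _ _ := rfl
  map_zero' := rfl
  map_add' _ _ := rfl

@[simp]
theorem coe_incG (hF : F ≤ F') (hk : Fk ≤ Fk') (f : gaussRing A F Fk) :
    (((incG hF hk f : gaussRing A F' Fk') : F') : LaurentSeries L) =
      ((f : F) : LaurentSeries L) := rfl

/-- The residue maps are compatible. -/
theorem red_incG (hF : F ≤ F') (hk : Fk ≤ Fk') (f : gaussRing A F Fk) :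
    ((red A F' Fk' (incG hF hk f) : Fk') : LaurentSeries (IsLocalRing.ResidueField A)) =
      ((red A F Fk f : Fk) : LaurentSeries (IsLocalRing.ResidueField A)) := by
  obtain ⟨n, Y, hn, hY, h, -⟩ := exists_pres f
  have h1 := red_mul_rd f hn hY h
  have h2 := red_mul_rd (incG hF hk f) (isInt_mono hF hk hn) (isIntU_mono hF hk hY) h
  exact mul_right_cancel₀ hY.2 (h2.trans h1.symm)

/-- If the reduction of an element of the Gauss ring vanishes, its inverse is not in the Gauss
ring. -/
theorem inv_notMem_of_red_eq_zero {f : gaussRing A F Fk} (hf0 : (f : F) ≠ 0)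
    (hf : red A F Fk f = 0) : ((f : F))⁻¹ ∉ gaussRing A F Fk := fun h =>
  red_ne_zero_of_inv_mem h hf0 hf

/-- **`O' ∩ F = O`**: an element of the small field which lies in the Gauss ring of the big
field lies in the Gauss ring of the small field. -/
theorem mem_gaussRing_of_inclusion (hdec : Dec A F Fk) (hF : F ≤ F') (hk : Fk ≤ Fk') {f : F}
    (h : IntermediateField.inclusion hF f ∈ gaussRing A F' Fk') : f ∈ gaussRing A F Fk := by
  rcases mem_or_inv_mem hdec f with h1 | h1
  · exact h1
  by_contra hcon
  have hf0 : f ≠ 0 := fun h0 => hcon (h0 ▸ zero_mem _)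
  -- `red (f⁻¹) = 0`, otherwise `f ∈ O`
  have hred : red A F Fk ⟨f⁻¹, h1⟩ = 0 := by
    by_contra hne
    have := inv_mem_of_red_ne_zero hne
    rw [inv_inv] at this
    exact hcon this
  have h2 : incG hF hk ⟨f⁻¹, h1⟩ * ⟨IntermediateField.inclusion hF f, h⟩ = 1 := by
    apply Subtype.ext
    show IntermediateField.inclusion hF f⁻¹ * IntermediateField.inclusion hF f = 1
    rw [← map_mul, inv_mul_cancel₀ hf0, map_one]
  have h3 := congrArg (red A F' Fk') h2
  have h4 : red A F' Fk' (incG hF hk ⟨f⁻¹, h1⟩) = 0 := by
    apply Subtype.ext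
    rw [red_incG, hred]
    rfl
  rw [map_mul, h4, zero_mul, map_one] at h3
  exact zero_ne_one h3

/-! ### Normalisation of a finite family -/

/-- In a finite family of elements of `F`, not all zero, some nonzero member divides all the
others in the Gauss ring. -/
theorem exists_max (hdec : Dec A F Fk) {ι : Type*} (s : Finset ι) (a : ι → F)
    (h : ∃ i ∈ s, a i ≠ 0) :
    ∃ i₀ ∈ s, a i₀ ≠ 0 ∧ ∀ i ∈ s, a i / a i₀ ∈ gaussRing A F Fk := by
  classical
  induction s using Finset.induction_on with
  | empty =>
    obtain ⟨i, hi, -⟩ := h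
    exact absurd hi (Finset.notMem_empty i)
  | insert j s hj ih =>
    by_cases hs : ∃ i ∈ s, a i ≠ 0
    · obtain ⟨i₀, hi₀, h0, hall⟩ := ih hs
      by_cases h1 : a j / a i₀ ∈ gaussRing A F Fk
      · refine ⟨i₀, Finset.mem_insert_of_mem hi₀, h0, fun i hi => ?_⟩
        rcases Finset.mem_insert.mp hi with rfl | hi
        · exact h1
        · exact hall i hi
      · have h2 : (a j / a i₀)⁻¹ ∈ gaussRing A F Fk :=
          (mem_or_inv_mem hdec (a j / a i₀)).resolve_left h1
        have hj0 : a j ≠ 0 := by
          intro h0'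
          apply h1
          rw [h0', zero_div]
          exact zero_mem _
        refine ⟨j, Finset.mem_insert_self j s, hj0, fun i hi => ?_⟩
        rcases Finset.mem_insert.mp hi with rfl | hi
        · rw [div_self hj0]; exact one_mem _
        · have e : a i / a j = (a i / a i₀) * (a j / a i₀)⁻¹ := by
            field_simp
          rw [e]
          exact mul_mem (hall i hi) h2
    · push Not at hs
      obtain ⟨i, hi, hi0⟩ := h
      have hij : i = j := by
        rcases Finset.mem_insert.mp hi with rfl | hi'
        · rfl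
        · exact absurd (hs i hi') hi0
      subst hij
      refine ⟨i, Finset.mem_insert_self i s, hi0, fun i' hi' => ?_⟩
      rcases Finset.mem_insert.mp hi' with rfl | hi''
      · rw [div_self hi0]; exact one_mem _
      · rw [hs i' hi'', zero_div]; exact zero_mem _


/-! ### The orthonormal basis lemma -/

section Ortho

variable {ι : Type*} [Fintype ι]

/-- The reduction of a combination with coefficients in the small Gauss ring. -/
theorem red_sum (hF : F ≤ F') (hk : Fk ≤ Fk') (b : ι → gaussRing A F Fk)
    (U : ι → gaussRing A F' Fk') :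
    ((red A F' Fk' (∑ i, incG hF hk (b i) * U i) : Fk') :
        LaurentSeries (IsLocalRing.ResidueField A)) =
      ∑ i, ((red A F Fk (b i) : Fk) : LaurentSeries (IsLocalRing.ResidueField A)) *
        ((red A F' Fk' (U i) : Fk') : LaurentSeries (IsLocalRing.ResidueField A)) := by
  rw [map_sum]
  have h : ((∑ i, red A F' Fk' (incG hF hk (b i) * U i) : Fk') :
      LaurentSeries (IsLocalRing.ResidueField A)) =
      ∑ i, ((red A F' Fk' (incG hF hk (b i) * U i) : Fk') :
        LaurentSeries (IsLocalRing.ResidueField A)) := map_sum Fk'.val _ _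
  rw [h]
  refine Finset.sum_congr rfl fun i _ => ?_
  rw [map_mul]
  push_cast
  rw [red_incG]

/-- A combination with coefficients in the small Gauss ring, one of which is a unit, of elements
with independent reductions has nonzero reduction. -/
theorem red_sum_ne_zero (hF : F ≤ F') (hk : Fk ≤ Fk') (U : ι → gaussRing A F' Fk')
    (hU : LinearIndependent Fk (fun i =>
      ((red A F' Fk' (U i) : Fk') : LaurentSeries (IsLocalRing.ResidueField A))))
    (b : ι → gaussRing A F Fk) (i₀ : ι) (hb : red A F Fk (b i₀) ≠ 0) :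
    red A F' Fk' (∑ i, incG hF hk (b i) * U i) ≠ 0 := by
  intro h
  have h1 := red_sum hF hk b U
  rw [h] at h1
  have h2 : ∑ i, (red A F Fk (b i)) •
      ((red A F' Fk' (U i) : Fk') : LaurentSeries (IsLocalRing.ResidueField A)) = 0 := by
    have : ((0 : Fk') : LaurentSeries (IsLocalRing.ResidueField A)) = 0 := rfl
    rw [this] at h1
    rw [h1]
    rfl
  exact hb ((Fintype.linearIndependent_iff.mp hU) _ h2 i₀)

/-- **Orthonormality (A2')**: if the reductions of `U_i ∈ O'` are linearly independent over the
small residue field and `∑ a_i U_i ∈ O'` with `a_i ∈ F`, then all `a_i ∈ O`. -/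
theorem mem_of_sum_mem (hdec : Dec A F Fk) (hF : F ≤ F') (hk : Fk ≤ Fk')
    (U : ι → gaussRing A F' Fk')
    (hU : LinearIndependent Fk (fun i =>
      ((red A F' Fk' (U i) : Fk') : LaurentSeries (IsLocalRing.ResidueField A))))
    (a : ι → F)
    (h : ∑ i, IntermediateField.inclusion hF (a i) * (U i : F') ∈ gaussRing A F' Fk') :
    ∀ i, a i ∈ gaussRing A F Fk := by
  classical
  by_cases hall : ∀ i, a i = 0
  · intro i
    rw [hall i]
    exact zero_mem _
  push Not at hall
  obtain ⟨i₁, hi₁⟩ := hall
  obtain ⟨i₀, -, h0, hdiv⟩ := exists_max hdec Finset.univ a ⟨i₁, Finset.mem_univ _, hi₁⟩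
  by_cases hmem : a i₀ ∈ gaussRing A F Fk
  · intro i
    have e : a i = (a i / a i₀) * a i₀ := by field_simp
    rw [e]
    exact mul_mem (hdiv i (Finset.mem_univ i)) hmem
  exfalso
  have hinv : (a i₀)⁻¹ ∈ gaussRing A F Fk := (mem_or_inv_mem hdec (a i₀)).resolve_left hmem
  have hred : red A F Fk ⟨(a i₀)⁻¹, hinv⟩ = 0 := by
    by_contra hne
    have := inv_mem_of_red_ne_zero hne
    rw [inv_inv] at this
    exact hmem this
  set b : ι → gaussRing A F Fk := fun i => ⟨a i / a i₀, hdiv i (Finset.mem_univ i)⟩ with hb
  have hb0 : red A F Fk (b i₀) ≠ 0 := by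
    have : b i₀ = 1 := Subtype.ext (div_self h0)
    rw [this, map_one]
    exact one_ne_zero
  have hne := red_sum_ne_zero hF hk U hU b i₀ hb0
  apply hne
  have e : ∑ i, incG hF hk (b i) * U i =
      incG hF hk ⟨(a i₀)⁻¹, hinv⟩ *
        ⟨∑ i, IntermediateField.inclusion hF (a i) * (U i : F'), h⟩ := by
    apply Subtype.ext
    have h1 : ((∑ i, incG hF hk (b i) * U i : gaussRing A F' Fk') : F') =
        ∑ i, ((incG hF hk (b i) * U i : gaussRing A F' Fk') : F') :=
      map_sum (gaussRing A F' Fk').subtype _ _
    rw [h1]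
    show _ = IntermediateField.inclusion hF (a i₀)⁻¹ *
      ∑ i, IntermediateField.inclusion hF (a i) * (U i : F')
    rw [Finset.mul_sum]
    refine Finset.sum_congr rfl fun i _ => ?_
    show IntermediateField.inclusion hF (a i / a i₀) * (U i : F') = _
    rw [← mul_assoc, ← map_mul, div_eq_inv_mul]
  rw [e, map_mul]
  have h4 : red A F' Fk' (incG hF hk ⟨(a i₀)⁻¹, hinv⟩) = 0 := by
    apply Subtype.ext
    rw [red_incG, hred]
    rfl
  rw [h4, zero_mul]

/-- Conversely a combination with coefficients in `O` of elements of `O'` lies in `O'`. -/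
theorem sum_mem (hF : F ≤ F') (hk : Fk ≤ Fk') (U : ι → gaussRing A F' Fk') (a : ι → F)
    (ha : ∀ i, a i ∈ gaussRing A F Fk) :
    ∑ i, IntermediateField.inclusion hF (a i) * (U i : F') ∈ gaussRing A F' Fk' :=
  Subring.sum_mem _ fun i _ =>
    mul_mem (inclusion_mem_gaussRing hF hk (ha i)) (U i).2

/-- Elements of `O'` with reductions linearly independent over the small residue field are
linearly independent over the small field. -/
theorem linearIndependent_of_red_rel (hdec : Dec A F Fk) (hF : F ≤ F') (hk : Fk ≤ Fk')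
    (U : ι → gaussRing A F' Fk')
    (hU : LinearIndependent Fk (fun i =>
      ((red A F' Fk' (U i) : Fk') : LaurentSeries (IsLocalRing.ResidueField A)))) :
    LinearIndependent F (fun i => (((U i : gaussRing A F' Fk') : F') : LaurentSeries L)) := by
  classical
  rw [Fintype.linearIndependent_iff]
  intro g hg
  by_contra hall
  push Not at hall
  obtain ⟨i₁, hi₁⟩ := hall
  obtain ⟨i₀, -, h0, hdiv⟩ := exists_max hdec Finset.univ g ⟨i₁, Finset.mem_univ _, hi₁⟩
  set b : ι → gaussRing A F Fk := fun i => ⟨g i / g i₀, hdiv i (Finset.mem_univ i)⟩ with hb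
  have hb0 : red A F Fk (b i₀) ≠ 0 := by
    have : b i₀ = 1 := Subtype.ext (div_self h0)
    rw [this, map_one]
    exact one_ne_zero
  have hne := red_sum_ne_zero hF hk U hU b i₀ hb0
  apply hne
  have e : ∑ i, incG hF hk (b i) * U i = 0 := by
    apply Subtype.ext
    apply Subtype.ext
    have h1 : (((∑ i, incG hF hk (b i) * U i : gaussRing A F' Fk') : F') : LaurentSeries L) =
        ∑ i, (((incG hF hk (b i) * U i : gaussRing A F' Fk') : F') : LaurentSeries L) :=
      map_sum (F'.val.toRingHom.comp (gaussRing A F' Fk').subtype) _ _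
    rw [h1]
    have h2 : ∀ i, (((incG hF hk (b i) * U i : gaussRing A F' Fk') : F') : LaurentSeries L) =
        (((g i₀)⁻¹ : F) : LaurentSeries L) *
          (g i • (((U i : gaussRing A F' Fk') : F') : LaurentSeries L)) := by
      intro i
      show ((g i / g i₀ : F) : LaurentSeries L) * _ = _
      have : (g i • (((U i : gaussRing A F' Fk') : F') : LaurentSeries L)) =
          ((g i : F) : LaurentSeries L) * (((U i : gaussRing A F' Fk') : F') : LaurentSeries L) :=
        rfl
      rw [this, ← mul_assoc, div_eq_inv_mul]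
      push_cast
      rfl
    rw [Finset.sum_congr rfl fun i _ => h2 i, ← Finset.mul_sum, hg, mul_zero]
    rfl
  rw [e, map_zero]

end Ortho

/-! ### The Gauss ring of `L(j)` (A2) -/

section Adjoin

variable {J : LaurentSeries A}

/-- The decomposition property for the pair `L(j)`, `k(j̄)`. -/
theorem dec_adjoin (hJt : Transcendental (IsLocalRing.ResidueField A) (rd A J)) :
    Dec A (IntermediateField.adjoin L {inc A J})
      (IntermediateField.adjoin (IsLocalRing.ResidueField A) {rd A J}) := by
  refine DecDeg.dec_of_poly (J := J)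
    ⟨IntermediateField.mem_adjoin_simple_self _ _, IntermediateField.mem_adjoin_simple_self _ _⟩
    hJt (Y := fun _ : Unit => (1 : LaurentSeries A)) (fun _ => IsInt.one)
    (DecDeg.polyIndep_one hJt) ?_
  intro f
  obtain ⟨r, s, hrs⟩ := (IntermediateField.mem_adjoin_simple_iff L (f : LaurentSeries L)).mp f.2
  by_cases hs : Polynomial.aeval (inc A J) s = 0
  · refine ⟨1, one_ne_zero, fun _ => 0, ?_⟩
    rw [hrs, hs, div_zero, zero_mul, Fintype.sum_unique, map_zero, zero_mul]
  · have hs0 : s ≠ 0 := by
      rintro rfl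
      exact hs (map_zero _)
    refine ⟨s, hs0, fun _ => r, ?_⟩
    rw [hrs, div_mul_cancel₀ _ hs, Fintype.sum_unique, map_one, mul_one]

/-- The value at `j` of a polynomial over `L`, as an element of `L(j)`. -/
def polyJ (J : LaurentSeries A) (P : Polynomial L) : IntermediateField.adjoin L {inc A J} :=
  ⟨Polynomial.aeval (inc A J) P,
    DecDeg.aeval_mem_intermediateField _ (IntermediateField.mem_adjoin_simple_self _ _) _⟩

/-- **`L[j] ∩ O = A[j]`**: a polynomial in `j` lies in the Gauss ring iff its coefficients lie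
in `A`. -/
theorem polyJ_mem_gaussRing_iff (hJt : Transcendental (IsLocalRing.ResidueField A) (rd A J))
    (P : Polynomial L) :
    polyJ J P ∈ gaussRing A (IntermediateField.adjoin L {inc A J})
      (IntermediateField.adjoin (IsLocalRing.ResidueField A) {rd A J}) ↔
      ∀ n, P.coeff n ∈ A := by
  have hJ : IsInt A (IntermediateField.adjoin L {inc A J})
      (IntermediateField.adjoin (IsLocalRing.ResidueField A) {rd A J}) J :=
    ⟨IntermediateField.mem_adjoin_simple_self _ _, IntermediateField.mem_adjoin_simple_self _ _⟩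
  constructor
  · intro h
    by_cases hP : P = 0
    · intro n
      rw [hP, Polynomial.coeff_zero]
      exact A.zero_mem
    obtain ⟨c, P', hc, hPP', hprim⟩ :=
      DecDeg.exists_primitive (A := A) (fun _ : Unit => P) ⟨(), hP⟩
    have hu := DecDeg.isInt_evA hJ (P' ())
    have hu0 : red A _ _ ⟨⟨inc A (DecDeg.evA A J (P' ())), hu.1⟩, inc_mem_gaussRing hu⟩ ≠ 0 := by
      rw [red_inc hu]
      intro h0
      have h1 : rd A (DecDeg.evA A J (P' ())) = 0 := congrArg Subtype.val h0
      rw [DecDeg.rd_evA] at h1
      obtain ⟨u, hu'⟩ := hprim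
      cases u
      exact hu' ((transcendental_iff.mp hJt) _ h1)
    have hsm : c • ((⟨⟨inc A (DecDeg.evA A J (P' ())), hu.1⟩, inc_mem_gaussRing hu⟩ :
        gaussRing A (IntermediateField.adjoin L {inc A J})
          (IntermediateField.adjoin (IsLocalRing.ResidueField A) {rd A J})) :
        IntermediateField.adjoin L {inc A J}) = polyJ J P := by
      apply Subtype.ext
      rw [Algebra.smul_def]
      show algebraMap L (LaurentSeries L) c * inc A (DecDeg.evA A J (P' ())) =
        Polynomial.aeval (inc A J) P
      rw [DecDeg.inc_evA, hPP' (), map_mul, Polynomial.aeval_C]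
    have hcA : c ∈ A := const_mem_of_smul_mem hu0 (hsm ▸ h)
    intro n
    rw [hPP' (), Polynomial.coeff_C_mul, Polynomial.coeff_map]
    exact mul_mem hcA ((P' ()).coeff n).2
  · intro h
    have hl : P ∈ Polynomial.lifts A.subtype := by
      rw [Polynomial.lifts_iff_coeff_lifts]
      intro n
      exact ⟨⟨_, h n⟩, rfl⟩
    obtain ⟨P', hP'⟩ := (Polynomial.mem_lifts _).mp hl
    have hu := DecDeg.isInt_evA hJ P'
    have e : polyJ J P = ⟨inc A (DecDeg.evA A J P'), hu.1⟩ := by
      apply Subtype.ext
      show Polynomial.aeval (inc A J) P = inc A (DecDeg.evA A J P')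
      rw [DecDeg.inc_evA, hP']
    rw [e]
    exact inc_mem_gaussRing hu

/-- The reduction of a polynomial in `j` with coefficients in `A`. -/
theorem red_polyJ (P' : Polynomial A) (h : polyJ J (P'.map A.subtype) ∈
      gaussRing A (IntermediateField.adjoin L {inc A J})
        (IntermediateField.adjoin (IsLocalRing.ResidueField A) {rd A J})) :
    ((red A _ _ ⟨polyJ J (P'.map A.subtype), h⟩ :
        IntermediateField.adjoin (IsLocalRing.ResidueField A) {rd A J}) :
        LaurentSeries (IsLocalRing.ResidueField A)) =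
      Polynomial.aeval (rd A J) (P'.map (IsLocalRing.residue A)) := by
  have hJ : IsInt A (IntermediateField.adjoin L {inc A J})
      (IntermediateField.adjoin (IsLocalRing.ResidueField A) {rd A J}) J :=
    ⟨IntermediateField.mem_adjoin_simple_self _ _, IntermediateField.mem_adjoin_simple_self _ _⟩
  have hu := DecDeg.isInt_evA hJ P'
  have e : (⟨polyJ J (P'.map A.subtype), h⟩ : gaussRing A _ _) =
      ⟨⟨inc A (DecDeg.evA A J P'), hu.1⟩, inc_mem_gaussRing hu⟩ := by
    apply Subtype.ext
    apply Subtype.ext
    show Polynomial.aeval (inc A J) (P'.map A.subtype) = inc A (DecDeg.evA A J P')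
    rw [DecDeg.inc_evA]
  rw [e, red_inc hu]
  show rd A (DecDeg.evA A J P') = _
  rw [DecDeg.rd_evA]

end Adjoin

end Fermat.Agent.S18.Ortho
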