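import Mathlib
import Fermat.Agent.S18.Ortho
import Fermat.Agent.S18.DecMod

/-!
# S18 infrastructure (A2'): relative orthonormal basis for the levels `N ∣ N'`

`A` a valuation ring of `ℚ̄` over `ℓ`, `N ∣ N'`, `ℓ ∤ N'`; `F = modularFunctionFieldBar N`,
`F' = modularFunctionFieldBar N'`, `F̄ = FkN A N`, `F̄' = FkN A N'`.

* `ff_le`, `fk_le` : `F ≤ F'`, `F̄ ≤ F̄'`.
* `relfinrank_ff`, `relfinrank_fk` : `[F : ℚ̄(j)] = ψ(N) = [F̄ : k(j̄)]` as relative degrees of
  intermediate fields of the ambient fields of Laurent series.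
* `psi_mul_relfinrank_ff`, `psi_mul_relfinrank_fk`, `relfinrank_eq` :
  `[F' : F] = ψ(N') / ψ(N) = [F̄' : F̄]`.
* `exists_orthonormal` : there are `U_i ∈ OO A N'`, `i < d = [F' : F]`, whose reductions are a
  basis of `F̄'` over `F̄` and which are a basis of `F'` over `F` (in ambient form: linear
  independence and spanning inside the fields of Laurent series).
-/

set_option autoImplicit false

noncomputable section

namespace Fermat.Agent.S18.OrthoMod

open ModularCurve AlgebraicCurve HahnSeries IntermediateField
open Fermat.Agent.S18.Gauss Fermat.Agent.S18.Lattice Fermat.Agent.S24 Fermat.Agent.S24.Eval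

/-! ### Inclusions of the fields -/

theorem gens_mono {N N' : ℕ} (h : N ∣ N') : gens N ⊆ gens N' := by
  rintro x ⟨d, hd, hdN, rfl⟩
  exact ⟨d, hd, hdN.trans h, rfl⟩

theorem ff_le {N N' : ℕ} (h : N ∣ N') :
    modularFunctionFieldBar N ≤ modularFunctionFieldBar N' := by
  rw [modularFunctionFieldBar_eq_adjoin, modularFunctionFieldBar_eq_adjoin]
  exact IntermediateField.adjoin.mono _ _ _ (gens_mono h)

theorem fk_le (k : Type*) [Field k] {N N' : ℕ} (h : N ∣ N') :
    modularFunctionFieldFullC k N ≤ modularFunctionFieldFullC k N' := by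
  unfold modularFunctionFieldFullC
  refine IntermediateField.adjoin.mono _ _ _ ?_
  rintro x ⟨d, hd, hdN, rfl⟩
  exact ⟨d, hd, hdN.trans h, rfl⟩

/-! ### Relative degrees -/

section Degree

variable (N : ℕ) [NeZero N]

omit [NeZero N] in
/-- `ℚ̄(j) ≤ F`. -/
theorem adjoin_j_le : IntermediateField.adjoin KK {jgenL 1} ≤ modularFunctionFieldBar N := by
  rw [IntermediateField.adjoin_simple_le_iff]
  exact jgenL_mem (one_dvd N)

/-- `[F : ℚ̄(j)] = ψ(N)` as a relative degree inside `ℚ̄((q))`. -/
theorem relfinrank_ff :
    (IntermediateField.adjoin KK {jgenL 1}).relfinrank (modularFunctionFieldBar N) =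
      dedekindPsi N := by
  have h1 := IntermediateField.finrank_comap (A := IntermediateField.adjoin KK {jgenL 1})
    (modularFunctionFieldBar N).val
  rw [IntermediateField.fieldRange_val] at h1
  rw [← h1]
  have h2 : (IntermediateField.adjoin KK {jgenL 1}).comap (modularFunctionFieldBar N).val =
      IntermediateField.adjoin KK {jF N} := by
    have h3 : IntermediateField.adjoin KK {jgenL 1} =
        (IntermediateField.adjoin KK {jF N}).map (modularFunctionFieldBar N).val := by
      rw [IntermediateField.adjoin_map, Set.image_singleton]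
      rfl
    rw [h3, IntermediateField.comap_map]
  rw [h2]
  exact DegEq.finrank_jF_eq N

variable {A : ValuationSubring KK} {ℓ : ℕ} [Fact ℓ.Prime]

omit [NeZero N] in
/-- `k(j̄) ≤ F̄`. -/
theorem adjoin_jb_le (k : Type*) [Field k] :
    IntermediateField.adjoin k {jqModC k} ≤ modularFunctionFieldFullC k N := by
  rw [IntermediateField.adjoin_simple_le_iff]
  exact jqModC_mem_full k N

/-- `[F̄ : k(j̄)] = ψ(N)` as a relative degree inside `k((q))`. -/
theorem relfinrank_fk (hA : A.LiesOverPrime ℓ) (hℓN : ¬ ℓ ∣ N) :
    (IntermediateField.adjoin (IsLocalRing.ResidueField A)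
      {jqModC (IsLocalRing.ResidueField A)}).relfinrank (FkN A N) = dedekindPsi N := by
  have h1 := IntermediateField.finrank_comap
    (A := IntermediateField.adjoin (IsLocalRing.ResidueField A)
      {jqModC (IsLocalRing.ResidueField A)}) (FkN A N).val
  rw [IntermediateField.fieldRange_val] at h1
  rw [← h1]
  have h2 : (IntermediateField.adjoin (IsLocalRing.ResidueField A)
      {jqModC (IsLocalRing.ResidueField A)}).comap (FkN A N).val =
      IntermediateField.adjoin (IsLocalRing.ResidueField A)
        {DegEq.jk (IsLocalRing.ResidueField A) N} := by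
    have h3 : IntermediateField.adjoin (IsLocalRing.ResidueField A)
        {jqModC (IsLocalRing.ResidueField A)} =
        (IntermediateField.adjoin (IsLocalRing.ResidueField A)
          {DegEq.jk (IsLocalRing.ResidueField A) N}).map (FkN A N).val := by
      rw [IntermediateField.adjoin_map, Set.image_singleton]
      rfl
    rw [h3, IntermediateField.comap_map]
  rw [h2]
  exact DegEq.finrank_residue N hA hℓN

end Degree

section Relative

variable {A : ValuationSubring KK} {ℓ : ℕ} [Fact ℓ.Prime] {N N' : ℕ} [NeZero N] [NeZero N']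

omit [Fact ℓ.Prime] [NeZero N] [NeZero N'] in
theorem not_dvd_of_dvd (h : N ∣ N') (hℓN' : ¬ ℓ ∣ N') : ¬ ℓ ∣ N := fun h' => hℓN' (h'.trans h)

/-- The tower law in characteristic `0`: `ψ(N) * [F' : F] = ψ(N')`. -/
theorem psi_mul_relfinrank_ff (h : N ∣ N') :
    dedekindPsi N * (modularFunctionFieldBar N).relfinrank (modularFunctionFieldBar N') =
      dedekindPsi N' := by
  rw [← relfinrank_ff N, ← relfinrank_ff N']
  exact IntermediateField.relfinrank_mul_relfinrank (adjoin_j_le N) (ff_le h)

/-- The tower law in characteristic `ℓ`: `ψ(N) * [F̄' : F̄] = ψ(N')`. -/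
theorem psi_mul_relfinrank_fk (hA : A.LiesOverPrime ℓ) (h : N ∣ N') (hℓN' : ¬ ℓ ∣ N') :
    dedekindPsi N * (FkN A N).relfinrank (FkN A N') = dedekindPsi N' := by
  rw [← relfinrank_fk N hA (not_dvd_of_dvd h hℓN'), ← relfinrank_fk N' hA hℓN']
  exact IntermediateField.relfinrank_mul_relfinrank (adjoin_jb_le N _) (fk_le _ h)

theorem dedekindPsi_pos' (N : ℕ) [NeZero N] : 0 < dedekindPsi N := by
  rw [← DegEq.finrank_jF_eq N]
  have := Degree.finiteDimensional_jF N
  exact Module.finrank_pos

/-- **The relative degrees agree**: `[F' : F] = [F̄' : F̄]`. -/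
theorem relfinrank_eq (hA : A.LiesOverPrime ℓ) (h : N ∣ N') (hℓN' : ¬ ℓ ∣ N') :
    (modularFunctionFieldBar N).relfinrank (modularFunctionFieldBar N') =
      (FkN A N).relfinrank (FkN A N') := by
  have h1 := psi_mul_relfinrank_ff (N := N) (N' := N') h
  have h2 := psi_mul_relfinrank_fk (N := N) (N' := N') hA h hℓN'
  exact Nat.eq_of_mul_eq_mul_left (dedekindPsi_pos' N) (h1.trans h2.symm)

theorem relfinrank_ff_pos (h : N ∣ N') :
    0 < (modularFunctionFieldBar N).relfinrank (modularFunctionFieldBar N') := by
  have h1 := psi_mul_relfinrank_ff (N := N) (N' := N') h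
  have h2 := dedekindPsi_pos' N'
  rw [← h1] at h2
  rcases Nat.eq_zero_or_pos ((modularFunctionFieldBar N).relfinrank
    (modularFunctionFieldBar N')) with h0 | h0
  · rw [h0, mul_zero] at h2
    exact absurd h2 (lt_irrefl 0)
  · exact h0

/-- **The relative orthonormal basis (A2')**: `d = [F' : F]` elements of the Gauss ring of level
`N'` whose reductions are a basis of `F̄'` over `F̄` and which are a basis of `F'` over `F`. -/
theorem exists_orthonormal (hA : A.LiesOverPrime ℓ) (h : N ∣ N') (hℓN' : ¬ ℓ ∣ N') :
    ∃ U : Fin ((modularFunctionFieldBar N).relfinrank (modularFunctionFieldBar N')) → OO A N',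
      LinearIndependent (FkN A N) (fun i =>
        ((redN A N' (U i) : FkN A N') : LaurentSeries (IsLocalRing.ResidueField A))) ∧
      (∀ g ∈ FkN A N', ∃ c : Fin ((modularFunctionFieldBar N).relfinrank
          (modularFunctionFieldBar N')) → FkN A N,
        g = ∑ i, (c i : LaurentSeries (IsLocalRing.ResidueField A)) *
          ((redN A N' (U i) : FkN A N') : LaurentSeries (IsLocalRing.ResidueField A))) ∧
      LinearIndependent (modularFunctionFieldBar N) (fun i =>
        (((U i : OO A N') : modularFunctionFieldBar N') : LaurentSeries KK)) ∧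
      (∀ f ∈ modularFunctionFieldBar N', ∃ a : Fin ((modularFunctionFieldBar N).relfinrank
          (modularFunctionFieldBar N')) → modularFunctionFieldBar N,
        f = ∑ i, (a i : LaurentSeries KK) *
          (((U i : OO A N') : modularFunctionFieldBar N') : LaurentSeries KK)) := by
  classical
  set d := (modularFunctionFieldBar N).relfinrank (modularFunctionFieldBar N') with hd
  have hdk : (FkN A N).relfinrank (FkN A N') = d := (relfinrank_eq hA h hℓN').symm
  have hdpos : 0 < d := relfinrank_ff_pos h
  -- characteristic `ℓ`: a basis of `F̄'` over `F̄`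
  let E' : IntermediateField (FkN A N) (LaurentSeries (IsLocalRing.ResidueField A)) :=
    IntermediateField.extendScalars (fk_le (IsLocalRing.ResidueField A) h)
  have hfin : Module.finrank (FkN A N) E' = d :=
    (IntermediateField.relfinrank_eq_finrank_of_le
      (fk_le (IsLocalRing.ResidueField A) h)).symm.trans hdk
  have : FiniteDimensional (FkN A N) E' :=
    Module.finite_of_finrank_pos (by rw [hfin]; exact hdpos)
  let b : Module.Basis (Fin d) (FkN A N) E' := Module.finBasisOfFinrankEq _ _ hfin
  have hlift : ∀ i, ∃ u : OO A N', redN A N' u = ⟨((b i : E') :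
      LaurentSeries (IsLocalRing.ResidueField A)), (b i).2⟩ := fun i =>
    redN_surjective (A := A) (N := N') _
  choose U hU using hlift
  have hUb : (fun i => ((redN A N' (U i) : FkN A N') :
      LaurentSeries (IsLocalRing.ResidueField A))) =
      fun i => ((b i : E') : LaurentSeries (IsLocalRing.ResidueField A)) := by
    funext i
    rw [hU i]
  have hli : LinearIndependent (FkN A N) (fun i =>
      ((redN A N' (U i) : FkN A N') : LaurentSeries (IsLocalRing.ResidueField A))) := by
    rw [hUb]
    exact b.linearIndependent.map' E'.val.toLinearMap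
      (LinearMap.ker_eq_bot.mpr Subtype.val_injective)
  have hli0 := Ortho.linearIndependent_of_red_rel (DecMod.dec N hA (not_dvd_of_dvd h hℓN'))
    (ff_le h) (fk_le (IsLocalRing.ResidueField A) h) U hli
  refine ⟨U, hli, ?_, hli0, ?_⟩
  · intro g hg
    have hg' : g ∈ E' := hg
    refine ⟨fun i => b.repr ⟨g, hg'⟩ i, ?_⟩
    have h1 : ((∑ i, b.repr ⟨g, hg'⟩ i • b i : E') :
        LaurentSeries (IsLocalRing.ResidueField A)) = g :=
      congrArg Subtype.val (b.sum_repr ⟨g, hg'⟩)
    have h2 : ((∑ i, b.repr ⟨g, hg'⟩ i • b i : E') :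
        LaurentSeries (IsLocalRing.ResidueField A)) =
        ∑ i, ((b.repr ⟨g, hg'⟩ i • b i : E') : LaurentSeries (IsLocalRing.ResidueField A)) :=
      map_sum E'.val _ _
    refine h1.symm.trans ?_
    rw [h2]
    refine Finset.sum_congr rfl fun i _ => ?_
    show ((b.repr ⟨g, hg'⟩ i : FkN A N) : LaurentSeries (IsLocalRing.ResidueField A)) *
      ((b i : E') : LaurentSeries (IsLocalRing.ResidueField A)) = _
    rw [hU i]
  · intro f hf
    let E0 : IntermediateField (modularFunctionFieldBar N) (LaurentSeries KK) :=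
      IntermediateField.extendScalars (ff_le h)
    have hfin0 : Module.finrank (modularFunctionFieldBar N) E0 = d :=
      (IntermediateField.relfinrank_eq_finrank_of_le (ff_le h)).symm
    have : FiniteDimensional (modularFunctionFieldBar N) E0 :=
      Module.finite_of_finrank_pos (by rw [hfin0]; exact hdpos)
    let u : Fin d → E0 := fun i =>
      ⟨(((U i : OO A N') : modularFunctionFieldBar N') : LaurentSeries KK),
        ((U i : OO A N') : modularFunctionFieldBar N').2⟩
    have hu : LinearIndependent (modularFunctionFieldBar N) u :=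
      LinearIndependent.of_comp E0.val.toLinearMap hli0
    have htop := hu.span_eq_top_of_card_eq_finrank' (by rw [Fintype.card_fin, hfin0])
    have hmem : (⟨f, hf⟩ : E0) ∈ Submodule.span (modularFunctionFieldBar N) (Set.range u) := by
      rw [htop]; exact Submodule.mem_top
    obtain ⟨a, ha⟩ := (Submodule.mem_span_range_iff_exists_fun _).mp hmem
    refine ⟨a, ?_⟩
    have h1 : ((∑ i, a i • u i : E0) : LaurentSeries KK) = f := congrArg Subtype.val ha
    have h2 : ((∑ i, a i • u i : E0) : LaurentSeries KK) =
        ∑ i, ((a i • u i : E0) : LaurentSeries KK) := map_sum E0.val _ _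
    refine h1.symm.trans ?_
    rw [h2]
    rfl

omit [NeZero N'] in
/-- `O_v' ∩ F = O_v` for the levels `N ∣ N'`. -/
theorem mem_OO_of_inclusion (hA : A.LiesOverPrime ℓ) (h : N ∣ N') (hℓN' : ¬ ℓ ∣ N')
    {f : modularFunctionFieldBar N}
    (hf : IntermediateField.inclusion (ff_le h) f ∈ OO A N') : f ∈ OO A N :=
  Ortho.mem_gaussRing_of_inclusion (DecMod.dec N hA (not_dvd_of_dvd h hℓN')) (ff_le h)
    (fk_le (IsLocalRing.ResidueField A) h) hf

omit [Fact ℓ.Prime] [NeZero N] [NeZero N'] in
/-- `O_v ⊆ O_v'` for the levels `N ∣ N'`. -/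
theorem inclusion_mem_OO (h : N ∣ N') {f : modularFunctionFieldBar N} (hf : f ∈ OO A N) :
    IntermediateField.inclusion (ff_le h) f ∈ OO A N' :=
  Ortho.inclusion_mem_gaussRing (ff_le h) (fk_le (IsLocalRing.ResidueField A) h) hf

omit [Fact ℓ.Prime] [NeZero N] [NeZero N'] in
/-- The residue maps of the levels `N ∣ N'` are compatible. -/
theorem redN_inclusion (h : N ∣ N') (f : OO A N) :
    ((redN A N' (Ortho.incG (ff_le h) (fk_le (IsLocalRing.ResidueField A) h) f) : FkN A N') :
        LaurentSeries (IsLocalRing.ResidueField A)) =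
      ((redN A N f : FkN A N) : LaurentSeries (IsLocalRing.ResidueField A)) :=
  Ortho.red_incG (ff_le h) (fk_le (IsLocalRing.ResidueField A) h) f

omit [NeZero N'] in
/-- **Orthonormality for the levels `N ∣ N'`**: the coordinates of an element of `O_v'` with
respect to a family with independent reductions lie in `O_v`. -/
theorem coord_mem_OO (hA : A.LiesOverPrime ℓ) (h : N ∣ N') (hℓN' : ¬ ℓ ∣ N')
    {ι : Type*} [Fintype ι] (U : ι → OO A N')
    (hU : LinearIndependent (FkN A N) (fun i =>
      ((redN A N' (U i) : FkN A N') : LaurentSeries (IsLocalRing.ResidueField A))))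
    (a : ι → modularFunctionFieldBar N)
    (hsum : ∑ i, IntermediateField.inclusion (ff_le h) (a i) *
      ((U i : OO A N') : modularFunctionFieldBar N') ∈ OO A N') :
    ∀ i, a i ∈ OO A N :=
  Ortho.mem_of_sum_mem (DecMod.dec N hA (not_dvd_of_dvd h hℓN')) (ff_le h)
    (fk_le (IsLocalRing.ResidueField A) h) U hU a hsum

end Relative

end Fermat.Agent.S18.OrthoMod
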