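import Mathlib
import Fermat.Agent.S18.HauptGlue
import Fermat.Agent.S18.HauptParamFF
import Fermat.Agent.S18.OrthoMod

/-!
# S18 moonshot, Hauptmodul package: the Hauptmoduln as elements of `FF N`

For `4 ∣ N` (resp. `9 ∣ N`) the Hauptmodul `μ₄` (resp. `μ₉`) of `Γ₀(4)` (resp. `Γ₀(9)`) is an
element of the function field `FF N` of `X₀(N)` over `KK`, with `q`-expansion `ThetaL KK 4 8`
(resp. `ThetaL KK 9 3`), which has integer coefficients and leading term `q⁻¹`.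

Given the explicit relation between `j` and the Hauptmodul as an identity of Laurent series
with integer coefficients (a finite computation), `μ` is regular and a local parameter at every
place of `FF N` at which `j` is regular.
-/

set_option autoImplicit false

namespace Fermat.Agent.S18.HauptMu

open AlgebraicCurve Polynomial ModularCurve
open Fermat.Agent.S24 Fermat.Agent.S24.Eval Fermat.Agent.S20
open Fermat.Agent.S28.UnitEq
open Fermat.Agent.S18.HauptSeries Fermat.Agent.S18.HauptGlue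

/-! ### The elements -/

/-- The Hauptmodul of `Γ₀(4)` as an element of `FF N`, `4 ∣ N`. -/
noncomputable def mu4 (N : ℕ) (h : 4 ∣ N) : FF N :=
  ⟨ThetaL KK 4 8, Fermat.Agent.S18.OrthoMod.ff_le h ThetaL_four_mem⟩

/-- The Hauptmodul of `Γ₀(9)` as an element of `FF N`, `9 ∣ N`. -/
noncomputable def mu9 (N : ℕ) (h : 9 ∣ N) : FF N :=
  ⟨ThetaL KK 9 3, Fermat.Agent.S18.OrthoMod.ff_le h ThetaL_nine_mem⟩

theorem coe_mu4 (N : ℕ) (h : 4 ∣ N) : ((mu4 N h : FF N) : LaurentSeries KK) = ThetaL KK 4 8 :=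
  rfl

theorem coe_mu9 (N : ℕ) (h : 9 ∣ N) : ((mu9 N h : FF N) : LaurentSeries KK) = ThetaL KK 9 3 :=
  rfl

/-- The `q`-expansion of `μ₄` comes from every subring: it is the image of `ThetaL A 4 8`. -/
theorem coe_mu4_eq_coeffMap (N : ℕ) (h : 4 ∣ N) {A : Type*} [CommRing A] (φ : A →+* KK) :
    ((mu4 N h : FF N) : LaurentSeries KK) = coeffMap φ (ThetaL A 4 8) := by
  rw [coe_mu4, coeffMap_ThetaL]

theorem coe_mu9_eq_coeffMap (N : ℕ) (h : 9 ∣ N) {A : Type*} [CommRing A] (φ : A →+* KK) :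
    ((mu9 N h : FF N) : LaurentSeries KK) = coeffMap φ (ThetaL A 9 3) := by
  rw [coe_mu9, coeffMap_ThetaL]

theorem isLead_mu4 (N : ℕ) (h : 4 ∣ N) : IsLead (-1) 1 ((mu4 N h : FF N) : LaurentSeries KK) :=
  isLead_ThetaL KK 4 8

theorem isLead_mu9 (N : ℕ) (h : 9 ∣ N) : IsLead (-1) 1 ((mu9 N h : FF N) : LaurentSeries KK) :=
  isLead_ThetaL KK 9 3

/-! ### The relations -/

theorem coe_jF_eq (N : ℕ) : ((jF N : FF N) : LaurentSeries KK) = jqModC KK := by
  rw [coe_jF]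
  exact coeffMap_jqModC (R := ℚ) (algebraMap ℚ KK)

/-- **The relation at level 4** in `FF N`, from the identity of Laurent series over `ℤ`. -/
theorem hrel_four (N : ℕ) (h : 4 ∣ N)
    (hZ : (ThetaL ℤ 4 8 ^ 2 + 256 * ThetaL ℤ 4 8 + 4096) ^ 3 =
      jqModC ℤ * (ThetaL ℤ 4 8 ^ 4 * (ThetaL ℤ 4 8 + 16))) :
    jF N * mu4 N h ^ 4 * (mu4 N h + 16) = (mu4 N h ^ 2 + 256 * mu4 N h + 4096) ^ 3 := by
  apply (modularFunctionFieldBar N).val.injective
  have h1 := congrArg (coeffMap (Int.castRingHom KK)) hZ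
  simp only [map_mul, map_pow, map_add, map_ofNat, coeffMap_ThetaL, coeffMap_jqModC] at h1
  simp only [map_mul, map_pow, map_add, map_ofNat]
  have e1 : (modularFunctionFieldBar N).val.toRingHom (jF N) = jqModC KK := coe_jF_eq N
  have e2 : (modularFunctionFieldBar N).val.toRingHom (mu4 N h) = ThetaL KK 4 8 := rfl
  rw [e1, e2, h1]
  ring

/-- **The relation at level 9** in `FF N`, from the identity of Laurent series over `ℤ`. -/
theorem hrel_nine (N : ℕ) (h : 9 ∣ N)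
    (hZ : ((ThetaL ℤ 9 3 + 9) *
        (ThetaL ℤ 9 3 ^ 3 + 243 * ThetaL ℤ 9 3 ^ 2 + 2187 * ThetaL ℤ 9 3 + 6561)) ^ 3 =
      jqModC ℤ * (ThetaL ℤ 9 3 ^ 9 * (ThetaL ℤ 9 3 ^ 2 + 9 * ThetaL ℤ 9 3 + 27))) :
    jF N * mu9 N h ^ 9 * (mu9 N h ^ 2 + 9 * mu9 N h + 27) =
      ((mu9 N h + 9) * (mu9 N h ^ 3 + 243 * mu9 N h ^ 2 + 2187 * mu9 N h + 6561)) ^ 3 := by
  apply (modularFunctionFieldBar N).val.injective
  have h1 := congrArg (coeffMap (Int.castRingHom KK)) hZ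
  simp only [map_mul, map_pow, map_add, map_ofNat, coeffMap_ThetaL, coeffMap_jqModC] at h1
  simp only [map_mul, map_pow, map_add, map_ofNat]
  have e1 : (modularFunctionFieldBar N).val.toRingHom (jF N) = jqModC KK := coe_jF_eq N
  have e2 : (modularFunctionFieldBar N).val.toRingHom (mu9 N h) = ThetaL KK 9 3 := rfl
  rw [e1, e2, h1]
  ring

/-! ### Local parameters -/

/-- **`μ₄` is a local parameter at every finite place** (given the relation). -/
theorem mu4_localParameter (N : ℕ) [NeZero N] (h : 4 ∣ N)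
    (hZ : (ThetaL ℤ 4 8 ^ 2 + 256 * ThetaL ℤ 4 8 + 4096) ^ 3 =
      jqModC ℤ * (ThetaL ℤ 4 8 ^ 4 * (ThetaL ℤ 4 8 + 16)))
    (v : Place KK (FF N)) (hv : 0 ≤ v.ord (jF N)) :
    0 ≤ v.ord (mu4 N h) ∧ ∃ b : KK, v.ord (mu4 N h - algebraMap KK (FF N) b) = 1 :=
  Fermat.Agent.S18.HauptParamFF.ord_sub_eq_one_four N (mu4 N h) (hrel_four N h hZ) v hv

/-- **`μ₉` is a local parameter at every finite place** (given the relation). -/
theorem mu9_localParameter (N : ℕ) [NeZero N] (h : 9 ∣ N)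
    (hZ : ((ThetaL ℤ 9 3 + 9) *
        (ThetaL ℤ 9 3 ^ 3 + 243 * ThetaL ℤ 9 3 ^ 2 + 2187 * ThetaL ℤ 9 3 + 6561)) ^ 3 =
      jqModC ℤ * (ThetaL ℤ 9 3 ^ 9 * (ThetaL ℤ 9 3 ^ 2 + 9 * ThetaL ℤ 9 3 + 27)))
    (v : Place KK (FF N)) (hv : 0 ≤ v.ord (jF N)) :
    0 ≤ v.ord (mu9 N h) ∧ ∃ b : KK, v.ord (mu9 N h - algebraMap KK (FF N) b) = 1 :=
  Fermat.Agent.S18.HauptParamFF.ord_sub_eq_one_nine N (mu9 N h) (hrel_nine N h hZ) v hv

end Fermat.Agent.S18.HauptMu
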