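import Mathlib
import Fermat.Prelude.Def_AlgebraicCurve_CanonicalDivisor
import Fermat.Agent.S24.FFBasic
import Fermat.Agent.S24.FFPlaces
import Fermat.Agent.S24.FFFiber

/-!
# S18 (infrastructure): places of a function field in arbitrary characteristic

The function-field library of S24 (`FFPlaces`, `FFFiber`) assumes `CharZero k` (only to have
separability for free).  Here the same statements are proved for an algebraically closed field
`k` of arbitrary characteristic and a *separating* element `y`: `y` transcendental over `k`,
`F` finite and separable over `k(y)`.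

* `isDedekindDomain_B`, `finite_B`, `isFractionRing_B`: the integral closure of `k[y]` in `F`;
* `exists_eq_ofHeightOneSpectrum_B`: a place with `ord_v y ≥ 0` is the place of a prime of it;
* `exists_ord_sub_pos`: such a place lies over a point `y = c`;
* `residue_B`: the residue field of the integral closure at a prime is `k`;
* `exists_sub_algebraMap_ord_pos`, `place_deg_eq_one`: the residue field of every place is `k`;
* `mem_placesOver_or_infty`.
-/

set_option autoImplicit false
set_option linter.deprecated false

open AlgebraicCurve IntermediateField IsDedekindDomain WithZero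

namespace Fermat.Agent.S18.FFSep

open Fermat.Agent.S24 Fermat.Agent.S24.FFFiber

variable {k F : Type*} [Field k] [Field F] [Algebra k F]

/-! ### Transport of the hypotheses along `k(y⁻¹) = k(y)` -/

section Transport

theorem finiteDimensional_of_eq {K₁ K₂ : IntermediateField k F} (h : K₁ = K₂)
    [FiniteDimensional K₁ F] : FiniteDimensional K₂ F := by
  subst h
  infer_instance

theorem isSeparable_of_eq {K₁ K₂ : IntermediateField k F} (h : K₁ = K₂)
    [Algebra.IsSeparable K₁ F] : Algebra.IsSeparable K₂ F := by
  subst h
  infer_instance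

variable (y : F)

theorem finiteDimensional_inv [FiniteDimensional k⟮y⟯ F] : FiniteDimensional k⟮y⁻¹⟯ F :=
  finiteDimensional_of_eq (adjoin_inv_eq (k := k) y).symm

theorem isSeparable_inv [Algebra.IsSeparable k⟮y⟯ F] : Algebra.IsSeparable k⟮y⁻¹⟯ F :=
  isSeparable_of_eq (adjoin_inv_eq (k := k) y).symm

end Transport

/-! ### The integral closure of `k[y]` -/

section setup
open IntermediateField.algebraAdjoinAdjoin

variable (y : F) (hy : Transcendental k y)
variable [FiniteDimensional k⟮y⟯ F] [Algebra.IsSeparable k⟮y⟯ F]

theorem isDedekindDomain_B (hy : Transcendental k y) :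
    IsDedekindDomain (integralClosure (Algebra.adjoin k {y}) F) := by
  haveI := isDedekindDomain_adjoin y hy
  exact integralClosure.isDedekindDomain (Algebra.adjoin k {y}) k⟮y⟯ F

omit [Algebra.IsSeparable k⟮y⟯ F] in
theorem isFractionRing_B :
    IsFractionRing (integralClosure (Algebra.adjoin k {y}) F) F :=
  integralClosure.isFractionRing_of_finite_extension k⟮y⟯ F

theorem finite_B (hy : Transcendental k y) :
    Module.Finite (Algebra.adjoin k {y}) (integralClosure (Algebra.adjoin k {y}) F) := by
  haveI := isDedekindDomain_adjoin y hy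
  exact IsIntegralClosure.finite (Algebra.adjoin k {y}) k⟮y⟯ F _

end setup

section Closure
open IntermediateField.algebraAdjoinAdjoin

variable (y : F)
variable [FiniteDimensional k⟮y⟯ F] [Algebra.IsSeparable k⟮y⟯ F]

/-- A place with `ord_v y ≥ 0` is the place of a prime of the integral closure of `k[y]`. -/
theorem exists_eq_ofHeightOneSpectrum_B (hy : Transcendental k y)
    (v : Place k F) (hv : 0 ≤ v.ord y) :
    haveI := isDedekindDomain_B y hy
    haveI := isFractionRing_B (k := k) y
    ∃ w : HeightOneSpectrum (integralClosure (Algebra.adjoin k {y}) F),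
      v = Place.ofHeightOneSpectrum (K := k) (F := F) w ∧
      ∀ r : integralClosure (Algebra.adjoin k {y}) F,
        r ∈ w.asIdeal ↔ (r ≠ 0 ∧ 0 < v.ord (r : F)) ∨ r = 0 := by
  haveI := isDedekindDomain_B y hy
  haveI := isFractionRing_B (k := k) y
  exact exists_eq_ofHeightOneSpectrum (R := integralClosure (Algebra.adjoin k {y}) F) v
    (fun r => integralClosure_mem_of_ord_nonneg y v hv _ r.2)

/-- A place with `ord_v y ≥ 0` lies over a point `c : k`. -/
theorem exists_ord_sub_pos [IsAlgClosed k] (hy : Transcendental k y)
    (v : Place k F) (hv : 0 ≤ v.ord y) : ∃ c : k, 0 < v.ord (y - algebraMap k F c) := by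
  haveI := isDedekindDomain_B y hy
  haveI := isFractionRing_B (k := k) y
  obtain ⟨w, -, hw⟩ := exists_eq_ofHeightOneSpectrum_B y hy v hv
  -- a nonzero element of `P ∩ k[y]`
  obtain ⟨b, hbP, hb0⟩ := Submodule.exists_mem_ne_zero_of_ne_bot w.ne_bot
  have hbint : IsIntegral (Algebra.adjoin k {y}) b := integralClosure.isIntegral b
  have hne := Ideal.comap_ne_bot_of_integral_mem hb0 hbP hbint
  obtain ⟨a, haP, ha0⟩ := Submodule.exists_mem_ne_zero_of_ne_bot hne
  rw [Ideal.mem_comap, hw] at haP
  have hapos : 0 < v.ord (a : F) := by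
    rcases haP with ⟨_, h⟩ | h
    · exact h
    · exfalso
      apply ha0
      have h1 : ((algebraMap (Algebra.adjoin k {y})
        (integralClosure (Algebra.adjoin k {y}) F) a : integralClosure (Algebra.adjoin k {y}) F) : F)
          = (a : F) := rfl
      rw [h] at h1
      exact Subtype.ext h1.symm
  -- `a = q(y)` for a nonzero polynomial `q`
  obtain ⟨q, hq⟩ : ∃ q : Polynomial k, (a : F) = Polynomial.aeval y q := by
    have h1 : (a : F) ∈ (Polynomial.aeval y : Polynomial k →ₐ[k] F).range := by
      rw [← Algebra.adjoin_singleton_eq_range_aeval]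
      exact a.2
    obtain ⟨q, hq⟩ := h1
    exact ⟨q, hq.symm⟩
  have hq0 : q ≠ 0 := by
    rintro rfl
    apply ha0
    apply Subtype.ext
    rw [hq]
    simp
  have hsplit := IsAlgClosed.splits q
  have hqe := hsplit.eq_prod_roots
  by_contra hcon
  replace hcon : ∀ c : k, v.ord (y - algebraMap k F c) ≤ 0 := fun c =>
    not_lt.mp (fun h => hcon ⟨c, h⟩)
  have hfac : ∀ f ∈ q.roots.map (fun c => y - algebraMap k F c), f ≠ 0 ∧ v.ord f = 0 := by
    intro f hf
    obtain ⟨c, -, rfl⟩ := Multiset.mem_map.mp hf
    have hne0 : y - algebraMap k F c ≠ 0 := by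
      intro h0
      apply hy
      rw [sub_eq_zero.mp h0]
      exact isAlgebraic_algebraMap c
    refine ⟨hne0, le_antisymm (hcon c) ?_⟩
    apply ord_nonneg_of_mem
    apply sub_mem
    · exact mem_of_ord_nonneg v (fun h0 => hy (h0 ▸ isAlgebraic_zero)) hv
    · exact v.algebraMap_mem' c
  have hprod := ord_multiset_prod_eq_zero v _ hfac
  have hlc : q.leadingCoeff ≠ 0 := Polynomial.leadingCoeff_ne_zero.mpr hq0
  have hval : (a : F) = algebraMap k F q.leadingCoeff *
      (q.roots.map (fun c => y - algebraMap k F c)).prod := by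
    rw [hq]
    conv_lhs => rw [hqe]
    rw [map_mul, Polynomial.aeval_C, map_multiset_prod, Multiset.map_map]
    congr 2
    apply Multiset.map_congr rfl
    intro c _
    simp
  have hlc' : algebraMap k F q.leadingCoeff ≠ 0 := by
    intro h0
    apply hlc
    exact (algebraMap k F).injective (by rw [h0, map_zero])
  rw [hval, v.ord_mul hlc' hprod.1, hprod.2, ord_algebraMap] at hapos
  exact lt_irrefl _ hapos

/-- The residue field of the integral closure of `k[y]` at a nonzero prime is `k`. -/
theorem residue_B [IsAlgClosed k] (hy : Transcendental k y)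
    (w : haveI := isDedekindDomain_B y hy
      HeightOneSpectrum (integralClosure (Algebra.adjoin k {y}) F))
    (b : integralClosure (Algebra.adjoin k {y}) F) :
    ∃ c : k, b - algebraMap k (integralClosure (Algebra.adjoin k {y}) F) c ∈ w.asIdeal := by
  haveI := isDedekindDomain_B y hy
  haveI := isFractionRing_B (k := k) y
  set v := Place.ofHeightOneSpectrum (K := k) (F := F) w with hv
  -- the point below `w`
  have hy0 : y ≠ 0 := fun h0 => hy (h0 ▸ isAlgebraic_zero)
  have hyB : y ∈ integralClosure (Algebra.adjoin k {y}) F :=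
    (integralClosure (Algebra.adjoin k {y}) F).algebraMap_mem
      ⟨y, Algebra.self_mem_adjoin_singleton k y⟩
  have hymem : y ∈ v.toValuationSubring := by
    rw [hv, mem_ofHeightOneSpectrum_iff]
    exact w.valuation_le_one ⟨y, hyB⟩
  obtain ⟨c₀, hc₀⟩ := exists_ord_sub_pos y hy v (ord_nonneg_of_mem v hymem)
  have hyw : (⟨y, hyB⟩ : integralClosure (Algebra.adjoin k {y}) F) -
      algebraMap k (integralClosure (Algebra.adjoin k {y}) F) c₀ ∈ w.asIdeal := by
    have hne : (⟨y, hyB⟩ : integralClosure (Algebra.adjoin k {y}) F) -
        algebraMap k (integralClosure (Algebra.adjoin k {y}) F) c₀ ≠ 0 := by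
      intro h0
      have h1 := congrArg Subtype.val h0
      have h2 : y - algebraMap k F c₀ = 0 := h1
      rw [h2, v.ord_zero] at hc₀
      exact lt_irrefl _ hc₀
    rw [mem_asIdeal_iff_ord_pos (k := k) (F := F) w _ hne]
    exact hc₀
  -- evaluation at `c₀`
  let ev : Algebra.adjoin k {y} →+* k :=
    (Polynomial.aeval c₀ : Polynomial k →ₐ[k] k).toRingHom.comp
      (adjoinEquiv y hy).symm.toAlgHom.toRingHom
  have hcomp : (algebraMap k (integralClosure (Algebra.adjoin k {y}) F ⧸ w.asIdeal)).comp ev =
      (Ideal.Quotient.mk w.asIdeal).comp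
        (algebraMap (Algebra.adjoin k {y}) (integralClosure (Algebra.adjoin k {y}) F)) := by
    -- compare on polynomials
    have key : ∀ p : Polynomial k,
        algebraMap k (integralClosure (Algebra.adjoin k {y}) F ⧸ w.asIdeal) (Polynomial.aeval c₀ p) =
        Ideal.Quotient.mk w.asIdeal
          (algebraMap (Algebra.adjoin k {y}) (integralClosure (Algebra.adjoin k {y}) F)
            (adjoinEquiv y hy p)) := by
      intro p
      let ψ₁ : Polynomial k →ₐ[k] (integralClosure (Algebra.adjoin k {y}) F ⧸ w.asIdeal) :=
        (Algebra.ofId k _).comp (Polynomial.aeval c₀ : Polynomial k →ₐ[k] k)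
      let ψ₂ : Polynomial k →ₐ[k] (integralClosure (Algebra.adjoin k {y}) F ⧸ w.asIdeal) :=
        ((Ideal.Quotient.mkₐ k w.asIdeal).comp
          (IsScalarTower.toAlgHom k (Algebra.adjoin k {y})
            (integralClosure (Algebra.adjoin k {y}) F))).comp (adjoinEquiv y hy).toAlgHom
      have h12 : ψ₁ = ψ₂ := by
        apply Polynomial.algHom_ext
        show algebraMap k _ (Polynomial.aeval c₀ (Polynomial.X : Polynomial k)) =
          Ideal.Quotient.mk w.asIdeal
            (algebraMap (Algebra.adjoin k {y}) (integralClosure (Algebra.adjoin k {y}) F)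
              (adjoinEquiv y hy Polynomial.X))
        rw [Polynomial.aeval_X]
        symm
        have h3 : algebraMap (Algebra.adjoin k {y}) (integralClosure (Algebra.adjoin k {y}) F)
            (adjoinEquiv y hy Polynomial.X) = ⟨y, hyB⟩ := by
          apply Subtype.ext
          show ((adjoinEquiv y hy Polynomial.X : Algebra.adjoin k {y}) : F) = y
          exact adjoinEquiv_X y hy
        rw [h3]
        have h4 := (Ideal.Quotient.eq (I := w.asIdeal)).mpr hyw
        rw [h4]
        rfl
      exact congrArg (fun ψ => ψ p) h12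
    apply RingHom.ext
    intro a
    obtain ⟨p, rfl⟩ := (adjoinEquiv y hy).surjective a
    have := key p
    simpa [ev] using this
  have hint : IsIntegral k (Ideal.Quotient.mk w.asIdeal b) :=
    IsIntegral.map_of_comp_eq ev (Ideal.Quotient.mk w.asIdeal) hcomp
      (integralClosure.isIntegral b)
  haveI : w.asIdeal.IsPrime := w.isPrime
  have hmem : Ideal.Quotient.mk w.asIdeal b ∈
      Set.range (algebraMap k (integralClosure (Algebra.adjoin k {y}) F ⧸ w.asIdeal)) :=
    minpoly.mem_range_of_degree_eq_one k _
      (IsAlgClosed.degree_eq_one_of_irreducible k (minpoly.irreducible hint))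
  obtain ⟨c, hc⟩ := hmem
  refine ⟨c, ?_⟩
  rw [← Ideal.Quotient.eq, ← hc]
  rfl

end Closure

section Main

variable [IsAlgClosed k] (x : F) (hx : Transcendental k x)
variable [FiniteDimensional k⟮x⟯ F] [Algebra.IsSeparable k⟮x⟯ F]

include hx in
theorem exists_sub_algebraMap_ord_pos_aux (v : Place k F) (hv : 0 ≤ v.ord x) {f : F}
    (hf : 0 ≤ v.ord f) :
    ∃ c : k, f = algebraMap k F c ∨ 0 < v.ord (f - algebraMap k F c) := by
  haveI := isDedekindDomain_B x hx
  haveI := isFractionRing_B (k := k) x
  rcases eq_or_ne f 0 with rfl | hf0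
  · exact ⟨0, Or.inl (by simp)⟩
  obtain ⟨w, hw, hwmem⟩ := exists_eq_ofHeightOneSpectrum_B x hx v hv
  have hfmem : f ∈ v.toValuationSubring := mem_of_ord_nonneg v hf0 hf
  have hfval : w.valuation F f ≤ 1 := by
    rw [hw, mem_ofHeightOneSpectrum_iff] at hfmem
    exact hfmem
  obtain ⟨n, d, hnd⟩ := w.exists_primeCompl_mul_eq_of_integer f hfval
  have hdP : (d : integralClosure (Algebra.adjoin k {x}) F) ∉ w.asIdeal := d.2
  obtain ⟨cn, hcn⟩ := residue_B x hx w n
  obtain ⟨cd, hcd⟩ := residue_B x hx w (d : integralClosure (Algebra.adjoin k {x}) F)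
  have hcd0 : cd ≠ 0 := by
    rintro rfl
    rw [map_zero, sub_zero] at hcd
    exact hdP hcd
  have hd0 : ((d : integralClosure (Algebra.adjoin k {x}) F) : F) ≠ 0 := by
    intro h0
    apply hdP
    have : (d : integralClosure (Algebra.adjoin k {x}) F) = 0 := Subtype.ext h0
    rw [this]
    exact zero_mem _
  have hdord : v.ord ((d : integralClosure (Algebra.adjoin k {x}) F) : F) = 0 := by
    have h1 : ¬ ((d : integralClosure (Algebra.adjoin k {x}) F) ≠ 0 ∧
        0 < v.ord ((d : integralClosure (Algebra.adjoin k {x}) F) : F)) := by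
      intro h
      exact hdP ((hwmem _).mpr (Or.inl h))
    have h2 : 0 ≤ v.ord ((d : integralClosure (Algebra.adjoin k {x}) F) : F) := by
      apply ord_nonneg_of_mem
      exact integralClosure_mem_of_ord_nonneg x v hv _
        (d : integralClosure (Algebra.adjoin k {x}) F).2
    by_contra hne
    apply h1
    refine ⟨fun h0 => hd0 (by rw [h0]; rfl), by omega⟩
  refine ⟨cn / cd, ?_⟩
  -- the numerator `n - (cn / cd) d` lies in `w`
  set e : integralClosure (Algebra.adjoin k {x}) F :=
    n - algebraMap k (integralClosure (Algebra.adjoin k {x}) F) (cn / cd) *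
      (d : integralClosure (Algebra.adjoin k {x}) F) with he
  have hew : e ∈ w.asIdeal := by
    have h1 : e = (n - algebraMap k (integralClosure (Algebra.adjoin k {x}) F) cn) -
        algebraMap k (integralClosure (Algebra.adjoin k {x}) F) (cn / cd) *
          ((d : integralClosure (Algebra.adjoin k {x}) F) -
            algebraMap k (integralClosure (Algebra.adjoin k {x}) F) cd) := by
      have h2 : algebraMap k (integralClosure (Algebra.adjoin k {x}) F) (cn / cd) *
          algebraMap k (integralClosure (Algebra.adjoin k {x}) F) cd =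
          algebraMap k (integralClosure (Algebra.adjoin k {x}) F) cn := by
        rw [← map_mul, div_mul_cancel₀ _ hcd0]
      rw [he]
      linear_combination -h2
    rw [h1]
    exact sub_mem hcn (Ideal.mul_mem_left _ _ hcd)
  have hfe : f - algebraMap k F (cn / cd) =
      (e : F) / ((d : integralClosure (Algebra.adjoin k {x}) F) : F) := by
    have h1 : (e : F) = (n : F) - algebraMap k F (cn / cd) *
        ((d : integralClosure (Algebra.adjoin k {x}) F) : F) := rfl
    have h2 : f * ((d : integralClosure (Algebra.adjoin k {x}) F) : F) = (n : F) := hnd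
    rw [h1, ← h2]
    field_simp
  rcases eq_or_ne e 0 with h0 | h0
  · left
    have : (e : F) = 0 := by rw [h0]; rfl
    rw [this, zero_div, sub_eq_zero] at hfe
    exact hfe
  · right
    have he0 : (e : F) ≠ 0 := fun h => h0 (Subtype.ext h)
    have hepos : 0 < v.ord (e : F) := by
      rcases (hwmem e).mp hew with ⟨_, h⟩ | h
      · exact h
      · exact absurd h h0
    rw [hfe, ord_div v he0 hd0, hdord]
    omega

include hx in
/-- The residue field of every place is `k`. -/
theorem exists_sub_algebraMap_ord_pos (v : Place k F) {f : F} (hf : 0 ≤ v.ord f) :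
    ∃ c : k, f = algebraMap k F c ∨ 0 < v.ord (f - algebraMap k F c) := by
  by_cases hv : 0 ≤ v.ord x
  · exact exists_sub_algebraMap_ord_pos_aux x hx v hv hf
  · haveI := finiteDimensional_inv (k := k) x
    haveI := isSeparable_inv (k := k) x
    refine exists_sub_algebraMap_ord_pos_aux x⁻¹ (transcendental_inv x hx) v ?_ hf
    rw [v.ord_inv]
    omega

include hx in
/-- Every place lies over a point of the projective line. -/
theorem mem_placesOver_or_infty (v : Place k F) :
    v ∈ placesOverInfty x ∨ ∃ a, v ∈ placesOver x a := by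
  by_cases h : v.ord x < 0
  · left
    exact h
  · right
    obtain ⟨c, hc⟩ := exists_ord_sub_pos x hx v (not_lt.mp h)
    exact ⟨c, hc⟩

include hx in
/-- Every place has degree one. -/
theorem place_deg_eq_one (v : Place k F) : v.deg = 1 := by
  unfold Place.deg
  rw [finrank_eq_one_iff_of_nonzero' (1 : v.ResidueField) one_ne_zero]
  intro w
  obtain ⟨f, rfl⟩ := IsLocalRing.residue_surjective w
  obtain ⟨c, hc⟩ := exists_sub_algebraMap_ord_pos x hx v (ord_nonneg_of_mem v f.2)
  refine ⟨c, ?_⟩
  have hmem : f - algebraMap k v.toValuationSubring c ∈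
      IsLocalRing.maximalIdeal v.toValuationSubring := by
    rcases hc with hc | hc
    · have : f - algebraMap k v.toValuationSubring c = 0 := by
        apply Subtype.ext
        show (f : F) - algebraMap k F c = 0
        rw [hc, sub_self]
      rw [this]
      exact zero_mem _
    · rw [IsLocalRing.mem_maximalIdeal, mem_nonunits_iff]
      intro hu
      have h0 := v.ord_coe_unit hu.unit
      have h1 : ((hu.unit : v.toValuationSubring) : F) = (f : F) - algebraMap k F c := rfl
      rw [h1] at h0
      omega
  rw [← IsLocalRing.residue_eq_zero_iff, map_sub, sub_eq_zero] at hmem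
  rw [hmem, Algebra.smul_def, mul_one]
  rfl

end Main

end Fermat.Agent.S18.FFSep
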