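import Mathlib
import Fermat.Prelude.Def_AlgebraicCurve_CanonicalDivisor
import Fermat.Agent.S24.FFBasic
import Fermat.Agent.S24.FFPlaces
import Fermat.Agent.S24.FFFiber
import Fermat.Agent.S18.FFSep

/-!
# S18 (infrastructure): the fundamental identity in arbitrary characteristic

For `x : F` transcendental over the algebraically closed field `k` (any characteristic) with
`F` finite and separable over `k(x)`, and `a : k`:

* `placesOver_finite`, `finsum_ord_placesOver`: the places `v` with `ord_v (x - a) > 0` are finite
  in number and `∑ ord_v (x - a) = [F : k(x)]`;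
* `placesOverInfty_finite`, `finsum_ord_placesOverInfty`: the same for the poles of `x`;
* `sum_ord_le_finrank`, `sum_ord_le_finrank_infty`, `ncard_placesOver_le`.

This is the characteristic-free version of `Fermat.Agent.S24.FFFiber` / `FFInfty`.
-/

set_option autoImplicit false
set_option linter.deprecated false

open AlgebraicCurve IntermediateField IsDedekindDomain WithZero

namespace Fermat.Agent.S18.FFSepFiber

open Fermat.Agent.S24 Fermat.Agent.S24.FFFiber Fermat.Agent.S18.FFSep

variable {k F : Type*} [Field k] [Field F] [Algebra k F]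

section Fiber
open IntermediateField.algebraAdjoinAdjoin

variable (y : F)
variable [FiniteDimensional k⟮y⟯ F] [Algebra.IsSeparable k⟮y⟯ F]

omit [FiniteDimensional k⟮y⟯ F] [Algebra.IsSeparable k⟮y⟯ F] in
/-- The height one prime of `k[y]` at `c`. -/
def ptH' (hy : Transcendental k y) (c : k) : HeightOneSpectrum (Algebra.adjoin k {y}) :=
  ⟨pt y c, (pt_isMaximal y hy c).isPrime, pt_ne_bot y hy c⟩

theorem ord_gen_eq_ramificationIdx (hy : Transcendental k y) (c : k)
    (w : HeightOneSpectrum (integralClosure (Algebra.adjoin k {y}) F))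
    (hw : w.asIdeal.LiesOver (pt y c)) :
    haveI := isDedekindDomain_B y hy
    haveI := isFractionRing_B (k := k) y
    (Place.ofHeightOneSpectrum (K := k) (F := F) w).ord (y - algebraMap k F c) =
      ((pt y c).ramificationIdx' w.asIdeal : ℤ) := by
  haveI := isDedekindDomain_B y hy
  haveI := isFractionRing_B (k := k) y
  haveI := isDedekindDomain_adjoin y hy
  haveI : w.asIdeal.LiesOver (ptH' y hy c).asIdeal := hw
  have h1 := HeightOneSpectrum.valuation_liesOver (K := k⟮y⟯) F (ptH' y hy c) w
    (algebraMap (Algebra.adjoin k {y}) k⟮y⟯ (gen y c))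
  rw [HeightOneSpectrum.valuation_of_algebraMap,
    HeightOneSpectrum.intValuation_singleton (ptH' y hy c) (gen_ne_zero y hy c) rfl] at h1
  have h2 : algebraMap k⟮y⟯ F (algebraMap (Algebra.adjoin k {y}) k⟮y⟯ (gen y c)) =
      y - algebraMap k F c := rfl
  rw [h2] at h1
  rw [ord_ofHeightOneSpectrum, ← h1]
  show -log (exp (-1 : ℤ) ^ (pt y c).ramificationIdx' w.asIdeal) = _
  rw [← WithZero.exp_nsmul, WithZero.log_exp]
  simp

set_option synthInstance.maxHeartbeats 400000 in
set_option maxHeartbeats 1000000 in
theorem inertiaDeg_eq_one [IsAlgClosed k] (hy : Transcendental k y) (c : k)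
    (w : HeightOneSpectrum (integralClosure (Algebra.adjoin k {y}) F))
    (hw : w.asIdeal.LiesOver (pt y c)) :
    (pt y c).inertiaDeg' w.asIdeal = 1 := by
  haveI := isDedekindDomain_B y hy
  haveI := isFractionRing_B (k := k) y
  haveI := hw
  rw [Ideal.inertiaDeg'_algebraMap]
  haveI := pt_isMaximal y hy c
  letI := Ideal.Quotient.field (pt y c)
  rw [finrank_eq_one_iff_of_nonzero' (1 : integralClosure (Algebra.adjoin k {y}) F ⧸ w.asIdeal)
    one_ne_zero]
  intro z
  obtain ⟨b, rfl⟩ := Ideal.Quotient.mk_surjective z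
  obtain ⟨c', hc'⟩ := residue_B y hy w b
  refine ⟨Ideal.Quotient.mk _ (algebraMap k (Algebra.adjoin k {y}) c'), ?_⟩
  rw [Algebra.smul_def, mul_one]
  rw [← Ideal.Quotient.eq] at hc'
  rw [hc']
  rfl

set_option synthInstance.maxHeartbeats 400000 in
set_option maxHeartbeats 1000000 in
/-- The fundamental identity over a finite point. -/
theorem exists_finset_placesOver [IsAlgClosed k] (hy : Transcendental k y) (c : k) :
    ∃ T : Finset (Place k F), (↑T : Set (Place k F)) = placesOver y c ∧
      ∑ v ∈ T, v.ord (y - algebraMap k F c) = (Module.finrank k⟮y⟯ F : ℤ) := by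
  classical
  haveI := isDedekindDomain_B y hy
  haveI := isFractionRing_B (k := k) y
  haveI := isDedekindDomain_adjoin y hy
  haveI := pt_isMaximal y hy c
  haveI := finite_B (F := F) y hy
  have hp0 := pt_ne_bot y hy c
  set S := IsDedekindDomain.primesOverFinset (pt y c) (integralClosure (Algebra.adjoin k {y}) F)
    with hS
  have hmemS : ∀ P, P ∈ S ↔ P.IsPrime ∧ P.LiesOver (pt y c) := fun P =>
    IsDedekindDomain.mem_primesOverFinset_iff hp0 _
  have hne : ∀ P, P ∈ S → P ≠ ⊥ := by
    intro P hP
    haveI := ((hmemS P).mp hP).2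
    exact Ideal.ne_bot_of_liesOver_of_ne_bot hp0 P
  let g : {P // P ∈ S} → Place k F := fun P =>
    Place.ofHeightOneSpectrum (K := k) (F := F)
      (⟨P.1, ((hmemS P.1).mp P.2).1, hne P.1 P.2⟩ :
        HeightOneSpectrum (integralClosure (Algebra.adjoin k {y}) F))
  have hg : Function.Injective g := by
    intro P Q h
    have := ofHeightOneSpectrum_injective (k := k) (F := F) h
    apply Subtype.ext
    exact congrArg HeightOneSpectrum.asIdeal this
  refine ⟨S.attach.image g, ?_, ?_⟩
  · ext v
    simp only [Finset.coe_image, Finset.coe_attach, Set.image_univ, Set.mem_range]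
    constructor
    · rintro ⟨P, rfl⟩
      have hlo := ((hmemS P.1).mp P.2).2
      rw [mem_placesOver]
      show 0 < (Place.ofHeightOneSpectrum (K := k) (F := F) _).ord _
      rw [ord_gen_eq_ramificationIdx y hy c _ hlo]
      haveI := hlo
      haveI := ((hmemS P.1).mp P.2).1
      have := Ideal.IsDedekindDomain.ramificationIdx'_ne_zero_of_liesOver (p := pt y c) P.1 hp0
      exact_mod_cast Nat.pos_of_ne_zero this
    · intro hv
      obtain ⟨w, hw, hwmem⟩ := exists_eq_ofHeightOneSpectrum_B y hy v
        (ord_nonneg_of_mem_placesOver y c v hv)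
      have hgenmem : algebraMap (Algebra.adjoin k {y})
          (integralClosure (Algebra.adjoin k {y}) F) (gen y c) ∈ w.asIdeal := by
        rw [hwmem]
        left
        refine ⟨?_, hv⟩
        intro h0
        have h1 := congrArg Subtype.val h0
        exact gen_ne_zero y hy c (Subtype.ext h1)
      have hlo := liesOver_of_mem y hy c w.asIdeal w.isPrime hgenmem
      have hwS : w.asIdeal ∈ S := (hmemS _).mpr ⟨w.isPrime, hlo⟩
      exact ⟨⟨w.asIdeal, hwS⟩, hw.symm⟩
  · rw [Finset.sum_image (fun P _ Q _ h => hg h)]
    have hsum := Ideal.sum_ramification_inertia (R := Algebra.adjoin k {y})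
      (S := integralClosure (Algebra.adjoin k {y}) F) k⟮y⟯ F hp0
    rw [← hsum, Nat.cast_sum]
    conv_rhs => rw [← Finset.sum_attach]
    apply Finset.sum_congr rfl
    intro P _
    have hlo := ((hmemS P.1).mp P.2).2
    have h1 := ord_gen_eq_ramificationIdx y hy c
      (⟨P.1, ((hmemS P.1).mp P.2).1, hne P.1 P.2⟩ :
        HeightOneSpectrum (integralClosure (Algebra.adjoin k {y}) F)) hlo
    have h2 := inertiaDeg_eq_one y hy c
      (⟨P.1, ((hmemS P.1).mp P.2).1, hne P.1 P.2⟩ :
        HeightOneSpectrum (integralClosure (Algebra.adjoin k {y}) F)) hlo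
    show (Place.ofHeightOneSpectrum (K := k) (F := F) _).ord _ = _
    rw [h1]
    simp only at h2 ⊢
    rw [h2, mul_one]

end Fiber

section Exports

variable [IsAlgClosed k] (x : F) (hx : Transcendental k x)
variable [FiniteDimensional k⟮x⟯ F] [Algebra.IsSeparable k⟮x⟯ F]

include hx in
theorem placesOver_finite (a : k) : (placesOver (k := k) x a).Finite := by
  obtain ⟨T, hT, -⟩ := exists_finset_placesOver x hx a
  rw [← hT]
  exact T.finite_toSet

include hx in
/-- The fundamental identity: `∑_{v ∣ a} e_v = [F : k(x)]`. -/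
theorem finsum_ord_placesOver (a : k) :
    ∑ᶠ v ∈ placesOver (k := k) x a, v.ord (x - algebraMap k F a) =
      (Module.finrank k⟮x⟯ F : ℤ) := by
  obtain ⟨T, hT, hsum⟩ := exists_finset_placesOver x hx a
  rw [← hT, finsum_mem_coe_finset, hsum]

include hx in
/-- The easy half of the fundamental identity. -/
theorem sum_ord_le_finrank (a : k) (S : Finset (Place k F))
    (hS : ∀ v ∈ S, v ∈ placesOver (k := k) x a) :
    ∑ v ∈ S, v.ord (x - algebraMap k F a) ≤ (Module.finrank k⟮x⟯ F : ℤ) := by
  obtain ⟨T, hT, hsum⟩ := exists_finset_placesOver x hx a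
  rw [← hsum]
  apply Finset.sum_le_sum_of_subset_of_nonneg
  · intro v hv
    have := hS v hv
    rw [← hT] at this
    exact this
  · intro v hv _
    have : v ∈ placesOver (k := k) x a := by
      rw [← hT]
      exact hv
    exact (mem_placesOver.mp this).le

include hx in
theorem placesOverInfty_finite : (placesOverInfty (k := k) x).Finite := by
  rw [placesOverInfty_eq]
  haveI := finiteDimensional_inv (k := k) x
  haveI := isSeparable_inv (k := k) x
  exact placesOver_finite x⁻¹ (transcendental_inv x hx) 0

include hx in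
/-- The fundamental identity at infinity: `∑_{v ∣ ∞} e_v = [F : k(x)]`. -/
theorem finsum_ord_placesOverInfty :
    ∑ᶠ v ∈ placesOverInfty (k := k) x, - v.ord x = (Module.finrank k⟮x⟯ F : ℤ) := by
  rw [placesOverInfty_eq]
  haveI := finiteDimensional_inv (k := k) x
  haveI := isSeparable_inv (k := k) x
  have h := finsum_ord_placesOver x⁻¹ (transcendental_inv x hx) 0
  rw [finrank_eq_of_eq (adjoin_inv_eq (k := k) x)] at h
  rw [← h]
  apply finsum_mem_congr rfl
  intro v _
  rw [map_zero, sub_zero, v.ord_inv]

include hx in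
/-- The number of places over a finite point is at most the degree. -/
theorem ncard_placesOver_le (a : k) :
    ((placesOver (k := k) x a).ncard : ℤ) ≤ (Module.finrank k⟮x⟯ F : ℤ) := by
  classical
  obtain ⟨T, hT, hsum⟩ := exists_finset_placesOver x hx a
  rw [← hT, Set.ncard_coe_finset, ← hsum, Finset.card_eq_sum_ones, Nat.cast_sum]
  apply Finset.sum_le_sum
  intro v hv
  have : v ∈ placesOver (k := k) x a := by
    rw [← hT]
    exact hv
  have := mem_placesOver.mp this
  simp only [Nat.cast_one]
  omega

end Exports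

end Fermat.Agent.S18.FFSepFiber
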