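import Mathlib
import Fermat.Prelude.Def_ModularCurve_ReductionModL
import Fermat.Agent.S18.DegEq
import Fermat.Agent.S18.SepLaurent
import Fermat.Agent.S18.FFSep
import Fermat.Agent.S18.FFSepFiber

/-!
# S18, infrastructure: the reduced function field as a separable function field

The reduced function field `Fk = modularFunctionFieldFullC k N` over a perfect field `k` is
separable over `k(j̄)` as soon as it is algebraic over it.  For the residue field `k` of a
valuation ring `A` of `ℚ̄` this makes the characteristic-free function field library
`S18.FFSep`, `S18.FFSepFiber` available for `Fk` with the separating element `j̄`.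
-/

set_option autoImplicit false
set_option linter.style.haveILetI false

noncomputable section

namespace Fermat.Agent.S18.FbarSep

open ModularCurve AlgebraicCurve IntermediateField
open Fermat.Agent.S24 Fermat.Agent.S24.Eval Fermat.Agent.S18.DegEq

/-! ### Separability -/

section Sep

variable (k : Type*) [Field k]

theorem order_jqModC' : (jqModC k).order = -1 := by
  have hne : jqModC k ≠ 0 := jqModC_ne_zero_of_nontrivial k
  have h1 : (jqModC k).order ≤ -1 := by
    apply HahnSeries.order_le_of_coeff_ne_zero
    rw [coeff_jqModC_neg_one]
    exact one_ne_zero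
  have h2 : (jqModC k).coeff (jqModC k).order ≠ 0 := fun h0 => hne (HahnSeries.coeff_order_eq_zero.mp h0)
  by_contra h
  exact h2 (coeff_jqModC_of_lt k (lt_of_le_of_ne h1 h))

variable (N : ℕ) [PerfectField k]

/-- The reduced function field is separable over `k(j̄)`, if it is algebraic over it. -/
theorem isSeparable_jk [Algebra.IsAlgebraic k⟮jk k N⟯ (modularFunctionFieldFullC k N)] :
    Algebra.IsSeparable k⟮jk k N⟯ (modularFunctionFieldFullC k N) := by
  obtain ⟨p, hchar⟩ := CharP.exists k
  rcases CharP.char_is_prime_or_zero k p with hp | hp0
  · haveI : Fact p.Prime := ⟨hp⟩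
    haveI : CharP (modularFunctionFieldFullC k N) p :=
      charP_of_injective_algebraMap (algebraMap k (modularFunctionFieldFullC k N)).injective p
    refine ⟨fun y => ?_⟩
    refine Fermat.Agent.S18.SepLaurent.isSeparable_of_pBasis p k⟮jk k N⟯ (jk k N)
      (fun a ha => Fermat.Agent.S18.SepLaurent.isComb_of_mem_adjoin p (jk k N) ha) ?_ y
      (Algebra.IsAlgebraic.isAlgebraic y).isIntegral
    intro z hz
    have h1 := congrArg (modularFunctionFieldFullC k N).val hz
    rw [map_sum, map_zero] at h1
    have h2 : ∑ j ∈ Finset.range p,
        ((fun j => ((z j : modularFunctionFieldFullC k N) : LaurentSeries k)) j) ^ p *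
          jqModC k ^ j = 0 := by
      rw [← h1]
      refine Finset.sum_congr rfl fun j _ => ?_
      rw [map_mul, map_pow, map_pow]
      rfl
    have h3 := Fermat.Agent.S18.SepLaurent.laurent_independent p (jqModC k) (by
      rw [order_jqModC', dvd_neg]
      intro h
      have := Int.le_of_dvd one_pos h
      have := hp.two_le
      omega) _ h2
    intro j hj
    exact Subtype.ext (h3 j hj)
  · subst hp0
    haveI : CharZero k := CharP.charP_to_charZero k
    haveI : CharZero ↥k⟮jk k N⟯ :=
      charZero_of_injective_algebraMap (algebraMap k ↥k⟮jk k N⟯).injective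
    infer_instance

end Sep

/-! ### The residue field of a valuation ring of `ℚ̄` -/

section Residue

variable {A : ValuationSubring KK} (N : ℕ) [NeZero N]

theorem isAlgebraic_residue :
    Algebra.IsAlgebraic (IsLocalRing.ResidueField A)⟮jk (IsLocalRing.ResidueField A) N⟯
      (modularFunctionFieldFullC (IsLocalRing.ResidueField A) N) :=
  haveI := finiteDimensional_residue (A := A) N
  Algebra.IsAlgebraic.of_finite _ _

/-- The reduced function field is separable over `k(j̄)`. -/
theorem isSeparable_residue :
    Algebra.IsSeparable (IsLocalRing.ResidueField A)⟮jk (IsLocalRing.ResidueField A) N⟯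
      (modularFunctionFieldFullC (IsLocalRing.ResidueField A) N) :=
  haveI := isAlgebraic_residue (A := A) N
  isSeparable_jk _ N

/-- Every place of the reduced function field has degree one. -/
theorem place_deg_eq_one
    (v : Place (IsLocalRing.ResidueField A)
      (modularFunctionFieldFullC (IsLocalRing.ResidueField A) N)) : v.deg = 1 :=
  haveI := finiteDimensional_residue (A := A) N
  haveI := isSeparable_residue (A := A) N
  Fermat.Agent.S18.FFSep.place_deg_eq_one (jk _ N) (transcendental_jk _ N) v

/-- The residue of a function at a place of the reduced function field is a constant. -/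
theorem exists_sub_algebraMap_ord_pos
    (v : Place (IsLocalRing.ResidueField A)
      (modularFunctionFieldFullC (IsLocalRing.ResidueField A) N))
    {f : modularFunctionFieldFullC (IsLocalRing.ResidueField A) N} (hf : 0 ≤ v.ord f) :
    ∃ c : IsLocalRing.ResidueField A, f = algebraMap _ _ c ∨
      0 < v.ord (f - algebraMap _ _ c) :=
  haveI := finiteDimensional_residue (A := A) N
  haveI := isSeparable_residue (A := A) N
  Fermat.Agent.S18.FFSep.exists_sub_algebraMap_ord_pos (jk _ N) (transcendental_jk _ N) v hf

theorem placesOver_finite (a : IsLocalRing.ResidueField A) :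
    (placesOver (k := IsLocalRing.ResidueField A) (jk (IsLocalRing.ResidueField A) N) a).Finite :=
  haveI := finiteDimensional_residue (A := A) N
  haveI := isSeparable_residue (A := A) N
  Fermat.Agent.S18.FFSepFiber.placesOver_finite (jk _ N) (transcendental_jk _ N) a

theorem placesOverInfty_finite :
    (placesOverInfty (k := IsLocalRing.ResidueField A)
      (jk (IsLocalRing.ResidueField A) N)).Finite :=
  haveI := finiteDimensional_residue (A := A) N
  haveI := isSeparable_residue (A := A) N
  Fermat.Agent.S18.FFSepFiber.placesOverInfty_finite (jk _ N) (transcendental_jk _ N)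

variable {ℓ : ℕ} [Fact ℓ.Prime]

/-- The fundamental identity over a finite point of the `j̄`-line. -/
theorem finsum_ord_placesOver (hA : A.LiesOverPrime ℓ) (hℓN : ¬ ℓ ∣ N)
    (a : IsLocalRing.ResidueField A) :
    ∑ᶠ v ∈ placesOver (k := IsLocalRing.ResidueField A) (jk (IsLocalRing.ResidueField A) N) a,
      v.ord (jk (IsLocalRing.ResidueField A) N - algebraMap _ _ a) = (dedekindPsi N : ℤ) := by
  haveI := finiteDimensional_residue (A := A) N
  haveI := isSeparable_residue (A := A) N
  rw [Fermat.Agent.S18.FFSepFiber.finsum_ord_placesOver (jk _ N) (transcendental_jk _ N) a,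
    finrank_residue N hA hℓN]

/-- The fundamental identity over the point at infinity of the `j̄`-line. -/
theorem finsum_ord_placesOverInfty (hA : A.LiesOverPrime ℓ) (hℓN : ¬ ℓ ∣ N) :
    ∑ᶠ v ∈ placesOverInfty (k := IsLocalRing.ResidueField A)
      (jk (IsLocalRing.ResidueField A) N),
      - v.ord (jk (IsLocalRing.ResidueField A) N) = (dedekindPsi N : ℤ) := by
  haveI := finiteDimensional_residue (A := A) N
  haveI := isSeparable_residue (A := A) N
  rw [Fermat.Agent.S18.FFSepFiber.finsum_ord_placesOverInfty (jk _ N) (transcendental_jk _ N),
    finrank_residue N hA hℓN]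

end Residue

end Fermat.Agent.S18.FbarSep
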