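import Mathlib
import Fermat.Agent.S18.FFSep
import Fermat.Agent.S18.Charts
import Fermat.Agent.S18.FbarSep

/-!
# S18 infrastructure: regular functions are integral

For a function field `F / k` (`k` algebraically closed) with a separating element `y`: a function
is integral over `k[y]` if and only if it is regular at every place at which `y` is regular.
Instances: `FF N` with `j` and `1/j` (charts 1 and 2 in characteristic `0`), and the reduced
function field with `j̄` and `1/j̄`.
-/

set_option autoImplicit false
set_option linter.style.haveILetI false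
set_option linter.unusedSectionVars false

noncomputable section

namespace Fermat.Agent.S18.RegInt

open AlgebraicCurve IntermediateField IsDedekindDomain ModularCurve
open Fermat.Agent.S24 Fermat.Agent.S24.Eval Fermat.Agent.S18.FFSep

section Generic

variable {k F : Type*} [Field k] [Field F] [Algebra k F]

theorem mem_of_ord_nonneg₀ (P : Place k F) (f : F) (h : 0 ≤ P.ord f) :
    f ∈ P.toValuationSubring := by
  rcases eq_or_ne f 0 with rfl | hf
  · exact zero_mem _
  · exact mem_of_ord_nonneg P hf h

variable (y : F) [FiniteDimensional k⟮y⟯ F] [Algebra.IsSeparable k⟮y⟯ F]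

/-- Integral functions are regular where `y` is. -/
theorem regular_of_isIntegral (f : F) (hf : IsIntegral (Algebra.adjoin k {y}) f)
    (v : Place k F) (hv : 0 ≤ v.ord y) : 0 ≤ v.ord f :=
  ord_nonneg_of_mem v (integralClosure_mem_of_ord_nonneg y v hv f hf)

/-- Functions that are regular wherever `y` is regular are integral over `k[y]`. -/
theorem isIntegral_of_regular (hy : Transcendental k y) (f : F)
    (hf : ∀ v : Place k F, 0 ≤ v.ord y → 0 ≤ v.ord f) :
    IsIntegral (Algebra.adjoin k {y}) f := by
  haveI := isDedekindDomain_B y hy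
  haveI := isFractionRing_B (k := k) y
  have hyB : y ∈ integralClosure (Algebra.adjoin k {y}) F :=
    (isIntegral_algebraMap (R := Algebra.adjoin k {y})
      (x := (⟨y, Algebra.subset_adjoin (Set.mem_singleton y)⟩ : Algebra.adjoin k {y})))
  have h : ∀ w : HeightOneSpectrum (integralClosure (Algebra.adjoin k {y}) F),
      w.valuation F f ≤ 1 := by
    intro w
    rw [← mem_ofHeightOneSpectrum_iff (k := k)]
    apply mem_of_ord_nonneg₀
    apply hf
    apply ord_nonneg_of_mem
    rw [mem_ofHeightOneSpectrum_iff]
    exact w.valuation_le_one (⟨y, hyB⟩ : integralClosure (Algebra.adjoin k {y}) F)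
  obtain ⟨b, hb⟩ := HeightOneSpectrum.mem_integers_of_valuation_le_one F f h
  rw [← hb]
  exact b.2

theorem isIntegral_iff_regular (hy : Transcendental k y) (f : F) :
    IsIntegral (Algebra.adjoin k {y}) f ↔ ∀ v : Place k F, 0 ≤ v.ord y → 0 ≤ v.ord f :=
  ⟨fun h v hv => regular_of_isIntegral y f h v hv, isIntegral_of_regular y hy f⟩

end Generic

/-! ### The function field of level `N` in characteristic `0` -/

section Level

open Fermat.Agent.S18.Charts

variable (N : ℕ) [NeZero N]

theorem isSeparable_jF : Algebra.IsSeparable KK⟮jF N⟯ (FF N) := by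
  haveI := Degree.finiteDimensional_jF N
  haveI : CharZero ↥KK⟮jF N⟯ :=
    charZero_of_injective_algebraMap (algebraMap KK ↥KK⟮jF N⟯).injective
  infer_instance

theorem mem_regAt_iff (g f : FF N) :
    f ∈ regAt N g ↔ ∀ P : Place KK (FF N), 0 ≤ P.ord g → 0 ≤ P.ord f := by
  rw [mem_regAt]
  constructor
  · intro h P hP
    exact ord_nonneg_of_mem P (h P (mem_of_ord_nonneg₀ P g hP))
  · intro h P hP
    exact mem_of_ord_nonneg₀ P f (h P (ord_nonneg_of_mem P hP))

/-- Chart 1 in characteristic `0`: regular at the finite places = integral over `KK[j]`. -/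
theorem mem_regAt_j_iff (f : FF N) :
    f ∈ regAt N (jF N) ↔ IsIntegral (Algebra.adjoin KK {jF N}) f := by
  haveI := Degree.finiteDimensional_jF N
  haveI := isSeparable_jF N
  rw [mem_regAt_iff, isIntegral_iff_regular (jF N) (Degree.transcendental_jF N)]

/-- Chart 2 in characteristic `0`: regular away from the zeros of `j` = integral over
`KK[1/j]`. -/
theorem mem_regAt_jinv_iff (f : FF N) :
    f ∈ regAt N (jF N)⁻¹ ↔ IsIntegral (Algebra.adjoin KK {(jF N)⁻¹}) f := by
  haveI := Degree.finiteDimensional_jF N
  haveI := isSeparable_jF N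
  haveI := finiteDimensional_inv (k := KK) (jF N)
  haveI := isSeparable_inv (k := KK) (jF N)
  rw [mem_regAt_iff, isIntegral_iff_regular (jF N)⁻¹
    (FFFiber.transcendental_inv (jF N) (Degree.transcendental_jF N))]

end Level

/-! ### The reduced function field -/

section Reduced

open Fermat.Agent.S18.Charts Fermat.Agent.S18.Lattice Fermat.Agent.S18.DegEq

variable (A : ValuationSubring KK) (N : ℕ) [NeZero N]

/-- `B1b` = the functions of the reduced function field regular where `j̄` is. -/
theorem mem_B1b_iff (x : FkN A N) :
    x ∈ B1b A N ↔ ∀ Q : Place (IsLocalRing.ResidueField A) (FkN A N),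
      0 ≤ Q.ord (jb A N) → 0 ≤ Q.ord x := by
  haveI := finiteDimensional_residue (A := A) N
  haveI := Fermat.Agent.S18.FbarSep.isSeparable_residue (A := A) N
  exact isIntegral_iff_regular (jb A N) (transcendental_jk _ N) x

/-- `B2b` = the functions of the reduced function field regular where `1/j̄` is. -/
theorem mem_B2b_iff (x : FkN A N) :
    x ∈ B2b A N ↔ ∀ Q : Place (IsLocalRing.ResidueField A) (FkN A N),
      0 ≤ Q.ord (jb A N)⁻¹ → 0 ≤ Q.ord x := by
  haveI := finiteDimensional_residue (A := A) N
  haveI := Fermat.Agent.S18.FbarSep.isSeparable_residue (A := A) N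
  haveI := finiteDimensional_inv (k := IsLocalRing.ResidueField A) (jb A N)
  haveI := isSeparable_inv (k := IsLocalRing.ResidueField A) (jb A N)
  exact isIntegral_iff_regular (jb A N)⁻¹
    (FFFiber.transcendental_inv (jb A N) (transcendental_jk _ N)) x

end Reduced

end Fermat.Agent.S18.RegInt
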