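import Mathlib
import Fermat.Agent.S18.HauptMu
import Fermat.Agent.S18.HauptInt
import Fermat.Agent.S18.Charts
import Fermat.Agent.S18.DecMod
import Fermat.Agent.S18.RegInt

/-!
# S18 moonshot, Hauptmodul package: the Hauptmoduln in the integral chart

For a valuation ring `A` of `KK` over `ℓ`, a level `N` prime to `ℓ`:

* `mem_OO_of_inc` : a function of `FF N` whose `q`-expansion has coefficients in `A` lies in the
  Gauss ring `OO A N` (from the decomposition property `Dec`);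
* if `4 ∣ N` and the relation between `j` and `μ₄` holds, then `μ₄` and `1 / (μ₄⁴ (μ₄ + 16))` lie
  in `Charts.O1int A N`; likewise for `9 ∣ N`;
* the reduction of `μ₄` is the series `ThetaL k 4 8`.
-/

set_option autoImplicit false

namespace Fermat.Agent.S18.HauptChart

open AlgebraicCurve Polynomial ModularCurve
open Fermat.Agent.S24 Fermat.Agent.S24.Eval
open Fermat.Agent.S28.UnitEq
open Fermat.Agent.S18.Gauss Fermat.Agent.S18.Lattice Fermat.Agent.S18.Charts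
open Fermat.Agent.S18.HauptSeries Fermat.Agent.S18.HauptMu Fermat.Agent.S18.HauptInt
open Fermat.Agent.S18.HauptParam Fermat.Agent.S18.HauptParamFF

variable {A : ValuationSubring KK} {ℓ : ℕ} [Fact ℓ.Prime] (N : ℕ) [NeZero N]

/-! ### Integral `q`-expansion implies Gauss-integral -/

/-- **A function with `q`-expansion in `A((q))` lies in the Gauss ring.** -/
theorem mem_OO_of_inc (hA : A.LiesOverPrime ℓ) (hℓN : ¬ ℓ ∣ N) {f : FF N}
    {y : LaurentSeries A} (hy : inc A y = (f : LaurentSeries KK)) : f ∈ OO A N := by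
  rcases Fermat.Agent.S18.DecMod.mem_or_inv_mem_OO N hA hℓN f with h | h
  · exact h
  · by_cases hf0 : f = 0
    · rw [hf0]
      exact zero_mem _
    obtain ⟨n, Y, hn, hY, hnY⟩ := h
    -- `f⁻¹ * inc Y = inc n`, hence `inc Y = inc (y * n)`
    have hfc : (f : LaurentSeries KK) ≠ 0 := fun h0 => hf0 (Subtype.ext h0)
    have h1 : inc A Y = inc A (y * n) := by
      rw [map_mul, hy, ← hnY]
      push_cast
      rw [← mul_assoc, mul_inv_cancel₀ hfc, one_mul]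
    have h2 : Y = y * n := inc_injective A h1
    have h3 : rd A y * rd A n = rd A Y := by rw [h2, map_mul]
    have hn0 : rd A n ≠ 0 := by
      intro h0
      rw [h0, mul_zero] at h3
      exact hY.2 h3.symm
    have hnU : IsIntU A (modularFunctionFieldBar N) (FkN A N) n := ⟨hn, hn0⟩
    have h4 : (f : LaurentSeries KK) * inc A n = inc A Y := by
      rw [h1, map_mul, hy]
    exact ⟨Y, n, hY.1, hnU, h4⟩

/-! ### The denominator is a unit at the finite places -/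

theorem eval_eq_zero_of_aeval {K F : Type*} [Field K] [Field F] [Algebra K F] (v : Place K F)
    {μ : F} {b : K} (h : 0 < v.ord (μ - algebraMap K F b)) (P : K[X])
    (hP : aeval μ P = 0 ∨ 0 < v.ord (aeval μ P)) : P.eval b = 0 := by
  by_contra hne
  obtain ⟨h1, h2⟩ := ord_aeval_eq_zero v h P hne
  rcases hP with h0 | h0
  · exact h1 h0
  · omega

/-- If `x B(μ) = Q(μ)³` with `Q`, `B` without common root, then `B(μ)` is a unit at every place
at which `x` is regular and `μ` has a residue. -/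
theorem ord_aeval_denominator {K F : Type*} [Field K] [Field F] [Algebra K F] (v : Place K F)
    {x μ : F} {b : K} (h : 0 < v.ord (μ - algebraMap K F b)) (Q B : K[X])
    (hcop : ∀ b : K, Q.eval b = 0 → B.eval b ≠ 0)
    (hrel : x * aeval μ B = (aeval μ Q) ^ 3) (hx0 : x ≠ 0) (hx : 0 ≤ v.ord x) :
    aeval μ B ≠ 0 ∧ v.ord (aeval μ B) = 0 := by
  refine ord_aeval_eq_zero v h B fun hB0 => ?_
  have hμ := ord_nonneg_of_sub v h
  refine hcop b (eval_eq_zero_of_aeval v h Q ?_) hB0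
  by_cases hB : aeval μ B = 0
  · left
    rw [hB, mul_zero] at hrel
    exact pow_eq_zero_iff (by norm_num) |>.mp hrel.symm
  · right
    have h2 := aeval_eq_sub_mul_add μ b B
    rw [hB0, map_zero, add_zero] at h2
    have h1 : μ - algebraMap K F b ≠ 0 := by
      intro h0
      rw [h0, v.ord_zero] at h
      exact lt_irrefl _ h
    have h4 : aeval μ (B /ₘ (X - C b)) ≠ 0 := by
      intro h0
      rw [h0, mul_zero] at h2
      exact hB h2
    have h5 : 0 < v.ord (aeval μ B) := by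
      rw [h2, v.ord_mul h1 h4]
      have := ord_aeval_nonneg v hμ (B /ₘ (X - C b))
      omega
    have h6 : v.ord ((aeval μ Q) ^ 3) = v.ord x + v.ord (aeval μ B) := by
      rw [← hrel, v.ord_mul hx0 hB]
    rw [ord_pow] at h6
    push_cast at h6
    omega

/-- `1 / B(μ)` is regular at the finite places. -/
theorem inv_aeval_mem_regAt (μ : FF N) (Q B : KK[X])
    (hcop : ∀ b : KK, Q.eval b = 0 → B.eval b ≠ 0)
    (hrel : jF N * aeval μ B = (aeval μ Q) ^ 3)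
    (hB3 : ∀ v : Place KK (FF N), 0 ≤ v.ord (jF N) →
      0 ≤ v.ord μ ∧ ∃ b : KK, v.ord (μ - algebraMap KK (FF N) b) = 1) :
    (aeval μ B)⁻¹ ∈ regAt N (jF N) := by
  rw [Fermat.Agent.S18.RegInt.mem_regAt_iff]
  intro v hv
  obtain ⟨-, b, hb⟩ := hB3 v hv
  have hj0 : jF N ≠ 0 := fun h0 =>
    Fermat.Agent.S24.Degree.transcendental_jF N (h0 ▸ isAlgebraic_zero)
  have h := (ord_aeval_denominator v (by omega : 0 < v.ord (μ - algebraMap KK (FF N) b)) Q B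
    hcop hrel hj0 hv).2
  rw [v.ord_inv, h]
  simp

theorem mem_regAt_of_hB3 (μ : FF N)
    (hB3 : ∀ v : Place KK (FF N), 0 ≤ v.ord (jF N) →
      0 ≤ v.ord μ ∧ ∃ b : KK, v.ord (μ - algebraMap KK (FF N) b) = 1) :
    μ ∈ regAt N (jF N) := by
  rw [Fermat.Agent.S18.RegInt.mem_regAt_iff]
  exact fun v hv => (hB3 v hv).1

/-! ### Level 4 -/

section Four

variable (h4 : 4 ∣ N)

theorem hrel_four_aeval
    (hZ : (ThetaL ℤ 4 8 ^ 2 + 256 * ThetaL ℤ 4 8 + 4096) ^ 3 =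
      jqModC ℤ * (ThetaL ℤ 4 8 ^ 4 * (ThetaL ℤ 4 8 + 16))) :
    jF N * aeval (mu4 N h4) B4 = (aeval (mu4 N h4) Q4) ^ 3 := by
  rw [aeval_Q4, aeval_B4, ← hrel_four N h4 hZ]
  ring

omit [NeZero N] in
theorem mu4_mem_intSeries (A : ValuationSubring KK) : mu4 N h4 ∈ intSeries A N :=
  ⟨ThetaL A 4 8, (coe_mu4_eq_coeffMap N h4 A.subtype).symm⟩

/-- The `q`-expansion of `1 / (μ₄⁴ (μ₄ + 16))` is the integral series `B4InvL`. -/
theorem coe_inv_B4 :
    (((aeval (mu4 N h4) B4)⁻¹ : FF N) : LaurentSeries KK) = B4InvL KK := by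
  have h1 : ((aeval (mu4 N h4) B4 : FF N) : LaurentSeries KK) = B4L KK := by
    rw [aeval_B4]
    have e2 : (modularFunctionFieldBar N).val.toRingHom (mu4 N h4) = ThetaL KK 4 8 := rfl
    show (modularFunctionFieldBar N).val.toRingHom (mu4 N h4 ^ 4 * (mu4 N h4 + 16)) = B4L KK
    simp only [map_mul, map_pow, map_add, map_ofNat, e2]
    rfl
  have h2 := B4L_mul_B4InvL KK
  have h3 : (((aeval (mu4 N h4) B4)⁻¹ : FF N) : LaurentSeries KK) =
      ((aeval (mu4 N h4) B4 : FF N) : LaurentSeries KK)⁻¹ := by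
    push_cast
    rfl
  rw [h3, h1]
  exact inv_eq_of_mul_eq_one_right h2

theorem inv_B4_mem_intSeries (A : ValuationSubring KK) :
    (aeval (mu4 N h4) B4)⁻¹ ∈ intSeries A N :=
  ⟨B4InvL A, by rw [coe_inv_B4]; exact coeffMap_B4InvL A.subtype⟩

/-- **`μ₄` lies in the integral chart.** -/
theorem mu4_mem_O1int (hA : A.LiesOverPrime ℓ) (hℓN : ¬ ℓ ∣ N)
    (hZ : (ThetaL ℤ 4 8 ^ 2 + 256 * ThetaL ℤ 4 8 + 4096) ^ 3 =
      jqModC ℤ * (ThetaL ℤ 4 8 ^ 4 * (ThetaL ℤ 4 8 + 16))) :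
    mu4 N h4 ∈ O1int A N := by
  rw [mem_O1int]
  exact ⟨mem_OO_of_inc N hA hℓN (y := ThetaL A 4 8) (coe_mu4_eq_coeffMap N h4 A.subtype).symm,
    mem_regAt_of_hB3 N _ (fun v hv => mu4_localParameter N h4 hZ v hv),
    mu4_mem_intSeries N h4 A⟩

/-- **`1 / (μ₄⁴ (μ₄ + 16))` lies in the integral chart.** -/
theorem inv_B4_mem_O1int (hA : A.LiesOverPrime ℓ) (hℓN : ¬ ℓ ∣ N)
    (hZ : (ThetaL ℤ 4 8 ^ 2 + 256 * ThetaL ℤ 4 8 + 4096) ^ 3 =
      jqModC ℤ * (ThetaL ℤ 4 8 ^ 4 * (ThetaL ℤ 4 8 + 16))) :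
    (aeval (mu4 N h4) B4)⁻¹ ∈ O1int A N := by
  rw [mem_O1int]
  refine ⟨mem_OO_of_inc N hA hℓN (y := B4InvL A) ?_,
    inv_aeval_mem_regAt N _ Q4 B4 coprime_four (hrel_four_aeval N h4 hZ)
      (fun v hv => mu4_localParameter N h4 hZ v hv),
    inv_B4_mem_intSeries N h4 A⟩
  rw [coe_inv_B4]
  exact coeffMap_B4InvL A.subtype

/-- The reduction of `μ₄` is `ThetaL k 4 8`. -/
theorem redN_mu4 (hf : mu4 N h4 ∈ OO A N) :
    ((redN A N ⟨mu4 N h4, hf⟩ : FkN A N) : LaurentSeries (IsLocalRing.ResidueField A)) =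
      ThetaL (IsLocalRing.ResidueField A) 4 8 := by
  rw [redN_eq_rd A N hf (y := ThetaL A 4 8) (coe_mu4_eq_coeffMap N h4 A.subtype).symm]
  exact coeffMap_ThetaL _ 4 8

/-- The reduction of `1 / (μ₄⁴ (μ₄ + 16))` is `B4InvL k`. -/
theorem redN_inv_B4 (hf : (aeval (mu4 N h4) B4)⁻¹ ∈ OO A N) :
    ((redN A N ⟨(aeval (mu4 N h4) B4)⁻¹, hf⟩ : FkN A N) :
      LaurentSeries (IsLocalRing.ResidueField A)) = B4InvL (IsLocalRing.ResidueField A) := by
  rw [redN_eq_rd A N hf (y := B4InvL A)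
    (by rw [coe_inv_B4]; exact coeffMap_B4InvL A.subtype)]
  exact coeffMap_B4InvL _

end Four

/-! ### Level 9 -/

section Nine

variable (h9 : 9 ∣ N)

theorem hrel_nine_aeval
    (hZ : ((ThetaL ℤ 9 3 + 9) *
        (ThetaL ℤ 9 3 ^ 3 + 243 * ThetaL ℤ 9 3 ^ 2 + 2187 * ThetaL ℤ 9 3 + 6561)) ^ 3 =
      jqModC ℤ * (ThetaL ℤ 9 3 ^ 9 * (ThetaL ℤ 9 3 ^ 2 + 9 * ThetaL ℤ 9 3 + 27))) :
    jF N * aeval (mu9 N h9) B9 = (aeval (mu9 N h9) Q9) ^ 3 := by
  rw [aeval_Q9, aeval_B9, ← hrel_nine N h9 hZ]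
  ring

omit [NeZero N] in
theorem mu9_mem_intSeries (A : ValuationSubring KK) : mu9 N h9 ∈ intSeries A N :=
  ⟨ThetaL A 9 3, (coe_mu9_eq_coeffMap N h9 A.subtype).symm⟩

/-- The `q`-expansion of `1 / (μ₉⁹ (μ₉² + 9 μ₉ + 27))` is the integral series `B9InvL`. -/
theorem coe_inv_B9 :
    (((aeval (mu9 N h9) B9)⁻¹ : FF N) : LaurentSeries KK) = B9InvL KK := by
  have h1 : ((aeval (mu9 N h9) B9 : FF N) : LaurentSeries KK) = B9L KK := by
    rw [aeval_B9]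
    have e2 : (modularFunctionFieldBar N).val.toRingHom (mu9 N h9) = ThetaL KK 9 3 := rfl
    show (modularFunctionFieldBar N).val.toRingHom
      (mu9 N h9 ^ 9 * (mu9 N h9 ^ 2 + 9 * mu9 N h9 + 27)) = B9L KK
    simp only [map_mul, map_pow, map_add, map_ofNat, e2]
    rfl
  have h2 := B9L_mul_B9InvL KK
  have h3 : (((aeval (mu9 N h9) B9)⁻¹ : FF N) : LaurentSeries KK) =
      ((aeval (mu9 N h9) B9 : FF N) : LaurentSeries KK)⁻¹ := by
    push_cast
    rfl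
  rw [h3, h1]
  exact inv_eq_of_mul_eq_one_right h2

theorem inv_B9_mem_intSeries (A : ValuationSubring KK) :
    (aeval (mu9 N h9) B9)⁻¹ ∈ intSeries A N :=
  ⟨B9InvL A, by rw [coe_inv_B9]; exact coeffMap_B9InvL A.subtype⟩

/-- **`μ₉` lies in the integral chart.** -/
theorem mu9_mem_O1int (hA : A.LiesOverPrime ℓ) (hℓN : ¬ ℓ ∣ N)
    (hZ : ((ThetaL ℤ 9 3 + 9) *
        (ThetaL ℤ 9 3 ^ 3 + 243 * ThetaL ℤ 9 3 ^ 2 + 2187 * ThetaL ℤ 9 3 + 6561)) ^ 3 =
      jqModC ℤ * (ThetaL ℤ 9 3 ^ 9 * (ThetaL ℤ 9 3 ^ 2 + 9 * ThetaL ℤ 9 3 + 27))) :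
    mu9 N h9 ∈ O1int A N := by
  rw [mem_O1int]
  exact ⟨mem_OO_of_inc N hA hℓN (y := ThetaL A 9 3) (coe_mu9_eq_coeffMap N h9 A.subtype).symm,
    mem_regAt_of_hB3 N _ (fun v hv => mu9_localParameter N h9 hZ v hv),
    mu9_mem_intSeries N h9 A⟩

/-- **`1 / (μ₉⁹ (μ₉² + 9 μ₉ + 27))` lies in the integral chart.** -/
theorem inv_B9_mem_O1int (hA : A.LiesOverPrime ℓ) (hℓN : ¬ ℓ ∣ N)
    (hZ : ((ThetaL ℤ 9 3 + 9) *
        (ThetaL ℤ 9 3 ^ 3 + 243 * ThetaL ℤ 9 3 ^ 2 + 2187 * ThetaL ℤ 9 3 + 6561)) ^ 3 =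
      jqModC ℤ * (ThetaL ℤ 9 3 ^ 9 * (ThetaL ℤ 9 3 ^ 2 + 9 * ThetaL ℤ 9 3 + 27))) :
    (aeval (mu9 N h9) B9)⁻¹ ∈ O1int A N := by
  rw [mem_O1int]
  refine ⟨mem_OO_of_inc N hA hℓN (y := B9InvL A) ?_,
    inv_aeval_mem_regAt N _ Q9 B9 coprime_nine (hrel_nine_aeval N h9 hZ)
      (fun v hv => mu9_localParameter N h9 hZ v hv),
    inv_B9_mem_intSeries N h9 A⟩
  rw [coe_inv_B9]
  exact coeffMap_B9InvL A.subtype

/-- The reduction of `μ₉` is `ThetaL k 4 8`. -/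
theorem redN_mu9 (hf : mu9 N h9 ∈ OO A N) :
    ((redN A N ⟨mu9 N h9, hf⟩ : FkN A N) : LaurentSeries (IsLocalRing.ResidueField A)) =
      ThetaL (IsLocalRing.ResidueField A) 9 3 := by
  rw [redN_eq_rd A N hf (y := ThetaL A 9 3) (coe_mu9_eq_coeffMap N h9 A.subtype).symm]
  exact coeffMap_ThetaL _ 9 3

/-- The reduction of `1 / (μ₉⁹ (μ₉² + 9 μ₉ + 27))` is `B9InvL k`. -/
theorem redN_inv_B9 (hf : (aeval (mu9 N h9) B9)⁻¹ ∈ OO A N) :
    ((redN A N ⟨(aeval (mu9 N h9) B9)⁻¹, hf⟩ : FkN A N) :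
      LaurentSeries (IsLocalRing.ResidueField A)) = B9InvL (IsLocalRing.ResidueField A) := by
  rw [redN_eq_rd A N hf (y := B9InvL A)
    (by rw [coe_inv_B9]; exact coeffMap_B9InvL A.subtype)]
  exact coeffMap_B9InvL _

end Nine

end Fermat.Agent.S18.HauptChart
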