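import Mathlib
import Fermat.Agent.S18.Ortho

/-!
# S18 infrastructure (A3): integrality passes to the reduction

Setting of `Gauss.lean`.  Let `J` be an integral series with transcendental reduction `j̄`, and
let `U_i` be elements of the Gauss ring `O` of `F` whose reductions are linearly independent
over `k(j̄)` and which span `F` over `L(j)` (an orthonormal basis).

* `Oj` : the Gauss ring of `L(j)` as a `ValuationSubring`; `rhoJ`, `psiJ` its residue map and
  its inclusion into `O`.
* `isIntegral_Oj` : every `f ∈ O` is integral over `Oj` (the `Oj`-module spanned by the `U_i`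
  is stable under `f`).
* `isIntegral_red` : if moreover `f` is integral over `L[j]`, then `red f` is integral over
  `k[j̄]` (the minimal polynomial of `f` over `L(j)` has coefficients in `Oj ∩ L[j] = A[j]`).
-/

set_option autoImplicit false
set_option linter.style.haveILetI false

noncomputable section

namespace Fermat.Agent.S18.IntRed

open ModularCurve HahnSeries Fermat.Agent.S18.Gauss Polynomial
open scoped IntermediateField.algebraAdjoinAdjoin

variable {L : Type*} [Field L] {A : ValuationSubring L} {J : LaurentSeries A}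

/-- The Gauss ring of `L(j)` as a valuation subring. -/
def Oj (hJt : Transcendental (IsLocalRing.ResidueField A) (rd A J)) :
    ValuationSubring (IntermediateField.adjoin L {inc A J}) :=
  { gaussRing A (IntermediateField.adjoin L {inc A J})
      (IntermediateField.adjoin (IsLocalRing.ResidueField A) {rd A J}) with
    mem_or_inv_mem' := fun x => mem_or_inv_mem (Ortho.dec_adjoin hJt) x }

variable (hJt : Transcendental (IsLocalRing.ResidueField A) (rd A J))

/-- The residue map of the Gauss ring of `L(j)`, with values in `k((q))`. -/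
def rhoJ : Oj hJt →+* LaurentSeries (IsLocalRing.ResidueField A) where
  toFun x := ((red A (IntermediateField.adjoin L {inc A J})
    (IntermediateField.adjoin (IsLocalRing.ResidueField A) {rd A J}) ⟨x.1, x.2⟩ :
      IntermediateField.adjoin (IsLocalRing.ResidueField A) {rd A J}) :
        LaurentSeries (IsLocalRing.ResidueField A))
  map_one' := by
    have : (⟨(1 : Oj hJt).1, (1 : Oj hJt).2⟩ : gaussRing A (IntermediateField.adjoin L {inc A J})
      (IntermediateField.adjoin (IsLocalRing.ResidueField A) {rd A J})) = 1 := rfl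
    rw [this, map_one]
    rfl
  map_mul' x y := by
    have : (⟨(x * y).1, (x * y).2⟩ : gaussRing A (IntermediateField.adjoin L {inc A J})
      (IntermediateField.adjoin (IsLocalRing.ResidueField A) {rd A J})) =
        ⟨x.1, x.2⟩ * ⟨y.1, y.2⟩ := rfl
    rw [this, map_mul]
    rfl
  map_zero' := by
    have : (⟨(0 : Oj hJt).1, (0 : Oj hJt).2⟩ : gaussRing A (IntermediateField.adjoin L {inc A J})
      (IntermediateField.adjoin (IsLocalRing.ResidueField A) {rd A J})) = 0 := rfl
    rw [this, map_zero]
    rfl
  map_add' x y := by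
    have : (⟨(x + y).1, (x + y).2⟩ : gaussRing A (IntermediateField.adjoin L {inc A J})
      (IntermediateField.adjoin (IsLocalRing.ResidueField A) {rd A J})) =
        ⟨x.1, x.2⟩ + ⟨y.1, y.2⟩ := rfl
    rw [this, map_add]
    rfl

variable {F : IntermediateField L (LaurentSeries L)}
  {Fk : IntermediateField (IsLocalRing.ResidueField A)
    (LaurentSeries (IsLocalRing.ResidueField A))}

/-- The inclusion of the Gauss ring of `L(j)` into the Gauss ring of `F`. -/
def psiJ (hJF : inc A J ∈ F) (hJk : rd A J ∈ Fk) : Oj hJt →+* gaussRing A F Fk where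
  toFun x := Ortho.incG (IntermediateField.adjoin_simple_le_iff.mpr hJF)
    (IntermediateField.adjoin_simple_le_iff.mpr hJk) ⟨x.1, x.2⟩
  map_one' := rfl
  map_mul' _ _ := rfl
  map_zero' := rfl
  map_add' _ _ := rfl

theorem red_psiJ (hJF : inc A J ∈ F) (hJk : rd A J ∈ Fk) (x : Oj hJt) :
    ((red A F Fk (psiJ hJt hJF hJk x) : Fk) : LaurentSeries (IsLocalRing.ResidueField A)) =
      rhoJ hJt x :=
  Ortho.red_incG (IntermediateField.adjoin_simple_le_iff.mpr hJF)
    (IntermediateField.adjoin_simple_le_iff.mpr hJk) ⟨x.1, x.2⟩

theorem coe_psiJ (hJF : inc A J ∈ F) (hJk : rd A J ∈ Fk) (x : Oj hJt) :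
    (((psiJ hJt hJF hJk x : gaussRing A F Fk) : F) : LaurentSeries L) =
      ((x : IntermediateField.adjoin L {inc A J}) : LaurentSeries L) := rfl


/-- The coefficients of a polynomial over the Gauss ring of `L(j)` which are polynomials in `j`
reduce into `k[j̄]`. -/
theorem rhoJ_mem_adjoin (x : Oj hJt)
    (hx : ((x : IntermediateField.adjoin L {inc A J}) : LaurentSeries L) ∈
      Algebra.adjoin L {inc A J}) :
    rhoJ hJt x ∈ Algebra.adjoin (IsLocalRing.ResidueField A) {rd A J} := by
  rw [Algebra.adjoin_singleton_eq_range_aeval] at hx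
  obtain ⟨P, hP⟩ := hx
  have hxP : (x : IntermediateField.adjoin L {inc A J}) = Ortho.polyJ J P :=
    Subtype.ext hP.symm
  have hmem : Ortho.polyJ J P ∈ gaussRing A (IntermediateField.adjoin L {inc A J})
      (IntermediateField.adjoin (IsLocalRing.ResidueField A) {rd A J}) := hxP ▸ x.2
  have hcoeff := (Ortho.polyJ_mem_gaussRing_iff hJt P).mp hmem
  have hl : P ∈ Polynomial.lifts A.subtype := by
    rw [Polynomial.lifts_iff_coeff_lifts]
    intro n
    exact ⟨⟨_, hcoeff n⟩, rfl⟩
  obtain ⟨P', hP'⟩ := (Polynomial.mem_lifts _).mp hl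
  subst hP'
  have h1 := Ortho.red_polyJ (J := J) P' hmem
  have h2 : rhoJ hJt x = ((red A _ _ ⟨Ortho.polyJ J (P'.map A.subtype), hmem⟩ :
      IntermediateField.adjoin (IsLocalRing.ResidueField A) {rd A J}) :
        LaurentSeries (IsLocalRing.ResidueField A)) := by
    show ((red A _ _ ⟨x.1, x.2⟩ : IntermediateField.adjoin (IsLocalRing.ResidueField A) {rd A J}) :
      LaurentSeries (IsLocalRing.ResidueField A)) = _
    congr 2
    exact Subtype.ext hxP
  rw [h2, h1, Algebra.adjoin_singleton_eq_range_aeval]
  exact ⟨_, rfl⟩


section Main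

variable {ι : Type*} [Fintype ι]

/-- The Gauss ring of `L(j)` acting on `L((q))`. -/
abbrev algOj : Algebra (Oj hJt) (LaurentSeries L) :=
  ((algebraMap (IntermediateField.adjoin L {inc A J}) (LaurentSeries L)).comp
    (algebraMap (Oj hJt) (IntermediateField.adjoin L {inc A J}))).toAlgebra

/-- **Step 1**: an element of the Gauss ring of `F` is integral over the Gauss ring of `L(j)`
(orthonormal basis + stable finitely generated module). -/
theorem isIntegral_Oj (hJF : inc A J ∈ F) (hJk : rd A J ∈ Fk) (U : ι → gaussRing A F Fk)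
    (hU : LinearIndependent (IntermediateField.adjoin (IsLocalRing.ResidueField A) {rd A J})
      (fun i => ((red A F Fk (U i) : Fk) : LaurentSeries (IsLocalRing.ResidueField A))))
    (hspan : ∀ f ∈ F, ∃ a : ι → IntermediateField.adjoin L {inc A J},
      f = ∑ i, (a i : LaurentSeries L) * ((U i : F) : LaurentSeries L))
    (f : gaussRing A F Fk) :
    letI := algOj hJt
    IsIntegral (Oj hJt) ((f : F) : LaurentSeries L) := by
  classical
  let _ := algOj hJt
  have hK0 : IntermediateField.adjoin L {inc A J} ≤ F :=
    IntermediateField.adjoin_simple_le_iff.mpr hJF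
  have hk0 : IntermediateField.adjoin (IsLocalRing.ResidueField A) {rd A J} ≤ Fk :=
    IntermediateField.adjoin_simple_le_iff.mpr hJk
  have hdec0 := Ortho.dec_adjoin hJt
  have hsmul : ∀ (c : Oj hJt) (x : LaurentSeries L),
      c • x = ((c : IntermediateField.adjoin L {inc A J}) : LaurentSeries L) * x := by
    intro c x
    rw [Algebra.smul_def]
    rfl
  refine isIntegral_of_smul_mem_submodule
    (Submodule.span (Oj hJt) (Set.range fun i => ((U i : F) : LaurentSeries L))) ?_
    (Submodule.fg_span (Set.finite_range _)) _ ?_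
  · -- the module is nonzero
    obtain ⟨a, ha⟩ := hspan 1 (one_mem F)
    have hex : ∃ i, ((U i : F) : LaurentSeries L) ≠ 0 := by
      by_contra hcon
      push Not at hcon
      have : (1 : LaurentSeries L) = 0 := by
        rw [ha]
        exact Finset.sum_eq_zero fun i _ => by rw [hcon i, mul_zero]
      exact one_ne_zero this
    obtain ⟨i, hi⟩ := hex
    rw [Submodule.ne_bot_iff]
    exact ⟨_, Submodule.subset_span ⟨i, rfl⟩, hi⟩
  · intro n hn
    induction hn using Submodule.span_induction with
    | mem x hx =>
      obtain ⟨i, rfl⟩ := hx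
      obtain ⟨a, ha⟩ := hspan (((f : F) : LaurentSeries L) * ((U i : F) : LaurentSeries L))
        (mul_mem (f : F).2 (U i : F).2)
      have hmem : ∑ j, IntermediateField.inclusion hK0 (a j) * (U j : F) ∈ gaussRing A F Fk := by
        have e : ∑ j, IntermediateField.inclusion hK0 (a j) * (U j : F) = (f : F) * (U i : F) := by
          apply Subtype.ext
          have h1 : ((∑ j, IntermediateField.inclusion hK0 (a j) * (U j : F) : F) :
              LaurentSeries L) =
              ∑ j, ((IntermediateField.inclusion hK0 (a j) * (U j : F) : F) : LaurentSeries L) :=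
            map_sum F.val _ _
          rw [h1]
          exact ha.symm
        rw [e]
        exact mul_mem f.2 (U i).2
      have hmemO := Ortho.mem_of_sum_mem hdec0 hK0 hk0 U hU a hmem
      have e2 : ((f : F) : LaurentSeries L) • ((U i : F) : LaurentSeries L) =
          ∑ j, (⟨a j, hmemO j⟩ : Oj hJt) • ((U j : F) : LaurentSeries L) := by
        rw [smul_eq_mul, ha]
        refine Finset.sum_congr rfl fun j _ => ?_
        rw [hsmul]
      rw [e2]
      exact Submodule.sum_mem _ fun j _ =>
        Submodule.smul_mem _ _ (Submodule.subset_span ⟨j, rfl⟩)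
    | zero =>
      rw [smul_zero]
      exact Submodule.zero_mem _
    | add x y _ _ hx hy =>
      rw [smul_add]
      exact Submodule.add_mem _ hx hy
    | smul c x _ hx =>
      have e : ((f : F) : LaurentSeries L) • c • x = c • (((f : F) : LaurentSeries L) • x) := by
        rw [smul_eq_mul, smul_eq_mul, hsmul, hsmul]
        ring
      rw [e]
      exact Submodule.smul_mem _ _ hx


/-- **Integrality passes to the reduction (A3)**: if `f` lies in the Gauss ring of `F` and is
integral over `L[j]`, then its reduction is integral over `k[j̄]`. -/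
theorem isIntegral_red (hJt : Transcendental (IsLocalRing.ResidueField A) (rd A J)) (hJF : inc A J ∈ F) (hJk : rd A J ∈ Fk) (U : ι → gaussRing A F Fk)
    (hU : LinearIndependent (IntermediateField.adjoin (IsLocalRing.ResidueField A) {rd A J})
      (fun i => ((red A F Fk (U i) : Fk) : LaurentSeries (IsLocalRing.ResidueField A))))
    (hspan : ∀ f ∈ F, ∃ a : ι → IntermediateField.adjoin L {inc A J},
      f = ∑ i, (a i : LaurentSeries L) * ((U i : F) : LaurentSeries L))
    (f : gaussRing A F Fk)
    (hf : IsIntegral (Algebra.adjoin L {inc A J}) ((f : F) : LaurentSeries L)) :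
    IsIntegral (Algebra.adjoin (IsLocalRing.ResidueField A) {rd A J})
      ((red A F Fk f : Fk) : LaurentSeries (IsLocalRing.ResidueField A)) := by
  classical
  letI := algOj hJt
  haveI : IsScalarTower (Oj hJt) (IntermediateField.adjoin L {inc A J}) (LaurentSeries L) :=
    IsScalarTower.of_algebraMap_eq fun _ => rfl
  have hint := isIntegral_Oj hJt hJF hJk U hU hspan f
  have hj := DecDeg.transcendental_inc hJt
  haveI : IsIntegrallyClosed (Algebra.adjoin L {inc A J}) :=
    IsIntegrallyClosed.of_equiv (Polynomial.algEquivOfTranscendental L (inc A J) hj).toRingEquiv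
  have h1 := minpoly.isIntegrallyClosed_eq_field_fractions'
    (IntermediateField.adjoin L {inc A J}) hint
  have h2 := minpoly.isIntegrallyClosed_eq_field_fractions'
    (IntermediateField.adjoin L {inc A J}) hf
  set q := minpoly (Oj hJt) ((f : F) : LaurentSeries L) with hq
  have hqm : q.Monic := minpoly.monic hint
  -- the coefficients of `q` are polynomials in `j`
  have hcoeff : ∀ n, rhoJ hJt (q.coeff n) ∈
      Algebra.adjoin (IsLocalRing.ResidueField A) {rd A J} := by
    intro n
    apply rhoJ_mem_adjoin
    have h3 := congrArg (fun p : Polynomial (IntermediateField.adjoin L {inc A J}) => p.coeff n)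
      (h1.symm.trans h2)
    simp only [Polynomial.coeff_map] at h3
    have h4 : ((q.coeff n : IntermediateField.adjoin L {inc A J}) : LaurentSeries L) =
        (((minpoly (Algebra.adjoin L {inc A J}) ((f : F) : LaurentSeries L)).coeff n :
          Algebra.adjoin L {inc A J}) : LaurentSeries L) :=
      congrArg Subtype.val h3
    rw [h4]
    exact Subtype.property _
  -- `q(f) = 0` inside the Gauss ring of `F`
  have hzero : Polynomial.eval₂ (psiJ hJt hJF hJk) f q = 0 := by
    apply Subtype.ext
    apply Subtype.ext
    have h5 : (((Polynomial.eval₂ (psiJ hJt hJF hJk) f q : gaussRing A F Fk) : F) :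
        LaurentSeries L) =
        Polynomial.eval₂ ((F.val.toRingHom.comp (gaussRing A F Fk).subtype).comp
          (psiJ hJt hJF hJk)) ((f : F) : LaurentSeries L) q :=
      Polynomial.hom_eval₂ q (psiJ hJt hJF hJk)
        (F.val.toRingHom.comp (gaussRing A F Fk).subtype) f
    rw [h5]
    have h6 : ((F.val.toRingHom.comp (gaussRing A F Fk).subtype).comp (psiJ hJt hJF hJk)) =
        algebraMap (Oj hJt) (LaurentSeries L) := RingHom.ext fun _ => rfl
    rw [h6]
    exact minpoly.aeval (Oj hJt) ((f : F) : LaurentSeries L)
  -- reduce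
  have hred : Polynomial.eval₂ (rhoJ hJt)
      ((red A F Fk f : Fk) : LaurentSeries (IsLocalRing.ResidueField A)) q = 0 := by
    have h7 := congrArg (fun x : gaussRing A F Fk =>
      ((red A F Fk x : Fk) : LaurentSeries (IsLocalRing.ResidueField A))) hzero
    simp only [map_zero, ZeroMemClass.coe_zero] at h7
    rw [← h7]
    have h8 : ((red A F Fk (Polynomial.eval₂ (psiJ hJt hJF hJk) f q) : Fk) :
        LaurentSeries (IsLocalRing.ResidueField A)) =
        Polynomial.eval₂ ((Fk.val.toRingHom.comp (red A F Fk)).comp (psiJ hJt hJF hJk))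
          ((red A F Fk f : Fk) : LaurentSeries (IsLocalRing.ResidueField A)) q :=
      Polynomial.hom_eval₂ q (psiJ hJt hJF hJk) (Fk.val.toRingHom.comp (red A F Fk)) f
    rw [h8]
    congr 1
    exact RingHom.ext fun x => (red_psiJ hJt hJF hJk x).symm
  -- descend the coefficients to `k[j̄]`
  have hl : q.map (rhoJ hJt) ∈ Polynomial.lifts
      (algebraMap (Algebra.adjoin (IsLocalRing.ResidueField A) {rd A J})
        (LaurentSeries (IsLocalRing.ResidueField A))) := by
    rw [Polynomial.lifts_iff_coeff_lifts]
    intro n
    rw [Polynomial.coeff_map]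
    exact ⟨⟨_, hcoeff n⟩, rfl⟩
  obtain ⟨Q, hQ, -, hQm⟩ := Polynomial.lifts_and_natDegree_eq_and_monic hl (hqm.map _)
  refine ⟨Q, hQm, ?_⟩
  rw [← Polynomial.eval_map, hQ, Polynomial.eval_map]
  exact hred

end Main

end Fermat.Agent.S18.IntRed
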