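import Mathlib
import Fermat.Agent.S18.IntRed
import Fermat.Agent.S18.OrthoMod
import Fermat.Agent.S18.Charts

/-!
# S18 infrastructure (A3): `R1 ⊆ B1b` at every level prime to `ℓ`

`A` a valuation ring of `ℚ̄` over `ℓ`, `N` prime to `ℓ` (no place reduction map needed).

* `isIntegral_coe_of_isIntegral`, `isIntegral_of_isIntegral_coe` : integrality over `K[x]`
  inside an intermediate field and in the ambient field.
* `ff_one`, `fk_one` : the fields of level one are `ℚ̄(j)` and `k(j̄)`.
* `exists_orthonormal_j` : an orthonormal basis of `F_N` over `ℚ̄(j)`.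
* `isIntegral_redN` : if `f ∈ OO A N` is integral over `ℚ̄[j]`, then `redN f` is integral over
  `k[j̄]`.
* `isIntegral_of_mem_regAt` : a function regular at the finite places is integral over `ℚ̄[j]`.
* `R1_le_B1b` : `Charts.R1 A N ≤ Charts.B1b A N`.
-/

set_option autoImplicit false
set_option linter.style.haveILetI false

noncomputable section

namespace Fermat.Agent.S18.IntRedMod

open ModularCurve AlgebraicCurve HahnSeries IntermediateField
open Fermat.Agent.S18.Gauss Fermat.Agent.S18.Lattice Fermat.Agent.S24 Fermat.Agent.S24.Eval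

/-! ### Integrality inside an intermediate field and in the ambient field -/

section Bridge

variable {K E : Type*} [Field K] [Field E] [Algebra K E] (S : IntermediateField K E)

/-- Integrality over `K[x]` inside an intermediate field and in the ambient field. -/
theorem isIntegral_coe_of_isIntegral {x y : S} (h : IsIntegral (Algebra.adjoin K {x}) y) :
    IsIntegral (Algebra.adjoin K {(x : E)}) (y : E) := by
  have hmap : (Algebra.adjoin K {x}).map S.val = Algebra.adjoin K {(x : E)} := by
    rw [AlgHom.map_adjoin, Set.image_singleton]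
    rfl
  let φ : Algebra.adjoin K {x} →+* Algebra.adjoin K {(x : E)} :=
    { toFun := fun z => ⟨S.val z, by rw [← hmap]; exact ⟨z, z.2, rfl⟩⟩
      map_one' := rfl
      map_mul' := fun _ _ => rfl
      map_zero' := rfl
      map_add' := fun _ _ => rfl }
  exact IsIntegral.map_of_comp_eq φ S.val.toRingHom (RingHom.ext fun _ => rfl) h

/-- Integrality over `K[x]` in the ambient field descends to an intermediate field. -/
theorem isIntegral_of_isIntegral_coe {x y : S}
    (h : IsIntegral (Algebra.adjoin K {(x : E)}) (y : E)) :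
    IsIntegral (Algebra.adjoin K {x}) y := by
  have hmap : (Algebra.adjoin K {x}).map S.val = Algebra.adjoin K {(x : E)} := by
    rw [AlgHom.map_adjoin, Set.image_singleton]
    rfl
  have hex : ∀ z : Algebra.adjoin K {(x : E)}, ∃ w : Algebra.adjoin K {x},
      ((w : S) : E) = (z : E) := by
    intro z
    have hz : (z : E) ∈ (Algebra.adjoin K {x}).map S.val := by rw [hmap]; exact z.2
    obtain ⟨w, hw, hwz⟩ := hz
    exact ⟨⟨w, hw⟩, hwz⟩
  choose g hg using hex
  have hginj : ∀ a b : Algebra.adjoin K {x}, ((a : S) : E) = ((b : S) : E) → a = b :=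
    fun a b hab => Subtype.ext (Subtype.ext hab)
  let φ : Algebra.adjoin K {(x : E)} →+* Algebra.adjoin K {x} :=
    { toFun := g
      map_one' := hginj _ _ (by rw [hg]; rfl)
      map_mul' := fun a b => hginj _ _ (by
        rw [hg]
        show ((a : E)) * (b : E) = ((g a : S) : E) * ((g b : S) : E)
        rw [hg, hg])
      map_zero' := hginj _ _ (by rw [hg]; rfl)
      map_add' := fun a b => hginj _ _ (by
        rw [hg]
        show ((a : E)) + (b : E) = ((g a : S) : E) + ((g b : S) : E)
        rw [hg, hg]) }
  obtain ⟨P, hPm, hP⟩ := h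
  refine ⟨P.map φ, hPm.map _, ?_⟩
  apply Subtype.ext
  have h1 : ((Polynomial.eval₂ (algebraMap (Algebra.adjoin K {x}) S) y (P.map φ) : S) : E) =
      Polynomial.eval₂ (S.val.toRingHom.comp (algebraMap (Algebra.adjoin K {x}) S))
        (y : E) (P.map φ) :=
    Polynomial.hom_eval₂ (P.map φ) (algebraMap (Algebra.adjoin K {x}) S) S.val.toRingHom y
  rw [h1, Polynomial.eval₂_map]
  have h2 : ((S.val.toRingHom.comp (algebraMap (Algebra.adjoin K {x}) S)).comp φ) =
      algebraMap (Algebra.adjoin K {(x : E)}) E := RingHom.ext fun z => hg z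
  rw [h2]
  exact hP

end Bridge

/-! ### Level one -/

section LevelOne

variable (A : ValuationSubring KK)

theorem ff_one : modularFunctionFieldBar 1 =
    IntermediateField.adjoin KK {inc A (jqNModC A 1)} := by
  rw [modularFunctionFieldBar_eq_adjoin, ← DecMod.inc_J (A := A) 1]
  congr 1
  ext x
  constructor
  · rintro ⟨d, hd, hd1, rfl⟩
    have : d = 1 := Nat.dvd_one.mp hd1
    subst this
    rfl
  · rintro (rfl : x = _)
    exact ⟨1, inferInstance, dvd_rfl, rfl⟩

theorem fk_one : FkN A 1 =
    IntermediateField.adjoin (IsLocalRing.ResidueField A) {rd A (jqNModC A 1)} := by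
  rw [DecMod.rd_J]
  unfold FkN modularFunctionFieldFullC
  congr 1
  ext x
  constructor
  · rintro ⟨d, hd, hd1, rfl⟩
    have : d = 1 := Nat.dvd_one.mp hd1
    subst this
    exact qExpand_one_apply _
  · rintro (rfl : x = _)
    exact ⟨1, inferInstance, dvd_rfl, (qExpand_one_apply _).symm⟩

end LevelOne


/-! ### Integrality of the reduction at level `N` -/

section Main

variable {A : ValuationSubring KK} {ℓ : ℕ} [Fact ℓ.Prime] (N : ℕ) [NeZero N]

theorem transcendental_rd_J :
    Transcendental (IsLocalRing.ResidueField A) (rd A (jqNModC A 1)) := by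
  rw [DecMod.rd_J]
  exact Fermat.Agent.S28.PrimeCase.transcendental_jqModC _

/-- An orthonormal basis of `F_N` over `ℚ̄(j)`. -/
theorem exists_orthonormal_j (hA : A.LiesOverPrime ℓ) (hℓN : ¬ ℓ ∣ N) :
    ∃ (d : ℕ) (U : Fin d → OO A N),
      LinearIndependent
        (IntermediateField.adjoin (IsLocalRing.ResidueField A) {rd A (jqNModC A 1)})
        (fun i => ((redN A N (U i) : FkN A N) : LaurentSeries (IsLocalRing.ResidueField A))) ∧
      (∀ f ∈ modularFunctionFieldBar N,
        ∃ a : Fin d → IntermediateField.adjoin KK {inc A (jqNModC A 1)},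
          f = ∑ i, (a i : LaurentSeries KK) *
            (((U i : OO A N) : modularFunctionFieldBar N) : LaurentSeries KK)) := by
  obtain ⟨U, hli, -, -, hspan⟩ :=
    OrthoMod.exists_orthonormal (N := 1) (N' := N) hA (one_dvd N) hℓN
  refine ⟨_, U, ?_, ?_⟩
  · have h := fk_one A
    exact h ▸ hli
  · have h := ff_one A
    exact h ▸ hspan

/-- **(A3)** At every level `N` prime to `ℓ`: the reduction of a Gauss-integral function which
is integral over `ℚ̄[j]` is integral over `k[j̄]`. -/
theorem isIntegral_redN (hA : A.LiesOverPrime ℓ) (hℓN : ¬ ℓ ∣ N) (f : OO A N)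
    (hf : IsIntegral (Algebra.adjoin KK {jF N}) (f : FF N)) :
    IsIntegral (Algebra.adjoin (IsLocalRing.ResidueField A)
      {DegEq.jk (IsLocalRing.ResidueField A) N}) (redN A N f) := by
  obtain ⟨d, U, hU, hspan⟩ := exists_orthonormal_j (A := A) N hA hℓN
  have hJ := DecMod.isInt_J (A := A) N
  have h1 : IsIntegral (Algebra.adjoin KK {inc A (jqNModC A 1)})
      (((f : OO A N) : FF N) : LaurentSeries KK) := by
    have h2 := isIntegral_coe_of_isIntegral (modularFunctionFieldBar N) hf
    rw [DecMod.inc_J (A := A) N] at h2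
    exact h2
  have h3 := IntRed.isIntegral_red (transcendental_rd_J (A := A)) hJ.1 hJ.2 U hU hspan f h1
  apply isIntegral_of_isIntegral_coe (FkN A N)
  have h4 : ((DegEq.jk (IsLocalRing.ResidueField A) N : FkN A N) :
      LaurentSeries (IsLocalRing.ResidueField A)) = rd A (jqNModC A 1) :=
    (DecMod.rd_J (A := A)).symm
  rw [h4]
  exact h3

end Main

/-! ### Regular at the finite places implies integral over `ℚ̄[j]` (characteristic `0`) -/

section Regular

open IsDedekindDomain

/-- A function of a function field (characteristic `0`) which is regular at every place at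
which `y` is regular is integral over `k[y]`. -/
theorem isIntegral_of_forall_mem {k F : Type*} [Field k] [Field F] [Algebra k F] [CharZero k]
    (y : F) (hy : Transcendental k y) [FiniteDimensional k⟮y⟯ F] (f : F)
    (hf : ∀ P : Place k F, y ∈ P.toValuationSubring → f ∈ P.toValuationSubring) :
    IsIntegral (Algebra.adjoin k {y}) f := by
  haveI := isDedekindDomain_integralClosure y hy
  have hyB : y ∈ integralClosure (Algebra.adjoin k {y}) F :=
    (integralClosure (Algebra.adjoin k {y}) F).algebraMap_mem
      ⟨y, Algebra.self_mem_adjoin_singleton k y⟩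
  have h : ∀ w : HeightOneSpectrum (integralClosure (Algebra.adjoin k {y}) F),
      w.valuation F f ≤ 1 := by
    intro w
    rw [← mem_ofHeightOneSpectrum_iff (k := k)]
    apply hf
    rw [mem_ofHeightOneSpectrum_iff]
    exact w.valuation_le_one (K := F) ⟨y, hyB⟩
  obtain ⟨b, hb⟩ := HeightOneSpectrum.mem_integers_of_valuation_le_one F f h
  rw [← hb]
  exact b.2

variable (N : ℕ) [NeZero N]

/-- A function regular at the finite places is integral over `ℚ̄[j]`. -/
theorem isIntegral_of_mem_regAt {f : FF N} (hf : f ∈ Charts.regAt N (jF N)) :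
    IsIntegral (Algebra.adjoin KK {jF N}) f := by
  haveI := Degree.finiteDimensional_jF N
  exact isIntegral_of_forall_mem (jF N) (Degree.transcendental_jF N) f hf

variable {A : ValuationSubring KK} {ℓ : ℕ} [Fact ℓ.Prime]

/-- **`R1 ⊆ B1b` at every level prime to `ℓ`**: the reduction of chart 1 consists of functions
integral over `k[j̄]`. -/
theorem R1_le_B1b (hA : A.LiesOverPrime ℓ) (hℓN : ¬ ℓ ∣ N) :
    Charts.R1 A N ≤ Charts.B1b A N := by
  intro x hx
  obtain ⟨f, hf, rfl⟩ := (Charts.mem_redImage A N).mp hx
  exact isIntegral_redN N hA hℓN f (isIntegral_of_mem_regAt N hf.2)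

end Regular

end Fermat.Agent.S18.IntRedMod
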