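import Mathlib
import Fermat.Agent.S18.Charts
import Fermat.Agent.S18.ChartNormalFk
import Fermat.Agent.S18.HasseLaurent
import Fermat.Agent.S18.IntRedMod
import Fermat.Agent.S18.DecMod
import Fermat.Agent.S18.DecDeg
import Fermat.Agent.S18.RegInt
import Fermat.Agent.S18.ResField
import Fermat.Agent.S18.HasseStab
import Fermat.Agent.S18.HauptChart
import Fermat.Agent.S18.HauptBFin

/-!
# S18 moonshot: the glue for normality of the integral chart at the auxiliary level

`A` is a valuation ring of `KK = ℚ̄` over the prime `ℓ`, `k` its residue field, `N` a level prime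
to `ℓ`.  Given a coordinate `μ ∈ FF N` (a Hauptmodul of a smaller level) with integral
`q`-expansion `muA = q⁻¹ + …`, regular at the finite places, a relation `j̄ · Bm(μ̄) = Am(μ̄)` in
characteristic `ℓ` with `1 / Bm(μ)` integral and regular, and stability of the reduction of the
integral chart under the Taylor coefficients with respect to `μ̄`, the reduction `R1int A N` of
the integral part of chart 1 contains the integral closure of `k[j̄]`:
`Charts.NormalStmtInt A N`.

* `mem_OO_of_inc` : a function of `FF N` with `q`-expansion in `A((q))` is Gauss-integral;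
* `mem_O1int_of_inc` : ... and lies in the integral chart if it is regular at the finite places;
* `exists_frac` : the field of fractions of `R1int A N` is the reduced function field;
* `normalStmtInt` : the glue;
* `normalStmtInt_four`, `normalStmtInt_nine` : **the unconditional statements** at every level
  `N` prime to `ℓ` and divisible by `4` (resp. by `9`), with the Hauptmoduln of `X₀(4)`, `X₀(9)`.
-/

set_option autoImplicit false
set_option synthInstance.maxHeartbeats 400000

noncomputable section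

namespace Fermat.Agent.S18.ChartGlue

open ModularCurve AlgebraicCurve HahnSeries Polynomial
open Fermat.Agent.S18.Gauss Fermat.Agent.S18.Lattice Fermat.Agent.S18.Charts
open Fermat.Agent.S24 Fermat.Agent.S24.Eval
open scoped IntermediateField

variable {A : ValuationSubring KK} {ℓ : ℕ} [Fact ℓ.Prime] (N : ℕ) [NeZero N]

/-! ### Functions with integral `q`-expansion are Gauss-integral -/

/-- A function of `FF N` whose `q`-expansion has coefficients in `A` is Gauss-integral. -/
theorem mem_OO_of_inc (hA : A.LiesOverPrime ℓ) (hℓN : ¬ ℓ ∣ N) {f : FF N}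
    {y : LaurentSeries A} (hy : inc A y = (f : LaurentSeries KK)) : f ∈ OO A N := by
  rcases DecMod.mem_or_inv_mem_OO N hA hℓN f with h | h
  · exact h
  rcases eq_or_ne f 0 with rfl | hf0
  · exact zero_mem _
  obtain ⟨n, Y, hn, hY, hnY⟩ := h
  have hfL : (f : LaurentSeries KK) ≠ 0 := fun h0 => hf0 (Subtype.ext h0)
  have h4 : ((f⁻¹ : FF N) : LaurentSeries KK) = (f : LaurentSeries KK)⁻¹ := rfl
  rw [h4, inv_mul_eq_iff_eq_mul₀ hfL, ← hy, ← map_mul] at hnY
  have h5 : Y = y * n := inc_injective A hnY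
  have h6 : rd A n ≠ 0 := by
    intro h0
    apply hY.2
    rw [h5, map_mul, h0, mul_zero]
  refine ⟨Y, n, hY.1, ⟨hn, h6⟩, ?_⟩
  rw [← hy, ← map_mul, h5]

/-- A series of `A((q))` representing a function of `FF N` is integral. -/
theorem isInt_of_inc_mem (hA : A.LiesOverPrime ℓ) (hℓN : ¬ ℓ ∣ N) {y : LaurentSeries A}
    (hy : inc A y ∈ modularFunctionFieldBar N) :
    IsInt A (modularFunctionFieldBar N) (FkN A N) y :=
  isInt_of_mem A N (f := ⟨inc A y, hy⟩) (mem_OO_of_inc N hA hℓN rfl) rfl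

/-- A function regular at the finite places with `q`-expansion in `A((q))` lies in the integral
part of chart 1. -/
theorem mem_O1int_of_inc (hA : A.LiesOverPrime ℓ) (hℓN : ¬ ℓ ∣ N) {f : FF N}
    {y : LaurentSeries A} (hy : inc A y = (f : LaurentSeries KK)) (hreg : f ∈ regAt N (jF N)) :
    f ∈ O1int A N :=
  (mem_O1int A N).mpr ⟨mem_OO_of_inc N hA hℓN hy, hreg, y, hy⟩

/-- The reduction of a function of the integral chart, as an element of `R1int`. -/
theorem redN_mem_R1int {f : FF N} (hf : f ∈ O1int A N) :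
    redN A N ⟨f, ((mem_O1int A N).mp hf).1⟩ ∈ R1int A N :=
  (mem_redImage A N).mpr ⟨⟨f, ((mem_O1int A N).mp hf).1⟩, hf, rfl⟩

/-- Membership in `R1int` from an integral series. -/
theorem mem_R1int_of_inc {f : FF N} (hf : f ∈ O1int A N) {y : LaurentSeries A}
    (hy : inc A y = (f : LaurentSeries KK)) {x : FkN A N}
    (hx : (x : LaurentSeries (IsLocalRing.ResidueField A)) = rd A y) : x ∈ R1int A N := by
  have h := redN_mem_R1int N hf
  have e : redN A N ⟨f, ((mem_O1int A N).mp hf).1⟩ = x :=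
    Subtype.ext (by rw [redN_eq_rd A N _ hy, hx])
  rwa [e] at h

/-! ### Constants and polynomials in `j` -/

omit [Fact ℓ.Prime] in
/-- The constants lie in the integral chart. -/
theorem algebraMap_mem_O1int (a : A) : algebraMap KK (FF N) (a : KK) ∈ O1int A N :=
  (mem_O1int A N).mpr ⟨algebraMap_mem_gaussRing a, algebraMap_mem_regAt N _ _,
    HahnSeries.C a, by rw [inc_C]; rfl⟩

omit [Fact ℓ.Prime] in
/-- The constants lie in `R1int`. -/
theorem algebraMap_mem_R1int (c : IsLocalRing.ResidueField A) :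
    algebraMap (IsLocalRing.ResidueField A) (FkN A N) c ∈ R1int A N := by
  obtain ⟨a, rfl⟩ := IsLocalRing.residue_surjective c
  refine (mem_redImage A N).mpr ⟨⟨algebraMap KK (FF N) (a : KK), algebraMap_mem_gaussRing a⟩,
    algebraMap_mem_O1int N a, ?_⟩
  exact red_algebraMap a

omit [Fact ℓ.Prime] in
/-- Polynomials in `j` are regular at the finite places. -/
theorem aeval_jF_mem_regAt (Q : KK[X]) : Polynomial.aeval (jF N) Q ∈ regAt N (jF N) := by
  induction Q using Polynomial.induction_on with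
  | C a => rw [Polynomial.aeval_C]; exact algebraMap_mem_regAt N _ a
  | add p q hp hq => rw [map_add]; exact add_mem hp hq
  | monomial n a ih =>
    rw [pow_succ, ← mul_assoc, map_mul, Polynomial.aeval_X]
    exact mul_mem ih (self_mem_regAt N _)

omit [Fact ℓ.Prime] in
theorem coe_evA_J (P : Polynomial A) :
    (⟨inc A (DecDeg.evA A (jqNModC A 1) P),
      (DecDeg.isInt_evA (DecMod.isInt_J (A := A) N) P).1⟩ : FF N) =
      Polynomial.aeval (jF N) (P.map A.subtype) := by
  apply Subtype.ext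
  rw [ChartNormalFk.coe_aeval, DecMod.inc_J (A := A) N]
  exact DecDeg.inc_evA A _ P

omit [Fact ℓ.Prime] in
/-- Polynomials in `j` with coefficients in `A` lie in the integral chart. -/
theorem evA_J_mem_O1int (P : Polynomial A) :
    (⟨inc A (DecDeg.evA A (jqNModC A 1) P),
      (DecDeg.isInt_evA (DecMod.isInt_J (A := A) N) P).1⟩ : FF N) ∈ O1int A N := by
  refine (mem_O1int A N).mpr ⟨inc_mem_gaussRing (DecDeg.isInt_evA (DecMod.isInt_J (A := A) N) P),
    ?_, _, rfl⟩
  rw [coe_evA_J]
  exact aeval_jF_mem_regAt N _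

/-! ### Clearing denominators -/

open scoped IntermediateField.algebraAdjoinAdjoin in
omit [Fact ℓ.Prime] in
/-- Every function becomes regular at the finite places after multiplication by a nonzero
polynomial in `j`. -/
theorem exists_mul_mem_regAt (f : FF N) :
    ∃ Q : KK[X], Q ≠ 0 ∧ Polynomial.aeval (jF N) Q * f ∈ regAt N (jF N) := by
  have := Degree.finiteDimensional_jF N
  have halg : IsAlgebraic (Algebra.adjoin KK {jF N}) f :=
    (IsFractionRing.isAlgebraic_iff (Algebra.adjoin KK {jF N}) KK⟮jF N⟯ (FF N)).mpr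
      (Algebra.IsAlgebraic.isAlgebraic f)
  obtain ⟨y, hy0, hy⟩ := halg.exists_integral_multiple
  obtain ⟨Q, hQ⟩ : ∃ Q : KK[X], Polynomial.aeval (jF N) Q = (y : FF N) := by
    have h : (y : FF N) ∈ (Polynomial.aeval (R := KK) (jF N)).range := by
      rw [← Algebra.adjoin_singleton_eq_range_aeval]
      exact y.2
    exact h
  refine ⟨Q, ?_, ?_⟩
  · rintro rfl
    apply hy0
    apply Subtype.ext
    rw [← hQ, map_zero]
    rfl
  · rw [RegInt.mem_regAt_j_iff, hQ]
    exact hy

omit [Fact ℓ.Prime] in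
/-- The reduction of an integral series representing a function is a quotient of elements of
`R1int`. -/
theorem exists_frac_of_isInt {Y : LaurentSeries A}
    (hY : IsInt A (modularFunctionFieldBar N) (FkN A N) Y) :
    ∃ a ∈ R1int A N, ∃ b ∈ R1int A N, b ≠ 0 ∧
      (a : LaurentSeries (IsLocalRing.ResidueField A)) =
        rd A Y * (b : LaurentSeries (IsLocalRing.ResidueField A)) := by
  classical
  set f : FF N := ⟨inc A Y, hY.1⟩ with hf
  obtain ⟨Q, hQ0, hQreg⟩ := exists_mul_mem_regAt N f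
  obtain ⟨c, P', hc, hP', i, hres⟩ : ∃ (c : KK) (P' : Unit → Polynomial A), c ≠ 0 ∧
      (∀ i, Q = Polynomial.C c * (P' i).map A.subtype) ∧
      ∃ i, (P' i).map (IsLocalRing.residue A) ≠ 0 :=
    DecDeg.exists_primitive (A := A) (ι := Unit) (fun _ => Q) ⟨(), hQ0⟩
  set P : Polynomial A := P' i with hP
  have hQP : Q = Polynomial.C c * P.map A.subtype := hP' i
  have hJ := DecMod.isInt_J (A := A) N
  set b' : LaurentSeries A := DecDeg.evA A (jqNModC A 1) P with hb'
  have hbI : IsInt A (modularFunctionFieldBar N) (FkN A N) b' := DecDeg.isInt_evA hJ P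
  have hbrd : rd A b' ≠ 0 := by
    rw [hb', DecDeg.rd_evA]
    intro h0
    exact hres ((transcendental_iff.mp (IntRedMod.transcendental_rd_J (A := A))) _ h0)
  have hbO : (⟨inc A b', hbI.1⟩ : FF N) ∈ O1int A N := evA_J_mem_O1int N P
  have haI : IsInt A (modularFunctionFieldBar N) (FkN A N) (b' * Y) := hbI.mul hY
  have haF : (⟨inc A (b' * Y), haI.1⟩ : FF N) =
      algebraMap KK (FF N) c⁻¹ * (Polynomial.aeval (jF N) Q * f) := by
    have e1 : (⟨inc A (b' * Y), haI.1⟩ : FF N) = (⟨inc A b', hbI.1⟩ : FF N) * f :=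
      Subtype.ext (map_mul _ _ _)
    rw [e1, coe_evA_J, hQP, map_mul, Polynomial.aeval_C, ← mul_assoc, ← mul_assoc, ← map_mul,
      inv_mul_cancel₀ hc, map_one, one_mul]
  have haO : (⟨inc A (b' * Y), haI.1⟩ : FF N) ∈ O1int A N := by
    refine (mem_O1int A N).mpr ⟨inc_mem_gaussRing haI, ?_, _, rfl⟩
    rw [haF]
    exact mul_mem (algebraMap_mem_regAt N _ _) hQreg
  refine ⟨_, redN_mem_R1int N haO, _, redN_mem_R1int N hbO, ?_, ?_⟩
  · intro h0
    have h1 := congrArg (fun t : FkN A N => (t : LaurentSeries (IsLocalRing.ResidueField A))) h0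
    have h2 := redN_eq_rd A N (f := ⟨inc A b', hbI.1⟩) ((mem_O1int A N).mp hbO).1 rfl
    exact hbrd (h2.symm.trans h1)
  · rw [redN_eq_rd A N (f := ⟨inc A (b' * Y), haI.1⟩) ((mem_O1int A N).mp haO).1 rfl,
      redN_eq_rd A N (f := ⟨inc A b', hbI.1⟩) ((mem_O1int A N).mp hbO).1 rfl, map_mul, mul_comm]

omit [Fact ℓ.Prime] in
/-- **The field of fractions of `R1int` is the reduced function field.** -/
theorem exists_frac (x : FkN A N) :
    ∃ a ∈ R1int A N, ∃ b ∈ R1int A N, b ≠ 0 ∧ x * b = a := by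
  rcases eq_or_ne x 0 with rfl | hx
  · exact ⟨0, zero_mem _, 1, one_mem _, one_ne_zero, zero_mul _⟩
  obtain ⟨Y₁, Y₂, h₁, h₂, h⟩ := RedExt.exists_lift (A := A) (N := N)
    (π := IsLocalRing.residue A) IsLocalRing.residue_surjective x hx
  have h' : (x : LaurentSeries (IsLocalRing.ResidueField A)) * rd A Y₂ = rd A Y₁ :=
    congrArg (fun t : FkN A N => (t : LaurentSeries (IsLocalRing.ResidueField A))) h
  obtain ⟨a₁, ha₁, b₁, hb₁, hb₁0, e₁⟩ := exists_frac_of_isInt N (isIntU_of_isInt h₁).1
  obtain ⟨a₂, ha₂, b₂, hb₂, hb₂0, e₂⟩ := exists_frac_of_isInt N (isIntU_of_isInt h₂).1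
  have ha₂0 : a₂ ≠ 0 := by
    intro h0
    rw [h0] at e₂
    have h1 : rd A Y₂ * (b₂ : LaurentSeries (IsLocalRing.ResidueField A)) = 0 := e₂.symm
    rcases mul_eq_zero.mp h1 with h2 | h2
    · exact h₂.2.2 h2
    · exact hb₂0 (Subtype.ext h2)
  refine ⟨a₁ * b₂, mul_mem ha₁ hb₂, a₂ * b₁, mul_mem ha₂ hb₁, mul_ne_zero ha₂0 hb₁0, ?_⟩
  apply Subtype.ext
  show (x : LaurentSeries (IsLocalRing.ResidueField A)) * ((a₂ : LaurentSeries _) * (b₁ : LaurentSeries _))
    = (a₁ : LaurentSeries _) * (b₂ : LaurentSeries _)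
  rw [e₁, e₂, ← h']
  ring

/-! ### The glue -/

/-- The order of a Laurent series with leading term `q⁻¹`. -/
theorem order_of_lead {R : Type*} [CommRing R] [Nontrivial R] {x : LaurentSeries R}
    (hx : x.coeff (-1) = 1 ∧ ∀ i : ℤ, i < -1 → x.coeff i = 0) : x.order = -1 := by
  have hm : x.coeff (-1) ≠ 0 := by rw [hx.1]; exact one_ne_zero
  have hne : x ≠ 0 := by
    rintro rfl
    exact hm rfl
  apply le_antisymm
  · exact HahnSeries.order_le_of_coeff_ne_zero hm
  · by_contra hlt
    rw [not_le] at hlt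
    exact hne (HahnSeries.coeff_order_eq_zero.mp (hx.2 _ hlt))

omit [NeZero N] [Fact ℓ.Prime] in
/-- The reduction of a series with leading term `q⁻¹` has leading term `q⁻¹`. -/
theorem lead_rd {muA : LaurentSeries A}
    (hmu : muA.coeff (-1) = 1 ∧ ∀ i : ℤ, i < -1 → muA.coeff i = 0) :
    (rd A muA).coeff (-1) = 1 ∧ ∀ i : ℤ, i < -1 → (rd A muA).coeff i = 0 := by
  refine ⟨?_, fun i hi => ?_⟩
  · rw [coeffMap_coeff, hmu.1, map_one]
  · rw [coeffMap_coeff, hmu.2 i hi, map_zero]

/-- **The glue**: normality of the reduction of the integral chart at a level `N` prime to `ℓ`,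
from a coordinate `μ` (a Hauptmodul) with integral `q`-expansion `muA = q⁻¹ + …`, regular at the
finite places, a relation `j̄ · Bm(μ̄) = Am(μ̄)` over the residue field, an integral regular
inverse `g` of `Bm(μ)`, and the stability of `R1int` under the Taylor coefficients. -/
theorem normalStmtInt (hA : A.LiesOverPrime ℓ) (hℓN : ¬ ℓ ∣ N)
    (muA : LaurentSeries A) (hmu : muA.coeff (-1) = 1 ∧ ∀ i : ℤ, i < -1 → muA.coeff i = 0)
    (μ : FF N) (hμ : inc A muA = (μ : LaurentSeries KK)) (hμreg : μ ∈ regAt N (jF N))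
    (Am Bm : (IsLocalRing.ResidueField A)[X])
    (hrel : jqModC (IsLocalRing.ResidueField A) * Polynomial.aeval (rd A muA) Bm =
      Polynomial.aeval (rd A muA) Am)
    (gA : LaurentSeries A) (g : FF N) (hg : inc A gA = (g : LaurentSeries KK))
    (hgreg : g ∈ regAt N (jF N))
    (hgB : Polynomial.aeval (rd A muA) Bm * rd A gA = 1)
    (hstab : ∀ x ∈ R1int A N, ∀ n, ∃ y ∈ R1int A N,
      (y : LaurentSeries (IsLocalRing.ResidueField A)) =
        PowerSeries.coeff n (HasseLaurent.Tk A.subtype A.subtype_injective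
          (IsLocalRing.residue A) IsLocalRing.residue_surjective muA hmu
          (x : LaurentSeries (IsLocalRing.ResidueField A)))) :
    NormalStmtInt A N := by
  intro x hx
  have hμO : μ ∈ O1int A N := mem_O1int_of_inc N hA hℓN hμ hμreg
  have hgO : g ∈ O1int A N := mem_O1int_of_inc N hA hℓN hg hgreg
  set μb : FkN A N := redN A N ⟨μ, ((mem_O1int A N).mp hμO).1⟩ with hμb
  set gb : FkN A N := redN A N ⟨g, ((mem_O1int A N).mp hgO).1⟩ with hgb
  have hμc : (μb : LaurentSeries (IsLocalRing.ResidueField A)) = rd A muA :=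
    redN_eq_rd A N _ hμ
  have hgc : (gb : LaurentSeries (IsLocalRing.ResidueField A)) = rd A gA :=
    redN_eq_rd A N _ hg
  have hμR : μb ∈ R1int A N := redN_mem_R1int N hμO
  have hgR : gb ∈ R1int A N := redN_mem_R1int N hgO
  have hord : (μb : LaurentSeries (IsLocalRing.ResidueField A)).order = -1 := by
    rw [hμc]
    exact order_of_lead (lead_rd hmu)
  have hrel' : jb A N * Polynomial.aeval μb Bm = Polynomial.aeval μb Am := by
    apply Subtype.ext
    rw [IntermediateField.coe_mul, ChartNormalFk.coe_aeval, ChartNormalFk.coe_aeval, hμc]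
    exact hrel
  have hBg : Polynomial.aeval μb Bm * gb = 1 := by
    apply Subtype.ext
    rw [IntermediateField.coe_mul, ChartNormalFk.coe_aeval, hμc, hgc]
    exact hgB
  have hB0 : Polynomial.aeval μb Bm ≠ 0 := left_ne_zero_of_mul_eq_one hBg
  have hBR : (Polynomial.aeval μb Bm)⁻¹ ∈ R1int A N := by
    have e : (Polynomial.aeval μb Bm)⁻¹ = gb := inv_eq_of_mul_eq_one_right hBg
    rw [e]
    exact hgR
  have := DegEq.finiteDimensional_residue (A := A) N
  refine ChartNormalFk.integralClosure_le (FkN A N) (jb A N) μb hord Am Bm hrel' hB0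
    (HasseLaurent.Tk A.subtype A.subtype_injective (IsLocalRing.residue A)
      IsLocalRing.residue_surjective muA hmu)
    (HasseLaurent.constantCoeff_Tk _ _ _ _ _ _) ?_ (HasseLaurent.Tk_C _ _ _ _ _ _)
    (R1int A N) (algebraMap_mem_R1int N) hμR hBR
    (fun y hy => IntRedMod.R1_le_B1b N hA hℓN (R1int_le_R1 A N hy)) hstab
    (fun y _ => exists_frac N y) x hx
  rw [hμc]
  exact HasseLaurent.Tk_self _ _ _ _ _ _

/-! ### The two instances -/

open Fermat.Agent.S18.HauptSeries Fermat.Agent.S18.HauptMu Fermat.Agent.S18.HauptInt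
open Fermat.Agent.S18.HauptParamFF

omit [NeZero N] [Fact ℓ.Prime] in
theorem lead_ThetaL (M a : ℕ) [NeZero M] :
    (ThetaL A M a).coeff (-1) = 1 ∧ ∀ i : ℤ, i < -1 → (ThetaL A M a).coeff i = 0 :=
  ⟨(isLead_ThetaL A M a).1, (isLead_ThetaL A M a).2⟩

/-- **Normality of the reduction of the integral chart at every level divisible by `4`**
(and prime to `ℓ`, so `ℓ` is odd). -/
theorem normalStmtInt_four (hA : A.LiesOverPrime ℓ) (hℓN : ¬ ℓ ∣ N) (h4 : 4 ∣ N) :
    NormalStmtInt A N := by
  have hB3 := fun (v : Place KK (FF N)) (hv : 0 ≤ v.ord (jF N)) =>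
    mu4_localParameter N h4 HauptBFin.hZ_four v hv
  have hrd : rd A (ThetaL A 4 8) = ThetaL (IsLocalRing.ResidueField A) 4 8 :=
    coeffMap_ThetaL _ 4 8
  refine normalStmtInt N hA hℓN (ThetaL A 4 8) (lead_ThetaL 4 8) (mu4 N h4)
    (coe_mu4_eq_coeffMap N h4 A.subtype).symm (HauptChart.mem_regAt_of_hB3 N _ hB3)
    ((X ^ 2 + 256 * X + 4096) ^ 3) (X ^ 4 * (X + 16)) ?_
    (B4InvL A) (Polynomial.aeval (mu4 N h4) B4)⁻¹
    (by rw [HauptChart.coe_inv_B4]; exact coeffMap_B4InvL A.subtype)
    (HauptChart.inv_aeval_mem_regAt N _ Q4 B4 coprime_four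
      (HauptChart.hrel_four_aeval N h4 HauptBFin.hZ_four) hB3) ?_
    (HasseStab.stable_R1int A N hA hℓN (mu4 N h4) (ThetaL A 4 8) (lead_ThetaL 4 8)
      (coe_mu4_eq_coeffMap N h4 A.subtype) (fun v hv => (hB3 v hv).2))
  · rw [hrd]
    simp only [map_mul, map_pow, map_add, map_ofNat, Polynomial.aeval_X]
    rw [← HauptBFin.rel_four, mul_assoc]
  · rw [hrd]
    simp only [map_mul, map_pow, map_add, map_ofNat, Polynomial.aeval_X]
    have h := B4L_mul_B4InvL (IsLocalRing.ResidueField A)
    rw [← coeffMap_B4InvL (IsLocalRing.residue A)] at h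
    exact h

/-- **Normality of the reduction of the integral chart at every level divisible by `9`**
(and prime to `ℓ`; this covers `ℓ = 2`). -/
theorem normalStmtInt_nine (hA : A.LiesOverPrime ℓ) (hℓN : ¬ ℓ ∣ N) (h9 : 9 ∣ N) :
    NormalStmtInt A N := by
  have hB3 := fun (v : Place KK (FF N)) (hv : 0 ≤ v.ord (jF N)) =>
    mu9_localParameter N h9 HauptBFin.hZ_nine v hv
  have hrd : rd A (ThetaL A 9 3) = ThetaL (IsLocalRing.ResidueField A) 9 3 :=
    coeffMap_ThetaL _ 9 3
  refine normalStmtInt N hA hℓN (ThetaL A 9 3) (lead_ThetaL 9 3) (mu9 N h9)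
    (coe_mu9_eq_coeffMap N h9 A.subtype).symm (HauptChart.mem_regAt_of_hB3 N _ hB3)
    (((X + 9) * (X ^ 3 + 243 * X ^ 2 + 2187 * X + 6561)) ^ 3)
    (X ^ 9 * (X ^ 2 + 9 * X + 27)) ?_
    (B9InvL A) (Polynomial.aeval (mu9 N h9) B9)⁻¹
    (by rw [HauptChart.coe_inv_B9]; exact coeffMap_B9InvL A.subtype)
    (HauptChart.inv_aeval_mem_regAt N _ Q9 B9 coprime_nine
      (HauptChart.hrel_nine_aeval N h9 HauptBFin.hZ_nine) hB3) ?_
    (HasseStab.stable_R1int A N hA hℓN (mu9 N h9) (ThetaL A 9 3) (lead_ThetaL 9 3)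
      (coe_mu9_eq_coeffMap N h9 A.subtype) (fun v hv => (hB3 v hv).2))
  · rw [hrd]
    simp only [map_mul, map_pow, map_add, map_ofNat, Polynomial.aeval_X]
    rw [← HauptBFin.rel_nine, mul_assoc]
  · rw [hrd]
    simp only [map_mul, map_pow, map_add, map_ofNat, Polynomial.aeval_X]
    have h := B9L_mul_B9InvL (IsLocalRing.ResidueField A)
    rw [← coeffMap_B9InvL (IsLocalRing.residue A)] at h
    exact h

end Fermat.Agent.S18.ChartGlue
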