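import Mathlib
import Fermat.Prelude.Def_FLTPrelim_Ramification

/-!
# S18: the archimedean property of a valuation ring of `ℚ̄` over a prime

For a valuation subring `A` of an algebraic extension `L` of `ℚ` in which the prime `ℓ` is a
nonunit: for every nonunit `c` and every `d ≠ 0` of `A` some power of `c` is divisible by `d`
(the value group has rank one).  Elementary: integer polynomials only.
-/

set_option autoImplicit false
set_option linter.unusedSectionVars false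

namespace Fermat.Agent.S18.Arch

open Polynomial IsLocalRing

variable {L : Type*} [Field L] [CharZero L] {A : ValuationSubring L} {ℓ : ℕ}

/-- Integers prime to `ℓ` are units of `A`. -/
theorem isUnit_intCast (hℓ : ℓ.Prime) (hA : (ℓ : A) ∈ nonunits A) {u : ℤ}
    (hu : ¬ (ℓ : ℤ) ∣ u) : IsUnit (u : A) := by
  have hcop : IsCoprime (ℓ : ℤ) u := (Nat.prime_iff_prime_int.mp hℓ).coprime_iff_not_dvd.mpr hu
  obtain ⟨s, t, hst⟩ := hcop
  have h1 : (t : A) * (u : A) = 1 - (s : A) * (ℓ : A) := by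
    have := congrArg (fun n : ℤ => (n : A)) hst
    push_cast at this
    linear_combination this
  have h2 : (s : A) * (ℓ : A) ∈ nonunits A := mul_mem_nonunits_right hA
  have h3 : IsUnit ((t : A) * (u : A)) := by
    rw [h1]
    exact IsLocalRing.isUnit_one_sub_self_of_mem_nonunits _ h2
  exact isUnit_of_mul_isUnit_right h3

/-- A unit plus a nonunit is a unit. -/
theorem isUnit_add_of_nonunit {a b : A} (ha : IsUnit a) (hb : b ∈ nonunits A) :
    IsUnit (a + b) := by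
  by_contra h
  have h1 : a + b ∈ maximalIdeal A := (mem_maximalIdeal _).mpr h
  have h2 : b ∈ maximalIdeal A := (mem_maximalIdeal _).mpr hb
  have h3 : a ∈ maximalIdeal A := by
    have := (maximalIdeal A).sub_mem h1 h2
    simpa using this
  exact ((mem_maximalIdeal _).mp h3) ha

theorem aeval_eq_divX (c : A) (P : ℤ[X]) :
    aeval c P = c * aeval c (divX P) + ((P.coeff 0 : ℤ) : A) := by
  conv_lhs => rw [← X_mul_divX_add P]
  simp

theorem key_zero (hℓ : ℓ.Prime) (hA : (ℓ : A) ∈ nonunits A) {c : A} (hc : c ∈ nonunits A)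
    (P : ℤ[X]) (h0 : ¬ (ℓ : ℤ) ∣ P.coeff 0) (j : ℕ) (t : A)
    (h : c ^ j * aeval c P = (ℓ : A) * t) : ∃ (a : ℕ) (e : A), c ^ a = (ℓ : A) * e := by
  have hv : IsUnit (aeval c P) := by
    rw [aeval_eq_divX, add_comm]
    exact isUnit_add_of_nonunit (isUnit_intCast hℓ hA h0) (mul_mem_nonunits_left hc)
  obtain ⟨v, hv⟩ := hv
  refine ⟨j, t * (v⁻¹ : Aˣ), ?_⟩
  rw [← mul_assoc, ← h, ← hv, mul_assoc, Units.mul_inv, mul_one]

theorem key (hℓ : ℓ.Prime) (hA : (ℓ : A) ∈ nonunits A) {c : A} (hc : c ∈ nonunits A)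
    (i₀ : ℕ) : ∀ (P : ℤ[X]), ¬ (ℓ : ℤ) ∣ P.coeff i₀ → ∀ (j : ℕ) (t : A),
      c ^ j * aeval c P = (ℓ : A) * t → ∃ (a : ℕ) (e : A), c ^ a = (ℓ : A) * e := by
  induction i₀ with
  | zero => exact fun P h0 j t h => key_zero hℓ hA hc P h0 j t h
  | succ i₀ ih =>
    intro P hP j t h
    by_cases h0 : (ℓ : ℤ) ∣ P.coeff 0
    · obtain ⟨a₀, ha₀⟩ := h0
      refine ih (divX P) (by rwa [coeff_divX]) (j + 1) (t - c ^ j * (a₀ : A)) ?_
      rw [aeval_eq_divX, ha₀] at h
      push_cast at h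
      rw [pow_succ]
      linear_combination h
    · exact key_zero hℓ hA hc P h0 j t h

/-- A power of a nonunit is divisible by `ℓ`. -/
theorem exists_pow_eq_prime_mul (hℓ : ℓ.Prime) (hA : (ℓ : A) ∈ nonunits A) {c : A}
    (hc : c ∈ nonunits A) (halg : IsAlgebraic ℤ c) :
    ∃ (a : ℕ) (e : A), c ^ a = (ℓ : A) * e := by
  obtain ⟨P, hP0, hP⟩ := halg
  have hcont : (P.content : A) ≠ 0 := by
    have : P.content ≠ 0 := by rwa [Ne, content_eq_zero_iff]
    exact_mod_cast this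
  have hprim : aeval c P.primPart = 0 := by
    have h1 : aeval c P = (P.content : A) * aeval c P.primPart := by
      conv_lhs => rw [P.eq_C_content_mul_primPart]
      simp
    rw [hP] at h1
    exact (mul_eq_zero.mp h1.symm).resolve_left hcont
  obtain ⟨i₀, hi₀⟩ : ∃ i₀, ¬ (ℓ : ℤ) ∣ P.primPart.coeff i₀ := by
    by_contra hall
    push Not at hall
    have h1 : C (ℓ : ℤ) ∣ P.primPart := (C_dvd_iff_dvd_coeff _ _).mpr hall
    have h2 := P.isPrimitive_primPart _ h1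
    exact (Nat.prime_iff_prime_int.mp hℓ).not_isUnit h2
  exact key hℓ hA hc i₀ P.primPart hi₀ 0 0 (by rw [hprim]; simp)

/-- A power of `ℓ` is divisible by any nonzero element. -/
theorem exists_prime_pow_eq_mul (hℓ : ℓ.Prime) (hA : (ℓ : A) ∈ nonunits A) {d : A}
    (hd : d ≠ 0) (halg : IsAlgebraic ℤ d) :
    ∃ (b : ℕ) (e : A), (ℓ : A) ^ b = d * e := by
  obtain ⟨q, hq0, hq⟩ := halg.exists_nonzero_coeff_and_aeval_eq_zero
    (mem_nonZeroDivisors_of_ne_zero hd)
  rw [aeval_eq_divX] at hq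
  have hfin : FiniteMultiplicity (ℓ : ℤ) (q.coeff 0) := by
    rw [Int.finiteMultiplicity_iff]
    exact ⟨by simpa using hℓ.ne_one, hq0⟩
  obtain ⟨u, hu, hnd⟩ := hfin.exists_eq_pow_mul_and_not_dvd
  obtain ⟨v, hv⟩ := isUnit_intCast hℓ hA hnd
  refine ⟨multiplicity (ℓ : ℤ) (q.coeff 0), -(aeval d (divX q)) * (v⁻¹ : Aˣ), ?_⟩
  have h1 : ((q.coeff 0 : ℤ) : A) = (ℓ : A) ^ multiplicity (ℓ : ℤ) (q.coeff 0) * (v : A) := by
    rw [hv]
    have := congrArg (fun n : ℤ => (n : A)) hu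
    push_cast at this
    exact this
  have h2 : (ℓ : A) ^ multiplicity (ℓ : ℤ) (q.coeff 0) * (v : A) = d * -(aeval d (divX q)) := by
    rw [← h1]
    linear_combination hq
  calc (ℓ : A) ^ multiplicity (ℓ : ℤ) (q.coeff 0)
      = (ℓ : A) ^ multiplicity (ℓ : ℤ) (q.coeff 0) * (v : A) * (v⁻¹ : Aˣ) := by
        rw [mul_assoc, Units.mul_inv, mul_one]
    _ = d * (-(aeval d (divX q)) * (v⁻¹ : Aˣ)) := by rw [h2, mul_assoc]

/-- **The archimedean property.** -/
theorem arch_of_isAlgebraic (hℓ : ℓ.Prime) (hA : (ℓ : A) ∈ nonunits A)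
    (halg : ∀ x : A, IsAlgebraic ℤ x) :
    ∀ c : A, c ∈ nonunits A → ∀ d : A, d ≠ 0 → ∃ (n : ℕ) (e : A), c ^ n = d * e := by
  intro c hc d hd
  obtain ⟨a, e₁, h₁⟩ := exists_pow_eq_prime_mul hℓ hA hc (halg c)
  obtain ⟨b, e₂, h₂⟩ := exists_prime_pow_eq_mul hℓ hA hd (halg d)
  refine ⟨a * b, e₂ * e₁ ^ b, ?_⟩
  rw [pow_mul, h₁, mul_pow, h₂, mul_assoc]

/-- The archimedean property for a valuation ring of `ℚ̄` lying over `ℓ`. -/
theorem arch {A : ValuationSubring (AlgebraicClosure ℚ)} (hℓ : ℓ.Prime)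
    (hA : A.LiesOverPrime ℓ) :
    ∀ c : A, c ∈ nonunits A → ∀ d : A, d ≠ 0 → ∃ (n : ℕ) (e : A), c ^ n = d * e := by
  have hA' : (ℓ : A) ∈ nonunits A := by
    have h1 : (((ℓ : A) : AlgebraicClosure ℚ)) ∈ A.nonunits := by
      have : (((ℓ : A) : AlgebraicClosure ℚ)) = (ℓ : AlgebraicClosure ℚ) := by simp
      rw [this]
      exact hA
    rw [A.coe_mem_nonunits_iff] at h1
    exact (mem_maximalIdeal _).mp h1
  refine arch_of_isAlgebraic hℓ hA' fun x => ?_
  have h1 : IsAlgebraic ℚ (x : AlgebraicClosure ℚ) :=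
    (AlgebraicClosure.isAlgebraic ℚ).isAlgebraic _
  have h2 : IsAlgebraic ℤ (algebraMap A (AlgebraicClosure ℚ) x) :=
    (IsFractionRing.isAlgebraic_iff ℤ ℚ (AlgebraicClosure ℚ)).mpr h1
  exact (isAlgebraic_algebraMap_iff (R := ℤ) (Subtype.val_injective)).mp h2

end Fermat.Agent.S18.Arch
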