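import Mathlib
import Fermat.Prelude.Def_AlgebraicCurve_Repartitions
import Fermat.Agent.S24.FFBasic

/-!
# S18, finite-dimensionality of Riemann–Roch spaces (abstract)

`F` a field over `K` with the prelude's places.  Under the two hypotheses

* `HasValues K F` : every function regular at a place `v` has a value in `K` there
  (`f = c` or `0 < v.ord (f - c)`), i.e. all residue fields are `K`;
* `HasConstants K F` : a nonzero function without poles is constant;

every Riemann–Roch space `L(D)` is finite-dimensional (`finiteDimensional`), and
`L(D + P) / L(D)` has dimension at most one (`exists_sub_smul_mem`).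
-/

set_option autoImplicit false

noncomputable section

namespace Fermat.Agent.S18.RRFinite

open AlgebraicCurve Fermat.Agent.S24

variable (K F : Type*) [Field K] [Field F] [Algebra K F]

/-- Every function regular at a place has a value in `K` there. -/
def HasValues : Prop :=
  ∀ (v : Place K F) (f : F), 0 ≤ v.ord f →
    ∃ c : K, f = algebraMap K F c ∨ 0 < v.ord (f - algebraMap K F c)

/-- A nonzero function without poles is constant. -/
def HasConstants : Prop :=
  ∀ f : F, f ≠ 0 → (∀ v : Place K F, 0 ≤ v.ord f) → ∃ c : K, f = algebraMap K F c

variable {K F}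

theorem riemannRochSpace_mono {D D' : Divisor K F} (h : ∀ v, D v ≤ D' v) :
    riemannRochSpace D ≤ riemannRochSpace D' := by
  intro f hf
  rw [mem_riemannRochSpace_iff] at hf ⊢
  intro v
  rcases hf v with h0 | h1
  · exact Or.inl h0
  · exact Or.inr (by have := h v; omega)

/-- `L(D + P) / L(D)` has dimension at most one. -/
theorem exists_sub_smul_mem (hval : HasValues K F) (D : Divisor K F) (P : Place K F) :
    ∃ g ∈ riemannRochSpace (D + Finsupp.single P 1),
      ∀ f ∈ riemannRochSpace (D + Finsupp.single P 1),
        ∃ c : K, f - c • g ∈ riemannRochSpace D := by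
  classical
  by_cases hle : riemannRochSpace (D + Finsupp.single P 1) ≤ riemannRochSpace D
  · exact ⟨0, Submodule.zero_mem _, fun f hf => ⟨0, by simpa using hle hf⟩⟩
  obtain ⟨g, hg, hgD⟩ := Set.not_subset.mp hle
  refine ⟨g, hg, fun f hf => ?_⟩
  have hg' := mem_riemannRochSpace_iff.mp hg
  have hg0 : g ≠ 0 := by
    rintro rfl
    exact hgD (Submodule.zero_mem _)
  -- values of `D + P`
  have hval' : ∀ v, v ≠ P → (D + Finsupp.single P 1 : Divisor K F) v = D v := by
    intro v hv
    rw [Finsupp.add_apply, Finsupp.single_apply, if_neg (Ne.symm hv), add_zero]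
  have hvalP : (D + Finsupp.single P 1 : Divisor K F) P = D P + 1 := by
    rw [Finsupp.add_apply, Finsupp.single_apply, if_pos rfl]
  -- the order of `g` at `P` is exactly `-(D P + 1)`
  have hgP : P.ord g = -(D P + 1) := by
    have h1 : -(D P + 1) ≤ P.ord g := by
      have := (hg' P).resolve_left hg0
      rwa [hvalP] at this
    by_contra hne
    apply hgD
    show g ∈ riemannRochSpace D
    rw [mem_riemannRochSpace_iff]
    intro v
    right
    by_cases hv : v = P
    · subst hv
      omega
    · have := (hg' v).resolve_left hg0
      rwa [hval' v hv] at this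
  by_cases hf0 : f = 0
  · exact ⟨0, by rw [hf0]; simp⟩
  have hf' := mem_riemannRochSpace_iff.mp hf
  have hfP : -(D P + 1) ≤ P.ord f := by
    have := (hf' P).resolve_left hf0
    rwa [hvalP] at this
  have hq : 0 ≤ P.ord (f / g) := by
    rw [ord_div P hf0 hg0, hgP]
    omega
  obtain ⟨c, hc | hc⟩ := hval P (f / g) hq
  · refine ⟨c, ?_⟩
    have : f - c • g = 0 := by
      rw [Algebra.smul_def, ← hc, div_mul_cancel₀ _ hg0, sub_self]
    rw [this]
    exact Submodule.zero_mem _
  · refine ⟨c, ?_⟩
    have hmem : f - c • g ∈ riemannRochSpace (D + Finsupp.single P 1) :=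
      Submodule.sub_mem _ hf (Submodule.smul_mem _ _ hg)
    have hmem' := mem_riemannRochSpace_iff.mp hmem
    rw [mem_riemannRochSpace_iff]
    intro v
    by_cases h0 : f - c • g = 0
    · exact Or.inl h0
    right
    by_cases hv : v = P
    · subst hv
      have e : f - c • g = g * (f / g - algebraMap K F c) := by
        rw [Algebra.smul_def, mul_sub, mul_div_cancel₀ _ hg0, mul_comm g]
      have hne : f / g - algebraMap K F c ≠ 0 := by
        intro h1
        rw [h1, mul_zero] at e
        exact h0 e
      rw [e, v.ord_mul hg0 hne, hgP]
      omega
    · have := (hmem' v).resolve_left h0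
      rwa [hval' v hv] at this

theorem finiteDimensional_add_single (hval : HasValues K F) (D : Divisor K F) (P : Place K F)
    [FiniteDimensional K (riemannRochSpace D)] :
    FiniteDimensional K (riemannRochSpace (D + Finsupp.single P 1)) := by
  obtain ⟨g, -, hg⟩ := exists_sub_smul_mem hval D P
  have hle : riemannRochSpace (D + Finsupp.single P 1) ≤
      riemannRochSpace D ⊔ Submodule.span K {g} := by
    intro f hf
    obtain ⟨c, hc⟩ := hg f hf
    have : f = (f - c • g) + c • g := by ring
    rw [this]
    exact Submodule.add_mem _ (Submodule.mem_sup_left hc)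
      (Submodule.mem_sup_right (Submodule.smul_mem _ _ (Submodule.mem_span_singleton_self g)))
  have : FiniteDimensional K (Submodule.span K {g}) :=
    FiniteDimensional.span_of_finite K (Set.finite_singleton g)
  exact Submodule.finiteDimensional_of_le hle

theorem finiteDimensional_add_single_nat (hval : HasValues K F) (D : Divisor K F)
    (P : Place K F) [FiniteDimensional K (riemannRochSpace D)] (n : ℕ) :
    FiniteDimensional K (riemannRochSpace (D + Finsupp.single P (n : ℤ))) := by
  induction n with
  | zero =>
    have : D + Finsupp.single P ((0 : ℕ) : ℤ) = D := by simp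
    rw [this]
    infer_instance
  | succ n ih =>
    have : D + Finsupp.single P ((n + 1 : ℕ) : ℤ) =
        (D + Finsupp.single P (n : ℤ)) + Finsupp.single P 1 := by
      rw [add_assoc, ← Finsupp.single_add]
      push_cast
      rfl
    rw [this]
    exact finiteDimensional_add_single hval _ P

theorem finiteDimensional_zero (hconst : HasConstants K F) :
    FiniteDimensional K (riemannRochSpace (0 : Divisor K F)) := by
  have hle : riemannRochSpace (0 : Divisor K F) ≤ Submodule.span K {(1 : F)} := by
    intro f hf
    by_cases hf0 : f = 0
    · rw [hf0]; exact Submodule.zero_mem _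
    have hf' := mem_riemannRochSpace_iff.mp hf
    obtain ⟨c, hc⟩ := hconst f hf0 fun v => by
      have := (hf' v).resolve_left hf0
      simpa using this
    rw [hc, Algebra.algebraMap_eq_smul_one]
    exact Submodule.smul_mem _ _ (Submodule.mem_span_singleton_self 1)
  have : FiniteDimensional K (Submodule.span K {(1 : F)}) :=
    FiniteDimensional.span_of_finite K (Set.finite_singleton 1)
  exact Submodule.finiteDimensional_of_le hle

/-- The effective divisor attached to an `ℕ`-valued function of finite support. -/
def ofNat (E : Place K F →₀ ℕ) : Divisor K F :=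
  E.mapRange (fun n : ℕ => (n : ℤ)) Nat.cast_zero

@[simp]
theorem ofNat_apply (E : Place K F →₀ ℕ) (v : Place K F) : ofNat E v = (E v : ℤ) := rfl

theorem finiteDimensional_ofNat (hval : HasValues K F) (hconst : HasConstants K F)
    (E : Place K F →₀ ℕ) : FiniteDimensional K (riemannRochSpace (ofNat E)) := by
  classical
  induction E using Finsupp.induction with
  | zero =>
    have : ofNat (0 : Place K F →₀ ℕ) = 0 := by
      ext v
      simp
    rw [this]
    exact finiteDimensional_zero hconst
  | single_add a b f _ _ ih =>
    have : ofNat (Finsupp.single a b + f) = ofNat f + Finsupp.single a (b : ℤ) := by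
      ext v
      simp only [ofNat_apply, Finsupp.add_apply, Finsupp.single_apply]
      split_ifs <;> simp [add_comm]
    rw [this]
    exact finiteDimensional_add_single_nat hval _ a b

/-- **Riemann–Roch spaces are finite-dimensional.** -/
theorem finiteDimensional (hval : HasValues K F) (hconst : HasConstants K F)
    (D : Divisor K F) : FiniteDimensional K (riemannRochSpace D) := by
  classical
  set E : Place K F →₀ ℕ := D.mapRange Int.toNat Int.toNat_zero with hE
  have hle : riemannRochSpace D ≤ riemannRochSpace (ofNat E) := by
    apply riemannRochSpace_mono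
    intro v
    rw [ofNat_apply, hE, Finsupp.mapRange_apply]
    exact Int.self_le_toNat (D v)
  have := finiteDimensional_ofNat hval hconst E
  exact Submodule.finiteDimensional_of_le hle

end Fermat.Agent.S18.RRFinite
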