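import Mathlib
import Fermat.Prelude.Def_ModularCurve_ReductionModL
import Fermat.Prelude.Def_FLTPrelim_Ramification

/-!
# S18, Step 0: from classes to divisors, and normal forms of the divisor-level statement

Everything here is formal algebra on top of the prelude's `ReductionInputsModL`.

* `s18_of_divStmt`: the class-level statement (arbitrary exponent `m` prime to `ℓ`, classes in
  `JZero N`) follows from the divisor-level statement `DivStmt r p` for prime exponents `p ≠ ℓ`.
* `divStmt_of_ipd`: in `DivStmt` the principal divisor `m • D` may be taken of the form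
  `E₁ - E₂` with `E₁`, `E₂` divisors of integral elements.
* `divStmt_of_zero`: if `r_*` is onto on principal divisors (`PrincipalLift`), one may assume
  `r_* D = 0`.
* `divStmtZero_of_unit`: if moreover a function of the special fibre without zeros and poles is
  constant (`ConstantsSpecial`), one may assume `m • D = div y₁ - div y₂` with `y₁`, `y₂`
  integral with the same reduction.
-/

set_option autoImplicit false
set_option synthInstance.maxHeartbeats 400000

open HahnSeries IntermediateField AlgebraicCurve ModularCurve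

namespace Fermat.Agent.S18.Step0

/-! ### Generalities -/

section Ord

variable {K F : Type*} [Field K] [Field F] [Algebra K F]

theorem ord_nonneg_of_mem' (v : Place K F) {f : F} (hf : f ∈ v.toValuationSubring) :
    0 ≤ v.ord f := by
  rcases eq_or_ne f 0 with rfl | hf0
  · simp
  obtain ⟨ϖ, hϖ⟩ := IsDiscreteValuationRing.exists_irreducible v.toValuationSubring
  obtain ⟨n, u, hu⟩ :=
    IsDiscreteValuationRing.eq_unit_mul_pow_irreducible
      (x := (⟨f, hf⟩ : v.toValuationSubring)) (by simpa [Subtype.ext_iff] using hf0) hϖ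
  have hcoe : f = ((u : v.toValuationSubring) : F) * ((ϖ : F) ^ (n : ℤ)) := by
    have h := congrArg (Subtype.val) hu
    push_cast at h
    rw [zpow_natCast]
    exact h
  rw [hcoe, v.ord_unit_smul_zpow u hϖ (n : ℤ)]
  exact Int.natCast_nonneg n

theorem ord_algebraMap_eq_zero (v : Place K F) (a : K) : v.ord (algebraMap K F a) = 0 := by
  rcases eq_or_ne a 0 with rfl | ha
  · simp
  have h2 := ord_nonneg_of_mem' v (v.algebraMap_mem' a)
  have h3 := ord_nonneg_of_mem' v (v.algebraMap_mem' a⁻¹)
  rw [map_inv₀, v.ord_inv] at h3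
  omega

theorem isPrincipal_sub {D E : Divisor K F} (hD : Divisor.IsPrincipal D)
    (hE : Divisor.IsPrincipal E) : Divisor.IsPrincipal (D - E) :=
  (Divisor.principal (K := K) (F := F)).sub_mem hD hE

theorem isPrincipal_add {D E : Divisor K F} (hD : Divisor.IsPrincipal D)
    (hE : Divisor.IsPrincipal E) : Divisor.IsPrincipal (D + E) :=
  (Divisor.principal (K := K) (F := F)).add_mem hD hE

theorem isPrincipal_nsmul {D : Divisor K F} (hD : Divisor.IsPrincipal D) (m : ℕ) :
    Divisor.IsPrincipal (m • D) :=
  (Divisor.principal (K := K) (F := F)).nsmul_mem hD m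

end Ord

section General

variable {L : Type*} [Field L] [Algebra ℚ L] {A : ValuationSubring L}
variable {k : Type*} [Field k] {π : A →+* k} {N : ℕ}

omit [Algebra ℚ L] in
theorem coeffMap_subtype_injective :
    Function.Injective (coeffMap (A.subtype : A →+* L)) := by
  intro x y hxy
  ext n
  have := congrArg (fun z => z.coeff n) hxy
  simpa using this

omit [Algebra ℚ L] in
theorem coeffMap_subtype_ne_zero {y : LaurentSeries A} (hy : coeffMap π y ≠ 0) :
    coeffMap (A.subtype : A →+* L) y ≠ 0 := by
  intro h
  apply hy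
  have : y = 0 := coeffMap_subtype_injective (by rw [h, map_zero])
  rw [this, map_zero]

theorem zero_mem_integralPrincipalDivisors :
    (0 : Divisor L (laurentBaseChange L (modularFunctionFieldFull N))) ∈
      integralPrincipalDivisors A π N := by
  refine ⟨1, by rw [map_one]; exact one_mem _, by rw [map_one]; exact one_mem _,
    by rw [map_one]; exact one_ne_zero, fun P => ?_⟩
  have : (⟨coeffMap A.subtype (1 : LaurentSeries A), by rw [map_one]; exact one_mem _⟩ :
      laurentBaseChange L (modularFunctionFieldFull N)) = 1 := by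
    ext1
    exact map_one _
  rw [this, Place.ord_one, Finsupp.zero_apply]

theorem add_mem_integralPrincipalDivisors
    {E₁ E₂ : Divisor L (laurentBaseChange L (modularFunctionFieldFull N))}
    (h₁ : E₁ ∈ integralPrincipalDivisors A π N) (h₂ : E₂ ∈ integralPrincipalDivisors A π N) :
    E₁ + E₂ ∈ integralPrincipalDivisors A π N := by
  obtain ⟨y₁, hy₁, hk₁, hne₁, hE₁⟩ := h₁
  obtain ⟨y₂, hy₂, hk₂, hne₂, hE₂⟩ := h₂
  refine ⟨y₁ * y₂, by rw [map_mul]; exact mul_mem hy₁ hy₂, by rw [map_mul]; exact mul_mem hk₁ hk₂,
    by rw [map_mul]; exact mul_ne_zero hne₁ hne₂, fun P => ?_⟩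
  have hmul : (⟨coeffMap A.subtype (y₁ * y₂), by rw [map_mul]; exact mul_mem hy₁ hy₂⟩ :
      laurentBaseChange L (modularFunctionFieldFull N)) =
        ⟨coeffMap A.subtype y₁, hy₁⟩ * ⟨coeffMap A.subtype y₂, hy₂⟩ := by
    ext1
    exact map_mul _ _ _
  have hn₁ : (⟨coeffMap A.subtype y₁, hy₁⟩ :
      laurentBaseChange L (modularFunctionFieldFull N)) ≠ 0 := fun h =>
    coeffMap_subtype_ne_zero hne₁ (congrArg Subtype.val h)
  have hn₂ : (⟨coeffMap A.subtype y₂, hy₂⟩ :
      laurentBaseChange L (modularFunctionFieldFull N)) ≠ 0 := fun h =>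
    coeffMap_subtype_ne_zero hne₂ (congrArg Subtype.val h)
  rw [hmul, Place.ord_mul _ hn₁ hn₂, Finsupp.add_apply, hE₁ P, hE₂ P]

theorem isPrincipal_of_mem_integralPrincipalDivisors
    {E : Divisor L (laurentBaseChange L (modularFunctionFieldFull N))}
    (h : E ∈ integralPrincipalDivisors A π N) : Divisor.IsPrincipal E := by
  obtain ⟨y, hy, _, hne, hE⟩ := h
  exact ⟨⟨coeffMap A.subtype y, hy⟩,
    fun h => coeffMap_subtype_ne_zero hne (congrArg Subtype.val h), hE⟩

/-- Every element of the closure of the integral principal divisors is a difference of two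
integral principal divisors. -/
theorem exists_sub_of_mem_closure
    {E : Divisor L (laurentBaseChange L (modularFunctionFieldFull N))}
    (hE : E ∈ AddSubgroup.closure (integralPrincipalDivisors A π N)) :
    ∃ E₁ ∈ integralPrincipalDivisors A π N, ∃ E₂ ∈ integralPrincipalDivisors A π N,
      E = E₁ - E₂ := by
  induction hE using AddSubgroup.closure_induction with
  | mem E hE => exact ⟨E, hE, 0, zero_mem_integralPrincipalDivisors, (sub_zero E).symm⟩
  | zero => exact ⟨0, zero_mem_integralPrincipalDivisors, 0, zero_mem_integralPrincipalDivisors,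
      (sub_zero _).symm⟩
  | add E E' _ _ hE hE' =>
    obtain ⟨E₁, h₁, E₂, h₂, rfl⟩ := hE
    obtain ⟨E₁', h₁', E₂', h₂', rfl⟩ := hE'
    exact ⟨E₁ + E₁', add_mem_integralPrincipalDivisors h₁ h₁', E₂ + E₂',
      add_mem_integralPrincipalDivisors h₂ h₂', by abel⟩
  | neg E _ hE =>
    obtain ⟨E₁, h₁, E₂, h₂, rfl⟩ := hE
    exact ⟨E₂, h₂, E₁, h₁, by abel⟩

/-- A principal divisor is a difference of two integral principal divisors. -/
theorem exists_sub_of_isPrincipal (hgen : PrincipalGeneratedByIntegral A π N)
    {E : Divisor L (laurentBaseChange L (modularFunctionFieldFull N))}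
    (hE : Divisor.IsPrincipal E) :
    ∃ E₁ ∈ integralPrincipalDivisors A π N, ∃ E₂ ∈ integralPrincipalDivisors A π N,
      E = E₁ - E₂ :=
  exists_sub_of_mem_closure (hgen hE)

/-! ### The divisor-level statement and its normal forms -/

variable (A π N)
variable (r : Place L (laurentBaseChange L (modularFunctionFieldFull N)) →
  Place k (modularFunctionFieldFullC k N))

/-- The divisor-level statement for the exponent `m`: a degree-zero divisor `D` of the generic
fibre with `m • D` principal and with principal specialization `r_* D` is principal. -/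
def DivStmt (m : ℕ) : Prop :=
  ∀ D : Divisor L (laurentBaseChange L (modularFunctionFieldFull N)),
    Divisor.degree D = 0 → Divisor.IsPrincipal (m • D) →
      Divisor.IsPrincipal (Finsupp.mapDomain r D) → Divisor.IsPrincipal D

/-- Normal form 1: `m • D` is a difference of two divisors of integral elements. -/
def DivStmtIPD (m : ℕ) : Prop :=
  ∀ D : Divisor L (laurentBaseChange L (modularFunctionFieldFull N)),
    Divisor.degree D = 0 →
    ∀ E₁ ∈ integralPrincipalDivisors A π N, ∀ E₂ ∈ integralPrincipalDivisors A π N,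
      m • D = E₁ - E₂ →
        Divisor.IsPrincipal (Finsupp.mapDomain r D) → Divisor.IsPrincipal D

/-- Normal form 2: the specialization `r_* D` is zero. -/
def DivStmtZero (m : ℕ) : Prop :=
  ∀ D : Divisor L (laurentBaseChange L (modularFunctionFieldFull N)),
    Divisor.degree D = 0 → Finsupp.mapDomain r D = 0 → Divisor.IsPrincipal (m • D) →
      Divisor.IsPrincipal D

/-- Normal form 3: `r_* D = 0` and `m • D = div y₁ - div y₂` for two integral elements `y₁`, `y₂`
with the same (nonzero) reduction. -/
def DivStmtUnit (m : ℕ) : Prop :=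
  ∀ D : Divisor L (laurentBaseChange L (modularFunctionFieldFull N)),
    Divisor.degree D = 0 → Finsupp.mapDomain r D = 0 →
    ∀ (y₁ y₂ : LaurentSeries A)
      (h₁ : coeffMap A.subtype y₁ ∈ laurentBaseChange L (modularFunctionFieldFull N))
      (h₂ : coeffMap A.subtype y₂ ∈ laurentBaseChange L (modularFunctionFieldFull N)),
      coeffMap π y₁ ∈ modularFunctionFieldFullC k N → coeffMap π y₁ ≠ 0 →
      coeffMap π y₁ = coeffMap π y₂ →
      (∀ P : Place L (laurentBaseChange L (modularFunctionFieldFull N)),
        (m : ℤ) * D P =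
          P.ord (⟨coeffMap A.subtype y₁, h₁⟩ : laurentBaseChange L (modularFunctionFieldFull N)) -
          P.ord (⟨coeffMap A.subtype y₂, h₂⟩ : laurentBaseChange L (modularFunctionFieldFull N))) →
      Divisor.IsPrincipal D

/-- `r_*` is onto on principal divisors. -/
def PrincipalLift : Prop :=
  ∀ Ebar : Divisor k (modularFunctionFieldFullC k N), Divisor.IsPrincipal Ebar →
    ∃ E : Divisor L (laurentBaseChange L (modularFunctionFieldFull N)),
      Divisor.IsPrincipal E ∧ Finsupp.mapDomain r E = Ebar

/-- A function of the special fibre without zeros and poles is constant. -/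
def ConstantsSpecial : Prop :=
  ∀ g : modularFunctionFieldFullC k N, g ≠ 0 →
    (∀ Q : Place k (modularFunctionFieldFullC k N), Q.ord g = 0) →
      ∃ c : k, g = algebraMap k (modularFunctionFieldFullC k N) c

variable {A π N r}

theorem divStmt_of_ipd (hgen : PrincipalGeneratedByIntegral A π N) {m : ℕ}
    (h : DivStmtIPD A π N r m) : DivStmt N r m := by
  intro D hD hmD hrD
  obtain ⟨E₁, h₁, E₂, h₂, hE⟩ := exists_sub_of_isPrincipal hgen hmD
  exact h D hD E₁ h₁ E₂ h₂ hE hrD

theorem divStmt_of_zero (hr : IsPlaceReductionAlong A π N r) (hlift : PrincipalLift N r) {m : ℕ}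
    (h : DivStmtZero N r m) : DivStmt N r m := by
  intro D hD hmD hrD
  obtain ⟨E, hE, hrE⟩ := hlift _ hrD
  have hdegE : Divisor.degree E = 0 := by
    rw [← degree_mapDomain_of_deg_eq hr.1 E, hrE, degree_mapDomain_of_deg_eq hr.1 D, hD]
  have h1 : Divisor.IsPrincipal (D - E) := by
    apply h (D - E)
    · rw [map_sub, hD, hdegE, sub_zero]
    · rw [Finsupp.mapDomain_sub, hrE, sub_self]
    · rw [smul_sub]
      exact isPrincipal_sub hmD (isPrincipal_nsmul hE m)
  have := isPrincipal_add h1 hE
  rwa [sub_add_cancel] at this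

theorem divStmtZero_of_unit (hr : IsPlaceReductionAlong A π N r)
    (hgen : PrincipalGeneratedByIntegral A π N) (hπ : Function.Surjective π)
    (hconst : ConstantsSpecial (k := k) N) {m : ℕ}
    (h : DivStmtUnit A π N r m) : DivStmtZero N r m := by
  intro D hD hrD hmD
  obtain ⟨E₁, h₁, E₂, h₂, hE⟩ := exists_sub_of_isPrincipal hgen hmD
  obtain ⟨y₁, hy₁, hk₁, hne₁, hE₁⟩ := h₁
  obtain ⟨y₂, hy₂, hk₂, hne₂, hE₂⟩ := h₂
  -- the reductions have the same divisor
  have hr₁ := hr.2 y₁ hy₁ hk₁ hne₁ E₁ hE₁
  have hr₂ := hr.2 y₂ hy₂ hk₂ hne₂ E₂ hE₂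
  have hsame : Finsupp.mapDomain r E₁ = Finsupp.mapDomain r E₂ := by
    have h0 : Finsupp.mapDomain r (m • D) = 0 := by
      rw [← Finsupp.mapDomain.addMonoidHom_apply, map_nsmul, Finsupp.mapDomain.addMonoidHom_apply,
        hrD, smul_zero]
    rw [hE, Finsupp.mapDomain_sub, sub_eq_zero] at h0
    exact h0
  set g₁ : modularFunctionFieldFullC k N := ⟨coeffMap π y₁, hk₁⟩ with hg₁
  set g₂ : modularFunctionFieldFullC k N := ⟨coeffMap π y₂, hk₂⟩ with hg₂
  have hg₁0 : g₁ ≠ 0 := fun h => hne₁ (congrArg Subtype.val h)
  have hg₂0 : g₂ ≠ 0 := fun h => hne₂ (congrArg Subtype.val h)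
  obtain ⟨c, hc⟩ := hconst (g₁ * g₂⁻¹) (mul_ne_zero hg₁0 (inv_ne_zero hg₂0)) (fun Q => by
    rw [Place.ord_mul _ hg₁0 (inv_ne_zero hg₂0), Place.ord_inv, ← hr₁ Q, ← hr₂ Q, hsame]
    ring)
  have hg : g₁ = algebraMap k (modularFunctionFieldFullC k N) c * g₂ := by
    rw [← hc, mul_assoc, inv_mul_cancel₀ hg₂0, mul_one]
  have hc0 : c ≠ 0 := by
    rintro rfl
    rw [map_zero, zero_mul] at hg
    exact hg₁0 hg
  obtain ⟨u, rfl⟩ := hπ c
  have hu0 : (u : L) ≠ 0 := by
    intro h0
    apply hc0
    have : u = 0 := Subtype.ext h0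
    rw [this, map_zero]
  -- the corrected second element
  have hmap : coeffMap A.subtype (HahnSeries.single 0 u * y₂) =
      algebraMap L (LaurentSeries L) (u : L) * coeffMap A.subtype y₂ := by
    rw [map_mul, coeffMap_single, algebraMap_laurentSeries_eq_single]
    rfl
  have hy₂' : coeffMap A.subtype (HahnSeries.single 0 u * y₂) ∈
      laurentBaseChange L (modularFunctionFieldFull N) := by
    rw [hmap]
    exact mul_mem ((laurentBaseChange L (modularFunctionFieldFull N)).algebraMap_mem _) hy₂
  have hred : coeffMap π y₁ = coeffMap π (HahnSeries.single 0 u * y₂) := by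
    rw [map_mul, coeffMap_single, ← algebraMap_laurentSeries_eq_single]
    exact congrArg Subtype.val hg
  refine h D hD hrD y₁ (HahnSeries.single 0 u * y₂) hy₁ hy₂' hk₁ hne₁ hred (fun P => ?_)
  have hn₂ : (⟨coeffMap A.subtype y₂, hy₂⟩ :
      laurentBaseChange L (modularFunctionFieldFull N)) ≠ 0 := fun h =>
    coeffMap_subtype_ne_zero hne₂ (congrArg Subtype.val h)
  have hprod : (⟨coeffMap A.subtype (HahnSeries.single 0 u * y₂), hy₂'⟩ :
      laurentBaseChange L (modularFunctionFieldFull N)) =
        algebraMap L (laurentBaseChange L (modularFunctionFieldFull N)) (u : L) *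
          ⟨coeffMap A.subtype y₂, hy₂⟩ := by
    ext1
    exact hmap
  have hu0' : algebraMap L (laurentBaseChange L (modularFunctionFieldFull N)) (u : L) ≠ 0 :=
    fun h0 => hu0 ((map_eq_zero _).mp h0)
  rw [hprod, Place.ord_mul _ hu0' hn₂, ord_algebraMap_eq_zero, zero_add, ← hE₁ P, ← hE₂ P,
    ← Finsupp.sub_apply, ← hE, Finsupp.smul_apply, nsmul_eq_mul]

end General

/-! ### From classes to divisors -/

section Class

variable (N : ℕ) (A : ValuationSubring (AlgebraicClosure ℚ))

/-- The class-level statement for one exponent `m`. -/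
def ClassStmt (m : ℕ) : Prop :=
  ∀ z : ModularCurve.JZero N, m • z = 0 → ModularCurve.reductionModL A N z = 0 → z = 0

theorem classStmt_one : ClassStmt N A 1 := by
  intro z hz _
  simpa using hz

theorem classStmt_mul {a b : ℕ} (ha : ClassStmt N A a) (hb : ClassStmt N A b) :
    ClassStmt N A (a * b) := by
  intro z hz hred
  apply hb z _ hred
  apply ha (b • z)
  · rw [← mul_smul]; exact hz
  · rw [map_nsmul, hred, smul_zero]

/-- Reduction to prime exponents. -/
theorem classStmt_of_prime {ℓ : ℕ} (hp : ∀ p : ℕ, p.Prime → p ≠ ℓ → ClassStmt N A p)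
    (m : ℕ) (hm : ¬ ℓ ∣ m) : ClassStmt N A m := by
  induction m using Nat.recOnMul with
  | zero => exact absurd (dvd_zero ℓ) hm
  | one => exact classStmt_one N A
  | prime p hp' =>
    exact hp p hp' (fun h => hm (h ▸ dvd_rfl))
  | mul a b iha ihb =>
    exact classStmt_mul N A (iha fun h => hm (h.mul_right b)) (ihb fun h => hm (h.mul_left a))

theorem classStmt_of_divStmt (h : ReductionInputsModL A N) {m : ℕ}
    (hD : DivStmt N (placeReductionModL h) m) : ClassStmt N A m := by
  intro z hmz hz
  obtain ⟨D, rfl⟩ := Pic0.mk_surjective z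
  rw [reductionModL_mk h] at hz
  have h1 : Divisor.IsPrincipal
      (m • (D : Divisor (AlgebraicClosure ℚ) (modularFunctionFieldBar N))) := by
    have : (m • D : Divisor.degZero (K := AlgebraicClosure ℚ) (F := modularFunctionFieldBar N)) ∈
        (Divisor.principal (K := AlgebraicClosure ℚ) (F := modularFunctionFieldBar N)).addSubgroupOf
          (Divisor.degZero (K := AlgebraicClosure ℚ) (F := modularFunctionFieldBar N)) := by
      rw [← QuotientAddGroup.eq_zero_iff]
      exact hmz
    rw [AddSubgroup.mem_addSubgroupOf, AddSubgroupClass.coe_nsmul] at this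
    exact this
  have h2 : Divisor.IsPrincipal (Finsupp.mapDomain (placeReductionModL h)
      (D : Divisor (AlgebraicClosure ℚ) (modularFunctionFieldBar N))) := by
    have := (QuotientAddGroup.eq_zero_iff _).1 hz
    rw [AddSubgroup.mem_addSubgroupOf, coe_reductionDegZeroAlong] at this
    exact this
  have h3 := hD D D.2 h1 h2
  show (QuotientAddGroup.mk D : JZero N) = 0
  rw [QuotientAddGroup.eq_zero_iff, AddSubgroup.mem_addSubgroupOf]
  exact h3

/-- **Step 0.**  The statement of S18 follows from the divisor-level statement for all prime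
exponents different from `ℓ` (for every place reduction `r` satisfying the prelude's two
properties). -/
theorem s18_of_divStmt {ℓ : ℕ}
    (hMT : ∀ r : Place (AlgebraicClosure ℚ) (modularFunctionFieldBar N) →
        Place (IsLocalRing.ResidueField A)
          (modularFunctionFieldFullC (IsLocalRing.ResidueField A) N),
      IsPlaceReductionModL A N r → PrincipalGeneratedByIntegral A (IsLocalRing.residue A) N →
        ∀ p : ℕ, p.Prime → p ≠ ℓ → DivStmt N r p)
    (h : ModularCurve.ReductionInputsModL A N) (m : ℕ) (hm : ¬ ℓ ∣ m) (z : ModularCurve.JZero N)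
    (hmz : m • z = 0) (hz : ModularCurve.reductionModL A N z = 0) :
    z = 0 :=
  classStmt_of_prime N A (fun p hp hpℓ => classStmt_of_divStmt N A h
    (hMT _ (isPlaceReductionModL_placeReductionModL h) h.choose_spec.2 p hp hpℓ)) m hm z hmz hz

/-- **Step 0, normalized.**  The statement of S18 follows from: `r_*` is onto on principal
divisors, functions of the special fibre without zeros and poles are constant, and the
normalized divisor-level statement `DivStmtUnit` for all prime exponents different from `ℓ`. -/
theorem s18_of_divStmtUnit {ℓ : ℕ}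
    (hMT : ∀ r : Place (AlgebraicClosure ℚ) (modularFunctionFieldBar N) →
        Place (IsLocalRing.ResidueField A)
          (modularFunctionFieldFullC (IsLocalRing.ResidueField A) N),
      IsPlaceReductionModL A N r → PrincipalGeneratedByIntegral A (IsLocalRing.residue A) N →
        PrincipalLift N r ∧ ConstantsSpecial (k := IsLocalRing.ResidueField A) N ∧
        ∀ p : ℕ, p.Prime → p ≠ ℓ → DivStmtUnit A (IsLocalRing.residue A) N r p)
    (h : ModularCurve.ReductionInputsModL A N) (m : ℕ) (hm : ¬ ℓ ∣ m) (z : ModularCurve.JZero N)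
    (hmz : m • z = 0) (hz : ModularCurve.reductionModL A N z = 0) :
    z = 0 :=
  s18_of_divStmt N A (fun r hr hgen p hp hpℓ =>
    divStmt_of_zero hr (hMT r hr hgen).1
      (divStmtZero_of_unit hr hgen IsLocalRing.residue_surjective (hMT r hr hgen).2.1
        ((hMT r hr hgen).2.2 p hp hpℓ))) h m hm z hmz hz

end Class

end Fermat.Agent.S18.Step0
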