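import Mathlib
import Fermat.Agent.S18.FbarSep
import Fermat.Agent.S18.ResField
import Fermat.Agent.S18.RRFinite
import Fermat.Agent.S18.Step0
import Fermat.Agent.S24.FFPrincipal

/-!
# S18, the reduced function field: principal divisors have degree zero, constants, `L(D)`

`A` a valuation ring of `ℚ̄` over `ℓ`, `k` its residue field, `Fk = FkN` the reduced modular
function field of a level `N` (finite over `k(j̄)`).

* `isSeparable_of_order` : an element of `Fk` whose `q`-order is prime to `ℓ` is separating;
* `finite_ord_ne_zero`, `finsum_ord_eq_zero` : every nonzero function has finitely many zeros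
  and poles, and the sum of its orders vanishes (`h` or `h j̄` is separating);
* `hasValues`, `hasConstants`, `constantsSpecial` : residue fields are `k`, functions without
  poles are constant (the hypothesis `Step0.ConstantsSpecial`);
* `finiteDimensional`, `le_sup_span` : Riemann–Roch spaces of `Fk` are finite-dimensional and
  `L(D + Q) ≤ L(D) ⊔ k g`.
-/

set_option autoImplicit false
set_option synthInstance.maxHeartbeats 400000
set_option linter.style.haveILetI false

noncomputable section

namespace Fermat.Agent.S18.DegZeroFbar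

open ModularCurve AlgebraicCurve IntermediateField IsLocalRing
open Fermat.Agent.S24 Fermat.Agent.S24.Eval Fermat.Agent.S18.DegEq
open Fermat.Agent.S18.RRFinite

variable {A : ValuationSubring KK} {ℓ : ℕ} [Fact ℓ.Prime] (N : ℕ) [NeZero N]

local notation "kA" => ResidueField A
local notation "FkA" => modularFunctionFieldFullC (ResidueField A) N

omit [NeZero N] in
/-- An element of the reduced function field whose `q`-order is prime to `ℓ` is separating. -/
theorem isSeparable_of_order (hA : A.LiesOverPrime ℓ) (x : FkA)
    (hx : ¬ (ℓ : ℤ) ∣ (x : LaurentSeries kA).order)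
    [Algebra.IsAlgebraic kA⟮x⟯ FkA] : Algebra.IsSeparable kA⟮x⟯ FkA := by
  haveI : CharP kA ℓ := ResField.charP_residueField hA
  haveI : CharP FkA ℓ := charP_of_injective_algebraMap (algebraMap kA FkA).injective ℓ
  refine ⟨fun y => ?_⟩
  refine Fermat.Agent.S18.SepLaurent.isSeparable_of_pBasis ℓ kA⟮x⟯ x
    (fun a ha => Fermat.Agent.S18.SepLaurent.isComb_of_mem_adjoin ℓ x ha) ?_ y
    (Algebra.IsAlgebraic.isAlgebraic y).isIntegral
  intro z hz
  have h1 := congrArg (modularFunctionFieldFullC kA N).val hz
  rw [map_sum, map_zero] at h1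
  have h2 : ∑ j ∈ Finset.range ℓ,
      ((fun j => ((z j : FkA) : LaurentSeries kA)) j) ^ ℓ * (x : LaurentSeries kA) ^ j = 0 := by
    rw [← h1]
    refine Finset.sum_congr rfl fun j _ => ?_
    rw [map_mul, map_pow, map_pow]
    rfl
  have h3 := Fermat.Agent.S18.SepLaurent.laurent_independent ℓ (x : LaurentSeries kA) hx _ h2
  intro j hj
  exact Subtype.ext (h3 j hj)

omit [NeZero N] in
theorem order_algebraMap (c : kA) :
    ((algebraMap kA FkA c : FkA) : LaurentSeries kA).order = 0 := by
  have : ((algebraMap kA FkA c : FkA) : LaurentSeries kA) =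
      algebraMap kA (LaurentSeries kA) c := rfl
  rw [this, algebraMap_laurentSeries_eq_single]
  by_cases hc : c = 0
  · rw [hc, HahnSeries.single_eq_zero, HahnSeries.order_zero]
  · exact HahnSeries.order_single hc

/-- The fundamental facts for an element whose `q`-order is prime to `ℓ`. -/
theorem sep_facts (hA : A.LiesOverPrime ℓ) (x : FkA)
    (hx : ¬ (ℓ : ℤ) ∣ (x : LaurentSeries kA).order) :
    {v : Place kA FkA | v.ord x ≠ 0}.Finite ∧ ∑ᶠ v : Place kA FkA, v.ord x = 0 := by
  have hxr : x ∉ Set.range (algebraMap kA FkA) := by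
    rintro ⟨c, rfl⟩
    apply hx
    rw [order_algebraMap]
    exact dvd_zero _
  have htr : Transcendental kA x := transcendental_of_not_mem_range x hxr
  haveI := finiteDimensional_residue (A := A) N
  haveI : FiniteDimensional kA⟮x⟯ FkA :=
    finiteDimensional_adjoin (jk kA N) (transcendental_jk kA N) x htr
  haveI : Algebra.IsSeparable kA⟮x⟯ FkA := isSeparable_of_order N hA x hx
  have hz := Fermat.Agent.S18.FFSepFiber.placesOver_finite x htr 0
  have hp := Fermat.Agent.S18.FFSepFiber.placesOverInfty_finite x htr
  exact ⟨FFPrincipal.finite_ord_ne_zero_of x hz hp,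
    FFPrincipal.finsum_ord_eq_zero_of x _ hz hp
      (Fermat.Agent.S18.FFSepFiber.finsum_ord_placesOver x htr 0)
      (Fermat.Agent.S18.FFSepFiber.finsum_ord_placesOverInfty x htr)⟩

omit [NeZero N] in
theorem order_jk : ((jk kA N : FkA) : LaurentSeries kA).order = -1 :=
  Fermat.Agent.S18.FbarSep.order_jqModC' kA

omit [NeZero N] in
theorem jk_ne_zero : (jk kA N : FkA) ≠ 0 := by
  intro h
  have h1 := order_jk (A := A) N
  rw [h, ZeroMemClass.coe_zero, HahnSeries.order_zero] at h1
  omega

/-- **Principal divisors of the reduced function field have finite support and degree zero.** -/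
theorem facts (hA : A.LiesOverPrime ℓ) (h : FkA) (hh : h ≠ 0) :
    {v : Place kA FkA | v.ord h ≠ 0}.Finite ∧ ∑ᶠ v : Place kA FkA, v.ord h = 0 := by
  by_cases hx : (ℓ : ℤ) ∣ (h : LaurentSeries kA).order
  · -- `h * j̄` and `j̄` are separating
    have hj := jk_ne_zero (A := A) N
    have hℓ : (2 : ℤ) ≤ (ℓ : ℤ) := by exact_mod_cast (Fact.out : ℓ.Prime).two_le
    have hw : ¬ (ℓ : ℤ) ∣ ((h * jk kA N : FkA) : LaurentSeries kA).order := by
      have e : ((h * jk kA N : FkA) : LaurentSeries kA) =
          (h : LaurentSeries kA) * (jk kA N : LaurentSeries kA) := rfl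
      have hh' : (h : LaurentSeries kA) ≠ 0 := fun h0 => hh (Subtype.ext h0)
      have hj' : ((jk kA N : FkA) : LaurentSeries kA) ≠ 0 := fun h0 => hj (Subtype.ext h0)
      rw [e, HahnSeries.order_mul hh' hj', order_jk]
      intro hdvd
      have h1 : (ℓ : ℤ) ∣ 1 := by
        have := dvd_sub hx hdvd
        simpa using this
      have := Int.le_of_dvd one_pos h1
      omega
    have hjo : ¬ (ℓ : ℤ) ∣ ((jk kA N : FkA) : LaurentSeries kA).order := by
      rw [order_jk, dvd_neg]
      intro h1
      have := Int.le_of_dvd one_pos h1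
      omega
    obtain ⟨hfw, hsw⟩ := sep_facts N hA (h * jk kA N) hw
    obtain ⟨hfj, hsj⟩ := sep_facts N hA (jk kA N) hjo
    have hord : ∀ v : Place kA FkA, v.ord h = v.ord (h * jk kA N) - v.ord (jk kA N) := by
      intro v
      rw [v.ord_mul hh hj]
      ring
    constructor
    · refine (hfw.union hfj).subset ?_
      intro v hv
      simp only [Set.mem_setOf_eq, Set.mem_union] at hv ⊢
      by_contra hcon
      push Not at hcon
      apply hv
      rw [hord v, hcon.1, hcon.2, sub_zero]
    · rw [show (fun v : Place kA FkA => v.ord h) =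
        fun v => v.ord (h * jk kA N) - v.ord (jk kA N) from funext hord]
      rw [finsum_sub_distrib hfw hfj, hsw, hsj, sub_zero]
  · exact sep_facts N hA h hx

theorem finite_ord_ne_zero (hA : A.LiesOverPrime ℓ) (h : FkA) (hh : h ≠ 0) :
    {v : Place kA FkA | v.ord h ≠ 0}.Finite := (facts N hA h hh).1

theorem finsum_ord_eq_zero (hA : A.LiesOverPrime ℓ) (h : FkA) (hh : h ≠ 0) :
    ∑ᶠ v : Place kA FkA, v.ord h = 0 := (facts N hA h hh).2

/-- Residue fields of the places of the reduced function field are `k`. -/
theorem hasValues : HasValues kA FkA := fun v _ hf =>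
  Fermat.Agent.S18.FbarSep.exists_sub_algebraMap_ord_pos N v hf

/-- A sum with finite support of nonnegative integers that vanishes has all terms zero. -/
theorem eq_zero_of_finsum_eq_zero' {α : Type*} (f : α → ℤ) (hfin : (Function.support f).Finite)
    (hnn : ∀ a, 0 ≤ f a) (hsum : ∑ᶠ a, f a = 0) (a : α) : f a = 0 := by
  classical
  rw [finsum_eq_sum_of_support_subset (s := hfin.toFinset) f (by
    intro x hx
    simpa using hx)] at hsum
  by_cases ha : a ∈ hfin.toFinset
  · exact (Finset.sum_eq_zero_iff_of_nonneg fun x _ => hnn x).mp hsum a ha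
  · simpa using ha

/-- The reduced function field has a place. -/
theorem exists_place (hA : A.LiesOverPrime ℓ) (hℓN : ¬ ℓ ∣ N) : Nonempty (Place kA FkA) := by
  by_contra hne
  rw [not_nonempty_iff] at hne
  have h1 := Fermat.Agent.S18.FbarSep.finsum_ord_placesOver (A := A) N hA hℓN 0
  have h2 : ∑ᶠ v ∈ placesOver (k := kA) (jk kA N) 0,
      v.ord (jk kA N - algebraMap kA FkA 0) = 0 := by
    rw [finsum_mem_def]
    exact finsum_of_isEmpty _
  rw [h2] at h1
  have h3 : 0 < dedekindPsi N := by
    rw [← finrank_residue N hA hℓN]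
    haveI := finiteDimensional_residue (A := A) N
    exact Module.finrank_pos
  omega

/-- **A function of the reduced function field without poles is constant.** -/
theorem hasConstants (hA : A.LiesOverPrime ℓ) (hℓN : ¬ ℓ ∣ N) : HasConstants kA FkA := by
  intro f hf hnn
  obtain ⟨v₀⟩ := exists_place N hA hℓN
  obtain ⟨c, hc | hc⟩ := hasValues N v₀ f (hnn v₀)
  · exact ⟨c, hc⟩
  · exfalso
    set h : FkA := f - algebraMap kA FkA c with hh
    have hh0 : h ≠ 0 := by
      intro h0
      rw [h0, Place.ord_zero] at hc
      exact lt_irrefl _ hc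
    have hnn' : ∀ v : Place kA FkA, 0 ≤ v.ord h := by
      intro v
      by_cases hc0 : c = 0
      · rw [hh, hc0, map_zero, sub_zero]
        exact hnn v
      · have hcF : -(algebraMap kA FkA c) ≠ 0 := by
          rw [neg_ne_zero, Ne, map_eq_zero_iff _ (algebraMap kA FkA).injective]
          exact hc0
        have h1 := le_ord_add v hf hcF (by rw [← sub_eq_add_neg]; exact hh0)
        rw [← sub_eq_add_neg, ord_neg, ord_algebraMap] at h1
        have := hnn v
        have h2 : 0 ≤ min (v.ord f) 0 := le_min this le_rfl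
        exact h2.trans h1
    have hall := eq_zero_of_finsum_eq_zero' (fun v : Place kA FkA => v.ord h)
      (finite_ord_ne_zero N hA h hh0) hnn' (finsum_ord_eq_zero N hA h hh0) v₀
    have hall' : v₀.ord h = 0 := hall
    omega

/-- The hypothesis `ConstantsSpecial` of `Step0`. -/
theorem constantsSpecial (hA : A.LiesOverPrime ℓ) (hℓN : ¬ ℓ ∣ N) :
    Step0.ConstantsSpecial (k := kA) N := by
  intro g hg hord
  exact hasConstants N hA hℓN g hg fun v => by rw [hord v]

/-- **Riemann–Roch spaces of the reduced function field are finite-dimensional.** -/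
theorem finiteDimensional (hA : A.LiesOverPrime ℓ) (hℓN : ¬ ℓ ∣ N) (D : Divisor kA FkA) :
    FiniteDimensional kA (riemannRochSpace D) :=
  RRFinite.finiteDimensional (hasValues N) (hasConstants N hA hℓN) D

/-- `L(D + Q) / L(D)` has dimension at most one. -/
theorem le_sup_span (D : Divisor kA FkA) (Q : Place kA FkA) :
    ∃ g : FkA, riemannRochSpace (D + Finsupp.single Q 1) ≤
      riemannRochSpace D ⊔ Submodule.span kA {g} := by
  obtain ⟨g, -, hg⟩ := exists_sub_smul_mem (hasValues (A := A) N) D Q
  refine ⟨g, fun f hf => ?_⟩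
  obtain ⟨c, hc⟩ := hg f hf
  have : f = (f - c • g) + c • g := by ring
  rw [this]
  exact Submodule.add_mem _ (Submodule.mem_sup_left hc)
    (Submodule.mem_sup_right (Submodule.smul_mem _ _ (Submodule.mem_span_singleton_self g)))

end Fermat.Agent.S18.DegZeroFbar
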