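import Mathlib

/-!
# S18, the end game as abstract algebra: quadratic Newton iteration and the limit

`A` is a valuation subring of an algebraically closed field `L`, `F` a field over `L`,
`O : Subring F` with a residue homomorphism `red : O →+* Fk` (an abstract Gauss ring, `IsGauss`).

* `IsGauss.exists_max`, `coeff_mem`, `linearIndependent_coe`, `coeff_div_mem`, `red_mem_span`:
  calculus of orthonormal families (families of `O` with linearly independent reductions);
* `IsGauss.exists_best_approx`: best approximation of an element by an orthonormal family inside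
  a space with an orthonormal basis;
* `NewtonData`: the hypotheses of the iteration (orthonormal bases `b` of `V`, `β` of `Vbig`,
  `red f = 1`, `f • V ^ p ⊆ Vbig`, the local claim `loc`);
* `NewtonData.newton_step`: an approximate solution `U` of `f * U ^ p = 1` modulo `c` can be
  improved to one modulo `c ^ 2`;
* `NewtonData.exists_root`: under the archimedean hypothesis there is an exact solution in `V`
  (Hilbert's Nullstellensatz for the polynomial system in the coordinates of `U`).
-/

set_option autoImplicit false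

namespace Fermat.Agent.S18.Newton

open IsLocalRing

variable {L : Type*} [Field L] {A : ValuationSubring L}
variable {F : Type*} [Field F] [Algebra L F]
variable {Fk : Type*} [Field Fk] [Algebra (ResidueField A) Fk]
variable {O : Subring F} {red : O →+* Fk}

variable (A O red) in
/-- The abstract Gauss ring interface: a subring `O` of `F` with a residue homomorphism `red`,
containing the constants of `A` compatibly, such that every nonzero element of `F` is a constant
times an element of `O` with nonzero reduction. -/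
structure IsGauss : Prop where
  const_mem : ∀ c : A, algebraMap L F (c : L) ∈ O
  red_const : ∀ c : A, red ⟨algebraMap L F (c : L), const_mem c⟩ =
    algebraMap (ResidueField A) Fk (residue A c)
  normalize : ∀ f : F, f ≠ 0 → ∃ (c : L) (u : O), c ≠ 0 ∧ red u ≠ 0 ∧ f = c • (u : F)

namespace IsGauss

variable (h : IsGauss A O red)
include h

/-- The constants of `A` as elements of `O`. -/
def cst : A →+* O :=
  ((algebraMap L F).comp A.subtype).codRestrict O h.const_mem

@[simp]
theorem coe_cst (c : A) : ((h.cst c : O) : F) = algebraMap L F (c : L) := rfl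

theorem red_cst (c : A) : red (h.cst c) = algebraMap (ResidueField A) Fk (residue A c) :=
  h.red_const c

theorem coe_cst_mul (c : A) (x : O) : ((h.cst c * x : O) : F) = (c : L) • (x : F) := by
  rw [Subring.coe_mul, coe_cst, Algebra.smul_def]

theorem red_cst_mul (c : A) (x : O) : red (h.cst c * x) = residue A c • red x := by
  rw [map_mul, red_cst, Algebra.smul_def]

theorem red_cst_mul_of_nonunit {c : A} (hc : c ∈ nonunits A) (x : O) :
    red (h.cst c * x) = 0 := by
  rw [h.red_cst_mul, (residue_eq_zero_iff c).mpr hc, zero_smul]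

theorem smul_mem (c : A) (x : O) : (c : L) • (x : F) ∈ O := by
  rw [← h.coe_cst_mul]
  exact (h.cst c * x).2

/-- In `c • u ∈ O` with `red u ≠ 0` the constant is in `A`. -/
theorem mem_of_smul_mem {c : L} {u : O} (hu : red u ≠ 0) (hcu : c • (u : F) ∈ O) : c ∈ A := by
  by_contra hc
  have hc0 : c ≠ 0 := fun h0 => hc (h0 ▸ A.zero_mem)
  have hinv : c⁻¹ ∈ A := (A.mem_or_inv_mem c).resolve_left hc
  have hnu : (⟨c⁻¹, hinv⟩ : A) ∈ nonunits A := by
    intro hunit
    apply hc
    obtain ⟨b, hb⟩ := hunit.exists_right_inv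
    have h3 : c⁻¹ * (b : L) = 1 := congrArg Subtype.val hb
    have h4 : (b : L) = c := by
      field_simp at h3
      exact h3
    rw [← h4]
    exact b.2
  have hu' : u = h.cst ⟨c⁻¹, hinv⟩ * ⟨c • (u : F), hcu⟩ := by
    apply Subtype.ext
    rw [h.coe_cst_mul]
    show (u : F) = c⁻¹ • (c • (u : F))
    rw [smul_smul, inv_mul_cancel₀ hc0, one_smul]
  apply hu
  rw [hu', h.red_cst_mul_of_nonunit hnu]

/-- The kernel of `red` consists of the multiples of nonunits of `A`. -/
theorem exists_smul_of_red_eq_zero {x : O} (hx0 : x ≠ 0) (hx : red x = 0) :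
    ∃ (c : A) (u : O), c ∈ nonunits A ∧ c ≠ 0 ∧ red u ≠ 0 ∧ (x : F) = (c : L) • (u : F) := by
  have hx0' : (x : F) ≠ 0 := fun h0 => hx0 (Subtype.ext h0)
  obtain ⟨c, u, hc, hu, hxu⟩ := h.normalize (x : F) hx0'
  have hcA : c ∈ A := h.mem_of_smul_mem hu (hxu ▸ x.2)
  refine ⟨⟨c, hcA⟩, u, ?_, fun h0 => hc (congrArg Subtype.val h0), hu, hxu⟩
  intro hunit
  have h2 : x = h.cst ⟨c, hcA⟩ * u := Subtype.ext (by rw [h.coe_cst_mul]; exact hxu)
  have h3 := congrArg red h2
  rw [hx, h.red_cst_mul] at h3
  have h4 : residue A ⟨c, hcA⟩ ≠ 0 := fun h0 => ((residue_eq_zero_iff _).mp h0) hunit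
  exact (smul_ne_zero h4 hu) h3.symm

/-! ### Orthonormal families -/

theorem coe_sum_cst_mul {ι : Type*} [Fintype ι] (a : ι → A) (x : ι → O) :
    ((∑ i, h.cst (a i) * x i : O) : F) = ∑ i, (a i : L) • (x i : F) := by
  rw [AddSubmonoidClass.coe_finsetSum]
  exact Finset.sum_congr rfl fun i _ => h.coe_cst_mul (a i) (x i)

theorem red_sum_cst_mul {ι : Type*} [Fintype ι] (a : ι → A) (x : ι → O) :
    red (∑ i, h.cst (a i) * x i) = ∑ i, residue A (a i) • red (x i) := by
  rw [map_sum]
  exact Finset.sum_congr rfl fun i _ => h.red_cst_mul (a i) (x i)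

/-- The norm of a combination of an orthonormal family is the maximum of the norms of the
coefficients. -/
theorem exists_max {ι : Type*} [Fintype ι] (x : ι → O)
    (hx : LinearIndependent (ResidueField A) fun i => red (x i)) (a : ι → L) (ha : a ≠ 0) :
    ∃ i₀, a i₀ ≠ 0 ∧ (∀ i, a i / a i₀ ∈ A) ∧ ∃ y : O, red y ≠ 0 ∧
      red y ∈ Submodule.span (ResidueField A) (Set.range fun i => red (x i)) ∧
      ∑ i, a i • (x i : F) = a i₀ • (y : F) := by
  classical
  obtain ⟨i₁, hi₁⟩ : ∃ i₁, a i₁ ≠ 0 := by
    by_contra hall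
    push Not at hall
    exact ha (funext hall)
  obtain ⟨i₀, -, hmax⟩ := Finset.exists_max_image Finset.univ (fun i => A.valuation (a i))
    ⟨i₁, Finset.mem_univ _⟩
  have hv₀ : A.valuation (a i₀) ≠ 0 := by
    intro h0
    have h1 := hmax i₁ (Finset.mem_univ _)
    rw [h0] at h1
    exact hi₁ ((map_eq_zero _).mp (le_antisymm h1 zero_le))
  have hi₀ : a i₀ ≠ 0 := fun h0 => hv₀ (by rw [h0, map_zero])
  have hmem : ∀ i, a i / a i₀ ∈ A := by
    intro i
    rw [← A.valuation_le_one_iff, map_div₀]
    exact div_le_one_of_le₀ (hmax i (Finset.mem_univ _)) zero_le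
  refine ⟨i₀, hi₀, hmem, ∑ i, h.cst ⟨a i / a i₀, hmem i⟩ * x i, ?_, ?_, ?_⟩
  · rw [h.red_sum_cst_mul]
    intro h0
    have h1 := (Fintype.linearIndependent_iff.mp hx) _ h0 i₀
    have h2 : (⟨a i₀ / a i₀, hmem i₀⟩ : A) = 1 := Subtype.ext (div_self hi₀)
    rw [h2, map_one] at h1
    exact one_ne_zero h1
  · rw [h.red_sum_cst_mul]
    exact Submodule.sum_mem _ fun i _ =>
      Submodule.smul_mem _ _ (Submodule.subset_span ⟨i, rfl⟩)
  · rw [h.coe_sum_cst_mul, Finset.smul_sum]
    refine Finset.sum_congr rfl fun i _ => ?_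
    show a i • (x i : F) = a i₀ • ((a i / a i₀) • (x i : F))
    rw [smul_smul, mul_div_cancel₀ _ hi₀]

/-- Coefficients of an element of `O` in an orthonormal family are in `A`. -/
theorem coeff_mem {ι : Type*} [Fintype ι] (x : ι → O)
    (hx : LinearIndependent (ResidueField A) fun i => red (x i)) (a : ι → L)
    (ha : ∑ i, a i • (x i : F) ∈ O) (i : ι) : a i ∈ A := by
  by_cases ha0 : a = 0
  · rw [ha0]; exact A.zero_mem
  obtain ⟨i₀, hi₀, hmem, y, hy, -, hsum⟩ := h.exists_max x hx a ha0
  have h1 : a i₀ ∈ A := h.mem_of_smul_mem hy (hsum ▸ ha)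
  have h2 : a i = a i / a i₀ * a i₀ := by rw [div_mul_cancel₀ _ hi₀]
  rw [h2]
  exact A.mul_mem _ _ (hmem i) h1

/-- An orthonormal family is linearly independent. -/
theorem linearIndependent_coe {ι : Type*} [Fintype ι] (x : ι → O)
    (hx : LinearIndependent (ResidueField A) fun i => red (x i)) :
    LinearIndependent L fun i => (x i : F) := by
  rw [Fintype.linearIndependent_iff]
  intro a ha
  by_contra hne
  have ha0 : a ≠ 0 := fun h0 => hne (fun i => by rw [h0]; rfl)
  obtain ⟨i₀, hi₀, -, y, hy, -, hsum⟩ := h.exists_max x hx a ha0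
  rw [ha] at hsum
  have hy0 : (y : F) = 0 := by
    rcases smul_eq_zero.mp hsum.symm with h0 | h0
    · exact absurd h0 hi₀
    · exact h0
  apply hy
  have : y = 0 := Subtype.ext hy0
  rw [this, map_zero]

/-- Divisibility of the coefficients. -/
theorem coeff_div_mem {ι : Type*} [Fintype ι] (x : ι → O)
    (hx : LinearIndependent (ResidueField A) fun i => red (x i)) (a : ι → L) {c : L}
    (hc : c ≠ 0) {z : O} (ha : ∑ i, a i • (x i : F) = c • (z : F)) (i : ι) : a i / c ∈ A := by
  refine h.coeff_mem x hx (fun i => a i / c) ?_ i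
  have : ∑ i, (a i / c) • (x i : F) = (z : F) := by
    have h1 : ∑ i, (a i / c) • (x i : F) = c⁻¹ • ∑ i, a i • (x i : F) := by
      rw [Finset.smul_sum]
      refine Finset.sum_congr rfl fun i _ => ?_
      rw [smul_smul, div_eq_inv_mul]
    rw [h1, ha, smul_smul, inv_mul_cancel₀ hc, one_smul]
  rw [this]
  exact z.2

/-- The reduction of an element of `O` in the span of an orthonormal family is in the span of
the reductions. -/
theorem red_mem_span {ι : Type*} [Fintype ι] (x : ι → O)
    (hx : LinearIndependent (ResidueField A) fun i => red (x i)) (y : O)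
    (hy : (y : F) ∈ Submodule.span L (Set.range fun i => (x i : F))) :
    red y ∈ Submodule.span (ResidueField A) (Set.range fun i => red (x i)) := by
  obtain ⟨a, ha⟩ := (Submodule.mem_span_range_iff_exists_fun L).mp hy
  have hmem : ∀ i, a i ∈ A := h.coeff_mem x hx a (ha ▸ y.2)
  have hy' : y = ∑ i, h.cst ⟨a i, hmem i⟩ * x i := by
    apply Subtype.ext
    rw [h.coe_sum_cst_mul]
    exact ha.symm
  rw [hy', h.red_sum_cst_mul]
  exact Submodule.sum_mem _ fun i _ =>
    Submodule.smul_mem _ _ (Submodule.subset_span ⟨i, rfl⟩)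

/-- Every element of the span of the reductions of a family is the reduction of an element of
`O` in the span of the family. -/
theorem exists_lift_of_mem_span {ι : Type*} [Fintype ι] (x : ι → O) (w : Fk)
    (hw : w ∈ Submodule.span (ResidueField A) (Set.range fun i => red (x i))) :
    ∃ a : ι → A, red (∑ i, h.cst (a i) * x i) = w := by
  obtain ⟨t, ht⟩ := (Submodule.mem_span_range_iff_exists_fun (ResidueField A)).mp hw
  choose a ha using fun i => residue_surjective (t i)
  refine ⟨a, ?_⟩
  rw [h.red_sum_cst_mul, ← ht]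
  exact Finset.sum_congr rfl fun i _ => by rw [ha i]

/-- **Best approximation.**  Let `M` be an orthonormal family inside the span of an orthonormal
family `β`.  Every `y ∈ O` in the span of `β` is an `A`-combination of `M`, or an
`A`-combination of `M` plus `γ • ε` with `red ε` outside the span of the reductions of `M`. -/
theorem exists_best_approx {ι κ : Type*} [Fintype ι] [Fintype κ] (M : ι → O) (β : κ → O)
    (hM : LinearIndependent (ResidueField A) fun i => red (M i))
    (hβ : LinearIndependent (ResidueField A) fun l => red (β l))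
    (hMβ : ∀ i, (M i : F) ∈ Submodule.span L (Set.range fun l => (β l : F)))
    (y : O) (hy : (y : F) ∈ Submodule.span L (Set.range fun l => (β l : F))) :
    ∃ a : ι → A, ((y : F) = ∑ i, (a i : L) • (M i : F)) ∨
      ∃ (γ : A) (ε : O), γ ≠ 0 ∧
        red ε ∉ Submodule.span (ResidueField A) (Set.range fun i => red (M i)) ∧
        (y : F) = ∑ i, (a i : L) • (M i : F) + (γ : L) • (ε : F) := by
  classical
  set W₁ := Submodule.span (ResidueField A) (Set.range fun i => red (M i)) with hW₁
  set Wb := Submodule.span (ResidueField A) (Set.range fun l => red (β l)) with hWb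
  have hle : W₁ ≤ Wb := by
    rw [hW₁, Submodule.span_le]
    rintro _ ⟨i, rfl⟩
    exact h.red_mem_span β hβ (M i) (hMβ i)
  obtain ⟨q, hq⟩ := Submodule.exists_isCompl W₁
  set C := q ⊓ Wb with hC
  have hdisj : Disjoint W₁ C := hq.disjoint.mono_right inf_le_left
  have hsup : W₁ ⊔ C = Wb := by
    rw [hC, ← sup_inf_assoc_of_le q hle, hq.sup_eq_top, top_inf_eq]
  have : FiniteDimensional (ResidueField A) Wb := FiniteDimensional.span_of_finite _ (Set.finite_range _)
  have : FiniteDimensional (ResidueField A) W₁ := FiniteDimensional.span_of_finite _ (Set.finite_range _)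
  have : FiniteDimensional (ResidueField A) C := Submodule.finiteDimensional_of_le (inf_le_right : C ≤ Wb)
  set m := Module.finrank (ResidueField A) C with hm
  let bC := Module.finBasis (ResidueField A) C
  have hcmem : ∀ j, ((bC j : C) : Fk) ∈ Wb := fun j => (inf_le_right : C ≤ Wb) (bC j).2
  choose aε haε using fun j => h.exists_lift_of_mem_span β _ (hcmem j)
  set ε : Fin m → O := fun j => ∑ l, h.cst (aε j l) * β l with hε
  have hredε : ∀ j, red (ε j) = ((bC j : C) : Fk) := haε
  have hεβ : ∀ j, (ε j : F) ∈ Submodule.span L (Set.range fun l => (β l : F)) := by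
    intro j
    rw [hε, h.coe_sum_cst_mul]
    exact Submodule.sum_mem _ fun l _ =>
      Submodule.smul_mem _ _ (Submodule.subset_span ⟨l, rfl⟩)
  have hεli : LinearIndependent (ResidueField A) fun j => red (ε j) := by
    have h1 : LinearIndependent (ResidueField A) fun j => ((bC j : C) : Fk) :=
      bC.linearIndependent.map' C.subtype (Submodule.ker_subtype C)
    convert h1 using 2
    exact hredε _
  have hspanε : Submodule.span (ResidueField A) (Set.range fun j => red (ε j)) = C := by
    have h1 : (fun j => red (ε j)) = C.subtype ∘ bC := funext fun j => hredε j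
    rw [h1, Set.range_comp, ← Submodule.map_span, bC.span_eq, Submodule.map_subtype_top]
  -- the combined family
  set Z : ι ⊕ Fin m → O := Sum.elim M ε with hZ
  have hZli : LinearIndependent (ResidueField A) fun z => red (Z z) := by
    have h1 : (fun z => red (Z z)) = Sum.elim (fun i => red (M i)) (fun j => red (ε j)) := by
      funext z
      cases z <;> rfl
    rw [h1]
    refine LinearIndependent.sum_type hM hεli ?_
    rw [hspanε]
    exact hdisj
  have hZL := h.linearIndependent_coe Z hZli
  have hβL := h.linearIndependent_coe β hβ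
  have hcard : Fintype.card (ι ⊕ Fin m) = Fintype.card κ := by
    have h1 : Module.finrank (ResidueField A) W₁ = Fintype.card ι := finrank_span_eq_card hM
    have h2 : Module.finrank (ResidueField A) Wb = Fintype.card κ := finrank_span_eq_card hβ
    have h3 := Submodule.finrank_sup_add_finrank_inf_eq W₁ C
    rw [hsup, hdisj.eq_bot, finrank_bot, add_zero, h1, h2] at h3
    rw [Fintype.card_sum, Fintype.card_fin, h3]
  have hspan : Submodule.span L (Set.range fun z => (Z z : F)) =
      Submodule.span L (Set.range fun l => (β l : F)) := by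
    have : FiniteDimensional L (Submodule.span L (Set.range fun l => (β l : F))) :=
      FiniteDimensional.span_of_finite _ (Set.finite_range _)
    apply Submodule.eq_of_le_of_finrank_eq
    · rw [Submodule.span_le]
      rintro _ ⟨z, rfl⟩
      cases z with
      | inl i => exact hMβ i
      | inr j => exact hεβ j
    · rw [finrank_span_eq_card hZL, finrank_span_eq_card hβL, hcard]
  rw [← hspan] at hy
  obtain ⟨b, hb⟩ := (Submodule.mem_span_range_iff_exists_fun L).mp hy
  have hbmem : ∀ z, b z ∈ A := h.coeff_mem Z hZli b (hb ▸ y.2)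
  rw [Fintype.sum_sum_type] at hb
  refine ⟨fun i => ⟨b (Sum.inl i), hbmem _⟩, ?_⟩
  by_cases hb0 : (fun j => b (Sum.inr j)) = 0
  · left
    have : ∑ j, b (Sum.inr j) • (Z (Sum.inr j) : F) = 0 :=
      Finset.sum_eq_zero fun j _ => by rw [congrFun hb0 j]; simp
    rw [this, add_zero] at hb
    exact hb.symm
  · right
    obtain ⟨j₀, hj₀, -, y₀, hy₀, hy₀mem, hsum⟩ := h.exists_max ε hεli _ hb0
    refine ⟨⟨b (Sum.inr j₀), hbmem _⟩, y₀, fun h0 => hj₀ (congrArg Subtype.val h0), ?_, ?_⟩
    · intro hmem
      rw [hspanε] at hy₀mem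
      exact hy₀ ((Submodule.disjoint_def.mp hdisj) _ hmem hy₀mem)
    · rw [← hb]
      congr 1

end IsGauss

/-- The data of the Newton iteration: an orthonormal basis `b` of `V`, an orthonormal basis `β`
of `Vbig`, a function `f` with reduction `1`, an exponent `p = p' + 1` invertible in the residue
field, with `f • V^p ⊆ Vbig`, `1 ∈ V`, `1 ∈ Vbig`, and the local claim. -/
structure NewtonData (A : ValuationSubring L) (O : Subring F) (red : O →+* Fk)
    [Algebra (ResidueField A) Fk]
    {ι κ : Type*} [Fintype ι] [Fintype κ] (b : ι → O) (β : κ → O) (f : O) (p' : ℕ) : Prop where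
  gauss : IsGauss A O red
  hb : LinearIndependent (ResidueField A) fun i => red (b i)
  hβ : LinearIndependent (ResidueField A) fun l => red (β l)
  hf : red f = 1
  hp : ((p' + 1 : ℕ) : ResidueField A) ≠ 0
  one_mem : (1 : F) ∈ Submodule.span L (Set.range fun i => (b i : F))
  one_mem_big : (1 : F) ∈ Submodule.span L (Set.range fun l => (β l : F))
  mul_mem : ∀ u : Fin (p' + 1) → F, (∀ t, u t ∈ Submodule.span L (Set.range fun i => (b i : F))) →
    (f : F) * ∏ t, u t ∈ Submodule.span L (Set.range fun l => (β l : F))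
  loc : ∀ U : O, (U : F) ∈ Submodule.span L (Set.range fun i => (b i : F)) → red U = 1 →
    ∀ (c : A) (f₁ : O), red f₁ ≠ 0 → (f : F) * (U : F) ^ (p' + 1) - 1 = (c : L) • (f₁ : F) →
      ∃ w : O, (w : F) ∈ Submodule.span L (Set.range fun i => (b i : F)) ∧ red w = red f₁

namespace NewtonData

variable {ι κ : Type*} [Fintype ι] [Fintype κ] {b : ι → O} {β : κ → O} {f : O} {p' : ℕ}
variable (D : NewtonData A O red b β f p')
include D

theorem mul_pow_mem {U w : F} (hU : U ∈ Submodule.span L (Set.range fun i => (b i : F)))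
    (hw : w ∈ Submodule.span L (Set.range fun i => (b i : F))) :
    (f : F) * U ^ p' * w ∈ Submodule.span L (Set.range fun l => (β l : F)) := by
  have h1 := D.mul_mem (Fin.cons w fun _ => U) (fun t => by
    refine Fin.cases ?_ (fun t => ?_) t
    · simpa using hw
    · simpa using hU)
  have h2 : ∏ t : Fin (p' + 1), (Fin.cons w fun _ => U : Fin (p' + 1) → F) t = w * U ^ p' := by
    rw [Fin.prod_univ_succ]
    simp
  rw [h2] at h1
  have h3 : (f : F) * U ^ p' * w = (f : F) * (w * U ^ p') := by ring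
  rw [h3]
  exact h1

theorem mul_pow_succ_mem {U : F} (hU : U ∈ Submodule.span L (Set.range fun i => (b i : F))) :
    (f : F) * U ^ (p' + 1) ∈ Submodule.span L (Set.range fun l => (β l : F)) := by
  have := D.mul_pow_mem hU hU
  rwa [mul_assoc, ← pow_succ] at this

theorem err_mem {U : F} (hU : U ∈ Submodule.span L (Set.range fun i => (b i : F))) :
    (f : F) * U ^ (p' + 1) - 1 ∈ Submodule.span L (Set.range fun l => (β l : F)) :=
  Submodule.sub_mem _ (D.mul_pow_succ_mem hU) D.one_mem_big

/-- **The quadratic Newton step.** -/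
theorem newton_step (U : O) (hUV : (U : F) ∈ Submodule.span L (Set.range fun i => (b i : F)))
    (hU : red U = 1) (c : A) (g : O)
    (hg : (f : F) * (U : F) ^ (p' + 1) - 1 = (c : L) • (g : F)) :
    ∃ U' : O, (U' : F) ∈ Submodule.span L (Set.range fun i => (b i : F)) ∧ red U' = 1 ∧
      ∃ g' : O, (f : F) * (U' : F) ^ (p' + 1) - 1 = ((c : L) ^ 2) • (g' : F) := by
  classical
  have h := D.gauss
  set V := Submodule.span L (Set.range fun i => (b i : F)) with hV
  set Vb := Submodule.span L (Set.range fun l => (β l : F)) with hVb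
  -- the error
  set e : O := f * U ^ (p' + 1) - 1 with he
  have heF : (e : F) = (f : F) * (U : F) ^ (p' + 1) - 1 := rfl
  by_cases he0 : e = 0
  · refine ⟨U, hUV, hU, 0, ?_⟩
    rw [← heF, he0]
    simp
  have hred : red e = 0 := by
    rw [he, map_sub, map_mul, map_pow, D.hf, hU, map_one]
    simp
  obtain ⟨c₁, f₁, hc₁, hc₁0, hf₁, hef₁⟩ := h.exists_smul_of_red_eq_zero he0 hred
  have hc₁L : (c₁ : L) ≠ 0 := fun h0 => hc₁0 (Subtype.ext h0)
  -- `c` divides `c₁`
  have hc0 : (c : L) ≠ 0 := by
    intro h0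
    apply he0
    apply Subtype.ext
    rw [heF, hg, h0, zero_smul]
    rfl
  have ht : (c₁ : L) / (c : L) ∈ A := by
    by_contra hnot
    have hinv : ((c₁ : L) / (c : L))⁻¹ ∈ A := (A.mem_or_inv_mem _).resolve_left hnot
    have hgf : (g : F) = ((c₁ : L) / (c : L)) • (f₁ : F) := by
      have h1 : (c : L) • (g : F) = (c₁ : L) • (f₁ : F) := by rw [← hg, ← heF, hef₁]
      have h2 : (g : F) = (c : L)⁻¹ • ((c : L) • (g : F)) := by
        rw [smul_smul, inv_mul_cancel₀ hc0, one_smul]
      rw [h2, h1, smul_smul, div_eq_inv_mul]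
    exact hnot (h.mem_of_smul_mem hf₁ (hgf ▸ g.2))
  -- the linearized operator on the basis
  set M : ι → O := fun i => ((p' + 1 : ℕ) : O) * f * U ^ p' * b i with hM
  have hredM : ∀ i, red (M i) = ((p' + 1 : ℕ) : ResidueField A) • red (b i) := by
    intro i
    rw [hM]
    simp only [map_mul, map_pow, map_natCast, D.hf, hU, one_pow, mul_one]
    rw [Algebra.smul_def, map_natCast]
  have hMli : LinearIndependent (ResidueField A) fun i => red (M i) := by
    have h1 := D.hb.units_smul (fun _ => Units.mk0 _ D.hp)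
    convert h1 using 2 with i
    rw [hredM]
    rfl
  have hspanM : Submodule.span (ResidueField A) (Set.range fun i => red (b i)) ≤
      Submodule.span (ResidueField A) (Set.range fun i => red (M i)) := by
    rw [Submodule.span_le]
    rintro _ ⟨i, rfl⟩
    have h1 : red (b i) = (((p' + 1 : ℕ) : ResidueField A))⁻¹ • red (M i) := by
      rw [hredM, smul_smul, inv_mul_cancel₀ D.hp, one_smul]
    show red (b i) ∈ _
    rw [h1]
    exact Submodule.smul_mem _ _ (Submodule.subset_span ⟨i, rfl⟩)
  have hMF : ∀ w : O, (((p' + 1 : ℕ) : O) * f * U ^ p' * w : O) =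
      (((p' + 1 : ℕ) : L)) • ((f : F) * (U : F) ^ p' * (w : F)) := by
    intro w
    rw [Algebra.smul_def, map_natCast]
    push_cast
    ring
  have hMβ : ∀ i, (M i : F) ∈ Vb := by
    intro i
    rw [hM, hMF]
    exact Submodule.smul_mem _ _ (D.mul_pow_mem hUV (Submodule.subset_span ⟨i, rfl⟩))
  have hf₁β : (f₁ : F) ∈ Vb := by
    have h1 : (f₁ : F) = (c₁ : L)⁻¹ • (e : F) := by
      rw [hef₁, smul_smul, inv_mul_cancel₀ hc₁L, one_smul]
    rw [h1, heF]
    exact Submodule.smul_mem _ _ (D.err_mem hUV)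
  obtain ⟨a, ha⟩ := h.exists_best_approx M β hMli D.hβ hMβ f₁ hf₁β
  -- the correction
  set w₁ : O := ∑ i, h.cst (a i) * b i with hw₁
  have hw₁V : (w₁ : F) ∈ V := by
    rw [hw₁, h.coe_sum_cst_mul]
    exact Submodule.sum_mem _ fun i _ => Submodule.smul_mem _ _ (Submodule.subset_span ⟨i, rfl⟩)
  have hsumM : ∑ i, (a i : L) • (M i : F) =
      ((p' + 1 : ℕ) : F) * (f : F) * (U : F) ^ p' * (w₁ : F) := by
    rw [hw₁, h.coe_sum_cst_mul, Finset.mul_sum]
    refine Finset.sum_congr rfl fun i _ => ?_
    rw [hM]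
    push_cast
    rw [Algebra.smul_def, Algebra.smul_def]
    ring
  set U' : O := U - h.cst c₁ * w₁ with hU'
  have hU'V : (U' : F) ∈ V := by
    rw [hU']
    push_cast
    refine Submodule.sub_mem _ hUV ?_
    rw [← Subring.coe_mul, h.coe_cst_mul]
    exact Submodule.smul_mem _ _ hw₁V
  have hredU' : red U' = 1 := by
    rw [hU', map_sub, hU, h.red_cst_mul_of_nonunit hc₁, sub_zero]
  -- the binomial expansion
  obtain ⟨k₀, hk₀⟩ := Polynomial.binomExpansion (Polynomial.X ^ (p' + 1) : Polynomial O) U
    (-(h.cst c₁ * w₁))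
  simp only [Polynomial.eval_pow, Polynomial.eval_X, Polynomial.derivative_X_pow,
    Polynomial.eval_mul, Polynomial.eval_C, add_tsub_cancel_right] at hk₀
  set G : O := f * k₀ * w₁ ^ 2 with hG
  have hexp : (f : F) * (U' : F) ^ (p' + 1) - 1 =
      (e : F) - algebraMap L F (c₁ : L) * (((p' + 1 : ℕ) : F) * (f : F) * (U : F) ^ p' * (w₁ : F))
        + algebraMap L F (c₁ : L) ^ 2 * (G : F) := by
    have h1 : (U' : F) ^ (p' + 1) = ((U + -(h.cst c₁ * w₁) : O) : F) ^ (p' + 1) := by
      rw [hU', sub_eq_add_neg]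
    have h2 := congrArg (Subtype.val : O → F) hk₀
    push_cast at h2
    rw [h1]
    push_cast
    rw [h2, heF, hG]
    push_cast
    rw [h.coe_cst]
    ring
  -- divide `c₁ = c t`
  have hfinal : ∀ g'' : O, (f : F) * (U' : F) ^ (p' + 1) - 1 = ((c₁ : L) ^ 2) • (g'' : F) →
      ∃ g' : O, (f : F) * (U' : F) ^ (p' + 1) - 1 = ((c : L) ^ 2) • (g' : F) := by
    intro g'' hg''
    refine ⟨h.cst (⟨_, ht⟩ ^ 2) * g'', ?_⟩
    rw [hg'', h.coe_cst_mul, smul_smul]
    congr 1
    push_cast
    field_simp
  rcases ha with hex | ⟨γ, ε, hγ, hε, hex⟩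
  · -- exact linear solve
    refine ⟨U', hU'V, hredU', hfinal G ?_⟩
    rw [hexp, hef₁, hex, hsumM, Algebra.smul_def, Algebra.smul_def]
    push_cast
    ring
  · -- best approximation with a remainder
    have hγL : (γ : L) ≠ 0 := fun h0 => hγ (Subtype.ext h0)
    have hε0 : red ε ≠ 0 := fun h0 => hε (h0 ▸ Submodule.zero_mem _)
    have herr : (f : F) * (U' : F) ^ (p' + 1) - 1 =
        algebraMap L F (c₁ : L) * (algebraMap L F (γ : L) * (ε : F))
          + algebraMap L F (c₁ : L) ^ 2 * (G : F) := by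
      rw [hexp, hef₁, hex, hsumM, Algebra.smul_def, Algebra.smul_def]
      ring
    by_cases hs : (γ : L) / (c₁ : L) ∈ A
    · -- `c₁ ∣ γ`
      refine ⟨U', hU'V, hredU', hfinal (h.cst ⟨_, hs⟩ * ε + G) ?_⟩
      rw [herr]
      push_cast
      rw [h.coe_cst, Algebra.smul_def]
      simp only [map_pow, map_div₀]
      have hc₁F : algebraMap L F (c₁ : L) ≠ 0 := by
        rw [Ne, map_eq_zero]; exact hc₁L
      field_simp
    · -- `γ ∣ c₁` strictly: contradiction with the local claim
      exfalso
      have hτ : (c₁ : L) / (γ : L) ∈ A := by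
        have := (A.mem_or_inv_mem ((γ : L) / (c₁ : L))).resolve_left hs
        rwa [inv_div] at this
      have hτnu : (⟨_, hτ⟩ : A) ∈ nonunits A := by
        intro hunit
        apply hs
        obtain ⟨d, hd⟩ := hunit.exists_right_inv
        have h3 : (c₁ : L) / (γ : L) * (d : L) = 1 := congrArg Subtype.val hd
        have h4 : (d : L) = (γ : L) / (c₁ : L) := by
          field_simp at h3 ⊢
          linear_combination h3
        rw [← h4]
        exact d.2
      set ε' : O := ε + h.cst ⟨_, hτ⟩ * G with hε'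
      have hredε' : red ε' = red ε := by
        rw [hε', map_add, h.red_cst_mul_of_nonunit hτnu, add_zero]
      have herr' : (f : F) * (U' : F) ^ (p' + 1) - 1 = ((c₁ * γ : A) : L) • (ε' : F) := by
        rw [herr, hε']
        push_cast
        rw [h.coe_cst, Algebra.smul_def]
        simp only [map_mul, map_div₀]
        have hγF : algebraMap L F (γ : L) ≠ 0 := by
          rw [Ne, map_eq_zero]; exact hγL
        field_simp
      obtain ⟨w, hwV, hw⟩ := D.loc U' hU'V hredU' (c₁ * γ) ε' (hredε' ▸ hε0) herr'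
      apply hε
      rw [← hredε', ← hw]
      exact hspanM (h.red_mem_span b D.hb w hwV)

end NewtonData

namespace NewtonData

variable {ι κ : Type*} [Fintype ι] [Fintype κ] {b : ι → O} {β : κ → O} {f : O} {p' : ℕ}
variable (D : NewtonData A O red b β f p')
include D

/-- Approximate solutions to every order `c₀ ^ (2 ^ s)`. -/
theorem exists_approx : ∃ c₀ : A, c₀ ∈ nonunits A ∧ ∀ s : ℕ, ∃ U : O,
    (U : F) ∈ Submodule.span L (Set.range fun i => (b i : F)) ∧ red U = 1 ∧
      ∃ g : O, (f : F) * (U : F) ^ (p' + 1) - 1 = ((c₀ : L) ^ (2 ^ s)) • (g : F) := by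
  have h := D.gauss
  have key : ∃ c₀ : A, c₀ ∈ nonunits A ∧ ∃ g : O,
      (f : F) * ((1 : O) : F) ^ (p' + 1) - 1 = ((c₀ : L) ^ (2 ^ 0)) • (g : F) := by
    by_cases he0 : f - 1 = 0
    · refine ⟨0, zero_mem_nonunits.mpr zero_ne_one, 0, ?_⟩
      have : (f : F) = 1 := by
        have := congrArg (Subtype.val : O → F) (sub_eq_zero.mp he0)
        simpa using this
      simp [this]
    · have hred : red (f - 1) = 0 := by rw [map_sub, D.hf, map_one, sub_self]
      obtain ⟨c₁, f₁, hc₁, -, -, hef₁⟩ := h.exists_smul_of_red_eq_zero he0 hred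
      refine ⟨c₁, hc₁, f₁, ?_⟩
      rw [pow_zero, pow_one, ← hef₁]
      simp
  obtain ⟨c₀, hc₀, g₀, hg₀⟩ := key
  refine ⟨c₀, hc₀, fun s => ?_⟩
  induction s with
  | zero => exact ⟨1, by simpa using D.one_mem, map_one _, g₀, hg₀⟩
  | succ s ih =>
    obtain ⟨U, hUV, hU, g, hg⟩ := ih
    obtain ⟨U', hU'V, hU', g', hg'⟩ := D.newton_step U hUV hU (c₀ ^ (2 ^ s)) g (by
      rw [hg]; push_cast; rfl)
    refine ⟨U', hU'V, hU', g', ?_⟩
    rw [hg']
    congr 1
    push_cast
    rw [← pow_mul, pow_succ]

/-- The polynomial system: the coordinates of `f U^p - 1` in the basis `β` are polynomials in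
the coordinates of `U` in the basis `b`. -/
theorem exists_poly : ∃ G : κ → MvPolynomial ι L, ∀ x : ι → L,
    (f : F) * (∑ i, x i • (b i : F)) ^ (p' + 1) - 1 =
      ∑ l, MvPolynomial.eval x (G l) • (β l : F) := by
  classical
  have h := D.gauss
  have hβL := h.linearIndependent_coe β D.hβ
  set Vb := Submodule.span L (Set.range fun l => (β l : F)) with hVb
  let Bβ : Module.Basis κ L Vb := Module.Basis.span hβL
  have hBβ : ∀ l, ((Bβ l : Vb) : F) = (β l : F) := fun l =>
    congrArg Subtype.val (Module.Basis.span_apply hβL l)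
  let T : (Fin (p' + 1) → ι) → Vb := fun i => ⟨(f : F) * ∏ t, (b (i t) : F),
    D.mul_mem _ fun t => Submodule.subset_span ⟨i t, rfl⟩⟩
  let one_b : Vb := ⟨1, D.one_mem_big⟩
  refine ⟨fun l => ∑ i : Fin (p' + 1) → ι,
    MvPolynomial.C (Bβ.repr (T i) l) * ∏ t, MvPolynomial.X (i t) -
      MvPolynomial.C (Bβ.repr one_b l), fun x => ?_⟩
  set y : Vb := ∑ i : Fin (p' + 1) → ι, (∏ t, x (i t)) • T i - one_b with hy
  have hyF : (y : F) = (f : F) * (∑ i, x i • (b i : F)) ^ (p' + 1) - 1 := by
    rw [hy]
    push_cast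
    have h1 : (∑ i, x i • (b i : F)) ^ (p' + 1) =
        ∑ i : Fin (p' + 1) → ι, ∏ t, (x (i t) • (b (i t) : F)) := by
      rw [← Fin.prod_const, Finset.prod_univ_sum, Fintype.piFinset_univ]
    rw [h1, Finset.mul_sum]
    congr 1
    refine Finset.sum_congr rfl fun i _ => ?_
    show (∏ t, x (i t)) • ((f : F) * ∏ t, (b (i t) : F)) = _
    rw [Finset.prod_smul, mul_smul_comm]
  have hrepr : ∀ l, Bβ.repr y l = MvPolynomial.eval x (∑ i : Fin (p' + 1) → ι,
      MvPolynomial.C (Bβ.repr (T i) l) * ∏ t, MvPolynomial.X (i t) -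
        MvPolynomial.C (Bβ.repr one_b l)) := by
    intro l
    rw [hy, map_sub, map_sum, map_sub, map_sum]
    simp only [Finsupp.coe_sub, Pi.sub_apply, Finsupp.coe_finsetSum, Finset.sum_apply, map_smul,
      Finsupp.coe_smul, Pi.smul_apply, smul_eq_mul, map_mul, MvPolynomial.eval_C, map_prod,
      MvPolynomial.eval_X]
    congr 1
    refine Finset.sum_congr rfl fun i _ => ?_
    ring
  rw [← hyF]
  conv_lhs => rw [← Bβ.sum_repr y]
  push_cast
  refine Finset.sum_congr rfl fun l _ => ?_
  rw [hrepr l, hBβ]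

end NewtonData

/-- A common denominator in `A` for the values of finitely many polynomials at points with
coordinates in `A`. -/
theorem exists_denominator {ι κ : Type*} [Fintype ι] [Fintype κ] (H : κ → MvPolynomial ι L) :
    ∃ d : A, d ≠ 0 ∧ ∀ (x : ι → L), (∀ i, x i ∈ A) → ∀ l,
      (d : L) * MvPolynomial.eval x (H l) ∈ A := by
  classical
  set S : Finset L := Finset.univ.biUnion fun l => (H l).support.image fun m => (H l).coeff m
    with hS
  obtain ⟨d, hd⟩ := IsLocalization.exist_integer_multiples_of_finset (nonZeroDivisors A) S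
  refine ⟨d, nonZeroDivisors.coe_ne_zero d, fun x hx l => ?_⟩
  rw [MvPolynomial.eval_eq, Finset.mul_sum]
  refine A.toSubring.sum_mem fun m hm => ?_
  have h1 : (H l).coeff m ∈ S := by
    rw [hS, Finset.mem_biUnion]
    exact ⟨l, Finset.mem_univ _, Finset.mem_image_of_mem _ hm⟩
  obtain ⟨a, ha⟩ := hd _ h1
  have h2 : ((d : A) : L) * (H l).coeff m = (a : L) := by
    rw [Submonoid.smul_def, Algebra.smul_def] at ha
    exact ha.symm
  rw [← mul_assoc, h2]
  exact A.mul_mem _ _ a.2 (A.toSubring.prod_mem fun i _ => A.toSubring.pow_mem (hx i) _)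

namespace NewtonData

variable {ι κ : Type*} [Fintype ι] [Fintype κ] {b : ι → O} {β : κ → O} {f : O} {p' : ℕ}
variable (D : NewtonData A O red b β f p')
include D

/-- **The end game.**  Under the archimedean hypothesis there is an exact solution of
`f * U ^ p = 1` in the span of `b`. -/
theorem exists_root [IsAlgClosed L]
    (harch : ∀ c : A, c ∈ nonunits A → ∀ d : A, d ≠ 0 → ∃ (n : ℕ) (e : A), c ^ n = d * e) :
    ∃ U : F, U ∈ Submodule.span L (Set.range fun i => (b i : F)) ∧
      (f : F) * U ^ (p' + 1) = 1 := by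
  classical
  have h := D.gauss
  obtain ⟨c₀, hc₀, happ⟩ := D.exists_approx
  by_cases hc₀0 : c₀ = 0
  · obtain ⟨U, hUV, -, g, hg⟩ := happ 0
    refine ⟨U, hUV, ?_⟩
    rw [hc₀0] at hg
    simp only [ZeroMemClass.coe_zero, pow_zero, pow_one, zero_smul] at hg
    exact sub_eq_zero.mp hg
  obtain ⟨G, hG⟩ := D.exists_poly
  by_contra hno
  push Not at hno
  have hβL := h.linearIndependent_coe β D.hβ
  -- no common zero
  have hzero : MvPolynomial.zeroLocus L (Ideal.span (Set.range G)) = ∅ := by
    rw [MvPolynomial.zeroLocus_span]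
    ext x
    simp only [Set.mem_ofPred_eq, Set.mem_empty_iff_false, iff_false]
    intro hx
    apply hno (∑ i, x i • (b i : F))
      (Submodule.sum_mem _ fun i _ => Submodule.smul_mem _ _ (Submodule.subset_span ⟨i, rfl⟩))
    have h1 := hG x
    have h2 : ∑ l, MvPolynomial.eval x (G l) • (β l : F) = 0 :=
      Finset.sum_eq_zero fun l _ => by
        have := hx (G l) ⟨l, rfl⟩
        rw [MvPolynomial.aeval_eq_eval] at this
        rw [show MvPolynomial.eval x (G l) = 0 from this, zero_smul]
    rw [h2] at h1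
    exact sub_eq_zero.mp h1
  have htop : Ideal.span (Set.range G) = ⊤ := by
    have h1 := MvPolynomial.vanishingIdeal_zeroLocus_eq_radical (K := L) (Ideal.span (Set.range G))
    rw [hzero, MvPolynomial.vanishingIdeal_empty] at h1
    exact Ideal.radical_eq_top.mp h1.symm
  have hone : (1 : MvPolynomial ι L) ∈ Ideal.span (Set.range G) := by
    rw [htop]; exact Submodule.mem_top
  obtain ⟨H, hH⟩ := (Ideal.mem_span_range_iff_exists_fun).mp hone
  obtain ⟨d, hd0, hd⟩ := exists_denominator (A := A) H
  -- choose the order of approximation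
  obtain ⟨n, e, hne⟩ := harch c₀ hc₀ d hd0
  obtain ⟨U, hUV, -, g, hg⟩ := happ (n + 1)
  -- coordinates of `U`
  obtain ⟨x, hx⟩ := (Submodule.mem_span_range_iff_exists_fun L).mp hUV
  have hxA : ∀ i, x i ∈ A := h.coeff_mem b D.hb x (hx ▸ U.2)
  have hc₀L : (c₀ : L) ≠ 0 := fun h0 => hc₀0 (Subtype.ext h0)
  have hcs : (c₀ : L) ^ (2 ^ (n + 1)) ≠ 0 := pow_ne_zero _ hc₀L
  have hGx := hG x
  rw [hx, hg] at hGx
  have hdiv : ∀ l, MvPolynomial.eval x (G l) / (c₀ : L) ^ (2 ^ (n + 1)) ∈ A :=
    fun l => h.coeff_div_mem β D.hβ _ hcs hGx.symm l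
  -- evaluate `∑ H l * G l = 1`
  have heval : ∑ l, MvPolynomial.eval x (H l) * MvPolynomial.eval x (G l) = 1 := by
    have := congrArg (MvPolynomial.eval x) hH
    simpa using this
  have hdmem : (d : L) / (c₀ : L) ^ (2 ^ (n + 1)) ∈ A := by
    have hd1 : (d : L) = ∑ l, (d : L) * MvPolynomial.eval x (H l) *
        MvPolynomial.eval x (G l) := by
      rw [Finset.sum_congr rfl (fun l _ => mul_assoc (d : L) _ _), ← Finset.mul_sum, heval,
        mul_one]
    have h1 : (d : L) / (c₀ : L) ^ (2 ^ (n + 1)) =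
        ∑ l, ((d : L) * MvPolynomial.eval x (H l)) *
          (MvPolynomial.eval x (G l) / (c₀ : L) ^ (2 ^ (n + 1))) := by
      conv_lhs => rw [hd1]
      rw [Finset.sum_div]
      refine Finset.sum_congr rfl fun l _ => ?_
      ring
    rw [h1]
    exact A.toSubring.sum_mem fun l _ => A.mul_mem _ _ (hd x hxA l) (hdiv l)
  -- but `c₀ ^ (2 ^ (n + 1)) = d * (nonunit)`
  have hlt : n + 1 ≤ 2 ^ (n + 1) := Nat.lt_two_pow_self.le
  obtain ⟨j, hj⟩ := Nat.exists_eq_add_of_le hlt
  have hdL : (d : L) ≠ 0 := fun h0 => hd0 (Subtype.ext h0)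
  have hfac : (c₀ : L) ^ (2 ^ (n + 1)) = (d : L) * ((e * c₀ * c₀ ^ j : A) : L) := by
    have h1 : (c₀ : L) ^ n = (d : L) * (e : L) := by
      have := congrArg (Subtype.val : A → L) hne
      simpa using this
    rw [hj, pow_add, pow_succ, h1]
    push_cast
    ring
  have hnu : (e * c₀ * c₀ ^ j : A) ∈ nonunits A := by
    have h1 : e * c₀ * c₀ ^ j = c₀ * (e * c₀ ^ j) := by ring
    rw [h1]
    exact mul_mem_nonunits_left hc₀
  apply hnu
  have ht0 : ((e * c₀ * c₀ ^ j : A) : L) ≠ 0 := by
    intro h0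
    rw [h0, mul_zero] at hfac
    exact hcs hfac
  have hinv : (d : L) / (c₀ : L) ^ (2 ^ (n + 1)) = (((e * c₀ * c₀ ^ j : A) : L))⁻¹ := by
    rw [hfac]
    field_simp
  rw [hinv] at hdmem
  refine isUnit_iff_exists_inv.mpr ⟨⟨_, hdmem⟩, ?_⟩
  apply Subtype.ext
  show ((e * c₀ * c₀ ^ j : A) : L) * (((e * c₀ * c₀ ^ j : A) : L))⁻¹ = 1
  exact mul_inv_cancel₀ ht0

end NewtonData

end Fermat.Agent.S18.Newton
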