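import Mathlib
import Fermat.Prelude.Def_ModularCurve_ReductionModL
import Fermat.Prelude.Def_AlgebraicCurve_Repartitions
import Fermat.Agent.S18.Newton
import Fermat.Agent.S18.Lattice
import Fermat.Agent.S18.Step0

/-!
# S18, the end game: from (LIFT), (LOC), (ON) to the divisor-level statement

The literal hypotheses of the end game, for the Gauss ring `OO A N` of `FF N` and its residue
homomorphism `redN A N` (`S18/Lattice.lean`), and the assembly:

* `Lift A N r E`  : every function of `L̄(r_* E)` is the reduction of an element of `L(E) ∩ O_v`;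
* `ON A N E`      : `L(E)` has an orthonormal basis (a basis in `O_v` with linearly independent
                    reductions);
* `Loc A N r p f E₊ E₋` : the local claim;
* `isPrincipal_of_endgame` : the abstract Newton iteration (`S18/Newton.lean`) applied to
  `V = L(E₊)`, `Vbig = L(p E₋)`;
* `divStmtUnit_of_endgame` : the normalized divisor-level statement `Step0.DivStmtUnit`.
-/

set_option autoImplicit false
set_option synthInstance.maxHeartbeats 400000

namespace Fermat.Agent.S18.EndGame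

open ModularCurve AlgebraicCurve HahnSeries IsLocalRing
open Fermat.Agent.S18.Gauss Fermat.Agent.S18.Lattice Fermat.Agent.S18.Newton
open Fermat.Agent.S24.Eval

variable (A : ValuationSubring KK) (N : ℕ) [NeZero N]
variable (r : Place KK (FF N) → Place (ResidueField A) (FkN A N))

/-- (LIFT) for the divisor `E`: every function of `L̄(r_* E)` is the reduction of an element of
`L(E) ∩ O_v`. -/
def Lift (E : Divisor KK (FF N)) : Prop :=
  ∀ φ : FkN A N, φ ∈ riemannRochSpace (Finsupp.mapDomain r E) →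
    ∃ w : OO A N, (w : FF N) ∈ riemannRochSpace E ∧ redN A N w = φ

/-- (ON) for the divisor `E`: `L(E)` has an orthonormal basis. -/
def ON (E : Divisor KK (FF N)) : Prop :=
  ∃ (n : ℕ) (b : Fin n → OO A N),
    LinearIndependent (ResidueField A) (fun i => redN A N (b i)) ∧
      Submodule.span KK (Set.range fun i => ((b i : OO A N) : FF N)) = riemannRochSpace E

/-- (LOC) the local claim for the exponent `p`, the function `f` and the divisors `E₊`, `E₋`:
if `U ∈ L(E₊) ∩ O_v` has reduction `1` and `f U^p - 1 = c f₁` with `f₁ ∈ O_v`, `red f₁ ≠ 0`,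
then `red f₁ ∈ L̄(r_* E₋)`. -/
def Loc (p : ℕ) (f : OO A N) (Ep Em : Divisor KK (FF N)) : Prop :=
  ∀ U : OO A N, (U : FF N) ∈ riemannRochSpace Ep → redN A N U = 1 →
    ∀ (c : A) (f₁ : OO A N), redN A N f₁ ≠ 0 →
      (f : FF N) * (U : FF N) ^ p - 1 = (c : KK) • (f₁ : FF N) →
        redN A N f₁ ∈ riemannRochSpace (Finsupp.mapDomain r Em)

variable {A N r}

omit [NeZero N] in
/-- The Gauss ring of `FF N` satisfies the abstract interface. -/
theorem isGauss (hdec : Dec A (modularFunctionFieldBar N) (FkN A N)) : IsGauss A (OO A N) (redN A N) where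
  const_mem c := algebraMap_mem_gaussRing c
  red_const c := red_algebraMap c
  normalize f hf := exists_normalize hdec f hf

omit [NeZero N] in
theorem ord_prod (v : Place KK (FF N)) {ι : Type*} (s : Finset ι) (u : ι → FF N)
    (hu : ∀ t ∈ s, u t ≠ 0) :
    ∏ t ∈ s, u t ≠ 0 ∧ v.ord (∏ t ∈ s, u t) = ∑ t ∈ s, v.ord (u t) := by
  classical
  induction s using Finset.induction_on with
  | empty => simp
  | insert a s ha ih =>
    have h1 := ih fun t ht => hu t (Finset.mem_insert_of_mem ht)
    have h2 := hu a (Finset.mem_insert_self a s)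
    rw [Finset.prod_insert ha, Finset.sum_insert ha]
    exact ⟨mul_ne_zero h2 h1.1, by rw [v.ord_mul h2 h1.1, h1.2]⟩

omit [NeZero N] in
/-- **The end game.** -/
theorem isPrincipal_of_endgame (hdec : Dec A (modularFunctionFieldBar N) (FkN A N))
    (harch : ∀ c : A, c ∈ nonunits A → ∀ d : A, d ≠ 0 → ∃ (n : ℕ) (e : A), c ^ n = d * e)
    (p' : ℕ) (hp : ((p' + 1 : ℕ) : ResidueField A) ≠ 0)
    (D : Divisor KK (FF N)) (f : OO A N) (hf : redN A N f = 1)
    (hfD : ∀ P : Place KK (FF N), ((p' + 1 : ℕ) : ℤ) * D P = P.ord (f : FF N))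
    (hrD : Finsupp.mapDomain r D = 0)
    (Ep Em : Divisor KK (FF N)) (hEp : ∀ P, 0 ≤ Ep P) (hEm : ∀ P, 0 ≤ Em P)
    (hE : Ep - Em = D)
    (hlift : Lift A N r Ep) (hONp : ON A N Ep) (hONm : ON A N ((p' + 1) • Em))
    (hloc : Loc A N r (p' + 1) f Ep Em) :
    Divisor.IsPrincipal D := by
  obtain ⟨n, b, hb, hbspan⟩ := hONp
  obtain ⟨m, β, hβ, hβspan⟩ := hONm
  have hf0 : (f : FF N) ≠ 0 := by
    intro h0
    have : f = 0 := Subtype.ext h0
    rw [this, map_zero] at hf
    exact zero_ne_one hf
  have hrE : Finsupp.mapDomain r Ep = Finsupp.mapDomain r Em := by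
    have h1 : Finsupp.mapDomain r (Ep - Em) = 0 := by rw [hE, hrD]
    rw [Finsupp.mapDomain_sub, sub_eq_zero] at h1
    exact h1
  have hND : NewtonData A (OO A N) (redN A N) b β f p' :=
    { gauss := isGauss hdec
      hb := hb
      hβ := hβ
      hf := hf
      hp := hp
      one_mem := by
        rw [hbspan, mem_riemannRochSpace_iff]
        intro v
        right
        rw [Place.ord_one]
        linarith [hEp v]
      one_mem_big := by
        rw [hβspan, mem_riemannRochSpace_iff]
        intro v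
        right
        rw [Place.ord_one, Finsupp.smul_apply, nsmul_eq_mul]
        have := hEm v
        have h2 : (0 : ℤ) ≤ ((p' + 1 : ℕ) : ℤ) := Int.natCast_nonneg _
        nlinarith
      mul_mem := by
        intro u hu
        rw [hβspan, mem_riemannRochSpace_iff]
        intro v
        by_cases h0 : ∃ t, u t = 0
        · left
          obtain ⟨t, ht⟩ := h0
          rw [Finset.prod_eq_zero (Finset.mem_univ t) ht, mul_zero]
        · right
          push Not at h0
          obtain ⟨hne, hord⟩ := ord_prod v Finset.univ u fun t _ => h0 t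
          rw [v.ord_mul hf0 hne, hord, ← hfD v, Finsupp.smul_apply, nsmul_eq_mul]
          have h1 : ∀ t ∈ (Finset.univ : Finset (Fin (p' + 1))), -Ep v ≤ v.ord (u t) := by
            intro t _
            have := hu t
            rw [hbspan, mem_riemannRochSpace_iff] at this
            exact (this v).resolve_left (h0 t)
          have h2 := Finset.sum_le_sum h1
          rw [Finset.sum_const, Finset.card_univ, Fintype.card_fin, nsmul_eq_mul] at h2
          have h3 : D v = Ep v - Em v := by rw [← hE, Finsupp.sub_apply]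
          rw [h3]
          push_cast at h2 ⊢
          nlinarith
      loc := by
        intro U hU hredU c f₁ hf₁ hc
        rw [hbspan] at hU
        have h1 := hloc U hU hredU c f₁ hf₁ hc
        rw [← hrE] at h1
        obtain ⟨w, hw, hww⟩ := hlift _ h1
        exact ⟨w, by rw [hbspan]; exact hw, hww⟩ }
  obtain ⟨U, -, hU⟩ := hND.exists_root harch
  have hU0 : U ≠ 0 := by
    rintro rfl
    rw [zero_pow (Nat.succ_ne_zero p'), mul_zero] at hU
    exact zero_ne_one hU
  refine ⟨U⁻¹, inv_ne_zero hU0, fun v => ?_⟩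
  have h1 := congrArg v.ord hU
  rw [v.ord_mul hf0 (pow_ne_zero _ hU0), Place.ord_one, Fermat.Agent.S24.ord_pow, ← hfD v] at h1
  rw [v.ord_inv]
  have h2 : ((p' + 1 : ℕ) : ℤ) * (D v + v.ord U) = 0 := by rw [mul_add]; exact h1
  have h3 : ((p' + 1 : ℕ) : ℤ) ≠ 0 := by exact_mod_cast Nat.succ_ne_zero p'
  have h4 := (mul_eq_zero.mp h2).resolve_left h3
  linarith

/-- **The normalized divisor-level statement from the end game.**  The hypothesis `H` asks, for
every divisor `D` of degree zero with `r_* D = 0` and every `f ∈ O_v` with `red f = 1` and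
`div f = p D`, for a decomposition `D = E₊ - E₋` into effective divisors with (LIFT), (ON),
(LOC). -/
theorem divStmtUnit_of_endgame (hgen : PrincipalGeneratedByIntegral A (residue A) N)
    (harch : ∀ c : A, c ∈ nonunits A → ∀ d : A, d ≠ 0 → ∃ (n : ℕ) (e : A), c ^ n = d * e)
    (p' : ℕ) (hp : ((p' + 1 : ℕ) : ResidueField A) ≠ 0)
    (H : ∀ (D : Divisor KK (FF N)) (f : OO A N), Divisor.degree D = 0 →
      Finsupp.mapDomain r D = 0 → redN A N f = 1 →
      (∀ P : Place KK (FF N), ((p' + 1 : ℕ) : ℤ) * D P = P.ord (f : FF N)) →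
      ∃ Ep Em : Divisor KK (FF N), (∀ P, 0 ≤ Ep P) ∧ (∀ P, 0 ≤ Em P) ∧ Ep - Em = D ∧
        Lift A N r Ep ∧ ON A N Ep ∧ ON A N ((p' + 1) • Em) ∧ Loc A N r (p' + 1) f Ep Em) :
    Step0.DivStmtUnit A (residue A) N r (p' + 1) := by
  intro D hD hrD y₁ y₂ h₁ h₂ hk₁ hne heq hdiv
  have hdec := dec_of_hgen hgen
  have hU₁ : IsIntU A (modularFunctionFieldBar N) (FkN A N) y₁ := ⟨⟨h₁, hk₁⟩, hne⟩
  have hU₂ : IsIntU A (modularFunctionFieldBar N) (FkN A N) y₂ := ⟨⟨h₂, heq ▸ hk₁⟩, heq ▸ hne⟩
  set g₁ : FF N := ⟨coeffMap A.subtype y₁, h₁⟩ with hg₁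
  set g₂ : FF N := ⟨coeffMap A.subtype y₂, h₂⟩ with hg₂
  have hg₁0 : g₁ ≠ 0 := fun h0 => hU₁.inc_ne_zero (congrArg Subtype.val h0)
  have hg₂0 : g₂ ≠ 0 := fun h0 => hU₂.inc_ne_zero (congrArg Subtype.val h0)
  set f : FF N := g₁ / g₂ with hf
  have hfY : (f : LaurentSeries KK) * inc A y₂ = inc A y₁ := by
    have h3 : f * g₂ = g₁ := div_mul_cancel₀ _ hg₂0
    exact congrArg Subtype.val h3
  have hmem : f ∈ OO A N := div_mem_gaussRing hU₁ hU₂ hfY
  have hred : redN A N ⟨f, hmem⟩ = 1 := by
    have h4 := red_mul_rd (F := modularFunctionFieldBar N) (Fk := FkN A N) ⟨f, hmem⟩ hU₁.1 hU₂ hfY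
    have hk : (⟨rd A y₂, hU₂.1.2⟩ : FkN A N) ≠ 0 := fun h0 => hU₂.2 (congrArg Subtype.val h0)
    apply mul_right_cancel₀ hk
    apply Subtype.ext
    rw [MulMemClass.coe_mul, h4, one_mul]
    exact heq
  have hord : ∀ P : Place KK (FF N), ((p' + 1 : ℕ) : ℤ) * D P = P.ord f := by
    intro P
    rw [hf, Fermat.Agent.S24.ord_div P hg₁0 hg₂0]
    exact hdiv P
  obtain ⟨Ep, Em, hEp, hEm, hE, hlift, hONp, hONm, hloc⟩ := H D ⟨f, hmem⟩ hD hrD hred hord
  exact isPrincipal_of_endgame hdec harch p' hp D ⟨f, hmem⟩ hred hord hrD Ep Em hEp hEm hE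
    hlift hONp hONm hloc

end Fermat.Agent.S18.EndGame
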