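import Mathlib
import Fermat.Agent.S18.EndGame

/-!
# S18, the end game with the corrected local claim

`EndGame.Loc` quantifies over all constants `c`, including `c = 0`, where it cannot hold (if
`f U^p = 1` then `f U^p - 1 = 0 • f₁` for every `f₁`).  The local claim is only needed for
`c ≠ 0` (and then `c` is automatically a nonunit of `A`):

* `LocNZ A N r p f E₊ E₋` : the local claim for `c ≠ 0`;
* `locNZ_of_nonunits` : it suffices to prove it for `c ≠ 0` in the maximal ideal;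
* `isPrincipal_of_endgame_nz`, `divStmtUnit_of_endgame_nz` : the end game with `LocNZ`.

Proof: if `f U^p = 1` has an exact solution `U ∈ L(E₊) ∩ O_v` with reduction `1` we are done;
otherwise `EndGame.Loc` follows from `LocNZ`.
-/

set_option autoImplicit false
set_option synthInstance.maxHeartbeats 400000

namespace Fermat.Agent.S18.EndGame2

open ModularCurve AlgebraicCurve HahnSeries IsLocalRing
open Fermat.Agent.S18.Gauss Fermat.Agent.S18.Lattice Fermat.Agent.S18.Newton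
open Fermat.Agent.S18.EndGame
open Fermat.Agent.S24.Eval

variable (A : ValuationSubring KK) (N : ℕ) [NeZero N]
variable (r : Place KK (FF N) → Place (ResidueField A) (FkN A N))

/-- (LOC), corrected: the local claim for the exponent `p`, the function `f` and the divisors
`E₊`, `E₋`: if `U ∈ L(E₊) ∩ O_v` has reduction `1` and `f U^p - 1 = c f₁` with `c ≠ 0`,
`f₁ ∈ O_v`, `red f₁ ≠ 0`, then `red f₁ ∈ L̄(r_* E₋)`. -/
def LocNZ (p : ℕ) (f : OO A N) (Ep Em : Divisor KK (FF N)) : Prop :=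
  ∀ U : OO A N, (U : FF N) ∈ riemannRochSpace Ep → redN A N U = 1 →
    ∀ (c : A), c ≠ 0 → ∀ (f₁ : OO A N), redN A N f₁ ≠ 0 →
      (f : FF N) * (U : FF N) ^ p - 1 = (c : KK) • (f₁ : FF N) →
        redN A N f₁ ∈ riemannRochSpace (Finsupp.mapDomain r Em)

variable {A N r}

omit [NeZero N] in
/-- In the situation of the local claim the constant is a nonunit. -/
theorem mem_nonunits_of_eq {p : ℕ} {f U f₁ : OO A N} (hf : redN A N f = 1)
    (hU : redN A N U = 1) (hf₁ : redN A N f₁ ≠ 0) {c : A}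
    (h : (f : FF N) * (U : FF N) ^ p - 1 = (c : KK) • (f₁ : FF N)) : c ∈ nonunits A := by
  intro hunit
  have h1 : f * U ^ p - 1 =
      (⟨algebraMap KK (FF N) (c : KK), algebraMap_mem_gaussRing c⟩ : OO A N) * f₁ := by
    apply Subtype.ext
    show (f : FF N) * (U : FF N) ^ p - 1 = algebraMap KK (FF N) (c : KK) * (f₁ : FF N)
    rw [h, Algebra.smul_def]
  have h2 := congrArg (redN A N) h1
  rw [map_sub, map_mul, map_pow, hf, hU, one_pow, mul_one, map_one, sub_self, map_mul,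
    red_algebraMap] at h2
  have h3 : residue A c ≠ 0 := fun h0 => ((residue_eq_zero_iff c).mp h0) hunit
  have h4 : algebraMap (ResidueField A) (FkN A N) (residue A c) ≠ 0 := by
    rw [Ne, map_eq_zero_iff _ (algebraMap (ResidueField A) (FkN A N)).injective]
    exact h3
  exact (mul_ne_zero h4 hf₁) h2.symm

omit [NeZero N] in
/-- It suffices to prove the local claim for nonzero constants of the maximal ideal. -/
theorem locNZ_of_nonunits {p : ℕ} {f : OO A N} {Ep Em : Divisor KK (FF N)}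
    (hf : redN A N f = 1)
    (h : ∀ U : OO A N, (U : FF N) ∈ riemannRochSpace Ep → redN A N U = 1 →
      ∀ (c : A), c ≠ 0 → c ∈ nonunits A → ∀ (f₁ : OO A N), redN A N f₁ ≠ 0 →
        (f : FF N) * (U : FF N) ^ p - 1 = (c : KK) • (f₁ : FF N) →
          redN A N f₁ ∈ riemannRochSpace (Finsupp.mapDomain r Em)) :
    LocNZ A N r p f Ep Em :=
  fun U hU hredU c hc f₁ hf₁ heq =>
    h U hU hredU c hc (mem_nonunits_of_eq hf hredU hf₁ heq) f₁ hf₁ heq

omit [NeZero N] in
/-- **The end game** with the corrected local claim. -/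
theorem isPrincipal_of_endgame_nz (hdec : Dec A (modularFunctionFieldBar N) (FkN A N))
    (harch : ∀ c : A, c ∈ nonunits A → ∀ d : A, d ≠ 0 → ∃ (n : ℕ) (e : A), c ^ n = d * e)
    (p' : ℕ) (hp : ((p' + 1 : ℕ) : ResidueField A) ≠ 0)
    (D : Divisor KK (FF N)) (f : OO A N) (hf : redN A N f = 1)
    (hfD : ∀ P : Place KK (FF N), ((p' + 1 : ℕ) : ℤ) * D P = P.ord (f : FF N))
    (hrD : Finsupp.mapDomain r D = 0)
    (Ep Em : Divisor KK (FF N)) (hEp : ∀ P, 0 ≤ Ep P) (hEm : ∀ P, 0 ≤ Em P)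
    (hE : Ep - Em = D)
    (hlift : Lift A N r Ep) (hONp : ON A N Ep) (hONm : ON A N ((p' + 1) • Em))
    (hloc : LocNZ A N r (p' + 1) f Ep Em) :
    Divisor.IsPrincipal D := by
  by_cases hex : ∃ U : OO A N, (f : FF N) * (U : FF N) ^ (p' + 1) = 1
  · obtain ⟨U, hU⟩ := hex
    have hf0 : (f : FF N) ≠ 0 := by
      intro h0
      rw [h0, zero_mul] at hU
      exact zero_ne_one hU
    have hU0 : (U : FF N) ≠ 0 := by
      intro h0
      rw [h0, zero_pow (Nat.succ_ne_zero p'), mul_zero] at hU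
      exact zero_ne_one hU
    refine ⟨(U : FF N)⁻¹, inv_ne_zero hU0, fun v => ?_⟩
    have h1 := congrArg v.ord hU
    rw [v.ord_mul hf0 (pow_ne_zero _ hU0), Place.ord_one, Fermat.Agent.S24.ord_pow,
      ← hfD v] at h1
    rw [v.ord_inv]
    have h2 : ((p' + 1 : ℕ) : ℤ) * (D v + v.ord (U : FF N)) = 0 := by rw [mul_add]; exact h1
    have h3 : ((p' + 1 : ℕ) : ℤ) ≠ 0 := by exact_mod_cast Nat.succ_ne_zero p'
    have h4 := (mul_eq_zero.mp h2).resolve_left h3
    linarith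
  · refine isPrincipal_of_endgame hdec harch p' hp D f hf hfD hrD Ep Em hEp hEm hE hlift hONp
      hONm ?_
    intro U hU hredU c f₁ hf₁ heq
    refine hloc U hU hredU c ?_ f₁ hf₁ heq
    rintro rfl
    apply hex
    refine ⟨U, ?_⟩
    have h0 : ((0 : A) : KK) • (f₁ : FF N) = 0 := by
      rw [ZeroMemClass.coe_zero, zero_smul]
    rw [h0, sub_eq_zero] at heq
    exact heq

/-- **The normalized divisor-level statement from the end game**, with the corrected local
claim. -/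
theorem divStmtUnit_of_endgame_nz (hgen : PrincipalGeneratedByIntegral A (residue A) N)
    (harch : ∀ c : A, c ∈ nonunits A → ∀ d : A, d ≠ 0 → ∃ (n : ℕ) (e : A), c ^ n = d * e)
    (p' : ℕ) (hp : ((p' + 1 : ℕ) : ResidueField A) ≠ 0)
    (H : ∀ (D : Divisor KK (FF N)) (f : OO A N), Divisor.degree D = 0 →
      Finsupp.mapDomain r D = 0 → redN A N f = 1 →
      (∀ P : Place KK (FF N), ((p' + 1 : ℕ) : ℤ) * D P = P.ord (f : FF N)) →
      ∃ Ep Em : Divisor KK (FF N), (∀ P, 0 ≤ Ep P) ∧ (∀ P, 0 ≤ Em P) ∧ Ep - Em = D ∧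
        Lift A N r Ep ∧ ON A N Ep ∧ ON A N ((p' + 1) • Em) ∧ LocNZ A N r (p' + 1) f Ep Em) :
    Step0.DivStmtUnit A (residue A) N r (p' + 1) := by
  intro D hD hrD y₁ y₂ h₁ h₂ hk₁ hne heq hdiv
  have hdec := dec_of_hgen hgen
  have hU₁ : IsIntU A (modularFunctionFieldBar N) (FkN A N) y₁ := ⟨⟨h₁, hk₁⟩, hne⟩
  have hU₂ : IsIntU A (modularFunctionFieldBar N) (FkN A N) y₂ := ⟨⟨h₂, heq ▸ hk₁⟩, heq ▸ hne⟩
  set g₁ : FF N := ⟨coeffMap A.subtype y₁, h₁⟩ with hg₁
  set g₂ : FF N := ⟨coeffMap A.subtype y₂, h₂⟩ with hg₂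
  have hg₁0 : g₁ ≠ 0 := fun h0 => hU₁.inc_ne_zero (congrArg Subtype.val h0)
  have hg₂0 : g₂ ≠ 0 := fun h0 => hU₂.inc_ne_zero (congrArg Subtype.val h0)
  set f : FF N := g₁ / g₂ with hf
  have hfY : (f : LaurentSeries KK) * inc A y₂ = inc A y₁ := by
    have h3 : f * g₂ = g₁ := div_mul_cancel₀ _ hg₂0
    exact congrArg Subtype.val h3
  have hmem : f ∈ OO A N := div_mem_gaussRing hU₁ hU₂ hfY
  have hred : redN A N ⟨f, hmem⟩ = 1 := by
    have h4 := red_mul_rd (F := modularFunctionFieldBar N) (Fk := FkN A N) ⟨f, hmem⟩ hU₁.1 hU₂ hfY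
    have hk : (⟨rd A y₂, hU₂.1.2⟩ : FkN A N) ≠ 0 := fun h0 => hU₂.2 (congrArg Subtype.val h0)
    apply mul_right_cancel₀ hk
    apply Subtype.ext
    rw [MulMemClass.coe_mul, h4, one_mul]
    exact heq
  have hord : ∀ P : Place KK (FF N), ((p' + 1 : ℕ) : ℤ) * D P = P.ord f := by
    intro P
    rw [hf, Fermat.Agent.S24.ord_div P hg₁0 hg₂0]
    exact hdiv P
  obtain ⟨Ep, Em, hEp, hEm, hE, hlift, hONp, hONm, hloc⟩ := H D ⟨f, hmem⟩ hD hrD hred hord
  exact isPrincipal_of_endgame_nz hdec harch p' hp D ⟨f, hmem⟩ hred hord hrD Ep Em hEp hEm hE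
    hlift hONp hONm hloc

end Fermat.Agent.S18.EndGame2
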