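import Mathlib
import Fermat.Agent.S18.Newton

/-!
# S18, orthonormal bases of subspaces

Setting of `S18/Newton.lean` (`IsGauss A O red`: an abstract Gauss ring `O ⊆ F` over a valuation
ring `A` of `L`, with residue homomorphism `red : O →+* Fk`).

* `exists_orthonormal_of_le` : every `L`-subspace of the span of a finite orthonormal family has
  an orthonormal basis (a basis in `O` with `k`-linearly independent reductions);
* `exists_orthonormal_of_mul_le` : the same for a subspace `V` such that `g * V` is contained in
  the span of a finite orthonormal family, `g` a unit of `O`.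

No completeness, discreteness or noetherian hypothesis on `A` is needed: the reductions of
`V ∩ O` form a finite-dimensional space, lifts of a basis of it are orthonormal, and they span
`V` by the best approximation lemma (`IsGauss.exists_best_approx`).
-/

set_option autoImplicit false

namespace Fermat.Agent.S18.OrthoSub

open IsLocalRing Fermat.Agent.S18.Newton

variable {L : Type*} [Field L] {A : ValuationSubring L}
variable {F : Type*} [Field F] [Algebra L F]
variable {Fk : Type*} [Field Fk] [Algebra (ResidueField A) Fk]
variable {O : Subring F} {red : O →+* Fk}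

/-- The reductions of the elements of `V ∩ O`, as a subspace over the residue field. -/
def redSpace (h : IsGauss A O red) (V : Submodule L F) : Submodule (ResidueField A) Fk where
  carrier := {w | ∃ y : O, (y : F) ∈ V ∧ red y = w}
  zero_mem' := ⟨0, V.zero_mem, map_zero _⟩
  add_mem' := by
    rintro _ _ ⟨y, hy, rfl⟩ ⟨y', hy', rfl⟩
    exact ⟨y + y', V.add_mem hy hy', map_add _ _ _⟩
  smul_mem' := by
    rintro c _ ⟨y, hy, rfl⟩
    obtain ⟨a, rfl⟩ := residue_surjective c
    refine ⟨h.cst a * y, ?_, h.red_cst_mul a y⟩
    rw [h.coe_cst_mul]
    exact V.smul_mem _ hy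

theorem mem_redSpace (h : IsGauss A O red) (V : Submodule L F) (w : Fk) :
    w ∈ redSpace h V ↔ ∃ y : O, (y : F) ∈ V ∧ red y = w := Iff.rfl

/-- **Subspaces of a space with an orthonormal basis have an orthonormal basis.** -/
theorem exists_orthonormal_of_le (h : IsGauss A O red) {κ : Type*} [Fintype κ] (β : κ → O)
    (hβ : LinearIndependent (ResidueField A) fun l => red (β l)) (V : Submodule L F)
    (hV : V ≤ Submodule.span L (Set.range fun l => (β l : F))) :
    ∃ (n : ℕ) (b : Fin n → O), LinearIndependent (ResidueField A) (fun i => red (b i)) ∧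
      Submodule.span L (Set.range fun i => (b i : F)) = V := by
  classical
  set Wb := Submodule.span (ResidueField A) (Set.range fun l => red (β l)) with hWb
  set R := redSpace h V with hR
  have hle : R ≤ Wb := by
    rintro _ ⟨y, hy, rfl⟩
    exact h.red_mem_span β hβ y (hV hy)
  have : FiniteDimensional (ResidueField A) Wb :=
    FiniteDimensional.span_of_finite _ (Set.finite_range _)
  have : FiniteDimensional (ResidueField A) R := Submodule.finiteDimensional_of_le hle
  set n := Module.finrank (ResidueField A) R with hn
  let bR := Module.finBasis (ResidueField A) R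
  have hex : ∀ i : Fin n, ∃ y : O, (y : F) ∈ V ∧ red y = ((bR i : R) : Fk) := fun i => (bR i).2
  choose b hbV hbred using hex
  have hli : LinearIndependent (ResidueField A) fun i => red (b i) := by
    have h1 : LinearIndependent (ResidueField A) fun i => ((bR i : R) : Fk) :=
      bR.linearIndependent.map' R.subtype (Submodule.ker_subtype R)
    convert h1 using 2
    exact hbred _
  have hspanR : Submodule.span (ResidueField A) (Set.range fun i => red (b i)) = R := by
    have h1 : (fun i => red (b i)) = R.subtype ∘ bR := funext fun i => hbred i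
    rw [h1, Set.range_comp, ← Submodule.map_span, bR.span_eq, Submodule.map_subtype_top]
  refine ⟨n, b, hli, le_antisymm ?_ ?_⟩
  · rw [Submodule.span_le]
    rintro _ ⟨i, rfl⟩
    exact hbV i
  · intro v hv
    by_cases hv0 : v = 0
    · rw [hv0]; exact Submodule.zero_mem _
    obtain ⟨c, u, hc, -, hvu⟩ := h.normalize v hv0
    have huV : (u : F) ∈ V := by
      have : (u : F) = c⁻¹ • v := by rw [hvu, smul_smul, inv_mul_cancel₀ hc, one_smul]
      rw [this]
      exact V.smul_mem _ hv
    have key : (u : F) ∈ Submodule.span L (Set.range fun i => (b i : F)) := by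
      obtain ⟨a, ha | ⟨γ, ε, hγ, hε, ha⟩⟩ :=
        h.exists_best_approx b β hli hβ (fun i => hV (hbV i)) u (hV huV)
      · rw [ha]
        exact Submodule.sum_mem _ fun i _ =>
          Submodule.smul_mem _ _ (Submodule.subset_span ⟨i, rfl⟩)
      · exfalso
        apply hε
        rw [hspanR]
        refine ⟨ε, ?_, rfl⟩
        have hγL : (γ : L) ≠ 0 := fun h0 => hγ (Subtype.ext h0)
        have : (ε : F) = (γ : L)⁻¹ • ((u : F) - ∑ i, (a i : L) • (b i : F)) := by
          rw [ha, add_sub_cancel_left, smul_smul, inv_mul_cancel₀ hγL, one_smul]
        rw [this]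
        exact V.smul_mem _ (V.sub_mem huV (V.sum_mem fun i _ => V.smul_mem _ (hbV i)))
    rw [hvu]
    exact Submodule.smul_mem _ _ key

/-- The same for a subspace `V` with `g * V` contained in the span of an orthonormal family,
`g` a unit of `O`. -/
theorem exists_orthonormal_of_mul_le (h : IsGauss A O red) {κ : Type*} [Fintype κ] (β : κ → O)
    (hβ : LinearIndependent (ResidueField A) fun l => red (β l)) (V : Submodule L F)
    (g ginv : O) (hg : g * ginv = 1)
    (hV : ∀ v ∈ V, (g : F) * v ∈ Submodule.span L (Set.range fun l => (β l : F))) :
    ∃ (n : ℕ) (b : Fin n → O), LinearIndependent (ResidueField A) (fun i => red (b i)) ∧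
      Submodule.span L (Set.range fun i => (b i : F)) = V := by
  classical
  have hgF : (g : F) * (ginv : F) = 1 := congrArg Subtype.val hg
  have hgF' : (ginv : F) * (g : F) = 1 := by rw [mul_comm]; exact hgF
  have hredg : red ginv * red g = 1 := by rw [← map_mul, mul_comm, hg, map_one]
  have hredg0 : red ginv ≠ 0 := left_ne_zero_of_mul_eq_one hredg
  -- the subspace `g * V`
  set V' : Submodule L F := V.map (LinearMap.mulLeft L (g : F)) with hV'
  have hV'le : V' ≤ Submodule.span L (Set.range fun l => (β l : F)) := by
    rintro _ ⟨v, hv, rfl⟩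
    exact hV v hv
  obtain ⟨n, b', hli', hspan'⟩ := exists_orthonormal_of_le h β hβ V' hV'le
  refine ⟨n, fun i => ginv * b' i, ?_, ?_⟩
  · have h1 : (fun i => red (ginv * b' i)) = fun i => red ginv • red (b' i) := by
      funext i
      rw [map_mul, smul_eq_mul]
    rw [h1]
    have h2 : LinearIndependent (ResidueField A)
        ((LinearMap.mulLeft (ResidueField A) (red ginv)) ∘ fun i => red (b' i)) := by
      refine hli'.map' _ ?_
      rw [LinearMap.ker_eq_bot]
      intro x y hxy
      exact mul_left_cancel₀ hredg0 hxy
    exact h2
  · have h1 : (Set.range fun i => ((ginv * b' i : O) : F)) =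
        (LinearMap.mulLeft L (ginv : F)) '' (Set.range fun i => (b' i : F)) := by
      rw [← Set.range_comp]
      rfl
    rw [h1, ← Submodule.map_span, hspan', hV', ← Submodule.map_comp]
    have h2 : (LinearMap.mulLeft L (ginv : F)).comp (LinearMap.mulLeft L (g : F)) =
        LinearMap.id := by
      ext x
      show (ginv : F) * ((g : F) * x) = x
      rw [← mul_assoc, hgF', one_mul]
    rw [h2, Submodule.map_id]

end Fermat.Agent.S18.OrthoSub
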