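import Mathlib
import Fermat.Agent.S18.DecDeg
import Fermat.Agent.S18.OrthoSub

/-!
# S18, the Gauss norm is cartesian: finite-dimensional subspaces have orthonormal bases

Setting of `Gauss.lean` / `DecDeg.lean`: `A` a valuation ring of `L`, `F ⊆ L((q))`,
`Fk ⊆ k((q))`, an integral series `J` with transcendental reduction and integral series `Y_i`
whose reductions are polynomially independent over `k[j̄]` and which span `F` over `L(j)` in
polynomial form.  Then every finite-dimensional `L`-subspace `V` of `F` has an orthonormal basis: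
elements of the Gauss ring, a basis of `V`, with `k`-linearly independent reductions
(`exists_orthonormal_basis`).

Proof: multiply `V` by a primitive common denominator `Q'(j)` (a unit of the Gauss ring); then
`Q'(j) V` is contained in the span of the orthonormal family `j^a Y_i`, `a ≤ D`; conclude by
`OrthoSub.exists_orthonormal_of_mul_le`.
-/

set_option autoImplicit false

noncomputable section

namespace Fermat.Agent.S18.Cartesian

open ModularCurve HahnSeries Polynomial IsLocalRing
open Fermat.Agent.S18.Gauss Fermat.Agent.S18.DecDeg Fermat.Agent.S18.Newton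

variable {L : Type*} [Field L] {A : ValuationSubring L}
variable {F : IntermediateField L (LaurentSeries L)}
  {Fk : IntermediateField (ResidueField A) (LaurentSeries (ResidueField A))}

/-- The Gauss ring satisfies the abstract interface of `Newton.lean`. -/
theorem isGauss_of_dec (hdec : Dec A F Fk) : IsGauss A (gaussRing A F Fk) (red A F Fk) where
  const_mem c := algebraMap_mem_gaussRing c
  red_const c := red_algebraMap c
  normalize f hf := exists_normalize hdec f hf

/-- The element of the Gauss ring attached to an integral series. -/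
def el (y : LaurentSeries A) (hy : IsInt A F Fk y) : gaussRing A F Fk :=
  ⟨⟨inc A y, hy.1⟩, inc_mem_gaussRing hy⟩

theorem coe_el (y : LaurentSeries A) (hy : IsInt A F Fk y) :
    (((el y hy : gaussRing A F Fk) : F) : LaurentSeries L) = inc A y := rfl

theorem red_el (y : LaurentSeries A) (hy : IsInt A F Fk y) :
    ((red A F Fk (el y hy) : Fk) : LaurentSeries (ResidueField A)) = rd A y := by
  rw [el, red_inc hy]

section Family

variable {ι : Type*} [Fintype ι] {J : LaurentSeries A} {Y : ι → LaurentSeries A}

/-- The orthonormal family `j^a Y_i`, `a ≤ D`. -/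
def fam (hJ : IsInt A F Fk J) (hY : ∀ i, IsInt A F Fk (Y i)) (D : ℕ) :
    ι × Fin (D + 1) → gaussRing A F Fk :=
  fun p => el (J ^ (p.2 : ℕ) * Y p.1) ((hJ.pow _).mul (hY p.1))

theorem coe_smul_Fk (a : ResidueField A) (x : Fk) :
    ((a • x : Fk) : LaurentSeries (ResidueField A)) =
      algebraMap (ResidueField A) (LaurentSeries (ResidueField A)) a *
        (x : LaurentSeries (ResidueField A)) := by
  rw [Algebra.smul_def]
  rfl

theorem coe_smul_F (a : L) (x : F) :
    ((a • x : F) : LaurentSeries L) =
      algebraMap L (LaurentSeries L) a * (x : LaurentSeries L) := by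
  rw [Algebra.smul_def]
  rfl

theorem fam_li (hJ : IsInt A F Fk J) (hY : ∀ i, IsInt A F Fk (Y i)) (hind : PolyIndep J Y)
    (D : ℕ) : LinearIndependent (ResidueField A) fun p => red A F Fk (fam hJ hY D p) := by
  classical
  rw [Fintype.linearIndependent_iff]
  intro c hc p
  have h1 : ((∑ p, c p • red A F Fk (fam hJ hY D p) : Fk) : LaurentSeries (ResidueField A)) =
      ((0 : Fk) : LaurentSeries (ResidueField A)) :=
    congrArg (fun x : Fk => (x : LaurentSeries (ResidueField A))) hc
  have h2 : ((∑ p, c p • red A F Fk (fam hJ hY D p) : Fk) : LaurentSeries (ResidueField A)) =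
      ∑ p : ι × Fin (D + 1),
        algebraMap (ResidueField A) (LaurentSeries (ResidueField A)) (c p) *
          (rd A J ^ (p.2 : ℕ) * rd A (Y p.1)) := by
    rw [show ((∑ p, c p • red A F Fk (fam hJ hY D p) : Fk) : LaurentSeries (ResidueField A)) =
      ∑ p, ((c p • red A F Fk (fam hJ hY D p) : Fk) : LaurentSeries (ResidueField A)) from
      map_sum Fk.val _ _]
    refine Finset.sum_congr rfl fun p _ => ?_
    rw [coe_smul_Fk, fam, red_el, map_mul, map_pow]
  rw [h2, ZeroMemClass.coe_zero, Fintype.sum_prod_type] at h1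
  set P : ι → Polynomial (ResidueField A) :=
    fun i => ∑ a : Fin (D + 1), Polynomial.monomial (a : ℕ) (c (i, a)) with hP
  have h3 : ∑ i, Polynomial.aeval (rd A J) (P i) * rd A (Y i) = 0 := by
    rw [← h1]
    refine Finset.sum_congr rfl fun i _ => ?_
    rw [hP, map_sum, Finset.sum_mul]
    refine Finset.sum_congr rfl fun a _ => ?_
    rw [Polynomial.aeval_monomial, mul_assoc]
  have h4 := hind P h3 p.1
  have h5 := congrArg (fun Q : Polynomial (ResidueField A) => Q.coeff (p.2 : ℕ)) h4
  simp only [hP, Polynomial.finsetSum_coeff, Polynomial.coeff_monomial,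
    Polynomial.coeff_zero] at h5
  rw [Finset.sum_eq_single p.2] at h5
  · simpa using h5
  · intro a _ ha
    rw [if_neg]
    exact fun h => ha (Fin.ext h)
  · intro h
    exact absurd (Finset.mem_univ _) h

theorem mem_span_fam (hJ : IsInt A F Fk J) (hY : ∀ i, IsInt A F Fk (Y i)) (D : ℕ) (x : F)
    (P : ι → Polynomial L) (hdeg : ∀ i, (P i).natDegree ≤ D)
    (hx : (x : LaurentSeries L) = ∑ i, Polynomial.aeval (inc A J) (P i) * inc A (Y i)) :
    x ∈ Submodule.span L (Set.range fun p => ((fam hJ hY D p : gaussRing A F Fk) : F)) := by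
  classical
  have h1 : x = ∑ p : ι × Fin (D + 1),
      (P p.1).coeff (p.2 : ℕ) • ((fam hJ hY D p : gaussRing A F Fk) : F) := by
    apply Subtype.ext
    rw [show ((∑ p : ι × Fin (D + 1),
        (P p.1).coeff (p.2 : ℕ) • ((fam hJ hY D p : gaussRing A F Fk) : F) : F) :
          LaurentSeries L) =
      ∑ p : ι × Fin (D + 1), (((P p.1).coeff (p.2 : ℕ) •
        ((fam hJ hY D p : gaussRing A F Fk) : F) : F) : LaurentSeries L) from
      map_sum F.val _ _]
    rw [hx, Fintype.sum_prod_type]
    refine Finset.sum_congr rfl fun i _ => ?_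
    have hlt : (P i).natDegree < D + 1 := Nat.lt_succ_of_le (hdeg i)
    rw [Polynomial.aeval_def, Polynomial.eval₂_eq_sum_range' _ hlt, Finset.sum_mul,
      Finset.sum_range]
    refine Finset.sum_congr rfl fun a _ => ?_
    rw [coe_smul_F, fam, coe_el, map_mul, map_pow, mul_assoc]
  rw [h1]
  exact Submodule.sum_mem _ fun p _ =>
    Submodule.smul_mem _ _ (Submodule.subset_span ⟨p, rfl⟩)

/-- **The Gauss norm is cartesian.** -/
theorem exists_orthonormal_basis (hJ : IsInt A F Fk J)
    (hJt : Transcendental (ResidueField A) (rd A J))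
    (hY : ∀ i, IsInt A F Fk (Y i)) (hind : PolyIndep J Y)
    (hspan : ∀ f : F, ∃ Q : Polynomial L, Q ≠ 0 ∧ ∃ P : ι → Polynomial L,
      (f : LaurentSeries L) * Polynomial.aeval (inc A J) Q =
        ∑ i, Polynomial.aeval (inc A J) (P i) * inc A (Y i))
    (V : Submodule L F) [FiniteDimensional L V] :
    ∃ (n : ℕ) (b : Fin n → gaussRing A F Fk),
      LinearIndependent (ResidueField A) (fun i => red A F Fk (b i)) ∧
        Submodule.span L (Set.range fun i => ((b i : gaussRing A F Fk) : F)) = V := by
  classical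
  have hdec : Dec A F Fk := dec_of_poly hJ hJt hY hind hspan
  have hG := isGauss_of_dec hdec
  set n₀ := Module.finrank L V with hn₀
  let v := Module.finBasis L V
  choose Q hQ P hP using fun t : Fin n₀ => hspan ((v t : V) : F)
  set Qtot : Polynomial L := ∏ t, Q t with hQtot
  have hQtot0 : Qtot ≠ 0 := Finset.prod_ne_zero_iff.mpr fun t _ => hQ t
  obtain ⟨c, Q', hc, hQQ', hQprim⟩ :=
    exists_primitive (A := A) (fun _ : Unit => Qtot) ⟨(), hQtot0⟩
  have hQ'0 : (Q' ()).map (residue A) ≠ 0 := by
    obtain ⟨u, hu⟩ := hQprim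
    cases u
    exact hu
  set g : gaussRing A F Fk := el (evA A J (Q' ())) (isInt_evA hJ _) with hg
  have hredg : red A F Fk g ≠ 0 := by
    intro h0
    have h1 := red_el (F := F) (Fk := Fk) (evA A J (Q' ())) (isInt_evA hJ _)
    rw [← hg, h0, ZeroMemClass.coe_zero, rd_evA] at h1
    exact hQ'0 ((transcendental_iff.mp hJt) _ h1.symm)
  have hg0 : (g : F) ≠ 0 := by
    intro h0
    apply hredg
    have : g = 0 := Subtype.ext h0
    rw [this, map_zero]
  set ginv : gaussRing A F Fk := ⟨((g : F))⁻¹, inv_mem_of_red_ne_zero hredg⟩ with hginv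
  have hgg : g * ginv = 1 := Subtype.ext (mul_inv_cancel₀ hg0)
  -- the numerators
  set R : Fin n₀ → ι → Polynomial L :=
    fun t i => Polynomial.C c⁻¹ * (P t i * ∏ s ∈ Finset.univ.erase t, Q s) with hR
  have hcL : algebraMap L (LaurentSeries L) c ≠ 0 := by
    rw [Ne, map_eq_zero_iff _ (algebraMap L (LaurentSeries L)).injective]; exact hc
  have hgcoe : ((g : F) : LaurentSeries L) =
      algebraMap L (LaurentSeries L) c⁻¹ * Polynomial.aeval (inc A J) Qtot := by
    rw [hg, coe_el, inc_evA, hQQ' (), map_mul, Polynomial.aeval_C, ← mul_assoc, ← map_mul,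
      inv_mul_cancel₀ hc, map_one, one_mul]
  have key : ∀ t, (((g : F) * ((v t : V) : F) : F) : LaurentSeries L) =
      ∑ i, Polynomial.aeval (inc A J) (R t i) * inc A (Y i) := by
    intro t
    have e1 : Polynomial.aeval (inc A J) Qtot =
        Polynomial.aeval (inc A J) (Q t) *
          Polynomial.aeval (inc A J) (∏ s ∈ Finset.univ.erase t, Q s) := by
      rw [← map_mul, hQtot, Finset.mul_prod_erase _ _ (Finset.mem_univ t)]
    have e2 : (((g : F) * ((v t : V) : F) : F) : LaurentSeries L) =
        ((g : F) : LaurentSeries L) * (((v t : V) : F) : LaurentSeries L) := rfl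
    rw [e2, hgcoe, e1]
    have e3 : algebraMap L (LaurentSeries L) c⁻¹ * (Polynomial.aeval (inc A J) (Q t) *
          Polynomial.aeval (inc A J) (∏ s ∈ Finset.univ.erase t, Q s)) *
          (((v t : V) : F) : LaurentSeries L) =
        algebraMap L (LaurentSeries L) c⁻¹ *
          (((((v t : V) : F) : LaurentSeries L) * Polynomial.aeval (inc A J) (Q t)) *
          Polynomial.aeval (inc A J) (∏ s ∈ Finset.univ.erase t, Q s)) := by ring
    rw [e3, hP t, Finset.sum_mul, Finset.mul_sum]
    refine Finset.sum_congr rfl fun i _ => ?_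
    rw [hR]
    simp only [map_mul, Polynomial.aeval_C]
    ring
  set D : ℕ := ∑ t, ∑ i, (R t i).natDegree with hD
  have hdeg : ∀ t i, (R t i).natDegree ≤ D := by
    intro t i
    have h1 : (R t i).natDegree ≤ ∑ i, (R t i).natDegree :=
      Finset.single_le_sum (f := fun i => (R t i).natDegree) (fun _ _ => Nat.zero_le _)
        (Finset.mem_univ i)
    have h2 : ∑ i, (R t i).natDegree ≤ D :=
      Finset.single_le_sum (f := fun t => ∑ i, (R t i).natDegree) (fun _ _ => Nat.zero_le _)
        (Finset.mem_univ t)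
    exact h1.trans h2
  refine OrthoSub.exists_orthonormal_of_mul_le hG (fam hJ hY D) (fam_li hJ hY hind D) V g ginv
    hgg ?_
  intro x hx
  have hx' : (⟨x, hx⟩ : V) = ∑ t, v.repr ⟨x, hx⟩ t • v t := (v.sum_repr ⟨x, hx⟩).symm
  have hx'' : x = ∑ t, v.repr ⟨x, hx⟩ t • ((v t : V) : F) := by
    have h1 := congrArg (fun y : V => (y : F)) hx'
    have h2 : ((∑ t, v.repr ⟨x, hx⟩ t • v t : V) : F) =
        ∑ t, v.repr ⟨x, hx⟩ t • ((v t : V) : F) := map_sum V.subtype _ _
    exact h1.trans h2
  rw [hx'', Finset.mul_sum]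
  refine Submodule.sum_mem _ fun t _ => ?_
  rw [mul_smul_comm]
  exact Submodule.smul_mem _ _ (mem_span_fam hJ hY D _ (R t) (hdeg t) (key t))

end Family

end Fermat.Agent.S18.Cartesian
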