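import Mathlib
import Fermat.Agent.S18.Cartesian
import Fermat.Agent.S18.DecMod
import Fermat.Agent.S18.EndGame

/-!
# S18, (ON): orthonormal bases in the modular function field

For a valuation ring `A` of `ℚ̄` over a prime `ℓ` and a level `N` prime to `ℓ`:

* `exists_family` : `ψ(N)` integral series whose reductions are linearly independent over
  `k(j̄)` (the family used in `DecMod.dec`);
* `exists_orthonormal_basis` : every finite-dimensional `ℚ̄`-subspace of the function field
  `FF N` has an orthonormal basis for the Gauss ring `OO A N`;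
* `on_of_finiteDimensional` : the hypothesis `EndGame.ON A N E` for every divisor `E` with
  finite-dimensional Riemann–Roch space.
-/

set_option autoImplicit false
set_option synthInstance.maxHeartbeats 400000

noncomputable section

namespace Fermat.Agent.S18.ONBasis

open ModularCurve AlgebraicCurve HahnSeries IntermediateField IsLocalRing
open Fermat.Agent.S18.Gauss Fermat.Agent.S18.Lattice Fermat.Agent.S24 Fermat.Agent.S24.Eval

variable {A : ValuationSubring KK} {ℓ : ℕ} [Fact ℓ.Prime] (N : ℕ) [NeZero N]

/-- `ψ(N)` integral series with reductions linearly independent over `k(j̄)`. -/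
theorem exists_family (hA : A.LiesOverPrime ℓ) (hℓN : ¬ ℓ ∣ N) :
    ∃ U : Fin (dedekindPsi N) → LaurentSeries A,
      (∀ i, IsInt A (modularFunctionFieldBar N) (FkN A N) (U i)) ∧
      LinearIndependent
        (IntermediateField.adjoin (ResidueField A) {rd A (jqNModC A 1)})
        (fun i => rd A (U i)) := by
  classical
  obtain ⟨w, hw, hli⟩ := ResField.exists_indep hA N hℓN
  have hne : ∀ i, w i ≠ 0 := fun i => hli.ne_zero i
  have hlift : ∀ i, ∃ Y₁ Y₂ : LaurentSeries A,
      RedExt.IsInt A (IsLocalRing.residue A) N Y₁ ∧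
      RedExt.IsInt A (IsLocalRing.residue A) N Y₂ ∧
      w i * coeffMap (IsLocalRing.residue A) Y₂ = coeffMap (IsLocalRing.residue A) Y₁ := by
    intro i
    obtain ⟨Y₁, Y₂, h₁, h₂, h⟩ := RedExt.exists_lift (A := A) (π := IsLocalRing.residue A)
      (N := N) IsLocalRing.residue_surjective ⟨w i, hw i⟩
      (fun h => hne i (congrArg Subtype.val h))
    exact ⟨Y₁, Y₂, h₁, h₂, congrArg Subtype.val h⟩
  choose Y₁ Y₂ h₁ h₂ hY using hlift
  let D : LaurentSeries A := ∏ j, Y₂ j
  let U : Fin (dedekindPsi N) → LaurentSeries A :=
    fun i => Y₁ i * ∏ j ∈ Finset.univ.erase i, Y₂ j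
  have hD : RedExt.IsInt A (IsLocalRing.residue A) N D :=
    DegEq.isInt_prod N _ _ fun j _ => h₂ j
  have hU : ∀ i, RedExt.IsInt A (IsLocalRing.residue A) N (U i) := fun i =>
    (h₁ i).mul (DegEq.isInt_prod N _ _ fun j _ => h₂ j)
  have hUD : ∀ i, coeffMap (IsLocalRing.residue A) (U i) =
      w i * coeffMap (IsLocalRing.residue A) D := by
    intro i
    show coeffMap (IsLocalRing.residue A) (Y₁ i * ∏ j ∈ Finset.univ.erase i, Y₂ j) =
      w i * coeffMap (IsLocalRing.residue A) (∏ j, Y₂ j)
    rw [map_mul, ← hY i, mul_assoc, ← map_mul, Finset.mul_prod_erase _ _ (Finset.mem_univ i)]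
  have h1 : LinearIndependent
      (IntermediateField.adjoin (IsLocalRing.ResidueField A)
        {jqModC (IsLocalRing.ResidueField A)})
      (fun i => coeffMap (IsLocalRing.residue A) (U i)) := by
    have h := DegEq.linearIndependent_mul_right w (coeffMap (IsLocalRing.residue A) D)
      hD.2.2 hli
    have e : (fun i => coeffMap (IsLocalRing.residue A) (U i)) =
        fun i => w i * coeffMap (IsLocalRing.residue A) D := funext hUD
    rw [e]
    exact h
  refine ⟨U, fun i => (isIntU_of_isInt (hU i)).1, ?_⟩
  rw [DecMod.rd_J]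
  exact h1

/-- **Every finite-dimensional subspace of the modular function field has an orthonormal
basis.** -/
theorem exists_orthonormal_basis (hA : A.LiesOverPrime ℓ) (hℓN : ¬ ℓ ∣ N)
    (V : Submodule KK (FF N)) [FiniteDimensional KK V] :
    ∃ (n : ℕ) (b : Fin n → OO A N),
      LinearIndependent (ResidueField A) (fun i => redN A N (b i)) ∧
        Submodule.span KK (Set.range fun i => ((b i : OO A N) : FF N)) = V := by
  classical
  obtain ⟨U, hU, hli⟩ := exists_family N hA hℓN
  have htr : Transcendental (ResidueField A) (rd A (jqNModC A 1)) := by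
    rw [DecMod.rd_J]
    exact Fermat.Agent.S28.PrimeCase.transcendental_jqModC _
  have hind := DecDeg.polyIndep_of_linearIndependent htr hli
  have := Degree.finiteDimensional_jF N
  have hspan := DecDeg.exists_poly_of_finrank hind (jF N) (DecMod.inc_J N)
    (fun i => (hU i).1) (by rw [DegEq.finrank_jF_eq, Fintype.card_fin])
  exact Cartesian.exists_orthonormal_basis (DecMod.isInt_J N) htr hU hind hspan V

/-- (ON) for every divisor with finite-dimensional Riemann–Roch space. -/
theorem on_of_finiteDimensional (hA : A.LiesOverPrime ℓ) (hℓN : ¬ ℓ ∣ N)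
    (E : Divisor KK (FF N)) [FiniteDimensional KK (riemannRochSpace E)] :
    EndGame.ON A N E :=
  exists_orthonormal_basis N hA hℓN (riemannRochSpace E)

end Fermat.Agent.S18.ONBasis
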