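import Mathlib
import Fermat.Agent.S18.RRFinite
import Fermat.Agent.S18.ONBasis

/-!
# S18, (ON) for every divisor

* `hasValues_FF`, `hasConstants_FF` : the modular function field `FF N` over `ℚ̄` has all
  residue fields equal to `ℚ̄`, and its functions without poles are constant;
* `finiteDimensional_FF` : every Riemann–Roch space of `FF N` is finite-dimensional;
* `on` : the hypothesis `EndGame.ON A N E` of the end game holds for EVERY divisor `E`
  (`A` a valuation ring of `ℚ̄` over `ℓ`, `ℓ ∤ N`).
-/

set_option autoImplicit false
set_option synthInstance.maxHeartbeats 400000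

noncomputable section

namespace Fermat.Agent.S18.ONAll

open ModularCurve AlgebraicCurve HahnSeries IntermediateField IsLocalRing
open Fermat.Agent.S18.Gauss Fermat.Agent.S18.Lattice Fermat.Agent.S24 Fermat.Agent.S24.Eval
open Fermat.Agent.S18.RRFinite

variable (N : ℕ) [NeZero N]

theorem hasValues_FF : HasValues KK (FF N) := by
  intro v f hf
  haveI := Degree.finiteDimensional_jF N
  exact Fermat.Agent.S24.exists_sub_algebraMap_ord_pos (jF N) (Degree.transcendental_jF N) v hf

/-- A sum with finite support of nonnegative integers that vanishes has all terms zero. -/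
theorem eq_zero_of_finsum_eq_zero {α : Type*} (f : α → ℤ) (hfin : (Function.support f).Finite)
    (hnn : ∀ a, 0 ≤ f a) (hsum : ∑ᶠ a, f a = 0) (a : α) : f a = 0 := by
  classical
  rw [finsum_eq_sum_of_support_subset (s := hfin.toFinset) f (by
    intro x hx
    simpa using hx)] at hsum
  by_cases ha : a ∈ hfin.toFinset
  · exact (Finset.sum_eq_zero_iff_of_nonneg fun x _ => hnn x).mp hsum a ha
  · simpa using ha

theorem hasConstants_FF : HasConstants KK (FF N) := by
  intro f hf hnn
  haveI := Degree.finiteDimensional_jF N
  have hfin := FFPrincipal.finite_ord_ne_zero (jF N) (Degree.transcendental_jF N) f hf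
  have hsum := FFPrincipal.finsum_ord_eq_zero (jF N) (Degree.transcendental_jF N) f hf
  have hall : ∀ v : Place KK (FF N), v.ord f = 0 :=
    eq_zero_of_finsum_eq_zero (fun v : Place KK (FF N) => v.ord f) hfin hnn hsum
  obtain ⟨c, hc⟩ := RedExt.mem_range_of_forall_ord_eq_zero N f hall
  exact ⟨c, hc.symm⟩

/-- **Riemann–Roch spaces of the modular function field are finite-dimensional.** -/
theorem finiteDimensional_FF (E : Divisor KK (FF N)) :
    FiniteDimensional KK (riemannRochSpace E) :=
  RRFinite.finiteDimensional (hasValues_FF N) (hasConstants_FF N) E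

variable {A : ValuationSubring KK} {ℓ : ℕ} [Fact ℓ.Prime]

/-- **(ON) for every divisor.** -/
theorem on (hA : A.LiesOverPrime ℓ) (hℓN : ¬ ℓ ∣ N) (E : Divisor KK (FF N)) :
    EndGame.ON A N E :=
  haveI := finiteDimensional_FF N E
  ONBasis.on_of_finiteDimensional N hA hℓN E

end Fermat.Agent.S18.ONAll
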