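import Mathlib
import Fermat.Prelude.Def_ModularCurve_ReductionModL
import Fermat.Agent.S18.Step0
import Fermat.Agent.S18.RedExt

/-!
# S18, Step 0 (continued): the side hypothesis `PrincipalLift` holds

`r_*` is onto on principal divisors, by the lifting of functions of the special fibre
(`RedExt.exists_lift`).  Consequently S18 follows from the divisor-level statement with
`r_* D = 0` (`s18_of_divStmtZero`), and, if functions of the special fibre without zeros and poles
are constant, from its normalized form (`s18_of_divStmtUnit'`).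
-/

set_option autoImplicit false
set_option synthInstance.maxHeartbeats 400000

open HahnSeries IntermediateField AlgebraicCurve ModularCurve

namespace Fermat.Agent.S18.Step0Lift

open Fermat.Agent.S18.Step0 Fermat.Agent.S18.RedExt Fermat.Agent.S24.Eval

section Lift

variable {A : ValuationSubring KK} {k : Type*} [Field k] {π : A →+* k} {N : ℕ} [NeZero N]
variable {r : Place KK (FF N) → Place k (modularFunctionFieldFullC k N)}

/-- `r_*` is onto on principal divisors. -/
theorem principalLift (hr : IsPlaceReductionAlong A π N r) (hπ : Function.Surjective π) :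
    PrincipalLift N r := by
  rintro Ebar ⟨g, hg, hE⟩
  obtain ⟨Y₁, Y₂, h₁, h₂, hgY⟩ := exists_lift (N := N) hπ g hg
  refine ⟨divF N h₁.toF - divF N h₂.toF,
    isPrincipal_sub ⟨h₁.toF, h₁.toF_ne_zero, fun _ => rfl⟩ ⟨h₂.toF, h₂.toF_ne_zero, fun _ => rfl⟩,
    ?_⟩
  ext Q
  rw [Finsupp.mapDomain_sub, Finsupp.sub_apply, mapDomain_divF_int hr h₁,
    mapDomain_divF_int hr h₂, hE Q, ← hgY, Q.ord_mul hg h₂.toFk_ne_zero]
  ring

end Lift

section Final

variable (N : ℕ) [NeZero N] (A : ValuationSubring (AlgebraicClosure ℚ))

/-- S18 follows from the divisor-level statement for divisors with zero specialization. -/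
theorem s18_of_divStmtZero {ℓ : ℕ}
    (hMT : ∀ r : Place (AlgebraicClosure ℚ) (modularFunctionFieldBar N) →
        Place (IsLocalRing.ResidueField A)
          (modularFunctionFieldFullC (IsLocalRing.ResidueField A) N),
      IsPlaceReductionModL A N r → PrincipalGeneratedByIntegral A (IsLocalRing.residue A) N →
        ∀ p : ℕ, p.Prime → p ≠ ℓ → DivStmtZero N r p)
    (h : ModularCurve.ReductionInputsModL A N) (m : ℕ) (hm : ¬ ℓ ∣ m) (z : ModularCurve.JZero N)
    (hmz : m • z = 0) (hz : ModularCurve.reductionModL A N z = 0) :
    z = 0 :=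
  s18_of_divStmt N A (fun r hr hgen p hp hpℓ =>
    divStmt_of_zero hr (principalLift hr IsLocalRing.residue_surjective) (hMT r hr hgen p hp hpℓ))
    h m hm z hmz hz

/-- S18 follows from the normalized divisor-level statement and the constants of the special
fibre. -/
theorem s18_of_divStmtUnit' {ℓ : ℕ}
    (hconst : ConstantsSpecial (k := IsLocalRing.ResidueField A) N)
    (hMT : ∀ r : Place (AlgebraicClosure ℚ) (modularFunctionFieldBar N) →
        Place (IsLocalRing.ResidueField A)
          (modularFunctionFieldFullC (IsLocalRing.ResidueField A) N),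
      IsPlaceReductionModL A N r → PrincipalGeneratedByIntegral A (IsLocalRing.residue A) N →
        ∀ p : ℕ, p.Prime → p ≠ ℓ → DivStmtUnit A (IsLocalRing.residue A) N r p)
    (h : ModularCurve.ReductionInputsModL A N) (m : ℕ) (hm : ¬ ℓ ∣ m) (z : ModularCurve.JZero N)
    (hmz : m • z = 0) (hz : ModularCurve.reductionModL A N z = 0) :
    z = 0 :=
  s18_of_divStmtZero N A (fun r hr hgen p hp hpℓ =>
    divStmtZero_of_unit hr hgen IsLocalRing.residue_surjective hconst (hMT r hr hgen p hp hpℓ))
    h m hm z hmz hz

end Final

end Fermat.Agent.S18.Step0Lift
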