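import Mathlib
import Fermat.Agent.S18.EndGame2
import Fermat.Agent.S18.ONAll
import Fermat.Agent.S18.DegZeroFbar
import Fermat.Agent.S18.Arch
import Fermat.Agent.S18.Step0Lift

/-!
# S18, the final wiring

The frozen statement S18 from the two remaining leaves, stated as explicit hypotheses:

* `HL` (leaf [H], lifting): for every effective divisor `G` there is `b₀` such that
  `EndGame.Lift A N r (G + b • C)` for all `b ≥ b₀` (`C` a fixed effective divisor, in
  practice the pole divisor of `j`);
* `HLoc` (leaf [I], the local claim): `EndGame2.LocNZ A N r p f E₊ E₋` for effective divisors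
  `E₊`, `E₋` with `div f = p (E₊ - E₋)`, `r_* (E₊ - E₋) = 0`, `red f = 1`.

Everything else is discharged here: the orthonormal bases (`ONAll.on`), the archimedean property
(`Arch.arch`), `p ≠ 0` in the residue field, the decomposition property, the constants of the
special fibre (`DegZeroFbar.constantsSpecial`), the principal lifts (`Step0Lift.principalLift`).
-/

set_option autoImplicit false
set_option synthInstance.maxHeartbeats 400000

namespace Fermat.Agent.S18.Final

open ModularCurve AlgebraicCurve HahnSeries IsLocalRing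
open Fermat.Agent.S18.Gauss Fermat.Agent.S18.Lattice
open Fermat.Agent.S18.EndGame Fermat.Agent.S18.EndGame2
open Fermat.Agent.S24.Eval

/-- The positive part of a divisor. -/
noncomputable def posPart {K F : Type*} [Field K] [Field F] [Algebra K F] (D : Divisor K F) :
    Divisor K F :=
  D.mapRange (fun n : ℤ => max n 0) (max_self 0)

/-- The negative part of a divisor. -/
noncomputable def negPart {K F : Type*} [Field K] [Field F] [Algebra K F] (D : Divisor K F) :
    Divisor K F :=
  D.mapRange (fun n : ℤ => max (-n) 0) (by simp)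

section Parts

variable {K F : Type*} [Field K] [Field F] [Algebra K F] (D : Divisor K F)

@[simp] theorem posPart_apply (v : Place K F) : posPart D v = max (D v) 0 := rfl

@[simp] theorem negPart_apply (v : Place K F) : negPart D v = max (-(D v)) 0 := rfl

theorem posPart_nonneg (v : Place K F) : 0 ≤ posPart D v := le_max_right _ _

theorem negPart_nonneg (v : Place K F) : 0 ≤ negPart D v := le_max_right _ _

theorem posPart_sub_negPart : posPart D - negPart D = D := by
  ext v
  rw [Finsupp.sub_apply, posPart_apply, negPart_apply]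
  rcases le_total (D v) 0 with h | h
  · rw [max_eq_right h, max_eq_left (by omega)]
    ring
  · rw [max_eq_left h, max_eq_right (by omega)]
    ring

end Parts

variable (N : ℕ) [NeZero N] {ℓ : ℕ} [Fact ℓ.Prime]
variable (A : ValuationSubring KK)

/-- The divisor-level statement from (LIFT) and (LOC). -/
theorem divStmtUnit_of_lift_loc (hℓN : ¬ ℓ ∣ N) (hA : A.LiesOverPrime ℓ)
    (r : Place KK (FF N) → Place (ResidueField A) (FkN A N))
    (hgen : PrincipalGeneratedByIntegral A (residue A) N)
    (C : Divisor KK (FF N)) (hC : ∀ P, 0 ≤ C P)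
    (HL : ∀ G : Divisor KK (FF N), (∀ P, 0 ≤ G P) →
      ∃ b₀ : ℕ, ∀ b : ℕ, b₀ ≤ b → Lift A N r (G + b • C))
    (p : ℕ) (hp : p.Prime) (hpℓ : p ≠ ℓ)
    (HLoc : ∀ (D : Divisor KK (FF N)) (f : OO A N), Divisor.degree D = 0 →
      Finsupp.mapDomain r D = 0 → redN A N f = 1 →
      (∀ P : Place KK (FF N), (p : ℤ) * D P = P.ord (f : FF N)) →
      ∀ Ep Em : Divisor KK (FF N), (∀ P, 0 ≤ Ep P) → (∀ P, 0 ≤ Em P) → Ep - Em = D →
        LocNZ A N r p f Ep Em) :
    Step0.DivStmtUnit A (residue A) N r p := by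
  obtain ⟨p', rfl⟩ : ∃ p', p = p' + 1 := ⟨p - 1, by have := hp.pos; omega⟩
  refine divStmtUnit_of_endgame_nz hgen (Arch.arch Fact.out hA) p'
    (ResField.natCast_residue_ne_zero hA hp hpℓ) ?_
  intro D f hD hrD hf hfD
  obtain ⟨b₀, hb₀⟩ := HL (posPart D) (posPart_nonneg D)
  have hCb : ∀ P, 0 ≤ (b₀ • C) P := by
    intro P
    rw [Finsupp.smul_apply, nsmul_eq_mul]
    exact mul_nonneg (Int.natCast_nonneg _) (hC P)
  have hEp : ∀ P, 0 ≤ (posPart D + b₀ • C) P := fun P => by
    rw [Finsupp.add_apply]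
    exact add_nonneg (posPart_nonneg D P) (hCb P)
  have hEm : ∀ P, 0 ≤ (negPart D + b₀ • C) P := fun P => by
    rw [Finsupp.add_apply]
    exact add_nonneg (negPart_nonneg D P) (hCb P)
  have hE : (posPart D + b₀ • C) - (negPart D + b₀ • C) = D := by
    rw [add_sub_add_right_eq_sub, posPart_sub_negPart]
  exact ⟨posPart D + b₀ • C, negPart D + b₀ • C, hEp, hEm, hE, hb₀ b₀ le_rfl,
    ONAll.on N hA hℓN _, ONAll.on N hA hℓN _,
    HLoc D f hD hrD hf hfD _ _ hEp hEm hE⟩

/-- **S18 from (LIFT) and (LOC).** -/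
theorem s18_of_lift_loc (hℓN : ¬ ℓ ∣ N) (hA : A.LiesOverPrime ℓ)
    (H : ∀ r : Place KK (FF N) → Place (ResidueField A) (FkN A N),
      IsPlaceReductionModL A N r → PrincipalGeneratedByIntegral A (residue A) N →
      ∃ C : Divisor KK (FF N), (∀ P, 0 ≤ C P) ∧
        (∀ G : Divisor KK (FF N), (∀ P, 0 ≤ G P) →
          ∃ b₀ : ℕ, ∀ b : ℕ, b₀ ≤ b → Lift A N r (G + b • C)) ∧
        ∀ p : ℕ, p.Prime → p ≠ ℓ →
          ∀ (D : Divisor KK (FF N)) (f : OO A N), Divisor.degree D = 0 →
            Finsupp.mapDomain r D = 0 → redN A N f = 1 →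
            (∀ P : Place KK (FF N), (p : ℤ) * D P = P.ord (f : FF N)) →
            ∀ Ep Em : Divisor KK (FF N), (∀ P, 0 ≤ Ep P) → (∀ P, 0 ≤ Em P) → Ep - Em = D →
              LocNZ A N r p f Ep Em)
    (h : ModularCurve.ReductionInputsModL A N) (m : ℕ) (hm : ¬ ℓ ∣ m)
    (z : ModularCurve.JZero N) (hmz : m • z = 0) (hz : ModularCurve.reductionModL A N z = 0) :
    z = 0 := by
  refine Step0Lift.s18_of_divStmtUnit' N A (DegZeroFbar.constantsSpecial N hA hℓN) ?_ h m hm z
    hmz hz
  intro r hr hgen p hp hpℓ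
  obtain ⟨C, hC, HL, HLoc⟩ := H r hr hgen
  exact divStmtUnit_of_lift_loc N A hℓN hA r hgen C hC HL p hp hpℓ (HLoc p hp hpℓ)

end Fermat.Agent.S18.Final
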