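import Mathlib
import Fermat.Agent.S24.FFBasic
import Fermat.Agent.S24.FFPlaces
import Fermat.Agent.S24.FFFiber
import Fermat.Agent.S18.FFSep

/-!
# S18 moonshot, leaf (1c''): approximation on an affine chart of a function field

For a function field `F/k` with a separating transcendental element `y` (finite separable over
`k(y)`), the places at which `y` is regular are the primes of the Dedekind domain
`B = integralClosure k[y] F`.  The Chinese remainder theorem gives functions regular on the chart
with prescribed lower bounds for the orders at finitely many places of the chart and exact order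
at one of them (`approx_of_sep`).  Also: the order of a finite product of powers (`ord_prod_pow`).
-/

namespace Fermat.Agent.S18.ChartApprox

open AlgebraicCurve IntermediateField IsDedekindDomain WithZero
open Fermat.Agent.S24 Fermat.Agent.S18.FFSep

variable {k F : Type*} [Field k] [Field F] [Algebra k F]

/-- the order of a finite product of powers -/
theorem ord_prod_pow {ι : Type*} (v : Place k F) (s : Finset ι) (g : ι → F) (m : ι → ℕ)
    (hg : ∀ i ∈ s, g i ≠ 0) :
    v.ord (∏ i ∈ s, g i ^ m i) = ∑ i ∈ s, (m i : ℤ) * v.ord (g i) := by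
  classical
  induction s using Finset.induction_on with
  | empty => simp
  | insert i s hi ih =>
    rw [Finset.prod_insert hi, Finset.sum_insert hi,
      v.ord_mul (pow_ne_zero _ (hg i (Finset.mem_insert_self i s)))
        (Finset.prod_ne_zero_iff.mpr fun j hj =>
          pow_ne_zero _ (hg j (Finset.mem_insert_of_mem hj))),
      ord_pow, ih fun j hj => hg j (Finset.mem_insert_of_mem hj)]

section Dedekind

variable {R : Type*} [CommRing R] [IsDedekindDomain R] [Algebra R F] [IsFractionRing R F]
  [Algebra k R] [IsScalarTower k R F]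

theorem algebraMap_ne_zero {u : R} (hu : u ≠ 0) : algebraMap R F u ≠ 0 := fun h0 =>
  hu ((IsFractionRing.injective R F) (by rw [h0, map_zero]))

/-- membership in a power of a prime in terms of the order -/
theorem mem_pow_iff_le_ord (w : HeightOneSpectrum R) (u : R) (hu : u ≠ 0) (n : ℕ) :
    u ∈ w.asIdeal ^ n ↔
      (n : ℤ) ≤ (Place.ofHeightOneSpectrum (K := k) (F := F) w).ord (algebraMap R F u) := by
  rw [← HeightOneSpectrum.intValuation_le_pow_iff_mem, ord_ofHeightOneSpectrum,
    HeightOneSpectrum.valuation_of_algebraMap]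
  have hval : w.intValuation u ≠ 0 := w.intValuation_ne_zero u hu
  obtain ⟨m, hm⟩ : ∃ m : ℤ, w.intValuation u = WithZero.exp m :=
    ⟨WithZero.log (w.intValuation u), (WithZero.exp_log hval).symm⟩
  rw [hm, WithZero.log_exp, WithZero.exp_le_exp]
  omega

theorem ord_algebraMap_nonneg (w : HeightOneSpectrum R) (u : R) :
    0 ≤ (Place.ofHeightOneSpectrum (K := k) (F := F) w).ord (algebraMap R F u) := by
  rcases eq_or_ne u 0 with rfl | hu
  · rw [map_zero, Place.ord_zero]
  · have := (mem_pow_iff_le_ord (k := k) (F := F) w u hu 0).mp (by simp)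
    simpa using this

/-- **Approximation in a Dedekind domain.** -/
theorem exists_approx_dedekind (E : Place k F →₀ ℤ) (hE : ∀ Q, 0 ≤ E Q)
    (w₀ : HeightOneSpectrum R) :
    ∃ u : R, u ≠ 0 ∧
      (∀ w : HeightOneSpectrum R, E (Place.ofHeightOneSpectrum (K := k) (F := F) w) ≤
        (Place.ofHeightOneSpectrum (K := k) (F := F) w).ord (algebraMap R F u)) ∧
      (Place.ofHeightOneSpectrum (K := k) (F := F) w₀).ord (algebraMap R F u) =
        E (Place.ofHeightOneSpectrum (K := k) (F := F) w₀) := by
  classical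
  set ofH : HeightOneSpectrum R → Place k F := Place.ofHeightOneSpectrum (K := k) (F := F)
    with hofH
  have hinj : Function.Injective ofH := FFFiber.ofHeightOneSpectrum_injective
  have hmem : ∀ (w : HeightOneSpectrum R) (u : R), u ≠ 0 → ∀ n : ℕ,
      u ∈ w.asIdeal ^ n → (n : ℤ) ≤ (ofH w).ord (algebraMap R F u) := fun w u hu n h =>
    (mem_pow_iff_le_ord (k := k) (F := F) w u hu n).mp h
  set s : Finset (HeightOneSpectrum R) := insert w₀ (E.support.preimage ofH hinj.injOn) with hs
  set e₀ : ℕ := (E (ofH w₀)).toNat with he₀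
  have he₀' : (e₀ : ℤ) = E (ofH w₀) := Int.toNat_of_nonneg (hE _)
  obtain ⟨π, hπ⟩ := w₀.intValuation_exists_uniformizer
  have hπ0 : π ≠ 0 := by
    intro h0
    rw [h0, map_zero] at hπ
    exact WithZero.exp_ne_zero.symm hπ
  have hπord : (ofH w₀).ord (algebraMap R F π) = 1 := by
    rw [hofH, ord_ofHeightOneSpectrum, HeightOneSpectrum.valuation_of_algebraMap, hπ,
      WithZero.log_exp]
    norm_num
  have hπe : (ofH w₀).ord (algebraMap R F (π ^ e₀)) = e₀ := by
    rw [map_pow, ord_pow, hπord, mul_one]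
  obtain ⟨u, hu⟩ := IsDedekindDomain.exists_forall_sub_mem_ideal
    (s := s) (fun w : HeightOneSpectrum R => w.asIdeal)
    (fun w => (E (ofH w)).toNat + 1) (fun w _ => w.prime)
    (fun w _ w' _ hww' h => hww' (HeightOneSpectrum.ext h))
    (fun w => if (w : HeightOneSpectrum R) = w₀ then π ^ e₀ else 0)
  have hw₀s : w₀ ∈ s := Finset.mem_insert_self _ _
  -- the order at `w₀`
  have h0 := hu w₀ hw₀s
  simp only [if_true] at h0
  have hord₀ : u ≠ 0 ∧ (ofH w₀).ord (algebraMap R F u) = e₀ := by
    rcases eq_or_ne (u - π ^ e₀) 0 with h1 | h1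
    · have h2 : u = π ^ e₀ := sub_eq_zero.mp h1
      rw [h2]
      exact ⟨pow_ne_zero _ hπ0, hπe⟩
    · have h2 := hmem w₀ (u - π ^ e₀) h1 (e₀ + 1) h0
      rw [Nat.cast_add, Nat.cast_one] at h2
      have h3 : algebraMap R F u = algebraMap R F (π ^ e₀) + algebraMap R F (u - π ^ e₀) := by
        rw [← map_add]
        congr 1
        ring
      have h4 : (ofH w₀).ord (algebraMap R F u) = e₀ := by
        rw [h3, ord_add_eq_of_lt _ (algebraMap_ne_zero (pow_ne_zero _ hπ0))
          (algebraMap_ne_zero h1) (by rw [hπe]; omega), hπe]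
      refine ⟨?_, h4⟩
      intro hu0
      rw [hu0, zero_sub] at h0
      have h5 := hmem w₀ (π ^ e₀) (pow_ne_zero _ hπ0) (e₀ + 1) (by simpa using h0)
      rw [hπe, Nat.cast_add, Nat.cast_one] at h5
      omega
  refine ⟨u, hord₀.1, fun w => ?_, by rw [hord₀.2, he₀']⟩
  by_cases hw0 : w = w₀
  · rw [hw0, hord₀.2, he₀']
  by_cases hws : w ∈ s
  · have h1 := hu w hws
    simp only [if_neg hw0, sub_zero] at h1
    have h2 := hmem w u hord₀.1 _ h1
    have h3 : ((E (ofH w)).toNat : ℤ) = E (ofH w) := Int.toNat_of_nonneg (hE _)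
    rw [Nat.cast_add, Nat.cast_one] at h2
    omega
  · have h1 : E (ofH w) = 0 := by
      by_contra h
      apply hws
      rw [hs, Finset.mem_insert, Finset.mem_preimage, Finsupp.mem_support_iff]
      exact Or.inr h
    rw [h1]
    exact ord_algebraMap_nonneg w u

end Dedekind

section Sep

variable (y : F) [FiniteDimensional k⟮y⟯ F] [Algebra.IsSeparable k⟮y⟯ F]

/-- **Approximation on the chart of a separating element.** -/
theorem approx_of_sep (hy : Transcendental k y) (E : Place k F →₀ ℤ) (hE : ∀ Q, 0 ≤ E Q)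
    (Q₀ : Place k F) (hQ₀ : 0 ≤ Q₀.ord y) :
    ∃ u : F, u ≠ 0 ∧ (∀ Q : Place k F, 0 ≤ Q.ord y → E Q ≤ Q.ord u) ∧ Q₀.ord u = E Q₀ := by
  haveI := isDedekindDomain_B y hy
  haveI := isFractionRing_B (k := k) y
  obtain ⟨w₀, hw₀, -⟩ := exists_eq_ofHeightOneSpectrum_B y hy Q₀ hQ₀
  obtain ⟨u, hu0, hu, hu₀⟩ := exists_approx_dedekind (k := k) (F := F)
    (R := integralClosure (Algebra.adjoin k {y}) F) E hE w₀
  refine ⟨algebraMap _ F u, algebraMap_ne_zero hu0, fun Q hQ => ?_, by rw [hw₀]; exact hu₀⟩
  obtain ⟨w, hw, -⟩ := exists_eq_ofHeightOneSpectrum_B y hy Q hQ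
  rw [hw]
  exact hu w

end Sep

end Fermat.Agent.S18.ChartApprox
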