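import Mathlib
import Fermat.Prelude.Def_ModularCurve_ReductionModL
import Fermat.Agent.S24.FFBasic
import Fermat.Agent.S18.Gauss
import Fermat.Agent.S18.Lattice
import Fermat.Agent.S18.HauptParamFF

/-!
# S18 (leaf (1c) of [H]): local lifting in a chart

Setting of `Lattice`: `A` a valuation ring of `ℚ̄`, `k` its residue field, `F = FF N`,
`Fk = FkN A N`, `O = OO A N` the Gauss ring with residue homomorphism `ρ = redN A N`, and
`r` a place reduction map (`hr : IsPlaceReductionModL A N r`).

A *chart* is a pair of predicates `fin` (on the places of `F`) and `finb` (on the places of `Fk`)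
with `finb (r P) → fin P` (for the `j`-chart: `fin P = (0 ≤ ord_P j)`, `finb Q = (0 ≤ ord_Q j̄)`).
The chart is *normal* (`NormalChart`) if every function of `Fk` which is regular at the `finb`
places is the reduction of an element of `O` regular at the `fin` places; it has the
approximation property (`Approx`) if there are functions of `Fk`, regular on the chart, with
prescribed minimal orders on a finite set and exact order at one point.

`exists_lift_of_vanishing` : in a normal chart, for every effective divisor `E` of `F` supported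
on `r ⁻¹ (finb)`, every `b̄ ≠ 0` regular on the chart with `div b̄ ≥ r_* E` on the chart is the
reduction of some `b ∈ O` regular on the chart with `div b ≥ E` on the chart.

No dimension count and no finiteness over `A` is used: induction on `deg E`, the residue field of
the places of `F` being `ℚ̄`.
-/

set_option autoImplicit false

noncomputable section

namespace Fermat.Agent.S18.LocalLift

open ModularCurve AlgebraicCurve Fermat.Agent.S18.Gauss Fermat.Agent.S18.Lattice
open Fermat.Agent.S24 Fermat.Agent.S24.Eval

/-! ### Push-forward of divisors: fibrewise inequalities -/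

section MapDomain

variable {α β : Type*}

theorem mapDomain_apply_eq_sum [DecidableEq β] (φ : α → β) (E : α →₀ ℤ) (b : β) :
    Finsupp.mapDomain φ E b = ∑ a ∈ E.support, if φ a = b then E a else 0 := by
  rw [Finsupp.mapDomain, Finsupp.sum, Finsupp.finsetSum_apply]
  refine Finset.sum_congr rfl fun a _ => ?_
  rw [Finsupp.single_apply]

/-- non-negativity on a fibre -/
theorem mapDomain_nonneg_of_fibre (φ : α → β) (E : α →₀ ℤ) (b : β)
    (hE : ∀ a, φ a = b → 0 ≤ E a) : 0 ≤ Finsupp.mapDomain φ E b := by
  classical
  rw [mapDomain_apply_eq_sum]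
  refine Finset.sum_nonneg fun a _ => ?_
  split_ifs with h
  · exact hE a h
  · exact le_rfl

/-- if the push-forward of a divisor which is effective on a fibre vanishes at the point, the
divisor vanishes on the fibre -/
theorem eq_zero_of_mapDomain_eq_zero (φ : α → β) (E : α →₀ ℤ) (b : β)
    (hE : ∀ a, φ a = b → 0 ≤ E a) (h0 : Finsupp.mapDomain φ E b = 0) (a : α) (ha : φ a = b) :
    E a = 0 := by
  classical
  rw [mapDomain_apply_eq_sum] at h0
  by_cases hs : a ∈ E.support
  · have h1 := (Finset.sum_eq_zero_iff_of_nonneg (fun a' _ => by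
      split_ifs with h
      · exact hE a' h
      · exact le_rfl)).mp h0 a hs
    rwa [if_pos ha] at h1
  · exact Finsupp.notMem_support_iff.mp hs

theorem mapDomain_le_of_fibre (φ : α → β) (E D : α →₀ ℤ) (b : β)
    (h : ∀ a, φ a = b → E a ≤ D a) : Finsupp.mapDomain φ E b ≤ Finsupp.mapDomain φ D b := by
  have h1 := mapDomain_nonneg_of_fibre φ (D - E) b (fun a ha => by
    rw [Finsupp.sub_apply]
    have := h a ha
    omega)
  rw [Finsupp.mapDomain_sub, Finsupp.sub_apply] at h1
  omega

theorem eq_of_mapDomain_eq (φ : α → β) (E D : α →₀ ℤ) (b : β)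
    (h : ∀ a, φ a = b → E a ≤ D a) (h0 : Finsupp.mapDomain φ E b = Finsupp.mapDomain φ D b)
    (a : α) (ha : φ a = b) : E a = D a := by
  have h1 := eq_zero_of_mapDomain_eq_zero φ (D - E) b (fun a ha => by
    rw [Finsupp.sub_apply]
    have := h a ha
    omega) (by rw [Finsupp.mapDomain_sub, Finsupp.sub_apply, h0, sub_self]) a ha
  rw [Finsupp.sub_apply] at h1
  omega

end MapDomain

/-! ### Charts -/

variable {A : ValuationSubring KK} {N : ℕ} [NeZero N]
variable {r : Place KK (FF N) → Place (IsLocalRing.ResidueField A) (FkN A N)}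

/-- The chart `(fin, finb)` is normal: functions of `Fk` regular on the chart lift to elements of
the Gauss ring regular on the chart. -/
def NormalChart (A : ValuationSubring KK) (N : ℕ) [NeZero N]
    (fin : Place KK (FF N) → Prop)
    (finb : Place (IsLocalRing.ResidueField A) (FkN A N) → Prop) : Prop :=
  ∀ b : FkN A N, (∀ Q, finb Q → 0 ≤ Q.ord b) →
    ∃ f : OO A N, redN A N f = b ∧ ∀ P, fin P → 0 ≤ P.ord (f : FF N)

/-- Approximation on the chart `finb` of `Fk`. -/
def Approx (A : ValuationSubring KK) (N : ℕ) [NeZero N]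
    (finb : Place (IsLocalRing.ResidueField A) (FkN A N) → Prop) : Prop :=
  ∀ (E : Place (IsLocalRing.ResidueField A) (FkN A N) →₀ ℤ), (∀ Q, 0 ≤ E Q) →
    ∀ Q₀, finb Q₀ →
      ∃ u : FkN A N, u ≠ 0 ∧ (∀ Q, finb Q → E Q ≤ Q.ord u) ∧ Q₀.ord u = E Q₀

section Lift

variable (fin : Place KK (FF N) → Prop)
  (finb : Place (IsLocalRing.ResidueField A) (FkN A N) → Prop)

/-- the element `c` of `A` as an element of the Gauss ring -/
def cO (c : A) : OO A N := ⟨algebraMap KK (FF N) (c : KK), algebraMap_mem_gaussRing c⟩

theorem redN_cO (c : A) :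
    redN A N (cO c) = algebraMap (IsLocalRing.ResidueField A) (FkN A N) (IsLocalRing.residue A c) :=
  red_algebraMap c

theorem coe_cO (c : A) : ((cO (N := N) c : OO A N) : FF N) = algebraMap KK (FF N) (c : KK) := rfl

/-- **Local lifting with prescribed zeros**, by induction on the degree. -/
theorem exists_lift_of_vanishing_aux (hr : IsPlaceReductionModL A N r)
    (hfin : ∀ P, finb (r P) → fin P) (hN : NormalChart A N fin finb) (hap : Approx A N finb) :
    ∀ (d : ℕ) (E : Place KK (FF N) →₀ ℤ), (∀ P, 0 ≤ E P) → (∀ P, E P ≠ 0 → finb (r P)) →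
      (E.sum fun _ n => n) = d →
      ∀ b : FkN A N, b ≠ 0 → (∀ Q, finb Q → Finsupp.mapDomain r E Q ≤ Q.ord b) →
        ∃ f : OO A N, redN A N f = b ∧ ∀ P, fin P → E P ≤ P.ord (f : FF N) := by
  classical
  intro d
  induction d with
  | zero =>
    intro E hE0 _ hsum b hb0 hb
    -- `E = 0`
    have hEz : E = 0 := by
      ext P
      by_contra hP
      have hPs : P ∈ E.support := Finsupp.mem_support_iff.mpr hP
      have h1 : E P ≤ E.sum fun _ n => n := by
        rw [Finsupp.sum]
        exact Finset.single_le_sum (f := fun a => E a) (fun a _ => hE0 a) hPs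
      have h2 := hE0 P
      rw [hsum] at h1
      rw [Finsupp.zero_apply] at hP
      have : E P = 0 := by
        have h3 : E P ≤ 0 := by exact_mod_cast h1
        omega
      exact hP this
    subst hEz
    obtain ⟨f, hf, hfP⟩ := hN b (fun Q hQ => by
      have := hb Q hQ
      rwa [Finsupp.mapDomain_zero, Finsupp.zero_apply] at this)
    exact ⟨f, hf, fun P hP => by rw [Finsupp.zero_apply]; exact hfP P hP⟩
  | succ d ih =>
    intro E hE0 hEs hsum b hb0 hb
    -- a point of the support
    have hEne : E ≠ 0 := by
      rintro rfl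
      rw [Finsupp.sum_zero_index] at hsum
      exact absurd hsum (by push_cast; omega)
    obtain ⟨P₀, hP₀⟩ : ∃ P₀, E P₀ ≠ 0 := by
      by_contra hcon
      push Not at hcon
      exact hEne (Finsupp.ext hcon)
    have hP₀pos : 1 ≤ E P₀ := by
      have := hE0 P₀
      omega
    set Q₀ := r P₀ with hQ₀
    have hQ₀fin : finb Q₀ := hEs P₀ hP₀
    have hP₀fin : fin P₀ := hfin P₀ hQ₀fin
    -- the smaller divisor
    set E₁ : Place KK (FF N) →₀ ℤ := E - Finsupp.single P₀ 1 with hE₁
    have hE₁app : ∀ P, E₁ P = E P - if P₀ = P then 1 else 0 := by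
      intro P
      rw [hE₁, Finsupp.sub_apply, Finsupp.single_apply]
    have hE₁0 : ∀ P, 0 ≤ E₁ P := by
      intro P
      rw [hE₁app]
      split_ifs with h
      · subst h
        omega
      · have := hE0 P
        omega
    have hE₁le : ∀ P, E₁ P ≤ E P := by
      intro P
      rw [hE₁app]
      split_ifs <;> omega
    have hE₁s : ∀ P, E₁ P ≠ 0 → finb (r P) := by
      intro P hP
      by_cases h : P₀ = P
      · subst h
        exact hQ₀fin
      · apply hEs
        rw [hE₁app, if_neg h, sub_zero] at hP
        exact hP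
    have hE₁sum : (E₁.sum fun _ n => n) = d := by
      have h1 : (E₁.sum fun _ n => n) = (E.sum fun _ n => n) -
          ((Finsupp.single P₀ (1 : ℤ)).sum fun _ n => n) := by
        rw [hE₁]
        exact Finsupp.sum_sub_index (fun _ _ _ => rfl)
      rw [h1, hsum, Finsupp.sum_single_index rfl]
      push_cast
      ring
    have hmapE : ∀ Q, Finsupp.mapDomain r E Q =
        Finsupp.mapDomain r E₁ Q + if Q₀ = Q then 1 else 0 := by
      intro Q
      have h1 : E = E₁ + Finsupp.single P₀ 1 := by rw [hE₁, sub_add_cancel]
      conv_lhs => rw [h1]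
      rw [Finsupp.mapDomain_add, Finsupp.add_apply, Finsupp.mapDomain_single,
        Finsupp.single_apply]
    -- lift `b` with the zeros `E₁`
    obtain ⟨f, hf, hfP⟩ := ih E₁ hE₁0 hE₁s hE₁sum b hb0 (fun Q hQ => by
      have h1 := hb Q hQ
      rw [hmapE] at h1
      split_ifs at h1 <;> omega)
    -- the comparison function `u`
    obtain ⟨ub, hub0, hubQ, hubQ₀⟩ := hap (Finsupp.mapDomain r E₁)
      (fun Q => Lattice.mapDomain_nonneg r hE₁0 Q) Q₀ hQ₀fin
    obtain ⟨u, hu, huP⟩ := ih E₁ hE₁0 hE₁s hE₁sum ub hub0 hubQ
    have hfne : redN A N f ≠ 0 := by rw [hf]; exact hb0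
    have hune : redN A N u ≠ 0 := by rw [hu]; exact hub0
    have hf0 : (f : FF N) ≠ 0 := by
      intro h0
      apply hfne
      have : f = 0 := Subtype.ext h0
      rw [this, map_zero]
    have hu0 : (u : FF N) ≠ 0 := by
      intro h0
      apply hune
      have : u = 0 := Subtype.ext h0
      rw [this, map_zero]
    -- `ord_{P₀} u = E₁ P₀`
    have huP₀ : P₀.ord (u : FF N) = E₁ P₀ := by
      have h1 := mapDomain_dv_red hr u hune Q₀
      rw [hu, hubQ₀] at h1
      have h2 := eq_of_mapDomain_eq r E₁ (dv N (u : FF N)) Q₀ (fun P hP => by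
        rw [dv_apply]
        exact huP P (hfin P (by rw [hP]; exact hQ₀fin))) h1.symm P₀ rfl
      rw [dv_apply] at h2
      exact h2.symm
    -- the residue `lam` of `f / u` at `P₀`
    have hfu : 0 ≤ P₀.ord ((f : FF N) / (u : FF N)) := by
      rw [ord_div P₀ hf0 hu0, huP₀]
      have := hfP P₀ hP₀fin
      omega
    obtain ⟨lam, hlam⟩ := HauptParamFF.H1_FF N P₀ _ hfu
    -- `b' = f - lam u` vanishes to the order `E` on the chart
    have hb' : (f : FF N) - algebraMap KK (FF N) lam * (u : FF N) ≠ 0 →
        ∀ P, fin P → E P ≤ P.ord ((f : FF N) - algebraMap KK (FF N) lam * (u : FF N)) := by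
      intro hne P hP
      have hlam0 : lam = 0 ∨ lam ≠ 0 := eq_or_ne lam 0
      by_cases hPP : P₀ = P
      · subst hPP
        rcases hlam with h | h
        · exfalso
          apply hne
          rw [← h]
          field_simp
          ring
        · have h1 : (f : FF N) - algebraMap KK (FF N) lam * (u : FF N) =
              ((f : FF N) / (u : FF N) - algebraMap KK (FF N) lam) * (u : FF N) := by
            field_simp
          have h2 : (f : FF N) / (u : FF N) - algebraMap KK (FF N) lam ≠ 0 := by
            intro h0
            rw [h0, P₀.ord_zero] at h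
            exact lt_irrefl _ h
          rw [h1, P₀.ord_mul h2 hu0, huP₀]
          have := hE₁app P₀
          rw [if_pos rfl] at this
          omega
      · have hEP : E P = E₁ P := by
          rw [hE₁app, if_neg hPP, sub_zero]
        rw [hEP]
        rcases hlam0 with h0 | h0
        · rw [h0, map_zero, zero_mul, sub_zero]
          exact hfP P hP
        · have hl : algebraMap KK (FF N) lam ≠ 0 := fun h =>
            h0 ((map_eq_zero (algebraMap KK (FF N))).mp h)
          have h1 : -(algebraMap KK (FF N) lam * (u : FF N)) ≠ 0 :=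
            neg_ne_zero.mpr (mul_ne_zero hl hu0)
          have h2 := le_ord_add P hf0 h1 (by rwa [← sub_eq_add_neg])
          rw [← sub_eq_add_neg, ord_neg, P.ord_mul hl hu0, ord_algebraMap, zero_add] at h2
          have h3 := hfP P hP
          have h4 := huP P hP
          have := le_min h3 h4
          omega
    -- `lam` is in the maximal ideal of `A`
    have hlamA : ∃ c : A, (c : KK) = lam ∧ IsLocalRing.residue A c = 0 := by
      by_contra hcon
      -- then `lam⁻¹ ∈ A`
      have hlam0 : lam ≠ 0 := by
        rintro rfl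
        exact hcon ⟨0, rfl, map_zero _⟩
      have hinv : lam⁻¹ ∈ A := by
        rcases A.mem_or_inv_mem lam with h | h
        · have hunit : IsUnit (⟨lam, h⟩ : A) := by
            by_contra hnu
            exact hcon ⟨⟨lam, h⟩, rfl, (IsLocalRing.residue_eq_zero_iff _).mpr hnu⟩
          obtain ⟨w, hw⟩ := isUnit_iff_exists_inv.mp hunit
          have h1 : lam * (w : KK) = 1 := by
            have := congrArg Subtype.val hw
            simpa using this
          have h2 : lam⁻¹ = (w : KK) := by
            rw [inv_eq_iff_eq_inv]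
            exact eq_inv_of_mul_eq_one_left h1
          rw [h2]
          exact w.2
        · exact h
      set mu : A := ⟨lam⁻¹, hinv⟩ with hmu
      set h : OO A N := cO mu * f - u with hh
      have hhcoe : (h : FF N) = algebraMap KK (FF N) lam⁻¹ *
          ((f : FF N) - algebraMap KK (FF N) lam * (u : FF N)) := by
        have h1 : (h : FF N) = algebraMap KK (FF N) lam⁻¹ * (f : FF N) - (u : FF N) := rfl
        rw [h1, mul_sub, ← mul_assoc, ← map_mul, inv_mul_cancel₀ hlam0, map_one, one_mul]
      have hhred : redN A N h = algebraMap (IsLocalRing.ResidueField A) (FkN A N)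
          (IsLocalRing.residue A mu) * b - ub := by
        rw [hh, map_sub, map_mul, redN_cO, hf, hu]
      -- the order of `ρ h` at `Q₀`
      have hhord : redN A N h ≠ 0 ∧ Q₀.ord (redN A N h) = Finsupp.mapDomain r E₁ Q₀ := by
        rw [hhred]
        by_cases hres : IsLocalRing.residue A mu = 0
        · rw [hres, map_zero, zero_mul, zero_sub]
          refine ⟨neg_ne_zero.mpr hub0, ?_⟩
          rw [ord_neg, hubQ₀]
        · have hc : algebraMap (IsLocalRing.ResidueField A) (FkN A N)
              (IsLocalRing.residue A mu) ≠ 0 := fun h0 =>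
            hres ((map_eq_zero (algebraMap (IsLocalRing.ResidueField A) (FkN A N))).mp h0)
          have h1 : Q₀.ord (-ub) < Q₀.ord (algebraMap (IsLocalRing.ResidueField A) (FkN A N)
              (IsLocalRing.residue A mu) * b) := by
            rw [ord_neg, hubQ₀, Q₀.ord_mul hc hb0, ord_algebraMap, zero_add]
            have := hb Q₀ hQ₀fin
            rw [hmapE, if_pos rfl] at this
            omega
          have h2 := ord_add_eq_of_lt Q₀ (neg_ne_zero.mpr hub0) (mul_ne_zero hc hb0) h1
          rw [add_comm, ← sub_eq_add_neg] at h2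
          rw [h2, ord_neg, hubQ₀]
          refine ⟨?_, rfl⟩
          intro h0
          rw [h0, Q₀.ord_zero] at h2
          -- `0 = ord (-ub)`, but then `ord (c b) > ord (- ub)` and the sum is zero
          have h3 : algebraMap (IsLocalRing.ResidueField A) (FkN A N)
              (IsLocalRing.residue A mu) * b = ub := by
            linear_combination h0
          rw [h3, ord_neg] at h1
          exact lt_irrefl _ h1
      have hh0 : (h : FF N) ≠ 0 := by
        intro h0
        apply hhord.1
        have : h = 0 := Subtype.ext h0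
        rw [this, map_zero]
      have hb'0 : (f : FF N) - algebraMap KK (FF N) lam * (u : FF N) ≠ 0 := by
        intro h0
        apply hh0
        rw [hhcoe, h0, mul_zero]
      have hli : algebraMap KK (FF N) lam⁻¹ ≠ 0 := fun h0 =>
        (inv_ne_zero hlam0) ((map_eq_zero (algebraMap KK (FF N))).mp h0)
      have hhP : ∀ P, fin P → E P ≤ P.ord (h : FF N) := by
        intro P hP
        rw [hhcoe, P.ord_mul hli hb'0, ord_algebraMap, zero_add]
        exact hb' hb'0 P hP
      have h1 := mapDomain_dv_red hr h hhord.1 Q₀
      have h2 := mapDomain_le_of_fibre r E (dv N (h : FF N)) Q₀ (fun P hP => by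
        rw [dv_apply]
        exact hhP P (hfin P (by rw [hP]; exact hQ₀fin)))
      rw [h1, hhord.2, hmapE, if_pos rfl] at h2
      omega
    obtain ⟨c, hc, hcres⟩ := hlamA
    refine ⟨f - cO c * u, ?_, ?_⟩
    · rw [map_sub, map_mul, redN_cO, hcres, map_zero, zero_mul, sub_zero, hf]
    · have hcoe : ((f - cO c * u : OO A N) : FF N) =
          (f : FF N) - algebraMap KK (FF N) lam * (u : FF N) := by
        rw [← hc]
        rfl
      have hne : ((f - cO c * u : OO A N) : FF N) ≠ 0 := by
        intro h0
        have h1 : f - cO c * u = 0 := Subtype.ext h0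
        have h2 := congrArg (redN A N) h1
        rw [map_sub, map_mul, redN_cO, hcres, map_zero, zero_mul, sub_zero, hf, map_zero] at h2
        exact hb0 h2
      intro P hP
      rw [hcoe] at hne ⊢
      exact hb' hne P hP

/-- **Local lifting with prescribed zeros** (leaf (1c)). -/
theorem exists_lift_of_vanishing (hr : IsPlaceReductionModL A N r)
    (hfin : ∀ P, finb (r P) → fin P) (hN : NormalChart A N fin finb) (hap : Approx A N finb)
    (E : Place KK (FF N) →₀ ℤ) (hE0 : ∀ P, 0 ≤ E P) (hEs : ∀ P, E P ≠ 0 → finb (r P))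
    (b : FkN A N) (hb0 : b ≠ 0) (hb : ∀ Q, finb Q → Finsupp.mapDomain r E Q ≤ Q.ord b) :
    ∃ f : OO A N, redN A N f = b ∧ ∀ P, fin P → E P ≤ P.ord (f : FF N) :=
  exists_lift_of_vanishing_aux fin finb hr hfin hN hap _ E hE0 hEs
    (Int.toNat_of_nonneg (Finsupp.sum_nonneg (fun P _ => hE0 P))).symm b hb0 hb

end Lift

end Fermat.Agent.S18.LocalLift
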