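import Mathlib
import Fermat.Prelude.Def_ModularCurve_ReductionModL
import Fermat.Agent.S24.FFBasic
import Fermat.Agent.S24.FFFiber
import Fermat.Agent.S18.Gauss
import Fermat.Agent.S18.Lattice
import Fermat.Agent.S18.LocalLift
import Fermat.Agent.S18.FbarSep
import Fermat.Agent.S18.DecMod
import Fermat.Agent.S18.Charts

/-!
# S18 moonshot, leaf (1c'): the reduction map on the fibres of a function

Let `x` be an element of the Gauss ring `OO A N` with reduction `x̄ = redN x`, such that `x` and
`x̄` are separating transcendental elements of the same degree `n` (`FibreData`).  From the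
divisor compatibility `r_* div f = div (red f)` of the place reduction `r` and the fundamental
identity on both sides we prove that `r` is compatible with the maps `x` and `x̄` to the
projective line:

* `zeros_map`: a zero of `x - a` (`a ∈ A`) maps to a zero of `x̄ - ā`;
* `poles_map`: a pole of `x` maps to a pole of `x̄`;
* `nonint_map`: a place at which `x` takes a value outside `A` maps to a pole of `x̄`;
* `exists_int`: at a place mapping to a finite place of `x̄`, the value of `x` lies in `A`.

The data are instantiated for `x = j` (`fibreData_j`) and `x = 1/j` (`fibreData_jinv`) at every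
level prime to `ℓ`.
-/

namespace Fermat.Agent.S18.RedFibre

open ModularCurve AlgebraicCurve IntermediateField
open Fermat.Agent.S18.Gauss Fermat.Agent.S18.Lattice
open Fermat.Agent.S24 Fermat.Agent.S24.Eval Fermat.Agent.S18.LocalLift

/-! ### The counting lemma -/

section Count

variable {α β : Type*}

/-- **Counting**: if the positive part of `D` has degree at most `n` and the positive part of
`g = φ_* D` has degree at least `n`, then `φ` maps the zeros of `D` to zeros of `g`. -/
theorem pos_of_count (φ : α → β) (D : α →₀ ℤ) (g : β → ℤ)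
    (hg : ∀ b, Finsupp.mapDomain φ D b = g b) (n : ℤ)
    (hD : ∀ S : Finset α, (∀ a ∈ S, 0 < D a) → ∑ a ∈ S, D a ≤ n)
    (T : Finset β) (hT : ∀ b ∈ T, 0 < g b) (hTn : n ≤ ∑ b ∈ T, g b)
    (a : α) (ha : 0 < D a) : 0 < g (φ a) := by
  classical
  set S : Finset α := D.support.filter (fun a => 0 < D a) with hS
  have hSmem : ∀ a, a ∈ S ↔ 0 < D a := fun a => by
    rw [hS, Finset.mem_filter, Finsupp.mem_support_iff]
    exact ⟨fun h => h.2, fun h => ⟨h.ne', h⟩⟩
  set Dp : α →₀ ℤ := Finsupp.onFinset D.support (fun a => max (D a) 0) (fun a h => by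
      rw [Finsupp.mem_support_iff]
      intro h0
      apply h
      rw [h0]
      rfl) with hDp
  have hDp_apply : ∀ a, Dp a = max (D a) 0 := fun a => rfl
  have h1 : ∀ b, g b ≤ Finsupp.mapDomain φ Dp b := fun b => by
    rw [← hg b]
    exact mapDomain_le_of_fibre φ D Dp b (fun a _ => by
      rw [hDp_apply]
      exact le_max_left _ _)
  have h3 : Dp.support = S := by
    ext a
    rw [Finsupp.mem_support_iff, hSmem, hDp_apply]
    constructor
    · intro h
      by_contra h'
      exact h (max_eq_right (not_lt.mp h'))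
    · intro h h'
      rw [max_eq_left h.le] at h'
      omega
  have h2 : ∑ b ∈ T, Finsupp.mapDomain φ Dp b = ∑ a ∈ S, if φ a ∈ T then Dp a else 0 := by
    simp_rw [mapDomain_apply_eq_sum]
    rw [Finset.sum_comm, h3]
    refine Finset.sum_congr rfl fun a _ => ?_
    rw [Finset.sum_ite_eq]
  have h4 : ∑ a ∈ S, Dp a ≤ n := by
    have := hD S (fun a ha => (hSmem a).mp ha)
    calc ∑ a ∈ S, Dp a = ∑ a ∈ S, D a := Finset.sum_congr rfl (fun a ha => by
          rw [hDp_apply]
          exact max_eq_left ((hSmem a).mp ha).le)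
      _ ≤ n := this
  have h5 : ∑ a ∈ S, Dp a ≤ ∑ a ∈ S, if φ a ∈ T then Dp a else 0 := by
    rw [← h2]
    calc ∑ a ∈ S, Dp a ≤ n := h4
      _ ≤ ∑ b ∈ T, g b := hTn
      _ ≤ ∑ b ∈ T, Finsupp.mapDomain φ Dp b := Finset.sum_le_sum (fun b _ => h1 b)
  have h6 : ∀ a ∈ S, (if φ a ∈ T then Dp a else 0) ≤ Dp a := by
    intro a _
    split_ifs
    · exact le_rfl
    · rw [hDp_apply]
      exact le_max_right _ _
  have h7 : ∀ a ∈ S, (if φ a ∈ T then Dp a else 0) = Dp a :=
    (Finset.sum_eq_sum_iff_of_le h6).mp (le_antisymm (Finset.sum_le_sum h6) h5)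
  have haS : a ∈ S := (hSmem a).mpr ha
  have h8 := h7 a haS
  by_cases hT' : φ a ∈ T
  · exact hT _ hT'
  · rw [if_neg hT', hDp_apply, max_eq_left ha.le] at h8
    omega

/-- If the push-forward vanishes at a point and the divisor has a zero on the fibre, it has a pole
on the fibre. -/
theorem exists_neg_of_mapDomain_eq_zero (φ : α → β) (D : α →₀ ℤ) (b : β)
    (h0 : Finsupp.mapDomain φ D b = 0) (a : α) (hab : φ a = b) (ha : 0 < D a) :
    ∃ a', φ a' = b ∧ D a' < 0 := by
  by_contra hcon
  push Not at hcon
  have := eq_zero_of_mapDomain_eq_zero φ D b hcon h0 a hab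
  omega

end Count

/-! ### Fibre data -/

variable {A : ValuationSubring KK} {N : ℕ} [NeZero N]
variable {r : Place KK (FF N) → Place (IsLocalRing.ResidueField A) (FkN A N)}

/-- The numerical data of a function `x` of the Gauss ring used in the comparison of the fibres:
`x - a` has at most `n` zeros, `x` has at most `n` poles, and `x̄ - ā`, `x̄` have (at least) `n`
zeros, resp. poles (all counted with multiplicity); moreover `x̄` is not constant and the value of
`x` at every place is a constant. -/
structure FibreData (x : OO A N) (n : ℤ) : Prop where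
  sub_ne : ∀ a : IsLocalRing.ResidueField A,
    redN A N x - algebraMap (IsLocalRing.ResidueField A) (FkN A N) a ≠ 0
  zeros_le : ∀ (a : KK) (S : Finset (Place KK (FF N))),
    (∀ P ∈ S, 0 < P.ord ((x : FF N) - algebraMap KK (FF N) a)) →
      ∑ P ∈ S, P.ord ((x : FF N) - algebraMap KK (FF N) a) ≤ n
  poles_le : ∀ S : Finset (Place KK (FF N)), (∀ P ∈ S, P.ord (x : FF N) < 0) →
      ∑ P ∈ S, - P.ord (x : FF N) ≤ n
  zeros_b : ∀ a : IsLocalRing.ResidueField A,
    ∃ T : Finset (Place (IsLocalRing.ResidueField A) (FkN A N)),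
      (∀ Q ∈ T, 0 < Q.ord (redN A N x - algebraMap (IsLocalRing.ResidueField A) (FkN A N) a)) ∧
        n ≤ ∑ Q ∈ T, Q.ord (redN A N x - algebraMap (IsLocalRing.ResidueField A) (FkN A N) a)
  poles_b : ∃ T : Finset (Place (IsLocalRing.ResidueField A) (FkN A N)),
      (∀ Q ∈ T, Q.ord (redN A N x) < 0) ∧ n ≤ ∑ Q ∈ T, - Q.ord (redN A N x)
  res : ∀ P : Place KK (FF N), 0 ≤ P.ord (x : FF N) →
    ∃ c : KK, 0 < P.ord ((x : FF N) - algebraMap KK (FF N) c)

theorem FibreData.ne_zero {x : OO A N} {n : ℤ} (h : FibreData x n) : redN A N x ≠ 0 := by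
  have := h.sub_ne 0
  rwa [map_zero, sub_zero] at this

/-- Fibre data from the field-theoretic hypotheses: `x` and `x̄` transcendental, the function
fields finite over `KK(x)`, resp. finite separable over `k(x̄)`, of the same degree. -/
theorem FibreData.of_sep (x : OO A N) (hx : Transcendental KK (x : FF N))
    [FiniteDimensional KK⟮(x : FF N)⟯ (FF N)]
    (hxb : Transcendental (IsLocalRing.ResidueField A) (redN A N x))
    [FiniteDimensional (IsLocalRing.ResidueField A)⟮redN A N x⟯ (FkN A N)]
    [Algebra.IsSeparable (IsLocalRing.ResidueField A)⟮redN A N x⟯ (FkN A N)]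
    (hdeg : Module.finrank (IsLocalRing.ResidueField A)⟮redN A N x⟯ (FkN A N) =
      Module.finrank KK⟮(x : FF N)⟯ (FF N)) :
    FibreData x (Module.finrank KK⟮(x : FF N)⟯ (FF N) : ℤ) where
  sub_ne := fun a h0 => by
    apply hxb
    rw [sub_eq_zero] at h0
    rw [h0]
    exact isAlgebraic_algebraMap a
  zeros_le := fun a S hS => S24.sum_ord_le_finrank (x : FF N) hx a S hS
  poles_le := fun S hS => by
    have := finiteDimensional_adjoin (x : FF N) hx (x : FF N)⁻¹
      (FFFiber.transcendental_inv (x : FF N) hx)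
    have h := S24.sum_ord_le_finrank (x : FF N)⁻¹ (FFFiber.transcendental_inv (x : FF N) hx) 0 S
      (fun P hP => by
        show 0 < P.ord ((x : FF N)⁻¹ - algebraMap KK (FF N) 0)
        rw [map_zero, sub_zero, P.ord_inv]
        have := hS P hP
        omega)
    rw [FFFiber.finrank_eq_of_eq (FFFiber.adjoin_inv_eq (k := KK) (x : FF N))] at h
    refine le_trans (le_of_eq ?_) h
    refine Finset.sum_congr rfl fun P _ => ?_
    rw [map_zero, sub_zero, P.ord_inv]
  zeros_b := fun a => by
    obtain ⟨T, hT, hsum⟩ := FFSepFiber.exists_finset_placesOver (redN A N x) hxb a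
    refine ⟨T, fun Q hQ => ?_, ?_⟩
    · have : Q ∈ (↑T : Set _) := hQ
      rw [hT] at this
      exact this
    · rw [hsum, hdeg]
  poles_b := by
    have := FFSep.finiteDimensional_inv (k := IsLocalRing.ResidueField A) (redN A N x)
    have := FFSep.isSeparable_inv (k := IsLocalRing.ResidueField A) (redN A N x)
    obtain ⟨T, hT, hsum⟩ := FFSepFiber.exists_finset_placesOver (redN A N x)⁻¹
      (FFFiber.transcendental_inv (redN A N x) hxb) 0
    refine ⟨T, fun Q hQ => ?_, ?_⟩
    · have : Q ∈ (↑T : Set _) := hQ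
      rw [hT] at this
      have h1 : 0 < Q.ord ((redN A N x)⁻¹ -
          algebraMap (IsLocalRing.ResidueField A) (FkN A N) 0) := this
      rw [map_zero, sub_zero, Q.ord_inv] at h1
      omega
    · rw [FFFiber.finrank_eq_of_eq (FFFiber.adjoin_inv_eq (k := IsLocalRing.ResidueField A)
        (redN A N x))] at hsum
      rw [← hdeg, ← hsum]
      refine le_of_eq (Finset.sum_congr rfl fun Q _ => ?_)
      rw [map_zero, sub_zero, Q.ord_inv]
  res := fun P hP => by
    obtain ⟨c, hc | hc⟩ := S24.exists_sub_algebraMap_ord_pos (x : FF N) hx P hP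
    · exfalso
      apply hx
      rw [hc]
      exact isAlgebraic_algebraMap c
    · exact ⟨c, hc⟩

/-! ### The reduction map on the fibres -/

section Maps

variable {x : OO A N} {n : ℤ}

/-- **Zeros map to zeros**: if `x - a` vanishes at `P` (`a ∈ A`), then `x̄ - ā` vanishes at
`r P`. -/
theorem zeros_map (hr : IsPlaceReductionModL A N r) (hx : FibreData x n) (a : A)
    (P : Place KK (FF N)) (hP : 0 < P.ord ((x : FF N) - algebraMap KK (FF N) (a : KK))) :
    0 < (r P).ord (redN A N x -
      algebraMap (IsLocalRing.ResidueField A) (FkN A N) (IsLocalRing.residue A a)) := by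
  set y : OO A N := x - cO a with hy
  have hyc : (y : FF N) = (x : FF N) - algebraMap KK (FF N) (a : KK) := rfl
  have hyr : redN A N y = redN A N x -
      algebraMap (IsLocalRing.ResidueField A) (FkN A N) (IsLocalRing.residue A a) := by
    rw [hy, map_sub, redN_cO]
  have hy0 : redN A N y ≠ 0 := by
    rw [hyr]
    exact hx.sub_ne _
  obtain ⟨T, hT, hTn⟩ := hx.zeros_b (IsLocalRing.residue A a)
  rw [← hyr] at hT hTn ⊢
  refine pos_of_count r (dv N (y : FF N)) (fun Q => Q.ord (redN A N y))
    (fun Q => mapDomain_dv_red hr y hy0 Q) n (fun S hS => ?_) T hT hTn P ?_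
  · simp only [dv_apply, hyc] at hS ⊢
    exact hx.zeros_le (a : KK) S hS
  · rw [dv_apply, hyc]
    exact hP

/-- **Poles map to poles.** -/
theorem poles_map (hr : IsPlaceReductionModL A N r) (hx : FibreData x n)
    (P : Place KK (FF N)) (hP : P.ord (x : FF N) < 0) : (r P).ord (redN A N x) < 0 := by
  obtain ⟨T, hT, hTn⟩ := hx.poles_b
  have h := pos_of_count r (- dv N (x : FF N)) (fun Q => - Q.ord (redN A N x))
    (fun Q => by
      have h1 : Finsupp.mapDomain r (- dv N (x : FF N)) = - Finsupp.mapDomain r (dv N (x : FF N)) :=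
        map_neg (Finsupp.mapDomain.addMonoidHom r) _
      rw [h1, Finsupp.neg_apply, mapDomain_dv_red hr x hx.ne_zero Q]) n
    (fun S hS => by
      simp only [Finsupp.neg_apply, dv_apply] at hS ⊢
      exact hx.poles_le S (fun P hP => by
        have := hS P hP
        omega))
    T (fun Q hQ => by
      have := hT Q hQ
      show 0 < - Q.ord (redN A N x)
      omega) hTn P (by
      rw [Finsupp.neg_apply, dv_apply]
      omega)
  have h' : 0 < - (r P).ord (redN A N x) := h
  omega

/-- **Non-integral values map to poles**: if the value `c` of `x` at `P` is not in `A`, then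
`r P` is a pole of `x̄`. -/
theorem nonint_map (hr : IsPlaceReductionModL A N r) (hx : FibreData x n) {c : KK} (hc : c ∉ A)
    (P : Place KK (FF N)) (hP : 0 < P.ord ((x : FF N) - algebraMap KK (FF N) c)) :
    (r P).ord (redN A N x) < 0 := by
  obtain ⟨d, hd, hdn⟩ := inv_mem_nonunits_of_not_mem hc
  have hc0 : c ≠ 0 := fun h0 => hc (h0 ▸ A.zero_mem)
  have hd0 : (d : KK) ≠ 0 := by
    rw [hd]
    exact inv_ne_zero hc0
  have hdr : IsLocalRing.residue A d = 0 := (IsLocalRing.residue_eq_zero_iff d).mpr hdn
  -- `y = 1 - d x`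
  set y : OO A N := 1 - cO d * x with hy
  have hyc : (y : FF N) = - algebraMap KK (FF N) (d : KK) *
      ((x : FF N) - algebraMap KK (FF N) c) := by
    have h1 : (y : FF N) = 1 - algebraMap KK (FF N) (d : KK) * (x : FF N) := rfl
    rw [h1, neg_mul, mul_sub, ← map_mul, hd, inv_mul_cancel₀ hc0, map_one]
    ring
  have hyr : redN A N y = 1 := by
    rw [hy, map_sub, map_mul, map_one, redN_cO, hdr, map_zero, zero_mul, sub_zero]
  have hdF : - algebraMap KK (FF N) (d : KK) ≠ 0 := by
    rw [neg_ne_zero]
    intro h0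
    exact hd0 ((algebraMap KK (FF N)).injective (by rw [h0, map_zero]))
  have hordy : ∀ P' : Place KK (FF N), (x : FF N) - algebraMap KK (FF N) c ≠ 0 →
      P'.ord (y : FF N) = P'.ord ((x : FF N) - algebraMap KK (FF N) c) := by
    intro P' hne
    rw [hyc, P'.ord_mul hdF hne, ord_neg, ord_algebraMap, zero_add]
  have hne : (x : FF N) - algebraMap KK (FF N) c ≠ 0 := by
    intro h0
    rw [h0, P.ord_zero] at hP
    exact lt_irrefl _ hP
  have h0 : Finsupp.mapDomain r (dv N (y : FF N)) (r P) = 0 := by
    rw [mapDomain_dv_red hr y (by rw [hyr]; exact one_ne_zero), hyr, Place.ord_one]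
  obtain ⟨P', hP', hneg⟩ := exists_neg_of_mapDomain_eq_zero r (dv N (y : FF N)) (r P) h0 P rfl
    (by rw [dv_apply, hordy P hne]; exact hP)
  rw [dv_apply, hordy P' hne] at hneg
  -- `P'` is a pole of `x`
  have hpole : P'.ord (x : FF N) < 0 := by
    by_contra hcon
    push Not at hcon
    have hx0 : (x : FF N) ≠ 0 := by
      intro h0
      apply hx.ne_zero
      have : x = 0 := Subtype.ext h0
      rw [this, map_zero]
    have hcF : - algebraMap KK (FF N) c ≠ 0 := by
      rw [neg_ne_zero]
      intro h0
      exact hc0 ((algebraMap KK (FF N)).injective (by rw [h0, map_zero]))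
    have h1 := le_ord_add P' hx0 hcF (by rwa [← sub_eq_add_neg])
    rw [ord_neg, ord_algebraMap, ← sub_eq_add_neg] at h1
    have := le_min hcon (le_refl (0 : ℤ))
    omega
  rw [← hP']
  exact poles_map hr hx P' hpole

/-- **Integrality of the values**: at a place mapping to a finite place of `x̄`, the function `x`
is regular with value in `A`. -/
theorem exists_int (hr : IsPlaceReductionModL A N r) (hx : FibreData x n)
    (P : Place KK (FF N)) (hP : 0 ≤ (r P).ord (redN A N x)) :
    ∃ a : A, 0 < P.ord ((x : FF N) - algebraMap KK (FF N) (a : KK)) := by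
  have h1 : 0 ≤ P.ord (x : FF N) := by
    by_contra hcon
    push Not at hcon
    have := poles_map hr hx P hcon
    omega
  obtain ⟨c, hc⟩ := hx.res P h1
  by_cases hcA : c ∈ A
  · exact ⟨⟨c, hcA⟩, hc⟩
  · have := nonint_map hr hx hcA P hc
    omega

/-- Regularity transfers: a place mapping to a finite place of `x̄` is a finite place of `x`. -/
theorem ord_nonneg_of_red (hr : IsPlaceReductionModL A N r) (hx : FibreData x n)
    (P : Place KK (FF N)) (hP : 0 ≤ (r P).ord (redN A N x)) : 0 ≤ P.ord (x : FF N) := by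
  by_contra hcon
  push Not at hcon
  have := poles_map hr hx P hcon
  omega

end Maps

/-! ### The instances `x = j` and `x = 1/j` -/

section Instances

variable (A N)

theorem jF_mem_OO : jF N ∈ OO A N := by
  have h := inc_mem_gaussRing (F := modularFunctionFieldBar N) (Fk := FkN A N)
    (DecMod.isInt_J (A := A) N)
  have e : (⟨inc A (jqNModC A 1), (DecMod.isInt_J (A := A) N).1⟩ : FF N) = jF N :=
    Subtype.ext (DecMod.inc_J N).symm
  rwa [e] at h

/-- `j` as an element of the Gauss ring. -/
noncomputable def jO : OO A N := ⟨jF N, jF_mem_OO A N⟩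

theorem coe_jO : ((jO A N : OO A N) : FF N) = jF N := rfl

theorem redN_jO : redN A N (jO A N) = Charts.jb A N := by
  apply Subtype.ext
  rw [jO, Charts.redN_eq_rd A N (jF_mem_OO A N) (y := jqNModC A 1) (DecMod.inc_J N).symm,
    DecMod.rd_J]
  rfl

theorem jb_ne_zero : Charts.jb A N ≠ 0 := by
  intro h0
  apply DegEq.transcendental_jk (IsLocalRing.ResidueField A) N
  rw [show DegEq.jk (IsLocalRing.ResidueField A) N = 0 from h0]
  exact isAlgebraic_zero

theorem jF_inv_mem_OO : (jF N)⁻¹ ∈ OO A N :=
  inv_mem_of_red_ne_zero (f := jO A N) (by rw [redN_jO]; exact jb_ne_zero A N)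

/-- `1/j` as an element of the Gauss ring. -/
noncomputable def jinvO : OO A N := ⟨(jF N)⁻¹, jF_inv_mem_OO A N⟩

theorem coe_jinvO : ((jinvO A N : OO A N) : FF N) = (jF N)⁻¹ := rfl

theorem jF_ne_zero : jF N ≠ 0 := by
  intro h0
  apply Degree.transcendental_jF N
  rw [h0]
  exact isAlgebraic_zero

theorem redN_jinvO : redN A N (jinvO A N) = (Charts.jb A N)⁻¹ := by
  have h1 : jO A N * jinvO A N = 1 := Subtype.ext (mul_inv_cancel₀ (jF_ne_zero N))
  have h2 := congrArg (redN A N) h1
  rw [map_mul, map_one, redN_jO] at h2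
  exact eq_inv_of_mul_eq_one_right h2

variable {A N} {ℓ : ℕ} [Fact ℓ.Prime]

/-- The fibre data of `j`. -/
theorem fibreData_j (hA : A.LiesOverPrime ℓ) (hℓN : ¬ ℓ ∣ N) :
    FibreData (jO A N) (dedekindPsi N : ℤ) := by
  have h0 : FiniteDimensional KK⟮((jO A N : OO A N) : FF N)⟯ (FF N) :=
    Degree.finiteDimensional_jF N
  have h1 : FiniteDimensional (IsLocalRing.ResidueField A)⟮redN A N (jO A N)⟯ (FkN A N) := by
    rw [redN_jO]
    exact DegEq.finiteDimensional_residue (A := A) N
  have h2 : Algebra.IsSeparable (IsLocalRing.ResidueField A)⟮redN A N (jO A N)⟯ (FkN A N) := by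
    rw [redN_jO]
    exact FbarSep.isSeparable_residue (A := A) N
  have h3 := FibreData.of_sep (jO A N) (Degree.transcendental_jF N)
    (by rw [redN_jO]; exact DegEq.transcendental_jk _ N)
    (by rw [redN_jO]; exact DegEq.finrank_residue_eq N hA hℓN)
  rwa [show Module.finrank KK⟮((jO A N : OO A N) : FF N)⟯ (FF N) = dedekindPsi N from
    DegEq.finrank_jF_eq N] at h3

/-- The fibre data of `1/j`. -/
theorem fibreData_jinv (hA : A.LiesOverPrime ℓ) (hℓN : ¬ ℓ ∣ N) :
    FibreData (jinvO A N) (dedekindPsi N : ℤ) := by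
  have := Degree.finiteDimensional_jF N
  have := DegEq.finiteDimensional_residue (A := A) N
  have := FbarSep.isSeparable_residue (A := A) N
  have h0 : FiniteDimensional KK⟮((jinvO A N : OO A N) : FF N)⟯ (FF N) :=
    finiteDimensional_adjoin (jF N) (Degree.transcendental_jF N) (jF N)⁻¹
      (FFFiber.transcendental_inv (jF N) (Degree.transcendental_jF N))
  have h1 : FiniteDimensional (IsLocalRing.ResidueField A)⟮redN A N (jinvO A N)⟯ (FkN A N) := by
    rw [redN_jinvO]
    exact FFSep.finiteDimensional_inv (k := IsLocalRing.ResidueField A) (Charts.jb A N)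
  have h2 : Algebra.IsSeparable (IsLocalRing.ResidueField A)⟮redN A N (jinvO A N)⟯ (FkN A N) := by
    rw [redN_jinvO]
    exact FFSep.isSeparable_inv (k := IsLocalRing.ResidueField A) (Charts.jb A N)
  have h3 := FibreData.of_sep (jinvO A N)
    (FFFiber.transcendental_inv (jF N) (Degree.transcendental_jF N))
    (by rw [redN_jinvO]
        exact FFFiber.transcendental_inv _ (DegEq.transcendental_jk _ N))
    (by rw [redN_jinvO, coe_jinvO,
          FFFiber.finrank_eq_of_eq (FFFiber.adjoin_inv_eq (k := IsLocalRing.ResidueField A)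
            (Charts.jb A N)),
          FFFiber.finrank_eq_of_eq (FFFiber.adjoin_inv_eq (k := KK) (jF N))]
        exact DegEq.finrank_residue_eq N hA hℓN)
  rwa [show Module.finrank KK⟮((jinvO A N : OO A N) : FF N)⟯ (FF N) = dedekindPsi N from by
    rw [coe_jinvO, FFFiber.finrank_eq_of_eq (FFFiber.adjoin_inv_eq (k := KK) (jF N))]
    exact DegEq.finrank_jF_eq N] at h3

end Instances

end Fermat.Agent.S18.RedFibre
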