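import Mathlib
import Fermat.Prelude.Def_ModularCurve_ReductionModL
import Fermat.Agent.S18.LocalLift
import Fermat.Agent.S18.RedFibre
import Fermat.Agent.S18.ChartApprox
import Fermat.Agent.S18.RegInt
import Fermat.Agent.S18.Charts

/-!
# S18 moonshot, leaf (1c) of [H]: lifting on the two charts with prescribed poles

For a function `x` of the Gauss ring with fibre data (`RedFibre.FibreData`) whose chart
`{x ≠ ∞}` is normal (`LocalLift.NormalChart`) and has approximation (`LocalLift.Approx`), every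
function `b` of the reduced function field with `div b ≥ - r_* D` on the chart `{x̄ ≠ ∞}`
(`D ≥ 0`) lifts to a function `f` of the Gauss ring with `div f ≥ - D` on the chart `{x ≠ ∞}`
(`lift_chart`).  Instances: `x = j` under `(N)_N`, chart 1 (`lift_chart1`), and `x = 1/j` under
`(N)_N`, chart 2 (`lift_chart2`).
-/

namespace Fermat.Agent.S18.ChartLift

open ModularCurve AlgebraicCurve IntermediateField
open Fermat.Agent.S18.Gauss Fermat.Agent.S18.Lattice
open Fermat.Agent.S24 Fermat.Agent.S24.Eval Fermat.Agent.S18.LocalLift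
open Fermat.Agent.S18.RedFibre Fermat.Agent.S18.ChartApprox

variable {A : ValuationSubring KK} {N : ℕ} [NeZero N]
variable {r : Place KK (FF N) → Place (IsLocalRing.ResidueField A) (FkN A N)}

/-- the order of a difference of regular functions is non-negative -/
theorem ord_sub_nonneg {k F : Type*} [Field k] [Field F] [Algebra k F] (P : Place k F) {f g : F}
    (hf : 0 ≤ P.ord f) (hg : 0 ≤ P.ord g) : 0 ≤ P.ord (f - g) :=
  ord_nonneg_of_mem P (sub_mem (RegInt.mem_of_ord_nonneg₀ P f hf)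
    (RegInt.mem_of_ord_nonneg₀ P g hg))

theorem ord_add_nonneg {k F : Type*} [Field k] [Field F] [Algebra k F] (P : Place k F) {f g : F}
    (hf : 0 ≤ P.ord f) (hg : 0 ≤ P.ord g) : 0 ≤ P.ord (f + g) :=
  ord_nonneg_of_mem P (add_mem (RegInt.mem_of_ord_nonneg₀ P f hf)
    (RegInt.mem_of_ord_nonneg₀ P g hg))

/-- the push-forward at a point only depends on the divisor on the fibre -/
theorem mapDomain_congr_fibre {α β : Type*} (φ : α → β) (E D : α →₀ ℤ) (b : β)
    (h : ∀ a, φ a = b → E a = D a) : Finsupp.mapDomain φ E b = Finsupp.mapDomain φ D b :=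
  le_antisymm (mapDomain_le_of_fibre φ E D b fun a ha => (h a ha).le)
    (mapDomain_le_of_fibre φ D E b fun a ha => (h a ha).ge)

set_option maxHeartbeats 1000000 in
/-- **Lifting with prescribed poles on a chart.** -/
theorem lift_chart (hr : IsPlaceReductionModL A N r) {x : OO A N} {n : ℤ} (hx : FibreData x n)
    (hN : NormalChart A N (fun P => 0 ≤ P.ord (x : FF N)) (fun Q => 0 ≤ Q.ord (redN A N x)))
    (hap : Approx A N (fun Q => 0 ≤ Q.ord (redN A N x)))
    (D : Place KK (FF N) →₀ ℤ) (hD : ∀ P, 0 ≤ D P) (b : FkN A N)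
    (hb : ∀ Q : Place (IsLocalRing.ResidueField A) (FkN A N), 0 ≤ Q.ord (redN A N x) →
      b = 0 ∨ -(Finsupp.mapDomain r D Q) ≤ Q.ord b) :
    ∃ f : OO A N, redN A N f = b ∧
      ∀ P : Place KK (FF N), 0 ≤ P.ord (x : FF N) →
        (f : FF N) = 0 ∨ -(D P) ≤ P.ord (f : FF N) := by
  classical
  rcases eq_or_ne b 0 with rfl | hb0
  · exact ⟨0, map_zero _, fun P _ => Or.inl rfl⟩
  set s : Finset (Place KK (FF N)) :=
    D.support.filter (fun P => 0 ≤ (r P).ord (redN A N x)) with hs
  have ha : ∀ P : Place KK (FF N), ∃ a : A, 0 ≤ (r P).ord (redN A N x) →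
      0 < P.ord ((x : FF N) - algebraMap KK (FF N) (a : KK)) := by
    intro P
    by_cases h : 0 ≤ (r P).ord (redN A N x)
    · obtain ⟨a, ha⟩ := exists_int hr hx P h
      exact ⟨a, fun _ => ha⟩
    · exact ⟨0, fun h' => absurd h' h⟩
  choose a ha using ha
  -- the factors
  have hgr : ∀ P, redN A N (x - cO (a P)) ≠ 0 := fun P => by
    rw [map_sub, redN_cO]
    exact hx.sub_ne _
  have hg0 : ∀ P, (x : FF N) - algebraMap KK (FF N) ((a P : A) : KK) ≠ 0 := fun P h0 =>
    hgr P (by
      have : x - cO (a P) = 0 := Subtype.ext h0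
      rw [this, map_zero])
  set G : OO A N := ∏ P ∈ s, (x - cO (a P)) ^ (D P).toNat with hG
  have hGr : redN A N G ≠ 0 := by
    rw [hG, map_prod]
    exact Finset.prod_ne_zero_iff.mpr (fun P _ => by
      rw [map_pow]
      exact pow_ne_zero _ (hgr P))
  have hGcoe : ((G : OO A N) : FF N) =
      ∏ P ∈ s, ((x : FF N) - algebraMap KK (FF N) ((a P : A) : KK)) ^ (D P).toNat := by
    rw [hG]
    exact map_prod (OO A N).subtype _ _
  have hG0 : ((G : OO A N) : FF N) ≠ 0 := fun h0 => hGr (by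
    have : G = 0 := Subtype.ext h0
    rw [this, map_zero])
  have hGord : ∀ P' : Place KK (FF N), P'.ord ((G : OO A N) : FF N) =
      ∑ P ∈ s, ((D P).toNat : ℤ) *
        P'.ord ((x : FF N) - algebraMap KK (FF N) ((a P : A) : KK)) := fun P' => by
    rw [hGcoe]
    exact ord_prod_pow P' s _ _ (fun P _ => hg0 P)
  -- orders of the factors
  have hfac_nonneg : ∀ P P' : Place KK (FF N), 0 ≤ P'.ord (x : FF N) →
      0 ≤ P'.ord ((x : FF N) - algebraMap KK (FF N) ((a P : A) : KK)) := fun P P' h =>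
    ord_sub_nonneg P' h (by rw [ord_algebraMap])
  have hfac_zero : ∀ P P' : Place KK (FF N), 0 ≤ P'.ord (x : FF N) →
      ¬ 0 ≤ (r P').ord (redN A N x) →
      P'.ord ((x : FF N) - algebraMap KK (FF N) ((a P : A) : KK)) = 0 := by
    intro P P' h hn
    refine le_antisymm ?_ (hfac_nonneg P P' h)
    by_contra hcon
    push Not at hcon
    have h1 := zeros_map hr hx (a P) P' hcon
    apply hn
    have h2 := ord_add_nonneg (r P') h1.le
      (show 0 ≤ (r P').ord (algebraMap (IsLocalRing.ResidueField A) (FkN A N)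
        (IsLocalRing.residue A (a P))) by rw [ord_algebraMap])
    rwa [sub_add_cancel] at h2
  have hDnat : ∀ P, ((D P).toNat : ℤ) = D P := fun P => Int.toNat_of_nonneg (hD P)
  have hGord_nonneg : ∀ P' : Place KK (FF N), 0 ≤ P'.ord (x : FF N) →
      0 ≤ P'.ord ((G : OO A N) : FF N) := fun P' h => by
    rw [hGord]
    exact Finset.sum_nonneg fun P _ => mul_nonneg (Int.natCast_nonneg _) (hfac_nonneg P P' h)
  have hGord_zero : ∀ P' : Place KK (FF N), 0 ≤ P'.ord (x : FF N) →
      ¬ 0 ≤ (r P').ord (redN A N x) → P'.ord ((G : OO A N) : FF N) = 0 := fun P' h hn => by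
    rw [hGord]
    exact Finset.sum_eq_zero fun P _ => by rw [hfac_zero P P' h hn, mul_zero]
  have hGord_ge : ∀ P' : Place KK (FF N), 0 ≤ (r P').ord (redN A N x) →
      D P' ≤ P'.ord ((G : OO A N) : FF N) := fun P' h => by
    have hfin : 0 ≤ P'.ord (x : FF N) := ord_nonneg_of_red hr hx P' h
    by_cases hP's : P' ∈ s
    · rw [hGord]
      have h1 := Finset.single_le_sum (f := fun P => ((D P).toNat : ℤ) *
        P'.ord ((x : FF N) - algebraMap KK (FF N) ((a P : A) : KK)))
        (fun P _ => mul_nonneg (Int.natCast_nonneg _) (hfac_nonneg P P' hfin)) hP's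
      refine le_trans ?_ h1
      have h2 := ha P' h
      show D P' ≤ ((D P').toNat : ℤ) *
        P'.ord ((x : FF N) - algebraMap KK (FF N) ((a P' : A) : KK))
      rw [hDnat]
      nlinarith [hD P']
    · have h1 : D P' = 0 := by
        by_contra hne
        apply hP's
        rw [hs, Finset.mem_filter, Finsupp.mem_support_iff]
        exact ⟨hne, h⟩
      rw [h1]
      exact hGord_nonneg P' hfin
  -- the divisor `E`
  set E : Place KK (FF N) →₀ ℤ :=
    Finsupp.filter (fun P => 0 ≤ (r P).ord (redN A N x)) (dv N ((G : OO A N) : FF N) - D) with hE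
  have hE_pos : ∀ P, 0 ≤ (r P).ord (redN A N x) → E P = P.ord ((G : OO A N) : FF N) - D P :=
    fun P h => by
      rw [hE, Finsupp.filter_apply]
      simp only [h, if_true, Finsupp.sub_apply, dv_apply]
  have hE_neg : ∀ P, ¬ 0 ≤ (r P).ord (redN A N x) → E P = 0 := fun P h => by
    rw [hE, Finsupp.filter_apply]
    simp only [h, if_false]
  have hE0 : ∀ P, 0 ≤ E P := fun P => by
    by_cases h : 0 ≤ (r P).ord (redN A N x)
    · rw [hE_pos P h]
      have := hGord_ge P h
      omega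
    · rw [hE_neg P h]
  have hEs : ∀ P, E P ≠ 0 → 0 ≤ (r P).ord (redN A N x) := fun P hne => by
    by_contra h
    exact hne (hE_neg P h)
  have hEmap : ∀ Q : Place (IsLocalRing.ResidueField A) (FkN A N), 0 ≤ Q.ord (redN A N x) →
      Finsupp.mapDomain r E Q = Q.ord (redN A N G) - Finsupp.mapDomain r D Q := fun Q hQ => by
    rw [mapDomain_congr_fibre r E (dv N ((G : OO A N) : FF N) - D) Q (fun P hP => by
      rw [hE_pos P (by rw [hP]; exact hQ), Finsupp.sub_apply, dv_apply]),
      Finsupp.mapDomain_sub, Finsupp.sub_apply, mapDomain_dv_red hr G hGr Q]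
  -- the function to lift
  have hb' : ∀ Q : Place (IsLocalRing.ResidueField A) (FkN A N), 0 ≤ Q.ord (redN A N x) →
      Finsupp.mapDomain r E Q ≤ Q.ord (redN A N G * b) := fun Q hQ => by
    rw [hEmap Q hQ, Q.ord_mul hGr hb0]
    have := (hb Q hQ).resolve_left hb0
    omega
  obtain ⟨f₁, hf₁, hf₁ord⟩ := exists_lift_of_vanishing
    (fun P => 0 ≤ P.ord (x : FF N)) (fun Q => 0 ≤ Q.ord (redN A N x)) hr
    (fun P hP => ord_nonneg_of_red hr hx P hP) hN hap E hE0 hEs (redN A N G * b)
    (mul_ne_zero hGr hb0) hb'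
  -- divide by `G`
  set Ginv : OO A N := ⟨((G : OO A N) : FF N)⁻¹, inv_mem_of_red_ne_zero hGr⟩ with hGinv
  have hGG : G * Ginv = 1 := Subtype.ext (mul_inv_cancel₀ hG0)
  have hGinvr : redN A N G * redN A N Ginv = 1 := by
    rw [← map_mul, hGG, map_one]
  have hf₁0 : ((f₁ : OO A N) : FF N) ≠ 0 := fun h0 => (mul_ne_zero hGr hb0) (by
    have : f₁ = 0 := Subtype.ext h0
    rw [← hf₁, this, map_zero])
  refine ⟨f₁ * Ginv, ?_, fun P hP => Or.inr ?_⟩
  · rw [map_mul, hf₁, mul_comm (redN A N G) b, mul_assoc, hGinvr, mul_one]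
  · have h1 : ((f₁ * Ginv : OO A N) : FF N) = (f₁ : FF N) * ((G : OO A N) : FF N)⁻¹ := rfl
    rw [h1, P.ord_mul hf₁0 (inv_ne_zero hG0), P.ord_inv]
    have h2 := hf₁ord P hP
    by_cases h : 0 ≤ (r P).ord (redN A N x)
    · rw [hE_pos P h] at h2
      omega
    · rw [hE_neg P h] at h2
      rw [hGord_zero P hP h]
      have := hD P
      omega

/-! ### Normality and approximation on the two charts -/

section Charts

open Fermat.Agent.S18.Charts

variable (A N)

/-- `(N)_N` for chart 1 gives the normality of the chart `{j ≠ ∞}`. -/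
theorem normalChart1 (hN1 : NormalStmt1 A N) :
    NormalChart A N (fun P => 0 ≤ P.ord ((jO A N : OO A N) : FF N))
      (fun Q => 0 ≤ Q.ord (redN A N (jO A N))) := by
  intro b hb
  have hb1 : b ∈ B1b A N := by
    rw [RegInt.mem_B1b_iff]
    intro Q hQ
    exact hb Q (by rw [redN_jO]; exact hQ)
  rw [← hN1, R1, mem_redImage] at hb1
  obtain ⟨f, hf, hfb⟩ := hb1
  refine ⟨f, hfb, fun P hP => ?_⟩
  exact (RegInt.mem_regAt_iff N (jF N) (f : FF N)).mp ((mem_O1 A N).mp hf).2 P hP

/-- `(N)_N` for chart 2 gives the normality of the chart `{j ≠ 0}`. -/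
theorem normalChart2 (hN2 : NormalStmt2 A N) :
    NormalChart A N (fun P => 0 ≤ P.ord ((jinvO A N : OO A N) : FF N))
      (fun Q => 0 ≤ Q.ord (redN A N (jinvO A N))) := by
  intro b hb
  have hb1 : b ∈ B2b A N := by
    rw [RegInt.mem_B2b_iff]
    intro Q hQ
    exact hb Q (by rw [redN_jinvO]; exact hQ)
  rw [← hN2, R2, mem_redImage] at hb1
  obtain ⟨f, hf, hfb⟩ := hb1
  refine ⟨f, hfb, fun P hP => ?_⟩
  exact (RegInt.mem_regAt_iff N (jF N)⁻¹ (f : FF N)).mp ((mem_O2 A N).mp hf).2 P hP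

/-- approximation on chart 1 of the reduced function field -/
theorem approx1 : Approx A N (fun Q => 0 ≤ Q.ord (redN A N (jO A N))) := by
  intro E hE Q₀ hQ₀
  have := DegEq.finiteDimensional_residue (A := A) N
  have := FbarSep.isSeparable_residue (A := A) N
  rw [redN_jO] at hQ₀
  obtain ⟨u, hu0, hu, hu₀⟩ := approx_of_sep (jb A N) (DegEq.transcendental_jk _ N) E hE Q₀ hQ₀
  exact ⟨u, hu0, fun Q hQ => hu Q (by rw [← redN_jO]; exact hQ), hu₀⟩

/-- approximation on chart 2 of the reduced function field -/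
theorem approx2 : Approx A N (fun Q => 0 ≤ Q.ord (redN A N (jinvO A N))) := by
  intro E hE Q₀ hQ₀
  have := DegEq.finiteDimensional_residue (A := A) N
  have := FbarSep.isSeparable_residue (A := A) N
  have := FFSep.finiteDimensional_inv (k := IsLocalRing.ResidueField A) (jb A N)
  have := FFSep.isSeparable_inv (k := IsLocalRing.ResidueField A) (jb A N)
  rw [redN_jinvO] at hQ₀
  obtain ⟨u, hu0, hu, hu₀⟩ := approx_of_sep (jb A N)⁻¹
    (FFFiber.transcendental_inv _ (DegEq.transcendental_jk _ N)) E hE Q₀ hQ₀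
  exact ⟨u, hu0, fun Q hQ => hu Q (by rw [← redN_jinvO]; exact hQ), hu₀⟩

variable {A N} {ℓ : ℕ} [Fact ℓ.Prime]

/-- **Lifting on chart 1**: a function of the reduced function field with poles bounded by
`r_* D` at the places where `j̄` is regular lifts to a function of the Gauss ring with poles
bounded by `D` at the places where `j` is regular. -/
theorem lift_chart1 (hr : IsPlaceReductionModL A N r) (hA : A.LiesOverPrime ℓ) (hℓN : ¬ ℓ ∣ N)
    (hN1 : NormalStmt1 A N) (D : Place KK (FF N) →₀ ℤ) (hD : ∀ P, 0 ≤ D P) (b : FkN A N)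
    (hb : ∀ Q : Place (IsLocalRing.ResidueField A) (FkN A N), 0 ≤ Q.ord (jb A N) →
      b = 0 ∨ -(Finsupp.mapDomain r D Q) ≤ Q.ord b) :
    ∃ f : OO A N, redN A N f = b ∧
      ∀ P : Place KK (FF N), 0 ≤ P.ord (jF N) →
        (f : FF N) = 0 ∨ -(D P) ≤ P.ord (f : FF N) :=
  lift_chart hr (fibreData_j hA hℓN) (normalChart1 A N hN1) (approx1 A N) D hD b
    (fun Q hQ => hb Q (by rw [← redN_jO]; exact hQ))

/-- **Lifting on chart 2**: the same at the places where `1/j̄`, resp. `1/j`, is regular. -/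
theorem lift_chart2 (hr : IsPlaceReductionModL A N r) (hA : A.LiesOverPrime ℓ) (hℓN : ¬ ℓ ∣ N)
    (hN2 : NormalStmt2 A N) (D : Place KK (FF N) →₀ ℤ) (hD : ∀ P, 0 ≤ D P) (b : FkN A N)
    (hb : ∀ Q : Place (IsLocalRing.ResidueField A) (FkN A N), Q.ord (jb A N) ≤ 0 →
      b = 0 ∨ -(Finsupp.mapDomain r D Q) ≤ Q.ord b) :
    ∃ f : OO A N, redN A N f = b ∧
      ∀ P : Place KK (FF N), P.ord (jF N) ≤ 0 →
        (f : FF N) = 0 ∨ -(D P) ≤ P.ord (f : FF N) := by
  obtain ⟨f, hf, hford⟩ := lift_chart hr (fibreData_jinv hA hℓN) (normalChart2 A N hN2)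
    (approx2 A N) D hD b (fun Q hQ => hb Q (by
      rw [redN_jinvO, Q.ord_inv] at hQ
      omega))
  refine ⟨f, hf, fun P hP => hford P ?_⟩
  rw [coe_jinvO, P.ord_inv]
  omega

/-- places of chart 1 map to places of chart 1: if `j̄` is regular at `r P`, then `j` is regular
at `P` -/
theorem chart1_of_red (hr : IsPlaceReductionModL A N r) (hA : A.LiesOverPrime ℓ)
    (hℓN : ¬ ℓ ∣ N) (P : Place KK (FF N)) (hP : 0 ≤ (r P).ord (jb A N)) : 0 ≤ P.ord (jF N) :=
  ord_nonneg_of_red hr (fibreData_j hA hℓN) P (by rw [redN_jO]; exact hP)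

/-- poles of `j` map to poles of `j̄` -/
theorem pole_of_pole (hr : IsPlaceReductionModL A N r) (hA : A.LiesOverPrime ℓ)
    (hℓN : ¬ ℓ ∣ N) (P : Place KK (FF N)) (hP : P.ord (jF N) < 0) : (r P).ord (jb A N) < 0 := by
  have := poles_map hr (fibreData_j hA hℓN) P hP
  rwa [redN_jO] at this

/-- zeros of `j` map to zeros of `j̄` -/
theorem zero_of_zero (hr : IsPlaceReductionModL A N r) (hA : A.LiesOverPrime ℓ)
    (hℓN : ¬ ℓ ∣ N) (P : Place KK (FF N)) (hP : 0 < P.ord (jF N)) : 0 < (r P).ord (jb A N) := by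
  have := zeros_map hr (fibreData_j hA hℓN) 0 P (by
    rw [ZeroMemClass.coe_zero, map_zero, sub_zero]
    exact hP)
  rwa [map_zero, map_zero, sub_zero, redN_jO] at this

end Charts

end Fermat.Agent.S18.ChartLift
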