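import Mathlib

/-!
# S18, leaf [H]: the abstract core of the lifting theorem

Pure linear algebra.  `V` is a `k`-vector space (the reduced function field), `O` an additive
group (the Gauss ring) with an additive map `red : O → V`, scalars from a ring `A` with
`π : A → k` onto, and an operator "multiplication by `j`" on both sides.  `Lb a b ⊆ V` and
`Lam a b ⊆ O` are two families indexed by `(a, b) ∈ ℤ × ℤ` (in the application
`Lb a b = L̄(Ḡ + a Z̄ + b C̄)`, `Lam a b = L(G + a Z₀ + b C) ∩ O`).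

`Core.exists_lift` : there is `b₀` such that for all `b ≥ b₀` every element of `Lb 0 b` is the
reduction of an element of `Lam 0 b`.
-/

set_option autoImplicit false

namespace Fermat.Agent.S18.LiftCore

/-- The data and hypotheses of the lifting argument. -/
structure Core (A k V O : Type*) [CommRing A] [Field k] [AddCommGroup V] [Module k V]
    [AddCommGroup O] where
  /-- the residue map -/
  π : A → k
  π_surj : Function.Surjective π
  /-- the reduction -/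
  red : O →+ V
  /-- multiplication by a constant of `A` -/
  smulA : A → O → O
  red_smulA : ∀ c f, red (smulA c f) = π c • red f
  /-- multiplication by `j` -/
  mulJ : O → O
  /-- multiplication by `j̄` -/
  jb : V → V
  /-- multiplication by `1/j̄` -/
  jbInv : V → V
  jb_jbInv : ∀ v, jb (jbInv v) = v
  jb_add : ∀ v w, jb (v + w) = jb v + jb w
  red_mulJ : ∀ f, red (mulJ f) = jb (red f)
  /-- the spaces `L̄(Ḡ + a Z̄ + b C̄)` -/
  Lb : ℤ → ℤ → Submodule k V
  /-- the lattices `L(G + a Z₀ + b C) ∩ O` -/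
  Lam : ℤ → ℤ → AddSubgroup O
  Lam_smul : ∀ a b c f, f ∈ Lam a b → smulA c f ∈ Lam a b
  Lb_mono : ∀ {a a' b b' : ℤ}, a ≤ a' → b ≤ b' → Lb a b ≤ Lb a' b'
  Lam_mono : ∀ {a a' b b' : ℤ}, a ≤ a' → b ≤ b' → Lam a b ≤ Lam a' b'
  Lb_inf : ∀ {a a' : ℤ}, a ≤ a' → Lb a 1 ⊓ Lb a' 0 ≤ Lb a 0
  jbInv_mem : ∀ a b v, v ∈ Lb (a - 1) (b + 1) → jbInv v ∈ Lb a b
  jb_mem : ∀ a b v, v ∈ Lb a (b - 1) → jb v ∈ Lb (a - 1) b
  mulJ_mem : ∀ a b f, f ∈ Lam a b → mulJ f ∈ Lam (a - 1) (b + 1)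
  /-- the bound for the dimension of `Lb a 1 / Lb a 0` -/
  bound : ℕ
  dep : ∀ (a : ℤ) (v : Fin (bound + 1) → V), (∀ i, v i ∈ Lb a 1) →
    ∃ c : Fin (bound + 1) → k, c ≠ 0 ∧ ∑ i, c i • v i ∈ Lb a 0
  fg : ∀ b, (Lb 0 b).FG
  lift2 : ∀ a : ℤ, 0 ≤ a → ∀ v ∈ Lb a 1, ∃ (f : O) (a' : ℤ), red f = v ∧ f ∈ Lam a' 1
  lift1 : ∀ b : ℤ, ∀ v ∈ Lb 0 b, ∃ (f : O) (b' : ℤ), red f = v ∧ f ∈ Lam 0 b'

namespace Core

variable {A k V O : Type*} [CommRing A] [Field k] [AddCommGroup V] [Module k V]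
  [AddCommGroup O] (X : Core A k V O)

/-- Lifting along a finite spanning family. -/
theorem lift_span {ι : Type*} (v : ι → V) (f : ι → O) (hf : ∀ i, X.red (f i) = v i)
    (a b : ℤ) (hmem : ∀ i, f i ∈ X.Lam a b) (x : V)
    (hx : x ∈ Submodule.span k (Set.range v)) : ∃ g ∈ X.Lam a b, X.red g = x := by
  induction hx using Submodule.span_induction with
  | mem x hx =>
    obtain ⟨i, rfl⟩ := hx
    exact ⟨f i, hmem i, hf i⟩
  | zero => exact ⟨0, (X.Lam a b).zero_mem, map_zero _⟩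
  | add x y _ _ hx hy =>
    obtain ⟨g, hg, rfl⟩ := hx
    obtain ⟨g', hg', rfl⟩ := hy
    exact ⟨g + g', (X.Lam a b).add_mem hg hg', map_add _ _ _⟩
  | smul c x _ hx =>
    obtain ⟨g, hg, rfl⟩ := hx
    obtain ⟨c', rfl⟩ := X.π_surj c
    exact ⟨X.smulA c' g, X.Lam_smul a b c' g hg, X.red_smulA c' g⟩

/-- The property `P(a, b)`: `Lb a b ⊆ red (Lam a b) + Lb a (b - 1)`. -/
def P (a b : ℤ) : Prop :=
  ∀ v ∈ X.Lb a b, ∃ f ∈ X.Lam a b, ∃ v' ∈ X.Lb a (b - 1), v = X.red f + v'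

/-- Step 2: multiplication by `j`. -/
theorem P_shift {a b : ℤ} (h : X.P a b) : X.P (a - 1) (b + 1) := by
  intro v hv
  obtain ⟨f, hf, v', hv', e⟩ := h (X.jbInv v) (X.jbInv_mem a b v hv)
  refine ⟨X.mulJ f, X.mulJ_mem a b f hf, X.jb v', ?_, ?_⟩
  · have := X.jb_mem a b v' hv'
    rwa [show b + 1 - 1 = b by ring]
  · rw [X.red_mulJ, ← X.jb_add, ← e, X.jb_jbInv]

theorem P_shift_nat {a : ℤ} (h : X.P a 1) (n : ℕ) : X.P (a - n) (1 + n) := by
  induction n with
  | zero => simpa using h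
  | succ n ih =>
    have := X.P_shift ih
    have e1 : a - (n : ℤ) - 1 = a - ((n + 1 : ℕ) : ℤ) := by push_cast; ring
    have e2 : (1 : ℤ) + n + 1 = 1 + ((n + 1 : ℕ) : ℤ) := by push_cast; ring
    rwa [e1, e2] at this

/-- Independence of a finite family of `Lb a 1` modulo `Lb a 0`. -/
def Indep (a : ℤ) {s : ℕ} (w : Fin s → V) : Prop :=
  (∀ i, w i ∈ X.Lb a 1) ∧ ∀ c : Fin s → k, ∑ i, c i • w i ∈ X.Lb a 0 → c = 0

/-- An independent family has at most `bound` members. -/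
theorem Indep.le_bound {a : ℤ} {s : ℕ} {w : Fin s → V} (h : X.Indep a w) : s ≤ X.bound := by
  classical
  by_contra hcon
  push Not at hcon
  have hle : X.bound + 1 ≤ s := hcon
  obtain ⟨c, hc0, hc⟩ := X.dep a (fun i => w (Fin.castLE hle i)) fun i => h.1 _
  -- extend `c` by zero
  let c' : Fin s → k := fun i => if hi : (i : ℕ) < X.bound + 1 then c ⟨i, hi⟩ else 0
  have hsum : ∑ i, c' i • w i = ∑ i, c i • w (Fin.castLE hle i) := by
    have h1 : ∑ i, c' i • w i =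
        ∑ i ∈ Finset.univ.map (Fin.castLEEmb hle), c' i • w i := by
      symm
      apply Finset.sum_subset (Finset.subset_univ _)
      intro i _ hi
      have : ¬ (i : ℕ) < X.bound + 1 := by
        intro hlt
        apply hi
        rw [Finset.mem_map]
        exact ⟨⟨i, hlt⟩, Finset.mem_univ _, Fin.ext rfl⟩
      simp only [c', this, dif_neg, not_false_eq_true, zero_smul]
    rw [h1, Finset.sum_map]
    refine Finset.sum_congr rfl fun i _ => ?_
    have hi : ((Fin.castLEEmb hle) i : ℕ) < X.bound + 1 := i.2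
    simp only [c']
    rw [dif_pos hi]
    rfl
  have h0 := h.2 c' (by rw [hsum]; exact hc)
  apply hc0
  funext i
  have := congrFun h0 (Fin.castLE hle i)
  simp only [c', Pi.zero_apply] at this
  rw [dif_pos (show ((Fin.castLE hle i : Fin s) : ℕ) < X.bound + 1 from i.2)] at this
  exact this

/-- Independence persists when `a` grows. -/
theorem Indep.mono {a a' : ℤ} (haa' : a ≤ a') {s : ℕ} {w : Fin s → V} (h : X.Indep a w) :
    X.Indep a' w := by
  refine ⟨fun i => X.Lb_mono haa' le_rfl (h.1 i), fun c hc => h.2 c ?_⟩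
  apply X.Lb_inf haa'
  exact ⟨Submodule.sum_mem _ fun i _ => Submodule.smul_mem _ _ (h.1 i), hc⟩

/-- A maximal independent family. -/
theorem exists_maximal : ∃ (s : ℕ) (a : ℤ) (w : Fin s → V), 0 ≤ a ∧ X.Indep a w ∧
    ∀ (a' : ℤ) (w' : Fin (s + 1) → V), 0 ≤ a' → ¬ X.Indep a' w' := by
  classical
  let Q : ℕ → Prop := fun s => ∃ (a : ℤ) (w : Fin s → V), 0 ≤ a ∧ X.Indep a w
  have hQ0 : Q 0 := ⟨0, fun i => i.elim0, le_rfl, fun i => i.elim0, fun c _ => by
    funext i; exact i.elim0⟩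
  have hQb : ∀ s, Q s → s ≤ X.bound := by
    rintro s ⟨a, w, -, h⟩
    exact h.le_bound
  have h1 : Q (Nat.findGreatest Q X.bound) := Nat.findGreatest_spec (Nat.zero_le _) hQ0
  obtain ⟨a, w, ha, hw⟩ := h1
  refine ⟨_, a, w, ha, hw, fun a' w' ha' hw' => ?_⟩
  have h2 : Q (Nat.findGreatest Q X.bound + 1) := ⟨a', w', ha', hw'⟩
  have h3 := Nat.le_findGreatest (hQb _ h2) h2
  omega

/-- Step 1: `P(a, 1)` for all large `a`. -/
theorem exists_P_one : ∃ α : ℤ, 0 ≤ α ∧ ∀ a, α ≤ a → X.P a 1 := by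
  classical
  obtain ⟨s, a₀, w, ha₀, hw, hmax⟩ := X.exists_maximal
  -- lifts of the maximal family
  have hl : ∀ i, ∃ (f : O) (a' : ℤ), X.red f = w i ∧ f ∈ X.Lam a' 1 := fun i =>
    X.lift2 a₀ ha₀ (w i) (hw.1 i)
  choose f a' hf hfa using hl
  obtain ⟨M, hM⟩ := Finset.exists_le ((Finset.univ : Finset (Fin s)).image a' ∪ {a₀})
  have hMa : ∀ i, a' i ≤ M := fun i =>
    hM _ (Finset.mem_union_left _ (Finset.mem_image_of_mem _ (Finset.mem_univ i)))
  have hM0 : a₀ ≤ M := hM _ (Finset.mem_union_right _ (Finset.mem_singleton_self _))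
  refine ⟨M, ha₀.trans hM0, fun a ha v hv => ?_⟩
  have haa : a₀ ≤ a := hM0.trans ha
  have hwa := hw.mono X haa
  -- the family `(w, v)` is dependent modulo `Lb a 0`
  have hdep : ¬ X.Indep a (Fin.snoc w v : Fin (s + 1) → V) := hmax a _ (ha₀.trans haa)
  have hmem : ∀ i, (Fin.snoc w v : Fin (s + 1) → V) i ∈ X.Lb a 1 := by
    intro i
    refine Fin.lastCases ?_ (fun i => ?_) i
    · rw [Fin.snoc_last]; exact hv
    · rw [Fin.snoc_castSucc]; exact hwa.1 i
  have hex : ∃ c : Fin (s + 1) → k, ∑ i, c i • (Fin.snoc w v : Fin (s + 1) → V) i ∈ X.Lb a 0 ∧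
      c ≠ 0 := by
    by_contra hcon
    push Not at hcon
    exact hdep ⟨hmem, hcon⟩
  obtain ⟨c, hc, hc0⟩ := hex
  rw [Fin.sum_univ_castSucc] at hc
  simp only [Fin.snoc_castSucc, Fin.snoc_last] at hc
  have hlast : c (Fin.last s) ≠ 0 := by
    intro h0
    rw [h0, zero_smul, add_zero] at hc
    have h1 := hwa.2 (fun i => c (Fin.castSucc i)) hc
    apply hc0
    funext i
    refine Fin.lastCases ?_ (fun i => ?_) i
    · exact h0
    · exact congrFun h1 i
  -- `v = -(c_last)⁻¹ ∑ c_i w_i + (c_last)⁻¹ u`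
  set u : V := ∑ i : Fin s, c (Fin.castSucc i) • w i + c (Fin.last s) • v with hu
  have hv' : v = ∑ i : Fin s, (-(c (Fin.last s))⁻¹ * c (Fin.castSucc i)) • w i +
      (c (Fin.last s))⁻¹ • u := by
    rw [hu, smul_add, smul_smul, inv_mul_cancel₀ hlast, one_smul, Finset.smul_sum,
      ← add_assoc, ← Finset.sum_add_distrib]
    have : ∀ i : Fin s, (-(c (Fin.last s))⁻¹ * c (Fin.castSucc i)) • w i +
        (c (Fin.last s))⁻¹ • c (Fin.castSucc i) • w i = 0 := by
      intro i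
      rw [smul_smul, ← add_smul]
      have : -(c (Fin.last s))⁻¹ * c (Fin.castSucc i) +
          (c (Fin.last s))⁻¹ * c (Fin.castSucc i) = 0 := by ring
      rw [this, zero_smul]
    rw [Finset.sum_congr rfl fun i _ => this i, Finset.sum_const_zero, zero_add]
  have hspan : ∑ i : Fin s, (-(c (Fin.last s))⁻¹ * c (Fin.castSucc i)) • w i ∈
      Submodule.span k (Set.range w) :=
    Submodule.sum_mem _ fun i _ => Submodule.smul_mem _ _ (Submodule.subset_span ⟨i, rfl⟩)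
  obtain ⟨g, hg, hgr⟩ := X.lift_span w f hf a 1
    (fun i => X.Lam_mono ((hMa i).trans ha) le_rfl (hfa i)) _ hspan
  refine ⟨g, hg, (c (Fin.last s))⁻¹ • u, ?_, ?_⟩
  · have : (1 : ℤ) - 1 = 0 := by norm_num
    rw [this]
    exact Submodule.smul_mem _ _ hc
  · rw [hgr]
    exact hv'

/-- Step 3: for `b ≥ b₁` every element of `Lb 0 b` is a reduction plus an element of
`Lb 0 (b₁ - 1)`. -/
theorem exists_reduce : ∃ b₁ : ℤ, ∀ b, b₁ ≤ b → ∀ v ∈ X.Lb 0 b,
    ∃ f ∈ X.Lam 0 b, ∃ v' ∈ X.Lb 0 (b₁ - 1), v = X.red f + v' := by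
  obtain ⟨α, hα0, hα⟩ := X.exists_P_one
  -- `P(0, b)` for `b ≥ α + 1`
  have hP : ∀ b : ℤ, α + 1 ≤ b → X.P 0 b := by
    intro b hb
    have h1 := X.P_shift_nat (hα (b - 1) (by linarith)) (b - 1).toNat
    have h2 : (((b - 1).toNat : ℕ) : ℤ) = b - 1 := Int.toNat_of_nonneg (by linarith)
    rw [h2] at h1
    have e1 : b - 1 - (b - 1) = 0 := by ring
    have e2 : 1 + (b - 1) = b := by ring
    rwa [e1, e2] at h1
  refine ⟨α + 1, ?_⟩
  -- induction on `b - (α + 1)`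
  have key : ∀ n : ℕ, ∀ v ∈ X.Lb 0 (α + 1 + n),
      ∃ f ∈ X.Lam 0 (α + 1 + n), ∃ v' ∈ X.Lb 0 (α + 1 - 1), v = X.red f + v' := by
    intro n
    induction n with
    | zero =>
      intro v hv
      have h0 : α + 1 + ((0 : ℕ) : ℤ) = α + 1 := by push_cast; ring
      rw [h0] at hv ⊢
      exact hP (α + 1) le_rfl v hv
    | succ n ih =>
      intro v hv
      obtain ⟨f, hf, v', hv', e⟩ := hP (α + 1 + ((n + 1 : ℕ) : ℤ))
        (by push_cast; linarith [Int.natCast_nonneg n]) v hv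
      have e1 : α + 1 + ((n + 1 : ℕ) : ℤ) - 1 = α + 1 + (n : ℤ) := by push_cast; ring
      rw [e1] at hv'
      obtain ⟨g, hg, v'', hv'', e'⟩ := ih v' hv'
      refine ⟨f + g, (X.Lam 0 _).add_mem hf (X.Lam_mono le_rfl ?_ hg), v'', hv'', ?_⟩
      · push_cast; linarith
      · rw [e, e', map_add, add_assoc]
  intro b hb v hv
  have h2 : (((b - (α + 1)).toNat : ℕ) : ℤ) = b - (α + 1) := Int.toNat_of_nonneg (by linarith)
  have h3 : α + 1 + (((b - (α + 1)).toNat : ℕ) : ℤ) = b := by rw [h2]; ring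
  have := key (b - (α + 1)).toNat v (by rw [h3]; exact hv)
  rwa [h3] at this

/-- **The lifting theorem (abstract form)**: for all large `b`, every element of `Lb 0 b` is
the reduction of an element of `Lam 0 b`. -/
theorem exists_lift : ∃ b₀ : ℤ, ∀ b, b₀ ≤ b → ∀ v ∈ X.Lb 0 b, ∃ f ∈ X.Lam 0 b, X.red f = v := by
  classical
  obtain ⟨b₁, hb₁⟩ := X.exists_reduce
  -- Step 4: the finite dimensional space `Lb 0 (b₁ - 1)`
  obtain ⟨T, hT⟩ := X.fg (b₁ - 1)
  have hTmem : ∀ t : (T : Set V), (t : V) ∈ X.Lb 0 (b₁ - 1) := fun t => by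
    rw [← hT]; exact Submodule.subset_span t.2
  have hl : ∀ t : (T : Set V), ∃ (f : O) (b' : ℤ), X.red f = (t : V) ∧ f ∈ X.Lam 0 b' :=
    fun t => X.lift1 (b₁ - 1) t (hTmem t)
  choose f b' hf hfb using hl
  obtain ⟨M, hM⟩ := Finset.exists_le ((Finset.univ : Finset (T : Set V)).image b' ∪ {b₁})
  have hMb : ∀ t, b' t ≤ M := fun t =>
    hM _ (Finset.mem_union_left _ (Finset.mem_image_of_mem _ (Finset.mem_univ t)))
  have hM1 : b₁ ≤ M := hM _ (Finset.mem_union_right _ (Finset.mem_singleton_self _))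
  refine ⟨M, fun b hb v hv => ?_⟩
  obtain ⟨g, hg, v', hv', e⟩ := hb₁ b (hM1.trans hb) v hv
  have hspan : v' ∈ Submodule.span k (Set.range fun t : (T : Set V) => (t : V)) := by
    rw [Subtype.range_coe, hT]
    exact hv'
  obtain ⟨g', hg', hgr⟩ := X.lift_span (fun t : (T : Set V) => (t : V)) f hf 0 b
    (fun t => X.Lam_mono le_rfl ((hMb t).trans hb) (hfb t)) v' hspan
  exact ⟨g + g', (X.Lam 0 b).add_mem hg hg', by rw [map_add, hgr, e]⟩

end Core

end Fermat.Agent.S18.LiftCore
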