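import Mathlib
import Fermat.Prelude.Def_AlgebraicCurve_Repartitions

/-!
# S18, leaf [H]: generic lemmas on Riemann-Roch spaces for the lifting theorem

For a function field `F / K` (prelude `Place` API), a function `j ≠ 0` with zero divisor `Z` and
pole divisor `C` and a divisor `G`, the spaces `L(G + a Z + b C)`, `a, b ∈ ℤ`:
monotonicity, the intersection property, multiplication by `j` and by `1/j`; and the dimension
bound `dim L(D + E)/L(D) ≤ deg E` in the form "any `deg E + 1` elements of `L(D + E)` are linearly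
dependent modulo `L(D)`" from the one-point statement `L(D + Q) ≤ L(D) + K g`.
-/

set_option autoImplicit false

namespace Fermat.Agent.S18.LiftRR

open AlgebraicCurve

variable {K F : Type*} [Field K] [Field F] [Algebra K F]

/-- The divisor `G + a Z + b C`. -/
noncomputable def Dab (G Z C : Divisor K F) (a b : ℤ) : Divisor K F := G + a • Z + b • C

theorem Dab_apply (G Z C : Divisor K F) (a b : ℤ) (P : Place K F) :
    Dab G Z C a b P = G P + a * Z P + b * C P := by
  simp [Dab, Finsupp.add_apply, Finsupp.smul_apply]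

/-- `Z` and `C` are the zero and the pole divisor of `j`. -/
structure IsZC (j : F) (Z C : Divisor K F) : Prop where
  ne : j ≠ 0
  Z_eq : ∀ P : Place K F, Z P = max (P.ord j) 0
  C_eq : ∀ P : Place K F, C P = max (-(P.ord j)) 0

variable {j : F} {G Z C : Divisor K F}

theorem IsZC.Z_nonneg (h : IsZC j Z C) (P : Place K F) : 0 ≤ Z P := by
  rw [h.Z_eq]; exact le_max_right _ _

theorem IsZC.C_nonneg (h : IsZC j Z C) (P : Place K F) : 0 ≤ C P := by
  rw [h.C_eq]; exact le_max_right _ _

theorem IsZC.sub (h : IsZC j Z C) (P : Place K F) : Z P - C P = P.ord j := by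
  rw [h.Z_eq, h.C_eq]
  rcases le_total (P.ord j) 0 with h0 | h0
  · rw [max_eq_right h0, max_eq_left (by omega)]; ring
  · rw [max_eq_left h0, max_eq_right (by omega)]; ring

theorem IsZC.Z_eq_zero (h : IsZC j Z C) {P : Place K F} (hP : P.ord j ≤ 0) : Z P = 0 := by
  rw [h.Z_eq, max_eq_right hP]

theorem IsZC.C_eq_zero (h : IsZC j Z C) {P : Place K F} (hP : 0 ≤ P.ord j) : C P = 0 := by
  rw [h.C_eq, max_eq_right (by omega)]

theorem IsZC.one_le_Z (h : IsZC j Z C) {P : Place K F} (hP : 0 < P.ord j) : 1 ≤ Z P := by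
  rw [h.Z_eq, max_eq_left hP.le]; omega

theorem IsZC.one_le_C (h : IsZC j Z C) {P : Place K F} (hP : P.ord j < 0) : 1 ≤ C P := by
  rw [h.C_eq, max_eq_left (by omega)]; omega

/-- Monotonicity in `(a, b)`. -/
theorem mono (h : IsZC j Z C) (G : Divisor K F) {a a' b b' : ℤ} (ha : a ≤ a') (hb : b ≤ b') :
    riemannRochSpace (Dab G Z C a b) ≤ riemannRochSpace (Dab G Z C a' b') := by
  intro v hv
  rw [mem_riemannRochSpace_iff] at hv ⊢
  intro P
  rcases hv P with h0 | h1
  · exact Or.inl h0
  right
  rw [Dab_apply] at h1 ⊢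
  have hZ := h.Z_nonneg P
  have hC := h.C_nonneg P
  have h2 : a * Z P ≤ a' * Z P := mul_le_mul_of_nonneg_right ha hZ
  have h3 : b * C P ≤ b' * C P := mul_le_mul_of_nonneg_right hb hC
  linarith

/-- The intersection property (the supports of `Z` and `C` are disjoint). -/
theorem inf_le (h : IsZC j Z C) (G : Divisor K F) (a a' : ℤ) :
    riemannRochSpace (Dab G Z C a 1) ⊓ riemannRochSpace (Dab G Z C a' 0) ≤
      riemannRochSpace (Dab G Z C a 0) := by
  rintro v ⟨hv1, hv2⟩
  rw [SetLike.mem_coe, mem_riemannRochSpace_iff] at hv1 hv2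
  rw [mem_riemannRochSpace_iff]
  intro P
  rcases hv1 P with h0 | h1
  · exact Or.inl h0
  rcases hv2 P with h0 | h2
  · exact Or.inl h0
  right
  rw [Dab_apply] at h1 h2 ⊢
  rcases le_or_gt 0 (P.ord j) with hj | hj
  · rw [h.C_eq_zero hj] at h1 ⊢
    linarith
  · rw [h.Z_eq_zero hj.le] at h2 ⊢
    linarith

/-- Multiplication by `j`. -/
theorem mul_mem (h : IsZC j Z C) (G : Divisor K F) (a b : ℤ) {v : F}
    (hv : v ∈ riemannRochSpace (Dab G Z C a b)) :
    j * v ∈ riemannRochSpace (Dab G Z C (a - 1) (b + 1)) := by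
  rw [mem_riemannRochSpace_iff] at hv ⊢
  intro P
  rcases eq_or_ne v 0 with rfl | hv0
  · left; rw [mul_zero]
  right
  have h1 := (hv P).resolve_left hv0
  rw [P.ord_mul h.ne hv0, Dab_apply] at *
  have := h.sub P
  linarith

/-- Multiplication by `1/j`. -/
theorem inv_mul_mem (h : IsZC j Z C) (G : Divisor K F) (a b : ℤ) {v : F}
    (hv : v ∈ riemannRochSpace (Dab G Z C (a - 1) (b + 1))) :
    j⁻¹ * v ∈ riemannRochSpace (Dab G Z C a b) := by
  rw [mem_riemannRochSpace_iff] at hv ⊢
  intro P
  rcases eq_or_ne v 0 with rfl | hv0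
  · left; rw [mul_zero]
  right
  have h1 := (hv P).resolve_left hv0
  rw [P.ord_mul (inv_ne_zero h.ne) hv0, P.ord_inv, Dab_apply] at *
  have := h.sub P
  linarith

/-! ### The dimension bound -/

/-- The total degree (all places counted with weight one). -/
noncomputable def tot : Divisor K F →+ ℤ := Finsupp.liftAddHom fun _ => AddMonoidHom.id ℤ

theorem tot_single (Q : Place K F) (n : ℤ) : tot (Finsupp.single Q n) = n := by
  simp [tot]

theorem tot_eq_sum (E : Divisor K F) : tot E = ∑ Q ∈ E.support, E Q := by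
  simp [tot, Finsupp.sum]

theorem tot_nonneg {E : Divisor K F} (hE : ∀ Q, 0 ≤ E Q) : 0 ≤ tot E := by
  rw [tot_eq_sum]
  exact Finset.sum_nonneg fun Q _ => hE Q

theorem eq_zero_of_tot_eq_zero {E : Divisor K F} (hE : ∀ Q, 0 ≤ E Q) (h : tot E = 0) : E = 0 := by
  rw [tot_eq_sum] at h
  ext Q
  by_cases hQ : Q ∈ E.support
  · exact (Finset.sum_eq_zero_iff_of_nonneg fun Q _ => hE Q).mp h Q hQ
  · exact Finsupp.notMem_support_iff.mp hQ

/-- `L(D + E) ≤ L(D) + span S` with `|S| ≤ deg E`. -/
theorem exists_span (h1 : ∀ (D : Divisor K F) (Q : Place K F), ∃ g : F,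
      riemannRochSpace (D + Finsupp.single Q 1) ≤ riemannRochSpace D ⊔ Submodule.span K {g})
    (n : ℕ) : ∀ (D E : Divisor K F), (∀ Q, 0 ≤ E Q) → tot E = n →
      ∃ S : Finset F, S.card ≤ n ∧
        riemannRochSpace (D + E) ≤ riemannRochSpace D ⊔ Submodule.span K (S : Set F) := by
  classical
  induction n with
  | zero =>
    intro D E hE ht
    have : E = 0 := eq_zero_of_tot_eq_zero hE (by simpa using ht)
    subst this
    exact ⟨∅, le_rfl, by rw [add_zero]; exact le_sup_left⟩
  | succ n ih =>
    intro D E hE ht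
    have hne : E ≠ 0 := by
      rintro rfl
      rw [map_zero] at ht
      push_cast at ht
      omega
    obtain ⟨Q, hQ⟩ : ∃ Q, E Q ≠ 0 := by
      by_contra hcon
      push Not at hcon
      exact hne (Finsupp.ext hcon)
    have hQ1 : 1 ≤ E Q := by
      have := hE Q
      omega
    set E' : Divisor K F := E - Finsupp.single Q 1 with hE'
    have hE'0 : ∀ Q', 0 ≤ E' Q' := by
      intro Q'
      rw [hE', Finsupp.sub_apply, Finsupp.single_apply]
      split_ifs with hq
      · subst hq; omega
      · have := hE Q'; omega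
    have ht' : tot E' = n := by
      rw [hE', map_sub, tot_single, ht]
      push_cast
      ring
    obtain ⟨S, hS, hle⟩ := ih D E' hE'0 ht'
    obtain ⟨g, hg⟩ := h1 (D + E') Q
    refine ⟨insert g S, (Finset.card_insert_le _ _).trans (by omega), ?_⟩
    have hDE : D + E = D + E' + Finsupp.single Q 1 := by rw [hE']; abel
    rw [hDE]
    refine hg.trans ?_
    rw [Finset.coe_insert, Submodule.span_insert]
    refine sup_le (hle.trans (sup_le le_sup_left ?_)) ?_
    · exact le_sup_of_le_right le_sup_right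
    · exact le_sup_of_le_right le_sup_left

/-- Any `n + 1` elements of `L(D + E)`, `deg E ≤ n`, are linearly dependent modulo `L(D)`. -/
theorem exists_dep (h1 : ∀ (D : Divisor K F) (Q : Place K F), ∃ g : F,
      riemannRochSpace (D + Finsupp.single Q 1) ≤ riemannRochSpace D ⊔ Submodule.span K {g})
    (D E : Divisor K F) (hE : ∀ Q, 0 ≤ E Q) (n : ℕ) (hn : tot E = n)
    (v : Fin (n + 1) → F) (hv : ∀ i, v i ∈ riemannRochSpace (D + E)) :
    ∃ c : Fin (n + 1) → K, c ≠ 0 ∧ ∑ i, c i • v i ∈ riemannRochSpace D := by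
  classical
  obtain ⟨S, hS, hle⟩ := exists_span h1 n D E hE hn
  set W := riemannRochSpace D with hW
  -- the images in the quotient lie in the span of the image of `S`
  set q := W.mkQ with hq
  have hmem : ∀ i, q (v i) ∈ Submodule.span K ((S.image q : Finset (F ⧸ W)) : Set (F ⧸ W)) := by
    intro i
    have h2 := hle (hv i)
    obtain ⟨x, hx, y, hy, hxy⟩ := Submodule.mem_sup.mp h2
    rw [← hxy, map_add]
    have hx0 : q x = 0 := (Submodule.Quotient.mk_eq_zero W).mpr hx
    rw [hx0, zero_add, Finset.coe_image, ← Submodule.map_span]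
    exact Submodule.mem_map_of_mem hy
  by_contra hcon
  push Not at hcon
  -- then the images are linearly independent
  have hli : LinearIndependent K (fun i => q (v i)) := by
    rw [Fintype.linearIndependent_iff]
    intro c hc
    by_contra hc0
    have hc' : c ≠ 0 := fun h => hc0 (fun i => by rw [h]; rfl)
    apply hcon c hc'
    rw [← Submodule.Quotient.mk_eq_zero W]
    have : (Submodule.Quotient.mk (∑ i, c i • v i) : F ⧸ W) = q (∑ i, c i • v i) := rfl
    rw [this, map_sum]
    simpa using hc
  have h3 : Submodule.span K (Set.range fun i => q (v i)) ≤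
      Submodule.span K ((S.image q : Finset (F ⧸ W)) : Set (F ⧸ W)) :=
    Submodule.span_le.mpr (by rintro _ ⟨i, rfl⟩; exact hmem i)
  have h4 := Submodule.finrank_mono h3
  rw [finrank_span_eq_card hli, Fintype.card_fin] at h4
  have h5 : Module.finrank K (Submodule.span K ((S.image q : Finset (F ⧸ W)) : Set (F ⧸ W))) ≤
      (S.image q).card := finrank_span_finset_le_card (R := K) (S.image q)
  have h6 := Finset.card_image_le (s := S) (f := q)
  omega

end Fermat.Agent.S18.LiftRR
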