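import Mathlib
import Fermat.Agent.S18.LiftCore
import Fermat.Agent.S18.LiftRR
import Fermat.Agent.S18.ChartLift
import Fermat.Agent.S18.EndGame

/-!
# S18, leaf [H]: the lifting theorem (LIFT)

For an effective divisor `G` of the modular function field `FF N` and the pole divisor `C` of `j`
there is `b₀` such that for all `b ≥ b₀` every function of `L̄(r_* (G + b C))` is the reduction of
an element of `L(G + b C) ∩ O_v` (`EndGame.Lift A N r (G + b • Cj N)`).

Inputs: `(N)_N` (`Charts.NormalStmt`) through `ChartLift.lift_chart1 / lift_chart2`,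
`r_* div = div ∘ red` (`Lattice.mapDomain_dv_red`), zeros/poles of `j` map to zeros/poles of `j̄`
(`ChartLift.zero_of_zero / pole_of_pole`), and two facts on the Riemann-Roch spaces of the
reduced function field, taken as hypotheses: `dim L̄(D + Q)/L̄(D) ≤ 1` and the finite generation
of `L̄(D)`.  The proof is the instantiation of the abstract core `LiftCore.Core.exists_lift`.
-/

set_option autoImplicit false
set_option synthInstance.maxHeartbeats 400000

namespace Fermat.Agent.S18.LiftMod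

open ModularCurve AlgebraicCurve IsLocalRing
open Fermat.Agent.S18.Gauss Fermat.Agent.S18.Lattice
open Fermat.Agent.S24 Fermat.Agent.S24.Eval Fermat.Agent.S18.LocalLift
open Fermat.Agent.S18.RedFibre Fermat.Agent.S18.ChartLift Fermat.Agent.S18.Charts
open Fermat.Agent.S18.LiftRR

variable (A : ValuationSubring KK) (N : ℕ) [NeZero N]

/-- The pole divisor of `j`. -/
noncomputable def Cj : Divisor KK (FF N) :=
  (dv N (jF N)).mapRange (fun n : ℤ => max (-n) 0) (by simp)

/-- The zero divisor of `j`. -/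
noncomputable def Zj : Divisor KK (FF N) :=
  (dv N (jF N)).mapRange (fun n : ℤ => max n 0) (by simp)

@[simp]
theorem Cj_apply (P : Place KK (FF N)) : Cj N P = max (-(P.ord (jF N))) 0 := by
  rw [Cj, Finsupp.mapRange_apply, dv_apply]

@[simp]
theorem Zj_apply (P : Place KK (FF N)) : Zj N P = max (P.ord (jF N)) 0 := by
  rw [Zj, Finsupp.mapRange_apply, dv_apply]

theorem Cj_nonneg (P : Place KK (FF N)) : 0 ≤ Cj N P := by
  rw [Cj_apply]; exact le_max_right _ _

theorem Zj_nonneg (P : Place KK (FF N)) : 0 ≤ Zj N P := by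
  rw [Zj_apply]; exact le_max_right _ _

theorem isZC : IsZC (jF N) (Zj N) (Cj N) := ⟨jF_ne_zero N, Zj_apply N, Cj_apply N⟩

theorem Zj_sub_Cj : Zj N - Cj N = dv N (jF N) := by
  ext P
  rw [Finsupp.sub_apply, (isZC N).sub P, dv_apply]

/-- Every function has poles of bounded order. -/
theorem exists_bound (f : FF N) : ∃ M : ℤ, 0 ≤ M ∧ ∀ P : Place KK (FF N), -M ≤ P.ord f := by
  classical
  have h0 : (0 : ℤ) ≤ ∑ P ∈ (dv N f).support, |dv N f P| :=
    Finset.sum_nonneg fun _ _ => abs_nonneg _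
  refine ⟨∑ P ∈ (dv N f).support, |dv N f P|, h0, fun P => ?_⟩
  by_cases hP : P ∈ (dv N f).support
  · have h1 := Finset.single_le_sum (f := fun P => |dv N f P|) (fun _ _ => abs_nonneg _) hP
    simp only [dv_apply] at h1 ⊢
    have h2 := neg_abs_le (P.ord f)
    linarith
  · have h1 : dv N f P = 0 := Finsupp.notMem_support_iff.mp hP
    rw [dv_apply] at h1
    rw [h1]
    linarith

variable {A N}
variable {r : Place KK (FF N) → Place (ResidueField A) (FkN A N)}
variable {ℓ : ℕ} [Fact ℓ.Prime]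

/-- a positive value of the push-forward comes from a positive value on the fibre -/
theorem exists_pos_of_mapDomain_pos {α β : Type*} (φ : α → β) (E : α →₀ ℤ) (b : β)
    (h : 0 < Finsupp.mapDomain φ E b) : ∃ a, φ a = b ∧ 0 < E a := by
  by_contra hcon
  push Not at hcon
  have h1 := mapDomain_le_of_fibre φ E 0 b (fun a ha => by
    rw [Finsupp.zero_apply]
    exact hcon a ha)
  rw [Finsupp.mapDomain_zero, Finsupp.zero_apply] at h1
  omega

/-- `r_* Z₀` and `r_* C` are the zero and the pole divisor of `j̄`. -/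
theorem isZC_red (hr : IsPlaceReductionModL A N r) (hA : A.LiesOverPrime ℓ) (hℓN : ¬ ℓ ∣ N) :
    IsZC (jb A N) (Finsupp.mapDomain r (Zj N)) (Finsupp.mapDomain r (Cj N)) := by
  have key : ∀ Q : Place (ResidueField A) (FkN A N),
      0 ≤ Finsupp.mapDomain r (Zj N) Q ∧ 0 ≤ Finsupp.mapDomain r (Cj N) Q ∧
      Finsupp.mapDomain r (Zj N) Q - Finsupp.mapDomain r (Cj N) Q = Q.ord (jb A N) ∧
      (Finsupp.mapDomain r (Zj N) Q = 0 ∨ Finsupp.mapDomain r (Cj N) Q = 0) := by
    intro Q
    have hz := Lattice.mapDomain_nonneg r (Zj_nonneg N) Q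
    have hc := Lattice.mapDomain_nonneg r (Cj_nonneg N) Q
    refine ⟨hz, hc, ?_, ?_⟩
    · have h1 := mapDomain_dv_red hr (jO A N) (by rw [redN_jO]; exact jb_ne_zero A N) Q
      rw [redN_jO, coe_jO, ← Zj_sub_Cj, Finsupp.mapDomain_sub, Finsupp.sub_apply] at h1
      exact h1
    · by_contra hcon
      push Not at hcon
      have hz' : 0 < Finsupp.mapDomain r (Zj N) Q := lt_of_le_of_ne hz (Ne.symm hcon.1)
      have hc' : 0 < Finsupp.mapDomain r (Cj N) Q := lt_of_le_of_ne hc (Ne.symm hcon.2)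
      obtain ⟨P, hPQ, hP⟩ := exists_pos_of_mapDomain_pos r _ Q hz'
      obtain ⟨P', hPQ', hP'⟩ := exists_pos_of_mapDomain_pos r _ Q hc'
      rw [Zj_apply] at hP
      rw [Cj_apply] at hP'
      have h1 : 0 < P.ord (jF N) := by
        rcases le_or_gt (P.ord (jF N)) 0 with h | h
        · rw [max_eq_right h] at hP; omega
        · exact h
      have h2 : P'.ord (jF N) < 0 := by
        rcases le_or_gt 0 (P'.ord (jF N)) with h | h
        · rw [max_eq_right (by omega)] at hP'; omega
        · exact h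
      have h3 := zero_of_zero hr hA hℓN P h1
      have h4 := pole_of_pole hr hA hℓN P' h2
      rw [hPQ] at h3
      rw [hPQ'] at h4
      omega
  refine ⟨jb_ne_zero A N, fun Q => ?_, fun Q => ?_⟩
  · obtain ⟨hz, hc, hs, hd⟩ := key Q
    rcases hd with h | h
    · rw [h] at hs ⊢
      rw [max_eq_right (by omega)]
    · rw [h] at hs
      rw [max_eq_left (by omega)]
      omega
  · obtain ⟨hz, hc, hs, hd⟩ := key Q
    rcases hd with h | h
    · rw [h] at hs
      rw [max_eq_left (by omega)]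
      omega
    · rw [h] at hs ⊢
      rw [max_eq_right (by omega)]

/-- the reduced divisor `Ḡ + a Z̄ + b C̄` is the push-forward of `G + a Z₀ + b C` -/
theorem mapDomain_Dab (G : Divisor KK (FF N)) (a b : ℤ) :
    Finsupp.mapDomain r (Dab G (Zj N) (Cj N) a b) =
      Dab (Finsupp.mapDomain r G) (Finsupp.mapDomain r (Zj N)) (Finsupp.mapDomain r (Cj N)) a b := by
  rw [Dab, Dab, Finsupp.mapDomain_add, Finsupp.mapDomain_add, Finsupp.mapDomain_smul,
    Finsupp.mapDomain_smul]

/-- **Lifting from chart 2** (step 1 of the lifting theorem). -/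
theorem lift_two (hr : IsPlaceReductionModL A N r) (hA : A.LiesOverPrime ℓ) (hℓN : ¬ ℓ ∣ N)
    (hN2 : NormalStmt2 A N) (G : Divisor KK (FF N)) (hG : ∀ P, 0 ≤ G P) (a : ℤ)
    (v : FkN A N)
    (hv : v ∈ riemannRochSpace (Dab (Finsupp.mapDomain r G) (Finsupp.mapDomain r (Zj N))
      (Finsupp.mapDomain r (Cj N)) a 1)) :
    ∃ (f : OO A N) (a' : ℤ), redN A N f = v ∧
      (f : FF N) ∈ riemannRochSpace (Dab G (Zj N) (Cj N) a' 1) := by
  have hZC := isZC_red (r := r) hr hA hℓN
  rw [mem_riemannRochSpace_iff] at hv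
  obtain ⟨f, hf, hford⟩ := lift_chart2 hr hA hℓN hN2 (G + Cj N)
    (fun P => by
      rw [Finsupp.add_apply]
      have := hG P
      have := Cj_nonneg N P
      omega) v (fun Q hQ => by
      rcases hv Q with h0 | h1
      · exact Or.inl h0
      right
      rw [Dab_apply, hZC.Z_eq_zero hQ] at h1
      rw [Finsupp.mapDomain_add, Finsupp.add_apply]
      linarith)
  obtain ⟨M, hM0, hM⟩ := exists_bound N (f : FF N)
  refine ⟨f, M, hf, ?_⟩
  rw [mem_riemannRochSpace_iff]
  intro P
  rcases le_or_gt (P.ord (jF N)) 0 with hj | hj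
  · rcases hford P hj with h0 | h1
    · exact Or.inl h0
    right
    rw [Dab_apply, (isZC N).Z_eq_zero hj]
    rw [Finsupp.add_apply] at h1
    linarith
  · right
    rw [Dab_apply]
    have h1 := (isZC N).one_le_Z hj
    have h2 := hM P
    have h3 := hG P
    have h4 := Cj_nonneg N P
    have h5 : M * 1 ≤ M * Zj N P := mul_le_mul_of_nonneg_left h1 hM0
    linarith

/-- **Lifting from chart 1** (step 4 of the lifting theorem). -/
theorem lift_one (hr : IsPlaceReductionModL A N r) (hA : A.LiesOverPrime ℓ) (hℓN : ¬ ℓ ∣ N)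
    (hN1 : NormalStmt1 A N) (G : Divisor KK (FF N)) (hG : ∀ P, 0 ≤ G P) (b : ℤ)
    (v : FkN A N)
    (hv : v ∈ riemannRochSpace (Dab (Finsupp.mapDomain r G) (Finsupp.mapDomain r (Zj N))
      (Finsupp.mapDomain r (Cj N)) 0 b)) :
    ∃ (f : OO A N) (b' : ℤ), redN A N f = v ∧
      (f : FF N) ∈ riemannRochSpace (Dab G (Zj N) (Cj N) 0 b') := by
  have hZC := isZC_red (r := r) hr hA hℓN
  rw [mem_riemannRochSpace_iff] at hv
  obtain ⟨f, hf, hford⟩ := lift_chart1 hr hA hℓN hN1 G hG v (fun Q hQ => by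
      rcases hv Q with h0 | h1
      · exact Or.inl h0
      right
      rw [Dab_apply, hZC.C_eq_zero hQ] at h1
      linarith)
  obtain ⟨M, hM0, hM⟩ := exists_bound N (f : FF N)
  refine ⟨f, M, hf, ?_⟩
  rw [mem_riemannRochSpace_iff]
  intro P
  rcases le_or_gt 0 (P.ord (jF N)) with hj | hj
  · rcases hford P hj with h0 | h1
    · exact Or.inl h0
    right
    rw [Dab_apply, (isZC N).C_eq_zero hj]
    linarith
  · right
    rw [Dab_apply]
    have h1 := (isZC N).one_le_C hj
    have h2 := hM P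
    have h3 := hG P
    have h5 : M * 1 ≤ M * Cj N P := mul_le_mul_of_nonneg_left h1 hM0
    linarith

theorem redN_cO_mul (c : A) (f : OO A N) :
    redN A N (cO c * f) = residue A c • redN A N f := by
  rw [map_mul, redN_cO, Algebra.smul_def]

/-- The lattice `L(E) ∩ O_v`. -/
noncomputable def Lam (A : ValuationSubring KK) {N : ℕ} [NeZero N] (E : Divisor KK (FF N)) :
    AddSubgroup (OO A N) :=
  (riemannRochSpace E).toAddSubgroup.comap (OO A N).subtype.toAddMonoidHom

theorem mem_Lam {E : Divisor KK (FF N)} {f : OO A N} :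
    f ∈ Lam A E ↔ (f : FF N) ∈ riemannRochSpace E := Iff.rfl

/-- The instance of the abstract core. -/
noncomputable def core (hr : IsPlaceReductionModL A N r) (hA : A.LiesOverPrime ℓ) (hℓN : ¬ ℓ ∣ N)
    (hN : NormalStmt A N)
    (h1 : ∀ (D : Divisor (ResidueField A) (FkN A N)) (Q : Place (ResidueField A) (FkN A N)),
      ∃ g : FkN A N, riemannRochSpace (D + Finsupp.single Q 1) ≤
        riemannRochSpace D ⊔ Submodule.span (ResidueField A) {g})
    (hfin : ∀ D : Divisor (ResidueField A) (FkN A N), (riemannRochSpace D).FG)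
    (G : Divisor KK (FF N)) (hG : ∀ P, 0 ≤ G P) :
    LiftCore.Core A (ResidueField A) (FkN A N) (OO A N) where
  π := residue A
  π_surj := residue_surjective
  red := (redN A N).toAddMonoidHom
  smulA c f := cO c * f
  red_smulA c f := redN_cO_mul c f
  mulJ f := jO A N * f
  jb v := jb A N * v
  jbInv v := (jb A N)⁻¹ * v
  jb_jbInv v := by rw [← mul_assoc, mul_inv_cancel₀ (jb_ne_zero A N), one_mul]
  jb_add v w := mul_add _ _ _
  red_mulJ f := by
    show redN A N (jO A N * f) = jb A N * redN A N f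
    rw [map_mul, redN_jO]
  Lb a b := riemannRochSpace (Dab (Finsupp.mapDomain r G) (Finsupp.mapDomain r (Zj N))
      (Finsupp.mapDomain r (Cj N)) a b)
  Lam a b := Lam A (Dab G (Zj N) (Cj N) a b)
  Lam_smul a b c f hf := by
    rw [mem_Lam] at hf ⊢
    have : ((cO c * f : OO A N) : FF N) = ((c : A) : KK) • (f : FF N) := by
      rw [Algebra.smul_def]; rfl
    rw [this]
    exact Submodule.smul_mem _ _ hf
  Lb_mono ha hb := mono (isZC_red hr hA hℓN) _ ha hb
  Lam_mono ha hb := fun f hf => mono (isZC N) G ha hb hf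
  Lb_inf _ := inf_le (isZC_red hr hA hℓN) _ _ _
  jbInv_mem a b v hv := inv_mul_mem (isZC_red hr hA hℓN) _ a b hv
  jb_mem a b v hv := by
    have := mul_mem (isZC_red hr hA hℓN) (Finsupp.mapDomain r G) a (b - 1) hv
    rwa [sub_add_cancel] at this
  mulJ_mem a b f hf := by
    rw [mem_Lam] at hf ⊢
    exact mul_mem (isZC N) G a b hf
  bound := (tot (Finsupp.mapDomain r (Cj N))).toNat
  dep a v hv := by
    have hE : ∀ Q, 0 ≤ Finsupp.mapDomain r (Cj N) Q := (isZC_red hr hA hℓN).C_nonneg
    refine exists_dep h1 (Dab (Finsupp.mapDomain r G) (Finsupp.mapDomain r (Zj N))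
      (Finsupp.mapDomain r (Cj N)) a 0) (Finsupp.mapDomain r (Cj N)) hE _
      (Int.toNat_of_nonneg (tot_nonneg hE)).symm v (fun i => ?_)
    have := hv i
    have e : Dab (Finsupp.mapDomain r G) (Finsupp.mapDomain r (Zj N))
        (Finsupp.mapDomain r (Cj N)) a 1 =
        Dab (Finsupp.mapDomain r G) (Finsupp.mapDomain r (Zj N))
          (Finsupp.mapDomain r (Cj N)) a 0 + Finsupp.mapDomain r (Cj N) := by
      rw [Dab, Dab, one_smul, zero_smul, add_zero]
    rwa [e] at this
  fg b := hfin _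
  lift2 a _ v hv := lift_two hr hA hℓN hN.2 G hG a v hv
  lift1 b v hv := lift_one hr hA hℓN hN.1 G hG b v hv

/-- **(LIFT)**: for an effective divisor `G` and all large `b`, every function of
`L̄(r_* (G + b C))` is the reduction of an element of `L(G + b C) ∩ O_v`. -/
theorem lift (hr : IsPlaceReductionModL A N r) (hA : A.LiesOverPrime ℓ) (hℓN : ¬ ℓ ∣ N)
    (hN : NormalStmt A N)
    (h1 : ∀ (D : Divisor (ResidueField A) (FkN A N)) (Q : Place (ResidueField A) (FkN A N)),
      ∃ g : FkN A N, riemannRochSpace (D + Finsupp.single Q 1) ≤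
        riemannRochSpace D ⊔ Submodule.span (ResidueField A) {g})
    (hfin : ∀ D : Divisor (ResidueField A) (FkN A N), (riemannRochSpace D).FG)
    (G : Divisor KK (FF N)) (hG : ∀ P, 0 ≤ G P) :
    ∃ b₀ : ℕ, ∀ b : ℕ, b₀ ≤ b → EndGame.Lift A N r (G + b • Cj N) := by
  obtain ⟨b₀, hb₀⟩ := (core hr hA hℓN hN h1 hfin G hG).exists_lift
  refine ⟨b₀.toNat, fun b hb φ hφ => ?_⟩
  have hb' : b₀ ≤ (b : ℤ) := Int.toNat_le.mp hb
  have e : Dab G (Zj N) (Cj N) 0 (b : ℤ) = G + b • Cj N := by
    rw [Dab, zero_smul, add_zero, natCast_zsmul]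
  have hφ' : φ ∈ riemannRochSpace (Dab (Finsupp.mapDomain r G) (Finsupp.mapDomain r (Zj N))
      (Finsupp.mapDomain r (Cj N)) 0 (b : ℤ)) := by
    rw [← mapDomain_Dab, e]
    exact hφ
  obtain ⟨f, hf, hred⟩ := hb₀ b hb' φ hφ'
  refine ⟨f, ?_, hred⟩
  have hf' : (f : FF N) ∈ riemannRochSpace (Dab G (Zj N) (Cj N) 0 (b : ℤ)) := hf
  rwa [e] at hf'

end Fermat.Agent.S18.LiftMod
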