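import Mathlib
import Fermat.Agent.S18.LiftMod
import Fermat.Agent.S18.DegZeroFbar

/-!
# S18, leaf [H]: the lifting theorem (LIFT) from `(N)_N` alone

`LiftMod.lift` with its two Riemann-Roch hypotheses discharged by `DegZeroFbar.le_sup_span` and
`DegZeroFbar.finiteDimensional`.
-/

set_option autoImplicit false
set_option synthInstance.maxHeartbeats 400000

namespace Fermat.Agent.S18.LiftFin

open ModularCurve AlgebraicCurve IsLocalRing
open Fermat.Agent.S18.Gauss Fermat.Agent.S18.Lattice
open Fermat.Agent.S24 Fermat.Agent.S24.Eval Fermat.Agent.S18.Charts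

variable {A : ValuationSubring KK} {N : ℕ} [NeZero N]
variable {r : Place KK (FF N) → Place (ResidueField A) (FkN A N)}
variable {ℓ : ℕ} [Fact ℓ.Prime]

/-- **(LIFT) from `(N)_N`**: for an effective divisor `G` and all large `b`, every function of
`L̄(r_* (G + b C))` is the reduction of an element of `L(G + b C) ∩ O_v` (`C` the pole divisor of
`j`). -/
theorem lift_of_normal (hr : IsPlaceReductionModL A N r) (hA : A.LiesOverPrime ℓ)
    (hℓN : ¬ ℓ ∣ N) (hN : NormalStmt A N) (G : Divisor KK (FF N)) (hG : ∀ P, 0 ≤ G P) :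
    ∃ b₀ : ℕ, ∀ b : ℕ, b₀ ≤ b → EndGame.Lift A N r (G + b • LiftMod.Cj N) :=
  LiftMod.lift hr hA hℓN hN (fun D Q => DegZeroFbar.le_sup_span N D Q)
    (fun D => by
      haveI := DegZeroFbar.finiteDimensional N hA hℓN D
      exact (Submodule.fg_top _).mp Module.Finite.fg_top) G hG

end Fermat.Agent.S18.LiftFin
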