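import Mathlib

/-!
# S18 moonshot, abstract leaf (A): a criterion for a finite subring of a Dedekind domain
to be everything

`R → B` a finite ring homomorphism into a Dedekind domain `B`.  If `R` surjects onto every residue
field of `B`, contains a uniformizer at every maximal ideal of `B` and separates the maximal ideals
of `B`, then `R → B` is surjective.  (Lying over, `𝔭 B = 𝔫`, Nakayama; no localisation.)
-/

namespace Fermat.Agent.S18.NormCrit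

open Ideal

variable {R B : Type*} [CommRing R] [CommRing B] [IsDedekindDomain B]
  [Algebra R B]

/-- If `𝔫` is the only maximal ideal over `𝔭 = 𝔫 ∩ R` and `R` contains a uniformizer at `𝔫`,
then `𝔭 B = 𝔫`. -/
theorem map_comap_eq [Algebra.IsIntegral R B] (𝔫 : Ideal B) (h𝔫 : 𝔫.IsMaximal)
    (hunif : ∃ t : R, algebraMap R B t ∈ 𝔫 ∧ algebraMap R B t ∉ 𝔫 ^ 2)
    (hsep : ∀ 𝔫' : Ideal B, 𝔫'.IsMaximal → 𝔫 ≠ 𝔫' →
      ∃ f : R, algebraMap R B f ∈ 𝔫 ∧ algebraMap R B f ∉ 𝔫') :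
    (𝔫.comap (algebraMap R B)).map (algebraMap R B) = 𝔫 := by
  set 𝔭 := 𝔫.comap (algebraMap R B) with h𝔭
  set J := 𝔭.map (algebraMap R B) with hJ
  have hle : J ≤ 𝔫 := Ideal.map_comap_le
  obtain ⟨t, ht, ht2⟩ := hunif
  have htJ : algebraMap R B t ∈ J := Ideal.mem_map_of_mem _ (by rw [h𝔭, Ideal.mem_comap]; exact ht)
  obtain ⟨J', hJ'⟩ : 𝔫 ∣ J := Ideal.dvd_iff_le.mpr hle
  by_cases htop : J' = ⊤
  · rw [hJ', htop, Ideal.mul_top]
  exfalso
  obtain ⟨𝔫'', h𝔫'', hJ''⟩ := Ideal.exists_le_maximal J' htop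
  have hJle : J ≤ 𝔫'' := by
    rw [hJ']
    exact le_trans (Ideal.mul_le_inf.trans inf_le_right) hJ''
  have hcomap : 𝔫''.comap (algebraMap R B) = 𝔭 := by
    have h𝔭max : 𝔭.IsMaximal := Ideal.isMaximal_comap_of_isIntegral_of_isMaximal 𝔫
    have h1 : 𝔭 ≤ 𝔫''.comap (algebraMap R B) :=
      le_trans Ideal.le_comap_map (Ideal.comap_mono hJle)
    have h2 : 𝔫''.comap (algebraMap R B) ≠ ⊤ :=
      (Ideal.isMaximal_comap_of_isIntegral_of_isMaximal 𝔫'').ne_top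
    exact (h𝔭max.eq_of_le h2 h1).symm
  have heq : 𝔫 = 𝔫'' := by
    by_contra hne
    obtain ⟨f, hf, hf'⟩ := hsep 𝔫'' h𝔫'' hne
    apply hf'
    have : f ∈ 𝔫''.comap (algebraMap R B) := by
      rw [hcomap, h𝔭, Ideal.mem_comap]; exact hf
    exact this
  apply ht2
  have : J ≤ 𝔫 ^ 2 := by
    rw [hJ', pow_two]
    exact Ideal.mul_mono_right (by rw [heq]; exact hJ'')
  exact this htJ

/-- **The criterion.**  A finite ring map `R → B` into a Dedekind domain which is surjective on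
all residue fields, hits a uniformizer at every maximal ideal and separates the maximal ideals is
surjective. -/
theorem surjective_algebraMap [Module.Finite R B]
    (hres : ∀ 𝔫 : Ideal B, 𝔫.IsMaximal → ∀ b : B, ∃ r : R, b - algebraMap R B r ∈ 𝔫)
    (hunif : ∀ 𝔫 : Ideal B, 𝔫.IsMaximal →
      ∃ t : R, algebraMap R B t ∈ 𝔫 ∧ algebraMap R B t ∉ 𝔫 ^ 2)
    (hsep : ∀ 𝔫 𝔫' : Ideal B, 𝔫.IsMaximal → 𝔫'.IsMaximal → 𝔫 ≠ 𝔫' →
      ∃ f : R, algebraMap R B f ∈ 𝔫 ∧ algebraMap R B f ∉ 𝔫') :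
    Function.Surjective (algebraMap R B) := by
  classical
  have : Algebra.IsIntegral R B := Algebra.IsIntegral.of_finite R B
  set N : Submodule R B := LinearMap.range (Algebra.linearMap R B) with hN
  intro b
  suffices hb : b ∈ N by
    obtain ⟨r, hr⟩ := hb
    exact ⟨r, hr⟩
  -- the colon ideal
  set I : Ideal R := N.comap (LinearMap.toSpanSingleton R B b) with hI
  by_cases hItop : I = ⊤
  · have h1 : (1 : R) ∈ I := by rw [hItop]; exact Submodule.mem_top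
    rw [hI, Submodule.mem_comap, LinearMap.toSpanSingleton_apply, one_smul] at h1
    exact h1
  exfalso
  obtain ⟨𝔭, h𝔭max, hI𝔭⟩ := Ideal.exists_le_maximal I hItop
  obtain ⟨𝔫, h𝔫max, h𝔫𝔭⟩ := Ideal.exists_ideal_over_maximal_of_isIntegral 𝔭
    (fun x hx => by
      -- the kernel of `R → B` is contained in `𝔭`: it is contained in `I`
      apply hI𝔭
      rw [hI, Submodule.mem_comap, LinearMap.toSpanSingleton_apply, Algebra.smul_def]
      have hx0 : algebraMap R B x = 0 := hx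
      rw [hx0, zero_mul]
      exact N.zero_mem)
  have hmap : 𝔭.map (algebraMap R B) = 𝔫 := by
    rw [← h𝔫𝔭]
    exact map_comap_eq 𝔫 h𝔫max (hunif 𝔫 h𝔫max) (fun 𝔫' h' hne => hsep 𝔫 𝔫' h𝔫max h' hne)
  -- `B = N + 𝔭 B`
  have hsup : (⊤ : Submodule R B) ≤ N ⊔ 𝔭 • (⊤ : Submodule R B) := by
    intro x _
    obtain ⟨r, hr⟩ := hres 𝔫 h𝔫max x
    have hx : x = algebraMap R B r + (x - algebraMap R B r) := by ring
    rw [hx]
    refine Submodule.add_mem _ (Submodule.mem_sup_left ⟨r, rfl⟩) (Submodule.mem_sup_right ?_)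
    rw [Ideal.smul_top_eq_map, Submodule.restrictScalars_mem, hmap]
    exact hr
  -- Nakayama on the quotient
  have hfg : (⊤ : Submodule R (B ⧸ N)).FG := Module.Finite.fg_top
  have hquot : (⊤ : Submodule R (B ⧸ N)) ≤ 𝔭 • (⊤ : Submodule R (B ⧸ N)) := by
    intro y _
    obtain ⟨x, rfl⟩ := N.mkQ_surjective y
    have hx := hsup (Submodule.mem_top : x ∈ ⊤)
    obtain ⟨n, hn, z, hz, rfl⟩ := Submodule.mem_sup.1 hx
    have hn0 : N.mkQ n = 0 := by
      rw [Submodule.mkQ_apply]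
      exact (Submodule.Quotient.mk_eq_zero N).2 hn
    rw [map_add, hn0, zero_add]
    have : N.mkQ z ∈ (𝔭 • (⊤ : Submodule R B)).map N.mkQ := ⟨z, hz, rfl⟩
    rw [Submodule.map_smul''] at this
    exact Submodule.smul_mono le_rfl le_top this
  obtain ⟨r, hr1, hr0⟩ :=
    Submodule.exists_sub_one_mem_and_smul_eq_zero_of_fg_of_le_smul 𝔭 ⊤ hfg hquot
  have hrI : r ∈ I := by
    rw [hI, Submodule.mem_comap, LinearMap.toSpanSingleton_apply]
    have := hr0 (N.mkQ b) Submodule.mem_top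
    rw [← map_smul, Submodule.mkQ_apply, Submodule.Quotient.mk_eq_zero] at this
    exact this
  have h1 : (1 : R) ∈ 𝔭 := by
    have : (1 : R) = r - (r - 1) := by ring
    rw [this]
    exact 𝔭.sub_mem (hI𝔭 hrI) hr1
  exact h𝔭max.ne_top ((Ideal.eq_top_iff_one 𝔭).2 h1)

/-- Subalgebra form: `k`-algebra `B`, residue fields equal to `k`. -/
theorem eq_top {k : Type*} [Field k] [Algebra k B] (R : Subalgebra k B) [Module.Finite R B]
    (hres : ∀ 𝔫 : Ideal B, 𝔫.IsMaximal → Function.Surjective (algebraMap k (B ⧸ 𝔫)))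
    (hunif : ∀ 𝔫 : Ideal B, 𝔫.IsMaximal → ∃ t ∈ R, t ∈ 𝔫 ∧ t ∉ 𝔫 ^ 2)
    (hsep : ∀ 𝔫 𝔫' : Ideal B, 𝔫.IsMaximal → 𝔫'.IsMaximal → 𝔫 ≠ 𝔫' →
      ∃ f ∈ R, f ∈ 𝔫 ∧ f ∉ 𝔫') :
    R = ⊤ := by
  have hsurj : Function.Surjective (algebraMap R B) := by
    refine surjective_algebraMap ?_ ?_ ?_
    · intro 𝔫 h𝔫 b
      obtain ⟨c, hc⟩ := hres 𝔫 h𝔫 (Ideal.Quotient.mk 𝔫 b)
      refine ⟨⟨algebraMap k B c, R.algebraMap_mem c⟩, ?_⟩
      rw [← Ideal.Quotient.eq]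
      rw [← hc]
      rfl
    · intro 𝔫 h𝔫
      obtain ⟨t, htR, ht, ht2⟩ := hunif 𝔫 h𝔫
      exact ⟨⟨t, htR⟩, ht, ht2⟩
    · intro 𝔫 𝔫' h𝔫 h𝔫' hne
      obtain ⟨f, hfR, hf, hf'⟩ := hsep 𝔫 𝔫' h𝔫 h𝔫' hne
      exact ⟨⟨f, hfR⟩, hf, hf'⟩
  rw [eq_top_iff]
  intro b _
  obtain ⟨r, hr⟩ := hsurj b
  rw [← hr]
  exact r.2

end Fermat.Agent.S18.NormCrit
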