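import Mathlib
import Fermat.Agent.S18.Charts
import Fermat.Agent.S18.FbarSep
import Fermat.Agent.S18.NormCrit

/-!
# S18, leaf [G], abstract part: the chart at infinity

`A` is a valuation ring of `KK = ℚ̄` over `ℓ ∤ N`, `k` its residue field, `F = FF N`,
`Fk = FkN A N`, `r` a place reduction map (`IsPlaceReductionModL A N r`).

* fibre sums: `ord_Q (red f) = ∑_{r P = Q} ord_P f`;
* the values lemma: a Gauss-integral function that is regular on the fibre of `r` over `Q` takes
  integral values there, and they all reduce to the value of `red f` at `Q`;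
* `CuspA`, `CuspB`: the characteristic-zero input at the cusps, in the literal shape consumed by
  the proof of the normality of the chart at infinity.
-/

set_option autoImplicit false
set_option linter.style.haveILetI false
set_option linter.unusedSectionVars false

noncomputable section

namespace Fermat.Agent.S18.CuspAbs

open ModularCurve AlgebraicCurve Fermat.Agent.S24 Fermat.Agent.S24.Eval
  Fermat.Agent.S18.Gauss Fermat.Agent.S18.Lattice Fermat.Agent.S18.Charts

/-! ### Fibre sums -/

section Finsupp

theorem mapDomain_apply_eq_sum {α β : Type*} [DecidableEq β] (r : α → β) (D : α →₀ ℤ) (Q : β) :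
    Finsupp.mapDomain r D Q = ∑ P ∈ D.support.filter (fun P => r P = Q), D P := by
  classical
  rw [Finsupp.mapDomain, Finsupp.sum_apply, Finsupp.sum, Finset.sum_filter]
  refine Finset.sum_congr rfl fun P _ => ?_
  rw [Finsupp.single_apply]

end Finsupp

section Fibre

variable {A : ValuationSubring KK} {N : ℕ} [NeZero N]
variable {r : Place KK (FF N) → Place (IsLocalRing.ResidueField A) (FkN A N)}

/-- **Fibre sum.** -/
theorem ord_red_eq_sum (hr : IsPlaceReductionModL A N r) (f : OO A N) (hf : redN A N f ≠ 0)
    (Q : Place (IsLocalRing.ResidueField A) (FkN A N)) :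
    Q.ord (redN A N f) = ∑ P ∈ (dv N (f : FF N)).support.filter
      (fun P => @decide (r P = Q) (Classical.propDecidable _)), P.ord (f : FF N) := by
  classical
  rw [← mapDomain_dv_red hr f hf Q, mapDomain_apply_eq_sum]
  refine Finset.sum_congr ?_ fun P _ => rfl
  ext P
  simp

/-- If `f` is regular on the fibre over `Q`, the order of `red f` at `Q` is at least the order
of `f` at every place of the fibre. -/
theorem ord_le_ord_red (hr : IsPlaceReductionModL A N r) (f : OO A N) (hf : redN A N f ≠ 0)
    (Q : Place (IsLocalRing.ResidueField A) (FkN A N))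
    (hreg : ∀ P, r P = Q → 0 ≤ P.ord (f : FF N)) (P₀ : Place KK (FF N)) (h₀ : r P₀ = Q) :
    P₀.ord (f : FF N) ≤ Q.ord (redN A N f) := by
  classical
  rw [ord_red_eq_sum hr f hf Q]
  have hnn : ∀ P ∈ (dv N (f : FF N)).support.filter
      (fun P => @decide (r P = Q) (Classical.propDecidable _)), 0 ≤ P.ord (f : FF N) := by
    intro P hP
    rw [Finset.mem_filter] at hP
    exact hreg P (by simpa using hP.2)
  by_cases h0 : P₀.ord (f : FF N) = 0
  · rw [h0]
    exact Finset.sum_nonneg hnn
  · have hmem : P₀ ∈ (dv N (f : FF N)).support.filter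
        (fun P => @decide (r P = Q) (Classical.propDecidable _)) := by
      rw [Finset.mem_filter, Finsupp.mem_support_iff, dv_apply]
      exact ⟨h0, by simpa using h₀⟩
    exact Finset.single_le_sum hnn hmem

/-- If `f` has neither zeros nor poles on the fibre over `Q` except possibly at `P₀`, then the
order of `red f` at `Q` is the order of `f` at `P₀`. -/
theorem ord_red_eq_of_unique (hr : IsPlaceReductionModL A N r) (f : OO A N)
    (hf : redN A N f ≠ 0) (Q : Place (IsLocalRing.ResidueField A) (FkN A N))
    (P₀ : Place KK (FF N)) (h₀ : r P₀ = Q)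
    (h : ∀ P, r P = Q → P ≠ P₀ → P.ord (f : FF N) = 0) :
    Q.ord (redN A N f) = P₀.ord (f : FF N) := by
  classical
  rw [ord_red_eq_sum hr f hf Q]
  refine Finset.sum_eq_single P₀ (fun P hP hne => ?_) (fun hP => ?_)
  · rw [Finset.mem_filter] at hP
    exact h P (by simpa using hP.2) hne
  · by_contra h0
    apply hP
    rw [Finset.mem_filter, Finsupp.mem_support_iff, dv_apply]
    exact ⟨h0, by simpa using h₀⟩

/-- If `f` has neither zeros nor poles on the fibre over `Q`, then `red f` is a unit at `Q`. -/
theorem ord_red_eq_zero (hr : IsPlaceReductionModL A N r) (f : OO A N)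
    (hf : redN A N f ≠ 0) (Q : Place (IsLocalRing.ResidueField A) (FkN A N))
    (h : ∀ P, r P = Q → P.ord (f : FF N) = 0) :
    Q.ord (redN A N f) = 0 := by
  classical
  rw [ord_red_eq_sum hr f hf Q]
  refine Finset.sum_eq_zero fun P hP => ?_
  rw [Finset.mem_filter] at hP
  exact h P (by simpa using hP.2)

end Fibre

/-! ### Constants and `j` in the Gauss ring -/

section Const

variable (A : ValuationSubring KK) (N : ℕ) [NeZero N]

/-- The constants of `A`, in the Gauss ring. -/
def cst (c : A) : OO A N := ⟨algebraMap KK (FF N) (c : KK), algebraMap_mem_gaussRing c⟩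

@[simp] theorem coe_cst (c : A) : ((cst A N c : OO A N) : FF N) = algebraMap KK (FF N) (c : KK) :=
  rfl

theorem redN_cst (c : A) :
    redN A N (cst A N c) = algebraMap _ (FkN A N) (IsLocalRing.residue A c) :=
  red_algebraMap c

theorem inc_jqNModC_one :
    inc A (jqNModC A 1) = ((jF N : FF N) : LaurentSeries KK) := by
  show coeffMap A.subtype (jqNModC A 1) = jgenL 1
  rw [coeffMap_jqNModC]
  change jqNModC KK 1 = coeffMap (algebraMap ℚ KK) (jqNModC ℚ 1)
  rw [coeffMap_jqNModC]

theorem jF_mem_OO : jF N ∈ OO A N := by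
  have h : IsInt A (modularFunctionFieldBar N) (FkN A N) (jqNModC A 1) := by
    refine ⟨?_, ?_⟩
    · rw [inc_jqNModC_one A N]
      exact (jF N).2
    · show coeffMap (IsLocalRing.residue A) (jqNModC A 1) ∈ _
      rw [coeffMap_jqNModC, jqNModC_one]
      exact jqModC_mem_full _ N
  have h2 := inc_mem_gaussRing h
  have e : (⟨inc A (jqNModC A 1), h.1⟩ : FF N) = jF N := Subtype.ext (inc_jqNModC_one A N)
  rwa [e] at h2

/-- `j`, in the Gauss ring. -/
def jO : OO A N := ⟨jF N, jF_mem_OO A N⟩

@[simp] theorem coe_jO : ((jO A N : OO A N) : FF N) = jF N := rfl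

theorem redN_jO : redN A N (jO A N) = jb A N := by
  apply Subtype.ext
  rw [jO, redN_eq_rd A N (jF_mem_OO A N) (inc_jqNModC_one A N)]
  show coeffMap (IsLocalRing.residue A) (jqNModC A 1) = jqModC _
  rw [coeffMap_jqNModC, jqNModC_one]

theorem jb_ne_zero : jb A N ≠ 0 := by
  intro h
  have := congrArg Subtype.val h
  exact jqModC_ne_zero_of_nontrivial _ this

theorem jF_inv_mem_OO : (jF N)⁻¹ ∈ OO A N :=
  inv_mem_of_red_ne_zero (f := jO A N) (by rw [redN_jO]; exact jb_ne_zero A N)

/-- `1/j`, in the Gauss ring. -/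
def jinvO : OO A N := ⟨(jF N)⁻¹, jF_inv_mem_OO A N⟩

@[simp] theorem coe_jinvO : ((jinvO A N : OO A N) : FF N) = (jF N)⁻¹ := rfl

theorem jF_ne_zero : jF N ≠ 0 := fun h =>
  (Degree.transcendental_jF N) (by rw [h]; exact isAlgebraic_zero)

theorem redN_jinvO : redN A N (jinvO A N) = (jb A N)⁻¹ := by
  have h1 : jinvO A N * jO A N = 1 := Subtype.ext (inv_mul_cancel₀ (jF_ne_zero N))
  have h2 := congrArg (redN A N) h1
  rw [map_mul, map_one, redN_jO] at h2
  exact eq_inv_of_mul_eq_one_left h2

end Const

/-! ### The values lemma -/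

section Values

variable {A : ValuationSubring KK} {N : ℕ} [NeZero N]
variable {r : Place KK (FF N) → Place (IsLocalRing.ResidueField A) (FkN A N)}

theorem mem_of_ord_nonneg' {k F : Type*} [Field k] [Field F] [Algebra k F] (P : Place k F)
    (f : F) (h : 0 ≤ P.ord f) : f ∈ P.toValuationSubring := by
  rcases eq_or_ne f 0 with rfl | hf
  · exact zero_mem _
  · exact mem_of_ord_nonneg P hf h

theorem residue_eq_zero_of_nonunit {d : A} (hd : d ∈ nonunits A) :
    IsLocalRing.residue A d = 0 :=
  (IsLocalRing.residue_eq_zero_iff d).mpr ((IsLocalRing.mem_maximalIdeal d).mpr hd)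

/-- **The values lemma.**  If the Gauss-integral function `f` is regular on the fibre of `r`
over `Q`, then its value `a` at a place `P₀` of the fibre is integral, and `red f` takes the
value `ā` at `Q`. -/
theorem values (hr : IsPlaceReductionModL A N r) (f : OO A N)
    (Q : Place (IsLocalRing.ResidueField A) (FkN A N))
    (hreg : ∀ P, r P = Q → 0 ≤ P.ord (f : FF N)) (P₀ : Place KK (FF N)) (h₀ : r P₀ = Q)
    (a : KK)
    (ha : (f : FF N) = algebraMap KK (FF N) a ∨
      0 < P₀.ord ((f : FF N) - algebraMap KK (FF N) a)) :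
    ∃ ha' : a ∈ A, redN A N f = algebraMap _ _ (IsLocalRing.residue A ⟨a, ha'⟩) ∨
      0 < Q.ord (redN A N f - algebraMap _ _ (IsLocalRing.residue A ⟨a, ha'⟩)) := by
  by_cases haA : a ∈ A
  · refine ⟨haA, ?_⟩
    set g : OO A N := f - cst A N ⟨a, haA⟩ with hg
    have hgc : (g : FF N) = (f : FF N) - algebraMap KK (FF N) a := rfl
    have hred : redN A N g = redN A N f -
        algebraMap _ _ (IsLocalRing.residue A ⟨a, haA⟩) := by
      rw [hg, map_sub, redN_cst]
    by_cases h0 : redN A N g = 0
    · left
      rw [hred] at h0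
      exact sub_eq_zero.mp h0
    · right
      rw [← hred]
      have hreg' : ∀ P, r P = Q → 0 ≤ P.ord (g : FF N) := by
        intro P hP
        rw [hgc]
        exact ord_nonneg_of_mem P
          (sub_mem (mem_of_ord_nonneg' P _ (hreg P hP)) (P.algebraMap_mem' a))
      have h1 := ord_le_ord_red hr g h0 Q hreg' P₀ h₀
      rcases ha with ha | ha
      · exfalso
        apply h0
        have : g = 0 := Subtype.ext (by rw [hgc, ha, sub_self]; rfl)
        rw [this, map_zero]
      · rw [← hgc] at ha
        omega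
  · exfalso
    obtain ⟨d, hd, hdn⟩ := inv_mem_nonunits_of_not_mem haA
    have ha0 : a ≠ 0 := fun h => haA (h ▸ A.zero_mem)
    set g : OO A N := cst A N d * f - 1 with hg
    have hgc : (g : FF N) = algebraMap KK (FF N) a⁻¹ * (f : FF N) - 1 := by
      rw [← hd]
      rfl
    have hred : redN A N g = -1 := by
      rw [hg, map_sub, map_mul, map_one, redN_cst, residue_eq_zero_of_nonunit hdn, map_zero,
        zero_mul, zero_sub]
    have h0 : redN A N g ≠ 0 := by
      rw [hred]
      exact neg_ne_zero.mpr one_ne_zero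
    have hreg' : ∀ P, r P = Q → 0 ≤ P.ord (g : FF N) := by
      intro P hP
      rw [hgc]
      exact ord_nonneg_of_mem P (sub_mem (mul_mem (P.algebraMap_mem' _)
        (mem_of_ord_nonneg' P _ (hreg P hP))) (one_mem _))
    have h1 := ord_le_ord_red hr g h0 Q hreg' P₀ h₀
    rw [hred, ord_neg, Place.ord_one] at h1
    have hfac : (g : FF N) = algebraMap KK (FF N) a⁻¹ *
        ((f : FF N) - algebraMap KK (FF N) a) := by
      rw [hgc, mul_sub, ← map_mul, inv_mul_cancel₀ ha0, map_one]
    rcases ha with ha | ha
    · apply h0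
      have : g = 0 := Subtype.ext (by rw [hfac, ha, sub_self, mul_zero]; rfl)
      rw [this, map_zero]
    · have hne : (f : FF N) - algebraMap KK (FF N) a ≠ 0 := by
        intro h
        rw [h, Place.ord_zero] at ha
        exact lt_irrefl _ ha
      have hc0 : algebraMap KK (FF N) a⁻¹ ≠ 0 := by
        rw [Ne, map_eq_zero]
        exact inv_ne_zero ha0
      rw [hfac, P₀.ord_mul hc0 hne, ord_algebraMap] at h1
      omega

end Values

/-! ### The characteristic-zero input at the cusps -/

section Input

variable (A : ValuationSubring KK) (N : ℕ) [NeZero N]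

/-- The `j`-invariant of the finite place `P` is integral. -/
def JInt (P : Place KK (FF N)) : Prop :=
  ∃ a : KK, a ∈ A ∧ 0 < P.ord (jF N - algebraMap KK (FF N) a)

/-- **(CUSP-a)**: at every cusp there is a Gauss-integral function with nonzero reduction, of
order one at the cusp, regular at all cusps, whose zeros and poles at the finite places have
integral `j`-invariant. -/
def CuspA : Prop :=
  ∀ c : Place KK (FF N), c.ord (jF N) < 0 → ∃ t : OO A N, redN A N t ≠ 0 ∧
    c.ord (t : FF N) = 1 ∧ (∀ c' : Place KK (FF N), c'.ord (jF N) < 0 → 0 ≤ c'.ord (t : FF N)) ∧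
    (∀ P : Place KK (FF N), 0 ≤ P.ord (jF N) → P.ord (t : FF N) ≠ 0 → JInt A N P)

/-- **(CUSP-b)**: two distinct cusps are separated modulo the maximal ideal of `A` by the values
of a Gauss-integral function, regular at all cusps, whose zeros and poles at the finite places
have integral `j`-invariant. -/
def CuspB : Prop :=
  ∀ c c' : Place KK (FF N), c.ord (jF N) < 0 → c'.ord (jF N) < 0 → c ≠ c' →
    ∃ (f : OO A N) (a a' : KK), a ∈ A ∧ a' ∈ A ∧ a ≠ a' ∧ (a - a')⁻¹ ∈ A ∧
      ((f : FF N) = algebraMap KK (FF N) a ∨ 0 < c.ord ((f : FF N) - algebraMap KK (FF N) a)) ∧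
      ((f : FF N) = algebraMap KK (FF N) a' ∨
        0 < c'.ord ((f : FF N) - algebraMap KK (FF N) a')) ∧
      (∀ c'' : Place KK (FF N), c''.ord (jF N) < 0 → 0 ≤ c''.ord (f : FF N)) ∧
      (∀ P : Place KK (FF N), 0 ≤ P.ord (jF N) → P.ord (f : FF N) ≠ 0 → JInt A N P)

end Input

end Fermat.Agent.S18.CuspAbs
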