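import Mathlib
import Fermat.Prelude.Def_ModularCurve_ReductionModL
import Fermat.Agent.S18.LocalLift
import Fermat.Agent.S18.RedFibre
import Fermat.Agent.S18.ChartLift
import Fermat.Agent.S18.CuspAbs
import Fermat.Agent.S18.HauptParamFF

/-!
# S18 moonshot, leaf [I] (LOC), part 1: the fibre calculus

* `exists_root_approx`: in a commutative ring in which `p` is invertible, `1 + c y` is a `p`-th
  power of an element `1 + c ρ` modulo any power of `c` (linear Newton iteration, pure algebra);
* `Rx r Q`: the subring of the functions regular on the fibre of the place reduction `r` over a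
  place `Q` of the reduced function field; the reduction of a Gauss-integral function regular on
  the fibre is regular at `Q` (`red_mem_of_mem_Rx`);
* `exists_coordinate`: on a normal chart there are a local parameter `t̄` at `Q` and, for every
  place `P` of the fibre, a lift `s_P` of `t̄` in the Gauss ring, regular on the fibre, with a
  simple zero at `P` and no other zero on the fibre.
-/

namespace Fermat.Agent.S18.LocFibre

open ModularCurve AlgebraicCurve IntermediateField
open Fermat.Agent.S18.Gauss Fermat.Agent.S18.Lattice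
open Fermat.Agent.S24 Fermat.Agent.S24.Eval Fermat.Agent.S18.LocalLift
open Fermat.Agent.S18.RedFibre Fermat.Agent.S18.ChartLift

/-! ### Approximate `p`-th roots -/

section Algebra

variable {R : Type*} [CommRing R]

theorem one_add_mul_pow (c ρ : R) (m : ℕ) : ∃ h : R, (1 + c * ρ) ^ m = 1 + c * h := by
  induction m with
  | zero => exact ⟨0, by simp⟩
  | succ m ih =>
    obtain ⟨h, hh⟩ := ih
    exact ⟨h + ρ + c * h * ρ, by rw [pow_succ, hh]; ring⟩

/-- **Approximate roots**: if `p` is invertible, `1 + c y` is a `p`-th power of some `1 + c ρ`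
modulo `c ^ (n + 1)`. -/
theorem exists_root_approx (p : ℕ) (q : R) (hq : (p : R) * q = 1) (c y : R) (n : ℕ) :
    ∃ ρ e : R, 1 + c * y = (1 + c * ρ) ^ p + c ^ (n + 1) * e := by
  induction n with
  | zero => exact ⟨0, y, by simp⟩
  | succ n ih =>
    obtain ⟨ρ, e, h⟩ := ih
    obtain ⟨k, hk⟩ := Polynomial.powAddExpansion (1 + c * ρ) (q * (c ^ (n + 1) * e)) p
    obtain ⟨h', hh'⟩ := one_add_mul_pow c ρ (p - 1)
    refine ⟨ρ + q * (c ^ n * e), -(h' * e + k * q ^ 2 * c ^ n * e ^ 2), ?_⟩
    have e1 : 1 + c * (ρ + q * (c ^ n * e)) = 1 + c * ρ + q * (c ^ (n + 1) * e) := by ring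
    rw [e1, hk]
    linear_combination h - ((p : R) * q * c ^ (n + 1) * e) * hh' -
      (c ^ (n + 1) * e * (1 + c * h')) * hq

/-- the same inside a subring -/
theorem exists_root_approx_subring {F : Type*} [CommRing F] (S : Subring F) (p : ℕ) {q c y : F}
    (hqS : q ∈ S) (hq : (p : F) * q = 1) (hc : c ∈ S) (hy : y ∈ S) (n : ℕ) :
    ∃ ρ ∈ S, ∃ e ∈ S, 1 + c * y = (1 + c * ρ) ^ p + c ^ (n + 1) * e := by
  obtain ⟨ρ, e, h⟩ := exists_root_approx (R := S) p ⟨q, hqS⟩ (Subtype.ext (by
    push_cast
    exact hq)) ⟨c, hc⟩ ⟨y, hy⟩ n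
  refine ⟨ρ, ρ.2, e, e.2, ?_⟩
  have := congrArg (Subtype.val) h
  simpa using this

end Algebra

/-! ### Functions regular on a fibre -/

variable {A : ValuationSubring KK} {N : ℕ} [NeZero N]

/-- The functions regular on the fibre of `r` over `Q`. -/
def Rx (r : Place KK (FF N) → Place (IsLocalRing.ResidueField A) (FkN A N))
    (Q : Place (IsLocalRing.ResidueField A) (FkN A N)) : Subring (FF N) where
  carrier := {g | ∀ P : Place KK (FF N), r P = Q → g ∈ P.toValuationSubring}
  mul_mem' := fun hf hg P hP => mul_mem (hf P hP) (hg P hP)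
  one_mem' := fun P _ => one_mem _
  add_mem' := fun hf hg P hP => add_mem (hf P hP) (hg P hP)
  zero_mem' := fun P _ => zero_mem _
  neg_mem' := fun hf P hP => neg_mem (hf P hP)

variable {r : Place KK (FF N) → Place (IsLocalRing.ResidueField A) (FkN A N)}
variable {Q : Place (IsLocalRing.ResidueField A) (FkN A N)}

omit [NeZero N] in
theorem mem_Rx_iff {g : FF N} : g ∈ Rx r Q ↔ ∀ P : Place KK (FF N), r P = Q → 0 ≤ P.ord g :=
  ⟨fun h P hP => ord_nonneg_of_mem P (h P hP),
    fun h P hP => RegInt.mem_of_ord_nonneg₀ P g (h P hP)⟩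

omit [NeZero N] in
theorem algebraMap_mem_Rx (c : KK) : algebraMap KK (FF N) c ∈ Rx r Q :=
  fun P _ => P.algebraMap_mem' c

omit [NeZero N] in
/-- division by a nonzero constant -/
theorem mem_Rx_of_smul {c : KK} (hc : c ≠ 0) {g : FF N}
    (h : algebraMap KK (FF N) c * g ∈ Rx r Q) : g ∈ Rx r Q := by
  have h1 := mul_mem (algebraMap_mem_Rx (r := r) (Q := Q) c⁻¹) h
  rwa [← mul_assoc, ← map_mul, inv_mul_cancel₀ hc, map_one, one_mul] at h1

/-- **(L0)**: the reduction of a Gauss-integral function regular on the fibre over `Q` has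
non-negative order at `Q`. -/
theorem ord_red_nonneg (hr : IsPlaceReductionModL A N r) (g : OO A N)
    (hg : (g : FF N) ∈ Rx r Q) (h0 : redN A N g ≠ 0) : 0 ≤ Q.ord (redN A N g) := by
  rw [← mapDomain_dv_red hr g h0 Q]
  exact mapDomain_nonneg_of_fibre r _ Q (fun P hP => by
    rw [dv_apply]
    exact mem_Rx_iff.mp hg P hP)

theorem red_mem_of_mem_Rx (hr : IsPlaceReductionModL A N r) (g : OO A N)
    (hg : (g : FF N) ∈ Rx r Q) : redN A N g ∈ Q.toValuationSubring := by
  by_cases h0 : redN A N g = 0
  · rw [h0]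
    exact zero_mem _
  · exact RegInt.mem_of_ord_nonneg₀ Q _ (ord_red_nonneg hr g hg h0)

/-- a function regular on the fibre whose reduction has order `0` at `Q` has no zero on the
fibre -/
theorem ord_eq_zero_of_ord_red (hr : IsPlaceReductionModL A N r) (g : OO A N)
    (hg : (g : FF N) ∈ Rx r Q) (h0 : redN A N g ≠ 0) (h : Q.ord (redN A N g) = 0)
    (P : Place KK (FF N)) (hP : r P = Q) : P.ord (g : FF N) = 0 := by
  have h1 := eq_zero_of_mapDomain_eq_zero r (dv N (g : FF N)) Q (fun P hP => by
    rw [dv_apply]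
    exact mem_Rx_iff.mp hg P hP) (by rw [mapDomain_dv_red hr g h0 Q, h]) P hP
  rwa [dv_apply] at h1

/-- a function regular on the fibre with a zero at `P` whose reduction has order `1` at `Q` has a
simple zero at `P` and no other zero on the fibre -/
theorem ord_of_ord_red_eq_one (hr : IsPlaceReductionModL A N r) (g : OO A N)
    (hg : (g : FF N) ∈ Rx r Q) (h0 : redN A N g ≠ 0) (h : Q.ord (redN A N g) = 1)
    (P : Place KK (FF N)) (hP : r P = Q) (hpos : 0 < P.ord (g : FF N)) :
    P.ord (g : FF N) = 1 ∧ ∀ P', r P' = Q → P' ≠ P → P'.ord (g : FF N) = 0 := by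
  classical
  have h1 := eq_zero_of_mapDomain_eq_zero r (dv N (g : FF N) - Finsupp.single P 1) Q
    (fun P' hP' => by
      rw [Finsupp.sub_apply, dv_apply, Finsupp.single_apply]
      have := mem_Rx_iff.mp hg P' hP'
      split_ifs with hPP'
      · rw [← hPP']
        omega
      · omega)
    (by rw [Finsupp.mapDomain_sub, Finsupp.sub_apply, mapDomain_dv_red hr g h0 Q, h,
          Finsupp.mapDomain_single, hP, Finsupp.single_eq_same, sub_self])
  refine ⟨?_, fun P' hP' hne => ?_⟩
  · have := h1 P hP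
    rw [Finsupp.sub_apply, dv_apply, Finsupp.single_eq_same] at this
    omega
  · have := h1 P' hP'
    rw [Finsupp.sub_apply, dv_apply, Finsupp.single_apply, if_neg (Ne.symm hne)] at this
    omega

/-! ### The local coordinate -/

/-- **(L1)**: on a normal chart, a local parameter `t̄` at `Q` and lifts `s_P` of `t̄` for the
places `P` of the fibre, regular on the fibre, with a simple zero at `P` and no other zero on the
fibre. -/
theorem exists_coordinate (hr : IsPlaceReductionModL A N r) {x : OO A N} {n : ℤ}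
    (hx : FibreData x n)
    (hN : NormalChart A N (fun P => 0 ≤ P.ord (x : FF N)) (fun Q => 0 ≤ Q.ord (redN A N x)))
    (hap : Approx A N (fun Q => 0 ≤ Q.ord (redN A N x)))
    (Q : Place (IsLocalRing.ResidueField A) (FkN A N)) (hQ : 0 ≤ Q.ord (redN A N x)) :
    ∃ (tb : FkN A N) (s : Place KK (FF N) → OO A N), Q.ord tb = 1 ∧
      ∀ P, r P = Q → redN A N (s P) = tb ∧ ((s P : OO A N) : FF N) ∈ Rx r Q ∧
        P.ord ((s P : OO A N) : FF N) = 1 ∧
        ∀ P', r P' = Q → P' ≠ P → P'.ord ((s P : OO A N) : FF N) = 0 := by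
  classical
  obtain ⟨u, hu0, hu, huQ⟩ := hap (Finsupp.single Q 1) (fun Q' => by
    rw [Finsupp.single_apply]
    split_ifs <;> norm_num) Q hQ
  rw [Finsupp.single_eq_same] at huQ
  obtain ⟨t, ht, htreg⟩ := hN u (fun Q' hQ' => by
    have h1 := hu Q' hQ'
    rw [Finsupp.single_apply] at h1
    split_ifs at h1 <;> omega)
  have htRx : (t : FF N) ∈ Rx r Q := mem_Rx_iff.mpr (fun P hP =>
    htreg P (ord_nonneg_of_red hr hx P (by rw [hP]; exact hQ)))
  have key : ∀ P : Place KK (FF N), ∃ sP : OO A N, r P = Q →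
      redN A N sP = u ∧ (sP : FF N) ∈ Rx r Q ∧ P.ord (sP : FF N) = 1 ∧
        ∀ P', r P' = Q → P' ≠ P → P'.ord (sP : FF N) = 0 := by
    intro P
    by_cases hP : r P = Q
    swap
    · exact ⟨0, fun h => absurd h hP⟩
    obtain ⟨c, hc⟩ := HauptParamFF.H1_FF N P (t : FF N) (mem_Rx_iff.mp htRx P hP)
    obtain ⟨hcA, hval⟩ := CuspAbs.values hr t Q (mem_Rx_iff.mp htRx) P hP c hc
    rw [ht] at hval
    -- the value reduces to zero
    have hcres : IsLocalRing.residue A ⟨c, hcA⟩ = 0 := by
      by_contra hne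
      have hcF : algebraMap (IsLocalRing.ResidueField A) (FkN A N)
          (IsLocalRing.residue A ⟨c, hcA⟩) ≠ 0 := fun h0 =>
        hne ((algebraMap (IsLocalRing.ResidueField A) (FkN A N)).injective
          (by rw [h0, map_zero]))
      rcases hval with hval | hval
      · rw [hval, ord_algebraMap] at huQ
        omega
      · have h1 := ord_add_eq_of_lt Q (neg_ne_zero.mpr hcF) hu0 (by
          rw [ord_neg, ord_algebraMap, huQ]
          norm_num)
        rw [ord_neg, ord_algebraMap, neg_add_eq_sub] at h1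
        omega
    set sP : OO A N := t - cO ⟨c, hcA⟩ with hsP
    have hsPr : redN A N sP = u := by
      rw [hsP, map_sub, redN_cO, hcres, map_zero, sub_zero, ht]
    have hsPc : (sP : FF N) = (t : FF N) - algebraMap KK (FF N) c := rfl
    have hsPRx : (sP : FF N) ∈ Rx r Q := by
      rw [hsPc]
      exact sub_mem htRx (algebraMap_mem_Rx c)
    have hsP0 : redN A N sP ≠ 0 := by rw [hsPr]; exact hu0
    have hpos : 0 < P.ord (sP : FF N) := by
      rcases hc with hc | hc
      · exfalso
        apply hsP0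
        have : sP = 0 := Subtype.ext (by rw [hsPc, hc, sub_self]; rfl)
        rw [this, map_zero]
      · rw [hsPc]
        exact hc
    have h1 := ord_of_ord_red_eq_one hr sP hsPRx hsP0 (by rw [hsPr]; exact huQ) P hP hpos
    exact ⟨sP, fun _ => ⟨hsPr, hsPRx, h1.1, h1.2⟩⟩
  choose s hs using key
  exact ⟨u, s, huQ, hs⟩

end Fermat.Agent.S18.LocFibre
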