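import Mathlib
import Fermat.Prelude.Def_ModularCurve_ReductionModL
import Fermat.Agent.S18.LocFibre

/-!
# S18 moonshot, leaf [I] (LOC), part 2: the algebraic core

Let `y, a, S, n₁` be Gauss-integral functions regular on the fibre of `r` over `Q` with
`red y = 1`, `red a = red S = T ≠ 0`, and `c n₁ = y a^p - S^p` with `c ≠ 0`, `p` prime to the
residue characteristic.  Then `red n₁ = T^(p-1) β` with `β` regular at `Q` (`core`).

Proof: `y = ρ^p + c e'` with `ρ, e'` regular on the fibre, `red ρ = 1` (approximate root, using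
the archimedean property of `A`); then `c (n₁ - e' a^p) = (ρ a)^p - S^p = (ρ a - S) H` with
`H = ∑ (ρ a)^i S^(p-1-i)`, `red H = p T^(p-1) ≠ 0`; as the Gauss ring is a valuation ring and
`red H ≠ 0`, `ρ a - S = c w` with `w` in the Gauss ring, whence `n₁ = w H + e' a^p`.
-/

namespace Fermat.Agent.S18.LocCore

open ModularCurve AlgebraicCurve IntermediateField
open Fermat.Agent.S18.Gauss Fermat.Agent.S18.Lattice
open Fermat.Agent.S24 Fermat.Agent.S24.Eval Fermat.Agent.S18.LocalLift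
open Fermat.Agent.S18.LocFibre

variable {A : ValuationSubring KK} {N : ℕ} [NeZero N]
variable {r : Place KK (FF N) → Place (IsLocalRing.ResidueField A) (FkN A N)}
variable {Q : Place (IsLocalRing.ResidueField A) (FkN A N)}

omit [NeZero N] in
theorem cO_mul (c d : A) : (cO (c * d) : OO A N) = cO c * cO d :=
  Subtype.ext (by
    show algebraMap KK (FF N) ((c * d : A) : KK) = algebraMap KK (FF N) c * algebraMap KK (FF N) d
    rw [← map_mul]
    rfl)

omit [NeZero N] in
theorem cO_pow (c : A) (n : ℕ) : (cO (c ^ n) : OO A N) = cO c ^ n :=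
  Subtype.ext (by
    show algebraMap KK (FF N) ((c ^ n : A) : KK) = (algebraMap KK (FF N) c) ^ n
    rw [← map_pow]
    rfl)

omit [NeZero N] in
theorem cO_ne_zero {c : A} (hc : c ≠ 0) : (cO c : OO A N) ≠ 0 := by
  intro h0
  have h1 : algebraMap KK (FF N) (c : KK) = 0 := congrArg Subtype.val h0
  have h2 : (c : KK) = 0 := (algebraMap KK (FF N)).injective (by rw [h1, map_zero])
  exact hc (Subtype.ext h2)

omit [NeZero N] in
theorem cO_mem_Rx (c : A) : ((cO c : OO A N) : FF N) ∈ Rx r Q := algebraMap_mem_Rx _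

theorem redN_cO_nonunit {c : A} (hc : c ∈ nonunits A) : redN A N (cO c) = 0 := by
  rw [redN_cO, (IsLocalRing.residue_eq_zero_iff c).mpr hc, map_zero]

omit [NeZero N] in
/-- division by a nonzero constant of `A` inside `Rx` -/
theorem mem_Rx_of_cO_mul {c : A} (hc : c ≠ 0) {g h : OO A N} (hh : (h : FF N) ∈ Rx r Q)
    (e : cO c * g = h) : (g : FF N) ∈ Rx r Q := by
  have hc' : (c : KK) ≠ 0 := fun h0 => hc (Subtype.ext h0)
  refine mem_Rx_of_smul hc' ?_
  have : algebraMap KK (FF N) (c : KK) * (g : FF N) = (h : FF N) := congrArg Subtype.val e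
  rw [this]
  exact hh

set_option maxHeartbeats 1000000 in
/-- **The algebraic core of the local claim.** -/
theorem core (hr : IsPlaceReductionModL A N r)
    (hdec : Dec A (modularFunctionFieldBar N) (FkN A N))
    (harch : ∀ c : A, c ∈ nonunits A → ∀ d : A, d ≠ 0 → ∃ (n : ℕ) (e : A), c ^ n = d * e)
    (p : ℕ) (hp : ((p : ℕ) : IsLocalRing.ResidueField A) ≠ 0)
    (T : FkN A N) (hTQ : T ∈ Q.toValuationSubring) (hT0 : T ≠ 0)
    (y a S n₁ : OO A N) (hyRx : (y : FF N) ∈ Rx r Q) (haRx : (a : FF N) ∈ Rx r Q)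
    (hSRx : (S : FF N) ∈ Rx r Q) (hy : redN A N y = 1) (ha : redN A N a = T)
    (hS : redN A N S = T) (c : A) (hc0 : c ≠ 0) (hcn : cO c * n₁ = y * a ^ p - S ^ p) :
    ∃ β : FkN A N, β ∈ Q.toValuationSubring ∧ redN A N n₁ = T ^ (p - 1) * β := by
  classical
  have hp1 : 1 ≤ p := by
    rcases Nat.eq_zero_or_pos p with h0 | h0
    · exfalso
      apply hp
      rw [h0, Nat.cast_zero]
    · exact h0
  -- `y = 1 + c' y'`
  obtain ⟨c', hc'n, y', hy'Rx, hyy'⟩ : ∃ c' : A, c' ∈ nonunits A ∧ ∃ y' : OO A N,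
      (y' : FF N) ∈ Rx r Q ∧ y = 1 + cO c' * y' := by
    by_cases hy1 : y = 1
    · refine ⟨0, ?_, 0, zero_mem _, ?_⟩
      · rw [mem_nonunits_iff]
        exact not_isUnit_zero
      · rw [hy1, mul_zero, add_zero]
    · have hne : ((y - 1 : OO A N) : FF N) ≠ 0 := fun h0 => hy1 (by
        have : y - 1 = 0 := Subtype.ext h0
        exact sub_eq_zero.mp this)
      obtain ⟨c', u, hc'n, hc'0, -, hu⟩ := exists_smul_of_red_eq_zero hdec (f := y - 1) hne
        (by rw [map_sub, hy, map_one, sub_self])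
      have e1 : cO c' * u = y - 1 := Subtype.ext (by
        show algebraMap KK (FF N) (c' : KK) * (u : FF N) = ((y - 1 : OO A N) : FF N)
        rw [hu, Algebra.smul_def])
      refine ⟨c', hc'n, u, mem_Rx_of_cO_mul hc'0 (sub_mem hyRx (one_mem _)) e1, ?_⟩
      rw [e1]
      ring
  -- the archimedean property
  obtain ⟨K, d, hK⟩ : ∃ (K : ℕ) (d : A), c' ^ (K + 1) = c * d := by
    obtain ⟨n, e, hne⟩ := harch c' hc'n c hc0
    exact ⟨n, e * c', by rw [pow_succ, hne]; ring⟩
  -- `p` is a unit of `A`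
  obtain ⟨q', hq'⟩ : ∃ q' : A, ((p : ℕ) : A) * q' = 1 := by
    have h1 : IsUnit ((p : ℕ) : A) := by
      by_contra hnu
      apply hp
      have := (IsLocalRing.residue_eq_zero_iff ((p : ℕ) : A)).mpr hnu
      rwa [map_natCast] at this
    exact h1.exists_right_inv
  have hq : ((p : ℕ) : OO A N) * cO q' = 1 := by
    have h1 : ((p : ℕ) : OO A N) = cO ((p : ℕ) : A) := Subtype.ext (by
      show (((p : ℕ) : OO A N) : FF N) = algebraMap KK (FF N) (((p : ℕ) : A) : KK)
      simp)
    rw [h1, ← cO_mul, hq']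
    exact Subtype.ext (by
      show algebraMap KK (FF N) ((1 : A) : KK) = 1
      rw [OneMemClass.coe_one, map_one])
  -- the approximate root
  obtain ⟨ρ', hρ', e, he, hroot⟩ := exists_root_approx_subring
    ((Rx r Q).comap (OO A N).subtype) p (q := cO q') (c := cO c') (y := y')
    (cO_mem_Rx q') hq (cO_mem_Rx c') hy'Rx K
  have hρ'Rx : (ρ' : FF N) ∈ Rx r Q := hρ'
  have heRx : (e : FF N) ∈ Rx r Q := he
  set ρ : OO A N := 1 + cO c' * ρ' with hρ
  have hρRx : (ρ : FF N) ∈ Rx r Q :=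
    add_mem (one_mem _) (mul_mem (cO_mem_Rx c') hρ'Rx)
  have hρr : redN A N ρ = 1 := by
    rw [hρ, map_add, map_mul, map_one, redN_cO_nonunit hc'n, zero_mul, add_zero]
  set e' : OO A N := cO d * e with he'
  have he'Rx : (e' : FF N) ∈ Rx r Q := mul_mem (cO_mem_Rx d) heRx
  have hyρ : y = ρ ^ p + cO c * e' := by
    rw [hyy', hroot, ← cO_pow, hK, cO_mul, he']
    ring
  -- the factorization
  set g₁ : OO A N := ρ * a - S with hg₁
  have hg₁Rx : (g₁ : FF N) ∈ Rx r Q := sub_mem (mul_mem hρRx haRx) hSRx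
  set H : OO A N := ∑ i ∈ Finset.range p, (ρ * a) ^ i * S ^ (p - 1 - i) with hH
  have hgH : H * g₁ = (ρ * a) ^ p - S ^ p := by
    rw [hH, hg₁]
    exact (Commute.all _ _).geom_sum₂_mul p
  have hHr : redN A N H = ((p : ℕ) : FkN A N) * T ^ (p - 1) := by
    rw [hH, map_sum]
    have : ∀ i ∈ Finset.range p,
        redN A N ((ρ * a) ^ i * S ^ (p - 1 - i)) = T ^ (p - 1) := by
      intro i hi
      rw [map_mul, map_pow, map_pow, map_mul, hρr, ha, hS, one_mul, ← pow_add]
      congr 1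
      have := Finset.mem_range.mp hi
      omega
    rw [Finset.sum_congr rfl this, Finset.sum_const, Finset.card_range, nsmul_eq_mul]
  have hpF : ((p : ℕ) : FkN A N) ≠ 0 := by
    have h1 : ((p : ℕ) : FkN A N) =
        algebraMap (IsLocalRing.ResidueField A) (FkN A N) ((p : ℕ) : IsLocalRing.ResidueField A) := by
      rw [map_natCast]
    rw [h1]
    intro h0
    exact hp ((algebraMap (IsLocalRing.ResidueField A) (FkN A N)).injective
      (by rw [h0, map_zero]))
  have hHr0 : redN A N H ≠ 0 := by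
    rw [hHr]
    exact mul_ne_zero hpF (pow_ne_zero _ hT0)
  -- `W`
  set W : OO A N := n₁ - e' * a ^ p with hW
  have hcW : cO c * W = H * g₁ := by
    rw [hgH, hW, mul_sub, hcn, hyρ]
    ring
  have hcO0 : (cO c : OO A N) ≠ 0 := cO_ne_zero hc0
  -- `g₁ = c w`
  obtain ⟨w, hw⟩ : ∃ w : OO A N, cO c * w = g₁ := by
    by_cases hg0 : g₁ = 0
    · exact ⟨0, by rw [mul_zero, hg0]⟩
    have hc' : algebraMap KK (FF N) (c : KK) ≠ 0 := fun h0 => hcO0 (Subtype.ext h0)
    have hg0' : (g₁ : FF N) ≠ 0 := fun h0 => hg0 (Subtype.ext h0)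
    set wF : FF N := (algebraMap KK (FF N) (c : KK))⁻¹ * (g₁ : FF N) with hwF
    have hwF0 : wF ≠ 0 := mul_ne_zero (inv_ne_zero hc') hg0'
    have hmem : wF ∈ OO A N := by
      rcases mem_or_inv_mem hdec wF with h | h
      · exact h
      · by_cases hred : redN A N ⟨wF⁻¹, h⟩ = 0
        · exfalso
          -- `v g₁ = c`
          have hv : (⟨wF⁻¹, h⟩ : OO A N) * g₁ = cO c := Subtype.ext (by
            show wF⁻¹ * (g₁ : FF N) = algebraMap KK (FF N) (c : KK)
            rw [hwF, mul_inv, inv_inv, mul_assoc, inv_mul_cancel₀ hg0', mul_one])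
          have h1 : cO c * ((⟨wF⁻¹, h⟩ : OO A N) * W) = cO c * H := by
            calc cO c * ((⟨wF⁻¹, h⟩ : OO A N) * W)
                = (⟨wF⁻¹, h⟩ : OO A N) * (cO c * W) := by ring
              _ = H * ((⟨wF⁻¹, h⟩ : OO A N) * g₁) := by rw [hcW]; ring
              _ = cO c * H := by rw [hv]; ring
          have h2 : (⟨wF⁻¹, h⟩ : OO A N) * W = H := mul_left_cancel₀ hcO0 h1
          apply hHr0
          rw [← h2, map_mul, hred, zero_mul]
        · have := inv_mem_of_red_ne_zero hred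
          rwa [inv_inv] at this
    exact ⟨⟨wF, hmem⟩, Subtype.ext (by
      show algebraMap KK (FF N) (c : KK) * wF = (g₁ : FF N)
      rw [hwF, ← mul_assoc, mul_inv_cancel₀ hc', one_mul])⟩
  have hwRx : (w : FF N) ∈ Rx r Q := mem_Rx_of_cO_mul hc0 hg₁Rx hw
  have hWw : W = H * w := by
    apply mul_left_cancel₀ hcO0
    rw [hcW, ← hw]
    ring
  have hn₁ : n₁ = H * w + e' * a ^ p := by
    rw [← hWw, hW]
    ring
  refine ⟨((p : ℕ) : FkN A N) * redN A N w + redN A N e' * T, ?_, ?_⟩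
  · exact add_mem (mul_mem (natCast_mem _ p) (red_mem_of_mem_Rx hr w hwRx))
      (mul_mem (red_mem_of_mem_Rx hr e' he'Rx) hTQ)
  · rw [hn₁, map_add, map_mul, map_mul, map_pow, hHr, ha]
    have : T ^ p = T ^ (p - 1) * T := by
      rw [← pow_succ]
      congr 1
      omega
    rw [this]
    ring

end Fermat.Agent.S18.LocCore
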