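import Mathlib
import Fermat.Prelude.Def_ModularCurve_ReductionModL
import Fermat.Agent.S18.LocFibre
import Fermat.Agent.S18.LocCore
import Fermat.Agent.S18.EndGame2
import Fermat.Agent.S18.DecMod

/-!
# S18 moonshot, leaf [I]: the local claim (LOC)

`locNZ`: under `(N)_N` (normality of the reductions of both charts) and the archimedean property
of `A`, for a divisor `D = E₊ - E₋` (`E₊, E₋ ≥ 0`) with `r_* D = 0` and a function `f` of the
Gauss ring with `red f = 1`, `div f = p D` (`p` prime to the residue characteristic), the local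
claim `EndGame2.LocNZ A N r p f E₊ E₋` holds: if `U ∈ L(E₊) ∩ O_v`, `red U = 1` and
`f U^p - 1 = c f₁` with `c ≠ 0`, `f₁ ∈ O_v`, `red f₁ ≠ 0`, then `red f₁ ∈ L̄(r_* E₋)`.

Proof at a place `Q` of the reduced function field: with the local coordinates `s_P` of
`LocFibre.exists_coordinate` put `S± = ∏ s_P^(E±(P))` (product over the fibre), `y = f S₋^p/S₊^p`,
`a = U S₊`, `n₁ = f₁ S₋^p`; then `c n₁ = y a^p - S₋^p` and `LocCore.core` gives
`ord_Q (red n₁) ≥ (p - 1) m`, `m = (r_* E₋)(Q)`, i.e. `ord_Q (red f₁) ≥ - m`.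
-/

namespace Fermat.Agent.S18.Loc

open ModularCurve AlgebraicCurve IntermediateField
open Fermat.Agent.S18.Gauss Fermat.Agent.S18.Lattice
open Fermat.Agent.S24 Fermat.Agent.S24.Eval Fermat.Agent.S18.LocalLift
open Fermat.Agent.S18.RedFibre Fermat.Agent.S18.ChartLift
open Fermat.Agent.S18.LocFibre Fermat.Agent.S18.LocCore

variable {A : ValuationSubring KK} {N : ℕ} [NeZero N]
variable {r : Place KK (FF N) → Place (IsLocalRing.ResidueField A) (FkN A N)}
variable {Q : Place (IsLocalRing.ResidueField A) (FkN A N)}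

/-- A coordinate system on the fibre of `r` over `Q`. -/
def IsCoord (r : Place KK (FF N) → Place (IsLocalRing.ResidueField A) (FkN A N))
    (Q : Place (IsLocalRing.ResidueField A) (FkN A N)) (tb : FkN A N)
    (s : Place KK (FF N) → OO A N) : Prop :=
  Q.ord tb = 1 ∧
    ∀ P, r P = Q → redN A N (s P) = tb ∧ ((s P : OO A N) : FF N) ∈ Rx r Q ∧
      P.ord ((s P : OO A N) : FF N) = 1 ∧
      ∀ P', r P' = Q → P' ≠ P → P'.ord ((s P : OO A N) : FF N) = 0

open scoped Classical in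
/-- The product of the local coordinates with the multiplicities of `E` on the fibre. -/
noncomputable def prodS (r : Place KK (FF N) → Place (IsLocalRing.ResidueField A) (FkN A N))
    (Q : Place (IsLocalRing.ResidueField A) (FkN A N))
    (s : Place KK (FF N) → OO A N) (E : Place KK (FF N) →₀ ℤ) : OO A N :=
  ∏ P ∈ E.support.filter (fun P => r P = Q), s P ^ (E P).toNat

omit [NeZero N] in
theorem prodS_spec {tb : FkN A N} {s : Place KK (FF N) → OO A N} (hs : IsCoord r Q tb s)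
    (E : Place KK (FF N) →₀ ℤ) (hE : ∀ P, 0 ≤ E P) :
    (∃ m : ℕ, (m : ℤ) = Finsupp.mapDomain r E Q ∧ redN A N (prodS r Q s E) = tb ^ m) ∧
    ((prodS r Q s E : OO A N) : FF N) ≠ 0 ∧
    ∀ P', r P' = Q → P'.ord ((prodS r Q s E : OO A N) : FF N) = E P' := by
  classical
  set S := E.support.filter (fun P => r P = Q) with hS
  have hSQ : ∀ P ∈ S, r P = Q := fun P hP => (Finset.mem_filter.mp hP).2
  have hnat : ∀ P, ((E P).toNat : ℤ) = E P := fun P => Int.toNat_of_nonneg (hE P)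
  have hs0 : ∀ P ∈ S, ((s P : OO A N) : FF N) ≠ 0 := by
    intro P hP h0
    have := (hs.2 P (hSQ P hP)).2.2.1
    rw [h0, Place.ord_zero] at this
    omega
  have hcoe : ((prodS r Q s E : OO A N) : FF N) =
      ∏ P ∈ S, ((s P : OO A N) : FF N) ^ (E P).toNat := by
    rw [prodS]
    exact map_prod (OO A N).subtype _ _
  refine ⟨⟨∑ P ∈ S, (E P).toNat, ?_, ?_⟩, ?_, ?_⟩
  · rw [mapDomain_apply_eq_sum, Nat.cast_sum, hS, Finset.sum_filter]
    refine Finset.sum_congr rfl (fun P _ => ?_)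
    split_ifs
    · exact hnat P
    · rfl
  · rw [prodS, map_prod, ← Finset.prod_pow_eq_pow_sum]
    exact Finset.prod_congr rfl (fun P hP => by rw [map_pow, (hs.2 P (hSQ P hP)).1])
  · rw [hcoe]
    exact Finset.prod_ne_zero_iff.mpr (fun P hP => pow_ne_zero _ (hs0 P hP))
  · intro P' hP'
    rw [hcoe, ChartApprox.ord_prod_pow P' S _ _ hs0]
    have h1 : ∀ P ∈ S, ((E P).toNat : ℤ) * P'.ord ((s P : OO A N) : FF N) =
        if P = P' then E P' else 0 := by
      intro P hP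
      split_ifs with hPP'
      · rw [← hPP', (hs.2 P (hSQ P hP)).2.2.1, mul_one, hnat]
      · rw [(hs.2 P (hSQ P hP)).2.2.2 P' hP' (Ne.symm hPP'), mul_zero]
    rw [Finset.sum_congr rfl h1, Finset.sum_ite_eq' S P' (fun _ => E P')]
    split_ifs with hmem
    · rfl
    · by_contra hne
      apply hmem
      rw [hS, Finset.mem_filter, Finsupp.mem_support_iff]
      exact ⟨fun h0 => hne (by rw [h0]), hP'⟩

set_option maxHeartbeats 1000000 in
/-- **The local claim at a place `Q` with a coordinate system on the fibre.** -/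
theorem ord_red_ge (hr : IsPlaceReductionModL A N r)
    (hdec : Dec A (modularFunctionFieldBar N) (FkN A N))
    (harch : ∀ c : A, c ∈ nonunits A → ∀ d : A, d ≠ 0 → ∃ (n : ℕ) (e : A), c ^ n = d * e)
    (p : ℕ) (hp : ((p : ℕ) : IsLocalRing.ResidueField A) ≠ 0)
    (D Ep Em : Divisor KK (FF N)) (hEp : ∀ P, 0 ≤ Ep P) (hEm : ∀ P, 0 ≤ Em P)
    (hE : Ep - Em = D) (hrD : Finsupp.mapDomain r D = 0)
    (f : OO A N) (hf : redN A N f = 1)
    (hfD : ∀ P : Place KK (FF N), ((p : ℕ) : ℤ) * D P = P.ord (f : FF N))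
    {tb : FkN A N} {s : Place KK (FF N) → OO A N} (hs : IsCoord r Q tb s)
    (U : OO A N) (hU : (U : FF N) ∈ riemannRochSpace Ep) (hredU : redN A N U = 1)
    (c : A) (hc0 : c ≠ 0) (f₁ : OO A N) (hf₁ : redN A N f₁ ≠ 0)
    (heq : (f : FF N) * (U : FF N) ^ p - 1 = (c : KK) • (f₁ : FF N)) :
    -(Finsupp.mapDomain r Em Q) ≤ Q.ord (redN A N f₁) := by
  classical
  have hp1 : 1 ≤ p := by
    rcases Nat.eq_zero_or_pos p with h0 | h0
    · exfalso
      apply hp
      rw [h0, Nat.cast_zero]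
    · exact h0
  obtain ⟨⟨m, hm, hSpr⟩, hSp0, hSpord⟩ := prodS_spec hs Ep hEp
  obtain ⟨⟨m', hm', hSmr⟩, hSm0, hSmord⟩ := prodS_spec hs Em hEm
  set Sp : OO A N := prodS r Q s Ep with hSp
  set Sm : OO A N := prodS r Q s Em with hSm
  have hmm : m' = m := by
    have h1 : Finsupp.mapDomain r (Ep - Em) = 0 := by rw [hE, hrD]
    rw [Finsupp.mapDomain_sub, sub_eq_zero] at h1
    have h2 : (m : ℤ) = (m' : ℤ) := by rw [hm, hm', h1]
    exact_mod_cast h2.symm
  rw [hmm] at hSmr hm'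
  have htb0 : tb ≠ 0 := by
    intro h0
    have := hs.1
    rw [h0, Place.ord_zero] at this
    omega
  have hT0 : tb ^ m ≠ 0 := pow_ne_zero _ htb0
  have htbQ : tb ∈ Q.toValuationSubring :=
    RegInt.mem_of_ord_nonneg₀ Q tb (by rw [hs.1]; norm_num)
  have hSpr0 : redN A N Sp ≠ 0 := by rw [hSpr]; exact hT0
  set SpInv : OO A N := ⟨((Sp : OO A N) : FF N)⁻¹, inv_mem_of_red_ne_zero hSpr0⟩ with hSpInv
  have hSS : Sp * SpInv = 1 := Subtype.ext (mul_inv_cancel₀ hSp0)
  have hSpInvr : redN A N SpInv = (tb ^ m)⁻¹ := by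
    have h1 := congrArg (redN A N) hSS
    rw [map_mul, map_one, hSpr] at h1
    exact eq_inv_of_mul_eq_one_right h1
  have hf0 : (f : FF N) ≠ 0 := by
    intro h0
    have : f = 0 := Subtype.ext h0
    rw [this, map_zero] at hf
    exact zero_ne_one hf
  have hU0 : (U : FF N) ≠ 0 := by
    intro h0
    have : U = 0 := Subtype.ext h0
    rw [this, map_zero] at hredU
    exact zero_ne_one hredU
  have hDP : ∀ P, D P = Ep P - Em P := fun P => by rw [← hE, Finsupp.sub_apply]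
  -- `y`
  set y : OO A N := f * Sm ^ p * SpInv ^ p with hy
  have hyc : (y : FF N) = (f : FF N) * (Sm : FF N) ^ p * ((Sp : FF N)⁻¹) ^ p := rfl
  have hyRx : (y : FF N) ∈ Rx r Q := by
    rw [mem_Rx_iff]
    intro P hP
    rw [hyc, P.ord_mul (mul_ne_zero hf0 (pow_ne_zero _ hSm0)) (pow_ne_zero _ (inv_ne_zero hSp0)),
      P.ord_mul hf0 (pow_ne_zero _ hSm0), ord_pow, ord_pow, P.ord_inv, hSpord P hP,
      hSmord P hP, ← hfD P, hDP P]
    apply le_of_eq
    ring
  have hyr : redN A N y = 1 := by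
    rw [hy, map_mul, map_mul, map_pow, map_pow, hf, hSmr, hSpInvr, one_mul, ← mul_pow,
      mul_inv_cancel₀ hT0, one_pow]
  -- `a`
  set a : OO A N := U * Sp with ha
  have haRx : (a : FF N) ∈ Rx r Q := by
    rw [mem_Rx_iff]
    intro P hP
    have hac : (a : FF N) = (U : FF N) * (Sp : FF N) := rfl
    rw [hac, P.ord_mul hU0 hSp0, hSpord P hP]
    have := ((mem_riemannRochSpace_iff.mp hU) P).resolve_left hU0
    omega
  have har : redN A N a = tb ^ m := by
    rw [ha, map_mul, hredU, one_mul, hSpr]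
  have hSmRx : (Sm : FF N) ∈ Rx r Q := by
    rw [mem_Rx_iff]
    intro P hP
    rw [hSmord P hP]
    exact hEm P
  -- the equation
  have hcf : cO c * f₁ = f * U ^ p - 1 := Subtype.ext (by
    show algebraMap KK (FF N) (c : KK) * (f₁ : FF N) = (f : FF N) * (U : FF N) ^ p - 1
    rw [heq, Algebra.smul_def])
  have h1 : SpInv ^ p * Sp ^ p = 1 := by rw [← mul_pow, mul_comm, hSS, one_pow]
  have hcn : cO c * (f₁ * Sm ^ p) = y * a ^ p - Sm ^ p := by
    calc cO c * (f₁ * Sm ^ p) = (cO c * f₁) * Sm ^ p := by ring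
      _ = (f * U ^ p - 1) * Sm ^ p := by rw [hcf]
      _ = f * Sm ^ p * (SpInv ^ p * Sp ^ p) * U ^ p - Sm ^ p := by rw [h1]; ring
      _ = y * a ^ p - Sm ^ p := by rw [hy, ha, mul_pow]; ring
  obtain ⟨β, hβQ, hβ⟩ := core hr hdec harch p hp (tb ^ m) (pow_mem htbQ m) hT0 y a Sm
    (f₁ * Sm ^ p) hyRx haRx hSmRx hyr har hSmr c hc0 hcn
  rw [map_mul, map_pow, hSmr] at hβ
  have hβ0 : β ≠ 0 := by
    intro h0
    rw [h0, mul_zero] at hβ
    exact (mul_ne_zero hf₁ (pow_ne_zero _ hT0)) hβ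
  have h2 := congrArg Q.ord hβ
  have hordT : Q.ord (tb ^ m) = m := by rw [ord_pow, hs.1, mul_one]
  rw [Q.ord_mul hf₁ (pow_ne_zero _ hT0), Q.ord_mul (pow_ne_zero _ hT0) hβ0,
    ord_pow Q (tb ^ m) p, ord_pow Q (tb ^ m) (p - 1), hordT] at h2
  have h3 : 0 ≤ Q.ord β := ord_nonneg_of_mem Q hβQ
  rw [← hm']
  have h4 : ((p - 1 : ℕ) : ℤ) = (p : ℤ) - 1 := by
    rw [Nat.cast_sub hp1]
    norm_num
  rw [h4] at h2
  linarith

variable {ℓ : ℕ} [Fact ℓ.Prime]

/-- a coordinate system exists on every fibre -/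
theorem exists_isCoord (hr : IsPlaceReductionModL A N r) (hA : A.LiesOverPrime ℓ)
    (hℓN : ¬ ℓ ∣ N) (hN : Charts.NormalStmt A N)
    (Q : Place (IsLocalRing.ResidueField A) (FkN A N)) :
    ∃ (tb : FkN A N) (s : Place KK (FF N) → OO A N), IsCoord r Q tb s := by
  by_cases hQ : 0 ≤ Q.ord (Charts.jb A N)
  · obtain ⟨tb, s, h1, h2⟩ := exists_coordinate hr (fibreData_j hA hℓN)
      (normalChart1 A N hN.1) (approx1 A N) Q (by rw [redN_jO]; exact hQ)
    exact ⟨tb, s, h1, h2⟩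
  · obtain ⟨tb, s, h1, h2⟩ := exists_coordinate hr (fibreData_jinv hA hℓN)
      (normalChart2 A N hN.2) (approx2 A N) Q (by
        rw [redN_jinvO, Q.ord_inv]
        omega)
    exact ⟨tb, s, h1, h2⟩

/-- **(LOC)**: the local claim, from `(N)_N` and the archimedean property of `A`. -/
theorem locNZ (hr : IsPlaceReductionModL A N r) (hA : A.LiesOverPrime ℓ) (hℓN : ¬ ℓ ∣ N)
    (hN : Charts.NormalStmt A N)
    (harch : ∀ c : A, c ∈ nonunits A → ∀ d : A, d ≠ 0 → ∃ (n : ℕ) (e : A), c ^ n = d * e)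
    (p : ℕ) (hp : ((p : ℕ) : IsLocalRing.ResidueField A) ≠ 0)
    (D Ep Em : Divisor KK (FF N)) (hEp : ∀ P, 0 ≤ Ep P) (hEm : ∀ P, 0 ≤ Em P)
    (hE : Ep - Em = D) (hrD : Finsupp.mapDomain r D = 0)
    (f : OO A N) (hf : redN A N f = 1)
    (hfD : ∀ P : Place KK (FF N), ((p : ℕ) : ℤ) * D P = P.ord (f : FF N)) :
    EndGame2.LocNZ A N r p f Ep Em := by
  intro U hU hredU c hc0 f₁ hf₁ heq
  rw [mem_riemannRochSpace_iff]
  intro Q
  right
  obtain ⟨tb, s, hs⟩ := exists_isCoord hr hA hℓN hN Q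
  exact ord_red_ge hr (DecMod.dec N hA hℓN) harch p hp D Ep Em hEp hEm hE hrD f hf hfD hs
    U hU hredU c hc0 f₁ hf₁ heq

end Fermat.Agent.S18.Loc
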