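import Mathlib

/-!
# S18 (norm descent), abstract leaf B: the order of a norm at a prime of the base

`R ⊆ S` Dedekind domains, `S` finite and torsion free over `R`, `p` a nonzero maximal ideal of
`R` such that every prime of `S` over `p` has inertia degree one.  Then

* `relNorm_eq` : the relative norm of a prime `P` over `p` is `p` itself;
* `exists_le_of_relNorm_le` : a nonzero ideal whose relative norm lies in `p` is contained in a
  prime over `p`;
* `intNorm_mem`, `intNorm_notMem_sq` : if `t` has order exactly one at one prime `P₁` over `p`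
  and is a unit at the other primes over `p`, then `Algebra.intNorm R S t ∈ p \ p ^ 2`;
* `intNorm_notMem` : if `t` lies in no prime over `p`, then `Algebra.intNorm R S t ∉ p`.

The precise Mathlib statement `Ideal.relNorm_eq_pow_of_isMaximal` needs a perfect fraction
field; here the fraction field is a function field in characteristic `ℓ`, so we count instead:
`∑ e s = [S : R] = ∑ e f` with `s ≥ 1 = f`.
-/

set_option autoImplicit false
set_option linter.style.haveILetI false
set_option linter.unusedSectionVars false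

namespace Fermat.Agent.S18.NormOrd

open Ideal Module

variable {R S : Type*} [CommRing R] [IsDedekindDomain R] [CommRing S] [IsDedekindDomain S]
  [Algebra R S] [Module.Finite R S] [IsTorsionFree R S]

/-- the exponent of the relative norm of a prime over `p` is positive -/
theorem exists_relNorm_eq_pow (p : Ideal R) [p.IsMaximal] (Q : Ideal S)
    (hQ : Q ∈ p.primesOver S) : ∃ s : ℕ, 1 ≤ s ∧ relNorm R Q = p ^ s := by
  haveI : Q.IsPrime := hQ.1
  haveI : Q.LiesOver p := hQ.2
  obtain ⟨s, hs⟩ := exists_relNorm_eq_pow_of_isPrime Q p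
  refine ⟨s, ?_, hs⟩
  by_contra h0
  have hs0 : s = 0 := by omega
  rw [hs0, pow_zero, Ideal.one_eq_top] at hs
  have h1 : relNorm R Q ≤ comap (algebraMap R S) Q := relNorm_le_comap R Q
  rw [hs, ← Ideal.under_def, ← Ideal.over_def Q p] at h1
  exact (IsMaximal.ne_top (I := p) inferInstance) (top_le_iff.mp h1)


/-- **Relative norm of a prime of inertia degree one.** -/
theorem relNorm_eq (p : Ideal R) [p.IsMaximal] (hp : p ≠ ⊥)
    (hf : ∀ Q ∈ p.primesOver S, Q.inertiaDeg R = 1) (P : Ideal S) (hP : P ∈ p.primesOver S) :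
    relNorm R P = p := by
  classical
  have hex : ∀ Q : Ideal S, ∃ s : ℕ, Q ∈ p.primesOver S → 1 ≤ s ∧ relNorm R Q = p ^ s := by
    intro Q
    by_cases hQ : Q ∈ p.primesOver S
    · obtain ⟨s, h1, h2⟩ := exists_relNorm_eq_pow p Q hQ
      exact ⟨s, fun _ => ⟨h1, h2⟩⟩
    · exact ⟨0, fun h => absurd h hQ⟩
  choose s hs using hex
  have key := relNorm_algebraMap S p
  rw [map_algebraMap_eq_finsetProd_pow hp, map_prod] at key
  have key2 : ∏ Q ∈ (p.primesOver S).toFinset, relNorm R (Q ^ Q.ramificationIdx R)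
      = p ^ ∑ Q ∈ (p.primesOver S).toFinset, s Q * Q.ramificationIdx R := by
    rw [← Finset.prod_pow_eq_pow_sum]
    refine Finset.prod_congr rfl fun Q hQ => ?_
    rw [Set.mem_toFinset] at hQ
    rw [map_pow, (hs Q hQ).2, ← pow_mul]
  rw [key2] at key
  have hinj : Function.Injective (fun n : ℕ => p ^ n) := by
    have hp1 : p ≠ ⊤ := IsMaximal.ne_top inferInstance
    intro a b hab
    simp only at hab
    by_contra hne
    rcases Nat.lt_or_gt_of_ne hne with h | h
    · exact (Ideal.pow_right_strictAnti p hp hp1 h).ne' hab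
    · exact (Ideal.pow_right_strictAnti p hp hp1 h).ne hab
  have hsum : ∑ Q ∈ (p.primesOver S).toFinset, s Q * Q.ramificationIdx R = finrank R S :=
    hinj key
  have hsum2 := sum_ramification_inertia_eq_finrank p S
  rw [← Finset.sum_set_coe] at hsum
  have hsum3 : ∑ q : p.primesOver S, q.1.ramificationIdx R = finrank R S := by
    rw [← hsum2]
    refine Finset.sum_congr rfl fun q _ => ?_
    rw [hf q.1 q.2, mul_one]
  have hsplit : ∀ q : p.primesOver S, s q.1 * q.1.ramificationIdx R
      = q.1.ramificationIdx R + (s q.1 - 1) * q.1.ramificationIdx R := by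
    intro q
    have h1 := (hs q.1 q.2).1
    obtain ⟨m, hm⟩ := Nat.exists_eq_add_of_le h1
    rw [hm]
    simp only [Nat.add_sub_cancel_left]
    ring
  have hzero : ∑ q : p.primesOver S, (s q.1 - 1) * q.1.ramificationIdx R = 0 := by
    have h4 : ∑ q : p.primesOver S, s q.1 * q.1.ramificationIdx R
        = ∑ q : p.primesOver S, q.1.ramificationIdx R
          + ∑ q : p.primesOver S, (s q.1 - 1) * q.1.ramificationIdx R := by
      rw [← Finset.sum_add_distrib]
      exact Finset.sum_congr rfl fun q _ => hsplit q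
    rw [hsum, hsum3] at h4
    omega
  have hP0 := (Finset.sum_eq_zero_iff.mp hzero) ⟨P, hP⟩ (Finset.mem_univ _)
  haveI : P.IsPrime := hP.1
  have he : 0 < P.ramificationIdx R := ramificationIdx_pos P R
  have hsP : s P = 1 := by
    have h5 : s P - 1 = 0 := by
      rcases Nat.mul_eq_zero.mp hP0 with h | h
      · exact h
      · simp only at h
        omega
    have h6 := (hs P hP).1
    omega
  rw [(hs P hP).2, hsP, pow_one]


/-- A nonzero ideal whose relative norm is contained in `p` lies in a prime over `p`. -/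
theorem exists_le_of_relNorm_le (p : Ideal R) [p.IsMaximal] (hp : p ≠ ⊥) (I : Ideal S)
    (hI : I ≠ ⊥) (hle : relNorm R I ≤ p) : ∃ Q ∈ p.primesOver S, I ≤ Q := by
  classical
  revert hI hle
  refine UniqueFactorizationMonoid.induction_on_prime (P := fun I : Ideal S =>
    I ≠ ⊥ → relNorm R I ≤ p → ∃ Q ∈ p.primesOver S, I ≤ Q) I ?_ ?_ ?_
  · intro h
    exact absurd rfl h
  · intro J hJ _ hle
    rw [Ideal.isUnit_iff] at hJ
    rw [hJ, relNorm_top] at hle
    exact absurd (top_le_iff.mp hle) (IsMaximal.ne_top inferInstance)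
  · intro J Q hJ0 hQ ih hQJ hle
    have hQprime : Q.IsPrime := Ideal.isPrime_of_prime hQ
    have hQ0 : Q ≠ ⊥ := hQ.ne_zero
    rw [map_mul] at hle
    rcases (IsMaximal.isPrime (I := p) inferInstance).mul_le.mp hle with h | h
    · -- `Q` lies over `p`
      haveI : Q.LiesOver (Q.under R) := ⟨rfl⟩
      haveI : (Q.under R).IsPrime := Ideal.IsPrime.under R Q
      obtain ⟨s, hs⟩ := exists_relNorm_eq_pow_of_isPrime Q (Q.under R)
      rw [hs] at h
      have h1 : Q.under R ≤ p := (IsMaximal.isPrime (I := p) inferInstance).le_of_pow_le h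
      have h2 : Q.under R ≠ ⊥ := by
        intro h0
        exact hQ0 (Ideal.eq_bot_of_comap_eq_bot h0)
      have h3 : (Q.under R).IsMaximal := Ring.DimensionLEOne.maximalOfPrime h2 inferInstance
      have h4 : Q.under R = p := h3.eq_of_le (IsMaximal.ne_top inferInstance) h1
      exact ⟨Q, ⟨hQprime, ⟨h4.symm⟩⟩, Ideal.mul_le_left⟩
    · have hJ0' : J ≠ ⊥ := hJ0
      obtain ⟨Q', hQ', hle'⟩ := ih hJ0' h
      exact ⟨Q', hQ', Ideal.mul_le_right.trans hle'⟩


/-- If `t` lies in no prime over `p`, its norm is not in `p`. -/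
theorem intNorm_notMem (p : Ideal R) [p.IsMaximal] (hp : p ≠ ⊥) (t : S)
    (ht : ∀ Q ∈ p.primesOver S, t ∉ Q) : Algebra.intNorm R S t ∉ p := by
  intro hmem
  have ht0 : t ≠ 0 := by
    rintro rfl
    obtain ⟨Q, hQ1, hQ2⟩ := exists_maximal_ideal_liesOver_of_isIntegral (S := S) p
    exact ht Q ⟨hQ1.isPrime, hQ2⟩ Q.zero_mem
  have hI : Ideal.span ({t} : Set S) ≠ ⊥ := by
    rw [Ne, Ideal.span_singleton_eq_bot]
    exact ht0
  have hle : relNorm R (Ideal.span ({t} : Set S)) ≤ p := by
    rw [relNorm_singleton, Ideal.span_singleton_le_iff_mem]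
    exact hmem
  obtain ⟨Q, hQ, hQle⟩ := exists_le_of_relNorm_le p hp _ hI hle
  exact ht Q hQ (hQle (Ideal.mem_span_singleton_self t))

/-- The ideal `(t)` is `P₁ * J` with `J` prime to `p`, when `t` has order one at `P₁` and is a
unit at the other primes over `p`. -/
theorem exists_factor (p : Ideal R) [p.IsMaximal] (hp : p ≠ ⊥) (P₁ : Ideal S)
    (t : S) (ht1 : t ∈ P₁) (ht2 : t ∉ P₁ ^ 2)
    (hother : ∀ Q ∈ p.primesOver S, Q ≠ P₁ → t ∉ Q) :
    ∃ J : Ideal S, Ideal.span ({t} : Set S) = P₁ * J ∧ ¬ relNorm R J ≤ p := by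
  have hdvd : P₁ ∣ Ideal.span ({t} : Set S) := by
    rw [Ideal.dvd_iff_le, Ideal.span_singleton_le_iff_mem]
    exact ht1
  obtain ⟨J, hJ⟩ := hdvd
  refine ⟨J, hJ, fun hle => ?_⟩
  have ht0 : t ≠ 0 := by
    rintro rfl
    exact ht2 (Ideal.zero_mem _)
  have hJ0 : J ≠ ⊥ := by
    rintro rfl
    rw [Ideal.mul_bot, Ideal.span_singleton_eq_bot] at hJ
    exact ht0 hJ
  obtain ⟨Q, hQ, hQle⟩ := exists_le_of_relNorm_le p hp J hJ0 hle
  have htJ : t ∈ P₁ * J := by
    rw [← hJ]
    exact Ideal.mem_span_singleton_self t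
  by_cases hQP : Q = P₁
  · subst hQP
    apply ht2
    rw [pow_two]
    have hmono : Q * J ≤ Q * Q := Ideal.mul_mono_right hQle
    exact hmono htJ
  · have hJle : P₁ * J ≤ J := Ideal.mul_le_right
    have htJ' : t ∈ J := hJle htJ
    exact hother Q hQ hQP (hQle htJ')

/-- **The norm of a local parameter is a local parameter** (membership). -/
theorem intNorm_mem (p : Ideal R) [p.IsMaximal] (P₁ : Ideal S)
    (hP₁ : P₁ ∈ p.primesOver S) (t : S) (ht1 : t ∈ P₁) : Algebra.intNorm R S t ∈ p := by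
  haveI : P₁.LiesOver p := hP₁.2
  have h1 : Algebra.intNorm R S t ∈ relNorm R P₁ := by
    rw [relNorm_apply]
    exact Ideal.subset_span ⟨t, ht1, rfl⟩
  have h2 := relNorm_le_comap R P₁ h1
  rw [← Ideal.under_def, ← Ideal.over_def P₁ p] at h2
  exact h2

/-- **The norm of a local parameter is a local parameter** (order exactly one). -/
theorem intNorm_notMem_sq (p : Ideal R) [p.IsMaximal] (hp : p ≠ ⊥)
    (hf : ∀ Q ∈ p.primesOver S, Q.inertiaDeg R = 1) (P₁ : Ideal S)
    (hP₁ : P₁ ∈ p.primesOver S) (t : S) (ht1 : t ∈ P₁) (ht2 : t ∉ P₁ ^ 2)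
    (hother : ∀ Q ∈ p.primesOver S, Q ≠ P₁ → t ∉ Q) :
    Algebra.intNorm R S t ∉ p ^ 2 := by
  intro hmem
  obtain ⟨J, hJ, hJp⟩ := exists_factor p hp P₁ t ht1 ht2 hother
  have h1 : relNorm R (Ideal.span ({t} : Set S)) = p * relNorm R J := by
    rw [hJ, map_mul, relNorm_eq p hp hf P₁ hP₁]
  rw [relNorm_singleton] at h1
  have h2 : p * relNorm R J ≤ p ^ 2 := by
    rw [← h1, Ideal.span_singleton_le_iff_mem]
    exact hmem
  rw [pow_two, ← Ideal.dvd_iff_le] at h2
  obtain ⟨K, hK⟩ := h2
  rw [mul_assoc] at hK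
  have hp0 : p ≠ 0 := hp
  have h3 : relNorm R J = p * K := mul_left_cancel₀ hp0 hK
  apply hJp
  rw [h3]
  exact (Ideal.mul_le_left : p * K ≤ p)

/-- inertia degree one from surjectivity of the residue maps, in elementary terms -/
theorem inertiaDeg_eq_one (p : Ideal R) [p.IsMaximal] (Q : Ideal S) (hQ : Q ∈ p.primesOver S)
    (hres : ∀ x : S, ∃ r : R, x - algebraMap R S r ∈ Q) : Q.inertiaDeg R = 1 := by
  haveI : Q.IsPrime := hQ.1
  haveI : Q.LiesOver p := hQ.2
  haveI : Q.IsMaximal := IsMaximal.of_liesOver_isMaximal Q p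
  rw [inertiaDeg_eq_of_isMaximal p Q]
  letI : Field (R ⧸ p) := Quotient.field p
  letI : Field (S ⧸ Q) := Quotient.field Q
  apply le_antisymm
  · have hsurj : Function.Surjective (algebraMap (R ⧸ p) (S ⧸ Q)) := by
      intro y
      obtain ⟨x, rfl⟩ := Ideal.Quotient.mk_surjective y
      obtain ⟨r, hr⟩ := hres x
      refine ⟨Ideal.Quotient.mk p r, ?_⟩
      rw [Ideal.Quotient.algebraMap_mk_of_liesOver]
      exact ((Ideal.Quotient.mk_eq_mk_iff_sub_mem _ _).mpr hr).symm
    have h1 := LinearMap.finrank_range_le (Algebra.linearMap (R ⧸ p) (S ⧸ Q))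
    have h2 : LinearMap.range (Algebra.linearMap (R ⧸ p) (S ⧸ Q)) = ⊤ :=
      LinearMap.range_eq_top.mpr hsurj
    rw [h2, finrank_top, Module.finrank_self] at h1
    exact h1
  · exact Nat.one_le_iff_ne_zero.mpr (inertiaDeg_eq_of_isMaximal p Q ▸ (inertiaDeg_pos Q R).ne')

end Fermat.Agent.S18.NormOrd
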