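import Mathlib
import Fermat.Agent.S18.NormCrit
import Fermat.Agent.S18.NormOrd

/-!
# S18 (norm descent), abstract main theorem

`B ⊆ B'` Dedekind domains, `B'` finite and torsion free over `B`, `k → B` a field over which all
residue fields of `B` and of `B'` are trivial.  If a `k`-subalgebra `R ⊆ B` (with `B` finite over
`R`) contains the norms of ALL elements of `B'`, then `R = B`.

In the application `B = B1b` (integral closure of `k[jb]` in `Fb`, level `N`), `B' = B1b'` (level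
`N'`), `R = R1 = rho(O1)`; the hypothesis `hnorm` is `(N)_N'` + `NormRed.residue_norm`: every
element of `B1b'` lifts to `O1'`, the norm of the lift lies in `O1` and reduces to the norm.
-/

set_option autoImplicit false
set_option linter.style.haveILetI false
set_option linter.unusedSectionVars false

namespace Fermat.Agent.S18.NormDescent

open Ideal Module

variable {B B' : Type*} [CommRing B] [IsDedekindDomain B]
  [CommRing B'] [IsDedekindDomain B'] [Algebra B B'] [Module.Finite B B'] [IsTorsionFree B B']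

/-- a prime over a nonzero maximal ideal is a nonzero prime -/
theorem prime_of_mem_primesOver (𝔫 : Ideal B) [𝔫.IsMaximal] (h0 : 𝔫 ≠ ⊥) (Q : Ideal B')
    (hQ : Q ∈ 𝔫.primesOver B') : Prime Q := by
  haveI : Q.IsPrime := hQ.1
  haveI : Q.LiesOver 𝔫 := hQ.2
  refine Ideal.prime_of_isPrime ?_ hQ.1
  intro hbot
  apply h0
  have h1 : 𝔫 = Q.under B := Ideal.over_def Q 𝔫
  rw [h1, hbot]
  exact Ideal.under_bot B B'


/-- **Approximation.**  For a nonzero maximal ideal `𝔫` and a finite set `T` of nonzero primes of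
`B'`, none of them over `𝔫`, there is `t' ∈ B'` of order one at ONE prime `P₁` over `𝔫`, which is
a unit at the other primes over `𝔫` and at the primes in `T`. -/
theorem exists_param (𝔫 : Ideal B) [𝔫.IsMaximal] (h0 : 𝔫 ≠ ⊥) (T : Finset (Ideal B'))
    (hT : ∀ Q ∈ T, Prime Q) (hT' : ∀ Q ∈ T, Q ∉ 𝔫.primesOver B') :
    ∃ P₁ ∈ 𝔫.primesOver B', ∃ t' : B', t' ∈ P₁ ∧ t' ∉ P₁ ^ 2 ∧
      (∀ Q ∈ 𝔫.primesOver B', Q ≠ P₁ → t' ∉ Q) ∧ ∀ Q ∈ T, t' ∉ Q := by
  classical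
  obtain ⟨P₁, hP₁max, hP₁over⟩ := exists_maximal_ideal_liesOver_of_isIntegral (S := B') 𝔫
  have hP₁ : P₁ ∈ 𝔫.primesOver B' := ⟨hP₁max.isPrime, hP₁over⟩
  have hP₁prime : Prime P₁ := prime_of_mem_primesOver 𝔫 h0 P₁ hP₁
  have hP₁0 : P₁ ≠ ⊥ := hP₁prime.ne_zero
  have hP₁top : P₁ ≠ ⊤ := hP₁max.ne_top
  -- an element of `P₁ \ P₁ ^ 2`
  have hlt : P₁ ^ 2 < P₁ := by
    have := Ideal.pow_right_strictAnti P₁ hP₁0 hP₁top (show 1 < 2 by norm_num)
    simpa using this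
  obtain ⟨π, hπ, hπ2⟩ := SetLike.exists_of_lt hlt
  set s : Finset (Ideal B') := (𝔫.primesOver B').toFinset ∪ T with hs
  have hsprime : ∀ Q ∈ s, Prime ((id : Ideal B' → Ideal B') Q) := by
    intro Q hQ
    rcases Finset.mem_union.mp hQ with h | h
    · exact prime_of_mem_primesOver 𝔫 h0 Q (Set.mem_toFinset.mp h)
    · exact hT Q h
  obtain ⟨y, hy⟩ := IsDedekindDomain.exists_forall_sub_mem_ideal (s := s)
    (id : Ideal B' → Ideal B') (fun Q => if Q = P₁ then 2 else 1) hsprime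
    (fun i _ j _ hij => hij) (fun Q => if (Q : Ideal B') = P₁ then π else 1)
  have hP₁s : P₁ ∈ s := Finset.mem_union_left _ (Set.mem_toFinset.mpr hP₁)
  have hy1 := hy P₁ hP₁s
  simp only [id, if_true] at hy1
  have hyP : y ∈ P₁ := by
    have h1 : y - π ∈ P₁ := hlt.le hy1
    have h2 : y = (y - π) + π := by ring
    rw [h2]
    exact P₁.add_mem h1 hπ
  have hyP2 : y ∉ P₁ ^ 2 := by
    intro h
    apply hπ2
    have h2 : π = y - (y - π) := by ring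
    rw [h2]
    exact (P₁ ^ 2).sub_mem h hy1
  have hunit : ∀ Q ∈ s, Q ≠ P₁ → y ∉ Q := by
    intro Q hQ hne hyQ
    have h1 := hy Q hQ
    simp only [id, if_neg hne, pow_one] at h1
    have hQprime : Q.IsPrime := Ideal.isPrime_of_prime (hsprime Q hQ)
    apply hQprime.ne_top
    rw [Ideal.eq_top_iff_one]
    have h2 : (1 : B') = y - (y - 1) := by ring
    rw [h2]
    exact Q.sub_mem hyQ h1
  refine ⟨P₁, hP₁, y, hyP, hyP2, ?_, ?_⟩
  · intro Q hQ hne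
    exact hunit Q (Finset.mem_union_left _ (Set.mem_toFinset.mpr hQ)) hne
  · intro Q hQ
    refine hunit Q (Finset.mem_union_right _ hQ) ?_
    rintro rfl
    exact hT' _ hQ hP₁


/-- **Norm descent, uniformizers and separation.**  If `R ⊆ B` contains all norms from `B'`, then
`R` contains a uniformizer at every nonzero maximal ideal `𝔫` of `B`, which moreover avoids any
given maximal ideal `𝔫' ≠ 𝔫`. -/
theorem exists_unif (R : Set B)
    (hres' : ∀ P : Ideal B', P.IsMaximal → ∀ x : B', ∃ r : B, x - algebraMap B B' r ∈ P)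
    (hnorm : ∀ x : B', Algebra.intNorm B B' x ∈ R)
    (𝔫 𝔫' : Ideal B) [𝔫.IsMaximal] [𝔫'.IsMaximal] (h0 : 𝔫 ≠ ⊥) (h0' : 𝔫' ≠ ⊥) (hne : 𝔫 ≠ 𝔫') :
    ∃ t ∈ R, t ∈ 𝔫 ∧ t ∉ 𝔫 ^ 2 ∧ t ∉ 𝔫' := by
  classical
  have hT : ∀ Q ∈ (𝔫'.primesOver B').toFinset, Prime Q := fun Q hQ =>
    prime_of_mem_primesOver 𝔫' h0' Q (Set.mem_toFinset.mp hQ)
  have hT' : ∀ Q ∈ (𝔫'.primesOver B').toFinset, Q ∉ 𝔫.primesOver B' := by
    intro Q hQ hQ2
    rw [Set.mem_toFinset] at hQ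
    apply hne
    haveI := hQ.2
    haveI := hQ2.2
    rw [Ideal.over_def Q 𝔫, Ideal.over_def Q 𝔫']
  obtain ⟨P₁, hP₁, t', ht1, ht2, hother, hT2⟩ :=
    exists_param 𝔫 h0 (𝔫'.primesOver B').toFinset hT hT'
  have hf : ∀ Q ∈ 𝔫.primesOver B', Q.inertiaDeg B = 1 := by
    intro Q hQ
    haveI := hQ.1
    haveI := hQ.2
    exact NormOrd.inertiaDeg_eq_one 𝔫 Q hQ
      (hres' Q (IsMaximal.of_liesOver_isMaximal Q 𝔫))
  refine ⟨Algebra.intNorm B B' t', hnorm t', NormOrd.intNorm_mem 𝔫 P₁ hP₁ t' ht1,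
    NormOrd.intNorm_notMem_sq 𝔫 h0 hf P₁ hP₁ t' ht1 ht2 hother,
    NormOrd.intNorm_notMem 𝔫' h0' t' fun Q hQ => hT2 Q (Set.mem_toFinset.mpr hQ)⟩

/-- the same with one maximal ideal only -/
theorem exists_unif_one (R : Set B)
    (hres' : ∀ P : Ideal B', P.IsMaximal → ∀ x : B', ∃ r : B, x - algebraMap B B' r ∈ P)
    (hnorm : ∀ x : B', Algebra.intNorm B B' x ∈ R)
    (𝔫 : Ideal B) [𝔫.IsMaximal] (h0 : 𝔫 ≠ ⊥) :
    ∃ t ∈ R, t ∈ 𝔫 ∧ t ∉ 𝔫 ^ 2 := by
  classical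
  obtain ⟨P₁, hP₁, t', ht1, ht2, hother, -⟩ :=
    exists_param 𝔫 h0 (∅ : Finset (Ideal B')) (fun Q hQ => absurd hQ (Finset.notMem_empty Q))
      (fun Q hQ => absurd hQ (Finset.notMem_empty Q))
  have hf : ∀ Q ∈ 𝔫.primesOver B', Q.inertiaDeg B = 1 := by
    intro Q hQ
    haveI := hQ.1
    haveI := hQ.2
    exact NormOrd.inertiaDeg_eq_one 𝔫 Q hQ
      (hres' Q (IsMaximal.of_liesOver_isMaximal Q 𝔫))
  exact ⟨Algebra.intNorm B B' t', hnorm t', NormOrd.intNorm_mem 𝔫 P₁ hP₁ t' ht1,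
    NormOrd.intNorm_notMem_sq 𝔫 h0 hf P₁ hP₁ t' ht1 ht2 hother⟩

/-- **Norm descent.**  `B ⊆ B'` Dedekind, `B'` finite torsion free over `B`, all residue fields
equal to `k`; a `k`-subalgebra `R` of `B`, over which `B` is finite and which contains the norms
of all elements of `B'`, is all of `B`. -/
theorem eq_top_of_intNorm_mem {k : Type*} [Field k] [Algebra k B] (R : Subalgebra k B)
    [Module.Finite R B]
    (hres : ∀ 𝔫 : Ideal B, 𝔫.IsMaximal → Function.Surjective (algebraMap k (B ⧸ 𝔫)))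
    (hres' : ∀ P : Ideal B', P.IsMaximal → ∀ x : B', ∃ r : B, x - algebraMap B B' r ∈ P)
    (hnorm : ∀ x : B', Algebra.intNorm B B' x ∈ R) : R = ⊤ := by
  classical
  by_cases hfield : ∃ 𝔫 : Ideal B, 𝔫.IsMaximal ∧ 𝔫 = ⊥
  · -- `B` is a field and `k → B` is onto
    obtain ⟨𝔫, h𝔫, hbot⟩ := hfield
    rw [eq_top_iff]
    intro b _
    obtain ⟨c, hc⟩ := hres 𝔫 h𝔫 (Ideal.Quotient.mk 𝔫 b)
    have h1 : algebraMap k B c - b ∈ 𝔫 := by
      rw [← Ideal.Quotient.eq, ← hc]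
      rfl
    rw [hbot, Ideal.mem_bot, sub_eq_zero] at h1
    rw [← h1]
    exact R.algebraMap_mem c
  · have hne0 : ∀ 𝔫 : Ideal B, 𝔫.IsMaximal → 𝔫 ≠ ⊥ := fun 𝔫 h𝔫 hbot => hfield ⟨𝔫, h𝔫, hbot⟩
    refine NormCrit.eq_top R hres ?_ ?_
    · intro 𝔫 h𝔫
      haveI := h𝔫
      exact exists_unif_one (R : Set B) hres' hnorm 𝔫 (hne0 𝔫 h𝔫)
    · intro 𝔫 𝔫' h𝔫 h𝔫' hne
      haveI := h𝔫
      haveI := h𝔫'
      obtain ⟨t, htR, ht, -, ht'⟩ :=
        exists_unif (R : Set B) hres' hnorm 𝔫 𝔫' (hne0 𝔫 h𝔫) (hne0 𝔫' h𝔫') hne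
      exact ⟨t, htR, ht, ht'⟩

end Fermat.Agent.S18.NormDescent
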