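import Mathlib
import Fermat.Agent.S18.FFSep
import Fermat.Agent.S18.NormDescent

/-!
# S18 (norm descent), function-field form

`k` algebraically closed, `κ ⊆ κ'` a finite separable extension of function fields over `k`,
`y ∈ κ` a separating transcendental element.  Let `B` be the integral closure of `k[y]` in `κ`.
If a `k`-subalgebra `R1` of `κ` contains `y` and the norms `N_{κ'/κ}(x)` of all elements
`x ∈ κ'` integral over `k[y]`, then `B ⊆ R1`.
-/

set_option autoImplicit false
set_option linter.style.haveILetI false
set_option linter.unusedSectionVars false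

open IntermediateField

namespace Fermat.Agent.S18.NormFF

open Fermat.Agent.S24

variable {k κ κ' : Type*} [Field k] [Field κ] [Field κ'] [Algebra k κ] [Algebra k κ']
  [Algebra κ κ'] [IsScalarTower k κ κ']

/-- the residue fields of an integral extension of a ring with residue fields `k` are `k`,
for `k` algebraically closed -/
theorem residue_of_isIntegral [IsAlgClosed k] {B B' : Type*} [CommRing B] [CommRing B']
    [Algebra k B] [Algebra B B'] [Algebra k B'] [IsScalarTower k B B'] [Algebra.IsIntegral B B']
    (hres : ∀ 𝔫 : Ideal B, 𝔫.IsMaximal → ∀ b : B, ∃ c : k, b - algebraMap k B c ∈ 𝔫)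
    (P : Ideal B') (hP : P.IsMaximal) (x : B') :
    ∃ c : k, x - algebraMap k B' c ∈ P := by
  classical
  haveI := hP
  letI : Field (B' ⧸ P) := Ideal.Quotient.field P
  have h𝔫 : (P.comap (algebraMap B B')).IsMaximal :=
    Ideal.isMaximal_comap_of_isIntegral_of_isMaximal P
  -- every element of the residue field is integral over `k`
  have hint : Algebra.IsIntegral k (B' ⧸ P) := by
    refine ⟨fun z => ?_⟩
    obtain ⟨x, rfl⟩ := Ideal.Quotient.mk_surjective z
    obtain ⟨p, hpm, hp⟩ := Algebra.IsIntegral.isIntegral (R := B) x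
    -- the image of `p` in the residue field has coefficients coming from `k`
    set f : B →+* B' ⧸ P := (Ideal.Quotient.mk P).comp (algebraMap B B') with hf
    have hlift : p.map f ∈ Polynomial.lifts (algebraMap k (B' ⧸ P)) := by
      rw [Polynomial.lifts_iff_coeff_lifts]
      intro n
      rw [Polynomial.coeff_map]
      obtain ⟨c, hc⟩ := hres _ h𝔫 (p.coeff n)
      refine ⟨c, ?_⟩
      have h1 : algebraMap B B' (p.coeff n - algebraMap k B c) ∈ P := hc
      rw [map_sub, ← IsScalarTower.algebraMap_apply] at h1
      have h2 := (Ideal.Quotient.mk_eq_mk_iff_sub_mem _ _).mpr h1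
      rw [hf, RingHom.comp_apply, h2]
      rfl
    obtain ⟨q, hq, -, hqm⟩ := Polynomial.lifts_and_degree_eq_and_monic hlift (hpm.map f)
    refine ⟨q, hqm, ?_⟩
    rw [← Polynomial.eval_map, hq, Polynomial.eval_map, hf, ← Polynomial.hom_eval₂, hp, map_zero]
  obtain ⟨c, hc⟩ := (IsAlgClosed.algebraMap_bijective_of_isIntegral (k := k) (K := B' ⧸ P)).2
    (Ideal.Quotient.mk P x)
  refine ⟨c, ?_⟩
  rw [← Ideal.Quotient.mk_eq_mk_iff_sub_mem, ← hc]
  rfl


section Main
open IntermediateField.algebraAdjoinAdjoin

variable [IsAlgClosed k] [FiniteDimensional κ κ'] [Algebra.IsSeparable κ κ']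
  (y : κ) [FiniteDimensional k⟮y⟯ κ] [Algebra.IsSeparable k⟮y⟯ κ]

/-- the integral closure of `k[y]` is not a field -/
theorem bot_not_isMaximal (hy : Transcendental k y) :
    ¬ (⊥ : Ideal (integralClosure (Algebra.adjoin k {y}) κ)).IsMaximal := by
  intro hmax
  haveI := FFSep.isDedekindDomain_B y hy
  have hfield : IsField (integralClosure (Algebra.adjoin k {y}) κ) :=
    Ring.isField_iff_maximal_bot.mpr hmax
  have hinj : Function.Injective
      (algebraMap (Algebra.adjoin k {y}) (integralClosure (Algebra.adjoin k {y}) κ)) := by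
    intro a b hab
    apply Subtype.ext
    have := congrArg (fun z : integralClosure (Algebra.adjoin k {y}) κ => (z : κ)) hab
    exact this
  have hfield2 : IsField (Algebra.adjoin k {y}) :=
    isField_of_isIntegral_of_isField hinj hfield
  have hfield3 : IsField (Polynomial k) :=
    MulEquiv.isField hfield2 (adjoinEquiv y hy).toMulEquiv
  exact Polynomial.not_isField k hfield3


set_option maxHeartbeats 3200000 in
set_option synthInstance.maxHeartbeats 400000 in
/-- **Norm descent for function fields.** -/
theorem mem_of_norm_mem (hy : Transcendental k y) (R1 : Subalgebra k κ) (hyR : y ∈ R1)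
    (hnorm : ∀ x : κ', IsIntegral (Algebra.adjoin k {y}) x → Algebra.norm κ x ∈ R1)
    (b : κ) (hb : IsIntegral (Algebra.adjoin k {y}) b) : b ∈ R1 := by
  classical
  haveI hDed := FFSep.isDedekindDomain_B y hy
  haveI hFrac := FFSep.isFractionRing_B (k := k) y
  haveI hfin := FFSep.finite_B y hy
  -- the two Dedekind domains
  haveI hDed' : IsDedekindDomain
      (integralClosure (integralClosure (Algebra.adjoin k {y}) κ) κ') :=
    integralClosure.isDedekindDomain (integralClosure (Algebra.adjoin k {y}) κ) κ κ'
  haveI h3 : IsScalarTower (integralClosure (Algebra.adjoin k {y}) κ)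
      (integralClosure (integralClosure (Algebra.adjoin k {y}) κ) κ') κ' :=
    Subalgebra.isScalarTower_mid _
  haveI hfin' : Module.Finite (integralClosure (Algebra.adjoin k {y}) κ)
      (integralClosure (integralClosure (Algebra.adjoin k {y}) κ) κ') :=
    IsIntegralClosure.finite (integralClosure (Algebra.adjoin k {y}) κ) κ κ'
      (integralClosure (integralClosure (Algebra.adjoin k {y}) κ) κ')
  haveI hFrac' : IsFractionRing
      (integralClosure (integralClosure (Algebra.adjoin k {y}) κ) κ') κ' :=
    integralClosure.isFractionRing_of_finite_extension κ κ'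
  haveI htf : Module.IsTorsionFree (integralClosure (Algebra.adjoin k {y}) κ)
      (integralClosure (integralClosure (Algebra.adjoin k {y}) κ) κ') := inferInstance
  -- the subalgebra `R` of `B`
  set φ : integralClosure (Algebra.adjoin k {y}) κ →ₐ[k] κ :=
    IsScalarTower.toAlgHom k (integralClosure (Algebra.adjoin k {y}) κ) κ with hφ
  have hφ_apply : ∀ z : integralClosure (Algebra.adjoin k {y}) κ, φ z = (z : κ) := fun _ => rfl
  set R : Subalgebra k (integralClosure (Algebra.adjoin k {y}) κ) := R1.comap φ with hR
  have hadj : Algebra.adjoin k {y} ≤ R1 := Algebra.adjoin_le (Set.singleton_subset_iff.mpr hyR)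
  -- `B` is finite over `R`
  let ψ : Algebra.adjoin k {y} →+* R :=
    { toFun := fun a => ⟨algebraMap (Algebra.adjoin k {y})
        (integralClosure (Algebra.adjoin k {y}) κ) a, hadj a.2⟩
      map_one' := by apply Subtype.ext; exact map_one _
      map_mul' := fun a b => by apply Subtype.ext; exact map_mul _ a b
      map_zero' := by apply Subtype.ext; exact map_zero _
      map_add' := fun a b => by apply Subtype.ext; exact map_add _ a b }
  letI : Algebra (Algebra.adjoin k {y}) R := ψ.toAlgebra
  haveI : IsScalarTower (Algebra.adjoin k {y}) R (integralClosure (Algebra.adjoin k {y}) κ) :=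
    IsScalarTower.of_algebraMap_eq fun a => rfl
  haveI hfinR : Module.Finite R (integralClosure (Algebra.adjoin k {y}) κ) :=
    Module.Finite.of_restrictScalars_finite (Algebra.adjoin k {y}) R
      (integralClosure (Algebra.adjoin k {y}) κ)
  -- residue fields
  have hres0 : ∀ 𝔫 : Ideal (integralClosure (Algebra.adjoin k {y}) κ), 𝔫.IsMaximal →
      ∀ b : integralClosure (Algebra.adjoin k {y}) κ,
        ∃ c : k, b - algebraMap k (integralClosure (Algebra.adjoin k {y}) κ) c ∈ 𝔫 := by
    intro 𝔫 h𝔫 b
    have hne : 𝔫 ≠ ⊥ := by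
      rintro rfl
      exact bot_not_isMaximal y hy h𝔫
    exact FFSep.residue_B y hy ⟨𝔫, h𝔫.isPrime, hne⟩ b
  have hres : ∀ 𝔫 : Ideal (integralClosure (Algebra.adjoin k {y}) κ), 𝔫.IsMaximal →
      Function.Surjective
        (algebraMap k (integralClosure (Algebra.adjoin k {y}) κ ⧸ 𝔫)) := by
    intro 𝔫 h𝔫 z
    obtain ⟨b, rfl⟩ := Ideal.Quotient.mk_surjective z
    obtain ⟨c, hc⟩ := hres0 𝔫 h𝔫 b
    refine ⟨c, ?_⟩
    have := (Ideal.Quotient.mk_eq_mk_iff_sub_mem _ _).mpr hc
    rw [this]
    rfl
  have hres' : ∀ P : Ideal (integralClosure (integralClosure (Algebra.adjoin k {y}) κ) κ'),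
      P.IsMaximal → ∀ x : integralClosure (integralClosure (Algebra.adjoin k {y}) κ) κ',
        ∃ r : integralClosure (Algebra.adjoin k {y}) κ,
          x - algebraMap (integralClosure (Algebra.adjoin k {y}) κ)
            (integralClosure (integralClosure (Algebra.adjoin k {y}) κ) κ') r ∈ P := by
    intro P hP x
    obtain ⟨c, hc⟩ := residue_of_isIntegral (k := k)
      (B := integralClosure (Algebra.adjoin k {y}) κ)
      (B' := integralClosure (integralClosure (Algebra.adjoin k {y}) κ) κ') hres0 P hP x
    refine ⟨algebraMap k _ c, ?_⟩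
    rw [← IsScalarTower.algebraMap_apply]
    exact hc
  -- the norms
  have hnorm' : ∀ x : integralClosure (integralClosure (Algebra.adjoin k {y}) κ) κ',
      Algebra.intNorm (integralClosure (Algebra.adjoin k {y}) κ)
        (integralClosure (integralClosure (Algebra.adjoin k {y}) κ) κ') x ∈ R := by
    intro x
    rw [hR, Subalgebra.mem_comap, hφ_apply]
    have h1 := Algebra.algebraMap_intNorm (A := integralClosure (Algebra.adjoin k {y}) κ)
      (K := κ) (L := κ') (B := integralClosure (integralClosure (Algebra.adjoin k {y}) κ) κ') x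
    have h2 : ((Algebra.intNorm (integralClosure (Algebra.adjoin k {y}) κ)
        (integralClosure (integralClosure (Algebra.adjoin k {y}) κ) κ') x :
          integralClosure (Algebra.adjoin k {y}) κ) : κ)
        = Algebra.norm κ ((x : integralClosure (integralClosure (Algebra.adjoin k {y}) κ) κ') : κ')
        := h1
    rw [h2]
    apply hnorm
    have hx : IsIntegral (integralClosure (Algebra.adjoin k {y}) κ) (x : κ') := x.2
    exact isIntegral_trans (R := Algebra.adjoin k {y})
      (A := integralClosure (Algebra.adjoin k {y}) κ) _ hx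
  have htop : R = ⊤ := NormDescent.eq_top_of_intNorm_mem R hres hres' hnorm'
  have hbR : (⟨b, hb⟩ : integralClosure (Algebra.adjoin k {y}) κ) ∈ R := by
    rw [htop]
    exact Algebra.mem_top
  rw [hR, Subalgebra.mem_comap, hφ_apply] at hbR
  exact hbR

end Main

end Fermat.Agent.S18.NormFF
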