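import Mathlib

/-!
# S18 (norm descent), abstract leaf C: the norm commutes with reduction

`F ⊆ F'` a finite extension of fields, `O ⊆ F`, `O' ⊆ F'` subrings with `O ⊆ O'`, compatible
residue maps `ρ : O →+* κ`, `ρ' : O' →+* κ'` into fields `κ ⊆ κ'`.  Suppose there is an
`F`-basis `e` of `F'` inside `O'` which is ORTHONORMAL (the coordinates of every element of `O'`
lie in `O`) and whose reduction is a `κ`-basis of `κ'`.  Then for `x ∈ O'`:

* `norm_mem`     : `Algebra.norm F x ∈ O`;
* `residue_norm` : `ρ (Algebra.norm F x) = Algebra.norm κ (ρ' x)`;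
* `trace_mem`, `residue_trace` : the same for the trace.

(The matrix of the multiplication by `x` in the basis `e` has entries in `O` and reduces to the
matrix of the multiplication by `ρ' x` in the reduced basis.)
-/

set_option autoImplicit false
set_option linter.style.haveILetI false
set_option linter.unusedSectionVars false

namespace Fermat.Agent.S18.NormRed

open Module

variable {F F' κ κ' : Type*} [Field F] [Field F'] [Algebra F F'] [Field κ] [Field κ']
  [Algebra κ κ'] {O : Subring F} {O' : Subring F'} (ρ : O →+* κ) (ρ' : O' →+* κ')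
  (hOO' : ∀ x : O, algebraMap F F' (x : F) ∈ O')
  (hcompat : ∀ x : O, ρ' ⟨algebraMap F F' (x : F), hOO' x⟩ = algebraMap κ κ' (ρ x))
  {ι : Type*} [Fintype ι] [DecidableEq ι] (e : Basis ι F F') (he : ∀ i, e i ∈ O')
  (hcoord : ∀ x ∈ O', ∀ i, e.repr x i ∈ O)
  (eb : Basis ι κ κ') (heb : ∀ i, ρ' ⟨e i, he i⟩ = eb i)

/-- the integral matrix of the multiplication by `x ∈ O'` -/
noncomputable def mulMatrix (x : O') : Matrix ι ι O :=
  fun i j => ⟨e.repr ((x : F') * e j) i, hcoord _ (O'.mul_mem x.2 (he j)) i⟩

include he hcoord in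
theorem map_mulMatrix (x : O') :
    (mulMatrix e he hcoord x).map O.subtype = Algebra.leftMulMatrix e (x : F') := by
  ext i j
  rw [Matrix.map_apply, Algebra.leftMulMatrix_eq_repr_mul]
  rfl

include he hcoord in
/-- the norm of an element of `O'` lies in `O` -/
theorem norm_mem (x : O') : Algebra.norm F (x : F') ∈ O := by
  rw [Algebra.norm_eq_matrix_det e, ← map_mulMatrix e he hcoord x, ← RingHom.mapMatrix_apply,
    ← RingHom.map_det]
  exact (Matrix.det (mulMatrix e he hcoord x)).2

include he hcoord in
/-- the trace of an element of `O'` lies in `O` -/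
theorem trace_mem (x : O') : Algebra.trace F F' (x : F') ∈ O := by
  rw [Algebra.trace_eq_matrix_trace e, ← map_mulMatrix e he hcoord x]
  rw [Matrix.trace]
  refine O.sum_mem fun i _ => ?_
  rw [Matrix.diag_apply, Matrix.map_apply]
  exact (mulMatrix e he hcoord x i i).2


include hcompat heb in
/-- the reduction of the matrix of `x` is the matrix of the reduction of `x` -/
theorem map_rho_mulMatrix (x : O') :
    (mulMatrix e he hcoord x).map ρ = Algebra.leftMulMatrix eb (ρ' x) := by
  classical
  ext i j
  rw [Matrix.map_apply, Algebra.leftMulMatrix_eq_repr_mul]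
  -- the expansion of `x * e j` inside `O'`
  have hsum : x * ⟨e j, he j⟩
      = ∑ l, (⟨algebraMap F F' ((mulMatrix e he hcoord x l j : O) : F), hOO' _⟩ : O')
          * ⟨e l, he l⟩ := by
    apply Subtype.ext
    rw [Subring.coe_mul, AddSubmonoidClass.coe_finsetSum]
    simp only [Subring.coe_mul]
    conv_lhs => rw [← e.sum_repr ((x : F') * e j)]
    refine Finset.sum_congr rfl fun l _ => ?_
    rw [Algebra.smul_def]
    rfl
  have h2 := congrArg ρ' hsum
  rw [map_mul, map_sum, heb j] at h2
  have h3 : ∀ l, ρ' ((⟨algebraMap F F' ((mulMatrix e he hcoord x l j : O) : F), hOO' _⟩ : O')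
      * ⟨e l, he l⟩) = ρ (mulMatrix e he hcoord x l j) • eb l := by
    intro l
    rw [map_mul, hcompat, heb l, Algebra.smul_def]
  rw [Finset.sum_congr rfl fun l _ => h3 l] at h2
  rw [h2, Basis.repr_sum_self]

include hcompat heb in
/-- **The norm commutes with reduction.** -/
theorem residue_norm (x : O') :
    ρ ⟨Algebra.norm F (x : F'), norm_mem e he hcoord x⟩ = Algebra.norm κ (ρ' x) := by
  rw [Algebra.norm_eq_matrix_det eb, ← map_rho_mulMatrix ρ ρ' hOO' hcompat e he hcoord eb heb x,
    ← RingHom.mapMatrix_apply, ← RingHom.map_det]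
  congr 1
  apply Subtype.ext
  show Algebra.norm F (x : F') = O.subtype (Matrix.det (mulMatrix e he hcoord x))
  rw [RingHom.map_det, RingHom.mapMatrix_apply, map_mulMatrix e he hcoord x,
    Algebra.norm_eq_matrix_det e]

include hcompat heb in
/-- **The trace commutes with reduction.** -/
theorem residue_trace (x : O') :
    ρ ⟨Algebra.trace F F' (x : F'), trace_mem e he hcoord x⟩ = Algebra.trace κ κ' (ρ' x) := by
  rw [Algebra.trace_eq_matrix_trace eb, ← map_rho_mulMatrix ρ ρ' hOO' hcompat e he hcoord eb heb x]
  have h1 : Matrix.trace ((mulMatrix e he hcoord x).map ρ)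
      = ρ (Matrix.trace (mulMatrix e he hcoord x)) := by
    simp only [Matrix.trace, map_sum, Matrix.diag_apply, Matrix.map_apply]
  rw [h1]
  congr 1
  apply Subtype.ext
  show Algebra.trace F F' (x : F') = O.subtype (Matrix.trace (mulMatrix e he hcoord x))
  rw [Algebra.trace_eq_matrix_trace e, ← map_mulMatrix e he hcoord x]
  simp only [Matrix.trace, map_sum, Matrix.diag_apply, Matrix.map_apply]

end Fermat.Agent.S18.NormRed
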