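import Mathlib
import Fermat.Agent.S18.Charts
import Fermat.Agent.S18.OrthoMod
import Fermat.Agent.S18.FbarSep
import Fermat.Agent.S18.ResField
import Fermat.Agent.S18.NormRed
import Fermat.Agent.S18.NormFF
import Fermat.Agent.S18.RegInt
import Fermat.Agent.S18.IntRedMod
import Fermat.Agent.S18.CuspAbs

/-!
# S18, leaf [F]: descent of the normality of chart 1 from level `N'` to level `N ∣ N'`

`Charts.NormalStmtInt A N'` (the reduction of the integral part of chart 1 of level `N'` contains
the integral closure of `k[j̄]`) implies `B1b A N ≤ R1 A N` for every `N ∣ N'`, `ℓ ∤ N'`.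

Proof: norms.  An element `x̄` of `F̄'` integral over `k[j̄]` is the reduction of some
`t' ∈ O1'`; `t'` is integral over `ℚ̄[j]`, hence so is its norm to `F`, which is therefore regular
at the finite places; the norm is Gauss-integral and reduces to the norm of `x̄`
(`NormRed.residue_norm` with the relative orthonormal basis `OrthoMod.exists_orthonormal`).  So
`R1` contains all norms of integral elements, and `NormFF.mem_of_norm_mem` applies.
-/

set_option autoImplicit false
set_option linter.style.haveILetI false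
set_option linter.unusedSectionVars false
set_option synthInstance.maxHeartbeats 400000
set_option maxHeartbeats 1600000

noncomputable section

namespace Fermat.Agent.S18.NormGlue

open ModularCurve AlgebraicCurve HahnSeries IntermediateField IsDedekindDomain
open Fermat.Agent.S18.Gauss Fermat.Agent.S18.Lattice Fermat.Agent.S24 Fermat.Agent.S24.Eval
open Fermat.Agent.S18.Charts Fermat.Agent.S18.OrthoMod

/-! ### The abstract core -/

section Core

variable {K k F F' κ κ' : Type*} [Field K] [Field k] [Field F] [Field F'] [Field κ] [Field κ']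
  [Algebra K F] [Algebra K F'] [Algebra F F'] [IsScalarTower K F F']
  [Algebra k κ] [Algebra k κ'] [Algebra κ κ'] [IsScalarTower k κ κ']
  [IsAlgClosed k] [FiniteDimensional κ κ'] [Algebra.IsSeparable κ κ']

/-- **Norm descent, abstract core.**  `O, O'` the Gauss rings of `F ⊆ F'`, `ρ, ρ'` the residue
maps, `e` a relative orthonormal basis; `S1, S1'` the functions regular at the finite places.
If every element of `κ'` integral over `k[y]` is the reduction of an element of `O' ∩ S1'`, then
every element of `κ` integral over `k[y]` lies in any `k`-subalgebra `R1` containing `y` and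
`ρ (O ∩ S1)`. -/
theorem core {O : Subring F} {O' : Subring F'} (ρ : O →+* κ) (ρ' : O' →+* κ')
    (hOO' : ∀ x : O, algebraMap F F' (x : F) ∈ O')
    (hcompat : ∀ x : O, ρ' ⟨algebraMap F F' (x : F), hOO' x⟩ = algebraMap κ κ' (ρ x))
    {ι : Type*} [Fintype ι] [DecidableEq ι] (e : Module.Basis ι F F') (he : ∀ i, e i ∈ O')
    (hcoord : ∀ x ∈ O', ∀ i, e.repr x i ∈ O)
    (eb : Module.Basis ι κ κ') (heb : ∀ i, ρ' ⟨e i, he i⟩ = eb i)
    (j : F) (S1 : Set F) (S1' : Set F')
    (hS1' : ∀ t' ∈ S1', IsIntegral (Algebra.adjoin K {j}) t')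
    (hS1 : ∀ f : F, IsIntegral (Algebra.adjoin K {j}) f → f ∈ S1)
    (y : κ) [FiniteDimensional k⟮y⟯ κ] [Algebra.IsSeparable k⟮y⟯ κ] (hy : Transcendental k y)
    (R1 : Subalgebra k κ) (hyR : y ∈ R1)
    (hR1 : ∀ f : O, (f : F) ∈ S1 → ρ f ∈ R1)
    (hN' : ∀ x : κ', IsIntegral (Algebra.adjoin k {y}) x →
      ∃ t' : O', (t' : F') ∈ S1' ∧ ρ' t' = x)
    (b : κ) (hb : IsIntegral (Algebra.adjoin k {y}) b) : b ∈ R1 := by
  refine NormFF.mem_of_norm_mem (κ' := κ') y hy R1 hyR ?_ b hb
  intro x hx
  obtain ⟨t', ht', rfl⟩ := hN' x hx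
  rw [← NormRed.residue_norm ρ ρ' hOO' hcompat e he hcoord eb heb t']
  apply hR1
  exact hS1 _ (Algebra.isIntegral_norm F (hS1' _ ht'))

end Core


/-! ### Towers of intermediate fields -/

section Transfer

variable {k L : Type*} [Field k] [Field L] [Algebra k L] {E E' : IntermediateField k L}

/-- the algebra structure of `E'` over `E ≤ E'` -/
abbrev incAlg (h : E ≤ E') : Algebra E E' := (IntermediateField.inclusion h).toRingHom.toAlgebra

theorem isScalarTower_base (h : E ≤ E') :
    letI := incAlg h
    IsScalarTower k E E' :=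
  letI := incAlg h
  IsScalarTower.of_algebraMap_eq fun _ => rfl

theorem isScalarTower_top (h : E ≤ E') :
    letI := incAlg h
    IsScalarTower E E' L :=
  letI := incAlg h
  IsScalarTower.of_algebraMap_eq fun _ => rfl

theorem algebraMap_incAlg (h : E ≤ E') (x : E) :
    letI := incAlg h
    ((algebraMap E E' x : E') : L) = (x : L) := rfl

/-- integrality over `k[μ]`, `μ ∈ E`, of an element of `E'` does not depend on the level at
which `k[μ]` is formed -/
theorem isIntegral_adjoin_iff (h : E ≤ E') (μ : E) (x : E') :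
    letI := incAlg h
    IsIntegral (Algebra.adjoin k {μ}) x ↔
      IsIntegral (Algebra.adjoin k {IntermediateField.inclusion h μ}) x := by
  letI := incAlg h
  haveI := isScalarTower_base h
  -- the comparison map `k[μ] → k[μ']`
  have hmem : ∀ a : Algebra.adjoin k {μ}, IntermediateField.inclusion h (a : E) ∈
      Algebra.adjoin k {IntermediateField.inclusion h μ} := by
    intro a
    have h1 : (Algebra.adjoin k {μ}).map (IntermediateField.inclusion h) =
        Algebra.adjoin k {IntermediateField.inclusion h μ} := by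
      rw [AlgHom.map_adjoin, Set.image_singleton]
    rw [← h1]
    exact ⟨a, a.2, rfl⟩
  let ψ : Algebra.adjoin k {μ} →+* Algebra.adjoin k {IntermediateField.inclusion h μ} :=
    { toFun := fun a => ⟨IntermediateField.inclusion h (a : E), hmem a⟩
      map_one' := by apply Subtype.ext; simp
      map_mul' := fun a b => by apply Subtype.ext; simp
      map_zero' := by apply Subtype.ext; simp
      map_add' := fun a b => by apply Subtype.ext; simp }
  have hψsurj : Function.Surjective ψ := by
    rintro ⟨b, hb⟩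
    have h1 : (Algebra.adjoin k {μ}).map (IntermediateField.inclusion h) =
        Algebra.adjoin k {IntermediateField.inclusion h μ} := by
      rw [AlgHom.map_adjoin, Set.image_singleton]
    rw [← h1] at hb
    obtain ⟨a, ha, rfl⟩ := hb
    exact ⟨⟨a, ha⟩, rfl⟩
  have hcomp : (algebraMap (Algebra.adjoin k {μ}) E') =
      (algebraMap (Algebra.adjoin k {IntermediateField.inclusion h μ}) E').comp ψ := by
    ext a
    rfl
  constructor
  · intro hx
    have h1 : (algebraMap (Algebra.adjoin k {μ}) E').IsIntegralElem x := hx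
    rw [hcomp] at h1
    exact RingHom.IsIntegralElem.of_comp h1
  · rintro ⟨p, hpm, hp⟩
    have hlift : p ∈ Polynomial.lifts ψ := by
      rw [Polynomial.lifts_iff_coeff_lifts]
      intro n
      exact hψsurj _
    obtain ⟨q, hq, -, hqm⟩ := Polynomial.lifts_and_degree_eq_and_monic hlift hpm
    refine ⟨q, hqm, ?_⟩
    rw [hcomp, ← Polynomial.eval₂_map, hq]
    exact hp


/-- separability of `E'` over `E ≤ E'` from separability of `E'` over `k(μ)`, `μ ∈ E` -/
theorem isSeparable_incAlg (h : E ≤ E') (μ : E)
    [hsep : Algebra.IsSeparable k⟮IntermediateField.inclusion h μ⟯ E'] :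
    letI := incAlg h
    Algebra.IsSeparable E E' := by
  letI := incAlg h
  -- `k(μ) ≃ k(μ')`
  have hmap : (IntermediateField.adjoin k {μ}).map (IntermediateField.inclusion h) =
      IntermediateField.adjoin k {IntermediateField.inclusion h μ} := by
    rw [IntermediateField.adjoin_map, Set.image_singleton]
  let e₁ : ↥k⟮IntermediateField.inclusion h μ⟯ ≃+* ↥k⟮μ⟯ :=
    (((IntermediateField.adjoin k {μ}).equivMap (IntermediateField.inclusion h)).trans
      (IntermediateField.equivOfEq hmap)).symm.toRingEquiv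
  have he₁ : ∀ a : ↥k⟮IntermediateField.inclusion h μ⟯,
      IntermediateField.inclusion h ((e₁ a : ↥k⟮μ⟯) : E) = (a : E') := by
    intro a
    obtain ⟨b, rfl⟩ := e₁.symm.surjective a
    rw [RingEquiv.apply_symm_apply]
    rfl
  haveI : Algebra.IsSeparable ↥k⟮μ⟯ E' :=
    Algebra.IsSeparable.of_equiv_equiv e₁ (RingEquiv.refl E') (RingHom.ext fun a => he₁ a)
  exact Algebra.isSeparable_tower_top_of_isSeparable ↥k⟮μ⟯ E E'


/-- a basis of `E'` over `E` from a family which is independent and spanning in ambient form -/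
theorem exists_basis (h : E ≤ E') {ι : Type*} [Fintype ι] (u : ι → E')
    (hli : LinearIndependent E (fun i => ((u i : E') : L)))
    (hspan : ∀ f ∈ E', ∃ a : ι → E, f = ∑ i, (a i : L) * ((u i : E') : L)) :
    letI := incAlg h
    ∃ e : Module.Basis ι E E', ∀ i, e i = u i := by
  letI := incAlg h
  haveI := isScalarTower_top h
  have hli' : LinearIndependent E u :=
    LinearIndependent.of_comp (IsScalarTower.toAlgHom E E' L).toLinearMap hli
  have hspan' : ⊤ ≤ Submodule.span E (Set.range u) := by
    intro x _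
    obtain ⟨a, ha⟩ := hspan (x : L) x.2
    have hx : x = ∑ i, a i • u i := by
      apply Subtype.ext
      rw [ha, AddSubmonoidClass.coe_finsetSum]
      rfl
    rw [hx]
    exact Submodule.sum_mem _ fun i _ =>
      Submodule.smul_mem _ _ (Submodule.subset_span ⟨i, rfl⟩)
  exact ⟨Module.Basis.mk hli' hspan', fun i => Module.Basis.mk_apply hli' hspan' i⟩

end Transfer


/-! ### The levels `N ∣ N'` -/

section Levels

variable {A : ValuationSubring KK} {ℓ : ℕ} [Fact ℓ.Prime] {N N' : ℕ} [NeZero N] [NeZero N']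

/-- `R1` as a subalgebra over the residue field -/
def R1alg (A : ValuationSubring KK) (N : ℕ) [NeZero N] :
    Subalgebra (IsLocalRing.ResidueField A) (FkN A N) :=
  { (R1 A N).toSubsemiring with
    algebraMap_mem' := fun c => by
      obtain ⟨a, rfl⟩ := IsLocalRing.residue_surjective (R := A) c
      show _ ∈ R1 A N
      refine (mem_redImage A N).mpr ⟨CuspAbs.cst A N a, ?_, CuspAbs.redN_cst A N a⟩
      exact ⟨(CuspAbs.cst A N a).2, algebraMap_mem_regAt N _ _⟩ }

theorem mem_R1alg {x : FkN A N} : x ∈ R1alg A N ↔ x ∈ R1 A N := Iff.rfl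


/-- **Descent of the normality of chart 1** from level `N'` to level `N ∣ N'`. -/
theorem B1b_le_R1 (hA : A.LiesOverPrime ℓ) (h : N ∣ N') (hℓN' : ¬ ℓ ∣ N')
    (hN' : NormalStmtInt A N') : B1b A N ≤ R1 A N := by
  classical
  have hFF := ff_le h
  have hFk := fk_le (IsLocalRing.ResidueField A) h
  letI aF : Algebra (FF N) (FF N') := incAlg hFF
  letI aK : Algebra (FkN A N) (FkN A N') := incAlg hFk
  haveI tF : IsScalarTower KK (FF N) (FF N') := isScalarTower_base hFF
  haveI tK : IsScalarTower (IsLocalRing.ResidueField A) (FkN A N) (FkN A N') :=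
    isScalarTower_base hFk
  obtain ⟨U, hli, hspan, hli0, hspan0⟩ := exists_orthonormal (A := A) hA h hℓN'
  obtain ⟨e, he⟩ := exists_basis hFF (fun i => ((U i : OO A N') : FF N')) hli0 hspan0
  obtain ⟨eb, heb⟩ := exists_basis hFk (fun i => redN A N' (U i)) hli hspan
  haveI fd : FiniteDimensional (FkN A N) (FkN A N') := Module.Finite.of_basis eb
  haveI s1 : Algebra.IsSeparable
      (IsLocalRing.ResidueField A)⟮IntermediateField.inclusion hFk (jb A N)⟯ (FkN A N') :=
    FbarSep.isSeparable_residue (A := A) N'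
  haveI s2 : Algebra.IsSeparable (FkN A N) (FkN A N') := isSeparable_incAlg hFk (jb A N)
  haveI fd1 := DegEq.finiteDimensional_residue (A := A) N
  haveI s3 := FbarSep.isSeparable_residue (A := A) N
  intro b hb
  have hOO' : ∀ x : OO A N, algebraMap (FF N) (FF N') (x : FF N) ∈ OO A N' :=
    fun x => inclusion_mem_OO h x.2
  have hcompat : ∀ x : OO A N, redN A N' ⟨algebraMap (FF N) (FF N') (x : FF N), hOO' x⟩
      = algebraMap (FkN A N) (FkN A N') (redN A N x) :=
    fun x => Subtype.ext (redN_inclusion h x)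
  have he' : ∀ i, e i ∈ OO A N' := fun i => by
    rw [he i]
    exact (U i).2
  have hcoord : ∀ x ∈ OO A N', ∀ i, e.repr x i ∈ OO A N := by
    intro x hx
    refine coord_mem_OO hA h hℓN' U hli (fun i => e.repr x i) ?_
    have h1 : ∑ i, IntermediateField.inclusion (ff_le h) (e.repr x i) *
        ((U i : OO A N') : FF N') = x := by
      conv_rhs => rw [← e.sum_repr x]
      refine Finset.sum_congr rfl fun i _ => ?_
      rw [Algebra.smul_def, he i]
      rfl
    rw [h1]
    exact hx
  have heb' : ∀ i, redN A N' ⟨e i, he' i⟩ = eb i := by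
    intro i
    rw [heb i]
    congr 1
    exact Subtype.ext (he i)
  have hS1' : ∀ t' ∈ (regAt N' (jF N') : Set (FF N')),
      IsIntegral (Algebra.adjoin KK {jF N}) t' := by
    intro t' ht'
    rw [isIntegral_adjoin_iff hFF (jF N) t']
    exact (RegInt.mem_regAt_j_iff N' t').mp ht'
  have hS1 : ∀ f : FF N, IsIntegral (Algebra.adjoin KK {jF N}) f →
      f ∈ (regAt N (jF N) : Set (FF N)) :=
    fun f hf => (RegInt.mem_regAt_j_iff N f).mpr hf
  have hyR : jb A N ∈ R1alg A N :=
    (mem_redImage A N).mpr ⟨CuspAbs.jO A N, ⟨(CuspAbs.jO A N).2, self_mem_regAt N (jF N)⟩,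
      CuspAbs.redN_jO A N⟩
  have hR1 : ∀ f : OO A N, (f : FF N) ∈ (regAt N (jF N) : Set (FF N)) →
      redN A N f ∈ R1alg A N :=
    fun f hf => (mem_redImage A N).mpr ⟨f, ⟨f.2, hf⟩, rfl⟩
  have hN'' : ∀ x : FkN A N', IsIntegral (Algebra.adjoin (IsLocalRing.ResidueField A) {jb A N}) x →
      ∃ t' : OO A N', (t' : FF N') ∈ (regAt N' (jF N') : Set (FF N')) ∧ redN A N' t' = x := by
    intro x hx
    rw [isIntegral_adjoin_iff hFk (jb A N) x] at hx
    have hx' : x ∈ B1b A N' := hx
    obtain ⟨f, hf, hfx⟩ := (mem_redImage A N').mp (hN' hx')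
    exact ⟨f, ((mem_O1int A N').mp hf).2.1, hfx⟩
  exact core (K := KK) (redN A N) (redN A N') hOO' hcompat e he' hcoord eb heb' (jF N)
    (regAt N (jF N) : Set (FF N)) (regAt N' (jF N') : Set (FF N')) hS1' hS1 (jb A N)
    (DegEq.transcendental_jk _ N) (R1alg A N) hyR hR1 hN'' b hb

/-- **`(N)_N` for chart 1** from the integral normality statement at a level `N'` divisible by
`N`. -/
theorem normalStmt1 (hA : A.LiesOverPrime ℓ) (h : N ∣ N') (hℓN' : ¬ ℓ ∣ N')
    (hN' : NormalStmtInt A N') : NormalStmt1 A N :=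
  le_antisymm (IntRedMod.R1_le_B1b N hA (not_dvd_of_dvd h hℓN')) (B1b_le_R1 hA h hℓN' hN')

end Levels

end Fermat.Agent.S18.NormGlue
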