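import Mathlib
import Fermat.Agent.S18.Final
import Fermat.Agent.S18.Loc
import Fermat.Agent.S18.LiftFin
import Fermat.Agent.S18.NormGlue
import Fermat.Agent.S18.ChartGlue

/-!
# S18, assembly with the normality of the cusp chart as the single hypothesis

* `normalStmt1` : normality of the reduction of chart 1 at EVERY level `N` prime to `ℓ`
  (from the auxiliary level `4 N` for `ℓ` odd, `9 N` for `ℓ = 2`);
* `s18_of_normalStmt2` : the frozen statement S18 from `Charts.NormalStmt2 A N` (which may use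
  the place reduction map `r`, the hypothesis `PrincipalGeneratedByIntegral` and
  `Charts.NormalStmt1 A N`).
-/

set_option autoImplicit false
set_option synthInstance.maxHeartbeats 400000

namespace Fermat.Agent.S18.Assemble

open ModularCurve AlgebraicCurve HahnSeries IsLocalRing
open Fermat.Agent.S18.Gauss Fermat.Agent.S18.Lattice
open Fermat.Agent.S18.EndGame Fermat.Agent.S18.EndGame2
open Fermat.Agent.S24.Eval

variable (N : ℕ) [NeZero N] {ℓ : ℕ} [Fact ℓ.Prime]
variable (A : ValuationSubring KK)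

/-- **Normality of the reduction of chart 1 at every level prime to `ℓ`.** -/
theorem normalStmt1 (hℓN : ¬ ℓ ∣ N) (hA : A.LiesOverPrime ℓ) : Charts.NormalStmt1 A N := by
  have hℓ : ℓ.Prime := Fact.out
  by_cases h2 : ℓ = 2
  · -- auxiliary level `9 N`
    haveI : NeZero (9 * N) := ⟨Nat.mul_ne_zero (by norm_num) (NeZero.ne N)⟩
    have hℓN' : ¬ ℓ ∣ 9 * N := by
      intro h
      rcases (Nat.Prime.dvd_mul hℓ).mp h with h9 | hN
      · rw [h2] at h9
        norm_num at h9
      · exact hℓN hN
    exact NormGlue.normalStmt1 hA (Dvd.intro_left 9 rfl) hℓN'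
      (ChartGlue.normalStmtInt_nine (9 * N) hA hℓN' (Dvd.intro N rfl))
  · -- auxiliary level `4 N`
    haveI : NeZero (4 * N) := ⟨Nat.mul_ne_zero (by norm_num) (NeZero.ne N)⟩
    have hℓN' : ¬ ℓ ∣ 4 * N := by
      intro h
      rcases (Nat.Prime.dvd_mul hℓ).mp h with h4 | hN
      · have h4' : ℓ ∣ 2 ^ 2 := by
          have : (4 : ℕ) = 2 ^ 2 := by norm_num
          rwa [this] at h4
        have h5 := hℓ.dvd_of_dvd_pow h4'
        exact h2 ((Nat.prime_dvd_prime_iff_eq hℓ Nat.prime_two).mp h5)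
      · exact hℓN hN
    exact NormGlue.normalStmt1 hA (Dvd.intro_left 4 rfl) hℓN'
      (ChartGlue.normalStmtInt_four (4 * N) hA hℓN' (Dvd.intro N rfl))

/-- **S18 from the normality of the reduction of the cusp chart.** -/
theorem s18_of_normalStmt2 (hℓN : ¬ ℓ ∣ N) (hA : A.LiesOverPrime ℓ)
    (HN2 : ∀ r : Place KK (FF N) → Place (ResidueField A) (FkN A N),
      IsPlaceReductionModL A N r → PrincipalGeneratedByIntegral A (residue A) N →
      Charts.NormalStmt1 A N → Charts.NormalStmt2 A N)
    (h : ModularCurve.ReductionInputsModL A N) (m : ℕ) (hm : ¬ ℓ ∣ m)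
    (z : ModularCurve.JZero N) (hmz : m • z = 0) (hz : ModularCurve.reductionModL A N z = 0) :
    z = 0 := by
  refine Final.s18_of_lift_loc N A hℓN hA (fun r hr hgen => ?_) h m hm z hmz hz
  have hN1 := normalStmt1 N A hℓN hA
  have hN : Charts.NormalStmt A N := ⟨hN1, HN2 r hr hgen hN1⟩
  refine ⟨LiftMod.Cj N, LiftMod.Cj_nonneg N,
    fun G hG => LiftFin.lift_of_normal hr hA hℓN hN G hG,
    fun p hp hpℓ D f _ hrD hf hfD Ep Em hEp hEm hE => ?_⟩
  exact Loc.locNZ hr hA hℓN hN (Arch.arch Fact.out hA) p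
    (ResField.natCast_residue_ne_zero hA hp hpℓ) D Ep Em hEp hEm hE hrD f hf hfD

end Fermat.Agent.S18.Assemble
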