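import Mathlib
import Fermat.Prelude.Def_ModularCurve_X0ModL
import Fermat.Agent.S24.SigmaCusp

/-!
# S18 moonshot, cusp package (S1): the expansions of the generators at all cusps

For a coset `q : Q N = SL(2, ℤ) ⧸ Γ₀(N)` and a divisor `d ∣ N`, the image of the generator
`j(q^d)` of the function field `FF N` under the embedding `sigma N q : FF N →+* ℂ((q_N))` at the
cusp attached to `q` is the expansion of `τ ↦ j ((e τ + x) / d')`, where `e = gcd(d, c)`
(`c` the lower left entry of `q.out⁻¹`) and `e d' = d`.  In the variable `q_N` this is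
`J(ζ q_N ^ m)` with `J = q⁻¹ + 744 + …`, `m = N e / d' = N e² / d` and `ζ = exp (2πi x / d')`:

* `PS_affc` : the `q_N`-expansion of `f ((e τ + x) / d')` for `f` holomorphic, `1`-periodic and
  bounded at `i∞`;
* `sigma_jgen_eq` : `sigma N q (j(q^d)) = qExpand m (rescale ζ (cuspL 1 jfun))`;
* `order_sigma_jgen`, `coeff_sigma_jgen_pow`, `dvd_of_coeff_sigma_jgen_ne_zero` : the order is
  exactly `-m`, the leading coefficient is an `N`-th root of unity, and the expansion is a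
  series in `q_N ^ m`.
-/

set_option autoImplicit false

namespace Fermat.Agent.S18.Cusp0Exp

open UpperHalfPlane ModularForm Function Filter CongruenceSubgroup Complex
open Fermat.Agent.S20 Fermat.Agent.S20.CuspExp Fermat.Agent.S20.Stab
open Fermat.Agent.S24.Cusp Fermat.Agent.S24.Distinct Fermat.Agent.S24.Eval
open Fermat.Agent.S24.Jq Fermat.Agent.S24.JFunction Fermat.Agent.S24.SigmaCusp
open Fermat.Agent.S24
open ModularCurve
open scoped MatrixGroups ModularForm Manifold Topology Real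

local notation "𝕢" => Periodic.qParam
local notation "Δ" => ModularForm.discriminant

/-! ### Composition with an affine map -/

section Affine

variable (e d' : ℕ) (x : ℤ)

/-- The function `τ ↦ f ((e τ + x) / d')`. -/
noncomputable def affc (f : ℍ → ℂ) (z : ℍ) : ℂ := f (ofComplex (aff e d' x z))

variable {e d'}

theorem mdiff_affc (he : 0 < e) (hd' : 0 < d') {f : ℍ → ℂ} (hf : MDiff f) :
    MDiff (affc e d' x f) := by
  rw [UpperHalfPlane.mdifferentiable_iff]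
  have hj : DifferentiableOn ℂ (f ∘ ofComplex) {z | 0 < z.im} :=
    UpperHalfPlane.mdifferentiable_iff.mp hf
  have hmul : DifferentiableOn ℂ (fun z : ℂ => aff e d' x z) {z | 0 < z.im} := by
    unfold aff
    exact (((differentiable_id.const_mul (e : ℂ)).add_const (x : ℂ)).div_const
      (d' : ℂ)).differentiableOn
  have hmaps : Set.MapsTo (fun z : ℂ => aff e d' x z) {z | 0 < z.im} {z | 0 < z.im} := by
    intro z hz
    exact aff_im_pos he hd' x hz
  refine (hj.comp hmul hmaps).congr fun z hz => ?_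
  simp only [Function.comp_apply, affc]
  rw [ofComplex_apply_of_im_pos hz]

theorem aff_im' (z : ℍ) : (aff e d' x z).im = (e : ℝ) / d' * z.im := by
  rw [aff_im, UpperHalfPlane.coe_im]; ring

theorem bdd_affc (he : 0 < e) (hd' : 0 < d') {f : ℍ → ℂ} (hf : IsBoundedAtImInfty f) :
    IsBoundedAtImInfty (affc e d' x f) := by
  have hr : (0 : ℝ) < (e : ℝ) / d' := by
    have he' : (0 : ℝ) < e := by exact_mod_cast he
    have hd'' : (0 : ℝ) < d' := by exact_mod_cast hd'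
    positivity
  have h := hf.comp_tendsto (tendsto_liftPt (fun z : ℍ => aff e d' x z) _ hr (aff_im' x))
  have e1 : (f ∘ liftPt (fun z : ℍ => aff e d' x z) _ hr (aff_im' x)) = affc e d' x f := by
    funext z
    simp only [Function.comp_apply, affc]
    rw [ofComplex_eq_liftPt (fun z : ℍ => aff e d' x z) _ hr (aff_im' x)]
  rw [← e1]
  exact h

/-- the point `(e τ + x) / d'` of the upper half plane -/
noncomputable def affPt (he : 0 < e) (hd' : 0 < d') (z : ℍ) : ℍ :=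
  ⟨aff e d' x z, aff_im_pos he hd' x z.im_pos⟩

theorem ofComplex_aff (he : 0 < e) (hd' : 0 < d') (z : ℍ) :
    ofComplex (aff e d' x z) = affPt x he hd' z := by
  have : aff e d' x z = ((affPt x he hd' z : ℍ) : ℂ) := rfl
  rw [this, ofComplex_apply]

theorem affc_eq (he : 0 < e) (hd' : 0 < d') (f : ℍ → ℂ) (z : ℍ) :
    affc e d' x f z = f (affPt x he hd' z) := by
  unfold affc
  rw [ofComplex_aff]

theorem affPt_vadd (he : 0 < e) (hd' : 0 < d') {N m : ℕ} (hm : m * d' = N * e) (z : ℍ) :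
    affPt x he hd' ((N : ℝ) +ᵥ z) = (m : ℝ) +ᵥ affPt x he hd' z := by
  apply UpperHalfPlane.ext
  have hd'C : (d' : ℂ) ≠ 0 := by exact_mod_cast hd'.ne'
  have hmC : (m : ℂ) * d' = N * e := by exact_mod_cast hm
  show aff e d' x (((N : ℝ) +ᵥ z : ℍ) : ℂ) = (((m : ℝ) +ᵥ affPt x he hd' z : ℍ) : ℂ)
  rw [UpperHalfPlane.coe_vadd, UpperHalfPlane.coe_vadd]
  show aff e d' x (((N : ℝ) : ℂ) + z) = ((m : ℝ) : ℂ) + aff e d' x z
  unfold aff
  push_cast
  field_simp
  linear_combination (-1 : ℂ) * hmC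

theorem nice_affc (he : 0 < e) (hd' : 0 < d') {N m : ℕ} (hm : m * d' = N * e) {f : ℍ → ℂ}
    (hf : Nice (1 : ℝ) f) : Nice (N : ℝ) (affc e d' x f) where
  mdiff := mdiff_affc x he hd' hf.mdiff
  vadd τ := by
    rw [affc_eq x he hd', affc_eq x he hd', affPt_vadd x he hd' hm]
    exact (nice_of_one m hf).vadd _
  bdd := bdd_affc x he hd' hf.bdd

/-- the root of unity `exp (2πi x / d')` -/
noncomputable def zetaOf (d' : ℕ) (x : ℤ) : ℂ := Complex.exp (2 * π * Complex.I * x / d')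

theorem zetaOf_ne_zero (d' : ℕ) (x : ℤ) : zetaOf d' x ≠ 0 := Complex.exp_ne_zero _

theorem zetaOf_pow (hd' : 0 < d') : zetaOf d' x ^ d' = 1 := by
  unfold zetaOf
  rw [← Complex.exp_nat_mul]
  have hd'C : (d' : ℂ) ≠ 0 := by exact_mod_cast hd'.ne'
  have : (d' : ℂ) * (2 * π * Complex.I * x / d') = x * (2 * π * Complex.I) := by
    field_simp
  rw [this]
  exact Complex.exp_int_mul_two_pi_mul_I x

theorem qParam_affPt (he : 0 < e) (hd' : 0 < d') {N m : ℕ} [NeZero N] (hm : m * d' = N * e)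
    (z : ℍ) : 𝕢 1 (affPt x he hd' z) = zetaOf d' x * 𝕢 (N : ℝ) z ^ m := by
  unfold Function.Periodic.qParam zetaOf
  rw [← Complex.exp_nat_mul, ← Complex.exp_add]
  congr 1
  have hd'C : (d' : ℂ) ≠ 0 := by exact_mod_cast hd'.ne'
  have hN : (N : ℂ) ≠ 0 := Nat.cast_ne_zero.mpr (NeZero.ne N)
  have hmC : (m : ℂ) * d' = N * e := by exact_mod_cast hm
  show 2 * π * Complex.I * aff e d' x z / ((1 : ℝ) : ℂ) = _
  unfold aff
  push_cast
  field_simp
  linear_combination (-(z : ℂ)) * hmC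

/-- **The `q_N`-expansion of `f ((e τ + x) / d')`**: coefficients. -/
theorem cf_affc (he : 0 < e) (hd' : 0 < d') {N m : ℕ} [NeZero N] (hm : m * d' = N * e)
    {f : ℍ → ℂ} (hf : Nice (1 : ℝ) f) (k : ℕ) :
    cf (N : ℝ) (affc e d' x f) k =
      if m ∣ k then zetaOf d' x ^ (k / m) * cf 1 f (k / m) else 0 := by
  have hm0 : 0 < m := by
    rcases Nat.eq_zero_or_pos m with h0 | h0
    · rw [h0, zero_mul] at hm
      have := Nat.mul_pos (Nat.pos_of_ne_zero (NeZero.ne N)) he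
      omega
    · exact h0
  symm
  refine (nice_affc x he hd' hm hf).cf_unique pos_N'
    (c := fun k => if m ∣ k then zetaOf d' x ^ (k / m) * cf 1 f (k / m) else 0) (fun τ => ?_) k
  have h1 := hf.hasSum one_pos (affPt x he hd' τ)
  rw [affc_eq x he hd']
  have hinj : Function.Injective (fun n : ℕ => m * n) := mul_right_injective₀ hm0.ne'
  rw [← hinj.hasSum_iff]
  · have e1 : ((fun k : ℕ => (if m ∣ k then zetaOf d' x ^ (k / m) * cf 1 f (k / m) else 0) *
        𝕢 (N : ℝ) τ ^ k) ∘ fun n : ℕ => m * n) =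
        fun n : ℕ => cf 1 f n * 𝕢 1 (affPt x he hd' τ) ^ n := by
      funext n
      simp only [Function.comp_apply, dvd_mul_right, if_true, Nat.mul_div_cancel_left n hm0]
      rw [qParam_affPt x he hd' hm, mul_pow, pow_mul]
      ring
    rw [e1]
    exact h1
  · intro k hk
    have : ¬ m ∣ k := fun ⟨n, hn⟩ => hk ⟨n, hn.symm⟩
    simp [this]

/-- the twist `J(q) ↦ J(ζ q ^ m)` -/
noncomputable def tw (m : ℕ) [NeZero m] (ζ : ℂ) (hζ : ζ ≠ 0) : LaurentSeries ℂ →+* LaurentSeries ℂ :=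
  (qExpand ℂ m).comp (LaurentRescale.rescale ζ hζ)

theorem tw_apply (m : ℕ) [NeZero m] (ζ : ℂ) (hζ : ζ ≠ 0) (F : LaurentSeries ℂ) :
    tw m ζ hζ F = qExpand ℂ m (LaurentRescale.rescale ζ hζ F) := rfl

theorem coeff_tw_mul (m : ℕ) [NeZero m] (ζ : ℂ) (hζ : ζ ≠ 0) (F : LaurentSeries ℂ) (k : ℤ) :
    (tw m ζ hζ F).coeff ((m : ℤ) * k) = ζ ^ k * F.coeff k := by
  rw [tw_apply, qExpand_coeff_mul, LaurentRescale.rescale_coeff]

theorem coeff_tw_of_not_dvd (m : ℕ) [NeZero m] (ζ : ℂ) (hζ : ζ ≠ 0) (F : LaurentSeries ℂ)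
    {k : ℤ} (hk : ¬ (m : ℤ) ∣ k) : (tw m ζ hζ F).coeff k = 0 := by
  rw [tw_apply, qExpand_coeff_of_not_dvd _ _ hk]

/-- **The `q_N`-expansion of `f ((e τ + x) / d')`.** -/
theorem PS_affc (he : 0 < e) (hd' : 0 < d') {N m : ℕ} [NeZero N] [NeZero m]
    (hm : m * d' = N * e) {f : ℍ → ℂ} (hf : Nice (1 : ℝ) f) :
    PS N (affc e d' x f) = tw m (zetaOf d' x) (zetaOf_ne_zero d' x) (PS 1 f) := by
  have hm0 : 0 < m := Nat.pos_of_ne_zero (NeZero.ne m)
  ext k
  by_cases hk : (m : ℤ) ∣ k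
  · obtain ⟨j, rfl⟩ := hk
    rw [coeff_tw_mul]
    rcases lt_or_ge j 0 with hj | hj
    · rw [PS_coeff_neg 1 f hj, mul_zero]
      apply PS_coeff_neg
      have : (0 : ℤ) < m := by exact_mod_cast hm0
      exact mul_neg_of_pos_of_neg this hj
    · obtain ⟨n, rfl⟩ := Int.eq_ofNat_of_zero_le hj
      have e1 : ((m : ℤ) * (n : ℤ)) = ((m * n : ℕ) : ℤ) := by push_cast; ring
      rw [e1, PS_coeff_nat, PS_coeff_nat, cf_affc x he hd' hm hf, if_pos (dvd_mul_right m n),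
        Nat.mul_div_cancel_left n hm0, zpow_natCast]
      norm_num
  · rw [coeff_tw_of_not_dvd _ _ _ _ hk]
    rcases lt_or_ge k 0 with hj | hj
    · exact PS_coeff_neg N _ hj
    · obtain ⟨n, rfl⟩ := Int.eq_ofNat_of_zero_le hj
      rw [PS_coeff_nat, cf_affc x he hd' hm hf, if_neg]
      intro hdv
      exact hk (by exact_mod_cast hdv)

end Affine

/-! ### The expansion of `j ((e τ + x) / d')` -/

section JAff

variable {e d' : ℕ} (x : ℤ)

theorem nice_one_E₄_cube : Nice (1 : ℝ) (fun z : ℍ => E₄ z ^ 3) := by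
  have h := nice_E₄_cube 1
  rwa [Nat.cast_one] at h

theorem PS_one_discriminant_ne_zero : PS 1 (Δ : ℍ → ℂ) ≠ 0 := PS_discriminant_ne_zero 1

theorem cuspL_one_jfun_mul : cuspL 1 jfun * PS 1 (Δ : ℍ → ℂ) = PS 1 (fun z : ℍ => E₄ z ^ 3) := by
  rw [cuspL_jfun_eq, div_mul_cancel₀ _ PS_one_discriminant_ne_zero]

/-- The expansion of `j ((e τ + x) / d')`, given that it is meromorphic at the cusp. -/
theorem cuspL_affc_jfun (he : 0 < e) (hd' : 0 < d') {N m : ℕ} [NeZero N] [NeZero m]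
    (hm : m * d' = N * e) (hmero : Mero N (affc e d' x jfun)) :
    cuspL N (affc e d' x jfun) = tw m (zetaOf d' x) (zetaOf_ne_zero d' x) (cuspL 1 jfun) := by
  have hD := nice_affc x he hd' hm nice_one_discriminant
  have hE := nice_affc x he hd' hm nice_one_E₄_cube
  have hmul : (fun z : ℍ => affc e d' x jfun z * affc e d' x (Δ : ℍ → ℂ) z) =
      affc e d' x (fun z : ℍ => E₄ z ^ 3) := by
    funext z
    simp only [affc]
    rw [mul_comm, discriminant_mul_jfun]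
  have h1 := cuspL_mul hmero (mero_of_nice hD)
  rw [hmul, cuspL_of_nice hE, cuspL_of_nice hD, PS_affc x he hd' hm nice_one_E₄_cube,
    PS_affc x he hd' hm nice_one_discriminant, ← cuspL_one_jfun_mul, map_mul] at h1
  have hne : tw m (zetaOf d' x) (zetaOf_ne_zero d' x) (PS 1 (Δ : ℍ → ℂ)) ≠ 0 := by
    rw [Ne, map_eq_zero_iff _ (tw m (zetaOf d' x) (zetaOf_ne_zero d' x)).injective]
    exact PS_one_discriminant_ne_zero
  exact (mul_right_cancel₀ hne h1).symm

end JAff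

/-! ### The `q`-expansion of `j` is the formal series `jqC = jqModC ℂ` -/

section JqC

open Fermat.Agent.S24.JqExpansion Fermat.Agent.S24.JqCriterion Fermat.Agent.S24.DiscSeries

theorem cf_of_repr {f : ℍ → ℂ} (hf : Nice (1 : ℝ) f) {P : PowerSeries ℂ} {g : ℂ → ℂ}
    (hP : DRepr P g) (hfg : ∀ τ : ℍ, f τ = g (𝕢 1 τ)) (n : ℕ) :
    cf 1 f n = PowerSeries.coeff n P := by
  symm
  refine hf.cf_unique one_pos (c := fun n => PowerSeries.coeff n P) (fun τ => ?_) n
  rw [hfg]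
  exact hP _ (Function.Periodic.norm_qParam_lt_one one_pos τ.im_pos)

theorem PS_of_repr {f : ℍ → ℂ} (hf : Nice (1 : ℝ) f) {P : PowerSeries ℂ} {g : ℂ → ℂ}
    (hP : DRepr P g) (hfg : ∀ τ : ℍ, f τ = g (𝕢 1 τ)) :
    PS 1 f = HahnSeries.ofPowerSeries ℤ ℂ P := by
  show HahnSeries.ofPowerSeries ℤ ℂ (qExpansion ((1 : ℕ) : ℝ) f) = _
  rw [Nat.cast_one]
  congr 1
  ext n
  exact cf_of_repr hf hP hfg n

theorem PS_one_discriminant :
    PS 1 (Δ : ℍ → ℂ) =
      HahnSeries.ofPowerSeries ℤ ℂ (PowerSeries.X * toC dedekindEtaUnit) :=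
  PS_of_repr nice_one_discriminant (repr_X.mul repr_dedekindEtaUnit) discriminant_eq_etaFun

theorem PS_one_E₄_cube :
    PS 1 (fun z : ℍ => E₄ z ^ 3) = HahnSeries.ofPowerSeries ℤ ℂ (toC eisenstein4 ^ 3) :=
  PS_of_repr nice_one_E₄_cube (repr_eisenstein4.pow 3) (fun τ => by rw [e4Fun_qParam])

/-- **The `q`-expansion of the analytic `j`-function is the formal series `jqC`.** -/
theorem cuspL_one_jfun : cuspL 1 jfun = jqC := by
  have h1 := cuspL_one_jfun_mul
  have h2 : jqC * PS 1 (Δ : ℍ → ℂ) = PS 1 (fun z : ℍ => E₄ z ^ 3) := by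
    rw [PS_one_discriminant, PS_one_E₄_cube, jqC, map_mul, HahnSeries.ofPowerSeries_X,
      jNum, map_mul, map_mul, map_pow, map_pow]
    have h3 : HahnSeries.ofPowerSeries ℤ ℂ (toC dedekindEtaUnitInv) *
        HahnSeries.ofPowerSeries ℤ ℂ (toC dedekindEtaUnit) = 1 := by
      rw [← map_mul, ← map_mul, mul_comm, dedekindEtaUnit_mul_inv, map_one, map_one]
    have h4 : (HahnSeries.single (-1 : ℤ) (1 : ℂ)) * HahnSeries.single (1 : ℤ) (1 : ℂ) = 1 := by
      rw [HahnSeries.single_mul_single]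
      simp
    calc HahnSeries.single (-1 : ℤ) (1 : ℂ) *
          (HahnSeries.ofPowerSeries ℤ ℂ (toC eisenstein4) ^ 3 *
            HahnSeries.ofPowerSeries ℤ ℂ (toC dedekindEtaUnitInv)) *
          (HahnSeries.single (1 : ℤ) (1 : ℂ) * HahnSeries.ofPowerSeries ℤ ℂ (toC dedekindEtaUnit))
        = (HahnSeries.single (-1 : ℤ) (1 : ℂ) * HahnSeries.single (1 : ℤ) (1 : ℂ)) *
          (HahnSeries.ofPowerSeries ℤ ℂ (toC dedekindEtaUnitInv) *
            HahnSeries.ofPowerSeries ℤ ℂ (toC dedekindEtaUnit)) *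
          HahnSeries.ofPowerSeries ℤ ℂ (toC eisenstein4) ^ 3 := by ring
      _ = HahnSeries.ofPowerSeries ℤ ℂ (toC eisenstein4) ^ 3 := by
        rw [h3, h4, one_mul, one_mul]
  exact mul_right_cancel₀ PS_one_discriminant_ne_zero (h1.trans h2.symm)

theorem jqC_eq_jqModC : jqC = jqModC ℂ := rfl

end JqC

/-! ### The expansions of the generators at the cusp attached to a coset -/

section Sigma

variable (N : ℕ) [NeZero N]

/-- `e = gcd (d, c)`, where `c` is the lower left entry of `q.out⁻¹`. -/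
noncomputable def eOf (q : Q N) (d : ℕ) : ℕ :=
  Int.gcd (d : ℤ) (((q.out : SL(2, ℤ))⁻¹ : SL(2, ℤ)) 1 0)

/-- `m = N e² / d`: the expansion of `j(q^d)` at the cusp attached to `q` is a series in
`q_N ^ m`, of order `-m`. -/
noncomputable def mOf (q : Q N) (d : ℕ) : ℕ := N * eOf N q d ^ 2 / d

omit [NeZero N] in
theorem eOf_dvd (q : Q N) (d : ℕ) : eOf N q d ∣ d := by
  have h : ((Int.gcd (d : ℤ) (((q.out : SL(2, ℤ))⁻¹ : SL(2, ℤ)) 1 0) : ℕ) : ℤ) ∣ (d : ℤ) :=
    Int.gcd_dvd_left _ _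
  exact_mod_cast h

omit [NeZero N] in
theorem eOf_pos (q : Q N) {d : ℕ} (hd : 0 < d) : 0 < eOf N q d :=
  Nat.pos_of_dvd_of_pos (eOf_dvd N q d) hd

omit [NeZero N] in
theorem mOf_mul (q : Q N) {d : ℕ} (hd : d ∣ N) : mOf N q d * d = N * eOf N q d ^ 2 :=
  Nat.div_mul_cancel (Dvd.dvd.mul_right hd _)

theorem mOf_pos (q : Q N) {d : ℕ} (hd : d ∣ N) : 0 < mOf N q d := by
  have hd0 : 0 < d := pos_of_dvd_N N hd
  have h := mOf_mul N q hd
  have h2 : 0 < N * eOf N q d ^ 2 :=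
    Nat.mul_pos (Nat.pos_of_ne_zero (NeZero.ne N)) (pow_pos (eOf_pos N q hd0) 2)
  rcases Nat.eq_zero_or_pos (mOf N q d) with h0 | h0
  · rw [h0, zero_mul] at h
    omega
  · exact h0

theorem neZero_mOf (q : Q N) {d : ℕ} (hd : d ∣ N) : NeZero (mOf N q d) :=
  ⟨(mOf_pos N q hd).ne'⟩

/-- **The expansion of `j(q^d)` at the cusp attached to `q`** is `J (ζ q_N ^ m)`, where
`J = cuspL 1 jfun` is the `q`-expansion of `j`, `m = N e² / d` and `ζ ^ N = 1`. -/
theorem exists_sigma_jgen (q : Q N) (d : ℕ) [NeZero d] (hd : d ∣ N) :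
    ∃ (m : ℕ) (_ : NeZero m) (ζ : ℂ) (hζ : ζ ≠ 0), m = mOf N q d ∧ ζ ^ N = 1 ∧
      sigma N q (jgen N d hd) = tw m ζ hζ (cuspL 1 jfun) := by
  have hd0 : 0 < d := pos_of_dvd_N N hd
  obtain ⟨e, d', x, he, hd', hed, hgcd, hf⟩ := JN_smul_eq d hd0 ((q.out : SL(2, ℤ))⁻¹)
  have heq : e = eOf N q d := hgcd
  have hd'N : d' ∣ N := (Dvd.intro_left e hed).trans hd
  obtain ⟨c, hc⟩ := hd'N
  have hm : (c * e) * d' = N * e := by rw [hc]; ring
  have hm0 : 0 < c * e := by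
    rcases Nat.eq_zero_or_pos (c * e) with h0 | h0
    · rw [h0, zero_mul] at hm
      have := Nat.mul_pos (Nat.pos_of_ne_zero (NeZero.ne N)) he
      omega
    · exact h0
  have : NeZero (c * e) := ⟨hm0.ne'⟩
  have hmO : c * e = mOf N q d := by
    have h1 := mOf_mul N q hd
    rw [← heq] at h1
    have h2 : (c * e) * d = N * e ^ 2 := by rw [← hed, hc]; ring
    exact Nat.eq_of_mul_eq_mul_right hd0 (h2.trans h1.symm)
  have hG : G N q d = affc e d' x jfun := by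
    funext z
    exact hf z
  have hmero : Mero N (affc e d' x jfun) := hG ▸ mero_G N q hd
  refine ⟨c * e, inferInstance, zetaOf d' x, zetaOf_ne_zero d' x, hmO, ?_, ?_⟩
  · rw [hc, pow_mul, zetaOf_pow x hd', one_pow]
  · rw [sigma_jgen, hG]
    exact cuspL_affc_jfun x he hd' hm hmero

/-- The same with the formal series `jqModC ℂ = q⁻¹ + 744 + ⋯` (integer coefficients). -/
theorem exists_sigma_jgen_jqModC (q : Q N) (d : ℕ) [NeZero d] (hd : d ∣ N) :
    ∃ (m : ℕ) (_ : NeZero m) (ζ : ℂ) (hζ : ζ ≠ 0), m = mOf N q d ∧ ζ ^ N = 1 ∧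
      sigma N q (jgen N d hd) = tw m ζ hζ (jqModC ℂ) := by
  obtain ⟨m, hm, ζ, hζ, h1, h2, h3⟩ := exists_sigma_jgen N q d hd
  exact ⟨m, hm, ζ, hζ, h1, h2, by rw [h3, cuspL_one_jfun, jqC_eq_jqModC]⟩

omit [NeZero N] in
/-- the order of a twist -/
theorem order_tw (m : ℕ) [NeZero m] (ζ : ℂ) (hζ : ζ ≠ 0) {J : LaurentSeries ℂ} {n : ℤ}
    (hn : J.coeff n ≠ 0) (hlt : ∀ i < n, J.coeff i = 0) :
    (tw m ζ hζ J).order = (m : ℤ) * n := by
  have hm0 : (0 : ℤ) < m := by exact_mod_cast Nat.pos_of_ne_zero (NeZero.ne m)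
  apply order_eq_of_coeff
  · rw [coeff_tw_mul]
    exact mul_ne_zero (zpow_ne_zero _ hζ) hn
  · intro i hi
    by_cases hk : (m : ℤ) ∣ i
    · obtain ⟨k, rfl⟩ := hk
      rw [coeff_tw_mul, hlt k (lt_of_mul_lt_mul_left hi hm0.le), mul_zero]
    · exact coeff_tw_of_not_dvd _ _ _ _ hk

/-- **The order of `j(q^d)` at the cusp attached to `q`** is exactly `-m`, `m = N e² / d`. -/
theorem order_sigma_jgen (q : Q N) (d : ℕ) [NeZero d] (hd : d ∣ N) :
    (sigma N q (jgen N d hd)).order = -(mOf N q d : ℤ) := by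
  obtain ⟨m, hm, ζ, hζ, h1, -, h3⟩ := exists_sigma_jgen_jqModC N q d hd
  rw [h3, order_tw m ζ hζ (n := -1) (by rw [coeff_jqModC_neg_one]; exact one_ne_zero)
    (fun i hi => coeff_jqModC_of_lt ℂ hi), h1]
  ring

/-- **The leading coefficient of `j(q^d)` at the cusp attached to `q`** is an `N`-th root of
unity. -/
theorem coeff_sigma_jgen_pow (q : Q N) (d : ℕ) [NeZero d] (hd : d ∣ N) :
    ((sigma N q (jgen N d hd)).coeff (-(mOf N q d : ℤ))) ^ N = 1 := by
  obtain ⟨m, hm, ζ, hζ, h1, h2, h3⟩ := exists_sigma_jgen_jqModC N q d hd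
  have e1 : -(mOf N q d : ℤ) = (m : ℤ) * (-1) := by rw [h1]; ring
  rw [h3, e1, coeff_tw_mul, coeff_jqModC_neg_one, mul_one, zpow_neg, zpow_one, inv_pow, h2,
    inv_one]

/-- **The expansion of `j(q^d)` at the cusp attached to `q` is a series in `q_N ^ m`.** -/
theorem dvd_of_coeff_sigma_jgen_ne_zero (q : Q N) (d : ℕ) [NeZero d] (hd : d ∣ N) (i : ℤ)
    (hi : (sigma N q (jgen N d hd)).coeff i ≠ 0) : (mOf N q d : ℤ) ∣ i := by
  obtain ⟨m, hm, ζ, hζ, h1, -, h3⟩ := exists_sigma_jgen_jqModC N q d hd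
  by_contra hk
  rw [← h1] at hk
  exact hi (by rw [h3]; exact coeff_tw_of_not_dvd _ _ _ _ hk)

/-! The same statements for the generators `gF N d`, `d : Dv N`. -/

theorem exists_sigma_gF (q : Q N) (d : Dv N) :
    ∃ (m : ℕ) (_ : NeZero m) (ζ : ℂ) (hζ : ζ ≠ 0), m = mOf N q (d : ℕ) ∧ ζ ^ N = 1 ∧
      sigma N q (gF N d) = tw m ζ hζ (jqModC ℂ) :=
  exists_sigma_jgen_jqModC N q (d : ℕ) d.2

theorem order_sigma_gF (q : Q N) (d : Dv N) :
    (sigma N q (gF N d)).order = -(mOf N q (d : ℕ) : ℤ) :=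
  order_sigma_jgen N q (d : ℕ) d.2

theorem coeff_sigma_gF_pow (q : Q N) (d : Dv N) :
    ((sigma N q (gF N d)).coeff (-(mOf N q (d : ℕ) : ℤ))) ^ N = 1 :=
  coeff_sigma_jgen_pow N q (d : ℕ) d.2

theorem dvd_of_coeff_sigma_gF_ne_zero (q : Q N) (d : Dv N) (i : ℤ)
    (hi : (sigma N q (gF N d)).coeff i ≠ 0) : (mOf N q (d : ℕ) : ℤ) ∣ i :=
  dvd_of_coeff_sigma_jgen_ne_zero N q (d : ℕ) d.2 i hi

end Sigma

end Fermat.Agent.S18.Cusp0Exp
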