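import Mathlib
import Fermat.Agent.S18.Cusp0Exp

/-!
# S18 moonshot, cusp package: monomials in the generators and their weights

The shared definitions of the cusp package (route alpha):

* `mono N n = ∏_d (1 / j(q^d)) ^ (n d)` for an exponent vector `n : Dv N →₀ ℤ`;
* `wt N q n = ∑_d n d * mOf N q d`, the `q_N`-order of `mono N n` at the cusp attached to the
  coset `q` (the order statement itself is in the next file).
-/

set_option autoImplicit false
set_option linter.unusedSectionVars false

namespace Fermat.Agent.S18.Cusp0Def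

open Fermat.Agent.S20 Fermat.Agent.S24 Fermat.Agent.S24.Jq Fermat.Agent.S24.Eval
open Fermat.Agent.S18.Cusp0Exp
open ModularCurve

variable (N : ℕ) [NeZero N]

/-! ### Weights -/

/-- the weight of the exponent vector `n` at the coset `q`, as an additive map -/
noncomputable def wtHom (q : Q N) : (Dv N →₀ ℤ) →+ ℤ :=
  Finsupp.liftAddHom (fun d : Dv N => (AddMonoidHom.mulRight (mOf N q (d : ℕ) : ℤ)))

/-- **the weight** of the exponent vector `n` at the coset `q`:
`wt N q n = ∑_d n d * mOf N q d` -/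
noncomputable def wt (q : Q N) (n : Dv N →₀ ℤ) : ℤ := wtHom N q n

theorem wt_eq_sum (q : Q N) (n : Dv N →₀ ℤ) :
    wt N q n = n.sum (fun d k => k * (mOf N q (d : ℕ) : ℤ)) := rfl

@[simp] theorem wt_zero (q : Q N) : wt N q 0 = 0 := map_zero (wtHom N q)

theorem wt_add (q : Q N) (n n' : Dv N →₀ ℤ) : wt N q (n + n') = wt N q n + wt N q n' :=
  map_add (wtHom N q) n n'

theorem wt_neg (q : Q N) (n : Dv N →₀ ℤ) : wt N q (-n) = -wt N q n :=
  map_neg (wtHom N q) n

theorem wt_sub (q : Q N) (n n' : Dv N →₀ ℤ) : wt N q (n - n') = wt N q n - wt N q n' :=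
  map_sub (wtHom N q) n n'

theorem wt_zsmul (q : Q N) (k : ℤ) (n : Dv N →₀ ℤ) : wt N q (k • n) = k * wt N q n := by
  have := map_zsmul (wtHom N q) k n
  rw [smul_eq_mul] at this
  exact this

theorem wt_nsmul (q : Q N) (k : ℕ) (n : Dv N →₀ ℤ) : wt N q (k • n) = k * wt N q n := by
  have := map_nsmul (wtHom N q) k n
  rw [nsmul_eq_mul] at this
  exact this

theorem wt_single (q : Q N) (d : Dv N) (k : ℤ) :
    wt N q (Finsupp.single d k) = k * (mOf N q (d : ℕ) : ℤ) := by
  show Finsupp.liftAddHom _ (Finsupp.single d k) = _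
  rw [Finsupp.liftAddHom_apply_single]
  rfl

theorem wt_sum {ι : Type*} (q : Q N) (s : Finset ι) (f : ι → (Dv N →₀ ℤ)) :
    wt N q (∑ i ∈ s, f i) = ∑ i ∈ s, wt N q (f i) :=
  map_sum (wtHom N q) f s

/-- the weight only depends on the vector `mOf N q` -/
theorem wt_congr {q q' : Q N} (h : ∀ d : Dv N, mOf N q' (d : ℕ) = mOf N q (d : ℕ))
    (n : Dv N →₀ ℤ) : wt N q' n = wt N q n := by
  rw [wt_eq_sum, wt_eq_sum]
  refine Finsupp.sum_congr fun d _ => ?_
  rw [h d]

/-! ### Monomials -/

theorem gF_ne_zero (d : Dv N) : gF N d ≠ 0 := by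
  intro h
  have h1 := order_sigma_gF N (Classical.arbitrary (Q N)) d
  rw [h, map_zero, HahnSeries.order_zero] at h1
  have h2 := mOf_pos N (Classical.arbitrary (Q N)) d.2
  omega

/-- `1 / j(q^d)` as a unit of the function field -/
noncomputable def uU (d : Dv N) : (FF N)ˣ := (Units.mk0 (gF N d) (gF_ne_zero N d))⁻¹

@[simp] theorem coe_uU (d : Dv N) : ((uU N d : (FF N)ˣ) : FF N) = (gF N d)⁻¹ := by
  rw [uU, Units.val_inv_eq_inv_val, Units.val_mk0]

/-- the monomial `∏_d (1 / j(q^d)) ^ (n d)`, as a unit -/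
noncomputable def monoU (n : Dv N →₀ ℤ) : (FF N)ˣ := n.prod (fun d k => uU N d ^ k)

@[simp] theorem monoU_zero : monoU N 0 = 1 := Finsupp.prod_zero_index

theorem monoU_add (n n' : Dv N →₀ ℤ) : monoU N (n + n') = monoU N n * monoU N n' :=
  Finsupp.prod_add_index' (fun _ => zpow_zero _) (fun _ _ _ => zpow_add _ _ _)

/-- the monomial with exponent vector `n`, as a homomorphism to the units -/
noncomputable def monoHom : Multiplicative (Dv N →₀ ℤ) →* (FF N)ˣ where
  toFun n := monoU N (Multiplicative.toAdd n)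
  map_one' := monoU_zero N
  map_mul' n n' := monoU_add N _ _

/-- **the monomial** `∏_d (1 / j(q^d)) ^ (n d)` -/
noncomputable def mono (n : Dv N →₀ ℤ) : FF N := (monoU N n : (FF N)ˣ)

theorem mono_ne_zero (n : Dv N →₀ ℤ) : mono N n ≠ 0 := (monoU N n).ne_zero

theorem monoU_neg (n : Dv N →₀ ℤ) : monoU N (-n) = (monoU N n)⁻¹ :=
  map_inv (monoHom N) (Multiplicative.ofAdd n)

theorem monoU_zsmul (k : ℤ) (n : Dv N →₀ ℤ) : monoU N (k • n) = monoU N n ^ k :=
  map_zpow (monoHom N) (Multiplicative.ofAdd n) k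

theorem monoU_nsmul (k : ℕ) (n : Dv N →₀ ℤ) : monoU N (k • n) = monoU N n ^ k :=
  map_pow (monoHom N) (Multiplicative.ofAdd n) k

theorem monoU_single (d : Dv N) (k : ℤ) : monoU N (Finsupp.single d k) = uU N d ^ k :=
  Finsupp.prod_single_index (zpow_zero _)

@[simp] theorem mono_zero : mono N 0 = 1 := by
  rw [mono, monoU_zero, Units.val_one]

theorem mono_add (n n' : Dv N →₀ ℤ) : mono N (n + n') = mono N n * mono N n' := by
  rw [mono, monoU_add, Units.val_mul]
  rfl

theorem mono_neg (n : Dv N →₀ ℤ) : mono N (-n) = (mono N n)⁻¹ := by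
  rw [mono, monoU_neg, Units.val_inv_eq_inv_val]
  rfl

theorem mono_zsmul (k : ℤ) (n : Dv N →₀ ℤ) : mono N (k • n) = mono N n ^ k := by
  rw [mono, monoU_zsmul, Units.val_zpow_eq_zpow_val]
  rfl

theorem mono_nsmul (k : ℕ) (n : Dv N →₀ ℤ) : mono N (k • n) = mono N n ^ k := by
  rw [mono, monoU_nsmul, Units.val_pow_eq_pow_val]
  rfl

theorem mono_single (d : Dv N) (k : ℤ) : mono N (Finsupp.single d k) = (gF N d)⁻¹ ^ k := by
  rw [mono, monoU_single, Units.val_zpow_eq_zpow_val, coe_uU]

/-- **Induction principle for monomials**: a property of units of the function field that holds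
for the `1 / j(q^d)` and is stable under products and inverses holds for all monomials. -/
theorem monoU_induction (p : (FF N)ˣ → Prop) (h1 : p 1) (hu : ∀ d : Dv N, p (uU N d))
    (hmul : ∀ a b, p a → p b → p (a * b)) (hinv : ∀ a, p a → p a⁻¹) (n : Dv N →₀ ℤ) :
    p (monoU N n) := by
  have hz : ∀ (a : (FF N)ˣ) (k : ℤ), p a → p (a ^ k) := by
    intro a k ha
    have hn : ∀ m : ℕ, p (a ^ m) := by
      intro m
      induction m with
      | zero => rw [pow_zero]; exact h1
      | succ m ih => rw [pow_succ]; exact hmul _ _ ih ha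
    rcases Int.eq_nat_or_neg k with ⟨m, rfl | rfl⟩
    · rw [zpow_natCast]; exact hn m
    · rw [zpow_neg, zpow_natCast]; exact hinv _ (hn m)
  induction n using Finsupp.induction with
  | zero => rw [monoU_zero]; exact h1
  | single_add d k f _ _ ih =>
    rw [monoU_add, monoU_single]
    exact hmul _ _ (hz _ _ (hu d)) ih

/-- **Homomorphisms on monomials**: a homomorphism from the units of the function field to a
commutative group is computed on a monomial from its values on the `1 / j(q^d)`. -/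
theorem map_monoU {G : Type*} [CommGroup G] (φ : (FF N)ˣ →* G) (n : Dv N →₀ ℤ) :
    φ (monoU N n) = n.prod (fun d k => φ (uU N d) ^ k) := by
  rw [monoU, map_finsuppProd]
  refine Finsupp.prod_congr fun d _ => ?_
  rw [map_zpow]

/-- additive version of `map_monoU` -/
theorem map_monoU_add {G : Type*} [AddCommGroup G] (φ : (FF N)ˣ →* Multiplicative G)
    (n : Dv N →₀ ℤ) :
    Multiplicative.toAdd (φ (monoU N n)) =
      n.sum (fun d k => k • Multiplicative.toAdd (φ (uU N d))) := by
  rw [map_monoU, Finsupp.prod, Finsupp.sum, toAdd_prod]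
  refine Finset.sum_congr rfl fun d _ => ?_
  rw [toAdd_zpow]

end Fermat.Agent.S18.Cusp0Def
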