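import Mathlib
import Fermat.Agent.S18.Cusp0Def

/-!
# S18 moonshot, cusp package (route alpha): the sign vectors

Pure combinatorics on the numbers `mOf N q d = N * gcd (d, c_q) ^ 2 / d`.

For a prime `p` with `d * p ∣ N` every coset `q` is of exactly one of two types at the edge
`(d, p)`: either `p * m_{dp} = m_d` or `m_{dp} = p * m_d`.  The two-term exponent vectors
`p • δ_{dp} - δ_d` resp. `p • δ_d - δ_{dp}` have weight `≥ 0` at every coset and weight `0`
exactly at the cosets of the first resp. second type.  Summing over all edges the vector of the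
type of `q` gives `H_q`:

* `exists_H` : weight `≥ 0` everywhere and `= 0` exactly at the cosets with the same
  `mOf`-vector as `q`;
* `exists_correction` : adding a large multiple of `H_q` makes the weight of any vector
  nonnegative at all the cosets with a different `mOf`-vector.
-/

set_option autoImplicit false
set_option linter.unusedSectionVars false
set_option linter.unusedVariables false

namespace Fermat.Agent.S18.Cusp0H

open Fermat.Agent.S20 Fermat.Agent.S24 Fermat.Agent.S24.Jq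
open Fermat.Agent.S18.Cusp0Exp Fermat.Agent.S18.Cusp0Def
open ModularCurve
open scoped MatrixGroups

/-! ### Arithmetic of the gcd -/

theorem gcd_edge (c d p : ℕ) (hp : p.Prime) (hd : 0 < d) :
    Nat.gcd (d * p) c = Nat.gcd d c ∨ Nat.gcd (d * p) c = p * Nat.gcd d c := by
  have hg : 0 < Nat.gcd d c := Nat.gcd_pos_of_pos_left _ hd
  have h1 : Nat.gcd d c ∣ Nat.gcd (d * p) c :=
    Nat.dvd_gcd ((Nat.gcd_dvd_left d c).trans (Dvd.intro _ rfl)) (Nat.gcd_dvd_right d c)
  have h2 : Nat.gcd (d * p) c ∣ Nat.gcd d c * p := by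
    rw [← Nat.gcd_mul_right]
    exact Nat.dvd_gcd (Nat.gcd_dvd_left _ _) ((Nat.gcd_dvd_right _ _).trans (Dvd.intro _ rfl))
  obtain ⟨k, hk⟩ := h1
  rw [hk] at h2
  have h3 : k ∣ p := Nat.dvd_of_mul_dvd_mul_left hg h2
  rcases (Nat.dvd_prime hp).mp h3 with h | h
  · left
    rw [hk, h, mul_one]
  · right
    rw [hk, h, mul_comm]

variable (N : ℕ) [NeZero N]

theorem eOf_eq_gcd (q : Q N) (d : ℕ) :
    eOf N q d = Nat.gcd d (Int.natAbs (((q.out : SL(2, ℤ))⁻¹ : SL(2, ℤ)) 1 0)) := by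
  unfold eOf
  rw [Int.gcd_def]
  simp

theorem eOf_one_eq (q : Q N) : eOf N q 1 = 1 := by
  rw [eOf_eq_gcd]
  simp

/-- `m_1 = N` at every coset -/
theorem mOf_one_eq (q : Q N) : mOf N q 1 = N := by
  unfold mOf
  rw [eOf_one_eq]
  simp

theorem eOf_edge (q : Q N) (d p : ℕ) (hp : p.Prime) (hd : 0 < d) :
    eOf N q (d * p) = eOf N q d ∨ eOf N q (d * p) = p * eOf N q d := by
  rw [eOf_eq_gcd, eOf_eq_gcd]
  exact gcd_edge _ d p hp hd

/-- the two types of a coset at an edge `(d, p)` -/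
theorem mOf_edge (q : Q N) (d p : ℕ) (hp : p.Prime) (hdp : d * p ∣ N) :
    p * mOf N q (d * p) = mOf N q d ∨ mOf N q (d * p) = p * mOf N q d := by
  have hd : d ∣ N := (Dvd.intro _ rfl).trans hdp
  have hd0 : 0 < d := Nat.pos_of_dvd_of_pos hd (Nat.pos_of_ne_zero (NeZero.ne N))
  have hp0 : 0 < p := hp.pos
  have h1 := mOf_mul N q hdp
  have h2 := mOf_mul N q hd
  rcases eOf_edge N q d p hp hd0 with h | h
  · left
    rw [h, ← h2] at h1
    have h3 : p * mOf N q (d * p) * d = mOf N q d * d := by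
      rw [← h1]; ring
    exact Nat.eq_of_mul_eq_mul_right hd0 h3
  · right
    rw [h] at h1
    have h3 : mOf N q (d * p) * (d * p) = p * mOf N q d * (d * p) := by
      rw [h1]
      calc N * (p * eOf N q d) ^ 2 = p * (N * eOf N q d ^ 2) * p := by ring
        _ = p * (mOf N q d * d) * p := by rw [h2]
        _ = p * mOf N q d * (d * p) := by ring
    exact Nat.eq_of_mul_eq_mul_right (Nat.mul_pos hd0 hp0) h3

/-! ### The two-term vectors -/

/-- the divisor `d` as an element of `Dv N` (junk value `1` if `d ∤ N`) -/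
noncomputable def dv (d : ℕ) : Dv N :=
  if h : d ∣ N then ⟨d, h⟩ else ⟨1, one_dvd N⟩

theorem dv_val {d : ℕ} (h : d ∣ N) : ((dv N d : Dv N) : ℕ) = d := by
  rw [dv, dif_pos h]

/-- the type of the coset `q` at the edge `(d, p)` -/
def T1 (q : Q N) (d p : ℕ) : Prop := p * mOf N q (d * p) = mOf N q d

open Classical in
/-- the two-term vector of the edge `(d, p)` for the type `b` -/
noncomputable def vec (d p : ℕ) (b : Prop) : Dv N →₀ ℤ :=
  if b then (p : ℤ) • Finsupp.single (dv N (d * p)) 1 - Finsupp.single (dv N d) 1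
  else (p : ℤ) • Finsupp.single (dv N d) 1 - Finsupp.single (dv N (d * p)) 1

theorem wt_vec_pos (q : Q N) {d p : ℕ} (hdp : d * p ∣ N) {b : Prop} (hb : b) :
    wt N q (vec N d p b) = (p : ℤ) * (mOf N q (d * p) : ℤ) - (mOf N q d : ℤ) := by
  have hd : d ∣ N := (Dvd.intro _ rfl).trans hdp
  rw [vec, if_pos hb, wt_sub, wt_zsmul, wt_single, wt_single, dv_val N hdp, dv_val N hd]
  ring

theorem wt_vec_neg (q : Q N) {d p : ℕ} (hdp : d * p ∣ N) {b : Prop} (hb : ¬ b) :
    wt N q (vec N d p b) = (p : ℤ) * (mOf N q d : ℤ) - (mOf N q (d * p) : ℤ) := by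
  have hd : d ∣ N := (Dvd.intro _ rfl).trans hdp
  rw [vec, if_neg hb, wt_sub, wt_zsmul, wt_single, wt_single, dv_val N hdp, dv_val N hd]
  ring

/-- the weight of the vector of the type of `q` is `≥ 0` at every coset `q''`, and `= 0` exactly
if `q''` has the same type as `q` at this edge -/
theorem wt_vec (q q'' : Q N) {d p : ℕ} (hp : p.Prime) (hdp : d * p ∣ N) :
    0 ≤ wt N q'' (vec N d p (T1 N q d p)) ∧
      (wt N q'' (vec N d p (T1 N q d p)) = 0 ↔ (T1 N q'' d p ↔ T1 N q d p)) := by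
  have hd : d ∣ N := (Dvd.intro _ rfl).trans hdp
  have ha : 0 < mOf N q'' d := mOf_pos N q'' hd
  have hb : 0 < mOf N q'' (d * p) := mOf_pos N q'' hdp
  have hp2 : 2 ≤ p := hp.two_le
  have haZ : (0 : ℤ) < (mOf N q'' d : ℤ) := by exact_mod_cast ha
  have hbZ : (0 : ℤ) < (mOf N q'' (d * p) : ℤ) := by exact_mod_cast hb
  have hpZ : (2 : ℤ) ≤ (p : ℤ) := by exact_mod_cast hp2
  by_cases hq : T1 N q d p
  · rw [wt_vec_pos N q'' hdp hq]
    rcases mOf_edge N q'' d p hp hdp with h | h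
    · have hZ : (p : ℤ) * (mOf N q'' (d * p) : ℤ) = (mOf N q'' d : ℤ) := by exact_mod_cast h
      refine ⟨by rw [hZ, sub_self], fun _ => ⟨fun _ => hq, fun _ => h⟩, fun _ => by rw [hZ, sub_self]⟩
    · have hZ : (mOf N q'' (d * p) : ℤ) = (p : ℤ) * (mOf N q'' d : ℤ) := by exact_mod_cast h
      have hpos : (0 : ℤ) < (p : ℤ) * ((p : ℤ) * (mOf N q'' d : ℤ)) - (mOf N q'' d : ℤ) := by
        nlinarith
      rw [hZ]
      refine ⟨hpos.le, fun h0 => absurd h0 hpos.ne', fun hiff => ?_⟩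
      have h1 : T1 N q'' d p := hiff.mpr hq
      have h1Z : (p : ℤ) * (mOf N q'' (d * p) : ℤ) = (mOf N q'' d : ℤ) := by exact_mod_cast h1
      rw [hZ] at h1Z
      rw [h1Z, sub_self] at hpos
      exact absurd hpos (lt_irrefl _)
  · rw [wt_vec_neg N q'' hdp hq]
    rcases mOf_edge N q'' d p hp hdp with h | h
    · have hZ : (p : ℤ) * (mOf N q'' (d * p) : ℤ) = (mOf N q'' d : ℤ) := by exact_mod_cast h
      have hpos : (0 : ℤ) < (p : ℤ) * ((p : ℤ) * (mOf N q'' (d * p) : ℤ)) -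
          (mOf N q'' (d * p) : ℤ) := by
        nlinarith
      rw [← hZ]
      refine ⟨hpos.le, fun h0 => absurd h0 hpos.ne', fun hiff => ?_⟩
      exact absurd (hiff.mp h) hq
    · have hZ : (mOf N q'' (d * p) : ℤ) = (p : ℤ) * (mOf N q'' d : ℤ) := by exact_mod_cast h
      have hn : ¬ T1 N q'' d p := by
        intro h1
        have h1Z : (p : ℤ) * (mOf N q'' (d * p) : ℤ) = (mOf N q'' d : ℤ) := by exact_mod_cast h1
        rw [hZ] at h1Z
        nlinarith
      refine ⟨by rw [hZ, sub_self], fun _ => ⟨fun h1 => absurd h1 hn, fun h1 => absurd h1 hq⟩,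
        fun _ => by rw [hZ, sub_self]⟩

/-! ### The vector `H_q` -/

/-- the set of edges -/
def edges : Finset (ℕ × ℕ) :=
  (N.divisors ×ˢ N.divisors).filter (fun x => x.2.Prime ∧ x.1 * x.2 ∣ N)

theorem mem_edges {x : ℕ × ℕ} : x ∈ edges N ↔ x.2.Prime ∧ x.1 * x.2 ∣ N := by
  unfold edges
  rw [Finset.mem_filter, Finset.mem_product, Nat.mem_divisors, Nat.mem_divisors]
  constructor
  · exact fun h => h.2
  · intro h
    exact ⟨⟨⟨(Dvd.intro _ rfl).trans h.2, NeZero.ne N⟩,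
      ⟨(Dvd.intro_left _ rfl).trans h.2, NeZero.ne N⟩⟩, h⟩

/-- the vector `H_q` -/
noncomputable def H (q : Q N) : Dv N →₀ ℤ :=
  ∑ x ∈ edges N, vec N x.1 x.2 (T1 N q x.1 x.2)

theorem wt_H (q q'' : Q N) :
    wt N q'' (H N q) = ∑ x ∈ edges N, wt N q'' (vec N x.1 x.2 (T1 N q x.1 x.2)) := by
  rw [H, wt_sum]

theorem wt_H_nonneg (q q'' : Q N) : 0 ≤ wt N q'' (H N q) := by
  rw [wt_H]
  refine Finset.sum_nonneg fun x hx => ?_
  rw [mem_edges] at hx
  exact (wt_vec N q q'' hx.1 hx.2).1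

theorem wt_H_eq_zero_iff_type (q q'' : Q N) :
    wt N q'' (H N q) = 0 ↔ ∀ x ∈ edges N, (T1 N q'' x.1 x.2 ↔ T1 N q x.1 x.2) := by
  rw [wt_H, Finset.sum_eq_zero_iff_of_nonneg]
  · refine forall₂_congr fun x hx => ?_
    rw [mem_edges] at hx
    exact (wt_vec N q q'' hx.1 hx.2).2
  · intro x hx
    rw [mem_edges] at hx
    exact (wt_vec N q q'' hx.1 hx.2).1

theorem mOf_eq_of_type (q q'' : Q N)
    (h : ∀ x ∈ edges N, (T1 N q'' x.1 x.2 ↔ T1 N q x.1 x.2)) :
    ∀ d : ℕ, d ∣ N → mOf N q'' d = mOf N q d := by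
  intro d
  induction d using Nat.strong_induction_on with
  | _ d ih =>
    intro hd
    by_cases h1 : d = 1
    · rw [h1, mOf_one_eq, mOf_one_eq]
    · obtain ⟨p, hp, d₀, hd₀⟩ : ∃ p : ℕ, p.Prime ∧ ∃ d₀ : ℕ, d = p * d₀ :=
        ⟨d.minFac, Nat.minFac_prime h1, Nat.minFac_dvd d⟩
      have hd0 : 0 < d := Nat.pos_of_dvd_of_pos hd (Nat.pos_of_ne_zero (NeZero.ne N))
      have hdd : d = d₀ * p := hd₀.trans (mul_comm _ _)
      have hd₀pos : 0 < d₀ := by
        rcases Nat.eq_zero_or_pos d₀ with h0 | h0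
        · rw [h0, mul_zero] at hd₀; omega
        · exact h0
      have hlt : d₀ < d := by
        have := hp.two_le
        nlinarith
      have hd₀N : d₀ ∣ N := (Dvd.intro_left _ hd₀.symm).trans hd
      have hdpN : d₀ * p ∣ N := by rw [← hdd]; exact hd
      have ihd := ih d₀ hlt hd₀N
      have hx : ((d₀, p) : ℕ × ℕ) ∈ edges N := (mem_edges N).mpr ⟨hp, hdpN⟩
      have hT := h _ hx
      simp only at hT
      have e1 := mOf_edge N q d₀ p hp hdpN
      have e2 := mOf_edge N q'' d₀ p hp hdpN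
      have hpos : 0 < p := hp.pos
      rw [← hdd] at e1 e2
      by_cases hq : T1 N q d₀ p
      · have hq'' : T1 N q'' d₀ p := hT.mpr hq
        unfold T1 at hq hq''
        rw [← hdd] at hq hq''
        have : p * mOf N q'' d = p * mOf N q d := by rw [hq, hq'', ihd]
        exact Nat.eq_of_mul_eq_mul_left hpos this
      · have hq'' : ¬ T1 N q'' d₀ p := fun h2 => hq (hT.mp h2)
        unfold T1 at hq hq''
        rw [← hdd] at hq hq''
        rcases e1 with e1 | e1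
        · exact absurd e1 hq
        rcases e2 with e2 | e2
        · exact absurd e2 hq''
        rw [e1, e2, ihd]

theorem type_of_mOf_eq (q q'' : Q N) (h : ∀ d : Dv N, mOf N q'' (d : ℕ) = mOf N q (d : ℕ)) :
    ∀ x ∈ edges N, (T1 N q'' x.1 x.2 ↔ T1 N q x.1 x.2) := by
  intro x hx
  rw [mem_edges] at hx
  have hd : x.1 ∣ N := (Dvd.intro _ rfl).trans hx.2
  unfold T1
  rw [h ⟨x.1 * x.2, hx.2⟩, h ⟨x.1, hd⟩]

theorem wt_H_eq_zero_iff (q q'' : Q N) :
    wt N q'' (H N q) = 0 ↔ ∀ d : Dv N, mOf N q'' (d : ℕ) = mOf N q (d : ℕ) := by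
  rw [wt_H_eq_zero_iff_type]
  constructor
  · intro h d
    exact mOf_eq_of_type N q q'' h d d.2
  · exact type_of_mOf_eq N q q''

/-- **the vector `H_q`**: weight `≥ 0` at every coset, and `= 0` exactly at the cosets with the
same `mOf`-vector as `q` -/
theorem exists_H (q : Q N) : ∃ n : Dv N →₀ ℤ, (∀ q'' : Q N, 0 ≤ wt N q'' n) ∧
    ∀ q'' : Q N, wt N q'' n = 0 ↔ ∀ d : Dv N, mOf N q'' (d : ℕ) = mOf N q (d : ℕ) :=
  ⟨H N q, wt_H_nonneg N q, wt_H_eq_zero_iff N q⟩

/-- **the correction**: a multiple `n'` of `H_q` such that `n + N • n'` has weight `≥ 0` at all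
the cosets with another `mOf`-vector than `q` -/
theorem exists_correction (q : Q N) (n : Dv N →₀ ℤ) : ∃ n' : Dv N →₀ ℤ,
    (∀ q'' : Q N, wt N q'' n < 0 → (∃ d : Dv N, mOf N q'' (d : ℕ) ≠ mOf N q (d : ℕ)) →
      0 ≤ wt N q'' (n + (N : ℤ) • n')) ∧
    (∀ q'' : Q N, 0 ≤ wt N q'' n') ∧
    ∀ q'' : Q N, (∀ d : Dv N, mOf N q'' (d : ℕ) = mOf N q (d : ℕ)) → wt N q'' n' = 0 := by
  have hfin : Finite (Q N) := inferInstance
  let _ : Fintype (Q N) := Fintype.ofFinite _
  obtain ⟨K, hK⟩ : ∃ K : ℕ, ∀ q'' : Q N, -wt N q'' n ≤ (K : ℤ) := by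
    refine ⟨∑ q'' : Q N, (wt N q'' n).natAbs, fun q'' => ?_⟩
    have h1 : (wt N q'' n).natAbs ≤ ∑ q'' : Q N, (wt N q'' n).natAbs :=
      Finset.single_le_sum (f := fun q'' : Q N => (wt N q'' n).natAbs)
        (fun _ _ => Nat.zero_le _) (Finset.mem_univ q'')
    have h2 : ((wt N q'' n).natAbs : ℤ) ≤ ((∑ q'' : Q N, (wt N q'' n).natAbs : ℕ) : ℤ) := by
      exact_mod_cast h1
    have h3 : -wt N q'' n ≤ ((wt N q'' n).natAbs : ℤ) := by omega
    exact h3.trans h2
  refine ⟨(K : ℤ) • H N q, fun q'' hneg hne => ?_, fun q'' => ?_, fun q'' heq => ?_⟩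
  · have h0 : wt N q'' (H N q) ≠ 0 := by
      intro h0
      obtain ⟨d, hd⟩ := hne
      exact hd ((wt_H_eq_zero_iff N q q'').mp h0 d)
    have h1 : 1 ≤ wt N q'' (H N q) := by
      have := wt_H_nonneg N q q''
      omega
    have hN : (1 : ℤ) ≤ (N : ℤ) := by
      have := Nat.pos_of_ne_zero (NeZero.ne N)
      exact_mod_cast this
    have hK0 : (0 : ℤ) ≤ (K : ℤ) := Int.natCast_nonneg K
    rw [wt_add, wt_zsmul, wt_zsmul]
    have h2 : (K : ℤ) ≤ (N : ℤ) * ((K : ℤ) * wt N q'' (H N q)) := by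
      have h3 : (K : ℤ) ≤ (K : ℤ) * wt N q'' (H N q) := by nlinarith
      have h4 : (0 : ℤ) ≤ (K : ℤ) * wt N q'' (H N q) := by nlinarith
      nlinarith
    have := hK q''
    linarith
  · rw [wt_zsmul]
    exact mul_nonneg (Int.natCast_nonneg K) (wt_H_nonneg N q q'')
  · rw [wt_zsmul, (wt_H_eq_zero_iff N q q'').mpr heq, mul_zero]

end Fermat.Agent.S18.Cusp0H
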