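import Mathlib
import Fermat.Agent.S28.ModEq

/-!
# S18 moonshot, cusp package (S3), formal part: `j(q)` and `j(q^d)` are integral over each other

For a commutative ring `R`, an `R`-algebra `S` and `x y : S` we write `Rel x y` for
"`y` is a root of a monic polynomial with coefficients in `R[x]`", in the explicit form
`∃ Ψ : R[X][X], Ψ.Monic ∧ Ψ(x; y) = 0`.  This relation is transitive and is preserved by ring
homomorphisms.

From the modular equation of prime level over the ring `OO` of algebraic integers
(`S28.ModEq.exists_modEq`) we get, by induction on the prime factorisation of `d`, that `j(q)`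
and `j(q^d)` are integral over each other with coefficients in `OO`:
`rel_JmR_j d : Rel (j(q^d)) (j(q))` and `rel_j_JmR d : Rel (j(q)) (j(q^d))`.
-/

set_option autoImplicit false
set_option linter.style.haveILetI false

namespace Fermat.Agent.S18.Cusp0Rel

open Polynomial

/-! ### The relation -/

section Abstract

variable {R S : Type*} [CommRing R] [CommRing S]

/-- `y` is a root of a monic polynomial with coefficients in `c(R)[x]`. -/
def Rel (c : R →+* S) (x y : S) : Prop :=
  ∃ Ψ : R[X][X], Ψ.Monic ∧ Polynomial.eval₂ (Polynomial.eval₂RingHom c x) y Ψ = 0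

theorem Rel.refl (c : R →+* S) (x : S) : Rel c x x := by
  refine ⟨X - C X, monic_X_sub_C _, ?_⟩
  rw [eval₂_sub, eval₂_X, eval₂_C, coe_eval₂RingHom, eval₂_X, sub_self]

/-- change of rings -/
theorem Rel.map {R' S' : Type*} [CommRing R'] [CommRing S'] {c : R →+* S} {c' : R' →+* S'}
    (φ : R →+* R') (σ : S →+* S') (h : σ.comp c = c'.comp φ) {x y : S} (hxy : Rel c x y) :
    Rel c' (σ x) (σ y) := by
  obtain ⟨Ψ, hm, h0⟩ := hxy
  refine ⟨Ψ.map (Polynomial.mapRingHom φ), hm.map _, ?_⟩
  have e : σ.comp (Polynomial.eval₂RingHom c x) =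
      (Polynomial.eval₂RingHom c' (σ x)).comp (Polynomial.mapRingHom φ) := by
    refine Polynomial.ringHom_ext (fun a => ?_) ?_
    · simp only [RingHom.comp_apply, coe_eval₂RingHom, eval₂_C, coe_mapRingHom, map_C]
      exact congrArg (fun f : R →+* S' => f a) h
    · simp only [RingHom.comp_apply, coe_eval₂RingHom, eval₂_X, coe_mapRingHom, map_X]
  rw [Polynomial.eval₂_map, ← e, ← Polynomial.hom_eval₂, h0, map_zero]

/-- the same base ring -/
theorem Rel.map' {S' : Type*} [CommRing S'] {c : R →+* S} (σ : S →+* S') {x y : S}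
    (hxy : Rel c x y) : Rel (σ.comp c) (σ x) (σ y) :=
  Rel.map (RingHom.id R) σ (by rw [RingHom.comp_id]) hxy

/-- pulling back along an injective homomorphism -/
theorem Rel.of_map {S' : Type*} [CommRing S'] {c : R →+* S} (σ : S →+* S')
    (hσ : Function.Injective σ) {x y : S} (h : Rel (σ.comp c) (σ x) (σ y)) : Rel c x y := by
  obtain ⟨Ψ, hm, h0⟩ := h
  refine ⟨Ψ, hm, hσ ?_⟩
  have e : σ.comp (Polynomial.eval₂RingHom c x) = Polynomial.eval₂RingHom (σ.comp c) (σ x) := by
    refine Polynomial.ringHom_ext (fun a => ?_) ?_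
    · simp only [RingHom.comp_apply, coe_eval₂RingHom, eval₂_C]
    · simp only [RingHom.comp_apply, coe_eval₂RingHom, eval₂_X]
  rw [Polynomial.hom_eval₂, e, h0, map_zero]

/-- `Rel` gives integrality over every ring through which `R[x] → S` factors. -/
theorem Rel.isIntegral {c : R →+* S} {x y : S} (hxy : Rel c x y) (B : Type*) [CommRing B]
    [Algebra B S] (g : R[X] →+* B)
    (hg : (algebraMap B S).comp g = Polynomial.eval₂RingHom c x) : IsIntegral B y := by
  obtain ⟨Ψ, hm, h0⟩ := hxy
  refine ⟨Ψ.map g, hm.map _, ?_⟩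
  rw [Polynomial.eval₂_map, hg]
  exact h0

/-- integrality over a quotient of `R[X]` mapping to `R[x]` gives `Rel` -/
theorem Rel.of_isIntegral {c : R →+* S} {x y : S} (B : Type*) [CommRing B]
    [Algebra B S] (g : R[X] →+* B) (hsurj : Function.Surjective g)
    (hg : (algebraMap B S).comp g = Polynomial.eval₂RingHom c x) (hy : IsIntegral B y) :
    Rel c x y := by
  obtain ⟨p, hm, h0⟩ := hy
  obtain ⟨Ψ, hΨ, -, hΨm⟩ := Polynomial.lifts_and_natDegree_eq_and_monic
    (f := g) ((Polynomial.mem_lifts p).mpr (Polynomial.map_surjective _ hsurj p)) hm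
  refine ⟨Ψ, hΨm, ?_⟩
  rw [← hg, ← Polynomial.eval₂_map, hΨ]
  exact h0

end Abstract

/-! ### Transitivity -/

section Trans

variable {R S : Type*} [CommRing R] [CommRing S] [Algebra R S]

theorem Rel.trans {x y z : S} (hxy : Rel (algebraMap R S) x y)
    (hyz : Rel (algebraMap R S) y z) : Rel (algebraMap R S) x z := by
  have hx : x ∈ Algebra.adjoin R {x} := Algebra.self_mem_adjoin_singleton R x
  have hg₀ : (algebraMap ↥(Algebra.adjoin R {x}) S).comp
      (Polynomial.aeval (R := R) (⟨x, hx⟩ : ↥(Algebra.adjoin R {x}))).toRingHom =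
        Polynomial.eval₂RingHom (algebraMap R S) x := by
    refine Polynomial.ringHom_ext (fun a => ?_) ?_
    · simp only [RingHom.comp_apply, AlgHom.toRingHom_eq_coe, RingHom.coe_coe, aeval_C,
        coe_eval₂RingHom, eval₂_C]
      rfl
    · simp only [RingHom.comp_apply, AlgHom.toRingHom_eq_coe, RingHom.coe_coe, aeval_X,
        coe_eval₂RingHom, eval₂_X]
      rfl
  have hsurj : Function.Surjective
      (Polynomial.aeval (R := R) (⟨x, hx⟩ : ↥(Algebra.adjoin R {x}))).toRingHom := by
    rintro ⟨b, hb⟩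
    have hb' := hb
    rw [Algebra.adjoin_singleton_eq_range_aeval] at hb'
    obtain ⟨q, hq⟩ := hb'
    refine ⟨q, Subtype.ext ?_⟩
    have h1 := congrArg (fun f : R[X] →+* S => f q) hg₀
    simp only [RingHom.comp_apply, coe_eval₂RingHom] at h1
    have h2 : (Polynomial.aeval x).toRingHom q = Polynomial.eval₂ (algebraMap R S) x q := rfl
    show algebraMap ↥(Algebra.adjoin R {x}) S _ = b
    rw [h1, ← h2, hq]
  have hy : IsIntegral ↥(Algebra.adjoin R {x}) y := hxy.isIntegral _ _ hg₀
  have hg₁ : (algebraMap ↥(integralClosure ↥(Algebra.adjoin R {x}) S) S).comp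
      (Polynomial.eval₂RingHom
        ((algebraMap ↥(Algebra.adjoin R {x}) ↥(integralClosure ↥(Algebra.adjoin R {x}) S)).comp
          (algebraMap R ↥(Algebra.adjoin R {x})))
        (⟨y, hy⟩ : ↥(integralClosure ↥(Algebra.adjoin R {x}) S))) =
        Polynomial.eval₂RingHom (algebraMap R S) y := by
    refine Polynomial.ringHom_ext (fun a => ?_) ?_
    · simp only [RingHom.comp_apply, coe_eval₂RingHom, eval₂_C]
      rfl
    · simp only [RingHom.comp_apply, coe_eval₂RingHom, eval₂_X]
      rfl
  have hz : IsIntegral ↥(integralClosure ↥(Algebra.adjoin R {x}) S) z :=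
    hyz.isIntegral _ _ hg₁
  have hz' : IsIntegral ↥(Algebra.adjoin R {x}) z := isIntegral_trans z hz
  exact Rel.of_isIntegral _ _ hsurj hg₀ hz'

end Trans

/-- transitivity, for an arbitrary structure map -/
theorem Rel.trans' {R S : Type*} [CommRing R] [CommRing S] (c : R →+* S) {x y z : S}
    (hxy : Rel c x y) (hyz : Rel c y z) : Rel c x z := by
  letI : Algebra R S := c.toAlgebra
  exact Rel.trans (R := R) (S := S) hxy hyz

/-! ### `j(q)` and `j(q^d)` over the algebraic integers -/

section Formal

open ModularCurve Fermat.Agent.S28.Basic Fermat.Agent.S28.Formal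

variable {R : Type*} [CommRing R]

/-- `Rel` for Laurent series, transitivity -/
theorem rel_trans {x y z : LaurentSeries R}
    (hxy : Rel (HahnSeries.C : R →+* LaurentSeries R) x y)
    (hyz : Rel (HahnSeries.C : R →+* LaurentSeries R) y z) :
    Rel (HahnSeries.C : R →+* LaurentSeries R) x z := by
  exact Rel.trans' _ hxy hyz

/-- `Rel` is preserved by the substitutions `q ↦ q^m`. -/
theorem rel_sub (m : ℕ) {x y : LaurentSeries R}
    (hxy : Rel (HahnSeries.C : R →+* LaurentSeries R) x y) :
    Rel (HahnSeries.C : R →+* LaurentSeries R) (sub R m x) (sub R m y) := by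
  refine Rel.map (RingHom.id R) (sub R m) ?_ hxy
  refine RingHom.ext fun a => ?_
  simp only [RingHom.comp_apply, RingHom.id_apply, sub_C]

/-- `Rel` is preserved by coefficient maps. -/
theorem rel_coeffMap {R' : Type*} [CommRing R'] (φ : R →+* R') {x y : LaurentSeries R}
    (hxy : Rel (HahnSeries.C : R →+* LaurentSeries R) x y) :
    Rel (HahnSeries.C : R' →+* LaurentSeries R') (coeffMap φ x) (coeffMap φ y) := by
  refine Rel.map φ (coeffMap φ) ?_ hxy
  refine RingHom.ext fun a => ?_
  simp only [RingHom.comp_apply, coeffMap_C]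

local notation "OO" => integralClosure ℤ ℂ

/-- **The prime case**, from the modular equation. -/
theorem rel_prime (r : ℕ) (hr : r.Prime) :
    Rel (HahnSeries.C : OO →+* LaurentSeries OO) (JmR OO r) (jqModC OO) ∧
      Rel (HahnSeries.C : OO →+* LaurentSeries OO) (jqModC OO) (JmR OO r) := by
  obtain ⟨ζ, -, Φ, hm, -, hΦ⟩ := Fermat.Agent.S28.ModEq.exists_modEq r hr
  have hr0 : r ≠ 0 := hr.ne_zero
  have key : ∀ y : LaurentSeries OO,
      Polynomial.eval₂ (Polynomial.eval₂RingHom (HahnSeries.C : OO →+* LaurentSeries OO)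
        (JmR OO r)) y Φ =
      (y - JmR OO (r ^ 2)) * ∏ b ∈ Finset.range r, (y - JxR OO (ζ ^ b) 1) := by
    intro y
    have h1 := congrArg (Polynomial.eval y) hΦ
    rw [Polynomial.eval_map] at h1
    rw [show Polynomial.eval₂RingHom (HahnSeries.C : OO →+* LaurentSeries OO) (JmR OO r) =
      evalAt OO (JmR OO r) from rfl, h1, Polynomial.eval_mul, Polynomial.eval_prod]
    simp only [Polynomial.eval_sub, Polynomial.eval_X, Polynomial.eval_C]
  constructor
  · refine ⟨Φ, hm, ?_⟩
    rw [key]
    have h0 : (0 : ℕ) ∈ Finset.range r := Finset.mem_range.mpr (Nat.pos_of_ne_zero hr0)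
    have h2 : jqModC OO - JxR OO (ζ ^ 0) 1 = 0 := by
      rw [pow_zero, JxR_one, JmR, sub_one, sub_self]
    rw [Finset.prod_eq_zero h0 h2, mul_zero]
  · have h1 : Rel (HahnSeries.C : OO →+* LaurentSeries OO) (JmR OO r) (JmR OO (r ^ 2)) := by
      refine ⟨Φ, hm, ?_⟩
      rw [key, sub_self, zero_mul]
    have e1 : JmR OO r = sub OO r (jqModC OO) := rfl
    have e2 : JmR OO (r ^ 2) = sub OO r (JmR OO r) := by
      rw [JmR, JmR, Fermat.Agent.S28.Basic.sub_sub hr0 hr0, pow_two]
    rw [e2, e1] at h1
    have h3 : Rel ((sub OO r).comp (HahnSeries.C : OO →+* LaurentSeries OO))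
        (sub OO r (jqModC OO)) (sub OO r (sub OO r (jqModC OO))) := by
      have e : (sub OO r).comp (HahnSeries.C : OO →+* LaurentSeries OO) = HahnSeries.C := by
        refine RingHom.ext fun a => ?_
        simp only [RingHom.comp_apply, sub_C]
      rw [e]
      exact h1
    exact Rel.of_map (sub OO r) (sub_injective hr0) h3

/-- **`j(q)` and `j(q^d)` are integral over each other**, with coefficients in the ring of
algebraic integers. -/
theorem rel_both (d : ℕ) (hd : d ≠ 0) :
    Rel (HahnSeries.C : OO →+* LaurentSeries OO) (JmR OO d) (jqModC OO) ∧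
      Rel (HahnSeries.C : OO →+* LaurentSeries OO) (jqModC OO) (JmR OO d) := by
  induction d using Nat.recOnMul with
  | zero => exact absurd rfl hd
  | one =>
    have e : JmR OO 1 = jqModC OO := by rw [JmR, sub_one]
    rw [e]
    exact ⟨Rel.refl _ _, Rel.refl _ _⟩
  | prime p hp => exact rel_prime p hp
  | mul a b iha ihb =>
    have ha : a ≠ 0 := fun h => hd (by rw [h, zero_mul])
    have hb : b ≠ 0 := fun h => hd (by rw [h, mul_zero])
    obtain ⟨ha1, ha2⟩ := iha ha
    obtain ⟨hb1, hb2⟩ := ihb hb
    have e : JmR OO (a * b) = sub OO a (JmR OO b) := by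
      rw [JmR, JmR, Fermat.Agent.S28.Basic.sub_sub ha hb]
    have ea : JmR OO a = sub OO a (jqModC OO) := rfl
    rw [e]
    constructor
    · -- `j` over `R[j_{ab}]`
      have h1 := rel_sub a hb1
      rw [← ea] at h1
      exact rel_trans h1 ha1
    · -- `j_{ab}` over `R[j]`
      have h1 := rel_sub a hb2
      rw [← ea] at h1
      exact rel_trans ha2 h1

/-- The algebraic integers of `ℂ` map to every algebraically closed field of characteristic
zero. -/
theorem exists_ringHom_OO (K : Type*) [Field K] [IsAlgClosed K] [CharZero K] :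
    Nonempty (OO →+* K) := by
  haveI : Algebra.IsAlgebraic ℤ OO := Algebra.IsIntegral.isAlgebraic
  exact ⟨(IsAlgClosed.lift (R := ℤ) (S := OO) (M := K)).toRingHom⟩

/-- **`j(q)` and `j(q^d)` are integral over each other**, over any commutative ring `K`
receiving the algebraic integers: the coefficients of the monic polynomials are polynomials
with coefficients in the image of `OO`. -/
theorem rel_both_map {K : Type*} [CommRing K] (φ : OO →+* K) (d : ℕ) (hd : d ≠ 0) :
    Rel ((HahnSeries.C : K →+* LaurentSeries K).comp φ) (JmR K d) (jqModC K) ∧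
      Rel ((HahnSeries.C : K →+* LaurentSeries K).comp φ) (jqModC K) (JmR K d) := by
  have e : (coeffMap φ).comp (HahnSeries.C : OO →+* LaurentSeries OO) =
      (HahnSeries.C : K →+* LaurentSeries K).comp φ := by
    refine RingHom.ext fun a => ?_
    simp only [RingHom.comp_apply, coeffMap_C]
  obtain ⟨h1, h2⟩ := rel_both d hd
  have h1' := Rel.map' (coeffMap φ) h1
  have h2' := Rel.map' (coeffMap φ) h2
  rw [e, coeffMap_JmR, coeffMap_jqModC] at h1' h2'
  exact ⟨h1', h2'⟩

end Formal

end Fermat.Agent.S18.Cusp0Rel
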