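import Mathlib
import Fermat.Agent.S18.Cusp0Rel
import Fermat.Agent.S18.CuspAbs
import Fermat.Agent.S18.HauptParamFF
import Fermat.Agent.S18.ResField
import Fermat.Agent.S18.RegInt

/-!
# S18 moonshot, cusp package (S3): integrality of `j` at the zeros of `j(q^d)`

* `mem_of_rel` : if `y` is a root of a monic polynomial with coefficients in `R[x]` and `x` is
  regular at a place, then `y` is regular there;
* `isIntegralElem_of_rel` : if moreover `x` vanishes at the place, then the value of `y` at the
  place is integral over `R`;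
* `rel_jgen_jF`, `rel_jF_jgen` : in `FF N`, `j` and `j_d = j(q^d)` (`d ∣ N`) are integral over each
  other with coefficients in the algebraic integers;
* `ord_jgen_nonneg` : `j_d` is regular at the finite places; `isIntegral_jgen`: `j_d` is integral
  over `KK[j]`;
* `jInt_of_ord_jgen_ne_zero` : **(S3)** at a finite place where `j_d` has a zero, the value of `j`
  lies in every valuation ring `A` of `KK` (`CuspAbs.JInt`).
-/

set_option autoImplicit false
set_option linter.style.haveILetI false

namespace Fermat.Agent.S18.Cusp0Int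

open Polynomial AlgebraicCurve ModularCurve
open Fermat.Agent.S24 Fermat.Agent.S24.Eval Fermat.Agent.S24.Jq
open Fermat.Agent.S28.Basic Fermat.Agent.S28.Formal
open Fermat.Agent.S18.Cusp0Rel

/-! ### Places and `Rel` -/

section Abstract

variable {K F R : Type*} [Field K] [Field F] [Algebra K F] [CommRing R]

/-- If `y` is a root of a monic polynomial with coefficients in `R[x]` and `x` is regular at `v`,
then `y` is regular at `v`. -/
theorem mem_of_rel (φ : R →+* K) (v : Place K F) {x y : F} (hx : x ∈ v.toValuationSubring)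
    (h : Rel ((algebraMap K F).comp φ) x y) : y ∈ v.toValuationSubring := by
  have hg : (algebraMap ↥v.toValuationSubring F).comp
      (Polynomial.eval₂RingHom ((algebraMap K ↥v.toValuationSubring).comp φ)
        (⟨x, hx⟩ : ↥v.toValuationSubring)) =
      Polynomial.eval₂RingHom ((algebraMap K F).comp φ) x := by
    refine Polynomial.ringHom_ext (fun a => ?_) ?_
    · simp only [RingHom.comp_apply, coe_eval₂RingHom, eval₂_C]
      rfl
    · simp only [RingHom.comp_apply, coe_eval₂RingHom, eval₂_X]
      rfl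
  have hy : IsIntegral ↥v.toValuationSubring y := h.isIntegral _ _ hg
  obtain ⟨z, hz⟩ := (IsIntegrallyClosed.isIntegral_iff (R := ↥v.toValuationSubring) (K := F)).mp hy
  rw [← hz]
  exact z.2

theorem mem_of_ord_pos (v : Place K F) {x : F} (hx : 0 < v.ord x) :
    x ∈ v.toValuationSubring := by
  have hx0 : x ≠ 0 := by
    rintro rfl
    rw [v.ord_zero] at hx
    exact lt_irrefl _ hx
  exact mem_of_ord_nonneg v hx0 hx.le

theorem residue_eq_zero_of_ord_pos (v : Place K F) {x : F} (hx : 0 < v.ord x) :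
    IsLocalRing.residue ↥v.toValuationSubring ⟨x, mem_of_ord_pos v hx⟩ = 0 := by
  rw [IsLocalRing.residue_eq_zero_iff, IsLocalRing.mem_maximalIdeal, mem_nonunits_iff]
  intro hu
  obtain ⟨u, hu⟩ := hu
  have h := v.ord_coe_unit u
  rw [hu] at h
  change v.ord x = 0 at h
  omega

/-- If `y` is a root of a monic polynomial with coefficients in `R[x]`, `x` vanishes at `v` and
`y` takes the value `a` at `v`, then `a` is integral over `R`. -/
theorem isIntegralElem_of_rel (φ : R →+* K) (v : Place K F) {x y : F} (a : K)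
    (hx : 0 < v.ord x) (hy : 0 < v.ord (y - algebraMap K F a))
    (h : Rel ((algebraMap K F).comp φ) x y) : φ.IsIntegralElem a := by
  obtain ⟨Ψ, hm, h0⟩ := h
  have hxO : x ∈ v.toValuationSubring := mem_of_ord_pos v hx
  have hyaO : y - algebraMap K F a ∈ v.toValuationSubring := mem_of_ord_pos v hy
  have haO : algebraMap K F a ∈ v.toValuationSubring := v.algebraMap_mem' a
  have hyO : y ∈ v.toValuationSubring := by
    have := add_mem hyaO haO
    rwa [sub_add_cancel] at this
  -- the residue map
  set res := IsLocalRing.residue ↥v.toValuationSubring with hres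
  set ρ : K →+* IsLocalRing.ResidueField ↥v.toValuationSubring :=
    res.comp (algebraMap K ↥v.toValuationSubring) with hρ
  have hρinj : Function.Injective ρ := ρ.injective
  have hresx : res ⟨x, hxO⟩ = 0 := residue_eq_zero_of_ord_pos v hx
  have hresy : res ⟨y, hyO⟩ = ρ a := by
    have h1 : res ⟨y - algebraMap K F a, hyaO⟩ = 0 := residue_eq_zero_of_ord_pos v hy
    have h2 : (⟨y - algebraMap K F a, hyaO⟩ : ↥v.toValuationSubring) =
        ⟨y, hyO⟩ - algebraMap K ↥v.toValuationSubring a := Subtype.ext rfl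
    rw [h2, map_sub, sub_eq_zero] at h1
    exact h1
  -- the relation inside the valuation ring
  have hO : Polynomial.eval₂ (Polynomial.eval₂RingHom
      ((algebraMap K ↥v.toValuationSubring).comp φ) (⟨x, hxO⟩ : ↥v.toValuationSubring))
      (⟨y, hyO⟩ : ↥v.toValuationSubring) Ψ = 0 := by
    apply Subtype.val_injective
    have e : (v.toValuationSubring.subtype).comp (Polynomial.eval₂RingHom
        ((algebraMap K ↥v.toValuationSubring).comp φ) (⟨x, hxO⟩ : ↥v.toValuationSubring)) =
        Polynomial.eval₂RingHom ((algebraMap K F).comp φ) x := by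
      refine Polynomial.ringHom_ext (fun a => ?_) ?_
      · simp only [RingHom.comp_apply, coe_eval₂RingHom, eval₂_C]
        rfl
      · simp only [RingHom.comp_apply, coe_eval₂RingHom, eval₂_X]
        rfl
    have h1 := Polynomial.hom_eval₂ Ψ (Polynomial.eval₂RingHom
        ((algebraMap K ↥v.toValuationSubring).comp φ) (⟨x, hxO⟩ : ↥v.toValuationSubring))
        (v.toValuationSubring.subtype) (⟨y, hyO⟩ : ↥v.toValuationSubring)
    rw [e] at h1
    change (v.toValuationSubring.subtype) _ = 0
    rw [h1]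
    exact h0
  -- reduce
  have e2 : res.comp (Polynomial.eval₂RingHom
      ((algebraMap K ↥v.toValuationSubring).comp φ) (⟨x, hxO⟩ : ↥v.toValuationSubring)) =
      (ρ.comp φ).comp (Polynomial.evalRingHom 0) := by
    refine Polynomial.ringHom_ext (fun a => ?_) ?_
    · simp only [RingHom.comp_apply, coe_eval₂RingHom, eval₂_C, coe_evalRingHom, eval_C, hρ]
    · simp only [RingHom.comp_apply, coe_eval₂RingHom, eval₂_X, coe_evalRingHom, eval_X,
        map_zero]
      exact hresx
  have h3 := congrArg res hO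
  rw [Polynomial.hom_eval₂, e2, hresy, map_zero, ← Polynomial.eval₂_map,
    ← Polynomial.hom_eval₂] at h3
  refine ⟨Ψ.map (Polynomial.evalRingHom 0), hm.map _, hρinj ?_⟩
  rw [h3, map_zero]

end Abstract

/-! ### The function field `FF N` -/

section Concrete

local notation "OO" => integralClosure ℤ ℂ

variable (N : ℕ)

theorem val_comp_algebraMap :
    ((modularFunctionFieldBar N).val : FF N →+* LaurentSeries KK).comp (algebraMap KK (FF N)) =
      (HahnSeries.C : KK →+* LaurentSeries KK) := by
  refine RingHom.ext fun a => ?_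
  change algebraMap KK (LaurentSeries KK) a = HahnSeries.C a
  have h1 : algebraMap KK (PowerSeries KK) a = PowerSeries.C a := by simp
  rw [HahnSeries.algebraMap_apply', h1, HahnSeries.ofPowerSeries_C]

theorem coe_jF_eq : ((jF N : FF N) : LaurentSeries KK) = jqModC KK := by
  rw [coe_jF]
  exact coeffMap_jqModC (R := ℚ) (algebraMap ℚ KK)

theorem coe_jgen_eq (d : ℕ) [NeZero d] (hd : d ∣ N) :
    ((jgen N d hd : FF N) : LaurentSeries KK) = JmR KK d := by
  rw [coe_jgen, JmR, Fermat.Agent.S28.Basic.sub_apply]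
  change coeffMap (algebraMap ℚ KK) (jqNModC ℚ d) = jqNModC KK d
  rw [coeffMap_jqNModC]

/-- **`j` is integral over `OO[j_d]`** in `FF N`. -/
theorem rel_jgen_jF (φ : OO →+* KK) (d : ℕ) [NeZero d] (hd : d ∣ N) :
    Rel ((algebraMap KK (FF N)).comp φ) (jgen N d hd) (jF N) := by
  refine Rel.of_map ((modularFunctionFieldBar N).val : FF N →+* LaurentSeries KK)
    Subtype.val_injective ?_
  rw [← RingHom.comp_assoc, val_comp_algebraMap]
  have h := (rel_both_map φ d (NeZero.ne d)).1
  rw [← coe_jgen_eq N d hd, ← coe_jF_eq N] at h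
  exact h

/-- **`j_d` is integral over `OO[j]`** in `FF N`. -/
theorem rel_jF_jgen (φ : OO →+* KK) (d : ℕ) [NeZero d] (hd : d ∣ N) :
    Rel ((algebraMap KK (FF N)).comp φ) (jF N) (jgen N d hd) := by
  refine Rel.of_map ((modularFunctionFieldBar N).val : FF N →+* LaurentSeries KK)
    Subtype.val_injective ?_
  rw [← RingHom.comp_assoc, val_comp_algebraMap]
  have h := (rel_both_map φ d (NeZero.ne d)).2
  rw [← coe_jgen_eq N d hd, ← coe_jF_eq N] at h
  exact h

/-- `j_d` is regular wherever `j` is. -/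
theorem jgen_mem_of_jF_mem (d : ℕ) [NeZero d] (hd : d ∣ N) (P : Place KK (FF N))
    (hP : jF N ∈ P.toValuationSubring) : jgen N d hd ∈ P.toValuationSubring := by
  obtain ⟨φ⟩ := exists_ringHom_OO KK
  exact mem_of_rel φ P hP (rel_jF_jgen N φ d hd)

/-- `j` is regular wherever `j_d` is. -/
theorem jF_mem_of_jgen_mem (d : ℕ) [NeZero d] (hd : d ∣ N) (P : Place KK (FF N))
    (hP : jgen N d hd ∈ P.toValuationSubring) : jF N ∈ P.toValuationSubring := by
  obtain ⟨φ⟩ := exists_ringHom_OO KK
  exact mem_of_rel φ P hP (rel_jgen_jF N φ d hd)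

/-- `j_d` is regular at all finite places. -/
theorem jgen_mem_regAt [NeZero N] (d : ℕ) [NeZero d] (hd : d ∣ N) :
    jgen N d hd ∈ Fermat.Agent.S18.Charts.regAt N (jF N) :=
  fun P hP => jgen_mem_of_jF_mem N d hd P hP

/-- **`j_d` is integral over `KK[j]`.** -/
theorem isIntegral_jgen [NeZero N] (d : ℕ) [NeZero d] (hd : d ∣ N) :
    IsIntegral ↥(Algebra.adjoin KK {jF N}) (jgen N d hd) :=
  (Fermat.Agent.S18.RegInt.mem_regAt_j_iff N (jgen N d hd)).mp (jgen_mem_regAt N d hd)

/-- `j_d` has no pole at a finite place. -/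
theorem ord_jgen_nonneg [NeZero N] (d : ℕ) [NeZero d] (hd : d ∣ N) (P : Place KK (FF N))
    (hP : 0 ≤ P.ord (jF N)) : 0 ≤ P.ord (jgen N d hd) := by
  have hj0 : jF N ≠ 0 := fun h =>
    (Fermat.Agent.S24.Degree.transcendental_jF N) (h ▸ isAlgebraic_zero)
  exact ord_nonneg_of_mem P (jgen_mem_of_jF_mem N d hd P (mem_of_ord_nonneg P hj0 hP))

/-- A value integral over the algebraic integers is an algebraic integer. -/
theorem isIntegral_int_of_isIntegralElem (φ : OO →+* KK) {a : KK} (h : φ.IsIntegralElem a) :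
    IsIntegral ℤ a := by
  letI : Algebra OO KK := φ.toAlgebra
  have h1 : IsIntegral OO a := h
  exact isIntegral_trans a h1

/-- **(S3)** At a finite place where `j_d = j(q^d)` has a zero (or a pole), the value of `j` is
an algebraic integer, so it lies in every valuation ring of `KK`. -/
theorem jInt_of_ord_jgen_ne_zero (A : ValuationSubring KK) [NeZero N] (d : ℕ) [NeZero d]
    (hd : d ∣ N) (P : Place KK (FF N)) (hP : 0 ≤ P.ord (jF N))
    (hne : P.ord (jgen N d hd) ≠ 0) : Fermat.Agent.S18.CuspAbs.JInt A N P := by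
  obtain ⟨φ⟩ := exists_ringHom_OO KK
  have hdpos : 0 < P.ord (jgen N d hd) :=
    lt_of_le_of_ne (ord_jgen_nonneg N d hd P hP) (Ne.symm hne)
  obtain ⟨a, ha | ha⟩ := Fermat.Agent.S18.HauptParamFF.H1_FF N P (jF N) hP
  · exact absurd (ha ▸ isAlgebraic_algebraMap a) (Fermat.Agent.S24.Degree.transcendental_jF N)
  · have hint : φ.IsIntegralElem a :=
      isIntegralElem_of_rel φ P a hdpos ha (rel_jgen_jF N φ d hd)
    exact ⟨a, Fermat.Agent.S18.ResField.mem_of_isIntegral_int A
      (isIntegral_int_of_isIntegralElem φ hint), ha⟩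

/-- **(S3)** for the generators `gF N i`. -/
theorem jInt_of_ord_gF_ne_zero (A : ValuationSubring KK) [NeZero N] (i : Dv N)
    (P : Place KK (FF N)) (hP : 0 ≤ P.ord (jF N)) (hne : P.ord (gF N i) ≠ 0) :
    Fermat.Agent.S18.CuspAbs.JInt A N P :=
  jInt_of_ord_jgen_ne_zero N A (i : ℕ) i.2 P hP hne

theorem jgen_ne_zero [NeZero N] (d : ℕ) [NeZero d] (hd : d ∣ N) : jgen N d hd ≠ 0 := by
  intro h
  have h1 : ((jgen N d hd : FF N) : LaurentSeries KK) = 0 := by rw [h]; rfl
  rw [coe_jgen_eq, JmR] at h1
  have h2 : sub KK d (jqModC KK) = sub KK d 0 := by rw [map_zero]; exact h1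
  have h3 := sub_injective (NeZero.ne d) h2
  have h4 : jF N = 0 := Subtype.ext (by rw [coe_jF_eq]; exact h3)
  exact (Fermat.Agent.S24.Degree.transcendental_jF N) (h4 ▸ isAlgebraic_zero)

theorem ord_prod_eq_zero {F : Type*} [Field F] [Algebra KK F] (P : Place KK F) {ι : Type*}
    (s : Finset ι) (f : ι → F) (hf : ∀ i ∈ s, f i ≠ 0 ∧ P.ord (f i) = 0) :
    (∏ i ∈ s, f i) ≠ 0 ∧ P.ord (∏ i ∈ s, f i) = 0 := by
  classical
  induction s using Finset.induction_on with
  | empty => exact ⟨by simp, by simp⟩
  | insert a s ha ih =>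
    obtain ⟨h1, h2⟩ := ih fun i hi => hf i (Finset.mem_insert_of_mem hi)
    obtain ⟨h3, h4⟩ := hf a (Finset.mem_insert_self a s)
    rw [Finset.prod_insert ha]
    refine ⟨mul_ne_zero h3 h1, ?_⟩
    rw [P.ord_mul h3 h1, h2, h4, add_zero]

/-- **(S3)** for monomials in the `j_d`: at a finite place where a monomial
`∏ j_{d_i} ^ n_i` (`n_i ∈ ℤ`) has a zero or a pole, the value of `j` is integral. -/
theorem jInt_of_ord_prod_ne_zero (A : ValuationSubring KK) [NeZero N] {ι : Type*}
    (s : Finset ι) (g : ι → Dv N) (n : ι → ℤ) (P : Place KK (FF N)) (hP : 0 ≤ P.ord (jF N))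
    (hne : P.ord (∏ i ∈ s, gF N (g i) ^ n i) ≠ 0) : Fermat.Agent.S18.CuspAbs.JInt A N P := by
  by_contra hJ
  refine hne (ord_prod_eq_zero P s _ fun i _ => ⟨?_, ?_⟩).2
  · exact zpow_ne_zero _ (jgen_ne_zero N _ _)
  · have h0 : P.ord (gF N (g i)) = 0 := by
      by_contra h
      exact hJ (jInt_of_ord_gF_ne_zero N A (g i) P hP h)
    rw [P.ord_zpow, h0, mul_zero]

end Concrete

end Fermat.Agent.S18.Cusp0Int
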