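import Mathlib
import Fermat.Agent.S18.HauptParamFF
import Fermat.Agent.S18.Cusp0Exp

/-!
# S18 moonshot, cusp package: the dictionary between cusps and cosets

Every cusp `c` of `FF N` (a place with `ord_c j < 0`) is induced by one of the embeddings
`sigma N q : FF N →+* ℂ((q_N))`, `q : Q N`, with ramification `g`, `g * e_c = N` where
`e_c = - ord_c j`.  Consequences:

* `ram_dvd` : `e_c ∣ N`;
* `ord_jgen` : `g * ord_c (j(q^d)) = - m_d(q)`, `m_d(q) = N gcd(d, c_q)² / d`;
* `cuspCond_iff` : the cusp condition `a ^ N * j ^ (-i) ∈ O_c` reads `-i ≤ order (sigma N q a)`.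
-/

set_option autoImplicit false

namespace Fermat.Agent.S18.CuspSigma

open AlgebraicCurve
open Fermat.Agent.S24 Fermat.Agent.S24.Eval Fermat.Agent.S24.Embed Fermat.Agent.S20
open Fermat.Agent.S24.SigmaCusp Fermat.Agent.S24.Jq
open Fermat.Agent.S18.HauptParamFF Fermat.Agent.S18.Cusp0Exp
open scoped MatrixGroups

variable (N : ℕ) [NeZero N]

/-- **Every cusp is induced by one of the embeddings `sigma N q`**, with `g * e_c = N`. -/
theorem exists_induced (c : Place KK (FF N)) (hc : c.ord (jF N) < 0) :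
    ∃ (q : Q N) (g : ℕ), IsInducedBy c (sigma N q) g ∧ (g : ℤ) * (-c.ord (jF N)) = N :=
  exists_induced_placesOverInfty (inputsFF N).H1 (SigmaCusp.localData N) (inputsFF N).H2infty c hc

/-- **The ramification index of a cusp divides `N`.** -/
theorem ram_dvd (c : Place KK (FF N)) (hc : c.ord (jF N) < 0) : (-c.ord (jF N)) ∣ (N : ℤ) := by
  obtain ⟨q, g, -, h⟩ := exists_induced N c hc
  exact ⟨g, by rw [← h]; ring⟩

theorem jgen_ne_zero (d : ℕ) [NeZero d] (hd : d ∣ N) : jgen N d hd ≠ 0 := by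
  intro h
  have h1 := order_sigma_jgen N (QuotientGroup.mk 1) d hd
  rw [h, map_zero, HahnSeries.order_zero] at h1
  have h2 : (0 : ℤ) < mOf N (QuotientGroup.mk 1) d := by
    exact_mod_cast mOf_pos N (QuotientGroup.mk 1) hd
  omega

/-- **The order of `j(q^d)` at a cusp.** -/
theorem ord_jgen {c : Place KK (FF N)} {q : Q N} {g : ℕ} (h : IsInducedBy c (sigma N q) g)
    (d : ℕ) [NeZero d] (hd : d ∣ N) :
    (g : ℤ) * c.ord (jgen N d hd) = -(mOf N q d : ℤ) := by
  rw [← h.order_eq _ (jgen_ne_zero N d hd), order_sigma_jgen]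

/-- The order of `j` at a cusp. -/
theorem ord_jF {c : Place KK (FF N)} {q : Q N} {g : ℕ} (h : IsInducedBy c (sigma N q) g) :
    (g : ℤ) * c.ord (jF N) = -(N : ℤ) := by
  have hj : jF N ≠ 0 := fun h0 =>
    (Degree.transcendental_jF N) (by rw [h0]; exact isAlgebraic_zero)
  rw [← h.order_eq _ hj, order_sigma_jF]

/-- Regularity at a cusp in terms of the expansion. -/
theorem mem_iff {c : Place KK (FF N)} {q : Q N} {g : ℕ} (h : IsInducedBy c (sigma N q) g)
    (f : FF N) : f ∈ c.toValuationSubring ↔ 0 ≤ (sigma N q f).order :=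
  h.mem_iff f

/-- **The cusp condition in terms of the expansion**: `a ^ N * j ^ (-i)` is regular at the cusp
induced by `sigma N q` iff `-i ≤ order (sigma N q a)`. -/
theorem cuspCond_iff {c : Place KK (FF N)} {q : Q N} {g : ℕ}
    (h : IsInducedBy c (sigma N q) g) (i : ℤ) {a : FF N} (ha : a ≠ 0) :
    a ^ N * jF N ^ (-i) ∈ c.toValuationSubring ↔ -i ≤ (sigma N q a).order := by
  have hj : jF N ≠ 0 := fun h0 =>
    (Degree.transcendental_jF N) (by rw [h0]; exact isAlgebraic_zero)
  have hN : (0 : ℤ) < N := by exact_mod_cast Nat.pos_of_ne_zero (NeZero.ne N)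
  have hσa : sigma N q a ≠ 0 := fun h0 => ha ((sigma N q).injective (by rw [h0, map_zero]))
  have hσj : sigma N q (jF N) ≠ 0 := fun h0 => hj ((sigma N q).injective (by rw [h0, map_zero]))
  rw [h.mem_iff, Embed.order_map_mul (sigma N q) (pow_ne_zero _ ha) (zpow_ne_zero _ hj),
    Embed.order_map_pow, Embed.order_map_zpow, order_sigma_jF]
  constructor
  · intro h1
    by_contra h2
    rw [not_le] at h2
    nlinarith
  · intro h1
    nlinarith

/-- **Every coset induces a cusp.** -/
theorem exists_cusp (q : Q N) :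
    ∃ (c : Place KK (FF N)) (g : ℕ), c.ord (jF N) < 0 ∧ IsInducedBy c (sigma N q) g ∧
      (g : ℤ) * (-c.ord (jF N)) = N := by
  have hK : ∀ k : KK, (sigma N q (algebraMap KK (FF N) k)).order = 0 := by
    intro k
    rw [sigma_const]
    exact HahnSeries.order_C
  have ht : 0 < (sigma N q (jF N)⁻¹).order := by
    rw [order_sigma_jF_inv]
    exact_mod_cast Nat.pos_of_ne_zero (NeZero.ne N)
  obtain ⟨g, hg⟩ := exists_isInducedBy (sigma N q) hK (jF N)⁻¹ ht
  have h1 := ord_jF N hg
  have hg0 : (0 : ℤ) < g := by exact_mod_cast hg.pos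
  have hN : (0 : ℤ) < N := by exact_mod_cast Nat.pos_of_ne_zero (NeZero.ne N)
  refine ⟨_, g, ?_, hg, by rw [mul_neg, h1, neg_neg]⟩
  by_contra hcon
  rw [not_lt] at hcon
  nlinarith [mul_nonneg hg0.le hcon]

end Fermat.Agent.S18.CuspSigma
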