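import Mathlib
import Fermat.Agent.S18.Cusp0Def
import Fermat.Agent.S18.CuspSigma
import Fermat.Agent.S18.CuspAbs
import Fermat.Agent.S18.Cusp0Int

/-!
# S18 moonshot, cusp package: orders of monomials at the cusps, ramification, integrality

* `order_sigma_mono` : the `q_N`-order of the monomial `mono N n` at the coset `q` is `wt N q n`;
* `dvd_of_coeff_sigma_ne_zero` : if `G` divides all `mOf N q d`, the expansions at `q` of all
  functions are series in `q_N ^ G` (twist by a primitive `G`-th root of unity);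
* `ram_eq`, `ord_mono_eq_one` : hence the ramification index of `sigma N q` over its cusp is
  `G = gcd_d mOf N q d`, and a monomial of weight `G` is a uniformizer at the cusp;
* `mono_mem_OO`, `redN_mono_ne_zero` : monomials are Gauss units;
* `jInt_of_ord_mono_ne_zero` : the finite zeros and poles of monomials have integral `j`.
-/

set_option autoImplicit false
set_option linter.unusedSectionVars false
set_option linter.style.haveILetI false

namespace Fermat.Agent.S18.Cusp0Ord

open AlgebraicCurve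
open Fermat.Agent.S20 Fermat.Agent.S24 Fermat.Agent.S24.Jq Fermat.Agent.S24.Eval
open Fermat.Agent.S24.Embed Fermat.Agent.S24.SigmaCusp
open Fermat.Agent.S18.Cusp0Exp Fermat.Agent.S18.Cusp0Def
open Fermat.Agent.S18.Gauss Fermat.Agent.S18.Lattice Fermat.Agent.S18.Charts
open ModularCurve

variable (N : ℕ) [NeZero N]

/-! ### Orders of monomials -/

/-- the order of the expansion at the coset `q`, as a homomorphism on the units -/
noncomputable def ordH (q : Q N) : (FF N)ˣ →* Multiplicative ℤ where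
  toFun u := Multiplicative.ofAdd (sigma N q (u : FF N)).order
  map_one' := by
    rw [Units.val_one, map_one, HahnSeries.order_one]
    rfl
  map_mul' u v := by
    rw [Units.val_mul, Embed.order_map_mul (sigma N q) u.ne_zero v.ne_zero, ofAdd_add]

theorem toAdd_ordH (q : Q N) (u : (FF N)ˣ) :
    Multiplicative.toAdd (ordH N q u) = (sigma N q (u : FF N)).order := rfl

theorem order_sigma_uU (q : Q N) (d : Dv N) :
    (sigma N q ((uU N d : (FF N)ˣ) : FF N)).order = (mOf N q (d : ℕ) : ℤ) := by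
  rw [coe_uU, Embed.order_map_inv, order_sigma_gF, neg_neg]

/-- **The order of a monomial at the coset `q` is its weight.** -/
theorem order_sigma_mono (q : Q N) (n : Dv N →₀ ℤ) :
    (sigma N q (mono N n)).order = wt N q n := by
  have h := map_monoU_add N (ordH N q) n
  rw [toAdd_ordH] at h
  rw [mono, h, wt_eq_sum]
  refine Finsupp.sum_congr fun d _ => ?_
  rw [toAdd_ordH, order_sigma_uU, smul_eq_mul]

/-! ### Leading coefficients of monomials -/

/-- the leading coefficient of the expansion at the coset `q`, as a homomorphism on the units -/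
noncomputable def lcH (q : Q N) : (FF N)ˣ →* ℂˣ where
  toFun u := Units.mk0 ((sigma N q (u : FF N)).leadingCoeff)
    (HahnSeries.leadingCoeff_ne_zero.mpr ((map_ne_zero _).mpr u.ne_zero))
  map_one' := by
    apply Units.ext
    show (sigma N q ((1 : (FF N)ˣ) : FF N)).leadingCoeff = 1
    rw [Units.val_one, map_one, HahnSeries.leadingCoeff_one]
  map_mul' u v := by
    apply Units.ext
    show (sigma N q ((u * v : (FF N)ˣ) : FF N)).leadingCoeff =
      (sigma N q (u : FF N)).leadingCoeff * (sigma N q (v : FF N)).leadingCoeff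
    rw [Units.val_mul, map_mul, HahnSeries.leadingCoeff_mul]

theorem coe_lcH (q : Q N) (u : (FF N)ˣ) :
    ((lcH N q u : ℂˣ) : ℂ) = (sigma N q (u : FF N)).coeff (sigma N q (u : FF N)).order := by
  show (sigma N q (u : FF N)).leadingCoeff = _
  rw [HahnSeries.leadingCoeff_eq]

/-- the leading coefficient of a monomial at the coset `q` -/
theorem coe_lcH_monoU (q : Q N) (n : Dv N →₀ ℤ) :
    ((lcH N q (monoU N n) : ℂˣ) : ℂ) = (sigma N q (mono N n)).coeff (wt N q n) := by
  rw [coe_lcH, ← order_sigma_mono]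
  rfl

theorem lcH_uU_pow (q : Q N) (d : Dv N) : lcH N q (uU N d) ^ N = 1 := by
  have h1 : lcH N q (uU N d)⁻¹ ^ N = 1 := by
    apply Units.ext
    rw [Units.val_pow_eq_pow_val, coe_lcH, Units.val_one, uU, inv_inv, Units.val_mk0,
      order_sigma_gF]
    exact coeff_sigma_gF_pow N q d
  rw [map_inv, inv_pow, inv_eq_one] at h1
  exact h1

/-- **The leading coefficient of a monomial at the coset `q` is an `N`-th root of unity.** -/
theorem lcH_monoU_pow (q : Q N) (n : Dv N →₀ ℤ) : lcH N q (monoU N n) ^ N = 1 := by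
  refine monoU_induction N (fun u => lcH N q u ^ N = 1) ?_ (lcH_uU_pow N q) ?_ ?_ n
  · show lcH N q 1 ^ N = 1
    rw [map_one, one_pow]
  · intro a b ha hb
    show lcH N q (a * b) ^ N = 1
    rw [map_mul, mul_pow, ha, hb, one_mul]
  · intro a ha
    show lcH N q a⁻¹ ^ N = 1
    rw [map_inv, inv_pow, ha, inv_one]

theorem coeff_sigma_mono_pow (q : Q N) (n : Dv N →₀ ℤ) :
    ((sigma N q (mono N n)).coeff (wt N q n)) ^ N = 1 := by
  rw [← coe_lcH_monoU, ← Units.val_pow_eq_pow_val, lcH_monoU_pow, Units.val_one]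

theorem lcH_monoU_add (q : Q N) (n n' : Dv N →₀ ℤ) :
    lcH N q (monoU N (n + n')) = lcH N q (monoU N n) * lcH N q (monoU N n') := by
  rw [monoU_add, map_mul]

/-- adding `N` times a vector does not change the leading coefficient -/
theorem lcH_monoU_add_nsmul (q : Q N) (n n' : Dv N →₀ ℤ) :
    lcH N q (monoU N (n + (N : ℤ) • n')) = lcH N q (monoU N n) := by
  rw [monoU_add, map_mul, monoU_zsmul, map_zpow, zpow_natCast, lcH_monoU_pow, mul_one]

theorem coeff_sigma_mono_add_nsmul (q : Q N) (n n' : Dv N →₀ ℤ) :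
    (sigma N q (mono N (n + (N : ℤ) • n'))).coeff (wt N q (n + (N : ℤ) • n')) =
      (sigma N q (mono N n)).coeff (wt N q n) := by
  rw [← coe_lcH_monoU, ← coe_lcH_monoU, lcH_monoU_add_nsmul]

/-! ### Transfer to the places -/

theorem ord_eq_of_induced {c : Place KK (FF N)} {q : Q N} {g : ℕ}
    (h : IsInducedBy c (sigma N q) g) (n : Dv N →₀ ℤ) :
    (g : ℤ) * c.ord (mono N n) = wt N q n := by
  rw [← h.order_eq _ (mono_ne_zero N n), order_sigma_mono]

theorem ord_nonneg_iff {c : Place KK (FF N)} {q : Q N} {g : ℕ}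
    (h : IsInducedBy c (sigma N q) g) (n : Dv N →₀ ℤ) :
    0 ≤ c.ord (mono N n) ↔ 0 ≤ wt N q n := by
  have hg : (0 : ℤ) < g := by exact_mod_cast h.pos
  rw [← ord_eq_of_induced N h n]
  constructor
  · intro h1
    exact mul_nonneg hg.le h1
  · intro h1
    by_contra h2
    rw [not_le] at h2
    have := mul_neg_of_pos_of_neg hg h2
    omega

/-! ### The expansions are series in `q_N ^ G` -/

/-- **If `G` divides all `mOf N q d`, then the expansion of every function at the coset `q` is a
series in `q_N ^ G`.** -/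
theorem dvd_of_coeff_sigma_ne_zero (q : Q N) (G : ℕ) (hG0 : 0 < G)
    (hG : ∀ d : Dv N, G ∣ mOf N q (d : ℕ)) (f : FF N) (i : ℤ)
    (hi : (sigma N q f).coeff i ≠ 0) : (G : ℤ) ∣ i := by
  have hω : IsPrimitiveRoot (Complex.exp (2 * Real.pi * Complex.I / G)) G :=
    Complex.isPrimitiveRoot_exp G hG0.ne'
  set ω : ℂ := Complex.exp (2 * Real.pi * Complex.I / G) with hωdef
  have hω0 : ω ≠ 0 := Complex.exp_ne_zero _
  have key : (LaurentRescale.rescale ω hω0).comp (sigma N q) = sigma N q := by
    apply Jq.ringHom_ext N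
    · intro c
      rw [RingHom.comp_apply, sigma_const, LaurentRescale.rescale_C]
    · intro d
      rw [RingHom.comp_apply]
      ext k
      rw [LaurentRescale.rescale_coeff]
      by_cases hk : (sigma N q (gF N d)).coeff k = 0
      · rw [hk, mul_zero]
      · have h1 := dvd_of_coeff_sigma_gF_ne_zero N q d k hk
        have h2 : (G : ℤ) ∣ k := (Int.natCast_dvd_natCast.mpr (hG d)).trans h1
        rw [(hω.zpow_eq_one_iff_dvd k).mpr h2, one_mul]
  have h3 := congrArg (fun τ : FF N →+* LaurentSeries ℂ => (τ f).coeff i) key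
  simp only [RingHom.comp_apply, LaurentRescale.rescale_coeff] at h3
  have h4 : ω ^ i = 1 := by
    have h5 : (ω ^ i - 1) * (sigma N q f).coeff i = 0 := by
      rw [sub_mul, h3, one_mul, sub_self]
    rcases mul_eq_zero.mp h5 with h6 | h6
    · exact sub_eq_zero.mp h6
    · exact absurd h6 hi
  exact (hω.zpow_eq_one_iff_dvd i).mp h4

theorem dvd_order_sigma (q : Q N) (G : ℕ) (hG0 : 0 < G)
    (hG : ∀ d : Dv N, G ∣ mOf N q (d : ℕ)) {f : FF N} (hf : f ≠ 0) :
    (G : ℤ) ∣ (sigma N q f).order := by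
  apply dvd_of_coeff_sigma_ne_zero N q G hG0 hG f
  exact fun h0 => ((map_ne_zero (sigma N q)).mpr hf) (HahnSeries.coeff_order_eq_zero.mp h0)

/-! ### The ramification index -/

/-- **The ramification index of `sigma N q` over its cusp is the gcd of the `mOf N q d`.** -/
theorem ram_eq {c : Place KK (FF N)} {q : Q N} {g : ℕ} (h : IsInducedBy c (sigma N q) g)
    (G : ℕ) (b : Dv N →₀ ℤ) (hG0 : 0 < G) (hb : wt N q b = G)
    (hG : ∀ d : Dv N, G ∣ mOf N q (d : ℕ)) : g = G := by
  have h1 : (g : ℤ) ∣ (G : ℤ) := ⟨c.ord (mono N b), by rw [ord_eq_of_induced N h b, hb]⟩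
  obtain ⟨π, hπ0, hπ⟩ := Fermat.Agent.S24.exists_uniformizer c
  have h2 : (G : ℤ) ∣ (g : ℤ) := by
    have h3 := dvd_order_sigma N q G hG0 hG hπ0
    rwa [h.order_eq π hπ0, hπ, mul_one] at h3
  have h4 : g ∣ G := Int.natCast_dvd_natCast.mp h1
  have h5 : G ∣ g := Int.natCast_dvd_natCast.mp h2
  exact Nat.dvd_antisymm h4 h5

/-- **A monomial of weight `G = gcd_d mOf N q d` is a uniformizer at the cusp of `q`.** -/
theorem ord_mono_eq_one {c : Place KK (FF N)} {q : Q N} {g : ℕ}
    (h : IsInducedBy c (sigma N q) g)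
    (G : ℕ) (b : Dv N →₀ ℤ) (hG0 : 0 < G) (hb : wt N q b = G)
    (hG : ∀ d : Dv N, G ∣ mOf N q (d : ℕ)) : c.ord (mono N b) = 1 := by
  have hg := ram_eq N h G b hG0 hb hG
  have h1 := ord_eq_of_induced N h b
  rw [hb, hg] at h1
  have hG' : (G : ℤ) ≠ 0 := by exact_mod_cast hG0.ne'
  exact mul_left_cancel₀ hG' (h1.trans (mul_one _).symm)

/-! ### Integrality of the monomials -/

section Integral

variable (A : ValuationSubring KK)

theorem inc_jqNModC (d : ℕ) [NeZero d] : inc A (jqNModC A d) = jgenL d := by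
  show coeffMap A.subtype (jqNModC A d) = jgenL d
  rw [coeffMap_jqNModC]
  change jqNModC KK d = coeffMap (algebraMap ℚ KK) (jqNModC ℚ d)
  rw [coeffMap_jqNModC]

theorem gF_mem_OO (d : Dv N) : gF N d ∈ OO A N := by
  have h : IsInt A (modularFunctionFieldBar N) (FkN A N) (jqNModC A (d : ℕ)) := by
    refine ⟨?_, ?_⟩
    · rw [inc_jqNModC A]
      exact (gF N d).2
    · show coeffMap (IsLocalRing.residue A) (jqNModC A (d : ℕ)) ∈ _
      rw [coeffMap_jqNModC]
      exact jqModCd_mem_full _ N d.2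
  have h2 := inc_mem_gaussRing h
  have e : (⟨inc A (jqNModC A (d : ℕ)), h.1⟩ : FF N) = gF N d :=
    Subtype.ext (inc_jqNModC A (d : ℕ))
  rwa [e] at h2

theorem redN_gF_ne_zero (d : Dv N) : redN A N ⟨gF N d, gF_mem_OO N A d⟩ ≠ 0 := by
  intro h
  have h1 := redN_eq_rd A N (gF_mem_OO N A d) (inc_jqNModC A (d : ℕ))
  rw [h] at h1
  have h2 : coeffMap (IsLocalRing.residue A) (jqNModC A (d : ℕ)) = 0 := h1.symm
  rw [coeffMap_jqNModC, jqNModC] at h2
  have h3 := qExpand_injective (R := IsLocalRing.ResidueField A) (d : ℕ)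
    (h2.trans (map_zero _).symm)
  exact jqModC_ne_zero_of_nontrivial _ h3

/-- a unit of the function field that is a unit of the Gauss ring -/
def IsGaussUnit (u : (FF N)ˣ) : Prop := (u : FF N) ∈ OO A N ∧ ((u⁻¹ : (FF N)ˣ) : FF N) ∈ OO A N

theorem isGaussUnit_uU (d : Dv N) : IsGaussUnit N A (uU N d) := by
  refine ⟨?_, ?_⟩
  · rw [coe_uU]
    exact inv_mem_of_red_ne_zero (f := ⟨gF N d, gF_mem_OO N A d⟩) (redN_gF_ne_zero N A d)
  · rw [uU, inv_inv, Units.val_mk0]
    exact gF_mem_OO N A d

theorem isGaussUnit_monoU (n : Dv N →₀ ℤ) : IsGaussUnit N A (monoU N n) := by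
  refine monoU_induction N (IsGaussUnit N A) ?_ (isGaussUnit_uU N A) ?_ ?_ n
  · exact ⟨by rw [Units.val_one]; exact one_mem _, by rw [inv_one, Units.val_one]; exact one_mem _⟩
  · intro a b ha hb
    exact ⟨by rw [Units.val_mul]; exact mul_mem ha.1 hb.1,
      by rw [mul_inv, Units.val_mul]; exact mul_mem ha.2 hb.2⟩
  · intro a ha
    exact ⟨ha.2, by rw [inv_inv]; exact ha.1⟩

/-- **Monomials are in the Gauss ring.** -/
theorem mono_mem_OO (n : Dv N →₀ ℤ) : mono N n ∈ OO A N := (isGaussUnit_monoU N A n).1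

/-- **Monomials have nonzero reduction.** -/
theorem redN_mono_ne_zero (n : Dv N →₀ ℤ) : redN A N ⟨mono N n, mono_mem_OO N A n⟩ ≠ 0 := by
  intro h
  have h1 : (⟨mono N n, mono_mem_OO N A n⟩ : OO A N) *
      ⟨((monoU N n)⁻¹ : (FF N)ˣ), (isGaussUnit_monoU N A n).2⟩ = 1 := by
    apply Subtype.ext
    show ((monoU N n : (FF N)ˣ) : FF N) * (((monoU N n)⁻¹ : (FF N)ˣ) : FF N) = 1
    rw [← Units.val_mul, mul_inv_cancel, Units.val_one]
  have h2 := congrArg (redN A N) h1
  rw [map_mul, h, zero_mul, map_one] at h2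
  exact zero_ne_one h2

end Integral

/-! ### The finite zeros and poles of monomials -/

theorem jInt_of_ord_mono_ne_zero (A : ValuationSubring KK) (n : Dv N →₀ ℤ)
    (P : Place KK (FF N)) (hP : 0 ≤ P.ord (jF N)) (h : P.ord (mono N n) ≠ 0) :
    CuspAbs.JInt A N P := by
  refine monoU_induction N (fun u => P.ord (u : FF N) ≠ 0 → CuspAbs.JInt A N P) ?_ ?_ ?_ ?_ n h
  · intro h1
    rw [Units.val_one, Place.ord_one] at h1
    exact absurd rfl h1
  · intro d h1
    rw [coe_uU, Place.ord_inv] at h1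
    exact Cusp0Int.jInt_of_ord_gF_ne_zero N A d P hP (fun h0 => h1 (by rw [h0, neg_zero]))
  · intro a b ha hb h1
    rw [Units.val_mul, P.ord_mul a.ne_zero b.ne_zero] at h1
    by_cases h2 : P.ord (a : FF N) = 0
    · exact hb (fun h3 => h1 (by rw [h2, h3, add_zero]))
    · exact ha h2
  · intro a ha h1
    rw [Units.val_inv_eq_inv_val, Place.ord_inv] at h1
    exact ha (fun h0 => h1 (by rw [h0, neg_zero]))

end Fermat.Agent.S18.Cusp0Ord
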