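import Mathlib

/-!
# S18 moonshot, cusp package: extension of characters

`exists_root`: if nonzero complex numbers `ξ i` satisfy every multiplicative relation
`∏ ξ i ^ n i = 1` for the integer vectors `n` with `∑ n i * m i = 0`, then `ξ i = ρ ^ m i` for a
single `ρ ≠ 0`.
-/

set_option autoImplicit false

namespace Fermat.Agent.S18.CuspCharExt

/-- Bezout for finitely many integers. -/
theorem exists_bezout {ι : Type*} [Fintype ι] (m : ι → ℤ) :
    ∃ (g : ℤ) (x : ι → ℤ), ∑ i, x i * m i = g ∧ ∀ i, g ∣ m i := by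
  classical
  obtain ⟨g, hg⟩ := (IsPrincipalIdealRing.principal (Ideal.span (Set.range m))).principal
  have hgmem : g ∈ Ideal.span (Set.range m) := by
    rw [hg]
    exact Submodule.mem_span_singleton_self g
  obtain ⟨x, hx⟩ := (Ideal.mem_span_range_iff_exists_fun).mp hgmem
  refine ⟨g, x, hx, fun i => ?_⟩
  have hi : m i ∈ Ideal.span (Set.range m) := Ideal.subset_span ⟨i, rfl⟩
  rw [hg] at hi
  exact Ideal.mem_span_singleton.mp hi

/-- **Extension of characters.** -/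
theorem exists_root {ι : Type*} [Fintype ι] (m : ι → ℤ) (ξ : ι → ℂ) (hξ : ∀ i, ξ i ≠ 0)
    (h : ∀ n : ι → ℤ, ∑ i, n i * m i = 0 → ∏ i, ξ i ^ n i = 1) :
    ∃ ρ : ℂ, ρ ≠ 0 ∧ ∀ i, ρ ^ m i = ξ i := by
  classical
  obtain ⟨g, x, hx, hdvd⟩ := exists_bezout m
  -- the key consequence of `h`
  have key : ∀ (j : ι) (k : ℤ), m j = g * k → (∏ i, ξ i ^ x i) ^ k = ξ j := by
    intro j k hk
    have h1 := h (fun i => k * x i - if i = j then 1 else 0) (by
      simp only [sub_mul, Finset.sum_sub_distrib, ite_mul, one_mul, zero_mul,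
        Finset.sum_ite_eq', Finset.mem_univ, if_true]
      rw [sub_eq_zero, hk]
      simp_rw [mul_assoc]
      rw [← Finset.mul_sum, hx, mul_comm])
    have h2 : ∀ i, ξ i ^ (k * x i - if i = j then 1 else 0) =
        (ξ i ^ x i) ^ k * (ξ i ^ (if i = j then (1 : ℤ) else 0))⁻¹ := by
      intro i
      rw [zpow_sub₀ (hξ i), mul_comm k, zpow_mul, div_eq_mul_inv]
    simp_rw [h2] at h1
    rw [Finset.prod_mul_distrib, Finset.prod_inv_distrib, Finset.prod_zpow] at h1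
    have h3 : ∏ i, ξ i ^ (if i = j then (1 : ℤ) else 0) = ξ j := by
      rw [Finset.prod_eq_single j]
      · simp
      · intro b _ hb
        simp [hb]
      · intro hj
        exact absurd (Finset.mem_univ j) hj
    rw [h3] at h1
    exact eq_of_mul_inv_eq_one h1
  by_cases hg0 : g = 0
  · refine ⟨1, one_ne_zero, fun j => ?_⟩
    have hmj : m j = g * 0 := by
      obtain ⟨k, hk⟩ := hdvd j
      rw [hk, hg0, zero_mul, zero_mul]
    have := key j 0 hmj
    rw [zpow_zero] at this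
    rw [one_zpow]
    exact this
  · have hΞ : (∏ i, ξ i ^ x i) ≠ 0 :=
      Finset.prod_ne_zero_iff.mpr fun i _ => zpow_ne_zero _ (hξ i)
    have hpos : 0 < g.natAbs := Int.natAbs_pos.mpr hg0
    obtain ⟨ρ₀, hρ₀⟩ := IsAlgClosed.exists_pow_nat_eq (∏ i, ξ i ^ x i) hpos
    have hρ₀0 : ρ₀ ≠ 0 := by
      rintro rfl
      rw [zero_pow hpos.ne'] at hρ₀
      exact hΞ hρ₀.symm
    -- `ρ ^ g = Ξ`
    obtain ⟨ρ, hρ0, hρ⟩ : ∃ ρ : ℂ, ρ ≠ 0 ∧ ρ ^ g = ∏ i, ξ i ^ x i := by
      rcases Int.natAbs_eq g with hgg | hgg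
      · refine ⟨ρ₀, hρ₀0, ?_⟩
        rw [hgg, zpow_natCast]
        exact hρ₀
      · refine ⟨ρ₀⁻¹, inv_ne_zero hρ₀0, ?_⟩
        rw [hgg, zpow_neg, inv_zpow, inv_inv, zpow_natCast]
        exact hρ₀
    refine ⟨ρ, hρ0, fun j => ?_⟩
    obtain ⟨k, hk⟩ := hdvd j
    rw [hk, zpow_mul, hρ]
    exact key j k hk

end Fermat.Agent.S18.CuspCharExt
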