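import Mathlib
import Fermat.Agent.S18.Cusp0Ord
import Fermat.Agent.S18.CuspCharExt
import Fermat.Agent.S18.Cusp0H

/-!
# S18 moonshot, cusp package: the input (CUSP-a)

`cuspA : CuspAbs.CuspA A N`, unconditionally.

`cuspA_of` : the statement `CuspAbs.CuspA A N` (at every cusp there is a Gauss unit of order one
at the cusp, regular at all cusps, whose finite zeros and poles have integral `j`-invariant)
follows from two purely combinatorial facts on the weights `wt N q` of exponent vectors:

* (Bezout) for every coset `q` there is a vector `b` whose weight at `q` is a positive common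
  divisor `G` of all `mOf N q d`;
* (correction) for every coset `q` and every vector `n` there is a vector `n'` of weight `≥ 0`
  at all cosets, of weight `0` at the cosets with the same `mOf`-vector as `q`, such that
  `n + N • n'` has weight `≥ 0` at the cosets with another `mOf`-vector.

The function is the monomial `mono N (b + N • n')`.
-/

set_option autoImplicit false
set_option linter.unusedSectionVars false

namespace Fermat.Agent.S18.Cusp0A

open AlgebraicCurve
open Fermat.Agent.S20 Fermat.Agent.S24 Fermat.Agent.S24.Jq Fermat.Agent.S24.Eval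
open Fermat.Agent.S24.Embed Fermat.Agent.S24.SigmaCusp
open Fermat.Agent.S18.Cusp0Exp Fermat.Agent.S18.Cusp0Def Fermat.Agent.S18.Cusp0Ord
open Fermat.Agent.S18.Gauss Fermat.Agent.S18.Lattice Fermat.Agent.S18.Charts
open ModularCurve

variable (N : ℕ) [NeZero N]

/-- the Bezout property of the weights -/
def Bezout : Prop :=
  ∀ q : Q N, ∃ (G : ℕ) (b : Dv N →₀ ℤ), 0 < G ∧ wt N q b = G ∧
    ∀ d : Dv N, G ∣ mOf N q (d : ℕ)

/-- the correction property of the weights -/
def Correction : Prop :=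
  ∀ (q : Q N) (n : Dv N →₀ ℤ), ∃ n' : Dv N →₀ ℤ,
    (∀ q'' : Q N, wt N q'' n < 0 → (∃ d : Dv N, mOf N q'' (d : ℕ) ≠ mOf N q (d : ℕ)) →
      0 ≤ wt N q'' (n + (N : ℤ) • n')) ∧
    (∀ q'' : Q N, 0 ≤ wt N q'' n') ∧
    ∀ q'' : Q N, (∀ d : Dv N, mOf N q'' (d : ℕ) = mOf N q (d : ℕ)) → wt N q'' n' = 0

variable {N}

/-- **The Bezout property holds.** -/
theorem bezout : Bezout N := by
  classical
  intro q
  haveI : Fintype (Dv N) := Fintype.ofFinite _
  obtain ⟨g, x, hx, hg⟩ := CuspCharExt.exists_bezout (fun d : Dv N => (mOf N q (d : ℕ) : ℤ))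
  have hm1 : (0 : ℤ) < mOf N q ((Jq.one N : Dv N) : ℕ) := by
    exact_mod_cast mOf_pos N q (Jq.one N).2
  have hg0 : g ≠ 0 := by
    intro h0
    have := hg (Jq.one N)
    rw [h0, zero_dvd_iff] at this
    omega
  have hwt : ∀ y : Dv N → ℤ, wt N q (Finsupp.equivFunOnFinite.symm y) =
      ∑ d, y d * (mOf N q (d : ℕ) : ℤ) := by
    intro y
    rw [wt_eq_sum, Finsupp.sum_fintype _ _ (fun _ => zero_mul _)]
    rfl
  refine ⟨g.natAbs, Finsupp.equivFunOnFinite.symm (fun d => (SignType.sign g : ℤ) * x d),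
    Int.natAbs_pos.mpr hg0, ?_, fun d => ?_⟩
  · rw [hwt]
    have : ∑ d : Dv N, (SignType.sign g : ℤ) * x d * (mOf N q (d : ℕ) : ℤ) =
        (SignType.sign g : ℤ) * ∑ d : Dv N, x d * (mOf N q (d : ℕ) : ℤ) := by
      rw [Finset.mul_sum]
      exact Finset.sum_congr rfl fun d _ => mul_assoc _ _ _
    rw [this, hx, Int.natCast_natAbs, ← Int.sign_eq_sign, Int.sign_mul_self_eq_abs]
  · have := hg d
    rw [← Int.natAbs_dvd] at this
    exact_mod_cast this

/-- the weights of a corrected vector -/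
theorem wt_corrected_nonneg {q : Q N} {n n' : Dv N →₀ ℤ} (hn : 0 ≤ wt N q n)
    (h1 : ∀ q'' : Q N, wt N q'' n < 0 → (∃ d : Dv N, mOf N q'' (d : ℕ) ≠ mOf N q (d : ℕ)) →
      0 ≤ wt N q'' (n + (N : ℤ) • n'))
    (h2 : ∀ q'' : Q N, 0 ≤ wt N q'' n')
    (q'' : Q N) : 0 ≤ wt N q'' (n + (N : ℤ) • n') := by
  by_cases hneg : wt N q'' n < 0
  · by_cases hm : ∀ d : Dv N, mOf N q'' (d : ℕ) = mOf N q (d : ℕ)
    · rw [wt_congr N hm n] at hneg
      omega
    · rw [not_forall] at hm
      exact h1 q'' hneg hm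
  · rw [wt_add, wt_zsmul]
    have h3 : (0 : ℤ) ≤ N := Int.natCast_nonneg N
    have h4 := mul_nonneg h3 (h2 q'')
    omega

theorem wt_corrected_eq {q : Q N} {n n' : Dv N →₀ ℤ}
    (h3 : ∀ q'' : Q N, (∀ d : Dv N, mOf N q'' (d : ℕ) = mOf N q (d : ℕ)) → wt N q'' n' = 0) :
    wt N q (n + (N : ℤ) • n') = wt N q n := by
  rw [wt_add, wt_zsmul, h3 q (fun _ => rfl), mul_zero, add_zero]

/-- **(CUSP-a)** from the combinatorics of the weights. -/
theorem cuspA_of (A : ValuationSubring KK) (hB : Bezout N) (hC : Correction N) :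
    CuspAbs.CuspA A N := by
  intro c hc
  obtain ⟨q, g, hq, -⟩ := CuspSigma.exists_induced N c hc
  obtain ⟨G, b, hG0, hb, hG⟩ := hB q
  obtain ⟨n', h1, h2, h3⟩ := hC q b
  have hbnn : 0 ≤ wt N q b := by rw [hb]; exact Int.natCast_nonneg G
  refine ⟨⟨mono N (b + (N : ℤ) • n'), mono_mem_OO N A _⟩, redN_mono_ne_zero N A _, ?_, ?_, ?_⟩
  · show c.ord (mono N (b + (N : ℤ) • n')) = 1
    exact ord_mono_eq_one N hq G _ hG0 ((wt_corrected_eq h3).trans hb) hG
  · intro c' hc'
    obtain ⟨q', g', hq', -⟩ := CuspSigma.exists_induced N c' hc'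
    show 0 ≤ c'.ord (mono N (b + (N : ℤ) • n'))
    rw [ord_nonneg_iff N hq']
    exact wt_corrected_nonneg hbnn h1 h2 q'
  · intro P hP hne
    exact jInt_of_ord_mono_ne_zero N A _ P hP hne

/-- **The correction property holds** (`Cusp0H.exists_correction`). -/
theorem correction : Correction N := fun q n => Cusp0H.exists_correction N q n

/-- **(CUSP-a)**, unconditionally: at every cusp of `X₀(N)` there is a Gauss unit (a monomial in
the functions `1 / j(q^d)`, `d ∣ N`) of order one at the cusp, regular at all cusps, whose zeros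
and poles at the finite places have integral `j`-invariant. -/
theorem cuspA (A : ValuationSubring KK) (N : ℕ) [NeZero N] : CuspAbs.CuspA A N :=
  cuspA_of A bezout correction

end Fermat.Agent.S18.Cusp0A
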