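import Mathlib
import Fermat.Agent.S18.FFSep
import Fermat.Agent.S18.NormCrit
import Fermat.Agent.S18.NormFF

/-!
# S18 (leaf [G]): the normality criterion in terms of places

`k` algebraically closed, `κ / k` a function field with a separating element `y`, `B` the
integral closure of `k[y]` in `κ`.  A `k`-subalgebra `R1` of `κ` containing `y` contains `B` as
soon as it contains, for every place `Q` at which `y` is regular, an element of `B` of order
one at `Q`, and for every two such places an element of `B` vanishing at the first but not at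
the second.
-/

set_option autoImplicit false
set_option linter.style.haveILetI false
set_option linter.unusedSectionVars false

open IntermediateField AlgebraicCurve IsDedekindDomain

namespace Fermat.Agent.S18.PlaceCrit

open Fermat.Agent.S24 Fermat.Agent.S24.FFFiber

variable {k κ : Type*} [Field k] [Field κ] [Algebra k κ]

section Ord

variable {R : Type*} [CommRing R] [IsDedekindDomain R] [Algebra R κ] [IsFractionRing R κ]
  [Algebra k R] [IsScalarTower k R κ]

/-- An element of the square of a height one prime has order at least two at its place. -/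
theorem two_le_ord_of_mem_sq (w : HeightOneSpectrum R) (r : R) (hr : r ≠ 0)
    (h : r ∈ w.asIdeal ^ 2) :
    2 ≤ (Place.ofHeightOneSpectrum (K := k) (F := κ) w).ord (algebraMap R κ r) := by
  rw [ord_ofHeightOneSpectrum]
  have h1 := (w.intValuation_le_pow_iff_mem r 2).mpr h
  rw [← HeightOneSpectrum.valuation_of_algebraMap (K := κ)] at h1
  have hr' : algebraMap R κ r ≠ 0 := by
    intro h0
    exact hr ((IsFractionRing.injective R κ) (by rw [h0, map_zero]))
  have hval : w.valuation κ (algebraMap R κ r) ≠ 0 := (Valuation.ne_zero_iff _).mpr hr'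
  obtain ⟨m, hm⟩ : ∃ m : ℤ, w.valuation κ (algebraMap R κ r) = WithZero.exp m :=
    ⟨WithZero.log (w.valuation κ (algebraMap R κ r)), (WithZero.exp_log hval).symm⟩
  have h2 : w.valuation κ (algebraMap R κ r) ≤ WithZero.exp (-((2 : ℕ) : ℤ)) := h1
  rw [hm, WithZero.exp_le_exp] at h2
  rw [hm, WithZero.log_exp]
  push_cast at h2
  omega

end Ord

section Main

open IntermediateField.algebraAdjoinAdjoin

variable [IsAlgClosed k] (y : κ) [FiniteDimensional k⟮y⟯ κ] [Algebra.IsSeparable k⟮y⟯ κ]

set_option maxHeartbeats 1600000 in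
set_option synthInstance.maxHeartbeats 400000 in
/-- **The criterion, in terms of places.** -/
theorem mem_of_unif_sep (hy : Transcendental k y) (R1 : Subalgebra k κ) (hyR : y ∈ R1)
    (hunif : ∀ Q : Place k κ, 0 ≤ Q.ord y →
      ∃ t ∈ R1, IsIntegral (Algebra.adjoin k {y}) t ∧ Q.ord t = 1)
    (hsep : ∀ Q Q' : Place k κ, 0 ≤ Q.ord y → 0 ≤ Q'.ord y → Q ≠ Q' →
      ∃ f ∈ R1, IsIntegral (Algebra.adjoin k {y}) f ∧ 0 < Q.ord f ∧ Q'.ord f = 0)
    (b : κ) (hb : IsIntegral (Algebra.adjoin k {y}) b) : b ∈ R1 := by
  classical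
  haveI hDed := FFSep.isDedekindDomain_B y hy
  haveI hFrac := FFSep.isFractionRing_B (k := k) y
  haveI hfin := FFSep.finite_B y hy
  -- the subalgebra `R` of `B`
  set φ : integralClosure (Algebra.adjoin k {y}) κ →ₐ[k] κ :=
    IsScalarTower.toAlgHom k (integralClosure (Algebra.adjoin k {y}) κ) κ with hφ
  have hφ_apply : ∀ z : integralClosure (Algebra.adjoin k {y}) κ, φ z = (z : κ) := fun _ => rfl
  set R : Subalgebra k (integralClosure (Algebra.adjoin k {y}) κ) := R1.comap φ with hR
  have hadj : Algebra.adjoin k {y} ≤ R1 := Algebra.adjoin_le (Set.singleton_subset_iff.mpr hyR)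
  -- `B` is finite over `R`
  let ψ : Algebra.adjoin k {y} →+* R :=
    { toFun := fun a => ⟨algebraMap (Algebra.adjoin k {y})
        (integralClosure (Algebra.adjoin k {y}) κ) a, hadj a.2⟩
      map_one' := by apply Subtype.ext; exact map_one _
      map_mul' := fun a b => by apply Subtype.ext; exact map_mul _ a b
      map_zero' := by apply Subtype.ext; exact map_zero _
      map_add' := fun a b => by apply Subtype.ext; exact map_add _ a b }
  letI : Algebra (Algebra.adjoin k {y}) R := ψ.toAlgebra
  haveI : IsScalarTower (Algebra.adjoin k {y}) R (integralClosure (Algebra.adjoin k {y}) κ) :=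
    IsScalarTower.of_algebraMap_eq fun a => rfl
  haveI hfinR : Module.Finite R (integralClosure (Algebra.adjoin k {y}) κ) :=
    Module.Finite.of_restrictScalars_finite (Algebra.adjoin k {y}) R
      (integralClosure (Algebra.adjoin k {y}) κ)
  have hne : ∀ 𝔫 : Ideal (integralClosure (Algebra.adjoin k {y}) κ), 𝔫.IsMaximal → 𝔫 ≠ ⊥ := by
    rintro 𝔫 h𝔫 rfl
    exact NormFF.bot_not_isMaximal y hy h𝔫
  -- residue fields
  have hres : ∀ 𝔫 : Ideal (integralClosure (Algebra.adjoin k {y}) κ), 𝔫.IsMaximal →
      Function.Surjective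
        (algebraMap k (integralClosure (Algebra.adjoin k {y}) κ ⧸ 𝔫)) := by
    intro 𝔫 h𝔫 z
    obtain ⟨b, rfl⟩ := Ideal.Quotient.mk_surjective z
    obtain ⟨c, hc⟩ := FFSep.residue_B y hy ⟨𝔫, h𝔫.isPrime, hne 𝔫 h𝔫⟩ b
    refine ⟨c, ?_⟩
    have := (Ideal.Quotient.mk_eq_mk_iff_sub_mem _ _).mpr hc
    rw [this]
    rfl
  have hyB : y ∈ integralClosure (Algebra.adjoin k {y}) κ :=
    (integralClosure (Algebra.adjoin k {y}) κ).algebraMap_mem
      ⟨y, Algebra.self_mem_adjoin_singleton k y⟩
  -- the place of a maximal ideal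
  have hplace : ∀ w : HeightOneSpectrum (integralClosure (Algebra.adjoin k {y}) κ),
      0 ≤ (Place.ofHeightOneSpectrum (K := k) (F := κ) w).ord y := by
    intro w
    apply ord_nonneg_of_mem
    rw [mem_ofHeightOneSpectrum_iff]
    exact w.valuation_le_one (⟨y, hyB⟩ : integralClosure (Algebra.adjoin k {y}) κ)
  have hmem : ∀ (w : HeightOneSpectrum (integralClosure (Algebra.adjoin k {y}) κ))
      (t : κ) (ht : IsIntegral (Algebra.adjoin k {y}) t),
      0 < (Place.ofHeightOneSpectrum (K := k) (F := κ) w).ord t →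
        (⟨t, ht⟩ : integralClosure (Algebra.adjoin k {y}) κ) ∈ w.asIdeal := by
    intro w t ht hpos
    have ht0 : (⟨t, ht⟩ : integralClosure (Algebra.adjoin k {y}) κ) ≠ 0 := by
      intro h0
      have : t = 0 := congrArg Subtype.val h0
      rw [this, Place.ord_zero] at hpos
      exact lt_irrefl _ hpos
    exact (mem_asIdeal_iff_ord_pos (k := k) (F := κ) w _ ht0).mpr hpos
  have htop : R = ⊤ := by
    refine NormCrit.eq_top R hres ?_ ?_
    · intro 𝔫 h𝔫
      set w : HeightOneSpectrum (integralClosure (Algebra.adjoin k {y}) κ) :=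
        ⟨𝔫, h𝔫.isPrime, hne 𝔫 h𝔫⟩ with hw
      obtain ⟨t, htR, htint, ht1⟩ := hunif _ (hplace w)
      refine ⟨⟨t, htint⟩, ?_, hmem w t htint (by rw [ht1]; exact one_pos), ?_⟩
      · rw [hR, Subalgebra.mem_comap, hφ_apply]
        exact htR
      · intro hsq
        have ht0 : (⟨t, htint⟩ : integralClosure (Algebra.adjoin k {y}) κ) ≠ 0 := by
          intro h0
          have : t = 0 := congrArg Subtype.val h0
          rw [this, Place.ord_zero] at ht1
          exact zero_ne_one ht1
        have h2 := two_le_ord_of_mem_sq (k := k) (κ := κ) w _ ht0 hsq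
        have h3 : (Place.ofHeightOneSpectrum (K := k) (F := κ) w).ord t = 1 := ht1
        have h4 : algebraMap (integralClosure (Algebra.adjoin k {y}) κ) κ ⟨t, htint⟩ = t := rfl
        rw [h4, h3] at h2
        omega
    · intro 𝔫 𝔫' h𝔫 h𝔫' hnn
      set w : HeightOneSpectrum (integralClosure (Algebra.adjoin k {y}) κ) :=
        ⟨𝔫, h𝔫.isPrime, hne 𝔫 h𝔫⟩ with hw
      set w' : HeightOneSpectrum (integralClosure (Algebra.adjoin k {y}) κ) :=
        ⟨𝔫', h𝔫'.isPrime, hne 𝔫' h𝔫'⟩ with hw'
      have hww : Place.ofHeightOneSpectrum (K := k) (F := κ) w ≠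
          Place.ofHeightOneSpectrum (K := k) (F := κ) w' := by
        intro h
        have := ofHeightOneSpectrum_injective (k := k) (F := κ) h
        apply hnn
        have h5 := congrArg HeightOneSpectrum.asIdeal this
        exact h5
      obtain ⟨f, hfR, hfint, hf1, hf2⟩ := hsep _ _ (hplace w) (hplace w') hww
      refine ⟨⟨f, hfint⟩, ?_, hmem w f hfint hf1, ?_⟩
      · rw [hR, Subalgebra.mem_comap, hφ_apply]
        exact hfR
      · intro hf'
        have hf0 : (⟨f, hfint⟩ : integralClosure (Algebra.adjoin k {y}) κ) ≠ 0 := by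
          intro h0
          have : f = 0 := congrArg Subtype.val h0
          rw [this, Place.ord_zero] at hf1
          exact lt_irrefl _ hf1
        have h6 := (mem_asIdeal_iff_ord_pos (k := k) (F := κ) w' _ hf0).mp hf'
        have h7 : algebraMap (integralClosure (Algebra.adjoin k {y}) κ) κ ⟨f, hfint⟩ = f := rfl
        rw [h7, hf2] at h6
        exact lt_irrefl _ h6
  have hbR : (⟨b, hb⟩ : integralClosure (Algebra.adjoin k {y}) κ) ∈ R := by
    rw [htop]
    exact Algebra.mem_top
  rw [hR, Subalgebra.mem_comap, hφ_apply] at hbR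
  exact hbR

end Main

end Fermat.Agent.S18.PlaceCrit
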