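import Mathlib
import Fermat.Agent.S18.CuspAbs
import Fermat.Agent.S18.RegInt
import Fermat.Agent.S18.PlaceCrit

/-!
# S18, leaf [G]: normality of the reduction of the chart at infinity

`NormalStmt1 A N` (normality of the reduction of chart 1), the facts `FibData` on the fibres of
the place reduction map over the `j̄`-line, and the characteristic-zero inputs `CuspA`, `CuspB`
at the cusps imply `NormalStmt2 A N`.
-/

set_option autoImplicit false
set_option linter.style.haveILetI false
set_option linter.unusedSectionVars false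

noncomputable section

namespace Fermat.Agent.S18.CuspNormal

open ModularCurve AlgebraicCurve Fermat.Agent.S24 Fermat.Agent.S24.Eval
  Fermat.Agent.S18.Gauss Fermat.Agent.S18.Lattice Fermat.Agent.S18.Charts
  Fermat.Agent.S18.CuspAbs Fermat.Agent.S18.RegInt

variable {A : ValuationSubring KK} {N : ℕ} [NeZero N]
variable {r : Place KK (FF N) → Place (IsLocalRing.ResidueField A) (FkN A N)}

/-- The facts on the fibres of `r` over the `j̄`-line. -/
structure FibData (A : ValuationSubring KK) (N : ℕ) [NeZero N]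
    (r : Place KK (FF N) → Place (IsLocalRing.ResidueField A) (FkN A N)) : Prop where
  poles_map : ∀ P : Place KK (FF N), P.ord (jF N) < 0 → (r P).ord (jb A N) < 0
  nonint_map : ∀ P : Place KK (FF N), 0 ≤ P.ord (jF N) → ¬ JInt A N P →
    (r P).ord (jb A N) < 0
  int_map : ∀ P : Place KK (FF N), 0 ≤ P.ord (jF N) → JInt A N P → 0 ≤ (r P).ord (jb A N)
  zero_map : ∀ P : Place KK (FF N), 0 < P.ord (jF N) → 0 < (r P).ord (jb A N)

/-! ### The reduction of chart 2 -/

section Chart2

theorem redN_mem_R2 (f : OO A N) (hf : (f : FF N) ∈ regAt N (jF N)⁻¹) :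
    redN A N f ∈ R2 A N :=
  (mem_redImage A N).mpr ⟨f, ⟨f.2, hf⟩, rfl⟩

theorem redN_mem_R1 (f : OO A N) (hf : (f : FF N) ∈ regAt N (jF N)) :
    redN A N f ∈ R1 A N :=
  (mem_redImage A N).mpr ⟨f, ⟨f.2, hf⟩, rfl⟩

theorem algebraMap_mem_R2 (c : IsLocalRing.ResidueField A) :
    algebraMap (IsLocalRing.ResidueField A) (FkN A N) c ∈ R2 A N := by
  obtain ⟨a, rfl⟩ := IsLocalRing.residue_surjective (R := A) c
  rw [← redN_cst]
  exact redN_mem_R2 _ (algebraMap_mem_regAt N _ _)

variable (A N) in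
/-- The reduction of chart 2, as a subalgebra. -/
def R2alg : Subalgebra (IsLocalRing.ResidueField A) (FkN A N) :=
  { R2 A N with algebraMap_mem' := algebraMap_mem_R2 }

theorem mem_R2alg {x : FkN A N} : x ∈ R2alg A N ↔ x ∈ R2 A N := Iff.rfl

theorem jb_inv_mem_R2 : (jb A N)⁻¹ ∈ R2 A N := by
  rw [← redN_jinvO]
  exact redN_mem_R2 _ (self_mem_regAt N _)

/-- The places of a fibre over a place of chart 2 are places of chart 2. -/
theorem ord_j_nonpos_of_fibre (hfib : FibData A N r)
    (Q : Place (IsLocalRing.ResidueField A) (FkN A N)) (hQ : Q.ord (jb A N) ≤ 0)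
    (P : Place KK (FF N)) (hP : r P = Q) : P.ord (jF N) ≤ 0 := by
  by_contra h
  rw [not_le] at h
  have := hfib.zero_map P h
  rw [hP] at this
  omega

/-- The functions of chart 2 are regular on the fibres over the places of chart 2. -/
theorem regular_on_fibre (hfib : FibData A N r) {f : FF N} (hf : f ∈ regAt N (jF N)⁻¹)
    (Q : Place (IsLocalRing.ResidueField A) (FkN A N)) (hQ : Q.ord (jb A N) ≤ 0)
    (P : Place KK (FF N)) (hP : r P = Q) : 0 ≤ P.ord f := by
  have h1 := ord_j_nonpos_of_fibre hfib Q hQ P hP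
  refine (mem_regAt_iff N _ f).mp hf P ?_
  rw [Place.ord_inv]
  omega

theorem ord_red_nonneg (hr : IsPlaceReductionModL A N r) (f : OO A N)
    (Q : Place (IsLocalRing.ResidueField A) (FkN A N))
    (hreg : ∀ P, r P = Q → 0 ≤ P.ord (f : FF N)) : 0 ≤ Q.ord (redN A N f) := by
  classical
  by_cases hf : redN A N f = 0
  · rw [hf, Place.ord_zero]
  · rw [ord_red_eq_sum hr f hf Q]
    refine Finset.sum_nonneg fun P hP => ?_
    rw [Finset.mem_filter] at hP
    exact hreg P (by simpa using hP.2)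

/-- The reduction of chart 2 consists of functions integral over `k[1/j̄]`. -/
theorem R2_le_B2b (hr : IsPlaceReductionModL A N r) (hfib : FibData A N r) :
    R2 A N ≤ B2b A N := by
  intro x hx
  obtain ⟨f, hf, rfl⟩ := (mem_redImage A N).mp hx
  rw [mem_B2b_iff]
  intro Q hQ
  rw [Place.ord_inv] at hQ
  exact ord_red_nonneg hr f Q fun P hP => regular_on_fibre hfib hf.2 Q (by omega) P hP

end Chart2

/-! ### Uniformizers and separating functions in the integral closure -/

section Generic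

open IntermediateField IsDedekindDomain Fermat.Agent.S18.FFSep Fermat.Agent.S24.FFFiber

variable {k κ : Type*} [Field k] [Field κ] [Algebra k κ]
variable (y : κ) [FiniteDimensional k⟮y⟯ κ] [Algebra.IsSeparable k⟮y⟯ κ]

/-- At every place at which `y` is regular there is a uniformizer integral over `k[y]`. -/
theorem exists_integral_unif (hy : Transcendental k y) (Q : Place k κ) (hQ : 0 ≤ Q.ord y) :
    ∃ t : κ, IsIntegral (Algebra.adjoin k {y}) t ∧ Q.ord t = 1 := by
  haveI := isDedekindDomain_B y hy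
  haveI := isFractionRing_B (k := k) y
  obtain ⟨w, hw, -⟩ := exists_eq_ofHeightOneSpectrum_B y hy Q hQ
  obtain ⟨π, hπ⟩ := w.intValuation_exists_uniformizer
  refine ⟨(π : κ), π.2, ?_⟩
  have h1 : w.valuation κ (algebraMap (integralClosure (Algebra.adjoin k {y}) κ) κ π) =
      WithZero.exp (-1 : ℤ) := by
    rw [HeightOneSpectrum.valuation_of_algebraMap, hπ]
  have h2 : algebraMap (integralClosure (Algebra.adjoin k {y}) κ) κ π = (π : κ) := rfl
  rw [hw, ord_ofHeightOneSpectrum, ← h2, h1, WithZero.log_exp]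
  norm_num

/-- Two distinct places at which `y` is regular are separated by a function integral over
`k[y]`. -/
theorem exists_integral_sep (hy : Transcendental k y) (Q Q' : Place k κ) (hQ : 0 ≤ Q.ord y)
    (hQ' : 0 ≤ Q'.ord y) (hne : Q ≠ Q') :
    ∃ f : κ, IsIntegral (Algebra.adjoin k {y}) f ∧ 0 < Q.ord f ∧ Q'.ord f = 0 := by
  haveI := isDedekindDomain_B y hy
  haveI := isFractionRing_B (k := k) y
  obtain ⟨w, hw, hmem⟩ := exists_eq_ofHeightOneSpectrum_B y hy Q hQ
  obtain ⟨w', hw', hmem'⟩ := exists_eq_ofHeightOneSpectrum_B y hy Q' hQ'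
  have hww : w.asIdeal ≠ w'.asIdeal := by
    intro h
    apply hne
    have : w = w' := HeightOneSpectrum.ext h
    rw [hw, hw', this]
  have hmax : w.asIdeal.IsMaximal := w.isMaximal
  have hnle : ¬ w.asIdeal ≤ w'.asIdeal := fun hle =>
    hww (hmax.eq_of_le w'.isPrime.ne_top hle)
  obtain ⟨f, hf, hf'⟩ := Set.not_subset.mp hnle
  have hf0 : f ≠ 0 := by
    rintro rfl
    exact hf' (zero_mem _)
  refine ⟨(f : κ), f.2, ?_, ?_⟩
  · rcases (hmem f).mp hf with h | h
    · exact h.2
    · exact absurd h hf0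
  · have h1 : 0 ≤ Q'.ord (f : κ) := RegInt.regular_of_isIntegral y (f : κ) f.2 Q' hQ'
    by_contra h2
    apply hf'
    exact (hmem' f).mpr (Or.inl ⟨hf0, lt_of_le_of_ne h1 (Ne.symm h2)⟩)

end Generic

/-! ### The finite places of chart 2 -/

section Finite

open Fermat.Agent.S18.DegEq

/-- Multiplying a function of chart 1 by a power of `1/j` gives a function of chart 2. -/
theorem exists_shift (t : OO A N) (ht : (t : FF N) ∈ regAt N (jF N)) :
    ∃ m : ℕ, ((t * jinvO A N ^ m : OO A N) : FF N) ∈ regAt N (jF N)⁻¹ := by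
  classical
  refine ⟨∑ P ∈ (dv N (t : FF N)).support, (P.ord (t : FF N)).natAbs, ?_⟩
  set m := ∑ P ∈ (dv N (t : FF N)).support, (P.ord (t : FF N)).natAbs with hm
  rw [mem_regAt_iff]
  intro P hP
  have hc : ((t * jinvO A N ^ m : OO A N) : FF N) = (t : FF N) * ((jF N)⁻¹) ^ m := rfl
  rw [hc]
  rcases eq_or_ne (t : FF N) 0 with h0 | h0
  · rw [h0, zero_mul, Place.ord_zero]
  have hj : (jF N)⁻¹ ≠ 0 := inv_ne_zero (jF_ne_zero N)
  rw [P.ord_mul h0 (pow_ne_zero _ hj), ord_pow]
  have hle : -(P.ord (t : FF N)) ≤ (m : ℤ) := by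
    by_cases hs : P ∈ (dv N (t : FF N)).support
    · have h1 := Finset.single_le_sum (f := fun P : Place KK (FF N) => (P.ord (t : FF N)).natAbs)
        (fun _ _ => Nat.zero_le _) hs
      have h2 : ((P.ord (t : FF N)).natAbs : ℤ) ≤ (m : ℤ) := by exact_mod_cast h1
      have h3 : -(P.ord (t : FF N)) ≤ ((P.ord (t : FF N)).natAbs : ℤ) := by omega
      omega
    · rw [Finsupp.mem_support_iff, dv_apply, not_not] at hs
      rw [hs, neg_zero]
      exact Int.natCast_nonneg m
  rcases (le_iff_eq_or_lt.mp hP) with h | h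
  · have h1 : 0 ≤ P.ord (jF N) := by
      rw [Place.ord_inv] at h
      omega
    have h2 := (mem_regAt_iff N _ _).mp ht P h1
    rw [← h, mul_zero, add_zero]
    exact h2
  · have h1 : (m : ℤ) ≤ (m : ℤ) * P.ord (jF N)⁻¹ := by
      have hm0 : (0 : ℤ) ≤ (m : ℤ) := Int.natCast_nonneg m
      nlinarith
    omega

theorem ord_jb_inv (Q : Place (IsLocalRing.ResidueField A) (FkN A N)) :
    Q.ord (jb A N)⁻¹ = - Q.ord (jb A N) := Place.ord_inv _ _

theorem redN_shift (t : OO A N) (m : ℕ) :
    redN A N (t * jinvO A N ^ m) = redN A N t * ((jb A N)⁻¹) ^ m := by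
  rw [map_mul, map_pow, redN_jinvO]

theorem ord_shift (t : OO A N) (m : ℕ) (Q : Place (IsLocalRing.ResidueField A) (FkN A N))
    (hQ : Q.ord (jb A N) = 0) :
    Q.ord (redN A N (t * jinvO A N ^ m)) = Q.ord (redN A N t) := by
  rw [redN_shift]
  rcases eq_or_ne (redN A N t) 0 with h0 | h0
  · rw [h0, zero_mul]
  · rw [Q.ord_mul h0 (pow_ne_zero _ (inv_ne_zero (jb_ne_zero A N))), ord_pow, ord_jb_inv, hQ,
      neg_zero, mul_zero, add_zero]

/-- Uniformizers at the finite places of chart 2, from the normality of chart 1. -/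
theorem unif_finite (hN1 : NormalStmt1 A N)
    (Q : Place (IsLocalRing.ResidueField A) (FkN A N)) (hQ : Q.ord (jb A N) = 0) :
    ∃ t ∈ R2 A N, Q.ord t = 1 := by
  haveI := finiteDimensional_residue (A := A) N
  haveI := Fermat.Agent.S18.FbarSep.isSeparable_residue (A := A) N
  obtain ⟨t, htint, ht1⟩ := exists_integral_unif (jb A N) (transcendental_jk _ N) Q hQ.ge
  have htB : t ∈ B1b A N := htint
  rw [← hN1] at htB
  obtain ⟨t₁, ht₁, rfl⟩ := (mem_redImage A N).mp htB
  obtain ⟨m, hm⟩ := exists_shift t₁ ht₁.2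
  exact ⟨_, redN_mem_R2 _ hm, by rw [ord_shift t₁ m Q hQ, ht1]⟩

/-- Separation of the finite places of chart 2, from the normality of chart 1. -/
theorem sep_finite (hN1 : NormalStmt1 A N)
    (Q Q' : Place (IsLocalRing.ResidueField A) (FkN A N)) (hQ : Q.ord (jb A N) = 0)
    (hQ' : Q'.ord (jb A N) = 0) (hne : Q ≠ Q') :
    ∃ f ∈ R2 A N, 0 < Q.ord f ∧ Q'.ord f = 0 := by
  haveI := finiteDimensional_residue (A := A) N
  haveI := Fermat.Agent.S18.FbarSep.isSeparable_residue (A := A) N
  obtain ⟨f, hfint, hf1, hf2⟩ := exists_integral_sep (jb A N) (transcendental_jk _ N) Q Q'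
    hQ.ge hQ'.ge hne
  have hfB : f ∈ B1b A N := hfint
  rw [← hN1] at hfB
  obtain ⟨f₁, hf₁, rfl⟩ := (mem_redImage A N).mp hfB
  obtain ⟨m, hm⟩ := exists_shift f₁ hf₁.2
  exact ⟨_, redN_mem_R2 _ hm, by rw [ord_shift f₁ m Q hQ]; exact hf1,
    by rw [ord_shift f₁ m Q' hQ', hf2]⟩

end Finite

end Fermat.Agent.S18.CuspNormal
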