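import Mathlib
import Fermat.Agent.S18.CuspNormal
import Fermat.Agent.S18.RedFibre

/-!
# S18, leaf [G]: normality of the reduction of the chart at infinity (conclusion)

The normality of the reduction of chart 1 and the characteristic-zero inputs `CuspA`, `CuspB` at
the cusps imply the normality of the reduction of chart 2:
`normalStmt2 : NormalStmt1 A N → CuspA A N → CuspB A N → NormalStmt2 A N`.
-/

set_option autoImplicit false
set_option linter.style.haveILetI false
set_option linter.unusedSectionVars false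

noncomputable section

namespace Fermat.Agent.S18.CuspFinal

open ModularCurve AlgebraicCurve Fermat.Agent.S24 Fermat.Agent.S24.Eval
  Fermat.Agent.S18.Gauss Fermat.Agent.S18.Lattice Fermat.Agent.S18.Charts
  Fermat.Agent.S18.CuspAbs Fermat.Agent.S18.RegInt Fermat.Agent.S18.CuspNormal

variable {A : ValuationSubring KK} {N : ℕ} [NeZero N]
variable {r : Place KK (FF N) → Place (IsLocalRing.ResidueField A) (FkN A N)}

/-! ### The fibres of the place reduction map over the `j̄`-line -/

section Fib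

variable {ℓ : ℕ} [Fact ℓ.Prime]

/-- The facts on the fibres of `r` over the `j̄`-line. -/
theorem fibData (hA : A.LiesOverPrime ℓ) (hℓN : ¬ ℓ ∣ N) (hr : IsPlaceReductionModL A N r) :
    FibData A N r := by
  have hx := Fermat.Agent.S18.RedFibre.fibreData_j (A := A) (N := N) hA hℓN
  have hzero : ∀ P : Place KK (FF N), 0 < P.ord (jF N) → 0 < (r P).ord (jb A N) := by
    intro P hP
    have h := Fermat.Agent.S18.RedFibre.zeros_map hr hx (0 : A) P (by
      rw [ZeroMemClass.coe_zero, map_zero, sub_zero]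
      exact hP)
    rw [map_zero, map_zero, sub_zero, Fermat.Agent.S18.RedFibre.redN_jO] at h
    exact h
  have hint : ∀ P : Place KK (FF N), JInt A N P → 0 ≤ (r P).ord (jb A N) := by
    rintro P ⟨a, ha, hP⟩
    have h := Fermat.Agent.S18.RedFibre.zeros_map hr hx (⟨a, ha⟩ : A) P hP
    rw [Fermat.Agent.S18.RedFibre.redN_jO] at h
    have h2 : jb A N = (jb A N - algebraMap (IsLocalRing.ResidueField A) (FkN A N)
        (IsLocalRing.residue A ⟨a, ha⟩)) + algebraMap (IsLocalRing.ResidueField A) (FkN A N)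
        (IsLocalRing.residue A ⟨a, ha⟩) := by ring
    rw [h2]
    exact ord_nonneg_of_mem _ (add_mem (mem_of_ord_nonneg' _ _ h.le) (Place.algebraMap_mem' _ _))
  refine ⟨fun P hP => ?_, fun P hP hJ => ?_, fun P _ hJ => hint P hJ, hzero⟩
  · have h := Fermat.Agent.S18.RedFibre.poles_map hr hx P hP
    rwa [Fermat.Agent.S18.RedFibre.redN_jO] at h
  · by_contra hcon
    rw [not_lt] at hcon
    obtain ⟨a, ha⟩ := Fermat.Agent.S18.RedFibre.exists_int hr hx P (by
      rw [Fermat.Agent.S18.RedFibre.redN_jO]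
      exact hcon)
    exact hJ ⟨(a : KK), a.2, ha⟩

end Fib

/-! ### Values of functions at a place -/

section Value

variable {k F : Type*} [Field k] [Field F] [Algebra k F]

/-- A function taking the value `c'` at `Q` does not take the value `c ≠ c'` there. -/
theorem ord_sub_const_eq_zero (Q : Place k F) (g : F) (c c' : k) (hne : c ≠ c')
    (h' : g = algebraMap k F c' ∨ 0 < Q.ord (g - algebraMap k F c')) :
    g - algebraMap k F c ≠ 0 ∧ Q.ord (g - algebraMap k F c) = 0 := by
  have hd0 : algebraMap k F (c' - c) ≠ 0 := by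
    rw [Ne, map_eq_zero, sub_eq_zero]
    exact fun h => hne h.symm
  have hd : Q.ord (algebraMap k F (c' - c)) = 0 := ord_algebraMap Q _
  rcases h' with h' | h'
  · rw [h', ← map_sub]
    exact ⟨hd0, hd⟩
  · have hx : g - algebraMap k F c' ≠ 0 := fun h0 => by
      rw [h0, Place.ord_zero] at h'
      exact lt_irrefl _ h'
    have hs : g - algebraMap k F c = algebraMap k F (c' - c) + (g - algebraMap k F c') := by
      rw [map_sub]
      ring
    have h1 := ord_add_eq_of_lt Q hd0 hx (by rw [hd]; exact h')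
    rw [hs]
    refine ⟨fun h0 => ?_, by rw [h1, hd]⟩
    have h2 : g - algebraMap k F c' = - algebraMap k F (c' - c) := by linear_combination h0
    rw [h2, ord_neg, hd] at h'
    exact lt_irrefl _ h'

/-- The value of a function at a place is unique. -/
theorem value_unique (Q : Place k F) (g : F) (c c' : k)
    (h : g = algebraMap k F c ∨ 0 < Q.ord (g - algebraMap k F c))
    (h' : g = algebraMap k F c' ∨ 0 < Q.ord (g - algebraMap k F c')) : c = c' := by
  by_contra hne
  obtain ⟨h0, h1⟩ := ord_sub_const_eq_zero Q g c c' hne h'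
  rcases h with h | h
  · exact h0 (sub_eq_zero.mpr h)
  · rw [h1] at h
    exact lt_irrefl _ h

end Value

/-! ### The fibres over the poles of `j̄` -/

section CuspFibre

theorem ord_eq_zero_of_fibre (hfib : FibData A N r) {f : FF N}
    (hJ : ∀ P : Place KK (FF N), 0 ≤ P.ord (jF N) → P.ord f ≠ 0 → JInt A N P)
    (Q : Place (IsLocalRing.ResidueField A) (FkN A N)) (hQ : Q.ord (jb A N) < 0)
    (P : Place KK (FF N)) (hP : r P = Q) (hPj : 0 ≤ P.ord (jF N)) : P.ord f = 0 := by
  by_contra h
  have := hfib.int_map P hPj (hJ P hPj h)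
  rw [hP] at this
  omega

theorem regular_on_cusp_fibre (hfib : FibData A N r) {f : FF N}
    (hc : ∀ c : Place KK (FF N), c.ord (jF N) < 0 → 0 ≤ c.ord f)
    (hJ : ∀ P : Place KK (FF N), 0 ≤ P.ord (jF N) → P.ord f ≠ 0 → JInt A N P)
    (Q : Place (IsLocalRing.ResidueField A) (FkN A N)) (hQ : Q.ord (jb A N) < 0)
    (P : Place KK (FF N)) (hP : r P = Q) : 0 ≤ P.ord f := by
  rcases lt_or_ge (P.ord (jF N)) 0 with h | h
  · exact hc P h
  · exact (ord_eq_zero_of_fibre hfib hJ Q hQ P hP h).ge

/-- Every pole of `j̄` is the reduction of a cusp. -/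
theorem exists_cusp (hr : IsPlaceReductionModL A N r)
    (Q : Place (IsLocalRing.ResidueField A) (FkN A N)) (hQ : Q.ord (jb A N) < 0) :
    ∃ c : Place KK (FF N), c.ord (jF N) < 0 ∧ r c = Q := by
  classical
  have h := ord_red_eq_sum hr (jO A N) (by rw [redN_jO]; exact jb_ne_zero A N) Q
  rw [redN_jO] at h
  by_contra hcon
  push Not at hcon
  have h0 : 0 ≤ Q.ord (jb A N) := by
    rw [h]
    refine Finset.sum_nonneg fun P hP => ?_
    rw [Finset.mem_filter] at hP
    by_contra h2
    exact hcon P (not_le.mp h2) (by simpa using hP.2)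
  omega

theorem residue_ne {a a' : KK} (h1 : a ∈ A) (h1' : a' ∈ A) (hne : a ≠ a')
    (hinv : (a - a')⁻¹ ∈ A) :
    IsLocalRing.residue A ⟨a, h1⟩ ≠ IsLocalRing.residue A ⟨a', h1'⟩ := by
  intro heq
  have hsub : IsLocalRing.residue A (⟨a, h1⟩ - ⟨a', h1'⟩) = 0 := by
    rw [map_sub, heq, sub_self]
  have hmem := (IsLocalRing.residue_eq_zero_iff _).mp hsub
  have hunit : IsUnit ((⟨a, h1⟩ - ⟨a', h1'⟩ : A)) := by
    refine IsUnit.of_mul_eq_one ⟨(a - a')⁻¹, hinv⟩ (Subtype.ext ?_)
    show (a - a') * (a - a')⁻¹ = 1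
    exact mul_inv_cancel₀ (sub_ne_zero.mpr hne)
  exact (IsLocalRing.mem_maximalIdeal _).mp hmem hunit

/-- The place reduction map is injective on the cusps. -/
theorem cusp_injective (hr : IsPlaceReductionModL A N r) (hfib : FibData A N r)
    (hCB : CuspB A N) (c c' : Place KK (FF N)) (hc : c.ord (jF N) < 0)
    (hc' : c'.ord (jF N) < 0) (h : r c = r c') : c = c' := by
  by_contra hne
  obtain ⟨f, a, a', ha, ha', hne', hinv, hv, hv', hreg, hJ⟩ := hCB c c' hc hc' hne
  have hQ : (r c).ord (jb A N) < 0 := hfib.poles_map c hc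
  have hregQ : ∀ P, r P = r c → 0 ≤ P.ord (f : FF N) := fun P hP =>
    regular_on_cusp_fibre hfib hreg hJ (r c) hQ P hP
  obtain ⟨h1, hval⟩ := values hr f (r c) hregQ c rfl a hv
  obtain ⟨h1', hval'⟩ := values hr f (r c) hregQ c' h.symm a' hv'
  exact residue_ne h1 h1' hne' hinv (value_unique (r c) (redN A N f) _ _ hval hval')

end CuspFibre

/-! ### The correction factors -/

section Correction

variable (A N) in
/-- The correction factor `1 - a / j`. -/
def fac (a : A) : OO A N := 1 - cst A N a * jinvO A N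

theorem coe_fac (a : A) :
    ((fac A N a : OO A N) : FF N) = 1 - algebraMap KK (FF N) (a : KK) * (jF N)⁻¹ := rfl

theorem fac_mem_regAt (a : A) : ((fac A N a : OO A N) : FF N) ∈ regAt N (jF N)⁻¹ :=
  sub_mem (one_mem _) (mul_mem (algebraMap_mem_regAt N _ _) (self_mem_regAt N _))

theorem ord_fac_pos (a : A) (P : Place KK (FF N)) (hP : P.ord (jF N) = 0)
    (ha : 0 < P.ord (jF N - algebraMap KK (FF N) (a : KK))) :
    0 < P.ord ((fac A N a : OO A N) : FF N) := by
  have hne : jF N - algebraMap KK (FF N) (a : KK) ≠ 0 := fun h0 => by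
    rw [h0, Place.ord_zero] at ha
    exact lt_irrefl _ ha
  have h : ((fac A N a : OO A N) : FF N) =
      (jF N - algebraMap KK (FF N) (a : KK)) * (jF N)⁻¹ := by
    rw [coe_fac, sub_mul, mul_inv_cancel₀ (jF_ne_zero N)]
  rw [h, P.ord_mul hne (inv_ne_zero (jF_ne_zero N)), Place.ord_inv, hP, neg_zero, add_zero]
  exact ha

theorem redN_fac (a : A) :
    redN A N (fac A N a) =
      1 - algebraMap _ (FkN A N) (IsLocalRing.residue A a) * (jb A N)⁻¹ := by
  rw [fac, map_sub, map_one, map_mul, redN_cst, redN_jinvO]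

theorem ord_redN_fac (a : A) (Q : Place (IsLocalRing.ResidueField A) (FkN A N))
    (hQ : Q.ord (jb A N) < 0) :
    redN A N (fac A N a) ≠ 0 ∧ Q.ord (redN A N (fac A N a)) = 0 := by
  rw [redN_fac]
  rcases eq_or_ne (IsLocalRing.residue A a) 0 with h0 | h0
  · rw [h0, map_zero, zero_mul, sub_zero]
    exact ⟨one_ne_zero, Place.ord_one _⟩
  · set z : FkN A N := algebraMap _ (FkN A N) (IsLocalRing.residue A a) * (jb A N)⁻¹ with hz
    have hc0 : algebraMap _ (FkN A N) (IsLocalRing.residue A a) ≠ 0 := by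
      rwa [Ne, map_eq_zero]
    have hz0 : z ≠ 0 := mul_ne_zero hc0 (inv_ne_zero (jb_ne_zero A N))
    have hzpos : 0 < Q.ord z := by
      rw [hz, Q.ord_mul hc0 (inv_ne_zero (jb_ne_zero A N)), ord_algebraMap, Place.ord_inv]
      omega
    have h1 : Q.ord ((1 : FkN A N) + -z) = Q.ord (1 : FkN A N) :=
      ord_add_eq_of_lt Q one_ne_zero (neg_ne_zero.mpr hz0) (by
        rw [Place.ord_one, ord_neg]
        exact hzpos)
    rw [sub_eq_add_neg]
    refine ⟨fun h2 => ?_, by rw [h1, Place.ord_one]⟩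
    have h3 : z = 1 := by linear_combination -h2
    rw [h3, Place.ord_one] at hzpos
    exact lt_irrefl _ hzpos

/-- **The correction lemma.**  A Gauss-integral function that is regular at the cusps and whose
poles at the finite places have integral `j`-invariant becomes a function of chart 2 after
multiplication by a function of chart 2 whose reduction is a unit at the poles of `j̄`. -/
theorem exists_correction (f : OO A N)
    (hc : ∀ c : Place KK (FF N), c.ord (jF N) < 0 → 0 ≤ c.ord (f : FF N))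
    (hJ : ∀ P : Place KK (FF N), 0 ≤ P.ord (jF N) → P.ord (f : FF N) ≠ 0 → JInt A N P) :
    ∃ b : OO A N, (b : FF N) ∈ regAt N (jF N)⁻¹ ∧
      ((f * b : OO A N) : FF N) ∈ regAt N (jF N)⁻¹ ∧
      ∀ Q : Place (IsLocalRing.ResidueField A) (FkN A N), Q.ord (jb A N) < 0 →
        redN A N b ≠ 0 ∧ Q.ord (redN A N b) = 0 := by
  classical
  let a : Place KK (FF N) → A := fun P =>
    if h : JInt A N P then ⟨h.choose, h.choose_spec.1⟩ else 0
  have ha : ∀ P, JInt A N P → 0 < P.ord (jF N - algebraMap KK (FF N) ((a P : A) : KK)) := by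
    intro P h
    simp only [a, dif_pos h]
    exact h.choose_spec.2
  set S := (dv N (f : FF N)).support with hS
  set b : OO A N := ∏ P ∈ S, fac A N (a P) ^ (P.ord (f : FF N)).natAbs with hb
  have hbc : (b : FF N) =
      ∏ P ∈ S, ((fac A N (a P) : OO A N) : FF N) ^ (P.ord (f : FF N)).natAbs := by
    rw [hb]
    simp
  refine ⟨b, ?_, ?_, ?_⟩
  · rw [hbc]
    exact Subring.prod_mem _ fun P _ => pow_mem (fac_mem_regAt _) _
  · rw [mem_regAt]
    intro P hP
    have hj : P.ord (jF N) ≤ 0 := by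
      have := ord_nonneg_of_mem P hP
      rw [Place.ord_inv] at this
      omega
    have hbP : ∀ P' ∈ S, ((fac A N (a P') : OO A N) : FF N) ^ (P'.ord (f : FF N)).natAbs ∈
        P.toValuationSubring := fun P' _ => pow_mem (fac_mem_regAt (a P') P hP) _
    have hmul : ((f * b : OO A N) : FF N) = (f : FF N) * (b : FF N) := rfl
    by_cases hf : 0 ≤ P.ord (f : FF N)
    · rw [hmul]
      refine mul_mem (mem_of_ord_nonneg' P _ hf) ?_
      rw [hbc]
      exact prod_mem hbP
    · rw [not_le] at hf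
      have hPj : P.ord (jF N) = 0 := by
        by_contra h
        have := hc P (lt_of_le_of_ne hj h)
        omega
      have hJP : JInt A N P := hJ P hPj.ge hf.ne
      have hPS : P ∈ S := by
        rw [hS, Finsupp.mem_support_iff, dv_apply]
        exact hf.ne
      have hfac := ord_fac_pos (a P) P hPj (ha P hJP)
      have hfac0 : ((fac A N (a P) : OO A N) : FF N) ≠ 0 := fun h0 => by
        rw [h0, Place.ord_zero] at hfac
        exact lt_irrefl _ hfac
      have hf0 : (f : FF N) ≠ 0 := fun h0 => by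
        rw [h0, Place.ord_zero] at hf
        exact lt_irrefl _ hf
      have hsplit : (b : FF N) =
          ((fac A N (a P) : OO A N) : FF N) ^ (P.ord (f : FF N)).natAbs *
            ∏ P' ∈ S.erase P,
              ((fac A N (a P') : OO A N) : FF N) ^ (P'.ord (f : FF N)).natAbs := by
        rw [hbc]
        exact (Finset.mul_prod_erase S (fun P' : Place KK (FF N) =>
          ((fac A N (a P') : OO A N) : FF N) ^ (P'.ord (f : FF N)).natAbs) hPS).symm
      have hre : ((f * b : OO A N) : FF N) =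
          ((f : FF N) * ((fac A N (a P) : OO A N) : FF N) ^ (P.ord (f : FF N)).natAbs) *
            ∏ P' ∈ S.erase P,
              ((fac A N (a P') : OO A N) : FF N) ^ (P'.ord (f : FF N)).natAbs := by
        rw [hmul, hsplit, mul_assoc]
      rw [hre]
      refine mul_mem (mem_of_ord_nonneg' P _ ?_)
        (prod_mem fun P' hP' => hbP P' (Finset.mem_of_mem_erase hP'))
      rw [P.ord_mul hf0 (pow_ne_zero _ hfac0), ord_pow]
      have h1 : (((P.ord (f : FF N)).natAbs : ℕ) : ℤ) = - P.ord (f : FF N) := by omega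
      rw [h1]
      nlinarith
  · intro Q hQ
    rw [hb, map_prod]
    refine Finset.prod_induction _ (fun x => x ≠ 0 ∧ Q.ord x = 0) ?_ ?_ ?_
    · rintro x y ⟨hx0, hx⟩ ⟨hy0, hy⟩
      exact ⟨mul_ne_zero hx0 hy0, by rw [Q.ord_mul hx0 hy0, hx, hy, add_zero]⟩
    · exact ⟨one_ne_zero, Place.ord_one _⟩
    · intro P _
      rw [map_pow]
      have := ord_redN_fac (a P) Q hQ
      exact ⟨pow_ne_zero _ this.1, by rw [ord_pow, this.2, mul_zero]⟩

end Correction

/-! ### Uniformizers and separating functions at the poles of `j̄` -/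

section Cusps

open Fermat.Agent.S18.DegEq

/-- Uniformizers at the poles of `j̄`. -/
theorem unif_cusp (hr : IsPlaceReductionModL A N r) (hfib : FibData A N r)
    (hCA : CuspA A N) (hCB : CuspB A N)
    (Q : Place (IsLocalRing.ResidueField A) (FkN A N)) (hQ : Q.ord (jb A N) < 0) :
    ∃ t ∈ R2 A N, Q.ord t = 1 := by
  obtain ⟨c, hc, rfl⟩ := exists_cusp hr Q hQ
  obtain ⟨t, ht0, ht1, htc, htJ⟩ := hCA c hc
  obtain ⟨b, -, htb, hbQ⟩ := exists_correction t htc htJ
  refine ⟨redN A N (t * b), redN_mem_R2 _ htb, ?_⟩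
  have h1 : (r c).ord (redN A N t) = c.ord (t : FF N) := by
    refine ord_red_eq_of_unique hr t ht0 (r c) c rfl fun P hP hne => ?_
    rcases lt_or_ge (P.ord (jF N)) 0 with h | h
    · exact absurd (cusp_injective hr hfib hCB P c h hc hP) hne
    · exact ord_eq_zero_of_fibre hfib htJ (r c) hQ P hP h
  rw [map_mul, (r c).ord_mul ht0 (hbQ _ hQ).1, h1, ht1, (hbQ _ hQ).2, add_zero]

/-- Separation of two poles of `j̄`. -/
theorem sep_cusp (hr : IsPlaceReductionModL A N r) (hfib : FibData A N r)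
    (hCB : CuspB A N)
    (Q Q' : Place (IsLocalRing.ResidueField A) (FkN A N)) (hQ : Q.ord (jb A N) < 0)
    (hQ' : Q'.ord (jb A N) < 0) (hne : Q ≠ Q') :
    ∃ f ∈ R2 A N, 0 < Q.ord f ∧ Q'.ord f = 0 := by
  obtain ⟨c, hc, rfl⟩ := exists_cusp hr Q hQ
  obtain ⟨c', hc', rfl⟩ := exists_cusp hr Q' hQ'
  have hcc : c ≠ c' := fun h => hne (by rw [h])
  obtain ⟨f, a, a', ha, ha', hne', hinv, hv, hv', hreg, hJ⟩ := hCB c c' hc hc' hcc
  obtain ⟨b, hb, hfb, hbQ⟩ := exists_correction f hreg hJ
  obtain ⟨h1, hval⟩ := values hr f (r c)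
    (fun P hP => regular_on_cusp_fibre hfib hreg hJ (r c) hQ P hP) c rfl a hv
  obtain ⟨h1', hval'⟩ := values hr f (r c')
    (fun P hP => regular_on_cusp_fibre hfib hreg hJ (r c') hQ' P hP) c' rfl a' hv'
  have hres := residue_ne h1 h1' hne' hinv
  obtain ⟨hg0, hg'⟩ := ord_sub_const_eq_zero (r c') (redN A N f) _ _ hres hval'
  have hg : 0 < (r c).ord (redN A N f - algebraMap (IsLocalRing.ResidueField A) (FkN A N)
      (IsLocalRing.residue A ⟨a, h1⟩)) := by
    rcases hval with h | h
    · exact absurd (sub_eq_zero.mpr h) hg0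
    · exact h
  have hF : redN A N (f * b) - algebraMap (IsLocalRing.ResidueField A) (FkN A N)
      (IsLocalRing.residue A ⟨a, h1⟩) * redN A N b =
      (redN A N f - algebraMap (IsLocalRing.ResidueField A) (FkN A N)
        (IsLocalRing.residue A ⟨a, h1⟩)) * redN A N b := by
    rw [map_mul]
    ring
  refine ⟨redN A N (f * b) - algebraMap (IsLocalRing.ResidueField A) (FkN A N)
      (IsLocalRing.residue A ⟨a, h1⟩) * redN A N b,
    sub_mem (redN_mem_R2 _ hfb) (mul_mem (algebraMap_mem_R2 _) (redN_mem_R2 _ hb)), ?_, ?_⟩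
  · rw [hF, (r c).ord_mul hg0 (hbQ _ hQ).1, (hbQ _ hQ).2, add_zero]
    exact hg
  · rw [hF, (r c').ord_mul hg0 (hbQ _ hQ').1, (hbQ _ hQ').2, add_zero]
    exact hg'

/-- Separation of a pole of `j̄` from a finite place of chart 2. -/
theorem sep_cusp_finite
    (Q Q' : Place (IsLocalRing.ResidueField A) (FkN A N)) (hQ : Q.ord (jb A N) < 0)
    (hQ' : Q'.ord (jb A N) = 0) :
    ∃ f ∈ R2 A N, 0 < Q.ord f ∧ Q'.ord f = 0 :=
  ⟨(jb A N)⁻¹, jb_inv_mem_R2, by rw [Place.ord_inv]; omega, by rw [Place.ord_inv, hQ', neg_zero]⟩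

/-- Separation of a finite place of chart 2 from a pole of `j̄`. -/
theorem sep_finite_cusp
    (Q Q' : Place (IsLocalRing.ResidueField A) (FkN A N)) (hQ : Q.ord (jb A N) = 0)
    (hQ' : Q'.ord (jb A N) < 0) :
    ∃ f ∈ R2 A N, 0 < Q.ord f ∧ Q'.ord f = 0 := by
  obtain ⟨c, hc⟩ := Fermat.Agent.S18.FbarSep.exists_sub_algebraMap_ord_pos N Q
    (f := (jb A N)⁻¹) (by rw [Place.ord_inv, hQ, neg_zero])
  have hy : Transcendental (IsLocalRing.ResidueField A) (jb A N)⁻¹ :=
    FFFiber.transcendental_inv _ (transcendental_jk _ N)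
  have hne : (jb A N)⁻¹ ≠ algebraMap _ _ c := fun h => hy (h ▸ isAlgebraic_algebraMap c)
  have hpos : 0 < Q.ord ((jb A N)⁻¹ - algebraMap _ _ c) := hc.resolve_left hne
  have hc0 : c ≠ 0 := by
    rintro rfl
    rw [map_zero, sub_zero, Place.ord_inv, hQ] at hpos
    exact lt_irrefl _ hpos
  have hc0' : -algebraMap (IsLocalRing.ResidueField A) (FkN A N) c ≠ 0 := by
    rw [neg_ne_zero, Ne, map_eq_zero]
    exact hc0
  refine ⟨_, sub_mem jb_inv_mem_R2 (algebraMap_mem_R2 c), hpos, ?_⟩
  have h1 := ord_add_eq_of_lt Q' hc0' (inv_ne_zero (jb_ne_zero A N)) (by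
    rw [ord_neg, ord_algebraMap, Place.ord_inv]
    omega)
  rw [sub_eq_add_neg, add_comm, h1, ord_neg, ord_algebraMap]

end Cusps

/-! ### The normality of the reduction of chart 2 -/

section Main

open Fermat.Agent.S18.DegEq

/-- **Normality of the reduction of the chart at infinity.** -/
theorem normalStmt2_of_fibData (hr : IsPlaceReductionModL A N r) (hfib : FibData A N r)
    (hN1 : NormalStmt1 A N) (hCA : CuspA A N) (hCB : CuspB A N) : NormalStmt2 A N := by
  refine le_antisymm (R2_le_B2b hr hfib) fun x hx => ?_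
  haveI := finiteDimensional_residue (A := A) N
  haveI := Fermat.Agent.S18.FbarSep.isSeparable_residue (A := A) N
  haveI := FFSep.finiteDimensional_inv (k := IsLocalRing.ResidueField A) (jb A N)
  haveI := FFSep.isSeparable_inv (k := IsLocalRing.ResidueField A) (jb A N)
  have hy : Transcendental (IsLocalRing.ResidueField A) (jb A N)⁻¹ :=
    FFFiber.transcendental_inv _ (transcendental_jk _ N)
  have hint : ∀ t ∈ R2 A N,
      IsIntegral (Algebra.adjoin (IsLocalRing.ResidueField A) {(jb A N)⁻¹}) t :=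
    fun t ht => mem_B2k.mp (R2_le_B2b hr hfib ht)
  refine Fermat.Agent.S18.PlaceCrit.mem_of_unif_sep (jb A N)⁻¹ hy (R2alg A N) jb_inv_mem_R2
    ?_ ?_ x (mem_B2k.mp hx)
  · intro Q hQ
    rw [Place.ord_inv] at hQ
    rcases lt_or_eq_of_le (show Q.ord (jb A N) ≤ 0 by omega) with h | h
    · obtain ⟨t, ht, ht1⟩ := unif_cusp hr hfib hCA hCB Q h
      exact ⟨t, ht, hint t ht, ht1⟩
    · obtain ⟨t, ht, ht1⟩ := unif_finite hN1 Q h
      exact ⟨t, ht, hint t ht, ht1⟩
  · intro Q Q' hQ hQ' hne
    rw [Place.ord_inv] at hQ hQ'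
    have key : ∃ f ∈ R2 A N, 0 < Q.ord f ∧ Q'.ord f = 0 := by
      rcases lt_or_eq_of_le (show Q.ord (jb A N) ≤ 0 by omega) with h | h
      · rcases lt_or_eq_of_le (show Q'.ord (jb A N) ≤ 0 by omega) with h' | h'
        · exact sep_cusp hr hfib hCB Q Q' h h' hne
        · exact sep_cusp_finite Q Q' h h'
      · rcases lt_or_eq_of_le (show Q'.ord (jb A N) ≤ 0 by omega) with h' | h'
        · exact sep_finite_cusp Q Q' h h'
        · exact sep_finite hN1 Q Q' h h' hne
    obtain ⟨f, hf, hf1, hf2⟩ := key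
    exact ⟨f, hf, hint f hf, hf1, hf2⟩

variable {ℓ : ℕ} [Fact ℓ.Prime]

/-- **Normality of the reduction of the chart at infinity**, from the normality of the reduction
of chart 1 and the characteristic-zero input at the cusps. -/
theorem normalStmt2 (hA : A.LiesOverPrime ℓ) (hℓN : ¬ ℓ ∣ N)
    (hr : IsPlaceReductionModL A N r) (hN1 : NormalStmt1 A N) (hCA : CuspA A N)
    (hCB : CuspB A N) : NormalStmt2 A N :=
  normalStmt2_of_fibData hr (fibData hA hℓN hr) hN1 hCA hCB

/-- `(N)_N` from the normality of the reduction of chart 1 and the input at the cusps. -/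
theorem normalStmt (hA : A.LiesOverPrime ℓ) (hℓN : ¬ ℓ ∣ N)
    (hr : IsPlaceReductionModL A N r) (hN1 : NormalStmt1 A N) (hCA : CuspA A N)
    (hCB : CuspB A N) : NormalStmt A N :=
  ⟨hN1, normalStmt2 hA hℓN hr hN1 hCA hCB⟩

end Main

end Fermat.Agent.S18.CuspFinal
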