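import Mathlib
import Fermat.Agent.S18.ResField

/-!
# S18 moonshot, cusp package: roots of unity in a valuation ring of `KK`

Let `A` be a valuation ring of `KK = ℚ̄`.

* `root_mem` : every root of unity lies in `A`, with its inverse;
* `natCast_inv_mem` : if `A` lies over `ℓ` and `ℓ ∤ N` then `N⁻¹ ∈ A`;
* `root_sub_inv_mem`, `inv_sub_mem` : if `A` lies over `ℓ` and `ℓ ∤ N`, the difference of two
  distinct `N`-th roots of unity is a unit of `A`.
-/

set_option autoImplicit false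
set_option linter.style.haveILetI false

namespace Fermat.Agent.S18.CuspRootUnit

open Polynomial
open Fermat.Agent.S24.Eval Fermat.Agent.S18.ResField

variable (A : ValuationSubring KK)

/-- Roots of unity are algebraic integers. -/
theorem isIntegral_of_pow_eq_one {N : ℕ} [NeZero N] {a : KK} (ha : a ^ N = 1) :
    IsIntegral ℤ a := by
  refine ⟨X ^ N - C 1, monic_X_pow_sub_C 1 (NeZero.ne N), ?_⟩
  rw [eval₂_sub, eval₂_pow, eval₂_X, eval₂_C, ha, map_one, sub_self]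

/-- Every root of unity lies in `A`, with its inverse. -/
theorem root_mem {N : ℕ} [NeZero N] (a : KK) (ha : a ^ N = 1) : a ∈ A ∧ a⁻¹ ∈ A := by
  refine ⟨mem_of_isIntegral_int A (isIntegral_of_pow_eq_one ha),
    mem_of_isIntegral_int A (isIntegral_of_pow_eq_one (N := N) ?_)⟩
  rw [inv_pow, ha, inv_one]

variable {A} {ℓ : ℕ} [Fact ℓ.Prime]

/-- A natural number prime to the residue characteristic is a unit of `A`. -/
theorem natCast_inv_mem (hA : A.LiesOverPrime ℓ) {N : ℕ} (hℓN : ¬ ℓ ∣ N) :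
    ((N : ℕ) : KK)⁻¹ ∈ A := by
  haveI := charP_residueField hA
  have h1 : IsLocalRing.residue A ((N : ℕ) : A) ≠ 0 := by
    rw [map_natCast]
    exact fun h => hℓN ((CharP.cast_eq_zero_iff (IsLocalRing.ResidueField A) ℓ N).mp h)
  have h2 : IsUnit (((N : ℕ) : A)) := (IsLocalRing.residue_ne_zero_iff_isUnit _).mp h1
  obtain ⟨v, hv⟩ := h2
  have h3 : ((v : A) : KK) = (N : KK) := by rw [hv]; simp
  have h4 : ((v : A) : KK) * (((v⁻¹ : Aˣ) : A) : KK) = 1 := by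
    have h := v.mul_inv
    have h' : (((v : A) * ((v⁻¹ : Aˣ) : A) : A) : KK) = ((1 : A) : KK) := by rw [h]
    exact h'
  have h5 : ((N : ℕ) : KK)⁻¹ = (((v⁻¹ : Aˣ) : A) : KK) := by
    rw [h3] at h4
    exact inv_eq_of_mul_eq_one_right h4
  rw [h5]
  exact ((v⁻¹ : Aˣ) : A).2

/-- `1 - ζ` is a unit of `A` for every `N`-th root of unity `ζ ≠ 1`, `ℓ ∤ N`. -/
theorem one_sub_inv_mem (hA : A.LiesOverPrime ℓ) {N : ℕ} [NeZero N] (hℓN : ¬ ℓ ∣ N) {ζ : KK}
    (hζ : ζ ^ N = 1) (hne : ζ ≠ 1) : (1 - ζ)⁻¹ ∈ A := by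
  have hζA : ζ ∈ A := (root_mem A ζ hζ).1
  have hne' : (1 - ζ) ≠ 0 := sub_ne_zero.mpr hne.symm
  have hgeom : ∑ i ∈ Finset.range N, ζ ^ i = 0 := by
    have h := mul_neg_geom_sum ζ N
    rw [hζ, sub_self] at h
    exact (mul_eq_zero.mp h).resolve_left hne'
  have hu : (∑ i ∈ Finset.range N, ∑ j ∈ Finset.range i, ζ ^ j) ∈ A :=
    sum_mem fun i _ => sum_mem fun j _ => pow_mem hζA j
  have hN : (N : KK) = (1 - ζ) * ∑ i ∈ Finset.range N, ∑ j ∈ Finset.range i, ζ ^ j := by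
    rw [Finset.mul_sum]
    simp_rw [mul_neg_geom_sum]
    rw [Finset.sum_sub_distrib, hgeom]
    simp
  have hN0 : (N : KK) ≠ 0 := Nat.cast_ne_zero.mpr (NeZero.ne N)
  have e : (1 - ζ)⁻¹ =
      (∑ i ∈ Finset.range N, ∑ j ∈ Finset.range i, ζ ^ j) * ((N : ℕ) : KK)⁻¹ := by
    rw [eq_mul_inv_iff_mul_eq₀ hN0, hN, ← mul_assoc, inv_mul_cancel₀ hne', one_mul]
  rw [e]
  exact mul_mem hu (natCast_inv_mem hA hℓN)

/-- **The difference of two distinct `N`-th roots of unity is a unit of `A`** (`ℓ ∤ N`). -/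
theorem root_sub_inv_mem (hA : A.LiesOverPrime ℓ) {N : ℕ} [NeZero N] (hℓN : ¬ ℓ ∣ N)
    (a a' : KK) (ha : a ^ N = 1) (ha' : a' ^ N = 1) (hne : a ≠ a') : (a - a')⁻¹ ∈ A := by
  have ha0 : a ≠ 0 := by
    rintro rfl
    rw [zero_pow (NeZero.ne N)] at ha
    exact zero_ne_one ha
  have hζ : (a' * a⁻¹) ^ N = 1 := by rw [mul_pow, inv_pow, ha, ha', inv_one, mul_one]
  have hζne : a' * a⁻¹ ≠ 1 := by
    intro h
    apply hne
    have := congrArg (· * a) h
    simp only [inv_mul_cancel_right₀ ha0, one_mul] at this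
    exact this.symm
  have e : (a - a')⁻¹ = a⁻¹ * (1 - a' * a⁻¹)⁻¹ := by
    rw [← mul_inv]
    congr 1
    rw [mul_sub, mul_one, mul_comm a' a⁻¹, ← mul_assoc, mul_inv_cancel₀ ha0, one_mul]
  rw [e]
  exact mul_mem (root_mem A a ha).2 (one_sub_inv_mem hA hℓN hζ hζne)

/-- the same, packaged with the memberships -/
theorem inv_sub_mem (N : ℕ) [NeZero N] (hA : A.LiesOverPrime ℓ) (hℓN : ¬ ℓ ∣ N) {a a' : KK}
    (ha : a ^ N = 1) (ha' : a' ^ N = 1) (hne : a ≠ a') :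
    a ∈ A ∧ a' ∈ A ∧ (a - a')⁻¹ ∈ A :=
  ⟨(root_mem A a ha).1, (root_mem A a' ha').1, root_sub_inv_mem hA hℓN a a' ha ha' hne⟩

end Fermat.Agent.S18.CuspRootUnit
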