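import Mathlib
import Fermat.Agent.S18.Cusp0Exp

/-!
# S18 moonshot, cusp package (B3): embeddings with proportional leading coefficients

If two cosets `q, q'` have the same widths `mOf N q d = mOf N q' d` for all `d ∣ N`, and the
leading coefficients of the expansions of the generators differ by the powers `ρ ^ m_d` of one
number `ρ`, then `sigma N q' = rescale ρ ∘ sigma N q`.
-/

set_option autoImplicit false

namespace Fermat.Agent.S18.CuspTwist

open Fermat.Agent.S20 Fermat.Agent.S24 Fermat.Agent.S24.Eval Fermat.Agent.S24.Jq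
open Fermat.Agent.S24.SigmaCusp Fermat.Agent.S18.Cusp0Exp
open ModularCurve
open scoped MatrixGroups

/-- The leading coefficient of a twist of `jqModC ℂ`. -/
theorem coeff_tw_jqModC (m : ℕ) [NeZero m] (ζ : ℂ) (hζ : ζ ≠ 0) :
    (tw m ζ hζ (jqModC ℂ)).coeff (-(m : ℤ)) = ζ⁻¹ := by
  have e1 : -(m : ℤ) = (m : ℤ) * (-1) := by ring
  rw [e1, coeff_tw_mul, coeff_jqModC_neg_one, mul_one, zpow_neg, zpow_one]

/-- Rescaling a twist. -/
theorem rescale_tw (m : ℕ) [NeZero m] (ζ ρ : ℂ) (hζ : ζ ≠ 0) (hρ : ρ ≠ 0)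
    (F : LaurentSeries ℂ) :
    LaurentRescale.rescale ρ hρ (tw m ζ hζ F) =
      tw m (ρ ^ m * ζ) (mul_ne_zero (pow_ne_zero _ hρ) hζ) F := by
  ext n
  rw [LaurentRescale.rescale_coeff]
  by_cases hk : (m : ℤ) ∣ n
  · obtain ⟨k, rfl⟩ := hk
    rw [coeff_tw_mul, coeff_tw_mul, mul_zpow, ← mul_assoc, zpow_mul, zpow_natCast]
  · rw [coeff_tw_of_not_dvd _ _ _ _ hk, coeff_tw_of_not_dvd _ _ _ _ hk, mul_zero]

/-- The twist depends only on `m` and `ζ`. -/
theorem tw_congr {m m' : ℕ} [NeZero m] [NeZero m'] (hm : m = m') {ζ ζ' : ℂ} (hζ : ζ ≠ 0)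
    (hζ' : ζ' ≠ 0) (h : ζ = ζ') (F : LaurentSeries ℂ) : tw m ζ hζ F = tw m' ζ' hζ' F := by
  subst hm
  subst h
  rfl

variable (N : ℕ) [NeZero N]

/-- **(B3)** If `q, q'` have the same widths and the leading coefficients of the generators at
`q'` are those at `q` divided by `ρ ^ m_d`, then `sigma N q' = rescale ρ ∘ sigma N q`. -/
theorem sigma_eq_of_twist (q q' : Q N)
    (hm : ∀ d : Dv N, mOf N q (d : ℕ) = mOf N q' (d : ℕ)) (ρ : ℂ) (hρ : ρ ≠ 0)
    (h : ∀ d : Dv N, ρ ^ (mOf N q (d : ℕ) : ℤ) *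
        (sigma N q' (gF N d)).coeff (-(mOf N q' (d : ℕ) : ℤ)) =
      (sigma N q (gF N d)).coeff (-(mOf N q (d : ℕ) : ℤ))) :
    sigma N q' = (LaurentRescale.rescale ρ hρ).comp (sigma N q) := by
  apply Jq.ringHom_ext N
  · intro c
    rw [RingHom.comp_apply, sigma_const, sigma_const, LaurentRescale.rescale_C]
  · intro d
    obtain ⟨m, hmI, ζ, hζ, hm1, -, hσ⟩ := exists_sigma_gF N q d
    obtain ⟨m', hmI', ζ', hζ', hm1', -, hσ'⟩ := exists_sigma_gF N q' d
    have hmm : m' = m := by rw [hm1, hm1', hm d]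
    have h1 := h d
    rw [hσ, hσ', ← hm1, ← hm1', coeff_tw_jqModC, coeff_tw_jqModC, zpow_natCast] at h1
    have hζζ : ζ' = ρ ^ m * ζ := by
      have h2 : ζ'⁻¹ = (ρ ^ m)⁻¹ * ζ⁻¹ := by
        rw [← h1, ← mul_assoc, inv_mul_cancel₀ (pow_ne_zero _ hρ), one_mul]
      rw [← inv_inj, h2, mul_inv]
    rw [RingHom.comp_apply, hσ, hσ', rescale_tw]
    exact tw_congr hmm hζ' _ hζζ _

end Fermat.Agent.S18.CuspTwist
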