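import Mathlib
import Fermat.Agent.S24.SigmaCusp
import Fermat.Agent.S24.Embed
import Fermat.Agent.S24.LaurentRescale
import Fermat.Agent.S18.ResField

/-!
# S18 moonshot, cusp package: from `q_N`-expansions to places

Let the place `c` of `FF N` be induced by the embedding `σ = sigma N q : FF N → ℂ((q_N))`.

* `ord_pos_of_order_pos`, `ord_nonneg_of_order_nonneg`, `ord_eq_zero_of_order_eq_zero`:
  the sign of `c.ord f` is the sign of the order of `σ f`;
* `value_of_leadingCoeff` : if `σ f` has order `0` and constant term `iota a`, then `f` takes the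
  value `a` at `c`;
* `exists_root_of_unity` : the roots of unity of `ℂ` come from `KK`;
* `place_eq_of_twist` : two places induced by embeddings which differ by a rescaling
  `q_N ↦ ρ q_N` coincide.
-/

set_option autoImplicit false

namespace Fermat.Agent.S18.CuspVal

open AlgebraicCurve
open Fermat.Agent.S20 Fermat.Agent.S24 Fermat.Agent.S24.Eval Fermat.Agent.S24.Embed
open Fermat.Agent.S24.SigmaCusp

section Abstract

variable {K F : Type*} [Field K] [Field F] [Algebra K F] {σ : F →+* LaurentSeries ℂ}
  {c : Place K F} {g : ℕ}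

theorem ord_pos_of_order_pos (hc : IsInducedBy c σ g) (f : F) (h : 0 < (σ f).order) :
    0 < c.ord f := by
  have hf : f ≠ 0 := by
    rintro rfl
    rw [map_zero, HahnSeries.order_zero] at h
    exact lt_irrefl _ h
  have hg : (0 : ℤ) < g := by exact_mod_cast hc.pos
  rw [hc.order_eq f hf] at h
  by_contra hn
  have : (g : ℤ) * c.ord f ≤ 0 := mul_nonpos_of_nonneg_of_nonpos hg.le (not_lt.mp hn)
  omega

theorem ord_nonneg_of_order_nonneg (hc : IsInducedBy c σ g) (f : F) (h : 0 ≤ (σ f).order) :
    0 ≤ c.ord f := by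
  rcases eq_or_ne f 0 with rfl | hf
  · simp
  have hg : (0 : ℤ) < g := by exact_mod_cast hc.pos
  rw [hc.order_eq f hf] at h
  by_contra hn
  have : (g : ℤ) * c.ord f < 0 := mul_neg_of_pos_of_neg hg (not_le.mp hn)
  omega

theorem ord_eq_zero_of_order_eq_zero (hc : IsInducedBy c σ g) (f : F)
    (h : (σ f).order = 0) : c.ord f = 0 := by
  rcases eq_or_ne f 0 with rfl | hf
  · simp
  have hg : (0 : ℤ) < g := by exact_mod_cast hc.pos
  rw [hc.order_eq f hf] at h
  rcases mul_eq_zero.mp h with h1 | h1
  · omega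
  · exact h1

/-- If the expansion of `f` has order `0` (or `f = 0`) and constant term `σ (algebraMap a)`, then
`f` takes the value `a` at `c`. -/
theorem value_of_coeff_zero (hc : IsInducedBy c σ g) (f : F) (a : K) (z : ℂ)
    (hconst : σ (algebraMap K F a) = HahnSeries.C z) (h0 : 0 ≤ (σ f).order)
    (ha : (σ f).coeff 0 = z) :
    f = algebraMap K F a ∨ 0 < c.ord (f - algebraMap K F a) := by
  by_cases hfa : f = algebraMap K F a
  · exact Or.inl hfa
  refine Or.inr (ord_pos_of_order_pos hc _ ?_)
  have hne : σ (f - algebraMap K F a) ≠ 0 := by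
    intro h
    exact hfa (sub_eq_zero.mp ((map_eq_zero σ).mp h))
  have hcoeff : ∀ n : ℤ, n ≤ 0 → (σ (f - algebraMap K F a)).coeff n = 0 := by
    intro n hn
    rw [map_sub, hconst, HahnSeries.coeff_sub]
    rcases lt_or_eq_of_le hn with hlt | rfl
    · rw [HahnSeries.coeff_eq_zero_of_lt_order (lt_of_lt_of_le hlt h0), HahnSeries.C_apply,
        HahnSeries.coeff_single_of_ne hlt.ne, sub_zero]
    · rw [ha, HahnSeries.C_apply, HahnSeries.coeff_single_same, sub_self]
  by_contra hle
  exact (fun h => hne (HahnSeries.coeff_order_eq_zero.mp h)) (hcoeff _ (not_lt.mp hle))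

/-- Two places induced by embeddings with the same orders coincide. -/
theorem place_eq_of_order_eq {σ' : F →+* LaurentSeries ℂ} {c' : Place K F} {g' : ℕ}
    (hc : IsInducedBy c σ g) (hc' : IsInducedBy c' σ' g')
    (h : ∀ f : F, (σ' f).order = (σ f).order) : c = c' := by
  refine Place.ext (SetLike.ext fun f => ?_)
  rw [hc.mem_iff, hc'.mem_iff, h]

end Abstract

section Concrete

variable (N : ℕ) [NeZero N]

/-- If the expansion of `f` at the coset `q` has order `0` and leading coefficient `iota a`,
then `f` takes the value `a` at the cusp. -/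
theorem value_of_leadingCoeff {c : Place KK (FF N)} {q : Q N} {g : ℕ}
    (hc : IsInducedBy c (sigma N q) g) (f : FF N) (a : KK) (h0 : (sigma N q f).order = 0)
    (ha : iota a = (sigma N q f).leadingCoeff) :
    f = algebraMap KK (FF N) a ∨ 0 < c.ord (f - algebraMap KK (FF N) a) := by
  refine value_of_coeff_zero hc f a (iota a) (sigma_const N q a) h0.ge ?_
  rw [ha, HahnSeries.leadingCoeff_eq, h0]

/-- The roots of unity of `ℂ` come from `KK`. -/
theorem exists_root_of_unity (z : ℂ) (hz : z ^ N = 1) : ∃ a : KK, a ^ N = 1 ∧ iota a = z := by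
  have hint : IsIntegral ℤ z := by
    refine ⟨Polynomial.X ^ N - Polynomial.C 1,
      Polynomial.monic_X_pow_sub_C 1 (NeZero.ne N), ?_⟩
    rw [Polynomial.eval₂_sub, Polynomial.eval₂_pow, Polynomial.eval₂_X, Polynomial.eval₂_C, hz,
      map_one, sub_self]
  have h1 : iota (Fermat.Agent.S18.ResField.toKK ⟨z, hint⟩) = z :=
    Fermat.Agent.S18.ResField.iota_toKK ⟨z, hint⟩
  refine ⟨Fermat.Agent.S18.ResField.toKK ⟨z, hint⟩, iota_injective ?_, h1⟩
  rw [map_pow, h1, hz, map_one]

/-- Two cusps whose embeddings differ by a rescaling `q_N ↦ ρ q_N` coincide. -/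
theorem place_eq_of_twist {c c' : Place KK (FF N)} {q q' : Q N} {g g' : ℕ}
    (hc : IsInducedBy c (sigma N q) g) (hc' : IsInducedBy c' (sigma N q') g') (ρ : ℂ)
    (hρ : ρ ≠ 0)
    (h : sigma N q' = (Fermat.Agent.S24.LaurentRescale.rescale ρ hρ).comp (sigma N q)) :
    c = c' := by
  refine place_eq_of_order_eq hc hc' fun f => ?_
  rw [h, RingHom.comp_apply, Fermat.Agent.S24.LaurentRescale.order_rescale]

end Concrete

end Fermat.Agent.S18.CuspVal
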