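import Mathlib
import Fermat.Agent.S18.Cusp0Ord
import Fermat.Agent.S18.Cusp0H
import Fermat.Agent.S18.CuspVal
import Fermat.Agent.S18.CuspTwist
import Fermat.Agent.S18.CuspCharExt
import Fermat.Agent.S18.CuspRootUnit

/-!
# S18 moonshot, cusp package: the input `CuspB` at the cusps

Two distinct cusps of `X₀(N)` are separated, modulo the maximal ideal of `A`, by the values of a
monomial in the functions `1 / j(dτ)`, `d ∣ N`:

* if the two cusps have different vectors `mOf`, a monomial vanishing at one of them and taking a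
  root of unity as value at the other;
* if they have the same vector `mOf`, a monomial of weight zero whose values at the two cusps are
  two distinct `N`-th roots of unity (otherwise the expansions at the two cusps would differ by a
  rescaling of the parameter, and the cusps would coincide).
-/

set_option autoImplicit false
set_option linter.style.haveILetI false
set_option linter.unusedSectionVars false

noncomputable section

namespace Fermat.Agent.S18.CuspSep

open ModularCurve AlgebraicCurve Fermat.Agent.S24 Fermat.Agent.S24.Eval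
  Fermat.Agent.S24.Jq Fermat.Agent.S24.SigmaCusp Fermat.Agent.S24.Embed
  Fermat.Agent.S18.Gauss Fermat.Agent.S18.Lattice Fermat.Agent.S18.Charts
  Fermat.Agent.S18.CuspAbs Fermat.Agent.S18.Cusp0Exp Fermat.Agent.S18.Cusp0Def
  Fermat.Agent.S18.Cusp0Ord
open Fermat.Agent.S20 Fermat.Agent.S24.Distinct

variable (N : ℕ) [NeZero N]

/-! ### Leading coefficients -/

theorem coe_lcH_uU_inv (q : Q N) (d : Dv N) :
    ((lcH N q (uU N d)⁻¹ : ℂˣ) : ℂ) = (sigma N q (gF N d)).coeff (-(mOf N q (d : ℕ) : ℤ)) := by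
  rw [coe_lcH, uU, inv_inv, Units.val_mk0, order_sigma_gF]

theorem coe_lcH_monoU_eq (q : Q N) (n : Dv N →₀ ℤ) :
    ((lcH N q (monoU N n) : ℂˣ) : ℂ) = (sigma N q (mono N n)).leadingCoeff := rfl

theorem coe_lcH_pow (q : Q N) (n : Dv N →₀ ℤ) :
    ((lcH N q (monoU N n) : ℂˣ) : ℂ) ^ N = 1 := by
  rw [← Units.val_pow_eq_pow_val, lcH_monoU_pow, Units.val_one]

/-! ### Two cusps with the same vector `mOf` -/

/-- If the cosets `q`, `q'` have the same vector `mOf`, then either the expansions at `q'` are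
the rescaled expansions at `q`, or a monomial of weight zero has different leading coefficients
at `q` and `q'`. -/
theorem exists_twist_or_sep (q q' : Q N)
    (hm : ∀ d : Dv N, mOf N q (d : ℕ) = mOf N q' (d : ℕ)) :
    (∃ (ρ : ℂ) (hρ : ρ ≠ 0), sigma N q' = (LaurentRescale.rescale ρ hρ).comp (sigma N q)) ∨
    ∃ n : Dv N →₀ ℤ, wt N q n = 0 ∧ lcH N q (monoU N n) ≠ lcH N q' (monoU N n) := by
  classical
  letI : Fintype (Dv N) := Fintype.ofFinite _
  by_cases hsep : ∃ n : Dv N →₀ ℤ, wt N q n = 0 ∧ lcH N q (monoU N n) ≠ lcH N q' (monoU N n)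
  · exact Or.inr hsep
  left
  push Not at hsep
  set φ : (FF N)ˣ →* ℂˣ := lcH N q' / lcH N q with hφ
  obtain ⟨ρ, hρ, hρm⟩ := Fermat.Agent.S18.CuspCharExt.exists_root
    (fun d : Dv N => (mOf N q (d : ℕ) : ℤ)) (fun d => ((φ (uU N d) : ℂˣ) : ℂ))
    (fun d => Units.ne_zero _) (by
      intro n hn
      set n' : Dv N →₀ ℤ := Finsupp.equivFunOnFinite.symm n with hn'
      have hnn : ∀ d, n' d = n d := fun d => rfl
      have hwt : wt N q n' = 0 := by
        rw [wt_eq_sum, Finsupp.sum_fintype _ _ (fun d => zero_mul _)]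
        exact hn
      have h1 := hsep n' hwt
      have h2 : φ (monoU N n') = 1 := by
        rw [hφ, MonoidHom.div_apply, h1, div_self']
      rw [map_monoU, Finsupp.prod_fintype _ _ (fun d => zpow_zero _)] at h2
      have h3 := congrArg (fun u : ℂˣ => (u : ℂ)) h2
      simp only [Units.coe_prod, Units.val_zpow_eq_zpow_val, Units.val_one] at h3
      exact h3)
  refine ⟨ρ, hρ, Fermat.Agent.S18.CuspTwist.sigma_eq_of_twist N q q' hm ρ hρ fun d => ?_⟩
  have h1 : ρ ^ (mOf N q (d : ℕ) : ℤ) = ((φ (uU N d) : ℂˣ) : ℂ) := hρm d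
  rw [← coe_lcH_uU_inv N q d, ← coe_lcH_uU_inv N q' d, h1, map_inv, map_inv, hφ,
    MonoidHom.div_apply, ← Units.val_mul]
  congr 1
  rw [div_eq_mul_inv, mul_comm (lcH N q' (uU N d)), mul_assoc, mul_inv_cancel, mul_one]

/-! ### The input `CuspB` -/

section Main

variable {A : ValuationSubring KK} {ℓ : ℕ} [Fact ℓ.Prime]

/-- Monomials of non-negative weight at every coset are regular at all cusps. -/
theorem regular_of_wt_nonneg (n : Dv N →₀ ℤ) (h : ∀ q : Q N, 0 ≤ wt N q n)
    (c : Place KK (FF N)) (hc : c.ord (jF N) < 0) : 0 ≤ c.ord (mono N n) := by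
  obtain ⟨q, g, hq, -⟩ := Fermat.Agent.S18.CuspSigma.exists_induced N c hc
  exact (ord_nonneg_iff N hq n).mpr (h q)

/-- The value of a monomial of weight zero at a cusp. -/
theorem exists_value {c : Place KK (FF N)} {q : Q N} {g : ℕ}
    (hq : IsInducedBy c (sigma N q) g) (n : Dv N →₀ ℤ) (h0 : wt N q n = 0) :
    ∃ a : KK, a ^ N = 1 ∧ iota a = ((lcH N q (monoU N n) : ℂˣ) : ℂ) ∧
      (mono N n = algebraMap KK (FF N) a ∨ 0 < c.ord (mono N n - algebraMap KK (FF N) a)) := by
  obtain ⟨a, haN, ha⟩ := Fermat.Agent.S18.CuspVal.exists_root_of_unity N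
    ((lcH N q (monoU N n) : ℂˣ) : ℂ) (coe_lcH_pow N q n)
  refine ⟨a, haN, ha, ?_⟩
  exact Fermat.Agent.S18.CuspVal.value_of_leadingCoeff N hq (mono N n) a
    (by rw [order_sigma_mono, h0]) (by rw [ha, coe_lcH_monoU_eq])

/-- **(CUSP-b)**, from the combinatorics of the weights. -/
theorem cuspB (hA : A.LiesOverPrime ℓ) (hℓN : ¬ ℓ ∣ N) : CuspB A N := by
  intro c c' hc hc' hne
  obtain ⟨q, g, hq, -⟩ := Fermat.Agent.S18.CuspSigma.exists_induced N c hc
  obtain ⟨q', g', hq', -⟩ := Fermat.Agent.S18.CuspSigma.exists_induced N c' hc'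
  by_cases hm : ∀ d : Dv N, mOf N q (d : ℕ) = mOf N q' (d : ℕ)
  · -- the same vector `mOf`
    rcases exists_twist_or_sep N q q' hm with ⟨ρ, hρ, hσ⟩ | ⟨n₀, hn₀, hlc⟩
    · exact absurd (Fermat.Agent.S18.CuspVal.place_eq_of_twist N hq hq' ρ hρ hσ) hne
    obtain ⟨n', h1, h2, h3⟩ := Fermat.Agent.S18.Cusp0H.exists_correction N q n₀
    have hq0 : wt N q (n₀ + (N : ℤ) • n') = 0 := by
      rw [wt_add, wt_zsmul, hn₀, h3 q (fun d => rfl), mul_zero, add_zero]
    have hq'0 : wt N q' (n₀ + (N : ℤ) • n') = 0 := by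
      rw [wt_congr N (q := q) (q' := q') (fun d => (hm d).symm), hq0]
    have hreg : ∀ q'' : Q N, 0 ≤ wt N q'' (n₀ + (N : ℤ) • n') := by
      intro q''
      by_cases hq'' : ∀ d : Dv N, mOf N q'' (d : ℕ) = mOf N q (d : ℕ)
      · rw [wt_congr N (q := q) (q' := q'') hq'', hq0]
      · push Not at hq''
        rcases lt_or_ge (wt N q'' n₀) 0 with hlt | hge
        · exact h1 q'' hlt hq''
        · rw [wt_add, wt_zsmul]
          have hN0 : (0 : ℤ) ≤ (N : ℤ) := Int.natCast_nonneg N
          have := mul_nonneg hN0 (h2 q'')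
          omega
    obtain ⟨a, haN, ha, hva⟩ := exists_value N hq (n₀ + (N : ℤ) • n') hq0
    obtain ⟨a', ha'N, ha', hva'⟩ := exists_value N hq' (n₀ + (N : ℤ) • n') hq'0
    have haa : a ≠ a' := by
      intro h
      apply hlc
      apply Units.ext
      rw [← lcH_monoU_add_nsmul N q n₀ n', ← lcH_monoU_add_nsmul N q' n₀ n', ← ha, ← ha', h]
    obtain ⟨hA1, hA2, hA3⟩ := Fermat.Agent.S18.CuspRootUnit.inv_sub_mem N hA hℓN haN ha'N haa
    exact ⟨⟨mono N (n₀ + (N : ℤ) • n'), mono_mem_OO N A _⟩, a, a', hA1, hA2, haa, hA3, hva, hva',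
      fun c'' hc'' => regular_of_wt_nonneg N _ hreg c'' hc'',
      fun P hP h => jInt_of_ord_mono_ne_zero N A _ P hP h⟩
  · -- different vectors `mOf`
    obtain ⟨n, hn1, hn2⟩ := Fermat.Agent.S18.Cusp0H.exists_H N q'
    have hq'0 : wt N q' n = 0 := (hn2 q').mpr fun d => rfl
    have hqpos : 0 < wt N q n := by
      refine lt_of_le_of_ne (hn1 q) fun h => hm ((hn2 q).mp h.symm)
    obtain ⟨a', ha'N, ha', hva'⟩ := exists_value N hq' n hq'0
    have ha'0 : a' ≠ 0 := by
      rintro rfl
      rw [zero_pow (NeZero.ne N)] at ha'N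
      exact zero_ne_one ha'N
    have hpos : 0 < c.ord (mono N n) := by
      have h1 := ord_eq_of_induced N hq n
      have hg : (0 : ℤ) < g := by exact_mod_cast hq.pos
      by_contra hcon
      rw [not_lt] at hcon
      have := mul_nonpos_of_nonneg_of_nonpos hg.le hcon
      omega
    refine ⟨⟨mono N n, mono_mem_OO N A _⟩, 0, a', A.zero_mem,
      (Fermat.Agent.S18.CuspRootUnit.root_mem A a' ha'N).1, fun h => ha'0 h.symm, ?_, ?_, hva',
      fun c'' hc'' => regular_of_wt_nonneg N _ hn1 c'' hc'',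
      fun P hP h => jInt_of_ord_mono_ne_zero N A _ P hP h⟩
    · rw [zero_sub, inv_neg]
      exact neg_mem (Fermat.Agent.S18.CuspRootUnit.root_mem A a' ha'N).2
    · right
      rw [map_zero, sub_zero]
      exact hpos

end Main

end Fermat.Agent.S18.CuspSep
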