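import Mathlib
import Fermat.Agent.S18.Final
import Fermat.Agent.S18.Loc

/-!
# S18, assembly: the frozen statement from `(N)_N` and (LIFT)

With the local claim proved (`Loc.locNZ`), the frozen statement S18 follows from

* `hN : Charts.NormalStmt A N` (normality of the reductions of the two charts), and
* `HL` (lifting): for every place reduction map `r` there is an effective divisor `C` such that
  for every effective `G` the lattice `Λ(G + b C)` maps onto `L̄(r_* (G + b C))` for large `b`.
-/

set_option autoImplicit false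
set_option synthInstance.maxHeartbeats 400000

namespace Fermat.Agent.S18.Assembly

open ModularCurve AlgebraicCurve HahnSeries IsLocalRing
open Fermat.Agent.S18.Gauss Fermat.Agent.S18.Lattice
open Fermat.Agent.S18.EndGame Fermat.Agent.S18.EndGame2
open Fermat.Agent.S24.Eval

variable (N : ℕ) [NeZero N] {ℓ : ℕ} [Fact ℓ.Prime]
variable (A : ValuationSubring KK)

/-- **S18 from `(N)_N` and (LIFT).** -/
theorem s18_of_normal_lift (hℓN : ¬ ℓ ∣ N) (hA : A.LiesOverPrime ℓ)
    (hN : Charts.NormalStmt A N)
    (HL : ∀ r : Place KK (FF N) → Place (ResidueField A) (FkN A N),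
      IsPlaceReductionModL A N r → PrincipalGeneratedByIntegral A (residue A) N →
      ∃ C : Divisor KK (FF N), (∀ P, 0 ≤ C P) ∧
        ∀ G : Divisor KK (FF N), (∀ P, 0 ≤ G P) →
          ∃ b₀ : ℕ, ∀ b : ℕ, b₀ ≤ b → Lift A N r (G + b • C))
    (h : ModularCurve.ReductionInputsModL A N) (m : ℕ) (hm : ¬ ℓ ∣ m)
    (z : ModularCurve.JZero N) (hmz : m • z = 0) (hz : ModularCurve.reductionModL A N z = 0) :
    z = 0 := by
  refine Final.s18_of_lift_loc N A hℓN hA (fun r hr hgen => ?_) h m hm z hmz hz
  obtain ⟨C, hC, HLC⟩ := HL r hr hgen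
  refine ⟨C, hC, HLC, fun p hp hpℓ D f _ hrD hf hfD Ep Em hEp hEm hE => ?_⟩
  exact Loc.locNZ hr hA hℓN hN (Arch.arch Fact.out hA) p
    (ResField.natCast_residue_ne_zero hA hp hpℓ) D Ep Em hEp hEm hE hrD f hf hfD

end Fermat.Agent.S18.Assembly
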