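import Mathlib
import Fermat.Agent.S18.IntRedMod
import Fermat.Agent.S18.RegInt

/-!
# S18 infrastructure (A3, chart 2): `R2 ⊆ B2b` at every level prime to `ℓ`

* `exists_jinv` : an integral series `J₂ ∈ A((q))` with `j * J₂ = 1`.
* `isIntegral_redN_inv` : if `f ∈ OO A N` is integral over `ℚ̄[1/j]`, then `redN f` is integral
  over `k[1/j̄]`.
* `R2_le_B2b` : `Charts.R2 A N ≤ Charts.B2b A N`;  `R1_le_B1b'` : the same for chart 1 (restated).
-/

set_option autoImplicit false
set_option linter.style.haveILetI false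

noncomputable section

namespace Fermat.Agent.S18.IntRedInv

open ModularCurve AlgebraicCurve HahnSeries IntermediateField
open Fermat.Agent.S18.Gauss Fermat.Agent.S18.Lattice Fermat.Agent.S24 Fermat.Agent.S24.Eval

/-- `K(x⁻¹) = K(x)`. -/
theorem adjoin_inv {K E : Type*} [Field K] [Field E] [Algebra K E] (x : E) :
    IntermediateField.adjoin K {x⁻¹} = IntermediateField.adjoin K {x} := by
  apply le_antisymm
  · rw [IntermediateField.adjoin_simple_le_iff]
    exact inv_mem (IntermediateField.mem_adjoin_simple_self K x)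
  · rw [IntermediateField.adjoin_simple_le_iff]
    have h := inv_mem (IntermediateField.mem_adjoin_simple_self K x⁻¹)
    rwa [inv_inv] at h

section Series

variable (A : ValuationSubring KK)

theorem order_jqModC_A : (jqModC A).order = -1 := by
  have hne : jqModC A ≠ 0 := by
    intro h
    have h1 := coeff_jqModC_neg_one A
    rw [h, HahnSeries.coeff_zero] at h1
    exact zero_ne_one h1
  have h1 : (jqModC A).order ≤ -1 :=
    HahnSeries.order_le_of_coeff_ne_zero (by rw [coeff_jqModC_neg_one]; exact one_ne_zero)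
  have h2 : (jqModC A).coeff (jqModC A).order ≠ 0 := fun h0 =>
    hne (HahnSeries.coeff_order_eq_zero.mp h0)
  by_contra hcon
  exact h2 (coeff_jqModC_of_lt A (lt_of_le_of_ne h1 hcon))

/-- The inverse of `j` as a series with coefficients in `A`. -/
theorem exists_jinv : ∃ J₂ : LaurentSeries A, jqNModC A 1 * J₂ = 1 := by
  have hu : IsUnit (jqNModC A 1) := by
    rw [jqNModC_one, HahnSeries.isUnit_iff, HahnSeries.leadingCoeff_eq, order_jqModC_A,
      coeff_jqModC_neg_one]
    exact isUnit_one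
  obtain ⟨u, hu'⟩ := hu
  exact ⟨((u⁻¹ : (LaurentSeries A)ˣ) : LaurentSeries A), by rw [← hu']; exact u.mul_inv⟩

end Series


section Main

variable {A : ValuationSubring KK} {ℓ : ℕ} [Fact ℓ.Prime] (N : ℕ) [NeZero N]

omit [Fact ℓ.Prime] in
theorem inc_jinv {J₂ : LaurentSeries A} (h : jqNModC A 1 * J₂ = 1) :
    inc A J₂ = (((jF N)⁻¹ : FF N) : LaurentSeries KK) := by
  have h1 : inc A (jqNModC A 1) * inc A J₂ = 1 := by rw [← map_mul, h, map_one]
  have h2 : ((jF N : FF N) : LaurentSeries KK) * inc A J₂ = 1 := by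
    rw [DecMod.inc_J (A := A) N]; exact h1
  have h3 : (((jF N)⁻¹ : FF N) : LaurentSeries KK) = ((jF N : FF N) : LaurentSeries KK)⁻¹ := rfl
  rw [h3]
  exact eq_inv_of_mul_eq_one_right h2

omit [Fact ℓ.Prime] in
theorem rd_jinv {J₂ : LaurentSeries A} (h : jqNModC A 1 * J₂ = 1) :
    rd A J₂ = (jqModC (IsLocalRing.ResidueField A))⁻¹ := by
  have h1 : rd A (jqNModC A 1) * rd A J₂ = 1 := by rw [← map_mul, h, map_one]
  rw [DecMod.rd_J] at h1
  exact eq_inv_of_mul_eq_one_right h1

/-- **(A3), chart 2**: the reduction of a Gauss-integral function which is integral over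
`ℚ̄[1/j]` is integral over `k[1/j̄]`. -/
theorem isIntegral_redN_inv (hA : A.LiesOverPrime ℓ) (hℓN : ¬ ℓ ∣ N) (f : OO A N)
    (hf : IsIntegral (Algebra.adjoin KK {(jF N)⁻¹}) (f : FF N)) :
    IsIntegral (Algebra.adjoin (IsLocalRing.ResidueField A)
      {(DegEq.jk (IsLocalRing.ResidueField A) N)⁻¹}) (redN A N f) := by
  obtain ⟨J₂, hJ₂⟩ := exists_jinv A
  obtain ⟨d, U, hU, hspan⟩ := IntRedMod.exists_orthonormal_j (A := A) N hA hℓN
  have hinc := inc_jinv (A := A) N hJ₂
  have hrd := rd_jinv (A := A) hJ₂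
  have hJ := DecMod.isInt_J (A := A) N
  -- `J₂` is integral
  have hJ₂F : inc A J₂ ∈ modularFunctionFieldBar N := by
    rw [hinc]; exact Subtype.property _
  have hJ₂k : rd A J₂ ∈ FkN A N := by
    rw [hrd, ← DecMod.rd_J (A := A)]
    exact inv_mem hJ.2
  have hJ₂t : Transcendental (IsLocalRing.ResidueField A) (rd A J₂) := by
    rw [hrd]
    intro halg
    exact Fermat.Agent.S28.PrimeCase.transcendental_jqModC _ (IsAlgebraic.inv_iff.mp halg)
  -- transport the orthonormal basis
  have e1 : IntermediateField.adjoin (IsLocalRing.ResidueField A) {rd A (jqNModC A 1)} =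
      IntermediateField.adjoin (IsLocalRing.ResidueField A) {rd A J₂} := by
    rw [hrd, DecMod.rd_J, adjoin_inv]
  have e2 : IntermediateField.adjoin KK {inc A (jqNModC A 1)} =
      IntermediateField.adjoin KK {inc A J₂} := by
    have h3 : inc A J₂ = (inc A (jqNModC A 1))⁻¹ := by
      rw [hinc, ← DecMod.inc_J (A := A) N]; rfl
    rw [h3, adjoin_inv]
  have hU' : LinearIndependent
      (IntermediateField.adjoin (IsLocalRing.ResidueField A) {rd A J₂})
      (fun i => ((redN A N (U i) : FkN A N) : LaurentSeries (IsLocalRing.ResidueField A))) :=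
    e1 ▸ hU
  have hspan' : ∀ f ∈ modularFunctionFieldBar N,
      ∃ a : Fin d → IntermediateField.adjoin KK {inc A J₂},
        f = ∑ i, (a i : LaurentSeries KK) *
          (((U i : OO A N) : modularFunctionFieldBar N) : LaurentSeries KK) :=
    e2 ▸ hspan
  have h1 : IsIntegral (Algebra.adjoin KK {inc A J₂})
      (((f : OO A N) : FF N) : LaurentSeries KK) := by
    have h2 := IntRedMod.isIntegral_coe_of_isIntegral (modularFunctionFieldBar N) hf
    rw [← hinc] at h2
    exact h2
  have h3 := IntRed.isIntegral_red hJ₂t hJ₂F hJ₂k U hU' hspan' f h1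
  apply IntRedMod.isIntegral_of_isIntegral_coe (FkN A N)
  have h4 : (((DegEq.jk (IsLocalRing.ResidueField A) N)⁻¹ : FkN A N) :
      LaurentSeries (IsLocalRing.ResidueField A)) = rd A J₂ := by
    rw [hrd]; rfl
  rw [h4]
  exact h3

/-- **`R2 ⊆ B2b` at every level prime to `ℓ`.** -/
theorem R2_le_B2b (hA : A.LiesOverPrime ℓ) (hℓN : ¬ ℓ ∣ N) :
    Charts.R2 A N ≤ Charts.B2b A N := by
  intro x hx
  obtain ⟨f, hf, rfl⟩ := (Charts.mem_redImage A N).mp hx
  exact isIntegral_redN_inv N hA hℓN f ((RegInt.mem_regAt_jinv_iff N _).mp hf.2)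

end Main

end Fermat.Agent.S18.IntRedInv
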