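/-
S18 moonshot, cusps, route (β), last step (helper9): PARTITION OF UNITY.

Chart 2 of level `N` is `{j ≠ 0}`.  It is covered by the chart `U = {j ≠ 0, 1728}` (cusps
included) and by chart 1 minus the zeros of `j`.  If every element of `B2b` (the integral
closure of `k[1/j̄]` in the reduced function field) lifts to a Gauss-integral function regular
on `U`, and chart 1 has normal reduction (`NormalStmt1`), then chart 2 has normal reduction
(`NormalStmt2`):  glue the two lifts with `(1 - 1728/j)^M p + (1728/j)^M p' = 1`.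
-/
import Mathlib
import Fermat.Agent.S18.Charts
import Fermat.Agent.S18.RegInt
import Fermat.Agent.S18.RedFibre
import Fermat.Agent.S18.IntRedInv
import Fermat.Agent.S18.DegZeroFbar

set_option autoImplicit false
set_option synthInstance.maxHeartbeats 400000
set_option maxHeartbeats 1000000

namespace Fermat.Agent.S18.ChartUnity

open ModularCurve AlgebraicCurve HahnSeries
open Fermat.Agent.S18.Gauss Fermat.Agent.S18.Lattice Fermat.Agent.S24 Fermat.Agent.S24.Eval
open Fermat.Agent.S18.Charts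

section Generic

/-- A function with finite support is bounded below. -/
theorem exists_bound_of_finite {α : Type*} (φ : α → ℤ) (h : {a | φ a ≠ 0}.Finite) :
    ∃ M : ℕ, ∀ a, -(M : ℤ) ≤ φ a := by
  classical
  refine ⟨∑ a ∈ h.toFinset, (φ a).natAbs, fun a => ?_⟩
  by_cases ha : φ a = 0
  · rw [ha]
    have : (0 : ℤ) ≤ ((∑ a ∈ h.toFinset, (φ a).natAbs : ℕ) : ℤ) := Int.natCast_nonneg _
    omega
  · have hmem : a ∈ h.toFinset := by
      rw [Set.Finite.mem_toFinset]
      exact ha
    have h1 : (φ a).natAbs ≤ ∑ a ∈ h.toFinset, (φ a).natAbs :=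
      Finset.single_le_sum (f := fun a => (φ a).natAbs) (fun _ _ => Nat.zero_le _) hmem
    have h2 : ((φ a).natAbs : ℤ) ≤ ((∑ a ∈ h.toFinset, (φ a).natAbs : ℕ) : ℤ) := by
      exact_mod_cast h1
    omega

variable {k F : Type*} [Field k] [Field F] [Algebra k F]

/-- A zero of order `≥ 1`, raised to the power `M`, kills a pole of order `≤ M`. -/
theorem pow_mul_mem (P : Place k F) {t f : F} (ht : 1 ≤ P.ord t) {M : ℕ}
    (hM : -(M : ℤ) ≤ P.ord f) : t ^ M * f ∈ P.toValuationSubring := by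
  rcases eq_or_ne f 0 with rfl | hf
  · rw [mul_zero]; exact zero_mem _
  have ht0 : t ≠ 0 := by
    rintro rfl
    rw [P.ord_zero] at ht
    omega
  apply mem_of_ord_nonneg P (mul_ne_zero (pow_ne_zero _ ht0) hf)
  rw [P.ord_mul (pow_ne_zero _ ht0) hf, ord_pow]
  nlinarith

/-- A partition of unity `p (1 - c u)^M + p' (c u)^M = 1` inside a subring. -/
theorem exists_unity {B : Type*} [CommRing B] (S : Subring B) {c u : B} (hc : c ∈ S)
    (hu : u ∈ S) (M : ℕ) :
    ∃ p ∈ S, ∃ p' ∈ S, p * (1 - c * u) ^ M + p' * (c * u) ^ M = 1 := by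
  have hcop : IsCoprime ((1 - (⟨c, hc⟩ : S) * ⟨u, hu⟩) ^ M) (((⟨c, hc⟩ : S) * ⟨u, hu⟩) ^ M) :=
    IsCoprime.pow ⟨1, 1, by ring⟩
  obtain ⟨p, p', hpp⟩ := hcop
  refine ⟨p, p.2, p', p'.2, ?_⟩
  have := congrArg (fun z : S => (z : B)) hpp
  simpa using this

/-- Gluing two lifts with a partition of unity. -/
theorem map_glue {R S : Type*} [CommRing R] [CommRing S] (φ : R →+* S) {a b f g : R} {x : S}
    (hab : a + b = 1) (hf : φ f = x) (hg : φ g = x) : φ (a * f + b * g) = x := by
  have h2 := congrArg φ hab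
  rw [map_add, map_one] at h2
  rw [map_add, map_mul, map_mul, hf, hg, ← add_mul, h2, one_mul]

end Generic

section Level

variable (N : ℕ) [NeZero N]

/-- The constant `1728` of the function field. -/
noncomputable def c1728 : FF N := algebraMap KK (FF N) 1728

theorem c1728_ne_zero : c1728 N ≠ 0 := by
  rw [c1728, Ne, map_eq_zero_iff _ (algebraMap KK (FF N)).injective]
  norm_num

/-- The functions regular on the chart `U = {j ≠ 0, 1728}` (cusps included): regular at every
place which is neither a zero of `j` nor a zero of `j - 1728`. -/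
def regU : Subring (FF N) where
  carrier := {f | ∀ P : Place KK (FF N), P.ord (jF N) ≤ 0 → P.ord (jF N - c1728 N) ≤ 0 →
    f ∈ P.toValuationSubring}
  mul_mem' := fun hf hg P h0 h1 => mul_mem (hf P h0 h1) (hg P h0 h1)
  one_mem' := fun P _ _ => one_mem _
  add_mem' := fun hf hg P h0 h1 => add_mem (hf P h0 h1) (hg P h0 h1)
  zero_mem' := fun P _ _ => zero_mem _
  neg_mem' := fun hf P h0 h1 => neg_mem (hf P h0 h1)

theorem mem_regU {f : FF N} :
    f ∈ regU N ↔ ∀ P : Place KK (FF N), P.ord (jF N) ≤ 0 → P.ord (jF N - c1728 N) ≤ 0 →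
      f ∈ P.toValuationSubring := Iff.rfl

/-- The pole orders of a function are bounded. -/
theorem exists_bound (f : FF N) : ∃ M : ℕ, ∀ P : Place KK (FF N), -(M : ℤ) ≤ P.ord f := by
  refine exists_bound_of_finite (fun P : Place KK (FF N) => P.ord f) ?_
  refine (dv N f).support.finite_toSet.subset fun P hP => ?_
  rw [Finset.mem_coe, Finsupp.mem_support_iff, dv_apply]
  exact hP

variable (A : ValuationSubring KK) {ℓ : ℕ} [Fact ℓ.Prime]

theorem c1728_mem_OO : c1728 N ∈ OO A N := by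
  have hmem : (1728 : KK) ∈ A := by
    have := natCast_mem A 1728
    simpa using this
  exact algebraMap_mem_gaussRing (F := modularFunctionFieldBar N) (Fk := FkN A N)
    (⟨1728, hmem⟩ : A)

variable {A}

/-- Some power of `j̄` moves an element of `B2b` into `B1b`. -/
theorem exists_pow_mul_mem_B1b (hA : A.LiesOverPrime ℓ) {x : FkN A N} (hx : x ∈ B2b A N) :
    ∃ m : ℕ, jb A N ^ m * x ∈ B1b A N := by
  rcases eq_or_ne x 0 with rfl | hx0
  · exact ⟨0, by rw [mul_zero]; exact zero_mem _⟩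
  obtain ⟨m, hm⟩ := exists_bound_of_finite
    (fun Q : Place (IsLocalRing.ResidueField A) (FkN A N) => Q.ord x)
    (DegZeroFbar.finite_ord_ne_zero N hA x hx0)
  refine ⟨m, (RegInt.mem_B1b_iff A N _).mpr fun Q hQ => ?_⟩
  have hjb := RedFibre.jb_ne_zero A N
  rw [Q.ord_mul (pow_ne_zero _ hjb) hx0, ord_pow]
  rcases hQ.eq_or_lt with h0 | hpos
  · have h2 := (RegInt.mem_B2b_iff A N x).mp hx Q (by rw [Q.ord_inv, ← h0]; norm_num)
    rw [← h0, mul_zero, zero_add]
    exact h2
  · have := hm Q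
    nlinarith

/-- **Partition of unity**: chart 2 is covered by `U` and by chart 1. -/
theorem B2b_le_R2 (hA : A.LiesOverPrime ℓ) (h1 : NormalStmt1 A N)
    (hU : ∀ x ∈ B2b A N, ∃ f : OO A N, (f : FF N) ∈ regU N ∧ redN A N f = x) :
    B2b A N ≤ R2 A N := by
  intro x hx
  obtain ⟨fU, hfU, hfUx⟩ := hU x hx
  -- the lift regular away from the zeros and poles of `j`
  obtain ⟨m, hm⟩ := exists_pow_mul_mem_B1b N hA hx
  have hy : jb A N ^ m * x ∈ R1 A N := by
    rw [show R1 A N = B1b A N from h1]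
    exact hm
  obtain ⟨g, hg, hgy⟩ := (mem_redImage A N).mp hy
  obtain ⟨f12, hf12, hf12e⟩ : ∃ z : OO A N, z = g * RedFibre.jinvO A N ^ m ∧
      (z : FF N) = (g : FF N) * ((jF N)⁻¹) ^ m := ⟨g * RedFibre.jinvO A N ^ m, rfl, rfl⟩
  have hf12x : redN A N f12 = x := by
    rw [hf12, map_mul, map_pow, RedFibre.redN_jinvO, hgy, inv_pow, mul_comm, ← mul_assoc,
      inv_mul_cancel₀ (pow_ne_zero _ (RedFibre.jb_ne_zero A N)), one_mul]
  -- bounds for the poles
  obtain ⟨M1, hM1⟩ := exists_bound N (fU : FF N)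
  obtain ⟨M2, hM2⟩ := exists_bound N (f12 : FF N)
  -- the partition of unity in `O2`
  have huO2 : (jF N)⁻¹ ∈ O2 A N :=
    (mem_O2 A N).mpr ⟨RedFibre.jF_inv_mem_OO A N, self_mem_regAt N _⟩
  have hcO2 : c1728 N ∈ O2 A N :=
    (mem_O2 A N).mpr ⟨c1728_mem_OO N A, algebraMap_mem_regAt N _ _⟩
  obtain ⟨p, hp, p', hp', hppF⟩ := exists_unity (O2 A N) hcO2 huO2 (M1 + M2)
  -- the same identity in the Gauss ring
  have hpO : p ∈ OO A N := ((mem_O2 A N).mp hp).1
  have hp'O : p' ∈ OO A N := ((mem_O2 A N).mp hp').1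
  have hXO : 1 - c1728 N * (jF N)⁻¹ ∈ OO A N :=
    sub_mem (one_mem _) (mul_mem (c1728_mem_OO N A) (RedFibre.jF_inv_mem_OO A N))
  have hYO : c1728 N * (jF N)⁻¹ ∈ OO A N :=
    mul_mem (c1728_mem_OO N A) (RedFibre.jF_inv_mem_OO A N)
  have hpXO : p * (1 - c1728 N * (jF N)⁻¹) ^ (M1 + M2) ∈ OO A N :=
    mul_mem hpO (pow_mem hXO _)
  have hpYO : p' * (c1728 N * (jF N)⁻¹) ^ (M1 + M2) ∈ OO A N :=
    mul_mem hp'O (pow_mem hYO _)
  have hone : (⟨_, hpXO⟩ : OO A N) + ⟨_, hpYO⟩ = 1 := Subtype.ext hppF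
  -- the glued lift
  have hfx : redN A N ((⟨_, hpXO⟩ : OO A N) * fU + ⟨_, hpYO⟩ * f12) = x :=
    map_glue (redN A N) hone hfUx hf12x
  refine (mem_redImage A N).mpr ⟨_, (mem_O2 A N).mpr ⟨Subtype.property _, fun P hP => ?_⟩, hfx⟩
  show p * (1 - c1728 N * (jF N)⁻¹) ^ (M1 + M2) * (fU : FF N) +
    p' * (c1728 N * (jF N)⁻¹) ^ (M1 + M2) * (f12 : FF N) ∈ P.toValuationSubring
  -- regularity on chart 2
  have hj0 := RedFibre.jF_ne_zero N
  have hPj : P.ord (jF N) ≤ 0 := by
    have := ord_nonneg_of_mem P hP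
    rw [P.ord_inv] at this
    omega
  have hcP : c1728 N ∈ P.toValuationSubring := P.algebraMap_mem' _
  have hcord : P.ord (c1728 N) = 0 := ord_algebraMap P _
  have hpP : p ∈ P.toValuationSubring := ((mem_O2 A N).mp hp).2 P hP
  have hp'P : p' ∈ P.toValuationSubring := ((mem_O2 A N).mp hp').2 P hP
  have hXP : 1 - c1728 N * (jF N)⁻¹ ∈ P.toValuationSubring :=
    sub_mem (one_mem _) (mul_mem hcP hP)
  have hYP : c1728 N * (jF N)⁻¹ ∈ P.toValuationSubring := mul_mem hcP hP
  rw [mul_assoc, mul_assoc]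
  refine add_mem (mul_mem hpP ?_) (mul_mem hp'P ?_)
  · -- `X ^ M * fU`
    by_cases h1728 : P.ord (jF N - c1728 N) ≤ 0
    · exact mul_mem (pow_mem hXP _) (hfU P hPj h1728)
    · rw [not_le] at h1728
      have hne : jF N - c1728 N ≠ 0 := by
        intro h0
        rw [h0, P.ord_zero] at h1728
        exact lt_irrefl _ h1728
      have hjP : jF N ∈ P.toValuationSubring := by
        have h3 : jF N = (jF N - c1728 N) + c1728 N := by ring
        rw [h3]
        exact add_mem (mem_of_ord_nonneg P hne h1728.le) hcP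
      have hj0' : P.ord (jF N) = 0 := le_antisymm hPj (ord_nonneg_of_mem P hjP)
      have hXe : 1 - c1728 N * (jF N)⁻¹ = (jF N - c1728 N) * (jF N)⁻¹ := by
        field_simp
      have hXord : 1 ≤ P.ord (1 - c1728 N * (jF N)⁻¹) := by
        rw [hXe, P.ord_mul hne (inv_ne_zero hj0), P.ord_inv, hj0']
        omega
      refine pow_mul_mem P hXord ?_
      have := hM1 P
      push_cast
      omega
  · -- `Y ^ M * f12`
    by_cases hcusp : P.ord (jF N) < 0
    · have hYord : 1 ≤ P.ord (c1728 N * (jF N)⁻¹) := by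
        rw [P.ord_mul (c1728_ne_zero N) (inv_ne_zero hj0), P.ord_inv, hcord]
        omega
      refine pow_mul_mem P hYord ?_
      have := hM2 P
      push_cast
      omega
    · have hj0' : P.ord (jF N) = 0 := le_antisymm hPj (not_lt.mp hcusp)
      have hjP : jF N ∈ P.toValuationSubring := mem_of_ord_nonneg P hj0 hj0'.ge
      have hgP : (g : FF N) ∈ P.toValuationSubring := ((mem_O1 A N).mp hg).2 P hjP
      have hf12P : (f12 : FF N) ∈ P.toValuationSubring := by
        rw [hf12e]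
        exact mul_mem hgP (pow_mem hP _)
      exact mul_mem (pow_mem hYP _) hf12P

/-- **Normality of the reduction of chart 2** from chart 1 and the cusp chart `U`. -/
theorem normalStmt2_of_chartU (hA : A.LiesOverPrime ℓ) (hℓN : ¬ ℓ ∣ N) (h1 : NormalStmt1 A N)
    (hU : ∀ x ∈ B2b A N, ∃ f : OO A N, (f : FF N) ∈ regU N ∧ redN A N f = x) :
    NormalStmt2 A N :=
  le_antisymm (IntRedInv.R2_le_B2b N hA hℓN) (B2b_le_R2 N hA h1 hU)

end Level

end Fermat.Agent.S18.ChartUnity
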