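import Mathlib
import Fermat.Agent.S18.Cusp0Def
import Fermat.Agent.S18.CuspCharExt

/-!
# S18 moonshot, cusp package (S4): Bezout for the widths

For every coset `q` the gcd `G` of the widths `mOf N q d`, `d ∣ N`, is the weight of an exponent
vector `b : Dv N →₀ ℤ`.
-/

set_option autoImplicit false

namespace Fermat.Agent.S18.Cusp0Bezout

open Fermat.Agent.S20 Fermat.Agent.S24 Fermat.Agent.S24.Jq Fermat.Agent.S24.Eval
open Fermat.Agent.S18.Cusp0Exp Fermat.Agent.S18.Cusp0Def
open scoped MatrixGroups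

variable (N : ℕ) [NeZero N]

/-- the weight of the exponent vector attached to a function on the finite type `Dv N` -/
theorem wt_equivFun (q : Q N) [Fintype (Dv N)] (x : Dv N → ℤ) :
    wt N q (Finsupp.equivFunOnFinite.symm x) = ∑ d : Dv N, x d * (mOf N q (d : ℕ) : ℤ) := by
  rw [wt_eq_sum, Finsupp.sum_fintype _ _ (fun d => zero_mul _)]
  rfl

/-- **Bezout for the widths**: the gcd `G` of the `mOf N q d` is the weight of an exponent
vector. -/
theorem exists_bezout (q : Q N) :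
    ∃ (G : ℕ) (b : Dv N →₀ ℤ), 0 < G ∧ wt N q b = G ∧ ∀ d : Dv N, G ∣ mOf N q (d : ℕ) := by
  classical
  letI : Fintype (Dv N) := Fintype.ofFinite (Dv N)
  obtain ⟨g, x, hx, hg⟩ := CuspCharExt.exists_bezout (fun d : Dv N => (mOf N q (d : ℕ) : ℤ))
  have hg0 : g ≠ 0 := by
    rintro rfl
    have h1 := hg ⟨1, one_dvd N⟩
    rw [zero_dvd_iff] at h1
    have h2 : 0 < mOf N q 1 := mOf_pos N q (one_dvd N)
    have h3 : (mOf N q 1 : ℤ) = 0 := h1
    omega
  have hdvd : ∀ d : Dv N, g.natAbs ∣ mOf N q (d : ℕ) := by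
    intro d
    have h1 := hg d
    exact Int.natAbs_dvd_natAbs.mpr h1
  have hpos : 0 < g.natAbs := Int.natAbs_pos.mpr hg0
  rcases le_or_gt 0 g with h | h
  · refine ⟨g.natAbs, Finsupp.equivFunOnFinite.symm x, hpos, ?_, hdvd⟩
    rw [wt_equivFun, hx, Int.natAbs_of_nonneg h]
  · refine ⟨g.natAbs, Finsupp.equivFunOnFinite.symm (fun d => -x d), hpos, ?_, hdvd⟩
    rw [wt_equivFun]
    have h1 : ∑ d : Dv N, -x d * (mOf N q (d : ℕ) : ℤ) = -g := by
      rw [← hx, ← Finset.sum_neg_distrib]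
      exact Finset.sum_congr rfl fun d _ => by ring
    rw [h1]
    omega

end Fermat.Agent.S18.Cusp0Bezout
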