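import Mathlib
import Fermat.Agent.S18.Cusp0Def

/-!
# S18 moonshot, cusp package (S4)/(B4): the arithmetic of the widths `mOf N q d`

`eOf N q d = gcd (d, c_q)` and `mOf N q d = N e² / d`.

* `eOf_eq_of_eq`, `mOf_eq_of_eq`, `mOf_eq_iff` : the vector `(mOf N q d)_d` is determined by
  `eOf N q N = gcd (N, c_q)`, and conversely;
* `mOf_one`, `mOf_mul_prime`, `mOf_f`, `mOf_g` : the behaviour along an edge `d → d p`;
* `exists_prime_pow_of_ne` : two different patterns differ at a prime power edge;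
* `exists_H`, `exists_correction`, `exists_bezout` : the exponent vectors used to separate cusps.
-/

set_option autoImplicit false

namespace Fermat.Agent.S18.Cusp0Sign

open Fermat.Agent.S20 Fermat.Agent.S24 Fermat.Agent.S24.Jq Fermat.Agent.S24.Eval
open Fermat.Agent.S18.Cusp0Exp Fermat.Agent.S18.Cusp0Def
open scoped MatrixGroups

/-! ### Arithmetic of gcd's with prime powers -/

section Nat

theorem gcd_prime_pow_succ {p : ℕ} (hp : p.Prime) (i C : ℕ) :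
    (p ^ (i + 1) ∣ C → Nat.gcd (p ^ (i + 1)) C = p * Nat.gcd (p ^ i) C) ∧
      (¬ p ^ (i + 1) ∣ C → Nat.gcd (p ^ (i + 1)) C = Nat.gcd (p ^ i) C) := by
  constructor
  · intro h
    have h1 : p ^ i ∣ C := dvd_trans (pow_dvd_pow p (Nat.le_succ i)) h
    rw [Nat.gcd_eq_left h, Nat.gcd_eq_left h1, pow_succ, mul_comm]
  · intro h
    apply Nat.dvd_antisymm
    · obtain ⟨k, hk, hk'⟩ := (Nat.dvd_prime_pow hp).mp (Nat.gcd_dvd_left (p ^ (i + 1)) C)
      have hki : k ≤ i := by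
        by_contra hcon
        have hk1 : k = i + 1 := by omega
        apply h
        rw [← hk1, ← hk']
        exact Nat.gcd_dvd_right _ _
      apply Nat.dvd_gcd
      · rw [hk']
        exact pow_dvd_pow p hki
      · exact Nat.gcd_dvd_right _ _
    · exact Nat.gcd_dvd_gcd_of_dvd_left C (pow_dvd_pow p (Nat.le_succ i))

theorem gcd_mul_prime {p : ℕ} (hp : p.Prime) (d C : ℕ) :
    Nat.gcd (d * p) C = Nat.gcd d C ∨ Nat.gcd (d * p) C = p * Nat.gcd d C := by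
  have h1 : Nat.gcd d C ∣ Nat.gcd (d * p) C :=
    Nat.gcd_dvd_gcd_of_dvd_left C (Dvd.intro _ rfl)
  have h2 : Nat.gcd (d * p) C ∣ Nat.gcd d C * p := by
    have := Nat.gcd_mul_left_dvd_mul_gcd C d p
    exact dvd_trans this (Nat.mul_dvd_mul_left _ (Nat.gcd_dvd_left p C))
  obtain ⟨r, hr⟩ := h1
  rcases Nat.eq_zero_or_pos (Nat.gcd d C) with h0 | h0
  · left
    rw [hr, h0, zero_mul]
  · rw [hr] at h2
    have h3 : r ∣ p := (Nat.mul_dvd_mul_iff_left h0).mp h2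
    rcases (Nat.dvd_prime hp).mp h3 with h4 | h4
    · left
      rw [hr, h4, mul_one]
    · right
      rw [hr, h4, mul_comm]

end Nat

variable (N : ℕ) [NeZero N]

/-! ### The pattern of a coset -/

/-- the absolute value of the lower left entry of `q.out⁻¹` -/
noncomputable def cOf (q : Q N) : ℕ := (((q.out : SL(2, ℤ))⁻¹ : SL(2, ℤ)) 1 0).natAbs

omit [NeZero N] in
theorem eOf_eq (q : Q N) (d : ℕ) : eOf N q d = Nat.gcd d (cOf N q) := by
  unfold eOf cOf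
  rw [Int.gcd_def, Int.natAbs_natCast]

omit [NeZero N] in
theorem eOf_N_dvd (q : Q N) : eOf N q N ∣ N := eOf_dvd N q N

omit [NeZero N] in
/-- `gcd (d, c) = gcd (d, gcd (N, c))` for `d ∣ N`. -/
theorem eOf_eq_gcd (q : Q N) {d : ℕ} (hd : d ∣ N) : eOf N q d = Nat.gcd d (eOf N q N) := by
  rw [eOf_eq, eOf_eq]
  apply Nat.dvd_antisymm
  · exact Nat.dvd_gcd (Nat.gcd_dvd_left _ _)
      (Nat.dvd_gcd (dvd_trans (Nat.gcd_dvd_left _ _) hd) (Nat.gcd_dvd_right _ _))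
  · exact Nat.dvd_gcd (Nat.gcd_dvd_left _ _)
      (dvd_trans (Nat.gcd_dvd_right _ _) (Nat.gcd_dvd_right _ _))

omit [NeZero N] in
theorem eOf_eq_of_eq (q q' : Q N) (h : eOf N q N = eOf N q' N) (d : ℕ) (hd : d ∣ N) :
    eOf N q d = eOf N q' d := by
  rw [eOf_eq_gcd N q hd, eOf_eq_gcd N q' hd, h]

omit [NeZero N] in
theorem mOf_eq_of_eq (q q' : Q N) (h : eOf N q N = eOf N q' N) (d : ℕ) (hd : d ∣ N) :
    mOf N q d = mOf N q' d := by
  unfold mOf
  rw [eOf_eq_of_eq N q q' h d hd]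

theorem mOf_N (q : Q N) : mOf N q N = eOf N q N ^ 2 := by
  have h := mOf_mul N q (dvd_refl N)
  have hN : 0 < N := Nat.pos_of_ne_zero (NeZero.ne N)
  rw [mul_comm] at h
  exact Nat.eq_of_mul_eq_mul_left hN h

/-- The vector `(mOf N q d)_d` and the number `eOf N q N = gcd (N, c_q)` determine each other. -/
theorem mOf_eq_iff (q q' : Q N) :
    (∀ d : Dv N, mOf N q' (d : ℕ) = mOf N q (d : ℕ)) ↔ eOf N q' N = eOf N q N := by
  constructor
  · intro h
    have h1 := h ⟨N, dvd_refl N⟩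
    simp only at h1
    rw [mOf_N, mOf_N] at h1
    exact Nat.pow_left_injective (by norm_num : (2 : ℕ) ≠ 0) h1
  · intro h d
    exact mOf_eq_of_eq N q' q h d d.2

omit [NeZero N] in
theorem mOf_one (q : Q N) : mOf N q 1 = N := by
  unfold mOf
  rw [eOf_eq, Nat.gcd_one_left, one_pow, mul_one, Nat.div_one]

/-! ### Edges -/

theorem mOf_mul_prime (q : Q N) {d p : ℕ} (hp : p.Prime) (hdp : d * p ∣ N) :
    p * mOf N q (d * p) = mOf N q d ∨ mOf N q (d * p) = p * mOf N q d := by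
  have hd : d ∣ N := dvd_trans (Dvd.intro _ rfl) hdp
  have hd0 : 0 < d := Nat.pos_of_dvd_of_pos hd (Nat.pos_of_ne_zero (NeZero.ne N))
  have hp0 : 0 < p := hp.pos
  have h1 := mOf_mul N q hdp
  have h2 := mOf_mul N q hd
  rw [eOf_eq] at h1 h2
  rcases gcd_mul_prime hp d (cOf N q) with h | h
  · left
    rw [h, ← h2] at h1
    have h3 : (p * mOf N q (d * p)) * d = mOf N q d * d := by rw [← h1]; ring
    exact Nat.eq_of_mul_eq_mul_right hd0 h3
  · right
    rw [h] at h1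
    have h3 : mOf N q (d * p) * (d * p) = (p * mOf N q d) * (d * p) := by
      rw [h1]
      calc N * (p * Nat.gcd d (cOf N q)) ^ 2 = p ^ 2 * (N * Nat.gcd d (cOf N q) ^ 2) := by ring
        _ = p ^ 2 * (mOf N q d * d) := by rw [h2]
        _ = (p * mOf N q d) * (d * p) := by ring
    exact Nat.eq_of_mul_eq_mul_right (Nat.mul_pos hd0 hp0) h3

omit [NeZero N] in
theorem pow_dvd_eOf_iff (q : Q N) {p i : ℕ} (hi : p ^ (i + 1) ∣ N) :
    p ^ (i + 1) ∣ eOf N q N ↔ p ^ (i + 1) ∣ cOf N q := by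
  rw [eOf_eq]
  exact ⟨fun h => dvd_trans h (Nat.gcd_dvd_right _ _), fun h => Nat.dvd_gcd hi h⟩

omit [NeZero N] in
/-- the two cases at a prime power edge, in terms of the widths -/
theorem mOf_prime_pow (q : Q N) (p i : ℕ) (hp : p.Prime) (hi : p ^ (i + 1) ∣ N) :
    (p ^ (i + 1) ∣ eOf N q N → mOf N q (p ^ (i + 1)) = p * mOf N q (p ^ i)) ∧
      (¬ p ^ (i + 1) ∣ eOf N q N → p * mOf N q (p ^ (i + 1)) = mOf N q (p ^ i)) := by
  have hi' : p ^ i ∣ N := dvd_trans (pow_dvd_pow p (Nat.le_succ i)) hi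
  have hp0 : 0 < p := hp.pos
  have hpi : 0 < p ^ i := pow_pos hp0 i
  have hpi1 : 0 < p ^ (i + 1) := pow_pos hp0 (i + 1)
  have h1 := mOf_mul N q hi
  have h2 := mOf_mul N q hi'
  rw [eOf_eq] at h1 h2
  obtain ⟨hA, hB⟩ := gcd_prime_pow_succ hp i (cOf N q)
  constructor
  · intro h
    rw [pow_dvd_eOf_iff N q hi] at h
    rw [hA h] at h1
    have h3 : mOf N q (p ^ (i + 1)) * p ^ (i + 1) = (p * mOf N q (p ^ i)) * p ^ (i + 1) := by
      rw [h1]
      calc N * (p * Nat.gcd (p ^ i) (cOf N q)) ^ 2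
          = p ^ 2 * (N * Nat.gcd (p ^ i) (cOf N q) ^ 2) := by ring
        _ = p ^ 2 * (mOf N q (p ^ i) * p ^ i) := by rw [h2]
        _ = (p * mOf N q (p ^ i)) * p ^ (i + 1) := by ring
    exact Nat.eq_of_mul_eq_mul_right hpi1 h3
  · intro h
    rw [pow_dvd_eOf_iff N q hi] at h
    rw [hB h, ← h2] at h1
    have h3 : (p * mOf N q (p ^ (i + 1))) * p ^ i = mOf N q (p ^ i) * p ^ i := by
      rw [← h1]; ring
    exact Nat.eq_of_mul_eq_mul_right hpi h3

theorem mOf_pos' (q : Q N) {d : ℕ} (hd : d ∣ N) : 0 < mOf N q d := mOf_pos N q hd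

/-- **(B4)** -/
theorem mOf_f (q : Q N) (p i : ℕ) (hp : p.Prime) (hi : p ^ (i + 1) ∣ N) :
    (p ^ (i + 1) ∣ eOf N q N → mOf N q (p ^ (i + 1)) = p * mOf N q (p ^ i)) ∧
      (¬ p ^ (i + 1) ∣ eOf N q N → mOf N q (p ^ (i + 1)) < p * mOf N q (p ^ i)) := by
  obtain ⟨hA, hB⟩ := mOf_prime_pow N q p i hp hi
  refine ⟨hA, fun h => ?_⟩
  have h1 := hB h
  have h2 : 0 < mOf N q (p ^ (i + 1)) := mOf_pos N q hi
  have hp2 : 2 ≤ p := hp.two_le
  rw [← h1]
  nlinarith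

/-- **(B4)** -/
theorem mOf_g (q : Q N) (p i : ℕ) (hp : p.Prime) (hi : p ^ (i + 1) ∣ N) :
    (¬ p ^ (i + 1) ∣ eOf N q N → mOf N q (p ^ i) = p * mOf N q (p ^ (i + 1))) ∧
      (p ^ (i + 1) ∣ eOf N q N → mOf N q (p ^ i) < p * mOf N q (p ^ (i + 1))) := by
  obtain ⟨hA, hB⟩ := mOf_prime_pow N q p i hp hi
  refine ⟨fun h => (hB h).symm, fun h => ?_⟩
  have h1 := hA h
  have hi' : p ^ i ∣ N := dvd_trans (pow_dvd_pow p (Nat.le_succ i)) hi
  have h2 : 0 < mOf N q (p ^ i) := mOf_pos N q hi'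
  have hp2 : 2 ≤ p := hp.two_le
  rw [h1]
  nlinarith

omit [NeZero N] in
/-- **(B4)** two different patterns differ at a prime power edge -/
theorem exists_prime_pow_of_ne (q q' : Q N) (h : eOf N q N ≠ eOf N q' N) :
    ∃ p i : ℕ, p.Prime ∧ p ^ (i + 1) ∣ N ∧
      ((p ^ (i + 1) ∣ eOf N q N ∧ ¬ p ^ (i + 1) ∣ eOf N q' N) ∨
        (¬ p ^ (i + 1) ∣ eOf N q N ∧ p ^ (i + 1) ∣ eOf N q' N)) := by
  by_contra hcon
  push Not at hcon
  apply h
  have key : ∀ a b : ℕ, a ∣ N → b ∣ N →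
      (∀ p i : ℕ, p.Prime → p ^ (i + 1) ∣ N → (p ^ (i + 1) ∣ a → p ^ (i + 1) ∣ b)) → a ∣ b := by
    intro a b ha _ hab
    rw [Nat.dvd_iff_prime_pow_dvd_dvd]
    intro p k hp hk
    rcases Nat.eq_zero_or_pos k with rfl | hk0
    · rw [pow_zero]; exact one_dvd _
    · obtain ⟨i, rfl⟩ : ∃ i, k = i + 1 := ⟨k - 1, by omega⟩
      exact hab p i hp (dvd_trans hk ha) hk
  apply Nat.dvd_antisymm
  · refine key _ _ (eOf_N_dvd N q) (eOf_N_dvd N q') fun p i hp hi h1 => ?_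
    by_contra h2
    exact absurd h2 (not_not.mpr ((hcon p i hp hi).1 h1))
  · refine key _ _ (eOf_N_dvd N q') (eOf_N_dvd N q) fun p i hp hi h1 => ?_
    by_contra h2
    exact (hcon p i hp hi).2 h2 h1

end Fermat.Agent.S18.Cusp0Sign
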