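import Mathlib
import Fermat.Agent.S18.Cusp0Exp
import Fermat.Agent.S18.CuspAbs
import Fermat.Agent.S18.RedExt

/-!
# S18, leaf [G], cusps: the generators `j(dτ)`, `d ∣ N`, in the Gauss ring

* generic lemmas: the order of a product at a place (`ord_prod`), the order of the expansion of
  a product (`order_map_prod`), the leading coefficient of the expansion as a multiplicative map
  (`lcHom`);
* the generators `gF N d` and their inverses lie in the Gauss ring `OO A N`, with nonzero
  reduction (`gF_mem_OO`, `gO`, `redN_gO_ne_zero`, `gF_inv_mem_OO`, `gF_zpow_mem_OO`).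
-/

set_option autoImplicit false
set_option linter.style.haveILetI false
set_option linter.unusedSectionVars false

noncomputable section

namespace Fermat.Agent.S18.CuspMono

open ModularCurve AlgebraicCurve Fermat.Agent.S24 Fermat.Agent.S24.Eval
  Fermat.Agent.S24.Jq Fermat.Agent.S24.SigmaCusp Fermat.Agent.S24.Embed
  Fermat.Agent.S18.Gauss Fermat.Agent.S18.Lattice Fermat.Agent.S18.Charts
  Fermat.Agent.S18.CuspAbs Fermat.Agent.S18.Cusp0Exp
open Fermat.Agent.S20 Fermat.Agent.S24.Distinct
open scoped MatrixGroups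

/-! ### Generic lemmas on orders of products -/

section Generic

variable {K F : Type*} [Field K] [Field F] [Algebra K F]

theorem ord_prod {ι : Type*} (P : Place K F) (s : Finset ι) (f : ι → F)
    (hf : ∀ i ∈ s, f i ≠ 0) : P.ord (∏ i ∈ s, f i) = ∑ i ∈ s, P.ord (f i) := by
  classical
  induction s using Finset.induction_on with
  | empty => simp [Place.ord_one]
  | insert a s ha ih =>
    rw [Finset.prod_insert ha, Finset.sum_insert ha,
      P.ord_mul (hf a (Finset.mem_insert_self a s))
        (Finset.prod_ne_zero_iff.mpr fun i hi => hf i (Finset.mem_insert_of_mem hi)),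
      ih fun i hi => hf i (Finset.mem_insert_of_mem hi)]

theorem order_map_prod {ι : Type*} (σ : F →+* LaurentSeries ℂ) (s : Finset ι) (f : ι → F)
    (hf : ∀ i ∈ s, f i ≠ 0) : (σ (∏ i ∈ s, f i)).order = ∑ i ∈ s, (σ (f i)).order := by
  classical
  induction s using Finset.induction_on with
  | empty => simp
  | insert a s ha ih =>
    rw [Finset.prod_insert ha, Finset.sum_insert ha,
      order_map_mul σ (hf a (Finset.mem_insert_self a s))
        (Finset.prod_ne_zero_iff.mpr fun i hi => hf i (Finset.mem_insert_of_mem hi)),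
      ih fun i hi => hf i (Finset.mem_insert_of_mem hi)]

/-- The leading coefficient of the expansion, as a multiplicative map. -/
def lcHom (σ : F →+* LaurentSeries ℂ) : F →*₀ ℂ where
  toFun f := (σ f).leadingCoeff
  map_zero' := by rw [map_zero, HahnSeries.leadingCoeff_zero]
  map_one' := by rw [map_one, HahnSeries.leadingCoeff_one]
  map_mul' f g := by rw [map_mul, HahnSeries.leadingCoeff_mul]

theorem lcHom_apply (σ : F →+* LaurentSeries ℂ) (f : F) :
    lcHom σ f = (σ f).leadingCoeff := rfl

end Generic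

/-! ### The generators in the Gauss ring -/

section Gen

variable (A : ValuationSubring KK) (N : ℕ) [NeZero N]

theorem isIntU_gen (d : Dv N) :
    IsIntU A (modularFunctionFieldBar N) (FkN A N) (jqNModC A (d : ℕ)) :=
  isIntU_of_isInt (Fermat.Agent.S18.RedExt.isInt_jqNModC (A := A)
    (π := IsLocalRing.residue A) (N := N) d.2)

theorem inc_gen (d : Dv N) :
    inc A (jqNModC A (d : ℕ)) = ((gF N d : FF N) : LaurentSeries KK) := by
  show coeffMap A.subtype (jqNModC A (d : ℕ)) = jgenL (d : ℕ)
  rw [coeffMap_jqNModC]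
  change jqNModC KK (d : ℕ) = coeffMap (algebraMap ℚ KK) (jqNModC ℚ (d : ℕ))
  rw [coeffMap_jqNModC]

theorem gF_mem_OO (d : Dv N) : gF N d ∈ OO A N := by
  have h2 := inc_mem_gaussRing (isIntU_gen A N d).1
  have e : (⟨inc A (jqNModC A (d : ℕ)), (isIntU_gen A N d).1.1⟩ : FF N) = gF N d :=
    Subtype.ext (inc_gen A N d)
  rwa [e] at h2

/-- The generators, in the Gauss ring. -/
def gO (d : Dv N) : OO A N := ⟨gF N d, gF_mem_OO A N d⟩

@[simp] theorem coe_gO (d : Dv N) : ((gO A N d : OO A N) : FF N) = gF N d := rfl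

theorem redN_gO_ne_zero (d : Dv N) : redN A N (gO A N d) ≠ 0 := by
  intro h
  have h1 := congrArg Subtype.val h
  rw [gO, redN_eq_rd A N (gF_mem_OO A N d) (inc_gen A N d)] at h1
  exact (isIntU_gen A N d).2 h1

theorem gF_ne_zero (d : Dv N) : gF N d ≠ 0 := by
  intro h
  have hA : redN (⊤ : ValuationSubring KK) N (gO ⊤ N d) ≠ 0 := redN_gO_ne_zero ⊤ N d
  apply hA
  have : gO (⊤ : ValuationSubring KK) N d = 0 := Subtype.ext h
  rw [this, map_zero]

theorem gF_inv_mem_OO (d : Dv N) : (gF N d)⁻¹ ∈ OO A N :=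
  inv_mem_of_red_ne_zero (f := gO A N d) (redN_gO_ne_zero A N d)

theorem gF_zpow_mem_OO (d : Dv N) (n : ℤ) : gF N d ^ n ∈ OO A N := by
  obtain ⟨m, rfl | rfl⟩ := n.eq_nat_or_neg
  · rw [zpow_natCast]
    exact pow_mem (gF_mem_OO A N d) m
  · rw [zpow_neg, zpow_natCast, ← inv_pow]
    exact pow_mem (gF_inv_mem_OO A N d) m

end Gen

end Fermat.Agent.S18.CuspMono
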