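import Mathlib
import Fermat.Agent.S18.Cusp0Def
import Fermat.Agent.S18.CuspMono
import Fermat.Agent.S18.ResField

/-!
# S18 moonshot, cusp package, leaf (S6): roots of unity and monomials in the Gauss ring

* `root_mem`, `root_sub_inv_mem`: the `N`-th roots of unity of `KK` are units of the valuation
  ring `A`, and for `ℓ ∤ N` the difference of two distinct `N`-th roots of unity is a unit of `A`;
* `mono_mem_OO`, `redN_mono_ne_zero`: the monomials of `Cusp0Def` are Gauss-integral with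
  nonzero reduction.
-/

set_option autoImplicit false
set_option linter.style.haveILetI false
set_option linter.unusedSectionVars false
set_option linter.unusedVariables false

noncomputable section

namespace Fermat.Agent.S18.Cusp0Unit

open ModularCurve AlgebraicCurve Fermat.Agent.S24 Fermat.Agent.S24.Eval
  Fermat.Agent.S24.Jq
  Fermat.Agent.S18.Gauss Fermat.Agent.S18.Lattice Fermat.Agent.S18.Charts
  Fermat.Agent.S18.CuspAbs Fermat.Agent.S18.Cusp0Exp Fermat.Agent.S18.Cusp0Def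
  Fermat.Agent.S18.CuspMono
open Fermat.Agent.S20

/-! ### Roots of unity -/

section Roots

variable {A : ValuationSubring KK} {ℓ : ℕ} [Fact ℓ.Prime] (N : ℕ) [NeZero N]

theorem isIntegral_of_pow_eq_one {a : KK} (ha : a ^ N = 1) : IsIntegral ℤ a :=
  IsIntegral.of_pow (Nat.pos_of_ne_zero (NeZero.ne N)) (by rw [ha]; exact isIntegral_one)

theorem inv_pow_eq_one {a : KK} (ha : a ^ N = 1) : a⁻¹ ^ N = 1 := by
  rw [inv_pow, ha, inv_one]

/-- The `N`-th roots of unity are units of `A`. -/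
theorem root_mem (hA : A.LiesOverPrime ℓ) (a : KK) (ha : a ^ N = 1) : a ∈ A ∧ a⁻¹ ∈ A :=
  ⟨Fermat.Agent.S18.ResField.mem_of_isIntegral_int A (isIntegral_of_pow_eq_one N ha),
    Fermat.Agent.S18.ResField.mem_of_isIntegral_int A
      (isIntegral_of_pow_eq_one N (inv_pow_eq_one N ha))⟩

/-- `N` is a unit of `A` if `ℓ ∤ N`. -/
theorem natCast_inv_mem (hA : A.LiesOverPrime ℓ) (hℓN : ¬ ℓ ∣ N) : ((N : ℕ) : KK)⁻¹ ∈ A := by
  haveI := Fermat.Agent.S18.ResField.charP_residueField (A := A) hA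
  have hu : IsUnit ((N : ℕ) : A) := by
    by_contra h
    have h1 : IsLocalRing.residue A ((N : ℕ) : A) = 0 :=
      (IsLocalRing.residue_eq_zero_iff _).mpr ((IsLocalRing.mem_maximalIdeal _).mpr h)
    rw [map_natCast] at h1
    exact hℓN ((CharP.cast_eq_zero_iff (IsLocalRing.ResidueField A) ℓ N).mp h1)
  obtain ⟨u, hu⟩ := hu
  have h1 : (((u⁻¹ : Aˣ) : A) : KK) * ((N : ℕ) : KK) = 1 := by
    have h2 : ((u⁻¹ : Aˣ) : A) * ((N : ℕ) : A) = 1 := by rw [← hu, Units.inv_mul]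
    have h3 := congrArg (fun x : A => (x : KK)) h2
    simpa using h3
  have h4 : ((N : ℕ) : KK)⁻¹ = (((u⁻¹ : Aˣ) : A) : KK) := (eq_inv_of_mul_eq_one_left h1).symm
  rw [h4]
  exact SetLike.coe_mem _

/-- `1 - ζ` divides `N` for a root of unity `ζ ≠ 1` of order dividing `N`. -/
theorem one_sub_mul_eq_natCast {ζ : KK} (hζ : ζ ^ N = 1) (hne : ζ ≠ 1) :
    (1 - ζ) * ∑ i ∈ Finset.range N, ∑ k ∈ Finset.range i, ζ ^ k = (N : KK) := by
  have h1 : ∀ i : ℕ, (1 - ζ) * ∑ k ∈ Finset.range i, ζ ^ k = 1 - ζ ^ i := fun i =>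
    mul_neg_geom_sum ζ i
  have h0 : ∑ i ∈ Finset.range N, ζ ^ i = 0 := by
    have h2 := h1 N
    rw [hζ, sub_self] at h2
    rcases mul_eq_zero.mp h2 with h3 | h3
    · exact absurd (sub_eq_zero.mp h3).symm hne
    · exact h3
  rw [Finset.mul_sum]
  simp_rw [h1]
  rw [Finset.sum_sub_distrib, h0, sub_zero, Finset.sum_const, Finset.card_range, nsmul_eq_mul,
    mul_one]

/-- For `ℓ ∤ N`, the difference of two distinct `N`-th roots of unity is a unit of `A`. -/
theorem root_sub_inv_mem (hA : A.LiesOverPrime ℓ) (hℓN : ¬ ℓ ∣ N) (a a' : KK) (ha : a ^ N = 1)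
    (ha' : a' ^ N = 1) (hne : a ≠ a') : (a - a')⁻¹ ∈ A := by
  have ha0 : a ≠ 0 := by
    rintro rfl
    rw [zero_pow (NeZero.ne N)] at ha
    exact zero_ne_one ha
  set ζ : KK := a' * a⁻¹ with hζdef
  have hζ : ζ ^ N = 1 := by rw [hζdef, mul_pow, ha', inv_pow, ha, inv_one, mul_one]
  have hζ1 : ζ ≠ 1 := by
    intro h
    apply hne
    rw [hζdef] at h
    have := congrArg (fun x => x * a) h
    simp only [inv_mul_cancel_right₀ ha0, one_mul] at this
    exact this.symm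
  have hζA : ζ ∈ A := (root_mem N hA ζ hζ).1
  set u : KK := ∑ i ∈ Finset.range N, ∑ k ∈ Finset.range i, ζ ^ k with hu
  have huA : u ∈ A := sum_mem fun i _ => sum_mem fun k _ => pow_mem hζA k
  have hmul : (1 - ζ) * u = ((N : ℕ) : KK) := one_sub_mul_eq_natCast N hζ hζ1
  have hN0 : ((N : ℕ) : KK) ≠ 0 := Nat.cast_ne_zero.mpr (NeZero.ne N)
  have h1ζ : (1 - ζ) ≠ 0 := sub_ne_zero.mpr (Ne.symm hζ1)
  have hinv : (a - a')⁻¹ = a⁻¹ * (u * ((N : ℕ) : KK)⁻¹) := by
    have hfac : a - a' = a * (1 - ζ) := by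
      rw [hζdef, mul_sub, mul_one, mul_comm a' a⁻¹, mul_inv_cancel_left₀ ha0]
    rw [hfac, mul_inv]
    congr 1
    have hu0 : u ≠ 0 := fun h0 => hN0 (by rw [← hmul, h0, mul_zero])
    rw [inv_eq_iff_eq_inv, mul_inv, inv_inv, ← hmul, mul_comm (1 - ζ) u, ← mul_assoc,
      inv_mul_cancel₀ hu0, one_mul]
  rw [hinv]
  exact mul_mem (root_mem N hA a ha).2 (mul_mem huA (natCast_inv_mem N hA hℓN))

end Roots

/-! ### Monomials in the Gauss ring -/

section Mono

variable (A : ValuationSubring KK) (N : ℕ) [NeZero N]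

/-- The units of the function field that are units of the Gauss ring with nonzero reduction. -/
theorem exists_red_ne_zero_monoU (n : Dv N →₀ ℤ) :
    ∃ (h : ((monoU N n : (FF N)ˣ) : FF N) ∈ OO A N),
      redN A N ⟨((monoU N n : (FF N)ˣ) : FF N), h⟩ ≠ 0 := by
  refine monoU_induction N
    (fun a : (FF N)ˣ => ∃ (h : (a : FF N) ∈ OO A N), redN A N ⟨(a : FF N), h⟩ ≠ 0)
    ?_ ?_ ?_ ?_ n
  · refine ⟨by rw [Units.val_one]; exact one_mem _, ?_⟩
    have e : (⟨((1 : (FF N)ˣ) : FF N), by rw [Units.val_one]; exact one_mem _⟩ : OO A N) = 1 :=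
      Subtype.ext Units.val_one
    rw [e, map_one]
    exact one_ne_zero
  · intro d
    have hmem : ((uU N d : (FF N)ˣ) : FF N) ∈ OO A N := by
      rw [coe_uU]
      exact gF_inv_mem_OO A N d
    refine ⟨hmem, fun h0 => ?_⟩
    have hprod : (⟨((uU N d : (FF N)ˣ) : FF N), hmem⟩ : OO A N) * gO A N d = 1 := by
      apply Subtype.ext
      show ((uU N d : (FF N)ˣ) : FF N) * gF N d = 1
      rw [coe_uU]
      exact inv_mul_cancel₀ (CuspMono.gF_ne_zero N d)
    have := congrArg (redN A N) hprod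
    rw [map_mul, h0, zero_mul, map_one] at this
    exact zero_ne_one this
  · rintro a b ⟨ha, ha0⟩ ⟨hb, hb0⟩
    have hmem : ((a * b : (FF N)ˣ) : FF N) ∈ OO A N := by
      rw [Units.val_mul]
      exact mul_mem ha hb
    refine ⟨hmem, ?_⟩
    have e : (⟨((a * b : (FF N)ˣ) : FF N), hmem⟩ : OO A N) =
        ⟨(a : FF N), ha⟩ * ⟨(b : FF N), hb⟩ := Subtype.ext (Units.val_mul a b)
    rw [e, map_mul]
    exact mul_ne_zero ha0 hb0
  · rintro a ⟨ha, ha0⟩
    have hmem : ((a⁻¹ : (FF N)ˣ) : FF N) ∈ OO A N := by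
      rw [Units.val_inv_eq_inv_val]
      exact inv_mem_of_red_ne_zero (f := ⟨(a : FF N), ha⟩) ha0
    refine ⟨hmem, fun h0 => ?_⟩
    have hprod : (⟨((a⁻¹ : (FF N)ˣ) : FF N), hmem⟩ : OO A N) * ⟨(a : FF N), ha⟩ = 1 := by
      apply Subtype.ext
      show ((a⁻¹ : (FF N)ˣ) : FF N) * (a : FF N) = 1
      rw [← Units.val_mul, inv_mul_cancel, Units.val_one]
    have := congrArg (redN A N) hprod
    rw [map_mul, h0, zero_mul, map_one] at this
    exact zero_ne_one this

/-- The monomials are Gauss-integral. -/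
theorem mono_mem_OO (n : Dv N →₀ ℤ) : mono N n ∈ OO A N :=
  (exists_red_ne_zero_monoU A N n).1

/-- The reduction of a monomial is not zero. -/
theorem redN_mono_ne_zero (n : Dv N →₀ ℤ) :
    redN A N ⟨mono N n, mono_mem_OO A N n⟩ ≠ 0 :=
  (exists_red_ne_zero_monoU A N n).2

/-- The monomials, in the Gauss ring. -/
def monoO (n : Dv N →₀ ℤ) : OO A N := ⟨mono N n, mono_mem_OO A N n⟩

@[simp] theorem coe_monoO (n : Dv N →₀ ℤ) : ((monoO A N n : OO A N) : FF N) = mono N n := rfl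

theorem redN_monoO_ne_zero (n : Dv N →₀ ℤ) : redN A N (monoO A N n) ≠ 0 :=
  redN_mono_ne_zero A N n

end Mono

end Fermat.Agent.S18.Cusp0Unit
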