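/-
S18 moonshot, cusps (helper9): the ramification index of `j` at every cusp of `X₀(N)` divides
`N`.  Every place `c` of `FF N` over `j = ∞` is induced by one of the embeddings
`SigmaCusp.sigma N q : FF N →+* ℂ((q_N))`, of order `g` with `g * e_c = N`.
-/
import Mathlib
import Fermat.Agent.S18.HauptParamFF

set_option autoImplicit false

namespace Fermat.Agent.S18.CuspWidth

open AlgebraicCurve
open Fermat.Agent.S24 Fermat.Agent.S24.Eval Fermat.Agent.S24.Embed Fermat.Agent.S20
open scoped MatrixGroups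

variable (N : ℕ) [NeZero N]

/-- Every cusp is induced by an embedding `sigma N q`, and `g * e_c = N`. -/
theorem exists_induced (c : Place KK (FF N)) (hc : c.ord (jF N) < 0) :
    ∃ (q : Q N) (g : ℕ), IsInducedBy c (SigmaCusp.sigma N q) g ∧
      (g : ℤ) * (-(c.ord (jF N))) = N :=
  exists_induced_placesOverInfty (HauptParamFF.inputsFF N).H1 (SigmaCusp.localData N)
    (HauptParamFF.inputsFF N).H2infty c hc

/-- **The width of a cusp divides the level**: `g * e_c = N` with `g ≥ 1`. -/
theorem exists_mul_eq (c : Place KK (FF N)) (hc : c.ord (jF N) < 0) :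
    ∃ g : ℕ, 0 < g ∧ (g : ℤ) * (-(c.ord (jF N))) = N := by
  obtain ⟨q, g, hg, h⟩ := exists_induced N c hc
  exact ⟨g, hg.pos, h⟩

/-- **The ramification index of `j` at a cusp divides `N`.** -/
theorem ord_jF_dvd (c : Place KK (FF N)) (hc : c.ord (jF N) < 0) :
    (-(c.ord (jF N))) ∣ (N : ℤ) := by
  obtain ⟨g, -, h⟩ := exists_mul_eq N c hc
  exact ⟨g, by rw [← h]; ring⟩

/-- The ramification index of `j` at a cusp is at most `N`. -/
theorem neg_ord_jF_le (c : Place KK (FF N)) (hc : c.ord (jF N) < 0) :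
    -(c.ord (jF N)) ≤ (N : ℤ) :=
  Int.le_of_dvd (by exact_mod_cast Nat.pos_of_ne_zero (NeZero.ne N)) (ord_jF_dvd N c hc)

end Fermat.Agent.S18.CuspWidth
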