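/-
S18 moonshot leaf K2 (helper9): THE TAYLOR HOMOMORPHISM `exp (X d/ds)` ON `L((w))`, char `L = 0`,
for a coordinate `s = w + a₂ w² + ⋯` of order `+1` with leading coefficient `1`.

Companion of `TaylorQ` (coordinate `μ` of order `-1`).  For a power series `s` with
`constantCoeff s = 0`, `coeff 1 s = 1`:

* `TS s : L((w)) →+* L((w))⟦X⟧` with `constantCoeff (TS s f) = f`, `TS s (C a) = C (C a)`,
  `TS s s = C s + X`;
* `derS s` is a derivation (`d/ds`) and `coeff n (TS s f) = dpow (derS s) n f`;
  `(n+1) * coeff (n+1) (TS s f) = derS s (coeff n (TS s f))`;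
* integrality (`pcoeffIn_TS`): if the coefficients of `s` lie in a subring `A` of `L` and the
  coefficients of `f` lie in an `A`-stable additive subgroup `I` of `L`, then all coefficients
  of all `coeff n (TS s f)` lie in `I`.

Wrapper for Laurent series `σ` with `IsLeadS σ` (`σ.coeff 1 = 1`, no lower terms):
`TLS σ`, `DLS σ`.
-/
import Mathlib
import Fermat.Agent.S18.TaylorQ

set_option autoImplicit false

namespace Fermat.Agent.S18.TaylorS

open Finset Fermat.Agent.S18.TaylorQ

section PS

variable {L : Type*} [Field L] [CharZero L]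

/-- The derivation `d/ds = (ds/dw)⁻¹ d/dw` of `L⟦w⟧`. -/
noncomputable def ders (s : PowerSeries L) : Derivation ℚ (PowerSeries L) (PowerSeries L) :=
  (((PowerSeries.derivative L s)⁻¹) • PowerSeries.derivative L).restrictScalars ℚ

theorem ders_apply (s f : PowerSeries L) :
    ders s f = (PowerSeries.derivative L s)⁻¹ * PowerSeries.derivative L f := by
  simp [ders]

theorem ders_self (s : PowerSeries L) (h1 : PowerSeries.coeff 1 s = 1) : ders s s = 1 := by
  rw [ders_apply, PowerSeries.inv_mul_cancel]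
  rw [constantCoeff_derivative, h1]
  exact one_ne_zero

theorem ders_C (s : PowerSeries L) (a : L) : ders s (PowerSeries.C a) = 0 := by
  rw [ders_apply, PowerSeries.derivative_C, mul_zero]

theorem dpow_ders_self_one (s : PowerSeries L) (h1 : PowerSeries.coeff 1 s = 1) :
    dpow (ders s) 1 s = 1 := by
  rw [dpow_one, ders_self s h1]

theorem dpow_ders_self_add_two (s : PowerSeries L) (h1 : PowerSeries.coeff 1 s = 1) (n : ℕ) :
    dpow (ders s) (n + 2) s = 0 := by
  induction n with
  | zero =>
    rw [zero_add, show (2 : ℕ) = 1 + 1 from rfl, dpow_succ, dpow_ders_self_one s h1,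
      Derivation.map_one_eq_zero, smul_zero]
  | succ n ih =>
    rw [show n + 1 + 2 = (n + 2) + 1 from rfl, dpow_succ, ih, map_zero, smul_zero]

/-- The Taylor homomorphism on power series. -/
noncomputable def S0 (s : PowerSeries L) : PowerSeries L →+* PowerSeries (PowerSeries L) :=
  expDer (ders s)

theorem constantCoeff_S0 (s f : PowerSeries L) : PowerSeries.constantCoeff (S0 s f) = f :=
  constantCoeff_expDer _ _

theorem S0_C (s : PowerSeries L) (a : L) :
    S0 s (PowerSeries.C a) = PowerSeries.C (PowerSeries.C a) :=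
  expDer_of_eq_zero _ _ (ders_C s a)

theorem S0_self (s : PowerSeries L) (h1 : PowerSeries.coeff 1 s = 1) :
    S0 s s = PowerSeries.C s + PowerSeries.X := by
  ext n : 1
  rw [S0, coeff_expDer, map_add, PowerSeries.coeff_C, PowerSeries.coeff_X]
  rcases n with _ | _ | n
  · simp [dpow_zero]
  · rw [zero_add, dpow_ders_self_one s h1]
    simp
  · rw [dpow_ders_self_add_two s h1]
    simp

end PS

section Integral

variable {L : Type*} [Field L] [CharZero L]

/-- **Integrality of the divided powers** of `d/ds` on power series. -/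
theorem coeff_dpow_ders_mem (A : Subring L) (I : AddSubgroup L)
    (hI : ∀ a ∈ A, ∀ x ∈ I, a * x ∈ I) (s : PowerSeries L)
    (hs0 : PowerSeries.constantCoeff s = 0) (h1 : PowerSeries.coeff 1 s = 1)
    (hsA : ∀ i, PowerSeries.coeff i s ∈ A) :
    ∀ k : ℕ, ∀ n : ℕ, ∀ f : PowerSeries L, (∀ i, PowerSeries.coeff i f ∈ I) →
      PowerSeries.coeff k (dpow (ders s) n f) ∈ I := by
  intro k
  induction k using Nat.strong_induction_on with
  | _ k ihk =>
    intro n
    induction n using Nat.strong_induction_on with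
    | _ n ihn =>
      intro f hf
      obtain ⟨g, hg, hfg⟩ := exists_eq_C_add_mul A I hI s hs0 h1 hsA f hf
      have hc : PowerSeries.coeff k
          (dpow (ders s) n (PowerSeries.C (PowerSeries.constantCoeff f))) ∈ I := by
        by_cases hn : n = 0
        · subst hn
          rw [dpow_zero, PowerSeries.coeff_C]
          split_ifs
          · have := hf 0
            rwa [PowerSeries.coeff_zero_eq_constantCoeff_apply] at this
          · exact I.zero_mem
        · rw [dpow_eq_zero _ n hn _ (ders_C s _), map_zero]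
          exact I.zero_mem
      rw [hfg, dpow_add, map_add, dpow_mul, map_sum]
      refine I.add_mem hc (I.sum_mem fun p hp => ?_)
      have hpn : p.1 + p.2 = n := Finset.HasAntidiagonal.mem_antidiagonal.mp hp
      rcases h : p.1 with _ | _ | a
      · -- `s * dpow n g`
        rw [dpow_zero, PowerSeries.coeff_mul]
        refine I.sum_mem fun ab hab => ?_
        have hab' : ab.1 + ab.2 = k := Finset.HasAntidiagonal.mem_antidiagonal.mp hab
        by_cases ha : ab.1 = 0
        · rw [ha, PowerSeries.coeff_zero_eq_constantCoeff_apply, hs0, zero_mul]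
          exact I.zero_mem
        · exact hI _ (hsA _) _ (ihk ab.2 (by omega) p.2 g hg)
      · -- `1 * dpow (n - 1) g`
        rw [zero_add, dpow_ders_self_one s h1, one_mul]
        exact ihn p.2 (by omega) g hg
      · rw [dpow_ders_self_add_two s h1, zero_mul, map_zero]
        exact I.zero_mem

end Integral

section Laurent

variable {L : Type*} [Field L] [CharZero L]

/-- The Taylor homomorphism on power series, with values in Laurent series. -/
noncomputable def S1 (s : PowerSeries L) : PowerSeries L →+* PowerSeries (LaurentSeries L) :=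
  (PowerSeries.map (HahnSeries.ofPowerSeries ℤ L)).comp (S0 s)

theorem coeff_S1 (s f : PowerSeries L) (n : ℕ) :
    PowerSeries.coeff n (S1 s f) = HahnSeries.ofPowerSeries ℤ L (dpow (ders s) n f) := by
  rw [S1, RingHom.comp_apply, PowerSeries.coeff_map, S0, coeff_expDer]

theorem constantCoeff_S1 (s f : PowerSeries L) :
    PowerSeries.constantCoeff (S1 s f) = HahnSeries.ofPowerSeries ℤ L f := by
  rw [← PowerSeries.coeff_zero_eq_constantCoeff_apply, coeff_S1, dpow_zero]

theorem isUnit_S1 (s : PowerSeries L) (y : Submonoid.powers (PowerSeries.X : PowerSeries L)) :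
    IsUnit (S1 s y) := by
  rw [PowerSeries.isUnit_iff_constantCoeff, constantCoeff_S1]
  apply IsUnit.mk0
  intro h
  obtain ⟨n, hn⟩ := y.2
  have h2 := HahnSeries.ofPowerSeries_injective (Γ := ℤ) (R := L) (h.trans (map_zero _).symm)
  rw [← hn] at h2
  exact pow_ne_zero n PowerSeries.X_ne_zero h2

/-- **The Taylor homomorphism** `exp (X d/ds)` on Laurent series. -/
noncomputable def TS (s : PowerSeries L) : LaurentSeries L →+* PowerSeries (LaurentSeries L) :=
  IsLocalization.lift (M := Submonoid.powers (PowerSeries.X : PowerSeries L)) (g := S1 s)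
    (isUnit_S1 s)

theorem TS_coe (s f : PowerSeries L) : TS s (HahnSeries.ofPowerSeries ℤ L f) = S1 s f :=
  IsLocalization.lift_eq (M := Submonoid.powers (PowerSeries.X : PowerSeries L)) (isUnit_S1 s) f

theorem constantCoeff_TS (s : PowerSeries L) (f : LaurentSeries L) :
    PowerSeries.constantCoeff (TS s f) = f := by
  have h : (PowerSeries.constantCoeff).comp (TS s) = RingHom.id (LaurentSeries L) :=
    ringHom_ext_laurent fun g => by
      rw [RingHom.comp_apply, TS_coe, constantCoeff_S1, RingHom.id_apply]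
  exact congrArg (fun φ => φ f) h

theorem TS_C (s : PowerSeries L) (a : L) :
    TS s (HahnSeries.C a) = PowerSeries.C (HahnSeries.C a) := by
  rw [← HahnSeries.ofPowerSeries_C, TS_coe, S1, RingHom.comp_apply, S0_C, PowerSeries.map_C]

theorem TS_self (s : PowerSeries L) (h1 : PowerSeries.coeff 1 s = 1) :
    TS s (HahnSeries.ofPowerSeries ℤ L s) =
      PowerSeries.C (HahnSeries.ofPowerSeries ℤ L s) + PowerSeries.X := by
  rw [TS_coe, S1, RingHom.comp_apply, S0_self s h1, map_add, PowerSeries.map_C,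
    PowerSeries.map_X]

/-- The explicit inverse of `C s + X`: the geometric series `∑ (-1)ⁿ μⁿ⁺¹ Xⁿ`, `μ = 1/s`. -/
noncomputable def geom (μ : LaurentSeries L) : PowerSeries (LaurentSeries L) :=
  PowerSeries.mk fun n => (-1) ^ n * μ ^ (n + 1)

omit [CharZero L] in
theorem add_mul_geom (σ μ : LaurentSeries L) (hμ : μ * σ = 1) :
    (PowerSeries.C σ + PowerSeries.X) * geom μ = 1 := by
  ext n : 1
  rw [add_mul, map_add, PowerSeries.coeff_C_mul, PowerSeries.coeff_one]
  cases n with
  | zero =>
    rw [PowerSeries.coeff_zero_X_mul, add_zero, geom, PowerSeries.coeff_mk, if_pos rfl]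
    rw [pow_zero, one_mul, zero_add, pow_one, mul_comm]
    exact hμ
  | succ n =>
    rw [PowerSeries.coeff_succ_X_mul, geom, PowerSeries.coeff_mk, PowerSeries.coeff_mk,
      if_neg (Nat.succ_ne_zero n)]
    have e : σ * ((-1) ^ (n + 1) * μ ^ (n + 1 + 1)) + (-1) ^ n * μ ^ (n + 1) =
        (-1) ^ n * μ ^ (n + 1) * (1 - μ * σ) := by ring
    rw [e, hμ, sub_self, mul_zero]

theorem TS_inv (s : PowerSeries L) (h1 : PowerSeries.coeff 1 s = 1) (μ : LaurentSeries L)
    (hμ : μ * HahnSeries.ofPowerSeries ℤ L s = 1) : TS s μ = geom μ := by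
  have e2 : TS s μ * TS s (HahnSeries.ofPowerSeries ℤ L s) = 1 := by
    rw [← map_mul, hμ, map_one]
  have e3 := add_mul_geom (HahnSeries.ofPowerSeries ℤ L s) μ hμ
  rw [TS_self s h1] at e2
  calc TS s μ = TS s μ * ((PowerSeries.C (HahnSeries.ofPowerSeries ℤ L s) + PowerSeries.X) *
        geom μ) := by rw [e3, mul_one]
    _ = (TS s μ * (PowerSeries.C (HahnSeries.ofPowerSeries ℤ L s) + PowerSeries.X)) *
        geom μ := by ring
    _ = geom μ := by rw [e2, one_mul]

end Laurent

section LaurentIntegral2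

variable {L : Type*} [Field L] [CharZero L]

omit [CharZero L] in
theorem lcoeffIn_pow (A : Subring L) {x : LaurentSeries L} (hx : LCoeffIn A x) (k : ℕ) :
    LCoeffIn A (x ^ k) := by
  induction k with
  | zero => rw [pow_zero]; exact lcoeffIn_one A
  | succ k ih =>
    rw [pow_succ]
    exact lcoeffIn_mul A A.toAddSubgroup (fun a ha x hx => A.mul_mem ha hx) ih hx

omit [CharZero L] in
theorem lcoeffIn_neg_one_pow (A : Subring L) (n : ℕ) : LCoeffIn A ((-1 : LaurentSeries L) ^ n) := by
  rcases Nat.even_or_odd n with h | h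
  · rw [h.neg_one_pow]; exact lcoeffIn_one A
  · rw [h.neg_one_pow]
    intro i
    rw [HahnSeries.coeff_neg]
    exact A.neg_mem (lcoeffIn_one A i)

omit [CharZero L] in
theorem pcoeffIn_geom (A : Subring L) {μ : LaurentSeries L} (hμA : LCoeffIn A μ) :
    PCoeffIn A (geom μ) := by
  intro n
  rw [geom, PowerSeries.coeff_mk]
  exact lcoeffIn_mul A A.toAddSubgroup (fun a ha x hx => A.mul_mem ha hx)
    (lcoeffIn_neg_one_pow A n) (lcoeffIn_pow A hμA _)

theorem pcoeffIn_S1 (A : Subring L) (I : AddSubgroup L) (hI : ∀ a ∈ A, ∀ x ∈ I, a * x ∈ I)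
    (s : PowerSeries L) (hs0 : PowerSeries.constantCoeff s = 0)
    (h1 : PowerSeries.coeff 1 s = 1) (hsA : ∀ i, PowerSeries.coeff i s ∈ A)
    {g : PowerSeries L} (hg : ∀ i, PowerSeries.coeff i g ∈ I) : PCoeffIn I (S1 s g) := by
  intro n
  rw [coeff_S1]
  exact lcoeffIn_ofPowerSeries I fun i => coeff_dpow_ders_mem A I hI s hs0 h1 hsA i n g hg

theorem pcoeffIn_TS_single (A : Subring L)
    (s : PowerSeries L) (hs0 : PowerSeries.constantCoeff s = 0)
    (h1 : PowerSeries.coeff 1 s = 1) (hsA : ∀ i, PowerSeries.coeff i s ∈ A)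
    (μ : LaurentSeries L) (hμ : μ * HahnSeries.ofPowerSeries ℤ L s = 1)
    (hμA : LCoeffIn A μ) : PCoeffIn A (TS s (HahnSeries.single (-1 : ℤ) (1 : L))) := by
  set v : PowerSeries L := PowerSeries.mk fun p => PowerSeries.coeff (p + 1) s with hv
  have hs : s = PowerSeries.X * v := by
    conv_lhs => rw [PowerSeries.eq_X_mul_shift_add_const s, hs0, map_zero, add_zero]
  have hvA : ∀ i, PowerSeries.coeff i v ∈ A := fun i => by
    rw [hv, PowerSeries.coeff_mk]; exact hsA _
  have e : HahnSeries.single (-1 : ℤ) (1 : L) = μ * HahnSeries.ofPowerSeries ℤ L v := by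
    have h2 : HahnSeries.ofPowerSeries ℤ L s =
        HahnSeries.single (1 : ℤ) (1 : L) * HahnSeries.ofPowerSeries ℤ L v := by
      rw [hs, map_mul, HahnSeries.ofPowerSeries_X]
    rw [h2, ← mul_assoc, mul_comm μ, mul_assoc] at hμ
    calc HahnSeries.single (-1 : ℤ) (1 : L)
        = HahnSeries.single (-1 : ℤ) (1 : L) *
          (HahnSeries.single (1 : ℤ) (1 : L) * (μ * HahnSeries.ofPowerSeries ℤ L v)) := by
          rw [hμ, mul_one]
      _ = (HahnSeries.single (-1 : ℤ) (1 : L) * HahnSeries.single (1 : ℤ) (1 : L)) *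
          (μ * HahnSeries.ofPowerSeries ℤ L v) := by rw [mul_assoc]
      _ = μ * HahnSeries.ofPowerSeries ℤ L v := by
          rw [HahnSeries.single_mul_single]
          simp
  rw [e, map_mul, TS_inv s h1 μ hμ, TS_coe]
  exact pcoeffIn_mul A A.toAddSubgroup (fun a ha x hx => A.mul_mem ha hx)
    (pcoeffIn_geom A hμA)
    (pcoeffIn_S1 A A.toAddSubgroup (fun a ha x hx => A.mul_mem ha hx) s hs0 h1 hsA hvA)

/-- **Integrality of the Taylor homomorphism**: if `s` and `μ = 1/s` have coefficients in the
subring `A` and `f` has coefficients in the `A`-stable additive subgroup `I`, then all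
coefficients of all Hasse derivatives of `f` with respect to `s` lie in `I`. -/
theorem pcoeffIn_TS (A : Subring L) (I : AddSubgroup L) (hI : ∀ a ∈ A, ∀ x ∈ I, a * x ∈ I)
    (s : PowerSeries L) (hs0 : PowerSeries.constantCoeff s = 0)
    (h1 : PowerSeries.coeff 1 s = 1) (hsA : ∀ i, PowerSeries.coeff i s ∈ A)
    (μ : LaurentSeries L) (hμ : μ * HahnSeries.ofPowerSeries ℤ L s = 1)
    (hμA : LCoeffIn A μ) {f : LaurentSeries L} (hf : LCoeffIn I f) : PCoeffIn I (TS s f) := by
  obtain ⟨k, g, hg, hfg⟩ := exists_single_mul_eq f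
  rw [hfg, map_mul, map_pow, TS_coe]
  exact pcoeffIn_mul A I hI (pcoeffIn_pow A (pcoeffIn_TS_single A s hs0 h1 hsA μ hμ hμA) k)
    (pcoeffIn_S1 A I hI s hs0 h1 hsA fun i => by rw [hg]; exact hf _)

end LaurentIntegral2

section DerS

variable {L : Type*} [Field L] [CharZero L]

/-- The derivation `d/ds` of `L((w))`. -/
noncomputable def derS (s : PowerSeries L) :=
  derOfHom (TS s) (constantCoeff_TS s)

theorem derS_apply (s : PowerSeries L) (f : LaurentSeries L) :
    derS s f = PowerSeries.coeff 1 (TS s f) := rfl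

theorem derS_coe (s g : PowerSeries L) :
    derS s (HahnSeries.ofPowerSeries ℤ L g) = HahnSeries.ofPowerSeries ℤ L (ders s g) := by
  rw [derS_apply, TS_coe, coeff_S1, dpow_one]

theorem derS_C (s : PowerSeries L) (a : L) : derS s (HahnSeries.C a) = 0 := by
  rw [derS_apply, TS_C, PowerSeries.coeff_C, if_neg one_ne_zero]

theorem derS_self (s : PowerSeries L) (h1 : PowerSeries.coeff 1 s = 1) :
    derS s (HahnSeries.ofPowerSeries ℤ L s) = 1 := by
  rw [derS_apply, TS_self s h1, map_add, PowerSeries.coeff_C, if_neg one_ne_zero,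
    PowerSeries.coeff_one_X, zero_add]

theorem dpow_derS_coe (s g : PowerSeries L) (n : ℕ) :
    dpow (derS s) n (HahnSeries.ofPowerSeries ℤ L g) =
      HahnSeries.ofPowerSeries ℤ L (dpow (ders s) n g) := by
  induction n with
  | zero => rw [dpow_zero, dpow_zero]
  | succ n ih =>
    refine (map_dpow_succ (HahnSeries.ofPowerSeries ℤ L) (ders s) (derS s) n g ?_).symm
    rw [ih, derS_coe]

/-- **The Taylor homomorphism is `exp (X d/ds)`.** -/
theorem TS_eq_expDer (s : PowerSeries L) : TS s = expDer (derS s) := by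
  refine ringHom_ext_laurent fun g => ?_
  ext n : 1
  rw [TS_coe, coeff_S1, coeff_expDer, dpow_derS_coe]

theorem coeff_TS (s : PowerSeries L) (f : LaurentSeries L) (n : ℕ) :
    PowerSeries.coeff n (TS s f) = dpow (derS s) n f := by
  rw [TS_eq_expDer, coeff_expDer]

/-- The recursion characterising the Hasse derivatives `D_n = coeff n ∘ TS` in
characteristic zero: `(n + 1) D_{n+1} = D ∘ D_n`. -/
theorem succ_mul_coeff_TS (s : PowerSeries L) (f : LaurentSeries L) (n : ℕ) :
    ((n + 1 : ℕ) : LaurentSeries L) * PowerSeries.coeff (n + 1) (TS s f) =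
      derS s (PowerSeries.coeff n (TS s f)) := by
  rw [coeff_TS, coeff_TS, succ_mul_dpow_succ]

end DerS

section Wrapper

variable {L : Type*} [Field L]

/-- `σ = w + a₂ w² + ⋯`: a simple zero with leading coefficient `1`. -/
def IsLeadS (σ : LaurentSeries L) : Prop := σ.coeff 1 = 1 ∧ ∀ i : ℤ, i < 1 → σ.coeff i = 0

/-- the coordinate `σ` as a power series -/
noncomputable def pOf (σ : LaurentSeries L) : PowerSeries L :=
  PowerSeries.mk fun n => σ.coeff (n : ℤ)

theorem ofPowerSeries_pOf {σ : LaurentSeries L} (hσ : IsLeadS σ) :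
    HahnSeries.ofPowerSeries ℤ L (pOf σ) = σ := by
  ext i
  have := PowerSeries.coeff_coe (pOf σ) i
  rw [show (HahnSeries.ofPowerSeries ℤ L _).coeff i = _ from this]
  split_ifs with h
  · exact (hσ.2 i (by omega)).symm
  · rw [pOf, PowerSeries.coeff_mk]
    congr 1
    rw [Int.natAbs_of_nonneg]; omega

theorem constantCoeff_pOf {σ : LaurentSeries L} (hσ : IsLeadS σ) :
    PowerSeries.constantCoeff (pOf σ) = 0 := by
  rw [← PowerSeries.coeff_zero_eq_constantCoeff_apply, pOf, PowerSeries.coeff_mk]
  exact hσ.2 _ (by norm_num)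

theorem coeff_one_pOf {σ : LaurentSeries L} (hσ : IsLeadS σ) :
    PowerSeries.coeff 1 (pOf σ) = 1 := by
  rw [pOf, PowerSeries.coeff_mk]
  exact_mod_cast hσ.1

theorem coeff_pOf_mem (A : Subring L) {σ : LaurentSeries L} (hσA : LCoeffIn A σ) (i : ℕ) :
    PowerSeries.coeff i (pOf σ) ∈ A := by
  rw [pOf, PowerSeries.coeff_mk]
  exact hσA _

theorem ne_zero_of_isLeadS {σ : LaurentSeries L} (hσ : IsLeadS σ) : σ ≠ 0 := by
  intro h
  have := hσ.1
  rw [h, HahnSeries.coeff_zero] at this
  exact zero_ne_one this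

/-- the inverse of an integral coordinate is integral -/
theorem lcoeffIn_inv (A : Subring L) {σ : LaurentSeries L} (hσ : IsLeadS σ)
    (hσA : LCoeffIn A σ) : LCoeffIn A σ⁻¹ := by
  -- `σ = w * v`, `v` a unit power series over `A`
  let vA : PowerSeries A := PowerSeries.mk fun n => ⟨σ.coeff ((n : ℤ) + 1), hσA _⟩
  have hvA0 : PowerSeries.constantCoeff vA = ((1 : Aˣ) : A) := by
    rw [← PowerSeries.coeff_zero_eq_constantCoeff_apply, PowerSeries.coeff_mk]
    ext
    simpa using hσ.1
  have hσv : σ = HahnSeries.single (1 : ℤ) (1 : L) *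
      HahnSeries.ofPowerSeries ℤ L (PowerSeries.map A.subtype vA) := by
    ext i
    have h1 : i = (i - 1) + (1 : ℤ) := by ring
    conv_rhs => rw [h1, HahnSeries.coeff_single_mul_add, one_mul]
    have := PowerSeries.coeff_coe (PowerSeries.map A.subtype vA) (i - 1)
    rw [show (HahnSeries.ofPowerSeries ℤ L _).coeff (i - 1) = _ from this]
    split_ifs with h
    · exact hσ.2 i (by omega)
    · rw [PowerSeries.coeff_map, PowerSeries.coeff_mk]
      show σ.coeff i = σ.coeff (((i - 1).natAbs : ℤ) + 1)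
      congr 1
      rw [Int.natAbs_of_nonneg]; omega
      omega
  have hinv : σ⁻¹ = HahnSeries.single (-1 : ℤ) (1 : L) *
      HahnSeries.ofPowerSeries ℤ L (PowerSeries.map A.subtype (PowerSeries.invOfUnit vA 1)) := by
    apply inv_eq_of_mul_eq_one_right
    have h2 : HahnSeries.ofPowerSeries ℤ L (PowerSeries.map A.subtype vA) *
        HahnSeries.ofPowerSeries ℤ L (PowerSeries.map A.subtype (PowerSeries.invOfUnit vA 1))
          = 1 := by
      rw [← map_mul, ← map_mul, PowerSeries.mul_invOfUnit vA 1 hvA0, map_one, map_one]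
    calc σ * (HahnSeries.single (-1 : ℤ) (1 : L) * HahnSeries.ofPowerSeries ℤ L
          (PowerSeries.map A.subtype (PowerSeries.invOfUnit vA 1)))
        = (HahnSeries.single (1 : ℤ) (1 : L) * HahnSeries.single (-1 : ℤ) (1 : L)) *
          (HahnSeries.ofPowerSeries ℤ L (PowerSeries.map A.subtype vA) *
            HahnSeries.ofPowerSeries ℤ L
              (PowerSeries.map A.subtype (PowerSeries.invOfUnit vA 1))) := by
          conv_lhs => rw [hσv]
          ring
      _ = 1 := by
          rw [h2, HahnSeries.single_mul_single]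
          simp
  rw [hinv]
  intro i
  have h1 : i = (i + 1) + (-1 : ℤ) := by ring
  rw [h1, HahnSeries.coeff_single_mul_add, one_mul]
  have := PowerSeries.coeff_coe (PowerSeries.map A.subtype (PowerSeries.invOfUnit vA 1)) (i + 1)
  rw [show (HahnSeries.ofPowerSeries ℤ L _).coeff (i + 1) = _ from this]
  split_ifs
  · exact A.zero_mem
  · rw [PowerSeries.coeff_map]
    exact (PowerSeries.coeff _ (PowerSeries.invOfUnit vA 1)).2

variable [CharZero L]

/-- **The Taylor homomorphism** `f(σ) ↦ f(σ + X)` of `L((w))` attached to `σ = w + ⋯`. -/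
noncomputable def TLS (σ : LaurentSeries L) : LaurentSeries L →+* PowerSeries (LaurentSeries L) :=
  TS (pOf σ)

/-- The derivation `d/dσ` of `L((w))` attached to `σ = w + ⋯`. -/
noncomputable def DLS (σ : LaurentSeries L) := derS (pOf σ)

theorem constantCoeff_TLS (σ f : LaurentSeries L) : PowerSeries.constantCoeff (TLS σ f) = f :=
  constantCoeff_TS _ _

theorem TLS_C (σ : LaurentSeries L) (a : L) :
    TLS σ (HahnSeries.C a) = PowerSeries.C (HahnSeries.C a) :=
  TS_C _ _

theorem TLS_self {σ : LaurentSeries L} (hσ : IsLeadS σ) :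
    TLS σ σ = PowerSeries.C σ + PowerSeries.X := by
  have h := TS_self (pOf σ) (coeff_one_pOf hσ)
  rw [ofPowerSeries_pOf hσ] at h
  exact h

theorem pcoeffIn_TLS (A : Subring L) (I : AddSubgroup L) (hI : ∀ a ∈ A, ∀ x ∈ I, a * x ∈ I)
    {σ : LaurentSeries L} (hσ : IsLeadS σ) (hσA : LCoeffIn A σ) {f : LaurentSeries L}
    (hf : LCoeffIn I f) : PCoeffIn I (TLS σ f) :=
  pcoeffIn_TS A I hI (pOf σ) (constantCoeff_pOf hσ) (coeff_one_pOf hσ) (coeff_pOf_mem A hσA)
    σ⁻¹ (by rw [ofPowerSeries_pOf hσ]; exact inv_mul_cancel₀ (ne_zero_of_isLeadS hσ))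
    (lcoeffIn_inv A hσ hσA) hf

theorem DLS_apply (σ f : LaurentSeries L) : DLS σ f = PowerSeries.coeff 1 (TLS σ f) := rfl

theorem DLS_C (σ : LaurentSeries L) (a : L) : DLS σ (HahnSeries.C a) = 0 := derS_C _ _

theorem DLS_self {σ : LaurentSeries L} (hσ : IsLeadS σ) : DLS σ σ = 1 := by
  have h := derS_self (pOf σ) (coeff_one_pOf hσ)
  rw [ofPowerSeries_pOf hσ] at h
  exact h

theorem coeff_TLS (σ f : LaurentSeries L) (n : ℕ) :
    PowerSeries.coeff n (TLS σ f) = dpow (DLS σ) n f :=
  coeff_TS _ _ _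

theorem succ_mul_coeff_TLS (σ f : LaurentSeries L) (n : ℕ) :
    ((n + 1 : ℕ) : LaurentSeries L) * PowerSeries.coeff (n + 1) (TLS σ f) =
      DLS σ (PowerSeries.coeff n (TLS σ f)) :=
  succ_mul_coeff_TS _ _ _

end Wrapper

end Fermat.Agent.S18.TaylorS
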