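/-
S18 moonshot leaf K2, part 3 (helper9): field and place parts of the Hasse derivatives with
respect to a coordinate `σ` of order `+1` (companion of `HasseField` / `HasseReg`):

* `DLS_mem`, `coeff_TLS_mem`: `d/dσ` and all Hasse derivatives preserve every intermediate
  field of `L((w))` containing `σ` and algebraic over `L(σ)`;
* `coeff_TLS_mem_place`, `coeff_TLS_regular`: they preserve regularity at every place at which
  `σ - b` is a local parameter.
-/
import Mathlib
import Fermat.Agent.S18.TaylorS
import Fermat.Agent.S18.HasseReg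

set_option autoImplicit false

namespace Fermat.Agent.S18.HasseFieldS

open AlgebraicCurve IntermediateField
open Fermat.Agent.S24 Fermat.Agent.S18.HasseField Fermat.Agent.S18.HasseReg
open Fermat.Agent.S18.TaylorQ Fermat.Agent.S18.TaylorS

section Laurent

variable {L : Type*} [Field L] [CharZero L]

/-- **`d/dσ` preserves every intermediate field containing `σ` and algebraic over `L(σ)`.** -/
theorem DLS_mem {σ : LaurentSeries L} (hσ : IsLeadS σ)
    (F : IntermediateField L (LaurentSeries L)) (hσF : σ ∈ F)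
    (halg : ∀ f ∈ F, IsAlgebraic (IntermediateField.adjoin L {σ}) f)
    {f : LaurentSeries L} (hf : f ∈ F) : DLS σ f ∈ F := by
  have hadd : ∀ x y, DLS σ (x + y) = DLS σ x + DLS σ y := fun x y => map_add _ x y
  have hmul : ∀ x y, DLS σ (x * y) = x * DLS σ y + y * DLS σ x := fun x y =>
    leibniz_mul (DLS σ) x y
  have hKF : IntermediateField.adjoin L {σ} ≤ F := by
    rw [IntermediateField.adjoin_le_iff]
    intro x hx
    rw [Set.mem_singleton_iff] at hx
    rw [hx]; exact hσF
  have hK : ∀ x ∈ IntermediateField.adjoin L {σ}, DLS σ x ∈ IntermediateField.adjoin L {σ} :=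
    fun x hx => derivation_mem_adjoin (DLS σ) hadd hmul
      (fun c => by rw [algebraMap_eq_C, DLS_C]) σ (by rw [DLS_self hσ]; exact one_mem _) hx
  have hint : IsIntegral (IntermediateField.adjoin L {σ}) f := (halg f hf).isIntegral
  exact derivation_mem (DLS σ) hadd hmul _ F hKF hK hf
    ((minpoly.irreducible hint).separable)

/-- **All Hasse derivatives with respect to `σ` preserve `F`.** -/
theorem coeff_TLS_mem {σ : LaurentSeries L} (hσ : IsLeadS σ)
    (F : IntermediateField L (LaurentSeries L)) (hσF : σ ∈ F)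
    (halg : ∀ f ∈ F, IsAlgebraic (IntermediateField.adjoin L {σ}) f)
    {f : LaurentSeries L} (hf : f ∈ F) (n : ℕ) : PowerSeries.coeff n (TLS σ f) ∈ F := by
  induction n with
  | zero =>
    rw [PowerSeries.coeff_zero_eq_constantCoeff_apply, constantCoeff_TLS]
    exact hf
  | succ n ih =>
    have h := succ_mul_coeff_TLS σ f n
    have h0 : ((n + 1 : ℕ) : LaurentSeries L) ≠ 0 := natCast_ne_zero' n
    have e : PowerSeries.coeff (n + 1) (TLS σ f) =
        DLS σ (PowerSeries.coeff n (TLS σ f)) / ((n + 1 : ℕ) : LaurentSeries L) := by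
      rw [← h, mul_div_assoc, mul_comm, div_mul_cancel₀ _ h0]
    rw [e]
    exact F.div_mem (DLS_mem hσ F hσF halg ih) (_root_.natCast_mem F _)


end Laurent

section Place

variable {L : Type*} [Field L] [CharZero L] [IsAlgClosed L]

/-- A series with a simple zero is transcendental. -/
theorem transcendental_of_isLeadS {σ : LaurentSeries L} (hσ : IsLeadS σ)
    (F : IntermediateField L (LaurentSeries L)) (hσF : σ ∈ F) :
    Transcendental L (⟨σ, hσF⟩ : F) := by
  apply transcendental_of_not_mem_range
  rintro ⟨c, hc⟩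
  have h1 : algebraMap L (LaurentSeries L) c = σ := congrArg Subtype.val hc
  rw [algebraMap_eq_C] at h1
  have h2 := hσ.1
  rw [← h1, HahnSeries.C_apply, HahnSeries.coeff_single_of_ne (by norm_num)] at h2
  exact zero_ne_one h2

/-- The hypothesis `halg` of `HasseField.coeff_TLS_mem` for a function field of one variable. -/
theorem halgS_of_finiteDimensional {σ : LaurentSeries L} (hσ : IsLeadS σ)
    (F : IntermediateField L (LaurentSeries L)) (hσF : σ ∈ F)
    (x : F) (hx : Transcendental L x) [FiniteDimensional L⟮x⟯ F] :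
    ∀ f ∈ F, IsAlgebraic (IntermediateField.adjoin L {σ}) f := by
  intro f hf
  have : FiniteDimensional L⟮(⟨σ, hσF⟩ : F)⟯ F :=
    finiteDimensional_adjoin x hx _ (transcendental_of_isLeadS hσ F hσF)
  have : Algebra.IsAlgebraic L⟮(⟨σ, hσF⟩ : F)⟯ F := Algebra.IsAlgebraic.of_finite _ _
  exact isAlgebraic_adjoin_of_mem F hσF hf

/-- **Hasse derivatives preserve regularity at a place.**  If `σ - b` is a local parameter at
the place `P` of `F` and `f ∈ F` is regular at `P`, then every Hasse derivative
`coeff n (TLS σ f)` (an element of `F` by `HasseField.coeff_TLS_mem`) is regular at `P`. -/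
theorem coeff_TLS_mem_place {σ : LaurentSeries L} (hσ : IsLeadS σ)
    (F : IntermediateField L (LaurentSeries L)) (hσF : σ ∈ F)
    (x : F) (hx : Transcendental L x) [FiniteDimensional L⟮x⟯ F]
    (P : Place L F) (b : L) (hPb : P.ord ((⟨σ, hσF⟩ : F) - algebraMap L F b) = 1)
    (f : F) (hreg : f ∈ P.toValuationSubring) (n : ℕ) :
    ∃ g : F, (g : LaurentSeries L) = PowerSeries.coeff n (TLS σ (f : LaurentSeries L)) ∧
      g ∈ P.toValuationSubring := by
  have halg := halgS_of_finiteDimensional hσ F hσF x hx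
  let d : F → F := fun y => ⟨DLS σ (y : LaurentSeries L), DLS_mem hσ F hσF halg y.2⟩
  have hd : ∀ y : F, ((d y : F) : LaurentSeries L) = DLS σ (y : LaurentSeries L) := fun _ => rfl
  have hadd : ∀ a b, d (a + b) = d a + d b := fun a b => Subtype.ext (map_add (DLS σ) _ _)
  have hmul : ∀ a b, d (a * b) = a * d b + b * d a := fun a b =>
    Subtype.ext (leibniz_mul (DLS σ) _ _)
  have hL : ∀ c : L, d (algebraMap L F c) = 0 := fun c => Subtype.ext (by
    show DLS σ (algebraMap L (LaurentSeries L) c) = 0
    rw [algebraMap_eq_C, DLS_C])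
  have hdt : d ((⟨σ, hσF⟩ : F) - algebraMap L F b) = 1 := by
    have e : (⟨σ, hσF⟩ : F) - algebraMap L F b = (⟨σ, hσF⟩ : F) + algebraMap L F (-b) := by
      rw [map_neg, sub_eq_add_neg]
    rw [e, hadd, hL, add_zero]
    exact Subtype.ext (DLS_self hσ)
  induction n with
  | zero =>
    exact ⟨f, by rw [PowerSeries.coeff_zero_eq_constantCoeff_apply, constantCoeff_TLS], hreg⟩
  | succ n ih =>
    obtain ⟨g, hg, hgP⟩ := ih
    have hn0 : ((n + 1 : ℕ) : L) ≠ 0 := Nat.cast_ne_zero.mpr (Nat.succ_ne_zero n)
    refine ⟨d g * algebraMap L F ((n + 1 : ℕ) : L)⁻¹, ?_,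
      mul_mem (derivation_mem_valuationSubring x hx d hadd hmul hL P _ hPb hdt hgP)
        (P.algebraMap_mem' _)⟩
    have h := succ_mul_coeff_TLS σ (f : LaurentSeries L) n
    have e1 : ((d g * algebraMap L F ((n + 1 : ℕ) : L)⁻¹ : F) : LaurentSeries L) =
        DLS σ (g : LaurentSeries L) * HahnSeries.C ((n + 1 : ℕ) : L)⁻¹ := by
      rw [← algebraMap_eq_C]
      rfl
    have e2 : ((n + 1 : ℕ) : LaurentSeries L) = HahnSeries.C ((n + 1 : ℕ) : L) := by
      rw [map_natCast]
    rw [e1, hg, ← h, e2, mul_comm, ← mul_assoc, ← map_mul, inv_mul_cancel₀ hn0, map_one, one_mul]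

/-- **Hasse derivatives preserve the ring of functions regular where `j` is regular**, provided
`σ` is a local coordinate at all these places. -/
theorem coeff_TLS_regular {σ : LaurentSeries L} (hσ : IsLeadS σ)
    (F : IntermediateField L (LaurentSeries L)) (hσF : σ ∈ F)
    (x : F) (hx : Transcendental L x) [FiniteDimensional L⟮x⟯ F] (j : F)
    (hpar : ∀ P : Place L F, j ∈ P.toValuationSubring →
      ∃ b : L, P.ord ((⟨σ, hσF⟩ : F) - algebraMap L F b) = 1)
    (f : F) (hf : ∀ P : Place L F, j ∈ P.toValuationSubring → f ∈ P.toValuationSubring)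
    (n : ℕ) :
    ∃ g : F, (g : LaurentSeries L) = PowerSeries.coeff n (TLS σ (f : LaurentSeries L)) ∧
      ∀ P : Place L F, j ∈ P.toValuationSubring → g ∈ P.toValuationSubring := by
  have halg := halgS_of_finiteDimensional hσ F hσF x hx
  refine ⟨⟨_, coeff_TLS_mem hσ F hσF halg f.2 n⟩, rfl, fun P hP => ?_⟩
  obtain ⟨b, hb⟩ := hpar P hP
  obtain ⟨g, hg, hgP⟩ := coeff_TLS_mem_place hσ F hσF x hx P b hb f (hf P hP) n
  have e : g = ⟨_, coeff_TLS_mem hσ F hσF halg f.2 n⟩ := Subtype.ext hg
  rw [← e]
  exact hgP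

end Place

end Fermat.Agent.S18.HasseFieldS
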