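/-
S18 moonshot leaf K2, part 2 (helper9): THE TAYLOR HOMOMORPHISM OVER `A`, `L` AND `k` for a
coordinate of order `+1`.

Setting: `L` a field of characteristic `0`, `A` a commutative ring with an injective ring
homomorphism `ι : A →+* L` (e.g. a valuation subring with `ι = A.subtype`), `π : A →+* k` a
surjective ring homomorphism (e.g. the residue map), `sA = w + a₂ w² + ⋯` in `A((w))`.

* `TAS : A((w)) →+* A((w))⟦X⟧`, `TkS : k((w)) →+* k((w))⟦X⟧` (and `TaylorS.TLS` over `L`);
* naturality: `map_TAS`, `map_TkS`;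
* `constantCoeff`, constants, `T s = C s + X` for all three.

Companion of `HasseLaurent` (coordinate of order `-1`).
-/
import Mathlib
import Fermat.Prelude.Def_ModularCurve_LaurentCoeff
import Fermat.Agent.S18.TaylorS
import Fermat.Agent.S18.HasseLaurent

set_option autoImplicit false

namespace Fermat.Agent.S18.HasseLaurentS

open Fermat.Agent.S18.TaylorQ Fermat.Agent.S18.TaylorS Fermat.Agent.S18.HasseLaurent ModularCurve

section Main

variable {L : Type*} [Field L] [CharZero L] {A : Type*} [CommRing A] (ι : A →+* L)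
  (hι : Function.Injective ι) {k : Type*} [CommRing k] (π : A →+* k)
  (hπ : Function.Surjective π) (sA : LaurentSeries A)
  (hs : sA.coeff 1 = 1 ∧ ∀ i : ℤ, i < 1 → sA.coeff i = 0)

omit [CharZero L] in
include hs in
theorem isLeadS_coeffMap : IsLeadS (coeffMap ι sA) := by
  refine ⟨?_, fun i hi => ?_⟩
  · rw [coeffMap_coeff, hs.1, map_one]
  · rw [coeffMap_coeff, hs.2 i hi, map_zero]

include hs in
theorem exists_TAS (f : LaurentSeries A) :
    ∃ G' : PowerSeries (LaurentSeries A),
      PowerSeries.map (coeffMap ι) G' = TLS (coeffMap ι sA) (coeffMap ι f) :=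
  exists_map_eq ι _ (pcoeffIn_TLS ι.range ι.range.toAddSubgroup
    (fun _ ha _ hx => ι.range.mul_mem ha hx) (isLeadS_coeffMap ι sA hs)
    (lcoeffIn_coeffMap ι sA) (lcoeffIn_coeffMap ι f))

/-- **The Taylor homomorphism over `A`.** -/
noncomputable def TAS : LaurentSeries A →+* PowerSeries (LaurentSeries A) where
  toFun f := (exists_TAS ι sA hs f).choose
  map_one' := by
    apply map_coeffMap_injective ι hι
    rw [(exists_TAS ι sA hs 1).choose_spec, map_one, map_one, map_one]
  map_mul' x y := by
    apply map_coeffMap_injective ι hι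
    rw [(exists_TAS ι sA hs (x * y)).choose_spec, map_mul, map_mul, map_mul,
      (exists_TAS ι sA hs x).choose_spec, (exists_TAS ι sA hs y).choose_spec]
  map_zero' := by
    apply map_coeffMap_injective ι hι
    rw [(exists_TAS ι sA hs 0).choose_spec, map_zero, map_zero, map_zero]
  map_add' x y := by
    apply map_coeffMap_injective ι hι
    rw [(exists_TAS ι sA hs (x + y)).choose_spec, map_add, map_add, map_add,
      (exists_TAS ι sA hs x).choose_spec, (exists_TAS ι sA hs y).choose_spec]

/-- **Naturality along `A → L`.** -/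
theorem map_TAS (f : LaurentSeries A) :
    PowerSeries.map (coeffMap ι) (TAS ι hι sA hs f) = TLS (coeffMap ι sA) (coeffMap ι f) :=
  (exists_TAS ι sA hs f).choose_spec

theorem coeff_TLS_coeffMap (f : LaurentSeries A) (n : ℕ) :
    PowerSeries.coeff n (TLS (coeffMap ι sA) (coeffMap ι f)) =
      coeffMap ι (PowerSeries.coeff n (TAS ι hι sA hs f)) := by
  rw [← map_TAS ι hι sA hs, PowerSeries.coeff_map]

theorem constantCoeff_TAS (f : LaurentSeries A) :
    PowerSeries.constantCoeff (TAS ι hι sA hs f) = f := by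
  apply coeffMap_injective ι hι
  have := congrArg PowerSeries.constantCoeff (map_TAS ι hι sA hs f)
  rw [constantCoeff_TLS, ← PowerSeries.coeff_zero_eq_constantCoeff_apply, PowerSeries.coeff_map,
    PowerSeries.coeff_zero_eq_constantCoeff_apply] at this
  exact this

theorem TAS_C (a : A) :
    TAS ι hι sA hs (HahnSeries.C a) = PowerSeries.C (HahnSeries.C a) := by
  apply map_coeffMap_injective ι hι
  rw [map_TAS, coeffMap_C, TLS_C, PowerSeries.map_C, coeffMap_C]

theorem TAS_self : TAS ι hι sA hs sA = PowerSeries.C sA + PowerSeries.X := by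
  apply map_coeffMap_injective ι hι
  rw [map_TAS, TLS_self (isLeadS_coeffMap ι sA hs), map_add, PowerSeries.map_C,
    PowerSeries.map_X]

/-- coefficients in the kernel of `π` stay in the kernel of `π` -/
theorem map_TAS_eq_zero (f : LaurentSeries A) (hf : coeffMap π f = 0) :
    PowerSeries.map (coeffMap π) (TAS ι hι sA hs f) = 0 := by
  have hI : ∀ a ∈ ι.range, ∀ x ∈ (RingHom.ker π).toAddSubgroup.map ι.toAddMonoidHom,
      a * x ∈ (RingHom.ker π).toAddSubgroup.map ι.toAddMonoidHom := by
    rintro _ ⟨a, rfl⟩ _ ⟨x, hx, rfl⟩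
    refine ⟨a * x, ?_, map_mul ι a x⟩
    exact (RingHom.ker π).mul_mem_left a hx
  have hfI : LCoeffIn ((RingHom.ker π).toAddSubgroup.map ι.toAddMonoidHom : Set L)
      (coeffMap ι f) := by
    intro i
    refine ⟨f.coeff i, ?_, rfl⟩
    have := congrArg (fun z => z.coeff i) hf
    simpa using this
  have h := pcoeffIn_TLS ι.range _ hI (isLeadS_coeffMap ι sA hs) (lcoeffIn_coeffMap ι sA) hfI
  ext n i
  rw [PowerSeries.coeff_map, coeffMap_coeff, map_zero, HahnSeries.coeff_zero]
  obtain ⟨x, hx, hxe⟩ := h n i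
  rw [coeff_TLS_coeffMap ι hι sA hs, coeffMap_coeff] at hxe
  have : x = (PowerSeries.coeff n (TAS ι hι sA hs f)).coeff i := hι hxe
  rw [← this]
  exact hx

/-- the reduction of `TAS`, which kills the kernel of the reduction map -/
noncomputable def TkSAux :
    { g : LaurentSeries A →+* PowerSeries (LaurentSeries k) //
      RingHom.ker (coeffMap π) ≤ RingHom.ker g } :=
  ⟨(PowerSeries.map (coeffMap π)).comp (TAS ι hι sA hs), fun f hf => by
    rw [RingHom.mem_ker] at hf ⊢
    rw [RingHom.comp_apply]
    exact map_TAS_eq_zero ι hι π sA hs f hf⟩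

/-- **The Taylor homomorphism over `k`.** -/
noncomputable def TkS : LaurentSeries k →+* PowerSeries (LaurentSeries k) :=
  (coeffMap π).liftOfRightInverse (liftL π hπ) (coeffMap_liftL π hπ) (TkSAux ι hι π sA hs)

/-- **Naturality along `A → k`.** -/
theorem map_TkS (f : LaurentSeries A) :
    PowerSeries.map (coeffMap π) (TAS ι hι sA hs f) = TkS ι hι π hπ sA hs (coeffMap π f) :=
  ((coeffMap π).liftOfRightInverse_comp_apply (liftL π hπ) (coeffMap_liftL π hπ)
    (TkSAux ι hι π sA hs) f).symm

theorem coeff_TkS_coeffMap (f : LaurentSeries A) (n : ℕ) :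
    PowerSeries.coeff n (TkS ι hι π hπ sA hs (coeffMap π f)) =
      coeffMap π (PowerSeries.coeff n (TAS ι hι sA hs f)) := by
  rw [← map_TkS, PowerSeries.coeff_map]

theorem constantCoeff_TkS (x : LaurentSeries k) :
    PowerSeries.constantCoeff (TkS ι hι π hπ sA hs x) = x := by
  obtain ⟨f, rfl⟩ := coeffMap_surjective π hπ x
  rw [← PowerSeries.coeff_zero_eq_constantCoeff_apply, coeff_TkS_coeffMap,
    PowerSeries.coeff_zero_eq_constantCoeff_apply, constantCoeff_TAS]

theorem TkS_C (c : k) :
    TkS ι hι π hπ sA hs (HahnSeries.C c) = PowerSeries.C (HahnSeries.C c) := by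
  obtain ⟨a, rfl⟩ := hπ c
  rw [← coeffMap_C, ← map_TkS, TAS_C, PowerSeries.map_C]

theorem TkS_self :
    TkS ι hι π hπ sA hs (coeffMap π sA) = PowerSeries.C (coeffMap π sA) + PowerSeries.X := by
  rw [← map_TkS, TAS_self, map_add, PowerSeries.map_C, PowerSeries.map_X]

/-- Transfer of stability: the image under reduction of a set stable under the Hasse
derivatives over `A` is stable under the Hasse derivatives over `k`. -/
theorem coeff_TkS_mem_image (O : Set (LaurentSeries A))
    (hO : ∀ f ∈ O, ∀ n, PowerSeries.coeff n (TAS ι hι sA hs f) ∈ O)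
    (x : LaurentSeries k) (hx : x ∈ coeffMap π '' O) (n : ℕ) :
    PowerSeries.coeff n (TkS ι hι π hπ sA hs x) ∈ coeffMap π '' O := by
  obtain ⟨f, hf, rfl⟩ := hx
  exact ⟨_, hO f hf n, (coeff_TkS_coeffMap ι hι π hπ sA hs f n).symm⟩

end Main

end Fermat.Agent.S18.HasseLaurentS
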