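import Mathlib
import Fermat.Prelude.Def_ModularCurve_LaurentCoeff
import Fermat.Prelude.Def_ModularCurve_X0ModL

/-!
# S18 infrastructure (Kummer cover, series part)

`N ≥ 1`, `R` a commutative ring, `w` the variable of `LaurentSeries R`, `q = w ^ N`
(`qExpand R N`).

* `exists_root` : an `N`-th root of a power series with constant coefficient `1`, when `N` is a
  unit of `R` (Hensel's lemma in `R⟦X⟧`);
* `tw N b = ∑ i < N, w ^ i * (b i)(w ^ N)` : the twisted sum; `coeff_tw` (the components are read
  off from the coefficients), `tw_injective`, compatibility with `coeffMap`;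
* `sOf N r = w * r (w ^ N)` : the Kummer coordinate attached to a power series `r`, its powers,
  `sOf N r ^ N = (q * r ^ N)(w ^ N)`.
-/

set_option autoImplicit false

noncomputable section

namespace Fermat.Agent.S18.KummerSeries

open HahnSeries ModularCurve

section Root

variable {R : Type*} [CommRing R]

/-- An `N`-th root of a power series with constant coefficient `1`, for `N` invertible. -/
theorem exists_root (N : ℕ) (hN0 : 0 < N) (hN : IsUnit (N : R)) (u : PowerSeries R)
    (hu : PowerSeries.constantCoeff u = 1) :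
    ∃ r : PowerSeries R, r ^ N = u ∧ PowerSeries.constantCoeff r = 1 := by
  haveI : HenselianRing (PowerSeries R) (Ideal.span {PowerSeries.X}) := inferInstance
  let f : Polynomial (PowerSeries R) := Polynomial.X ^ N - Polynomial.C u
  have hf : f.Monic := Polynomial.monic_X_pow_sub_C u hN0.ne'
  have h1 : f.eval 1 ∈ Ideal.span {(PowerSeries.X : PowerSeries R)} := by
    rw [Ideal.mem_span_singleton, PowerSeries.X_dvd_iff]
    simp [f, hu]
  have h2 : IsUnit (Ideal.Quotient.mk (Ideal.span {(PowerSeries.X : PowerSeries R)})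
      (f.derivative.eval 1)) := by
    have h3 : f.derivative.eval 1 = algebraMap R (PowerSeries R) (N : R) := by
      simp [f, Polynomial.derivative_X_pow]
    rw [h3]
    exact (hN.map (algebraMap R (PowerSeries R))).map _
  obtain ⟨a, ha, ha1⟩ := HenselianRing.is_henselian f hf 1 h1 h2
  refine ⟨a, ?_, ?_⟩
  · have : f.eval a = 0 := ha
    simpa [f, sub_eq_zero] using this
  · rw [Ideal.mem_span_singleton, PowerSeries.X_dvd_iff] at ha1
    simpa [sub_eq_zero] using ha1

end Root

section Twist

variable {R : Type*} [CommRing R] (N : ℕ) [NeZero N]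

/-- The twisted sum `∑ i < N, w ^ i * (b i)(w ^ N)`. -/
def tw (b : Fin N → LaurentSeries R) : LaurentSeries R :=
  ∑ i : Fin N, HahnSeries.single ((i : ℕ) : ℤ) (1 : R) * qExpand R N (b i)

theorem coeff_single_mul_qExpand (i : ℕ) (g : LaurentSeries R) (n : ℤ) :
    (HahnSeries.single (i : ℤ) (1 : R) * qExpand R N g).coeff n =
      (qExpand R N g).coeff (n - i) := by
  have h := HahnSeries.coeff_single_mul_add (r := (1 : R)) (x := qExpand R N g) (a := n - i)
    (b := (i : ℤ))
  rw [sub_add_cancel, one_mul] at h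
  exact h

theorem coeff_tw (b : Fin N → LaurentSeries R) (m : ℤ) (j : Fin N) :
    (tw N b).coeff ((N : ℤ) * m + (j : ℕ)) = (b j).coeff m := by
  classical
  rw [tw, HahnSeries.coeff_sum, Finset.sum_eq_single j]
  · rw [coeff_single_mul_qExpand, add_sub_cancel_right, qExpand_coeff_mul]
  · intro i _ hij
    rw [coeff_single_mul_qExpand]
    apply qExpand_coeff_of_not_dvd
    intro hdvd
    have h1 : (N : ℤ) ∣ ((j : ℕ) : ℤ) - ((i : ℕ) : ℤ) := by
      have : (N : ℤ) * m + (j : ℕ) - (i : ℕ) = (N : ℤ) * m + (((j : ℕ) : ℤ) - ((i : ℕ) : ℤ)) := by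
        ring
      rw [this] at hdvd
      exact (Int.dvd_add_right (dvd_mul_right _ _)).mp hdvd
    have hi := i.2
    have hj := j.2
    have h2 : ((j : ℕ) : ℤ) - ((i : ℕ) : ℤ) = 0 := by
      apply Int.eq_zero_of_abs_lt_dvd h1
      rw [abs_lt]
      constructor <;> omega
    apply hij
    apply Fin.ext
    omega
  · intro h
    exact absurd (Finset.mem_univ j) h

theorem tw_injective : Function.Injective (tw (R := R) N) := by
  intro b c h
  funext j
  ext m
  rw [← coeff_tw N b m j, ← coeff_tw N c m j, h]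

theorem tw_eq_zero_iff (b : Fin N → LaurentSeries R) : tw N b = 0 ↔ ∀ i, b i = 0 := by
  constructor
  · intro h i
    have h0 : tw N (fun _ => (0 : LaurentSeries R)) = 0 := by simp [tw]
    have := tw_injective N (h.trans h0.symm)
    exact congrFun this i
  · intro h
    simp [tw, h]

theorem coeffMap_tw {S : Type*} [CommRing S] (φ : R →+* S) (b : Fin N → LaurentSeries R) :
    coeffMap φ (tw N b) = tw N (fun i => coeffMap φ (b i)) := by
  rw [tw, tw, map_sum]
  refine Finset.sum_congr rfl fun i _ => ?_
  rw [map_mul, coeffMap_single, map_one, coeffMap_qExpand]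

/-- every residue class of exponents is hit: the exponent `n` is `N * (n / N) + n % N`. -/
theorem exists_index (n : ℤ) : ∃ (m : ℤ) (j : Fin N), n = (N : ℤ) * m + (j : ℕ) := by
  have hN : (0 : ℤ) < N := by exact_mod_cast Nat.pos_of_ne_zero (NeZero.ne N)
  have h1 : 0 ≤ n % N := Int.emod_nonneg _ hN.ne'
  have h2 : n % N < N := Int.emod_lt_of_pos _ hN
  refine ⟨n / N, ⟨(n % N).toNat, by omega⟩, ?_⟩
  have h3 : ((n % N).toNat : ℤ) = n % N := Int.toNat_of_nonneg h1
  show n = (N : ℤ) * (n / N) + ((n % N).toNat : ℤ)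
  rw [h3]
  exact (Int.mul_ediv_add_emod n N).symm

/-- a twisted sum has coefficients in a set `S ∋ 0` iff all its components have. -/
theorem coeff_tw_mem_iff (S : Set R) (b : Fin N → LaurentSeries R) :
    (∀ n, (tw N b).coeff n ∈ S) ↔ ∀ i m, (b i).coeff m ∈ S := by
  constructor
  · intro h i m
    rw [← coeff_tw N b m i]
    exact h _
  · intro h n
    obtain ⟨m, j, rfl⟩ := exists_index N n
    rw [coeff_tw]
    exact h j m

end Twist

section Coordinate

variable {R : Type*} [CommRing R] (N : ℕ) [NeZero N]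

/-- The Kummer coordinate `s = w * r (w ^ N)`. -/
def sOf (r : PowerSeries R) : LaurentSeries R :=
  HahnSeries.single (1 : ℤ) (1 : R) * qExpand R N (HahnSeries.ofPowerSeries ℤ R r)

theorem sOf_pow (r : PowerSeries R) (i : ℕ) :
    sOf N r ^ i = HahnSeries.single (i : ℤ) (1 : R) *
      qExpand R N (HahnSeries.ofPowerSeries ℤ R (r ^ i)) := by
  rw [sOf, mul_pow, HahnSeries.single_pow, one_pow, ← map_pow, ← map_pow]
  simp

/-- `s ^ N = t (w ^ N)` with `t = q * r ^ N`. -/
theorem sOf_pow_N (r : PowerSeries R) :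
    sOf N r ^ N = qExpand R N (HahnSeries.single (1 : ℤ) (1 : R) *
      HahnSeries.ofPowerSeries ℤ R (r ^ N)) := by
  rw [sOf_pow, map_mul, qExpand_single, mul_one]

theorem coeffMap_sOf {S : Type*} [CommRing S] (φ : R →+* S) (r : PowerSeries R) :
    coeffMap φ (sOf N r) = sOf N (r.map φ) := by
  rw [sOf, sOf, map_mul, coeffMap_single, map_one, coeffMap_qExpand, coeffMap_ofPowerSeries]

/-- `∑ i < N, a_i (w ^ N) * s ^ i` as a twisted sum. -/
theorem sum_mul_sOf_pow (r : PowerSeries R) (a : Fin N → LaurentSeries R) :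
    ∑ i : Fin N, qExpand R N (a i) * sOf N r ^ (i : ℕ) =
      tw N (fun i => a i * HahnSeries.ofPowerSeries ℤ R (r ^ (i : ℕ))) := by
  rw [tw]
  refine Finset.sum_congr rfl fun i _ => ?_
  rw [sOf_pow, map_mul]
  ring

end Coordinate

end Fermat.Agent.S18.KummerSeries
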