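import Mathlib
import Fermat.Agent.S18.Charts
import Fermat.Agent.S18.KummerSeries
import Fermat.Agent.S18.ResField

/-!
# S18 infrastructure (Kummer cover, route β for the chart at infinity): the definitions

`A` a valuation ring of `KK = ℚ̄`, `k` its residue field, `N ≥ 1` invertible in `A`,
`F = FF N ⊆ KK((q))`.  We work in `KK((w))`, `q = w ^ N` (`qExpand KK N`).

* `tL R = 1 / j` as a Laurent series over any commutative ring `R` (`jqModC R * tL R = 1`);
* `IsRoot R N r` : `r ^ N = q⁻¹ * tL R`, `r(0) = 1`;  `rA A N`, `sA A N = w * rA (w ^ N)`,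
  `sK`, `sk` : the Kummer coordinate over `A`, `KK`, `k`; `sA ^ N = (tL A)(w ^ N)`;
* `IsGen N P` : the place `P` of `F` is generic (`j(P) ≠ 0, 1728, ∞`);
* `Vrat N i` (`i : ℤ`) : the functions `a ∈ F` regular at the generic places with
  `a ^ N * j ^ (-i)` regular at every cusp (i.e. `a * s ^ i` is regular at the cusps of the
  Kummer cover);  `V A N i` : those with `q`-expansion in `A((q))`;
* `W A N` : the homogeneous elements `a (w ^ N) * s ^ i`, `a ∈ V A N i`;
  `Os A N = Subring.closure (W A N)` : the chart ring of the Kummer cover (inside `KK((w))`);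
  `OsA A N` its preimage in `A((w))`, `Rs A N` its reduction in `k((w))`.
-/

set_option autoImplicit false
set_option linter.style.haveILetI false
set_option linter.unusedSectionVars false
set_option linter.unusedVariables false

noncomputable section

namespace Fermat.Agent.S18.KummerRing

open ModularCurve AlgebraicCurve HahnSeries Fermat.Agent.S18.Gauss Fermat.Agent.S18.Lattice
  Fermat.Agent.S24 Fermat.Agent.S24.Eval Fermat.Agent.S18.Charts Fermat.Agent.S18.KummerSeries

/-! ### The series `1 / j` and its `N`-th root -/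

section Series

variable (R : Type*) [CommRing R]

/-- `jNum` over `R`. -/
def jNumR : PowerSeries R := jNum.map (Int.castRingHom R)

theorem constantCoeff_jNumR : PowerSeries.constantCoeff (jNumR R) = 1 := by
  have h : PowerSeries.constantCoeff (jNum.map (Int.castRingHom R)) =
      Int.castRingHom R (PowerSeries.constantCoeff jNum) := by
    rw [← PowerSeries.coeff_zero_eq_constantCoeff_apply, PowerSeries.coeff_map,
      PowerSeries.coeff_zero_eq_constantCoeff_apply]
  rw [jNumR, h, constantCoeff_jNum, map_one]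

/-- The inverse of `jNum` over `R`. -/
def jNumInv : PowerSeries R := PowerSeries.invOfUnit (jNumR R) 1

theorem jNumR_mul_jNumInv : jNumR R * jNumInv R = 1 :=
  PowerSeries.mul_invOfUnit _ _ (by rw [constantCoeff_jNumR]; rfl)

theorem constantCoeff_jNumInv : PowerSeries.constantCoeff (jNumInv R) = 1 := by
  have h := congrArg PowerSeries.constantCoeff (jNumR_mul_jNumInv R)
  rw [map_mul, constantCoeff_jNumR, one_mul, map_one] at h
  exact h

/-- `t = 1 / j` as a Laurent series over `R`. -/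
def tL : LaurentSeries R := HahnSeries.single (1 : ℤ) (1 : R) *
  HahnSeries.ofPowerSeries ℤ R (jNumInv R)

theorem jqModC_mul_tL : jqModC R * tL R = 1 := by
  rw [jqModC, tL]
  have h1 : HahnSeries.single (-1 : ℤ) (1 : R) * HahnSeries.single (1 : ℤ) (1 : R) = 1 := by
    rw [HahnSeries.single_mul_single]
    simp
  have h2 : HahnSeries.ofPowerSeries ℤ R (jNum.map (Int.castRingHom R)) *
      HahnSeries.ofPowerSeries ℤ R (jNumInv R) = 1 := by
    rw [← map_mul]
    have := jNumR_mul_jNumInv R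
    rw [jNumR] at this
    rw [this, map_one]
  calc HahnSeries.single (-1 : ℤ) (1 : R) *
        HahnSeries.ofPowerSeries ℤ R (jNum.map (Int.castRingHom R)) *
        (HahnSeries.single (1 : ℤ) (1 : R) * HahnSeries.ofPowerSeries ℤ R (jNumInv R))
      = (HahnSeries.single (-1 : ℤ) (1 : R) * HahnSeries.single (1 : ℤ) (1 : R)) *
        (HahnSeries.ofPowerSeries ℤ R (jNum.map (Int.castRingHom R)) *
          HahnSeries.ofPowerSeries ℤ R (jNumInv R)) := by ring
    _ = 1 := by rw [h1, h2, one_mul]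

variable {R}

theorem map_jNumR {S : Type*} [CommRing S] (φ : R →+* S) : (jNumR R).map φ = jNumR S := by
  rw [jNumR, jNumR]
  ext n
  simp [PowerSeries.coeff_map]

theorem map_jNumInv {S : Type*} [CommRing S] (φ : R →+* S) :
    (jNumInv R).map φ = jNumInv S := by
  have h1 : jNumR S * (jNumInv R).map φ = 1 := by
    rw [← map_jNumR φ, ← map_mul, jNumR_mul_jNumInv, map_one]
  have h2 := jNumR_mul_jNumInv S
  calc (jNumInv R).map φ = (jNumInv S * jNumR S) * (jNumInv R).map φ := by
        rw [mul_comm (jNumInv S), h2, one_mul]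
    _ = jNumInv S * (jNumR S * (jNumInv R).map φ) := by ring
    _ = jNumInv S := by rw [h1, mul_one]

theorem coeffMap_tL {S : Type*} [CommRing S] (φ : R →+* S) : coeffMap φ (tL R) = tL S := by
  rw [tL, tL, map_mul, coeffMap_single, map_one, coeffMap_ofPowerSeries, map_jNumInv]

variable (R)

/-- `r` is an `N`-th root of `1 / jNum` with constant coefficient `1`. -/
def IsRoot (N : ℕ) (r : PowerSeries R) : Prop :=
  r ^ N = jNumInv R ∧ PowerSeries.constantCoeff r = 1

theorem exists_isRoot (N : ℕ) (hN0 : 0 < N) (hN : IsUnit (N : R)) :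
    ∃ r : PowerSeries R, IsRoot R N r :=
  exists_root N hN0 hN (jNumInv R) (constantCoeff_jNumInv R)

variable {R}

theorem IsRoot.map {N : ℕ} {r : PowerSeries R} (h : IsRoot R N r) {S : Type*} [CommRing S]
    (φ : R →+* S) : IsRoot S N (r.map φ) := by
  refine ⟨?_, ?_⟩
  · rw [← map_pow, h.1, map_jNumInv]
  · have : PowerSeries.constantCoeff (r.map φ) = φ (PowerSeries.constantCoeff r) := by
      rw [← PowerSeries.coeff_zero_eq_constantCoeff_apply, PowerSeries.coeff_map,
        PowerSeries.coeff_zero_eq_constantCoeff_apply]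
    rw [this, h.2, map_one]

/-- `s ^ N = t (w ^ N)`. -/
theorem sOf_pow_eq (N : ℕ) [NeZero N] {r : PowerSeries R} (h : IsRoot R N r) :
    sOf N r ^ N = qExpand R N (tL R) := by
  rw [sOf_pow_N, h.1, tL]

end Series

/-! ### The Kummer coordinate over `A`, `KK`, `k` -/

section Coordinate

variable (A : ValuationSubring KK) (N : ℕ) [NeZero N]

open Classical in
/-- The chosen `N`-th root of `1 / jNum` over `A` (junk value `1` if there is none). -/
def rA : PowerSeries A :=
  if h : ∃ r : PowerSeries A, IsRoot A N r then h.choose else 1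

theorem isUnit_natCast {ℓ : ℕ} [Fact ℓ.Prime] (hA : A.LiesOverPrime ℓ) (hℓN : ¬ ℓ ∣ N) :
    IsUnit ((N : ℕ) : A) := by
  haveI := ResField.charP_residueField (A := A) hA
  by_contra h
  have h1 : IsLocalRing.residue A ((N : ℕ) : A) = 0 :=
    (IsLocalRing.residue_eq_zero_iff _).mpr ((IsLocalRing.mem_maximalIdeal _).mpr h)
  rw [map_natCast] at h1
  exact hℓN ((CharP.cast_eq_zero_iff (IsLocalRing.ResidueField A) ℓ N).mp h1)

theorem isRoot_rA {ℓ : ℕ} [Fact ℓ.Prime] (hA : A.LiesOverPrime ℓ) (hℓN : ¬ ℓ ∣ N) :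
    IsRoot A N (rA A N) := by
  have h : ∃ r : PowerSeries A, IsRoot A N r :=
    exists_isRoot A N (Nat.pos_of_ne_zero (NeZero.ne N)) (isUnit_natCast A N hA hℓN)
  rw [rA, dif_pos h]
  exact h.choose_spec

theorem constantCoeff_rA : PowerSeries.constantCoeff (rA A N) = 1 := by
  rw [rA]
  split_ifs with h
  · exact h.choose_spec.2
  · exact map_one _

/-- The Kummer coordinate `s = w * r (w ^ N)` over `A`. -/
def sA : LaurentSeries A := sOf N (rA A N)

/-- The Kummer coordinate over `KK`. -/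
def sK : LaurentSeries KK := inc A (sA A N)

/-- The Kummer coordinate over the residue field. -/
def sk : LaurentSeries (IsLocalRing.ResidueField A) := rd A (sA A N)

theorem sK_eq : sK A N = sOf N ((rA A N).map A.subtype) := coeffMap_sOf N _ _

theorem sk_eq : sk A N = sOf N ((rA A N).map (IsLocalRing.residue A)) := coeffMap_sOf N _ _

variable {A N}

theorem sA_pow {ℓ : ℕ} [Fact ℓ.Prime] (hA : A.LiesOverPrime ℓ) (hℓN : ¬ ℓ ∣ N) :
    sA A N ^ N = qExpand A N (tL A) := sOf_pow_eq N (isRoot_rA A N hA hℓN)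

theorem sK_pow {ℓ : ℕ} [Fact ℓ.Prime] (hA : A.LiesOverPrime ℓ) (hℓN : ¬ ℓ ∣ N) :
    sK A N ^ N = qExpand KK N (tL KK) := by
  rw [sK_eq]
  exact sOf_pow_eq N ((isRoot_rA A N hA hℓN).map _)

theorem sk_pow {ℓ : ℕ} [Fact ℓ.Prime] (hA : A.LiesOverPrime ℓ) (hℓN : ¬ ℓ ∣ N) :
    sk A N ^ N = qExpand (IsLocalRing.ResidueField A) N (tL (IsLocalRing.ResidueField A)) := by
  rw [sk_eq]
  exact sOf_pow_eq N ((isRoot_rA A N hA hℓN).map _)

end Coordinate

/-! ### Coefficients of `sOf` -/

section Coeff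

variable {R : Type*} [CommRing R] (N : ℕ) [NeZero N]

theorem coeff_sOf (r : PowerSeries R) (n : ℤ) :
    (sOf N r).coeff n = (qExpand R N (HahnSeries.ofPowerSeries ℤ R r)).coeff (n - 1) := by
  have h := coeff_single_mul_qExpand N 1 (HahnSeries.ofPowerSeries ℤ R r) n
  simpa [sOf] using h

theorem coeff_sOf_one (r : PowerSeries R) :
    (sOf N r).coeff 1 = PowerSeries.constantCoeff r := by
  rw [coeff_sOf, sub_self]
  have h := qExpand_coeff_mul N (HahnSeries.ofPowerSeries ℤ R r) 0
  rw [mul_zero] at h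
  rw [h]
  have := HahnSeries.ofPowerSeries_apply_coeff (Γ := ℤ) (R := R) r 0
  simpa using this

theorem coeff_sOf_of_lt (r : PowerSeries R) {n : ℤ} (hn : n < 1) : (sOf N r).coeff n = 0 := by
  rw [coeff_sOf]
  by_cases hd : (N : ℤ) ∣ n - 1
  · obtain ⟨m, hm⟩ := hd
    rw [hm, qExpand_coeff_mul]
    have hN : (0 : ℤ) < N := by exact_mod_cast Nat.pos_of_ne_zero (NeZero.ne N)
    have hm0 : m < 0 := by
      by_contra h
      push Not at h
      have : 0 ≤ (N : ℤ) * m := mul_nonneg hN.le h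
      omega
    rw [HahnSeries.ofPowerSeries_apply]
    apply HahnSeries.embDomain_of_notMem_range
    rintro ⟨a, ha⟩
    simp at ha
    omega
  · exact qExpand_coeff_of_not_dvd N _ hd

end Coeff

/-! ### The graded pieces -/

section Pieces

variable (N : ℕ) [NeZero N]

/-- The place `P` of `FF N` is generic: `j(P) ≠ 0, 1728, ∞`. -/
def IsGen (P : Place KK (FF N)) : Prop :=
  P.ord (jF N) = 0 ∧ P.ord (jF N - algebraMap KK (FF N) 1728) = 0

/-- The place `c` of `FF N` is a cusp. -/
def IsCusp (c : Place KK (FF N)) : Prop := c.ord (jF N) < 0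

/-- The condition at the cusps for the piece of degree `i`: `a ^ N * j ^ (-i)` is regular at
every cusp (`N * ord_c a + i * e_c ≥ 0`). -/
def CuspCond (i : ℤ) (a : FF N) : Prop :=
  ∀ c : Place KK (FF N), IsCusp N c → a ^ N * (jF N) ^ (-i) ∈ c.toValuationSubring

/-- Regularity at the generic places. -/
def GenCond (a : FF N) : Prop :=
  ∀ P : Place KK (FF N), IsGen N P → a ∈ P.toValuationSubring

variable {N}

theorem jF_ne_zero' : jF N ≠ 0 := by
  intro h
  have h1 : ((jF N : FF N) : LaurentSeries KK) = 0 := by rw [h]; rfl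
  have h2 : (jgenL 1).coeff (-1) = 0 := by
    have : ((jF N : FF N) : LaurentSeries KK) = jgenL 1 := rfl
    rw [← this, h1]
    rfl
  rw [jgenL_coeff] at h2
  have h3 : (qExpand ℚ 1 jq).coeff (-1) = 1 := by
    rw [qExpand_one_apply]
    exact coeff_jq_neg_one
  rw [h3, map_one] at h2
  exact one_ne_zero h2

theorem cuspCond_zero (i : ℤ) : CuspCond N i 0 := by
  intro c _
  rw [zero_pow (NeZero.ne N), zero_mul]
  exact zero_mem _

theorem CuspCond.mul {i i' : ℤ} {a b : FF N} (ha : CuspCond N i a) (hb : CuspCond N i' b) :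
    CuspCond N (i + i') (a * b) := by
  intro c hc
  have h : (a * b) ^ N * (jF N) ^ (-(i + i')) =
      (a ^ N * (jF N) ^ (-i)) * (b ^ N * (jF N) ^ (-i')) := by
    rw [neg_add, zpow_add₀ jF_ne_zero', mul_pow]
    ring
  rw [h]
  exact mul_mem (ha c hc) (hb c hc)

theorem CuspCond.neg {i : ℤ} {a : FF N} (ha : CuspCond N i a) : CuspCond N i (-a) := by
  intro c hc
  have h : (-a) ^ N * (jF N) ^ (-i) = (-1) ^ N * (a ^ N * (jF N) ^ (-i)) := by
    rw [neg_pow]
    ring
  rw [h]
  exact mul_mem (pow_mem (neg_mem (one_mem _)) _) (ha c hc)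

theorem CuspCond.add {i : ℤ} {a b : FF N} (ha : CuspCond N i a) (hb : CuspCond N i b) :
    CuspCond N i (a + b) := by
  intro c hc
  by_cases hb0 : b = 0
  · rw [hb0, add_zero]
    exact ha c hc
  by_cases ha0 : a = 0
  · rw [ha0, zero_add]
    exact hb c hc
  rcases c.toValuationSubring.mem_or_inv_mem (a / b) with h | h
  · have e : (a + b) ^ N * (jF N) ^ (-i) = (a / b + 1) ^ N * (b ^ N * (jF N) ^ (-i)) := by
      have : a + b = (a / b + 1) * b := by field_simp
      rw [this, mul_pow]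
      ring
    rw [e]
    exact mul_mem (pow_mem (add_mem h (one_mem _)) _) (hb c hc)
  · have e : (a + b) ^ N * (jF N) ^ (-i) = (1 + (a / b)⁻¹) ^ N * (a ^ N * (jF N) ^ (-i)) := by
      have : a + b = (1 + (a / b)⁻¹) * a := by field_simp
      rw [this, mul_pow]
      ring
    rw [e]
    exact mul_mem (pow_mem (add_mem (one_mem _) h) _) (ha c hc)

theorem cuspCond_algebraMap (x : KK) : CuspCond N 0 (algebraMap KK (FF N) x) := by
  intro c _
  rw [neg_zero, zpow_zero, mul_one]
  exact pow_mem (c.algebraMap_mem' x) _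

theorem cuspCond_one_one : CuspCond N 1 (1 : FF N) := by
  intro c hc
  rw [one_pow, one_mul, zpow_neg, zpow_one]
  have h1 : c.ord (jF N)⁻¹ = - c.ord (jF N) := c.ord_inv _
  have hc' : c.ord (jF N) < 0 := hc
  exact mem_of_ord_nonneg c (inv_ne_zero jF_ne_zero') (by rw [h1]; omega)

theorem cuspCond_jinv : CuspCond N (-(N : ℤ)) (jF N)⁻¹ := by
  intro c _
  have h : ((jF N)⁻¹) ^ N * (jF N) ^ (-(-(N : ℤ))) = 1 := by
    rw [neg_neg, zpow_natCast, inv_pow, inv_mul_cancel₀ (pow_ne_zero _ jF_ne_zero')]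
  rw [h]
  exact one_mem _

theorem cuspCond_j : CuspCond N (N : ℤ) (jF N) := by
  intro c _
  have h : (jF N) ^ N * (jF N) ^ (-(N : ℤ)) = 1 := by
    rw [zpow_neg, zpow_natCast, mul_inv_cancel₀ (pow_ne_zero _ jF_ne_zero')]
  rw [h]
  exact one_mem _

/-- The condition at the cusps in terms of orders. -/
theorem cuspCond_iff_ord {i : ℤ} {a : FF N} (ha : a ≠ 0) :
    CuspCond N i a ↔ ∀ c : Place KK (FF N), IsCusp N c →
      0 ≤ (N : ℤ) * c.ord a - i * c.ord (jF N) := by
  have hne : a ^ N * (jF N) ^ (-i) ≠ 0 :=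
    mul_ne_zero (pow_ne_zero _ ha) (zpow_ne_zero _ jF_ne_zero')
  have hord : ∀ c : Place KK (FF N), c.ord (a ^ N * (jF N) ^ (-i)) =
      (N : ℤ) * c.ord a - i * c.ord (jF N) := by
    intro c
    rw [c.ord_mul (pow_ne_zero _ ha) (zpow_ne_zero _ jF_ne_zero'), ord_pow, c.ord_zpow]
    ring
  constructor
  · intro h c hc
    rw [← hord]
    exact ord_nonneg_of_mem c (h c hc)
  · intro h c hc
    exact mem_of_ord_nonneg c hne (by rw [hord]; exact h c hc)

variable (N)

/-- The piece of degree `i` (without integrality): regular at the generic places, and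
`a * s ^ i` regular at the cusps. -/
def Vrat (i : ℤ) : AddSubgroup (FF N) where
  carrier := {a | GenCond N a ∧ CuspCond N i a}
  zero_mem' := ⟨fun P _ => zero_mem _, cuspCond_zero i⟩
  add_mem' := fun ha hb => ⟨fun P hP => add_mem (ha.1 P hP) (hb.1 P hP), ha.2.add hb.2⟩
  neg_mem' := fun ha => ⟨fun P hP => neg_mem (ha.1 P hP), ha.2.neg⟩

variable {N}

theorem mem_Vrat {i : ℤ} {a : FF N} : a ∈ Vrat N i ↔ GenCond N a ∧ CuspCond N i a := Iff.rfl

theorem mul_mem_Vrat {i i' : ℤ} {a b : FF N} (ha : a ∈ Vrat N i) (hb : b ∈ Vrat N i') :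
    a * b ∈ Vrat N (i + i') :=
  ⟨fun P hP => mul_mem (ha.1 P hP) (hb.1 P hP), ha.2.mul hb.2⟩

theorem algebraMap_mem_Vrat (x : KK) : algebraMap KK (FF N) x ∈ Vrat N 0 :=
  ⟨fun P _ => P.algebraMap_mem' x, cuspCond_algebraMap x⟩

theorem smul_mem_Vrat {i : ℤ} {a : FF N} (x : KK) (ha : a ∈ Vrat N i) :
    algebraMap KK (FF N) x * a ∈ Vrat N i := by
  have := mul_mem_Vrat (algebraMap_mem_Vrat (N := N) x) ha
  rwa [zero_add] at this

theorem one_mem_Vrat_zero : (1 : FF N) ∈ Vrat N 0 := by
  have := algebraMap_mem_Vrat (N := N) 1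
  rwa [map_one] at this

theorem one_mem_Vrat_one : (1 : FF N) ∈ Vrat N 1 :=
  ⟨fun P _ => one_mem _, cuspCond_one_one⟩

theorem jinv_mem_Vrat : (jF N)⁻¹ ∈ Vrat N (-(N : ℤ)) := by
  refine ⟨fun P hP => ?_, cuspCond_jinv⟩
  exact mem_of_ord_nonneg P (inv_ne_zero jF_ne_zero') (by rw [P.ord_inv, hP.1]; rfl)

theorem j_mem_Vrat : jF N ∈ Vrat N (N : ℤ) := by
  refine ⟨fun P hP => ?_, cuspCond_j⟩
  exact mem_of_ord_nonneg P jF_ne_zero' (by rw [hP.1])

end Pieces

section Integral

variable (A : ValuationSubring KK) (N : ℕ) [NeZero N]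

/-- The piece of degree `i`: as `Vrat`, with `q`-expansion in `A((q))`. -/
def V (i : ℤ) : AddSubgroup (FF N) := Vrat N i ⊓ (intSeries A N).toAddSubgroup

variable {A N}

theorem mem_V {i : ℤ} {a : FF N} : a ∈ V A N i ↔ a ∈ Vrat N i ∧ a ∈ intSeries A N := Iff.rfl

theorem mul_mem_V {i i' : ℤ} {a b : FF N} (ha : a ∈ V A N i) (hb : b ∈ V A N i') :
    a * b ∈ V A N (i + i') :=
  ⟨mul_mem_Vrat ha.1 hb.1, (intSeries A N).mul_mem ha.2 hb.2⟩

theorem one_mem_V_zero : (1 : FF N) ∈ V A N 0 := ⟨one_mem_Vrat_zero, (intSeries A N).one_mem⟩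

theorem one_mem_V_one : (1 : FF N) ∈ V A N 1 := ⟨one_mem_Vrat_one, (intSeries A N).one_mem⟩

variable (A N)

/-- `a ↦ a (w ^ N)`, from `FF N` to `KK((w))`. -/
def exK : FF N →+* LaurentSeries KK :=
  (qExpand KK N).comp (algebraMap (FF N) (LaurentSeries KK))

theorem exK_apply (a : FF N) : exK N a = qExpand KK N (a : LaurentSeries KK) := rfl

theorem exK_injective : Function.Injective (exK N) := fun a b h =>
  Subtype.ext (qExpand_injective N h)

/-- The homogeneous elements `a (w ^ N) * s ^ i`, `a ∈ V A N i`. -/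
def W : Set (LaurentSeries KK) :=
  {f | ∃ (i : ℤ) (a : FF N), a ∈ V A N i ∧ f = exK N a * sK A N ^ i}

/-- The chart ring of the Kummer cover, inside `KK((w))`. -/
def Os : Subring (LaurentSeries KK) := Subring.closure (W A N)

/-- The chart ring of the Kummer cover, inside `A((w))`. -/
def OsA : Subring (LaurentSeries A) := (Os A N).comap (inc A)

/-- The reduction of the chart ring of the Kummer cover, inside `k((w))`. -/
def Rs : Subring (LaurentSeries (IsLocalRing.ResidueField A)) := (OsA A N).map (rd A)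

variable {A N}

theorem mem_W {f : LaurentSeries KK} :
    f ∈ W A N ↔ ∃ (i : ℤ) (a : FF N), a ∈ V A N i ∧ f = exK N a * sK A N ^ i := Iff.rfl

theorem mem_Os_of_mem_V {i : ℤ} {a : FF N} (ha : a ∈ V A N i) :
    exK N a * sK A N ^ i ∈ Os A N :=
  Subring.subset_closure ⟨i, a, ha, rfl⟩

theorem mem_OsA {y : LaurentSeries A} : y ∈ OsA A N ↔ inc A y ∈ Os A N := Iff.rfl

theorem mem_Rs {x : LaurentSeries (IsLocalRing.ResidueField A)} :
    x ∈ Rs A N ↔ ∃ y : LaurentSeries A, inc A y ∈ Os A N ∧ rd A y = x := by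
  simp only [Rs, Subring.mem_map, mem_OsA]

end Integral

end Fermat.Agent.S18.KummerRing
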