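/-
S18 moonshot, cusps, route (β), leaf (T3b) (helper9): the chart ring `Os` of the Kummer cover
and its reduction `Rs` are stable under the Hasse derivatives with respect to the Kummer
coordinate `s`, given the derivative formula (T3a) on the homogeneous generators.
-/
import Mathlib
import Fermat.Agent.S18.KummerRing
import Fermat.Agent.S18.TaylorS
import Fermat.Agent.S18.HasseLaurentS
import Fermat.Agent.S18.HasseField

set_option autoImplicit false

namespace Fermat.Agent.S18.KummerHasse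

open ModularCurve AlgebraicCurve HahnSeries
open Fermat.Agent.S18.Gauss Fermat.Agent.S18.Lattice Fermat.Agent.S24 Fermat.Agent.S24.Eval
open Fermat.Agent.S18.Charts Fermat.Agent.S18.KummerRing Fermat.Agent.S18.KummerSeries
open Fermat.Agent.S18.TaylorQ Fermat.Agent.S18.TaylorS

section Coeff

variable (A : ValuationSubring KK)

/-- Series coming from `A((w))` have coefficients in `A`. -/
theorem lcoeffIn_inc (y : LaurentSeries A) : LCoeffIn (A.toSubring : Set KK) (inc A y) := by
  intro i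
  rw [coeffMap_coeff]
  exact (y.coeff i).2

/-- Series with coefficients in `A` come from `A((w))`. -/
theorem exists_inc_eq {f : LaurentSeries KK} (hf : LCoeffIn (A.toSubring : Set KK) f) :
    ∃ y : LaurentSeries A, inc A y = f := by
  refine ⟨f.map (HasseLaurent.ret A.subtype), ?_⟩
  ext i
  rw [coeffMap_coeff, HahnSeries.map_coeff]
  exact HasseLaurent.ret_spec A.subtype ⟨⟨f.coeff i, hf i⟩, rfl⟩

variable (N : ℕ) [NeZero N]

theorem lcoeffIn_qExpand {S : Set KK} (h0 : (0 : KK) ∈ S) {g : LaurentSeries KK}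
    (hg : LCoeffIn S g) : LCoeffIn S (qExpand KK N g) := by
  intro k
  by_cases hd : (N : ℤ) ∣ k
  · obtain ⟨m, rfl⟩ := hd
    rw [qExpand_coeff_mul]
    exact hg m
  · rw [qExpand_coeff_of_not_dvd N g hd]
    exact h0

theorem lcoeffIn_of_qExpand {S : Set KK} {g : LaurentSeries KK}
    (hg : LCoeffIn S (qExpand KK N g)) : LCoeffIn S g := by
  intro m
  have := hg ((N : ℤ) * m)
  rwa [qExpand_coeff_mul] at this

end Coeff

section Coordinate

variable (A : ValuationSubring KK) (N : ℕ) [NeZero N]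

/-- The Kummer coordinate is `w + ⋯`. -/
theorem hsA' : (sA A N).coeff 1 = 1 ∧ ∀ i : ℤ, i < 1 → (sA A N).coeff i = 0 :=
  ⟨by rw [sA, coeff_sOf_one, constantCoeff_rA], fun _ hi => coeff_sOf_of_lt N _ hi⟩

theorem isLeadS_sK : IsLeadS (sK A N) :=
  HasseLaurentS.isLeadS_coeffMap A.subtype (sA A N) (hsA' A N)

theorem sK_ne_zero : sK A N ≠ 0 := ne_zero_of_isLeadS (isLeadS_sK A N)

theorem lcoeffIn_sK : LCoeffIn (A.toSubring : Set KK) (sK A N) := lcoeffIn_inc A _

theorem lcoeffIn_zpow_sK (i : ℤ) : LCoeffIn (A.toSubring : Set KK) (sK A N ^ i) := by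
  obtain ⟨n, rfl | rfl⟩ := i.eq_nat_or_neg
  · rw [zpow_natCast]
    exact lcoeffIn_pow A.toSubring (lcoeffIn_sK A N) n
  · rw [zpow_neg, zpow_natCast, ← inv_pow]
    exact lcoeffIn_pow A.toSubring
      (lcoeffIn_inv A.toSubring (isLeadS_sK A N) (lcoeffIn_sK A N)) n

theorem exK_algebraMap (c : KK) : exK N (algebraMap KK (FF N) c) = HahnSeries.C c := by
  rw [exK_apply]
  have : ((algebraMap KK (FF N) c : FF N) : LaurentSeries KK) = HahnSeries.C c :=
    HasseField.algebraMap_eq_C c
  rw [this, qExpand_C]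

end Coordinate

section Stable

variable {A : ValuationSubring KK} {N : ℕ} [NeZero N]

/-- The Hasse derivatives of a homogeneous element, rationally. -/
theorem coeff_TLS_generator_rat
    (hder : ∀ (i : ℤ) (a : FF N), a ∈ Vrat N i → ∃ b ∈ Vrat N (i - 1),
      DLS (sK A N) (exK N a * sK A N ^ i) = exK N b * sK A N ^ (i - 1))
    (i : ℤ) (a : FF N) (ha : a ∈ Vrat N i) (n : ℕ) :
    ∃ b ∈ Vrat N (i - n),
      PowerSeries.coeff n (TLS (sK A N) (exK N a * sK A N ^ i)) =
        exK N b * sK A N ^ (i - n) := by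
  induction n with
  | zero =>
    refine ⟨a, by simpa using ha, ?_⟩
    rw [PowerSeries.coeff_zero_eq_constantCoeff_apply, constantCoeff_TLS]
    simp
  | succ n ih =>
    obtain ⟨b, hb, hbe⟩ := ih
    obtain ⟨b', hb', hD⟩ := hder (i - n) b hb
    have e : i - ((n + 1 : ℕ) : ℤ) = i - n - 1 := by push_cast; ring
    have hn0 : ((n + 1 : ℕ) : KK) ≠ 0 := Nat.cast_ne_zero.mpr (Nat.succ_ne_zero n)
    refine ⟨algebraMap KK (FF N) ((n + 1 : ℕ) : KK)⁻¹ * b', ?_, ?_⟩
    · rw [e]
      exact smul_mem_Vrat _ hb'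
    · have h := succ_mul_coeff_TLS (sK A N) (exK N a * sK A N ^ i) n
      rw [hbe, hD] at h
      have e2 : ((n + 1 : ℕ) : LaurentSeries KK) = HahnSeries.C ((n + 1 : ℕ) : KK) := by
        rw [map_natCast]
      have e3 : exK N (algebraMap KK (FF N) ((n + 1 : ℕ) : KK)⁻¹ * b') =
          HahnSeries.C ((n + 1 : ℕ) : KK)⁻¹ * exK N b' := by
        rw [map_mul, exK_algebraMap]
      rw [e, e3, mul_assoc, ← h, e2, ← mul_assoc, ← map_mul, inv_mul_cancel₀ hn0, map_one,
        one_mul]

/-- The Hasse derivatives of a homogeneous generator of `Os` are homogeneous generators. -/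
theorem coeff_TLS_generator
    (hder : ∀ (i : ℤ) (a : FF N), a ∈ Vrat N i → ∃ b ∈ Vrat N (i - 1),
      DLS (sK A N) (exK N a * sK A N ^ i) = exK N b * sK A N ^ (i - 1))
    (i : ℤ) (a : FF N) (ha : a ∈ V A N i) (n : ℕ) :
    ∃ b ∈ V A N (i - n),
      PowerSeries.coeff n (TLS (sK A N) (exK N a * sK A N ^ i)) =
        exK N b * sK A N ^ (i - n) := by
  obtain ⟨b, hb, hbe⟩ := coeff_TLS_generator_rat hder i a ha.1 n
  refine ⟨b, ⟨hb, ?_⟩, hbe⟩
  -- integrality
  have hAmul : ∀ x ∈ A.toSubring, ∀ y ∈ A.toSubring.toAddSubgroup, x * y ∈ A.toSubring.toAddSubgroup :=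
    fun x hx y hy => A.toSubring.mul_mem hx hy
  obtain ⟨α, hα⟩ := ha.2
  have hf : LCoeffIn (A.toSubring.toAddSubgroup : Set KK) (exK N a * sK A N ^ i) := by
    refine lcoeffIn_mul A.toSubring A.toSubring.toAddSubgroup hAmul ?_ (lcoeffIn_zpow_sK A N i)
    rw [exK_apply, ← hα]
    exact lcoeffIn_qExpand N A.toSubring.zero_mem (lcoeffIn_inc A α)
  have hT := pcoeffIn_TLS A.toSubring A.toSubring.toAddSubgroup hAmul (isLeadS_sK A N)
    (lcoeffIn_sK A N) hf n
  have hs0 := sK_ne_zero A N
  have hexK : exK N b = PowerSeries.coeff n (TLS (sK A N) (exK N a * sK A N ^ i)) *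
      sK A N ^ (-(i - n)) := by
    rw [hbe, mul_assoc, ← zpow_add₀ hs0, add_neg_cancel, zpow_zero, mul_one]
  have hb' : LCoeffIn (A.toSubring : Set KK) (exK N b) := by
    rw [hexK]
    exact lcoeffIn_mul A.toSubring A.toSubring.toAddSubgroup hAmul hT (lcoeffIn_zpow_sK A N _)
  rw [exK_apply] at hb'
  exact exists_inc_eq A (lcoeffIn_of_qExpand N hb')

/-- **(T3b)** The chart ring of the Kummer cover is stable under the Hasse derivatives with
respect to `s`. -/
theorem stable_Os
    (hder : ∀ (i : ℤ) (a : FF N), a ∈ Vrat N i → ∃ b ∈ Vrat N (i - 1),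
      DLS (sK A N) (exK N a * sK A N ^ i) = exK N b * sK A N ^ (i - 1)) :
    ∀ f ∈ Os A N, ∀ n, PowerSeries.coeff n (TLS (sK A N) f) ∈ Os A N := by
  intro f hf
  induction hf using Subring.closure_induction with
  | mem x hx =>
    intro n
    obtain ⟨i, a, ha, rfl⟩ := hx
    obtain ⟨b, hb, hbe⟩ := coeff_TLS_generator hder i a ha n
    rw [hbe]
    exact mem_Os_of_mem_V hb
  | zero =>
    intro n
    rw [map_zero, map_zero]
    exact zero_mem _
  | one =>
    intro n
    rw [map_one, PowerSeries.coeff_one]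
    split_ifs
    · exact one_mem _
    · exact zero_mem _
  | add x y _ _ ihx ihy =>
    intro n
    rw [map_add, map_add]
    exact add_mem (ihx n) (ihy n)
  | neg x _ ih =>
    intro n
    rw [map_neg, map_neg]
    exact neg_mem (ih n)
  | mul x y _ _ ihx ihy =>
    intro n
    rw [map_mul, PowerSeries.coeff_mul]
    exact sum_mem fun p _ => mul_mem (ihx p.1) (ihy p.2)

/-- **(T3b)** The reduction of the chart ring of the Kummer cover is stable under the Hasse
derivatives with respect to `s̄`: the hypothesis `hstab` of `ChartNormal`. -/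
theorem stable_Rs
    (hder : ∀ (i : ℤ) (a : FF N), a ∈ Vrat N i → ∃ b ∈ Vrat N (i - 1),
      DLS (sK A N) (exK N a * sK A N ^ i) = exK N b * sK A N ^ (i - 1))
    (hs : (sA A N).coeff 1 = 1 ∧ ∀ i : ℤ, i < 1 → (sA A N).coeff i = 0) :
    ∀ x ∈ Rs A N, ∀ n, PowerSeries.coeff n (HasseLaurentS.TkS A.subtype Subtype.val_injective
      (IsLocalRing.residue A) IsLocalRing.residue_surjective (sA A N) hs x) ∈ Rs A N := by
  intro x hx n
  obtain ⟨y, hy, rfl⟩ := mem_Rs.mp hx
  have h1 := HasseLaurentS.coeff_TkS_coeffMap A.subtype Subtype.val_injective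
    (IsLocalRing.residue A) IsLocalRing.residue_surjective (sA A N) hs y n
  have h2 := HasseLaurentS.coeff_TLS_coeffMap A.subtype Subtype.val_injective (sA A N) hs y n
  refine mem_Rs.mpr ⟨PowerSeries.coeff n
    (HasseLaurentS.TAS A.subtype Subtype.val_injective (sA A N) hs y), ?_, h1.symm⟩
  have h3 := stable_Os hder (inc A y) hy n
  have h4 : inc A (PowerSeries.coeff n
      (HasseLaurentS.TAS A.subtype Subtype.val_injective (sA A N) hs y)) =
      PowerSeries.coeff n (TLS (sK A N) (inc A y)) := h2.symm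
  rw [h4]
  exact h3

end Stable

end Fermat.Agent.S18.KummerHasse
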