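import Mathlib
import Fermat.Agent.S18.KummerRing

/-!
# S18 infrastructure (Kummer cover, route β): integrality and the normal form

* `hsA` : the Kummer coordinate `sA A N` is `w + ⋯`;
* `sAz A N i` (`i : ℤ`) : the powers of `sA` in `A((w))`, `inc_sAz : inc A (sAz A N i) = sK ^ i`,
  `rd_sAz`;
* `exists_int` (T2) : the elements of `Os A N` have coefficients in `A`;
* `exists_normalForm` (T1) : every element of `Os A N` is `∑ i < N, a_i (w ^ N) * s ^ i` with
  `a_i ∈ V A N i`.
-/

set_option autoImplicit false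
set_option linter.style.haveILetI false
set_option linter.unusedSectionVars false
set_option linter.unusedVariables false

noncomputable section

namespace Fermat.Agent.S18.KummerNF

open ModularCurve AlgebraicCurve HahnSeries Fermat.Agent.S18.Gauss Fermat.Agent.S18.Lattice
  Fermat.Agent.S24 Fermat.Agent.S24.Eval Fermat.Agent.S18.Charts Fermat.Agent.S18.KummerSeries
  Fermat.Agent.S18.KummerRing

/-! ### Units of the form `sOf` -/

section Unit

variable {R : Type*} [CommRing R] (N : ℕ) [NeZero N]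

/-- The inverse of `sOf N r` for `r` with constant coefficient `1`. -/
def sInv (r : PowerSeries R) : LaurentSeries R :=
  HahnSeries.single (-1 : ℤ) (1 : R) *
    qExpand R N (HahnSeries.ofPowerSeries ℤ R (PowerSeries.invOfUnit r 1))

theorem sOf_mul_sInv (r : PowerSeries R) (hr : PowerSeries.constantCoeff r = 1) :
    sOf N r * sInv N r = 1 := by
  have h1 : HahnSeries.single (1 : ℤ) (1 : R) * HahnSeries.single (-1 : ℤ) (1 : R) = 1 := by
    rw [HahnSeries.single_mul_single]
    simp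
  have h2 : r * PowerSeries.invOfUnit r 1 = 1 :=
    PowerSeries.mul_invOfUnit _ _ (by rw [hr]; rfl)
  have h3 : qExpand R N (HahnSeries.ofPowerSeries ℤ R r) *
      qExpand R N (HahnSeries.ofPowerSeries ℤ R (PowerSeries.invOfUnit r 1)) = 1 := by
    rw [← map_mul, ← map_mul, h2, map_one, map_one]
  rw [sOf, sInv]
  calc HahnSeries.single (1 : ℤ) (1 : R) * qExpand R N (HahnSeries.ofPowerSeries ℤ R r) *
        (HahnSeries.single (-1 : ℤ) (1 : R) *
          qExpand R N (HahnSeries.ofPowerSeries ℤ R (PowerSeries.invOfUnit r 1)))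
      = (HahnSeries.single (1 : ℤ) (1 : R) * HahnSeries.single (-1 : ℤ) (1 : R)) *
        (qExpand R N (HahnSeries.ofPowerSeries ℤ R r) *
          qExpand R N (HahnSeries.ofPowerSeries ℤ R (PowerSeries.invOfUnit r 1))) := by ring
    _ = 1 := by rw [h1, h3, one_mul]

end Unit

section Coordinate

variable (A : ValuationSubring KK) (N : ℕ) [NeZero N]

local notation "k" => IsLocalRing.ResidueField A

/-- The Kummer coordinate is `w + ⋯`. -/
theorem hsA : (sA A N).coeff 1 = 1 ∧ ∀ i : ℤ, i < 1 → (sA A N).coeff i = 0 := by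
  refine ⟨?_, fun i hi => ?_⟩
  · rw [sA, coeff_sOf_one, constantCoeff_rA]
  · rw [sA]
    exact coeff_sOf_of_lt N _ hi

/-- The inverse of the Kummer coordinate over `A`. -/
def sAinv : LaurentSeries A := sInv N (rA A N)

theorem sA_mul_sAinv : sA A N * sAinv A N = 1 := sOf_mul_sInv N _ (constantCoeff_rA A N)

theorem sK_mul_inc_sAinv : sK A N * inc A (sAinv A N) = 1 := by
  rw [sK, ← map_mul, sA_mul_sAinv, map_one]

theorem sk_mul_rd_sAinv : sk A N * rd A (sAinv A N) = 1 := by
  rw [sk, ← map_mul, sA_mul_sAinv, map_one]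

theorem sK_ne_zero : sK A N ≠ 0 := by
  intro h
  have := sK_mul_inc_sAinv A N
  rw [h, zero_mul] at this
  exact zero_ne_one this

theorem sk_ne_zero : sk A N ≠ 0 := by
  intro h
  have := sk_mul_rd_sAinv A N
  rw [h, zero_mul] at this
  exact zero_ne_one this

theorem inc_sAinv : inc A (sAinv A N) = (sK A N)⁻¹ :=
  eq_inv_of_mul_eq_one_right (sK_mul_inc_sAinv A N)

theorem rd_sAinv : rd A (sAinv A N) = (sk A N)⁻¹ :=
  eq_inv_of_mul_eq_one_right (sk_mul_rd_sAinv A N)

/-- The integral powers of the Kummer coordinate over `A`. -/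
def sAz (i : ℤ) : LaurentSeries A :=
  if 0 ≤ i then sA A N ^ i.toNat else sAinv A N ^ (-i).toNat

theorem inc_sAz (i : ℤ) : inc A (sAz A N i) = sK A N ^ i := by
  rw [sAz]
  split_ifs with h
  · rw [map_pow]
    conv_rhs => rw [← Int.toNat_of_nonneg h]
    rw [zpow_natCast]
    rfl
  · have h' : 0 ≤ -i := by omega
    rw [map_pow, inc_sAinv, inv_pow, ← zpow_natCast, Int.toNat_of_nonneg h', ← zpow_neg, neg_neg]

theorem rd_sAz (i : ℤ) : rd A (sAz A N i) = sk A N ^ i := by
  rw [sAz]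
  split_ifs with h
  · rw [map_pow]
    conv_rhs => rw [← Int.toNat_of_nonneg h]
    rw [zpow_natCast]
    rfl
  · have h' : 0 ≤ -i := by omega
    rw [map_pow, rd_sAinv, inv_pow, ← zpow_natCast, Int.toNat_of_nonneg h', ← zpow_neg, neg_neg]

end Coordinate

/-! ### `j` and `1 / j` -/

section J

variable (A : ValuationSubring KK) (N : ℕ) [NeZero N]

theorem coe_jF : ((jF N : FF N) : LaurentSeries KK) = jqModC KK := by
  have h : ((jF N : FF N) : LaurentSeries KK) = coeffMap (algebraMap ℚ KK) (jqNModC ℚ 1) := rfl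
  rw [h, coeffMap_jqNModC, jqNModC_one]

theorem coe_jF_inv : (((jF N)⁻¹ : FF N) : LaurentSeries KK) = tL KK := by
  have h1 : (((jF N)⁻¹ : FF N) : LaurentSeries KK) = ((jF N : FF N) : LaurentSeries KK)⁻¹ := rfl
  rw [h1, coe_jF]
  exact (eq_inv_of_mul_eq_one_right (jqModC_mul_tL KK)).symm

theorem jF_mem_intSeries : jF N ∈ intSeries A N :=
  ⟨jqModC A, by rw [coe_jF]; exact coeffMap_jqModC _⟩

theorem jF_inv_mem_intSeries : (jF N)⁻¹ ∈ intSeries A N :=
  ⟨tL A, by rw [coe_jF_inv]; exact coeffMap_tL _⟩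

theorem jF_mem_V : jF N ∈ V A N (N : ℤ) := ⟨j_mem_Vrat, jF_mem_intSeries A N⟩

theorem jF_inv_mem_V : (jF N)⁻¹ ∈ V A N (-(N : ℤ)) := ⟨jinv_mem_Vrat, jF_inv_mem_intSeries A N⟩

theorem pow_mem_V {i : ℤ} {a : FF N} (ha : a ∈ V A N i) (n : ℕ) : a ^ n ∈ V A N (n * i) := by
  induction n with
  | zero =>
    rw [pow_zero, Nat.cast_zero, zero_mul]
    exact one_mem_V_zero
  | succ n ih =>
    rw [pow_succ]
    have := mul_mem_V ih ha
    have e : (n : ℤ) * i + i = ((n + 1 : ℕ) : ℤ) * i := by push_cast; ring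
    rwa [e] at this

/-- `t ^ m ∈ V (-N m)` for every integer `m`. -/
theorem jF_inv_zpow_mem_V (m : ℤ) : (jF N)⁻¹ ^ m ∈ V A N (-((N : ℤ) * m)) := by
  by_cases h : 0 ≤ m
  · have h1 := pow_mem_V A N (jF_inv_mem_V A N) m.toNat
    rw [Int.toNat_of_nonneg h] at h1
    have e : (jF N)⁻¹ ^ m = (jF N)⁻¹ ^ m.toNat := by
      conv_lhs => rw [← Int.toNat_of_nonneg h]
      rw [zpow_natCast]
    rw [e]
    have e2 : m * -(N : ℤ) = -((N : ℤ) * m) := by ring
    rwa [e2] at h1
  · have h' : 0 ≤ -m := by omega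
    have h1 := pow_mem_V A N (jF_mem_V A N) (-m).toNat
    rw [Int.toNat_of_nonneg h'] at h1
    have e : (jF N)⁻¹ ^ m = (jF N) ^ (-m).toNat := by
      rw [← zpow_natCast, Int.toNat_of_nonneg h', inv_zpow']
    rw [e]
    have e2 : -m * (N : ℤ) = -((N : ℤ) * m) := by ring
    rwa [e2] at h1

theorem exK_jF_inv : exK N (jF N)⁻¹ = qExpand KK N (tL KK) := by
  rw [exK_apply, coe_jF_inv]

end J

/-! ### Integrality (T2) -/

section Int

variable (A : ValuationSubring KK) (N : ℕ) [NeZero N]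

theorem W_le_range : W A N ⊆ ((inc A).range : Set (LaurentSeries KK)) := by
  rintro f ⟨i, a, ha, rfl⟩
  obtain ⟨α, hα⟩ := ha.2
  refine ⟨qExpand A N α * sAz A N i, ?_⟩
  rw [map_mul, inc_sAz, exK_apply, ← hα]
  congr 1
  exact coeffMap_qExpand _ _ _

/-- **(T2)** The elements of the chart ring have coefficients in `A`. -/
theorem exists_int {f : LaurentSeries KK} (hf : f ∈ Os A N) :
    ∃ y : LaurentSeries A, inc A y = f := by
  have h : Os A N ≤ (inc A).range := Subring.closure_le.mpr (W_le_range A N)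
  exact h hf

end Int

/-! ### The normal form (T1) -/

section NF

variable (A : ValuationSubring KK) (N : ℕ) [NeZero N]

/-- The homogeneous elements form a submonoid. -/
def Wm : Submonoid (LaurentSeries KK) where
  carrier := W A N
  one_mem' := ⟨0, 1, one_mem_V_zero, by rw [map_one, zpow_zero, mul_one]⟩
  mul_mem' := by
    rintro f g ⟨i, a, ha, rfl⟩ ⟨i', b, hb, rfl⟩
    refine ⟨i + i', a * b, mul_mem_V ha hb, ?_⟩
    rw [map_mul, zpow_add₀ (sK_ne_zero A N)]
    ring

/-- The elements in normal form. -/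
def NF : AddSubgroup (LaurentSeries KK) where
  carrier := {f | ∃ a : Fin N → FF N, (∀ i : Fin N, a i ∈ V A N ((i.val : ℕ) : ℤ)) ∧
    f = ∑ i : Fin N, exK N (a i) * sK A N ^ (i : ℕ)}
  zero_mem' := ⟨fun _ => 0, fun i => zero_mem _, by simp⟩
  add_mem' := by
    rintro f g ⟨a, ha, rfl⟩ ⟨b, hb, rfl⟩
    refine ⟨fun i => a i + b i, fun i => add_mem (ha i) (hb i), ?_⟩
    rw [← Finset.sum_add_distrib]
    refine Finset.sum_congr rfl fun i _ => ?_
    rw [map_add, add_mul]
  neg_mem' := by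
    rintro f ⟨a, ha, rfl⟩
    refine ⟨fun i => -a i, fun i => neg_mem (ha i), ?_⟩
    rw [← Finset.sum_neg_distrib]
    refine Finset.sum_congr rfl fun i _ => ?_
    rw [map_neg, neg_mul]

variable {A N}

theorem mem_NF {f : LaurentSeries KK} :
    f ∈ NF A N ↔ ∃ a : Fin N → FF N, (∀ i : Fin N, a i ∈ V A N ((i.val : ℕ) : ℤ)) ∧
      f = ∑ i : Fin N, exK N (a i) * sK A N ^ (i : ℕ) := Iff.rfl

/-- A homogeneous element of degree `r < N` is in normal form. -/
theorem single_mem_NF (r : Fin N) {a : FF N} (ha : a ∈ V A N ((r.val : ℕ) : ℤ)) :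
    exK N a * sK A N ^ (r : ℕ) ∈ NF A N := by
  classical
  refine ⟨fun i => if i = r then a else 0, fun i => ?_, ?_⟩
  · by_cases h : i = r
    · simp only [h, if_true]
      exact ha
    · simp only [h, if_false]
      exact zero_mem _
  · rw [Finset.sum_eq_single r]
    · simp
    · intro i _ hi
      simp [hi]
    · intro h
      exact absurd (Finset.mem_univ r) h

theorem W_le_NF {ℓ : ℕ} [Fact ℓ.Prime] (hA : A.LiesOverPrime ℓ) (hℓN : ¬ ℓ ∣ N) :
    W A N ⊆ (NF A N : Set (LaurentSeries KK)) := by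
  rintro f ⟨i, a, ha, rfl⟩
  have hN : (0 : ℤ) < N := by exact_mod_cast Nat.pos_of_ne_zero (NeZero.ne N)
  have h1 : 0 ≤ i % N := Int.emod_nonneg _ hN.ne'
  have h2 : i % N < N := Int.emod_lt_of_pos _ hN
  have h3 : ((i % N).toNat : ℤ) = i % N := Int.toNat_of_nonneg h1
  let r : Fin N := ⟨(i % N).toNat, by omega⟩
  have hr : ((r.val : ℕ) : ℤ) = i % N := h3
  have hi : i = (N : ℤ) * (i / N) + ((r.val : ℕ) : ℤ) := by
    rw [hr]
    exact (Int.mul_ediv_add_emod i N).symm
  have e1 : sK A N ^ i = exK N ((jF N)⁻¹ ^ (i / N)) * sK A N ^ (r : ℕ) := by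
    conv_lhs => rw [hi]
    rw [zpow_add₀ (sK_ne_zero A N), zpow_mul, zpow_natCast, zpow_natCast, sK_pow hA hℓN,
      ← exK_jF_inv, map_zpow₀]
  have e2 : exK N a * sK A N ^ i = exK N (a * (jF N)⁻¹ ^ (i / N)) * sK A N ^ (r : ℕ) := by
    rw [e1, map_mul, mul_assoc]
  rw [e2]
  apply single_mem_NF r
  have h4 := mul_mem_V ha (jF_inv_zpow_mem_V A N (i / N))
  have e3 : i + -((N : ℤ) * (i / N)) = ((r.val : ℕ) : ℤ) := by
    rw [hr]
    have := Int.mul_ediv_add_emod i N
    omega
  rwa [e3] at h4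

/-- **(T1)** Every element of the chart ring is `∑ i < N, a_i (w ^ N) * s ^ i` with
`a_i ∈ V A N i`. -/
theorem exists_normalForm {ℓ : ℕ} [Fact ℓ.Prime] (hA : A.LiesOverPrime ℓ) (hℓN : ¬ ℓ ∣ N)
    {f : LaurentSeries KK} (hf : f ∈ Os A N) :
    ∃ a : Fin N → FF N, (∀ i : Fin N, a i ∈ V A N ((i.val : ℕ) : ℤ)) ∧
      f = ∑ i : Fin N, exK N (a i) * sK A N ^ (i : ℕ) := by
  have h1 : f ∈ AddSubgroup.closure ((Submonoid.closure (W A N) : Submonoid _) :
      Set (LaurentSeries KK)) := Subring.mem_closure_iff.mp hf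
  have h2 : Submonoid.closure (W A N) = Wm A N := Submonoid.closure_eq (Wm A N)
  rw [h2] at h1
  have h3 : AddSubgroup.closure ((Wm A N : Submonoid _) : Set (LaurentSeries KK)) ≤ NF A N :=
    (AddSubgroup.closure_le _).mpr (W_le_NF hA hℓN)
  exact h3 h1

/-- The chart ring is the additive group generated by the homogeneous elements. -/
theorem mem_Os_iff {ℓ : ℕ} [Fact ℓ.Prime] (hA : A.LiesOverPrime ℓ) (hℓN : ¬ ℓ ∣ N)
    {f : LaurentSeries KK} : f ∈ Os A N ↔ f ∈ NF A N := by
  refine ⟨fun hf => exists_normalForm hA hℓN hf, ?_⟩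
  rintro ⟨a, ha, rfl⟩
  refine Subring.sum_mem _ fun i _ => ?_
  have := mem_Os_of_mem_V (ha i)
  rwa [zpow_natCast] at this

end NF

/-! ### The normal form over `A`, its reduction, the descent -/

section Descent

variable {A : ValuationSubring KK} {N : ℕ} [NeZero N]

local notation "k" => IsLocalRing.ResidueField A

/-- The normal form over `A`. -/
theorem exists_normalForm_A {ℓ : ℕ} [Fact ℓ.Prime] (hA : A.LiesOverPrime ℓ) (hℓN : ¬ ℓ ∣ N)
    {Y : LaurentSeries A} (hY : inc A Y ∈ Os A N) :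
    ∃ (a : Fin N → FF N) (α : Fin N → LaurentSeries A),
      (∀ i : Fin N, a i ∈ V A N ((i.val : ℕ) : ℤ)) ∧
      (∀ i : Fin N, inc A (α i) = ((a i : FF N) : LaurentSeries KK)) ∧
      Y = ∑ i : Fin N, qExpand A N (α i) * sA A N ^ (i : ℕ) := by
  obtain ⟨a, ha, hf⟩ := exists_normalForm hA hℓN hY
  have h : ∀ i : Fin N, ∃ α : LaurentSeries A, inc A α = ((a i : FF N) : LaurentSeries KK) :=
    fun i => (ha i).2
  choose α hα using h
  refine ⟨a, α, ha, hα, ?_⟩
  apply inc_injective A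
  rw [hf, map_sum]
  refine Finset.sum_congr rfl fun i _ => ?_
  rw [map_mul, map_pow, exK_apply, ← hα i]
  congr 1
  exact (coeffMap_qExpand _ _ _).symm

/-- The reduction of a normal form. -/
theorem rd_normalForm (α : Fin N → LaurentSeries A) :
    rd A (∑ i : Fin N, qExpand A N (α i) * sA A N ^ (i : ℕ)) =
      tw N (fun i => rd A (α i) *
        HahnSeries.ofPowerSeries ℤ k (((rA A N).map (IsLocalRing.residue A)) ^ (i : ℕ))) := by
  rw [← sum_mul_sOf_pow, map_sum]
  refine Finset.sum_congr rfl fun i _ => ?_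
  rw [map_mul, map_pow, ← sk_eq]
  congr 1
  exact coeffMap_qExpand _ _ _

theorem qExpand_eq_tw {R : Type*} [CommRing R] (x : LaurentSeries R) :
    qExpand R N x = tw N (fun i : Fin N => if i = 0 then x else 0) := by
  classical
  rw [tw, Finset.sum_eq_single (0 : Fin N)]
  · simp
  · intro i _ hi
    simp [hi]
  · intro h
    exact absurd (Finset.mem_univ _) h

/-- **The descent.**  If `x (w ^ N)` lies in the reduction of the chart ring of the Kummer
cover, then `x` is the reduction of an element of `V A N 0`. -/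
theorem exists_lift_of_mem_Rs {ℓ : ℕ} [Fact ℓ.Prime] (hA : A.LiesOverPrime ℓ) (hℓN : ¬ ℓ ∣ N)
    (x : LaurentSeries k) (hx : qExpand k N x ∈ Rs A N) :
    ∃ (a : FF N) (α : LaurentSeries A), a ∈ V A N 0 ∧
      inc A α = ((a : FF N) : LaurentSeries KK) ∧ rd A α = x := by
  obtain ⟨Y, hY, hYx⟩ := mem_Rs.mp hx
  obtain ⟨a, α, ha, hα, hYsum⟩ := exists_normalForm_A hA hℓN hY
  rw [hYsum, rd_normalForm, qExpand_eq_tw] at hYx
  have h0 := congrFun (tw_injective N hYx) 0
  simp only [if_true, Fin.val_zero, pow_zero, map_one, mul_one] at h0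
  refine ⟨a 0, α 0, ?_, hα 0, h0⟩
  have := ha 0
  simpa using this

end Descent

/-! ### Elements of `Rs` -/

section Elements

variable (A : ValuationSubring KK) (N : ℕ) [NeZero N]

local notation "k" => IsLocalRing.ResidueField A

theorem algebraMap_mem_V (c : A) : algebraMap KK (FF N) (c : KK) ∈ V A N 0 := by
  refine ⟨algebraMap_mem_Vrat _, ⟨HahnSeries.C c, ?_⟩⟩
  rw [inc_C]
  rfl

theorem C_mem_OsA (c : A) : HahnSeries.C c ∈ OsA A N := by
  rw [mem_OsA, inc_C]
  have h := mem_Os_of_mem_V (algebraMap_mem_V A N c)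
  rw [zpow_zero, mul_one, exK_apply] at h
  have e : ((algebraMap KK (FF N) (c : KK) : FF N) : LaurentSeries KK) =
      algebraMap KK (LaurentSeries KK) (c : KK) := rfl
  rw [e] at h
  have e2 : qExpand KK N (algebraMap KK (LaurentSeries KK) (c : KK)) =
      algebraMap KK (LaurentSeries KK) (c : KK) := by
    rw [algebraMap_laurentSeries_eq_single, qExpand_single, mul_zero]
  rwa [e2] at h

theorem C_mem_Rs (c : k) : HahnSeries.C c ∈ Rs A N := by
  obtain ⟨c₀, rfl⟩ := IsLocalRing.residue_surjective c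
  refine mem_Rs.mpr ⟨HahnSeries.C c₀, C_mem_OsA A N c₀, ?_⟩
  rw [rd_C, algebraMap_laurentSeries_eq_single]
  rfl

theorem sA_mem_OsA : sA A N ∈ OsA A N := by
  rw [mem_OsA]
  have h := mem_Os_of_mem_V (one_mem_V_one (A := A) (N := N))
  rwa [map_one, one_mul, zpow_one] at h

theorem sk_mem_Rs : sk A N ∈ Rs A N :=
  mem_Rs.mpr ⟨sA A N, sA_mem_OsA A N, rfl⟩

/-- The reduction of the chart ring of the Kummer cover, as a `k`-subalgebra. -/
def RsAlg : Subalgebra k (LaurentSeries k) :=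
  { (Rs A N).toSubsemiring with
    algebraMap_mem' := fun c => by
      rw [algebraMap_laurentSeries_eq_single]
      exact C_mem_Rs A N c }

theorem mem_RsAlg {x : LaurentSeries k} : x ∈ RsAlg A N ↔ x ∈ Rs A N := Iff.rfl

theorem coe_RsAlg : (RsAlg A N : Set (LaurentSeries k)) = (Rs A N : Set (LaurentSeries k)) := rfl

end Elements

end Fermat.Agent.S18.KummerNF
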