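import Mathlib
import Fermat.Agent.S18.KummerNF
import Fermat.Agent.S18.KummerHasse
import Fermat.Agent.S18.ChartNormalFk
import Fermat.Agent.S18.HasseLaurentS
import Fermat.Agent.S18.HasseStab

/-!
# S18 infrastructure (Kummer cover, route β): the assembly (T7a)

From the four inputs on the reduction `Rs A N` of the chart ring of the Kummer cover

* `hder` (T3a) : the derivative of the graded pieces,
* `hint`, `hgR` (T4) : `Rs` is integral over `k[s̄, 1 / g(s̄)]` and contains `1 / g(s̄)`,
* `hfin` (T5) : `Rs` spans a finite dimensional `k(s̄)`-space,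
* `hfrac` (T6) : every `x (w ^ N)`, `x ∈ Fk`, is a quotient of two elements of `Rs`,

we get: every element of `B2b A N` (integral over `k[1 / j̄]`) is the reduction of a function
with integral `q`-expansion, regular at the generic places and at the cusps
(`exists_lift_chartU`), the hypothesis `hU` of `KummerUnity.normalStmt2_of_lift`.
-/

set_option autoImplicit false
set_option linter.style.haveILetI false
set_option linter.unusedSectionVars false
set_option linter.unusedVariables false

noncomputable section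

namespace Fermat.Agent.S18.KummerChart

open ModularCurve AlgebraicCurve HahnSeries Fermat.Agent.S18.Gauss Fermat.Agent.S18.Lattice
  Fermat.Agent.S24 Fermat.Agent.S24.Eval Fermat.Agent.S18.Charts Fermat.Agent.S18.KummerSeries
  Fermat.Agent.S18.KummerRing Fermat.Agent.S18.KummerNF IntermediateField

/-! ### Integrality and algebra homomorphisms -/

section Alg

variable {k B C : Type*} [Field k] [CommRing B] [CommRing C] [Algebra k B] [Algebra k C]

/-- Integrality over `k[u]` is preserved by `k`-algebra homomorphisms. -/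
theorem isIntegral_map_adjoin (ψ : B →ₐ[k] C) (u x : B)
    (hx : IsIntegral (Algebra.adjoin k {u}) x) :
    IsIntegral (Algebra.adjoin k {ψ u}) (ψ x) := by
  have hmap : (Algebra.adjoin k {u}).map ψ = Algebra.adjoin k {ψ u} :=
    AlgHom.map_adjoin_singleton ψ u
  let φ : Algebra.adjoin k {u} →+* Algebra.adjoin k {ψ u} :=
    { toFun := fun a => ⟨ψ (a : B), by
        rw [← hmap]
        exact ⟨a, a.2, rfl⟩⟩
      map_one' := Subtype.ext (map_one ψ)
      map_mul' := fun _ _ => Subtype.ext (map_mul ψ _ _)
      map_zero' := Subtype.ext (map_zero ψ)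
      map_add' := fun _ _ => Subtype.ext (map_add ψ _ _) }
  exact IsIntegral.map_of_comp_eq φ (ψ : B →+* C) rfl hx

end Alg

section General

variable (k : Type) [Field k] (N : ℕ) [NeZero N]

/-- `qExpand k N` as a `k`-algebra homomorphism restricted to the reduced function field. -/
def exk : modularFunctionFieldFullC k N →ₐ[k] LaurentSeries k :=
  (qExpandAlgHomC k N).comp (modularFunctionFieldFullC k N).val

theorem exk_apply (x : modularFunctionFieldFullC k N) :
    exk k N x = qExpand k N (x : LaurentSeries k) := rfl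

theorem exk_jk_inv : exk k N (DegEq.jk k N)⁻¹ = qExpand k N (tL k) := by
  rw [exk_apply]
  congr 1
  have h1 : (((DegEq.jk k N)⁻¹ : modularFunctionFieldFullC k N) : LaurentSeries k) =
      ((DegEq.jk k N : modularFunctionFieldFullC k N) : LaurentSeries k)⁻¹ := rfl
  rw [h1, DegEq.coe_jk]
  exact (eq_inv_of_mul_eq_one_right (jqModC_mul_tL k)).symm

/-- Integrality over `k[1 / j̄]` gives integrality of `x (w ^ N)` over `k[t (w ^ N)]`. -/
theorem isIntegral_qExpand (x : modularFunctionFieldFullC k N)
    (hx : x ∈ Charts.B2k k N) :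
    IsIntegral (Algebra.adjoin k {qExpand k N (tL k)}) (qExpand k N (x : LaurentSeries k)) := by
  have hx' : IsIntegral (Algebra.adjoin k {(DegEq.jk k N)⁻¹}) x := hx
  have h := isIntegral_map_adjoin (exk k N) _ _ hx'
  rwa [exk_jk_inv] at h

end General

section Main

variable (A : ValuationSubring KK) (N : ℕ) [NeZero N] {ℓ : ℕ} [Fact ℓ.Prime]

local notation "k" => IsLocalRing.ResidueField A

theorem order_sk : (sk A N).order = 1 := by
  have h1 : (sk A N).coeff 1 = 1 := by
    rw [sk_eq, coeff_sOf_one]
    have : PowerSeries.constantCoeff ((rA A N).map (IsLocalRing.residue A)) =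
        IsLocalRing.residue A (PowerSeries.constantCoeff (rA A N)) := by
      rw [← PowerSeries.coeff_zero_eq_constantCoeff_apply, PowerSeries.coeff_map,
        PowerSeries.coeff_zero_eq_constantCoeff_apply]
    rw [this, constantCoeff_rA, map_one]
  have h2 : ∀ i : ℤ, i < 1 → (sk A N).coeff i = 0 := by
    intro i hi
    rw [sk_eq]
    exact coeff_sOf_of_lt N _ hi
  have hne : sk A N ≠ 0 := sk_ne_zero A N
  apply le_antisymm
  · exact HahnSeries.order_le_of_coeff_ne_zero (by rw [h1]; exact one_ne_zero)
  · by_contra hlt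
    rw [not_le] at hlt
    exact hne (HahnSeries.coeff_order_eq_zero.mp (h2 _ hlt))

/-- **(T7a)** Every element of `B2b A N` is the reduction of a function with integral
`q`-expansion which is regular at the generic places and at the cusps. -/
theorem exists_lift_chartU (hA : A.LiesOverPrime ℓ) (hℓN : ¬ ℓ ∣ N)
    (hder : ∀ (i : ℤ) (a : FF N), a ∈ Vrat N i → ∃ b ∈ Vrat N (i - 1),
      TaylorS.DLS (sK A N) (exK N a * sK A N ^ i) = exK N b * sK A N ^ (i - 1))
    (g : Polynomial k)
    (hgR : (Polynomial.aeval (sk A N) g)⁻¹ ∈ Rs A N)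
    (hint : ∀ x ∈ Rs A N, IsIntegral (ChartNormal.base (sk A N) g) x)
    (hfin : FiniteDimensional k⟮sk A N⟯
      (Submodule.span k⟮sk A N⟯ (Rs A N : Set (LaurentSeries k))))
    (hfrac : ∀ x : FkN A N, ∃ a ∈ Rs A N, ∃ b ∈ Rs A N, b ≠ 0 ∧
      qExpand k N (x : LaurentSeries k) * b = a) :
    ∀ x ∈ Charts.B2b A N, ∃ f : OO A N, GenCond N (f : FF N) ∧ CuspCond N 0 (f : FF N) ∧
      redN A N f = x := by
  intro x hx
  obtain ⟨a, ha, b, hb, hb0, hab⟩ := hfrac x
  have hyint : IsIntegral (Algebra.adjoin k {sk A N ^ N})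
      (qExpand k N (x : LaurentSeries k)) := by
    have h := isIntegral_qExpand k N x hx
    rwa [← sk_pow hA hℓN] at h
  have h₀ : Algebra.adjoin k {sk A N ^ N} ≤ RsAlg A N := by
    apply Algebra.adjoin_le
    intro z hz
    rw [Set.mem_singleton_iff] at hz
    rw [hz]
    exact pow_mem (sk_mem_Rs A N) N
  have hmem : qExpand k N (x : LaurentSeries k) ∈ RsAlg A N :=
    ChartNormalFk.mem_chart_of_isIntegral' (sk A N)
      (ChartNormalFk.not_dvd_of_order_one _ (order_sk A N))
      (HasseLaurentS.TkS A.subtype Subtype.val_injective (IsLocalRing.residue A)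
        IsLocalRing.residue_surjective (sA A N) (hsA A N))
      (HasseLaurentS.constantCoeff_TkS _ _ _ _ _ _)
      (HasseLaurentS.TkS_self _ _ _ _ _ _)
      (HasseLaurentS.TkS_C _ _ _ _ _ _)
      (RsAlg A N) (sk_mem_Rs A N) g hgR hint
      (KummerHasse.stable_Rs hder (hsA A N)) hfin
      (Algebra.adjoin k {sk A N ^ N}) h₀ _ a b ha hb hb0 hab hyint
  obtain ⟨f, α, hf, hα, hαx⟩ := exists_lift_of_mem_Rs hA hℓN _ hmem
  have hfO : f ∈ OO A N := HasseStab.mem_OO_of_inc A N hA hℓN hα
  refine ⟨⟨f, hfO⟩, hf.1.1, hf.1.2, ?_⟩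
  apply Subtype.ext
  rw [Charts.redN_eq_rd A N hfO hα, hαx]

end Main

end Fermat.Agent.S18.KummerChart
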