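import Mathlib
import Fermat.Agent.S24.KaehlerSpan
import Fermat.Agent.S24.EmbedCount
import Fermat.Agent.S18.HasseReg
import Fermat.Agent.S18.HauptParamFF
import Fermat.Agent.S18.KummerRing

/-!
# S18 infrastructure (Kummer cover, route β, leaf (T3a), cusp part)

`θ = - j d/dj` is a derivation of the function field `F = FF N` with `θ j = - j`.  At a cusp `c`
(a pole of `j`, of order `e ∣ N`) `θ` maps the valuation ring `O_c` into its maximal ideal, and
`e θ a / a ≡ ord_c a` modulo the maximal ideal (logarithmic derivative).  Consequently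

  `CuspCond N i a → CuspCond N (i - 1) (N θ a + i a)`.

The proof is purely algebraic: a uniformizer `π` at `c` is transcendental, so `θ π ≠ 0`
(Kähler differentials), `(θ π)⁻¹ θ` preserves `O_c` (`HasseReg`), and `θ j = - j` forces
`ord_c (θ π) = 1`.
-/

set_option autoImplicit false
set_option linter.unusedSectionVars false
set_option linter.unusedVariables false

noncomputable section

namespace Fermat.Agent.S18.KummerCusp

open AlgebraicCurve IntermediateField
open Fermat.Agent.S24

section Abstract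

variable {k F : Type*} [Field k] [Field F] [Algebra k F]

/-- A Leibniz map vanishing on the constants, packaged as a derivation. -/
def derOfLeibniz (d : F → F) (hadd : ∀ a b, d (a + b) = d a + d b)
    (hmul : ∀ a b, d (a * b) = a * d b + b * d a) (hL : ∀ c : k, d (algebraMap k F c) = 0) :
    Derivation k F F :=
  Derivation.mk'
    { toFun := d
      map_add' := hadd
      map_smul' := fun c a => by
        rw [Algebra.smul_def, hmul, hL, mul_zero, add_zero, RingHom.id_apply, Algebra.smul_def] }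
    (fun a b => by
      simp only [LinearMap.coe_mk, AddHom.coe_mk, smul_eq_mul]
      exact hmul a b)

@[simp]
theorem derOfLeibniz_apply (d : F → F) (hadd : ∀ a b, d (a + b) = d a + d b)
    (hmul : ∀ a b, d (a * b) = a * d b + b * d a) (hL : ∀ c : k, d (algebraMap k F c) = 0)
    (a : F) : derOfLeibniz d hadd hmul hL a = d a := rfl

theorem ord_intCast (P : Place k F) (n : ℤ) : P.ord ((n : F)) = 0 := by
  rw [← map_intCast (algebraMap k F) n]
  exact ord_algebraMap P _

theorem ord_natCast (P : Place k F) (n : ℕ) : P.ord ((n : F)) = 0 := by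
  rw [← map_natCast (algebraMap k F) n]
  exact ord_algebraMap P _

/-- A derivation which does not vanish identically does not kill a transcendental element. -/
theorem derivation_ne_zero [CharZero k] (x : F) (halg : Algebra.IsAlgebraic k⟮x⟯ F)
    (D : Derivation k F F) {y : F} (hy : D y ≠ 0) {t : F} (ht : Transcendental k t) :
    D t ≠ 0 := by
  intro h0
  have halg' := KaehlerSpan.isAlgebraic_adjoin_of_transcendental x t halg ht
  have hspan := KaehlerSpan.span_D_eq_top t halg'
  obtain ⟨f, hf⟩ := KaehlerSpan.exists_eq_smul_D hspan (KaehlerDifferential.D k F y)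
  apply hy
  have h := congrArg D.liftKaehlerDifferential hf
  rw [map_smul, Derivation.liftKaehlerDifferential_comp_D,
    Derivation.liftKaehlerDifferential_comp_D, h0, smul_zero] at h
  exact h

/-- If `D π ≠ 0` for a uniformizer `π` at `P` then `D = D π * δ` with `δ` preserving `O_P`. -/
theorem exists_mul_of_mem [IsAlgClosed k] [CharZero k] (x : F) (hx : Transcendental k x)
    [FiniteDimensional k⟮x⟯ F] (D : Derivation k F F) (P : Place k F) (π : F)
    (hπ : P.ord π = 1) (hDπ : D π ≠ 0) {f : F} (hf : f ∈ P.toValuationSubring) :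
    ∃ g ∈ P.toValuationSubring, D f = D π * g := by
  refine ⟨(D π)⁻¹ * D f, ?_, by field_simp⟩
  exact HasseReg.derivation_mem_valuationSubring x hx (fun y => (D π)⁻¹ * D y)
    (fun a b => by rw [map_add, mul_add])
    (fun a b => by rw [D.leibniz]; simp only [smul_eq_mul]; ring)
    (fun c => by rw [D.map_algebraMap, mul_zero]) P π hπ (inv_mul_cancel₀ hDπ) hf

/-- If `D j = - j` and `j` has nonzero order at `P`, then `D π` is a uniformizer at `P` for
every uniformizer `π` at `P`. -/
theorem ord_D_uniformizer [IsAlgClosed k] [CharZero k] (x : F) (hx : Transcendental k x)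
    [FiniteDimensional k⟮x⟯ F] (D : Derivation k F F) (P : Place k F) (j : F)
    (hj : P.ord j ≠ 0) (hDj : D j = - j) (π : F) (hπ : P.ord π = 1) : P.ord (D π) = 1 := by
  haveI : CharZero F := charZero_of_injective_algebraMap (algebraMap k F).injective
  have hj0 : j ≠ 0 := by
    rintro rfl
    exact hj P.ord_zero
  have hπ0 : π ≠ 0 := by
    rintro rfl
    rw [P.ord_zero] at hπ
    exact zero_ne_one hπ
  have htr : Transcendental k π :=
    KaehlerSpan.transcendental_of_ord_ne_zero P (by rw [hπ]; exact one_ne_zero)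
  have halg : Algebra.IsAlgebraic k⟮x⟯ F := Algebra.IsAlgebraic.of_finite k⟮x⟯ F
  have hDπ : D π ≠ 0 :=
    derivation_ne_zero x halg D (y := j) (by rw [hDj]; exact neg_ne_zero.mpr hj0) htr
  set n : ℤ := P.ord j with hn
  have hu0 : j * π ^ (-n) ≠ 0 := mul_ne_zero hj0 (zpow_ne_zero _ hπ0)
  have hordu : P.ord (j * π ^ (-n)) = 0 := by
    rw [P.ord_mul hj0 (zpow_ne_zero _ hπ0), P.ord_zpow, hπ, ← hn]
    ring
  have hu : j * π ^ (-n) ∈ P.toValuationSubring := mem_of_ord_nonneg P hu0 (by rw [hordu])
  obtain ⟨g, hg, hDu⟩ := exists_mul_of_mem x hx D P π hπ hDπ hu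
  have hjeq : j = (j * π ^ (-n)) * π ^ n := by
    rw [mul_assoc, ← zpow_add₀ hπ0, neg_add_cancel, zpow_zero, mul_one]
  have hD : D j = D π * ((n : F) * (j * π ^ (-n)) * π ^ (n - 1) + g * π ^ n) := by
    conv_lhs => rw [hjeq]
    rw [D.leibniz, hDu, Derivation.leibniz_zpow]
    simp only [smul_eq_mul, zsmul_eq_mul]
    ring
  have hn0 : (n : F) ≠ 0 := Int.cast_ne_zero.mpr hj
  have hw1 : (n : F) * (j * π ^ (-n)) * π ^ (n - 1) ≠ 0 :=
    mul_ne_zero (mul_ne_zero hn0 hu0) (zpow_ne_zero _ hπ0)
  have hordw1 : P.ord ((n : F) * (j * π ^ (-n)) * π ^ (n - 1)) = n - 1 := by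
    rw [P.ord_mul (mul_ne_zero hn0 hu0) (zpow_ne_zero _ hπ0), P.ord_mul hn0 hu0, ord_intCast,
      hordu, P.ord_zpow, hπ]
    ring
  have hordw : P.ord ((n : F) * (j * π ^ (-n)) * π ^ (n - 1) + g * π ^ n) = n - 1 := by
    rcases eq_or_ne g 0 with rfl | hg0
    · rw [zero_mul, add_zero, hordw1]
    · have hgπ : g * π ^ n ≠ 0 := mul_ne_zero hg0 (zpow_ne_zero _ hπ0)
      have hordg : P.ord (g * π ^ n) = P.ord g + n := by
        rw [P.ord_mul hg0 (zpow_ne_zero _ hπ0), P.ord_zpow, hπ]
        ring
      have hg' := ord_nonneg_of_mem P hg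
      rw [ord_add_eq_of_lt P hw1 hgπ (by rw [hordw1, hordg]; omega), hordw1]
  have hw0 : (n : F) * (j * π ^ (-n)) * π ^ (n - 1) + g * π ^ n ≠ 0 := by
    intro h0
    rw [h0, mul_zero, hDj] at hD
    exact hj0 (neg_eq_zero.mp hD)
  have h1 : P.ord (D j) = n := by rw [hDj, ord_neg]
  rw [hD, P.ord_mul hDπ hw0, hordw] at h1
  omega

/-- If `D j = - j` and `j` has nonzero order at `P`, then `D` maps the valuation ring of `P`
into its maximal ideal. -/
theorem D_mem_maximal [IsAlgClosed k] [CharZero k] (x : F) (hx : Transcendental k x)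
    [FiniteDimensional k⟮x⟯ F] (D : Derivation k F F) (P : Place k F) (j : F)
    (hj : P.ord j ≠ 0) (hDj : D j = - j) {f : F} (hf : f ∈ P.toValuationSubring) :
    D f = 0 ∨ 0 < P.ord (D f) := by
  obtain ⟨π, hπ0, hπ⟩ := exists_uniformizer P
  have h1 := ord_D_uniformizer x hx D P j hj hDj π hπ
  have hDπ : D π ≠ 0 := by
    intro h0
    rw [h0, P.ord_zero] at h1
    exact zero_ne_one h1
  obtain ⟨g, hg, hDf⟩ := exists_mul_of_mem x hx D P π hπ hDπ hf
  rcases eq_or_ne g 0 with rfl | hg0
  · left
    rw [hDf, mul_zero]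
  · right
    have hg' := ord_nonneg_of_mem P hg
    rw [hDf, P.ord_mul hDπ hg0, h1]
    omega

/-- The logarithmic derivative at a pole or zero of `j`: `(ord j) * D a = (z - ord a) * a` with
`z` in the maximal ideal. -/
theorem exists_logDeriv [IsAlgClosed k] [CharZero k] (x : F) (hx : Transcendental k x)
    [FiniteDimensional k⟮x⟯ F] (D : Derivation k F F) (P : Place k F) (j : F)
    (hj : P.ord j ≠ 0) (hDj : D j = - j) {a : F} (ha : a ≠ 0) :
    ∃ z : F, (z = 0 ∨ 0 < P.ord z) ∧
      ((P.ord j : ℤ) : F) * D a = (z - ((P.ord a : ℤ) : F)) * a := by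
  have hj0 : j ≠ 0 := by
    rintro rfl
    exact hj P.ord_zero
  set n : ℤ := P.ord j with hn
  set m : ℤ := P.ord a with hm
  have hv0 : a ^ n * j ^ (-m) ≠ 0 := mul_ne_zero (zpow_ne_zero _ ha) (zpow_ne_zero _ hj0)
  have hordv : P.ord (a ^ n * j ^ (-m)) = 0 := by
    rw [P.ord_mul (zpow_ne_zero _ ha) (zpow_ne_zero _ hj0), P.ord_zpow, P.ord_zpow, ← hn, ← hm]
    ring
  have hv : a ^ n * j ^ (-m) ∈ P.toValuationSubring := mem_of_ord_nonneg P hv0 (by rw [hordv])
  have hDv := D_mem_maximal x hx D P j hj hDj hv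
  refine ⟨D (a ^ n * j ^ (-m)) * (a ^ n * j ^ (-m))⁻¹, ?_, ?_⟩
  · rcases hDv with h | h
    · left
      rw [h, zero_mul]
    · right
      have hne : D (a ^ n * j ^ (-m)) ≠ 0 := by
        intro h0
        rw [h0, P.ord_zero] at h
        exact lt_irrefl _ h
      rw [P.ord_mul hne (inv_ne_zero hv0), P.ord_inv, hordv]
      omega
  · have hD : D (a ^ n * j ^ (-m)) =
        a ^ n * ((-m : ℤ) : F) * j ^ (-m - 1) * (-j) + j ^ (-m) * ((n : F) * a ^ (n - 1) * D a) := by
      rw [D.leibniz, Derivation.leibniz_zpow, Derivation.leibniz_zpow, hDj]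
      simp only [smul_eq_mul, zsmul_eq_mul]
      ring
    have e1 : j ^ (-m - 1) * j = j ^ (-m) := by
      rw [← zpow_add_one₀ hj0]
      congr 1
      ring
    have e2 : a ^ (n - 1) * a = a ^ n := by
      rw [← zpow_add_one₀ ha]
      congr 1
      ring
    have hD' : D (a ^ n * j ^ (-m)) * a = (a ^ n * j ^ (-m)) * ((m : F) * a + (n : F) * D a) := by
      rw [hD]
      have : a ^ n * ((-m : ℤ) : F) * j ^ (-m - 1) * (-j) * a +
          j ^ (-m) * ((n : F) * a ^ (n - 1) * D a) * a =
          a ^ n * (m : F) * (j ^ (-m - 1) * j) * a + j ^ (-m) * (n : F) * (a ^ (n - 1) * a) * D a := by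
        push_cast
        ring
      rw [add_mul, this, e1, e2]
      ring
    have : (D (a ^ n * j ^ (-m)) * (a ^ n * j ^ (-m))⁻¹ - (m : F)) * a =
        (D (a ^ n * j ^ (-m)) * a) * (a ^ n * j ^ (-m))⁻¹ - (m : F) * a := by ring
    rw [this, hD', mul_comm (a ^ n * j ^ (-m)) _, mul_assoc, mul_inv_cancel₀ hv0, mul_one]
    ring

/-- **The cusp step, abstractly.** -/
theorem cusp_step [IsAlgClosed k] [CharZero k] (x : F) (hx : Transcendental k x)
    [FiniteDimensional k⟮x⟯ F] (D : Derivation k F F) (P : Place k F) (j : F)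
    (hj : P.ord j < 0) (hDj : D j = - j) (N : ℕ) (hN : 0 < N)
    (hdvd : (-(P.ord j)) ∣ (N : ℤ)) (i : ℤ) (a : F)
    (ha : a ^ N * j ^ (-i) ∈ P.toValuationSubring) :
    ((N : F) * D a + (i : F) * a) ^ N * j ^ (-(i - 1)) ∈ P.toValuationSubring := by
  haveI : CharZero F := charZero_of_injective_algebraMap (algebraMap k F).injective
  have hj0 : j ≠ 0 := by
    rintro rfl
    rw [P.ord_zero] at hj
    exact lt_irrefl _ hj
  rcases eq_or_ne ((N : F) * D a + (i : F) * a) 0 with hb0 | hb0
  · rw [hb0, zero_pow hN.ne', zero_mul]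
    exact zero_mem _
  have ha0 : a ≠ 0 := by
    rintro rfl
    apply hb0
    rw [map_zero, mul_zero, mul_zero, add_zero]
  obtain ⟨z, hz, hlog⟩ := exists_logDeriv x hx D P j hj.ne hDj ha0
  set n : ℤ := P.ord j with hn
  set m : ℤ := P.ord a with hm
  -- the hypothesis in terms of orders
  have hM : 0 ≤ (N : ℤ) * m - i * n := by
    have h := ord_nonneg_of_mem P ha
    rw [P.ord_mul (pow_ne_zero _ ha0) (zpow_ne_zero _ hj0), ord_pow, P.ord_zpow, ← hn, ← hm] at h
    linarith
  -- the key identity
  have hkey : (n : F) * ((N : F) * D a + (i : F) * a) =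
      ((N : F) * z - (((N : ℤ) * m - i * n : ℤ) : F)) * a := by
    have : (n : F) * ((N : F) * D a + (i : F) * a) =
        (N : F) * ((n : F) * D a) + (n : F) * (i : F) * a := by ring
    rw [this, hlog]
    push_cast
    ring
  have hn0 : (n : F) ≠ 0 := Int.cast_ne_zero.mpr hj.ne
  have hN0 : (N : F) ≠ 0 := Nat.cast_ne_zero.mpr hN.ne'
  have hw0 : (N : F) * z - (((N : ℤ) * m - i * n : ℤ) : F) ≠ 0 := by
    intro h0
    rw [h0, zero_mul] at hkey
    exact (mul_ne_zero hn0 hb0) hkey
  have hordb : P.ord ((N : F) * D a + (i : F) * a) =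
      P.ord ((N : F) * z - (((N : ℤ) * m - i * n : ℤ) : F)) + m := by
    have h := congrArg P.ord hkey
    rw [P.ord_mul hn0 hb0, ord_intCast, zero_add, P.ord_mul hw0 ha0] at h
    exact h
  have hgoal : 0 ≤ (N : ℤ) * P.ord ((N : F) * D a + (i : F) * a) - (i - 1) * n := by
    obtain ⟨g, hg⟩ := hdvd
    rcases eq_or_lt_of_le hM with hM0 | hMpos
    · -- `M = 0`
      have hz0 : z ≠ 0 := by
        rintro rfl
        apply hw0
        rw [← hM0]
        simp
      have hzpos : 0 < P.ord z := by
        rcases hz with h | h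
        · exact absurd h hz0
        · exact h
      have hw : P.ord ((N : F) * z - (((N : ℤ) * m - i * n : ℤ) : F)) = P.ord z := by
        rw [← hM0, Int.cast_zero, sub_zero, P.ord_mul hN0 hz0, ord_natCast, zero_add]
      rw [hordb, hw]
      have hgpos : 0 < g := by
        by_contra hcon
        push Not at hcon
        have : (N : ℤ) ≤ 0 := by
          rw [hg]
          exact mul_nonpos_of_nonneg_of_nonpos (by omega) hcon
        have hN' : (0 : ℤ) < N := by exact_mod_cast hN
        omega
      nlinarith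
    · -- `M > 0`
      have hMne : (((N : ℤ) * m - i * n : ℤ) : F) ≠ 0 := Int.cast_ne_zero.mpr hMpos.ne'
      have hw : P.ord ((N : F) * z - (((N : ℤ) * m - i * n : ℤ) : F)) = 0 := by
        rcases eq_or_ne z 0 with rfl | hz0
        · rw [mul_zero, zero_sub, ord_neg, ord_intCast]
        · have hzpos : 0 < P.ord z := by
            rcases hz with h | h
            · exact absurd h hz0
            · exact h
          have hNz : (N : F) * z ≠ 0 := mul_ne_zero hN0 hz0
          have hordNz : P.ord ((N : F) * z) = P.ord z := by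
            rw [P.ord_mul hN0 hz0, ord_natCast, zero_add]
          have : (N : F) * z - (((N : ℤ) * m - i * n : ℤ) : F) =
              -(((N : ℤ) * m - i * n : ℤ) : F) + (N : F) * z := by ring
          rw [this, ord_add_eq_of_lt P (neg_ne_zero.mpr hMne) hNz
            (by rw [ord_neg, ord_intCast, hordNz]; exact hzpos), ord_neg, ord_intCast]
      rw [hordb, hw, zero_add]
      -- `M = (-n) * (g * m + i)` is a positive multiple of `-n`
      have hMeq : (N : ℤ) * m - i * n = (-n) * (g * m + i) := by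
        rw [hg]
        ring
      have hpos : 0 < g * m + i := by
        by_contra hcon
        push Not at hcon
        have : (-n) * (g * m + i) ≤ 0 := mul_nonpos_of_nonneg_of_nonpos (by omega) hcon
        omega
      nlinarith
  have hne : ((N : F) * D a + (i : F) * a) ^ N * j ^ (-(i - 1)) ≠ 0 :=
    mul_ne_zero (pow_ne_zero _ hb0) (zpow_ne_zero _ hj0)
  refine mem_of_ord_nonneg P hne ?_
  rw [P.ord_mul (pow_ne_zero _ hb0) (zpow_ne_zero _ hj0), ord_pow, P.ord_zpow, ← hn]
  linarith

end Abstract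

section FF

open Fermat.Agent.S24.Eval Fermat.Agent.S24.Embed Fermat.Agent.S18.KummerRing
  Fermat.Agent.S18.HauptParamFF

variable (N : ℕ) [NeZero N]

/-- The ramification index of `j` at a cusp of `X₀(N)` divides `N`. -/
theorem neg_ord_jF_dvd (c : Place KK (FF N)) (hc : c.ord (jF N) < 0) :
    (-(c.ord (jF N))) ∣ (N : ℤ) := by
  obtain ⟨a, g, -, h⟩ := exists_induced_placesOverInfty (inputsFF N).H1 (SigmaCusp.localData N)
    (inputsFF N).H2infty c hc
  exact Dvd.intro_left (g : ℤ) h

/-- **(T3a), cusp part.**  For a derivation `θ` of `FF N` over `KK` with `θ j = - j`: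
`CuspCond N i a → CuspCond N (i - 1) (N θ a + i a)`. -/
theorem cuspCond_step (th : FF N → FF N) (hadd : ∀ a b, th (a + b) = th a + th b)
    (hmul : ∀ a b, th (a * b) = a * th b + b * th a)
    (hL : ∀ c : KK, th (algebraMap KK (FF N) c) = 0) (hj : th (jF N) = - jF N)
    (i : ℤ) (a : FF N) (ha : CuspCond N i a) :
    CuspCond N (i - 1) ((N : FF N) * th a + (i : FF N) * a) := by
  intro c hc
  haveI : FiniteDimensional KK⟮jF N⟯ (FF N) := Degree.finiteDimensional_jF N
  exact cusp_step (jF N) (Degree.transcendental_jF N) (derOfLeibniz th hadd hmul hL) c (jF N)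
    hc hj N (NeZero.pos N) (neg_ord_jF_dvd N c hc) i a (ha c hc)

end FF

end Fermat.Agent.S18.KummerCusp
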