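import Mathlib
import Fermat.Agent.S18.KummerRing
import Fermat.Agent.S18.TaylorS
import Fermat.Agent.S18.HasseField
import Fermat.Agent.S18.HasseReg

/-!
# S18, route β (Kummer cover), leaf (T3a-formula): the derivative of a homogeneous element

`s = (1/j)^(1/N) ∈ KK((w))` the Kummer coordinate, `q = w ^ N`, `θ = - j d/dj` the Euler
derivation of the modular function field `FF N ⊆ KK((q))`.  For `a ∈ FF N` and `i ∈ ℤ`:

  `d/ds (a(w^N) * s ^ i) = ((N θ + i) a)(w^N) * s ^ (i - 1)`.

The proof is by uniqueness of derivations on a separable algebraic extension: the two sides are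
derivations along `a ↦ a(w^N)` which agree on the constants and on `j`.
-/

set_option autoImplicit false
set_option linter.style.haveILetI false
set_option linter.unusedSectionVars false

noncomputable section

namespace Fermat.Agent.S18.KummerFormula

open ModularCurve AlgebraicCurve HahnSeries Polynomial
open Fermat.Agent.S24 Fermat.Agent.S24.Eval Fermat.Agent.S18.KummerRing
open Fermat.Agent.S18.KummerSeries Fermat.Agent.S18.TaylorQ Fermat.Agent.S18.TaylorS

/-! ### Uniqueness of derivations along a ring homomorphism -/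

section Abstract

variable {L E Ω : Type*} [Field L] [Field E] [Algebra L E] [Field Ω]
variable (φ : E →+* Ω) (D : E → Ω)

theorem map_zero_of_add (hadd : ∀ x y, D (x + y) = D x + D y) : D 0 = 0 := by
  have h := hadd 0 0
  rw [add_zero] at h
  exact left_eq_add.mp h

theorem map_one_of_leibniz (hmul : ∀ x y, D (x * y) = φ x * D y + φ y * D x) : D 1 = 0 := by
  have h := hmul 1 1
  simp only [mul_one, map_one, one_mul] at h
  exact left_eq_add.mp h

theorem map_pow_of_leibniz (hmul : ∀ x y, D (x * y) = φ x * D y + φ y * D x) (x : E) (n : ℕ) :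
    D (x ^ n) = (n : Ω) * φ x ^ (n - 1) * D x := by
  induction n with
  | zero => simp [map_one_of_leibniz φ D hmul]
  | succ n ih =>
    rw [pow_succ, hmul, ih]
    cases n with
    | zero => simp
    | succ n =>
      simp only [Nat.add_sub_cancel, Nat.cast_add, Nat.cast_one, map_pow]
      rw [pow_succ]
      ring

/-- The chain rule for polynomials with constant coefficients. -/
theorem map_aeval (hadd : ∀ x y, D (x + y) = D x + D y)
    (hmul : ∀ x y, D (x * y) = φ x * D y + φ y * D x)
    (K : IntermediateField L E) (hK : ∀ x ∈ K, D x = 0) (f : E) (p : K[X]) :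
    D (aeval f p) = φ (aeval f (derivative p)) * D f := by
  induction p using Polynomial.induction_on' with
  | add p q hp hq => rw [map_add, hadd, hp, hq, derivative_add, map_add, map_add, add_mul]
  | monomial n c =>
    have hc : D (algebraMap K E c) = 0 := hK _ c.2
    rw [aeval_monomial, hmul, map_pow_of_leibniz φ D hmul, hc, mul_zero, add_zero,
      derivative_monomial, aeval_monomial]
    simp only [map_mul, map_natCast, map_pow]
    ring

/-- A derivation along `φ` which vanishes on `K` vanishes on every element which is separable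
algebraic over `K`. -/
theorem eq_zero_of_separable (hadd : ∀ x y, D (x + y) = D x + D y)
    (hmul : ∀ x y, D (x * y) = φ x * D y + φ y * D x)
    (K : IntermediateField L E) (hK : ∀ x ∈ K, D x = 0) {f : E}
    (hsep : (minpoly K f).Separable) : D f = 0 := by
  have hroot : aeval f (minpoly K f) = 0 := minpoly.aeval K f
  have hder : aeval f (derivative (minpoly K f)) ≠ 0 := hsep.aeval_derivative_ne_zero hroot
  have h := map_aeval φ D hadd hmul K hK f (minpoly K f)
  rw [hroot, map_zero_of_add D hadd] at h
  have h2 : φ (aeval f (derivative (minpoly K f))) ≠ 0 := (map_ne_zero φ).mpr hder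
  exact (mul_eq_zero.mp h.symm).resolve_left h2

/-- A derivation along `φ` which vanishes on `L` and on `μ` vanishes on `L(μ)`. -/
theorem eq_zero_of_mem_adjoin (hadd : ∀ x y, D (x + y) = D x + D y)
    (hmul : ∀ x y, D (x * y) = φ x * D y + φ y * D x) (hL : ∀ c : L, D (algebraMap L E c) = 0)
    (μ : E) (hμ : D μ = 0) {x : E} (hx : x ∈ IntermediateField.adjoin L {μ}) : D x = 0 := by
  have h1 : D 1 = 0 := map_one_of_leibniz φ D hmul
  induction hx using IntermediateField.adjoin_induction with
  | mem y hy =>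
    rw [Set.mem_singleton_iff] at hy
    rw [hy]; exact hμ
  | algebraMap c => exact hL c
  | add y z _ _ hy hz => rw [hadd, hy, hz, add_zero]
  | inv y _ hy =>
    by_cases h0 : y = 0
    · rw [h0, inv_zero, map_zero_of_add D hadd]
    · have h := hmul y y⁻¹
      rw [mul_inv_cancel₀ h0, h1, hy, mul_zero, add_zero] at h
      exact (mul_eq_zero.mp h.symm).resolve_left ((map_ne_zero φ).mpr h0)
  | mul y z _ _ hy hz => rw [hmul, hy, hz, mul_zero, mul_zero, add_zero]

end Abstract

/-! ### Derivations of a field -/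

section Generic

variable {B : Type*} [Field B] [Algebra ℚ B]

theorem der_one (d : Derivation ℚ B B) : d 1 = 0 := d.map_one_eq_zero

theorem der_pow (d : Derivation ℚ B B) (x : B) (n : ℕ) :
    d (x ^ n) = (n : B) * x ^ (n - 1) * d x := by
  rw [d.leibniz_pow, smul_eq_mul, nsmul_eq_mul, mul_assoc]

theorem der_zpow (d : Derivation ℚ B B) (x : B) (n : ℤ) :
    d (x ^ n) = (n : B) * x ^ (n - 1) * d x := by
  rw [d.leibniz_zpow, smul_eq_mul, zsmul_eq_mul, mul_assoc]

end Generic

/-! ### The Euler derivation `θ = - j d/dj` -/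

section Theta

theorem isLead_jqModC : IsLead (jqModC KK) := by
  have h := (Fermat.Agent.S28.UnitEq.isLead_single (-1 : ℤ) (1 : KK)).mul
    (Fermat.Agent.S28.UnitEq.isLead_ofPowerSeries (jNum.map (Int.castRingHom KK)))
  have hc : PowerSeries.constantCoeff (jNum.map (Int.castRingHom KK)) = 1 :=
    constantCoeff_jNumR KK
  rw [hc, add_zero, mul_one] at h
  exact ⟨h.1, fun i hi => h.2 i hi⟩

/-- `θ = - j d/dj` on `KK((q))`. -/
def thetaL (f : LaurentSeries KK) : LaurentSeries KK := -(jqModC KK) * DL (jqModC KK) f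

theorem thetaL_add (x y : LaurentSeries KK) : thetaL (x + y) = thetaL x + thetaL y := by
  rw [thetaL, thetaL, thetaL, map_add]; ring

theorem thetaL_mul (x y : LaurentSeries KK) : thetaL (x * y) = x * thetaL y + y * thetaL x := by
  rw [thetaL, thetaL, thetaL, Fermat.Agent.S18.HasseField.leibniz_mul]; ring

theorem thetaL_C (c : KK) : thetaL (HahnSeries.C c) = 0 := by
  rw [thetaL, DL_C, mul_zero]

theorem thetaL_jq : thetaL (jqModC KK) = -(jqModC KK) := by
  rw [thetaL, DL_self isLead_jqModC, mul_one]

variable (N : ℕ) [NeZero N]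

theorem coe_jF_eq_jqModC : ((jF N : FF N) : LaurentSeries KK) = jqModC KK := by
  rw [coe_jF]
  exact coeffMap_jqModC (R := ℚ) (algebraMap ℚ KK)

theorem jqModC_mem : jqModC KK ∈ modularFunctionFieldBar N := by
  rw [← coe_jF_eq_jqModC N]
  exact (jF N).2

theorem halg : ∀ f ∈ modularFunctionFieldBar N,
    IsAlgebraic (IntermediateField.adjoin KK {jqModC KK}) f := by
  haveI := Degree.finiteDimensional_jF N
  exact Fermat.Agent.S18.HasseReg.halg_of_finiteDimensional isLead_jqModC
    (modularFunctionFieldBar N) (jqModC_mem N) (jF N) (Degree.transcendental_jF N)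

theorem thetaL_mem (a : FF N) : thetaL (a : LaurentSeries KK) ∈ modularFunctionFieldBar N := by
  rw [thetaL]
  exact mul_mem (neg_mem (jqModC_mem N))
    (Fermat.Agent.S18.HasseField.DL_mem isLead_jqModC (modularFunctionFieldBar N)
      (jqModC_mem N) (halg N) a.2)

/-- `θ = - j d/dj` on the modular function field. -/
def theta (a : FF N) : FF N := ⟨thetaL (a : LaurentSeries KK), thetaL_mem N a⟩

theorem coe_theta (a : FF N) :
    ((theta N a : FF N) : LaurentSeries KK) =
      -(jqModC KK) * DL (jqModC KK) (a : LaurentSeries KK) := rfl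

theorem theta_add (a b : FF N) : theta N (a + b) = theta N a + theta N b :=
  Subtype.ext (thetaL_add _ _)

theorem theta_mul (a b : FF N) : theta N (a * b) = a * theta N b + b * theta N a :=
  Subtype.ext (thetaL_mul _ _)

theorem theta_algebraMap (c : KK) : theta N (algebraMap KK (FF N) c) = 0 := by
  apply Subtype.ext
  show thetaL (algebraMap KK (LaurentSeries KK) c) = 0
  rw [Fermat.Agent.S18.HasseField.algebraMap_eq_C, thetaL_C]

theorem theta_jF : theta N (jF N) = -(jF N) := by
  apply Subtype.ext
  show thetaL ((jF N : FF N) : LaurentSeries KK) = -((jF N : FF N) : LaurentSeries KK)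
  rw [coe_jF_eq_jqModC, thetaL_jq]

end Theta

/-! ### The formula -/

section Formula

variable (A : ValuationSubring KK) (N : ℕ) [NeZero N] {ℓ : ℕ} [Fact ℓ.Prime]

theorem isLeadS_sK : IsLeadS (sK A N) := by
  rw [sK_eq]
  refine ⟨?_, fun i hi => coeff_sOf_of_lt N _ hi⟩
  rw [coeff_sOf_one]
  have h : PowerSeries.constantCoeff ((rA A N).map A.subtype) =
      A.subtype (PowerSeries.constantCoeff (rA A N)) := by
    rw [← PowerSeries.coeff_zero_eq_constantCoeff_apply, PowerSeries.coeff_map,
      PowerSeries.coeff_zero_eq_constantCoeff_apply]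
  rw [h, constantCoeff_rA, map_one]

theorem sK_ne_zero : sK A N ≠ 0 := ne_zero_of_isLeadS (isLeadS_sK A N)

theorem DLS_sK : DLS (sK A N) (sK A N) = 1 := DLS_self (isLeadS_sK A N)

variable {A N}

/-- `j(w^N) * s ^ N = 1`. -/
theorem qExpand_jq_mul (hA : A.LiesOverPrime ℓ) (hℓN : ¬ ℓ ∣ N) :
    qExpand KK N (jqModC KK) * sK A N ^ N = 1 := by
  rw [sK_pow hA hℓN, ← map_mul, jqModC_mul_tL, map_one]

theorem DLS_qExpand_jq (hA : A.LiesOverPrime ℓ) (hℓN : ¬ ℓ ∣ N) :
    DLS (sK A N) (qExpand KK N (jqModC KK)) =
      -(N : LaurentSeries KK) * qExpand KK N (jqModC KK) * (sK A N)⁻¹ := by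
  have hs := sK_ne_zero A N
  have h1 := qExpand_jq_mul (A := A) (N := N) hA hℓN
  have h2 := congrArg (DLS (sK A N)) h1
  rw [Fermat.Agent.S18.HasseField.leibniz_mul, der_one, der_pow, DLS_sK, mul_one] at h2
  have hN : sK A N ^ N = sK A N ^ (N - 1) * sK A N := by
    rw [← pow_succ, Nat.sub_add_cancel (Nat.pos_of_ne_zero (NeZero.ne N))]
  rw [hN] at h2
  have h3 : sK A N ^ (N - 1) ≠ 0 := pow_ne_zero _ hs
  have h4 : sK A N ^ (N - 1) * (qExpand KK N (jqModC KK) * (N : LaurentSeries KK) +
      sK A N * DLS (sK A N) (qExpand KK N (jqModC KK))) = 0 := by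
    linear_combination h2
  have h5 := (mul_eq_zero.mp h4).resolve_left h3
  field_simp
  linear_combination h5

/-- **The derivative of `a(w^N)`**: `d/ds (a(w^N)) = N (θ a)(w^N) / s`. -/
theorem DLS_exK (hA : A.LiesOverPrime ℓ) (hℓN : ¬ ℓ ∣ N) (a : FF N) :
    DLS (sK A N) (exK N a) = (N : LaurentSeries KK) * exK N (theta N a) * (sK A N)⁻¹ := by
  set φ : LaurentSeries KK →+* LaurentSeries KK := qExpand KK N with hφ
  set D : LaurentSeries KK → LaurentSeries KK := fun x =>
    DLS (sK A N) (φ x) - (N : LaurentSeries KK) * φ (thetaL x) * (sK A N)⁻¹ with hD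
  have hadd : ∀ x y, D (x + y) = D x + D y := by
    intro x y
    simp only [hD, map_add, thetaL_add]
    ring
  have hmul : ∀ x y, D (x * y) = φ x * D y + φ y * D x := by
    intro x y
    simp only [hD, map_mul, map_add, thetaL_mul, Fermat.Agent.S18.HasseField.leibniz_mul]
    ring
  have hL : ∀ c : KK, D (algebraMap KK (LaurentSeries KK) c) = 0 := by
    intro c
    have h1 : φ (algebraMap KK (LaurentSeries KK) c) = algebraMap KK (LaurentSeries KK) c :=
      (qExpandAlgHomC KK N).commutes c
    simp only [hD]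
    rw [h1, Fermat.Agent.S18.HasseField.algebraMap_eq_C, DLS_C, thetaL_C, map_zero, mul_zero,
      zero_mul, sub_zero]
  have hj : D (jqModC KK) = 0 := by
    simp only [hD]
    rw [hφ, DLS_qExpand_jq hA hℓN, thetaL_jq, map_neg]
    ring
  have hK : ∀ x ∈ IntermediateField.adjoin KK {jqModC KK}, D x = 0 := fun x hx =>
    eq_zero_of_mem_adjoin φ D hadd hmul hL (jqModC KK) hj hx
  have hint : IsIntegral (IntermediateField.adjoin KK {jqModC KK}) (a : LaurentSeries KK) :=
    (halg N _ a.2).isIntegral
  have h0 : D (a : LaurentSeries KK) = 0 :=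
    eq_zero_of_separable φ D hadd hmul _ hK (minpoly.irreducible hint).separable
  simp only [hD] at h0
  rw [sub_eq_zero] at h0
  exact h0

/-- **The derivative of a homogeneous element of the Kummer cover**:
`d/ds (a(w^N) * s ^ i) = ((N θ + i) a)(w^N) * s ^ (i - 1)`. -/
theorem formula (hA : A.LiesOverPrime ℓ) (hℓN : ¬ ℓ ∣ N) (i : ℤ) (a : FF N) :
    DLS (sK A N) (exK N a * sK A N ^ i) =
      exK N ((N : FF N) * theta N a + (i : FF N) * a) * sK A N ^ (i - 1) := by
  have hs := sK_ne_zero A N
  rw [Fermat.Agent.S18.HasseField.leibniz_mul, DLS_exK hA hℓN, der_zpow, DLS_sK,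
    mul_one, map_add, map_mul, map_mul, map_natCast, map_intCast]
  have e : sK A N ^ i = sK A N ^ (i - 1) * sK A N := by
    rw [← zpow_add_one₀ hs, sub_add_cancel]
  rw [e]
  field_simp
  ring

end Formula

end Fermat.Agent.S18.KummerFormula
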