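import Mathlib
import Fermat.Agent.S18.KummerCusp
import Fermat.Agent.S18.KummerFormula

/-!
# S18 infrastructure (Kummer cover, route β): leaf (T3a), the derivative of a homogeneous element

For `a ∈ Vrat N i` the derivative of `a(w^N) * s ^ i` with respect to the Kummer coordinate `s`
is `b(w^N) * s ^ (i - 1)` with `b = (N θ + i) a ∈ Vrat N (i - 1)`, `θ = - j d/dj`:

* the formula is `KummerFormula.formula`;
* the condition at the cusps is `KummerCusp.cuspCond_step`;
* the condition at the generic places (`genCond_theta`): `j - j(P)` is a local parameter at a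
  generic place `P`, and `θ (j - j(P)) = - j` is a unit at `P`.
-/

set_option autoImplicit false
set_option linter.style.haveILetI false
set_option linter.unusedSectionVars false
set_option linter.unusedVariables false

noncomputable section

namespace Fermat.Agent.S18.KummerDer

open AlgebraicCurve IntermediateField
open Fermat.Agent.S24 Fermat.Agent.S24.Eval Fermat.Agent.S18.KummerRing
  Fermat.Agent.S18.HauptParamFF Fermat.Agent.S18.KummerCusp Fermat.Agent.S18.KummerFormula

variable (N : ℕ) [NeZero N]

/-- A derivation `θ` of `FF N` over `KK` with `θ j = - j` preserves regularity at the generic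
places. -/
theorem genCond_of_leibniz (th : FF N → FF N) (hadd : ∀ a b, th (a + b) = th a + th b)
    (hmul : ∀ a b, th (a * b) = a * th b + b * th a)
    (hL : ∀ c : KK, th (algebraMap KK (FF N) c) = 0) (hj : th (jF N) = - jF N)
    (a : FF N) (ha : GenCond N a) : GenCond N (th a) := by
  intro P hP
  obtain ⟨h0, h1⟩ := hP
  have hjO : 0 ≤ P.ord (jF N) := by rw [h0]
  haveI : FiniteDimensional KK⟮jF N⟯ (FF N) := Degree.finiteDimensional_jF N
  obtain ⟨c, hc | hc⟩ := H1_FF N P (jF N) hjO
  · exfalso
    apply Degree.transcendental_jF N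
    rw [hc]
    exact isAlgebraic_algebraMap c
  · have hc0 : c ≠ 0 := by
      rintro rfl
      rw [map_zero, sub_zero, h0] at hc
      exact lt_irrefl _ hc
    have hc1 : c ≠ 1728 := by
      rintro rfl
      rw [h1] at hc
      exact lt_irrefl _ hc
    have hπ : P.ord (jF N - algebraMap KK (FF N) c) = 1 := ord_eq_one_generic N c hc0 hc1 P hc
    have hDπ : derOfLeibniz th hadd hmul hL (jF N - algebraMap KK (FF N) c) = - jF N := by
      rw [map_sub, Derivation.map_algebraMap, sub_zero, derOfLeibniz_apply, hj]
    have hne : derOfLeibniz th hadd hmul hL (jF N - algebraMap KK (FF N) c) ≠ 0 := by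
      rw [hDπ]
      exact neg_ne_zero.mpr jF_ne_zero'
    obtain ⟨g, hg, hD⟩ := exists_mul_of_mem (jF N) (Degree.transcendental_jF N)
      (derOfLeibniz th hadd hmul hL) P _ hπ hne (ha P ⟨h0, h1⟩)
    rw [derOfLeibniz_apply, hDπ] at hD
    rw [hD]
    exact mul_mem (neg_mem (mem_of_ord_nonneg P jF_ne_zero' hjO)) hg

/-- **(T3a), generic part.** -/
theorem genCond_theta (a : FF N) (ha : GenCond N a) : GenCond N (theta N a) :=
  genCond_of_leibniz N (theta N) (theta_add N) (theta_mul N) (theta_algebraMap N) (theta_jF N)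
    a ha

/-- **(T3a), cusp part.** -/
theorem cuspCond_theta (i : ℤ) (a : FF N) (ha : CuspCond N i a) :
    CuspCond N (i - 1) ((N : FF N) * theta N a + (i : FF N) * a) :=
  cuspCond_step N (theta N) (theta_add N) (theta_mul N) (theta_algebraMap N) (theta_jF N) i a ha

/-- `(N θ + i)` maps `Vrat N i` to `Vrat N (i - 1)`. -/
theorem step_mem_Vrat (i : ℤ) (a : FF N) (ha : a ∈ Vrat N i) :
    (N : FF N) * theta N a + (i : FF N) * a ∈ Vrat N (i - 1) := by
  obtain ⟨hg, hc⟩ := mem_Vrat.mp ha
  refine mem_Vrat.mpr ⟨?_, cuspCond_theta N i a hc⟩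
  intro P hP
  exact add_mem (mul_mem (natCast_mem _ N) (genCond_theta N a hg P hP))
    (mul_mem (intCast_mem _ i) (hg P hP))

variable {N}

/-- **(T3a).**  The derivative with respect to the Kummer coordinate `s` of a homogeneous
element of degree `i` is homogeneous of degree `i - 1`. -/
theorem exists_derivative {A : ValuationSubring KK} {ℓ : ℕ} [Fact ℓ.Prime]
    (hA : A.LiesOverPrime ℓ) (hℓN : ¬ ℓ ∣ N) (i : ℤ) (a : FF N) (ha : a ∈ Vrat N i) :
    ∃ b ∈ Vrat N (i - 1),
      TaylorS.DLS (sK A N) (exK N a * sK A N ^ i) = exK N b * sK A N ^ (i - 1) :=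
  ⟨(N : FF N) * theta N a + (i : FF N) * a, step_mem_Vrat N i a ha, formula hA hℓN i a⟩

end Fermat.Agent.S18.KummerDer
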