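import Mathlib
import Fermat.Agent.S18.KummerNF
import Fermat.Agent.S18.KummerChart
import Fermat.Agent.S18.ChartNormal
import Fermat.Agent.S18.HasseStab

/-!
# S18 infrastructure (Kummer cover, route β): finiteness (T5)

The reduction `Rs A N` of the chart ring of the Kummer cover spans a finite dimensional
`k(s̄)`-space: the hypothesis `hfin` of `ChartNormal`.
-/

set_option autoImplicit false
set_option linter.style.haveILetI false
set_option linter.unusedSectionVars false
set_option linter.unusedVariables false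

noncomputable section

namespace Fermat.Agent.S18.KummerFin

open ModularCurve AlgebraicCurve HahnSeries Fermat.Agent.S18.Gauss Fermat.Agent.S18.Lattice
  Fermat.Agent.S24 Fermat.Agent.S24.Eval Fermat.Agent.S18.Charts Fermat.Agent.S18.KummerSeries
  Fermat.Agent.S18.KummerRing Fermat.Agent.S18.KummerNF Fermat.Agent.S18.KummerChart
  IntermediateField

section General

variable (k : Type) [Field k] (N : ℕ) [NeZero N]

theorem exk_jk : exk k N (DegEq.jk k N) = qExpand k N (jqModC k) := rfl

theorem exk_add (x y : modularFunctionFieldFullC k N) :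
    exk k N (x + y) = exk k N x + exk k N y := by
  show qExpand k N ((x : LaurentSeries k) + (y : LaurentSeries k)) = _
  exact map_add (qExpand k N) _ _

theorem exk_mul (x y : modularFunctionFieldFullC k N) :
    exk k N (x * y) = exk k N x * exk k N y := by
  show qExpand k N ((x : LaurentSeries k) * (y : LaurentSeries k)) = _
  exact map_mul (qExpand k N) _ _

theorem exk_zero : exk k N 0 = 0 := by
  show qExpand k N (0 : LaurentSeries k) = _
  exact map_zero (qExpand k N)

/-- `x ↦ x (w ^ N)` maps `k(j̄)` into `k(μ)` as soon as `j̄ (w ^ N) ∈ k(μ)`. -/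
theorem exk_mem_adjoin (μ : LaurentSeries k) (hμ : qExpand k N (jqModC k) ∈ k⟮μ⟯)
    (c : modularFunctionFieldFullC k N) (hc : c ∈ k⟮DegEq.jk k N⟯) :
    exk k N c ∈ k⟮μ⟯ := by
  have h := IntermediateField.adjoin_map k ({DegEq.jk k N} : Set (modularFunctionFieldFullC k N))
    (exk k N)
  rw [Set.image_singleton] at h
  have h2 : exk k N c ∈ (IntermediateField.adjoin k
      ({DegEq.jk k N} : Set (modularFunctionFieldFullC k N))).map (exk k N) := ⟨c, hc, rfl⟩
  rw [h] at h2
  have h3 : IntermediateField.adjoin k ({exk k N (DegEq.jk k N)} : Set (LaurentSeries k)) ≤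
      k⟮μ⟯ := by
    rw [IntermediateField.adjoin_le_iff]
    intro z hz
    rw [Set.mem_singleton_iff] at hz
    rw [hz]
    exact hμ
  exact h3 h2

/-- The images `x (w ^ N)`, `x ∈ Fk`, lie in the `k(μ)`-span of a finite set. -/
theorem exists_finset_span (μ : LaurentSeries k) (hμ : qExpand k N (jqModC k) ∈ k⟮μ⟯)
    [FiniteDimensional k⟮DegEq.jk k N⟯ (modularFunctionFieldFullC k N)] :
    ∃ s : Finset (LaurentSeries k), ∀ z : modularFunctionFieldFullC k N,
      qExpand k N (z : LaurentSeries k) ∈ Submodule.span k⟮μ⟯ (s : Set (LaurentSeries k)) := by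
  classical
  obtain ⟨t, ht⟩ := (Module.finite_def (R := k⟮DegEq.jk k N⟯)
    (M := modularFunctionFieldFullC k N)).mp inferInstance
  refine ⟨t.image (exk k N), fun z => ?_⟩
  have hz : z ∈ Submodule.span k⟮DegEq.jk k N⟯ (t : Set (modularFunctionFieldFullC k N)) := by
    rw [ht]
    exact Submodule.mem_top
  show exk k N z ∈ _
  induction hz using Submodule.span_induction with
  | mem x hx =>
    apply Submodule.subset_span
    rw [Finset.coe_image]
    exact ⟨x, hx, rfl⟩
  | zero =>
    rw [exk_zero]
    exact zero_mem _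
  | add x y _ _ hx hy =>
    rw [exk_add]
    exact add_mem hx hy
  | smul c x _ hx =>
    have e : exk k N (c • x) =
        (⟨exk k N (c : modularFunctionFieldFullC k N),
          exk_mem_adjoin k N μ hμ _ c.2⟩ : k⟮μ⟯) • exk k N x := by
      have e0 : c • x = (c : modularFunctionFieldFullC k N) * x := rfl
      rw [e0, exk_mul]
      rfl
    rw [e]
    exact Submodule.smul_mem _ _ hx

end General

section Main

variable (A : ValuationSubring KK) (N : ℕ) [NeZero N] {ℓ : ℕ} [Fact ℓ.Prime]

local notation "k" => IsLocalRing.ResidueField A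

theorem qExpand_jq_mem (hA : A.LiesOverPrime ℓ) (hℓN : ¬ ℓ ∣ N) :
    qExpand k N (jqModC k) ∈ k⟮sk A N⟯ := by
  have h1 : qExpand k N (jqModC k) * sk A N ^ N = 1 := by
    rw [sk_pow hA hℓN, ← map_mul, jqModC_mul_tL, map_one]
  have h2 : qExpand k N (jqModC k) = (sk A N ^ N)⁻¹ := eq_inv_of_mul_eq_one_left h1
  rw [h2]
  exact inv_mem (pow_mem (IntermediateField.mem_adjoin_simple_self k _) N)

/-- **(T5)** The reduction of the chart ring of the Kummer cover spans a finite dimensional
`k(s̄)`-space. -/
theorem finiteDimensional_Rs (hA : A.LiesOverPrime ℓ) (hℓN : ¬ ℓ ∣ N) :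
    FiniteDimensional k⟮sk A N⟯
      (Submodule.span k⟮sk A N⟯ (Rs A N : Set (LaurentSeries k))) := by
  haveI := DegEq.finiteDimensional_residue (A := A) N
  obtain ⟨s, hs⟩ := exists_finset_span k N (sk A N) (qExpand_jq_mem A N hA hℓN)
  refine ChartNormal.finiteDimensional_span_of_finset (sk A N) (RsAlg A N) s fun x hx => ?_
  obtain ⟨Y, hY, rfl⟩ := mem_Rs.mp hx
  obtain ⟨a, α, ha, hα, hYsum⟩ := exists_normalForm_A hA hℓN hY
  rw [hYsum, map_sum]
  refine Submodule.sum_mem _ fun i _ => ?_
  rw [map_mul, map_pow]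
  have hO : a i ∈ OO A N := HasseStab.mem_OO_of_inc A N hA hℓN (hα i)
  have e1 : rd A (qExpand A N (α i)) =
      qExpand k N ((redN A N ⟨a i, hO⟩ : FkN A N) : LaurentSeries k) := by
    rw [Charts.redN_eq_rd A N hO (hα i)]
    exact coeffMap_qExpand _ _ _
  rw [e1]
  have e2 : qExpand k N ((redN A N ⟨a i, hO⟩ : FkN A N) : LaurentSeries k) *
      rd A (sA A N) ^ (i : ℕ) =
      (⟨sk A N ^ (i : ℕ), pow_mem (IntermediateField.mem_adjoin_simple_self k _) _⟩ :
        k⟮sk A N⟯) • qExpand k N ((redN A N ⟨a i, hO⟩ : FkN A N) : LaurentSeries k) := by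
    rw [Algebra.smul_def, mul_comm]
    rfl
  rw [e2]
  exact Submodule.smul_mem _ _ (hs _)

end Main

end Fermat.Agent.S18.KummerFin
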