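import Mathlib
import Fermat.Agent.S18.KummerRing
import Fermat.Agent.S18.ChartGlue
import Fermat.Agent.S18.IntRedInv

/-!
# S18 infrastructure (Kummer cover, route β, leaf T4): integrality of the chart ring

`Rs A N ⊆ k((w))` is the reduction of the chart ring of the Kummer cover, `sk` the reduced Kummer
coordinate, `gk = 1 - 1728 X ^ N`.

* `sk_mem_Rs`, `C_mem_Rs`, `inv_gk_mem_Rs` : `s̄`, the constants and `1 / g(s̄)` lie in `Rs`;
* `isIntegral_Rs` : every element of `Rs` is integral over `k[s̄, 1 / g(s̄)]`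
  (`ChartNormal.base (sk A N) (gk A N)`).
-/

set_option autoImplicit false
set_option linter.style.haveILetI false
set_option linter.unusedSectionVars false
set_option linter.unusedVariables false
set_option synthInstance.maxHeartbeats 400000

noncomputable section

namespace Fermat.Agent.S18.KummerInt

open ModularCurve AlgebraicCurve HahnSeries Fermat.Agent.S18.Gauss Fermat.Agent.S18.Lattice
  Fermat.Agent.S24 Fermat.Agent.S24.Eval Fermat.Agent.S18.Charts Fermat.Agent.S18.KummerSeries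
  Fermat.Agent.S18.KummerRing

/-! ### Generalities -/

/-- A ring homomorphism to a field commutes with integer powers of units. -/
theorem map_units_zpow_val {R K : Type*} [CommRing R] [Field K] (φ : R →+* K) (u : Rˣ) (i : ℤ) :
    φ ((u ^ i : Rˣ) : R) = (φ (u : R)) ^ i := by
  have h1 : φ ((u ^ i : Rˣ) : R) = ((Units.map (φ : R →* K) (u ^ i) : Kˣ) : K) := rfl
  rw [h1, map_zpow, Units.val_zpow_eq_zpow_val]
  rfl

theorem zpow_mem_subring {F : Type*} [Field F] (S : Subring F) {x : F} (hx : x ∈ S)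
    (hx' : x⁻¹ ∈ S) (i : ℤ) : x ^ i ∈ S := by
  rcases Int.eq_nat_or_neg i with ⟨n, rfl | rfl⟩
  · rw [zpow_natCast]
    exact pow_mem hx n
  · rw [zpow_neg, zpow_natCast, ← inv_pow]
    exact pow_mem hx' n

/-! ### Units of `A((w))` -/

section Units

variable (R : Type*) [CommRing R]

/-- `j` as a unit of `R((q))`. -/
def jU : (LaurentSeries R)ˣ :=
  ⟨jqModC R, tL R, jqModC_mul_tL R, by rw [mul_comm]; exact jqModC_mul_tL R⟩

@[simp] theorem val_jU : ((jU R : (LaurentSeries R)ˣ) : LaurentSeries R) = jqModC R := rfl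

variable {R} (N : ℕ) [NeZero N]

/-- The inverse of `sOf N r`. -/
def sOfInv (r : PowerSeries R) : LaurentSeries R :=
  HahnSeries.single (-1 : ℤ) (1 : R) *
    qExpand R N (HahnSeries.ofPowerSeries ℤ R (PowerSeries.invOfUnit r 1))

theorem sOf_mul_sOfInv (r : PowerSeries R) (hr : PowerSeries.constantCoeff r = 1) :
    sOf N r * sOfInv N r = 1 := by
  have h1 : HahnSeries.single (1 : ℤ) (1 : R) * HahnSeries.single (-1 : ℤ) (1 : R) = 1 := by
    rw [HahnSeries.single_mul_single]
    simp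
  have h2 : qExpand R N (HahnSeries.ofPowerSeries ℤ R r) *
      qExpand R N (HahnSeries.ofPowerSeries ℤ R (PowerSeries.invOfUnit r 1)) = 1 := by
    rw [← map_mul, ← map_mul, PowerSeries.mul_invOfUnit _ _ (by rw [hr]; rfl), map_one, map_one]
  calc sOf N r * sOfInv N r
      = (HahnSeries.single (1 : ℤ) (1 : R) * HahnSeries.single (-1 : ℤ) (1 : R)) *
        (qExpand R N (HahnSeries.ofPowerSeries ℤ R r) *
          qExpand R N (HahnSeries.ofPowerSeries ℤ R (PowerSeries.invOfUnit r 1))) := by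
        rw [sOf, sOfInv]; ring
    _ = 1 := by rw [h1, h2, one_mul]

end Units

section Main

variable (A : ValuationSubring KK) (N : ℕ) [NeZero N]

/-- The Kummer coordinate as a unit of `A((w))`. -/
def sU : (LaurentSeries A)ˣ :=
  ⟨sA A N, sOfInv N (rA A N), sOf_mul_sOfInv N _ (constantCoeff_rA A N),
    by rw [mul_comm]; exact sOf_mul_sOfInv N _ (constantCoeff_rA A N)⟩

@[simp] theorem val_sU : ((sU A N : (LaurentSeries A)ˣ) : LaurentSeries A) = sA A N := rfl

/-- The polynomial `g = 1 - 1728 X ^ N` over the residue field. -/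
def gk : Polynomial (IsLocalRing.ResidueField A) :=
  1 - Polynomial.C (1728 : IsLocalRing.ResidueField A) * Polynomial.X ^ N

variable {A N}
variable {ℓ : ℕ} [Fact ℓ.Prime]

theorem aeval_gk (hA : A.LiesOverPrime ℓ) (hℓN : ¬ ℓ ∣ N) :
    Polynomial.aeval (sk A N) (gk A N) =
      qExpand (IsLocalRing.ResidueField A) N (1 - 1728 * tL (IsLocalRing.ResidueField A)) := by
  rw [gk, map_sub, map_one, map_mul, map_pow, Polynomial.aeval_X, Polynomial.aeval_C,
    sk_pow hA hℓN, map_sub, map_one, map_mul, map_ofNat, map_ofNat]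

end Main

/-! ### The series of `1 / j` and of `1 - 1728 / j` -/

section Series

variable {A : ValuationSubring KK} (N : ℕ) [NeZero N]

theorem coe_jF_mul_tL : ((jF N : FF N) : LaurentSeries KK) * inc A (tL A) = 1 := by
  rw [DecMod.inc_J (A := A) N, jqNModC_one, ← map_mul, jqModC_mul_tL, map_one]

theorem inc_tL : inc A (tL A) = (((jF N)⁻¹ : FF N) : LaurentSeries KK) := by
  have h := coe_jF_mul_tL (A := A) N
  have h2 : (((jF N)⁻¹ : FF N) : LaurentSeries KK) = ((jF N : FF N) : LaurentSeries KK)⁻¹ := rfl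
  rw [h2]
  exact eq_inv_of_mul_eq_one_right h

theorem rd_jqModC : rd A (jqModC A) = jqModC (IsLocalRing.ResidueField A) := by
  rw [← jqNModC_one (K := A), DecMod.rd_J]

theorem rd_tL : rd A (tL A) = (jqModC (IsLocalRing.ResidueField A))⁻¹ := by
  have h : rd A (jqModC A) * rd A (tL A) = 1 := by rw [← map_mul, jqModC_mul_tL, map_one]
  rw [rd_jqModC] at h
  exact eq_inv_of_mul_eq_one_right h

theorem tL_eq_inv : tL (IsLocalRing.ResidueField A) =
    (jqModC (IsLocalRing.ResidueField A))⁻¹ :=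
  eq_inv_of_mul_eq_one_right (jqModC_mul_tL _)

/-- The function `1 - 1728 / j`. -/
def uF : FF N := 1 - algebraMap KK (FF N) 1728 * (jF N)⁻¹

variable (A) in
/-- The series of `1 - 1728 / j` over `A`. -/
def uA : LaurentSeries A := 1 - HahnSeries.C (1728 : A) * tL A

theorem inc_uA : inc A (uA A) = ((uF N : FF N) : LaurentSeries KK) := by
  rw [uA, map_sub, map_one, map_mul, inc_C, inc_tL N]
  rfl

theorem rd_uA : rd A (uA A) = 1 - 1728 * tL (IsLocalRing.ResidueField A) := by
  have h : rd A (HahnSeries.C (1728 : A)) = 1728 := by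
    show coeffMap (IsLocalRing.residue A) (HahnSeries.C (1728 : A)) = 1728
    rw [HahnSeries.C_apply, coeffMap_single, map_ofNat]
    exact map_ofNat (HahnSeries.C (Γ := ℤ) (R := IsLocalRing.ResidueField A)) 1728
  rw [uA, map_sub, map_one, map_mul, h, coeffMap_tL]

end Series

/-! ### Regularity on chart 2 after multiplication by a power of `1 - 1728 / j` -/

section Reg

variable (N : ℕ) [NeZero N]

/-- Every function has poles of bounded order. -/
theorem exists_pole_bound (f : FF N) : ∃ M : ℕ, ∀ P : Place KK (FF N), -(M : ℤ) ≤ P.ord f := by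
  classical
  have h0 : (0 : ℤ) ≤ ∑ P ∈ (dv N f).support, |dv N f P| :=
    Finset.sum_nonneg fun _ _ => abs_nonneg _
  refine ⟨(∑ P ∈ (dv N f).support, |dv N f P|).toNat, fun P => ?_⟩
  rw [Int.toNat_of_nonneg h0]
  by_cases hP : P ∈ (dv N f).support
  · have h1 := Finset.single_le_sum (f := fun P => |dv N f P|) (fun _ _ => abs_nonneg _) hP
    simp only [dv_apply] at h1 ⊢
    have h2 := neg_abs_le (P.ord f)
    linarith
  · have h1 : dv N f P = 0 := Finsupp.notMem_support_iff.mp hP
    rw [dv_apply] at h1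
    rw [h1]
    linarith

variable {N}

theorem exists_mul_mem_regAt {i : ℤ} {a : FF N} (ha : a ∈ Vrat N i) :
    ∃ M : ℕ, uF N ^ M * (a ^ N * (jF N) ^ (-i)) ∈ regAt N (jF N)⁻¹ := by
  set b : FF N := a ^ N * (jF N) ^ (-i) with hb
  rcases eq_or_ne b 0 with hb0 | hb0
  · exact ⟨0, by rw [hb0, mul_zero]; exact zero_mem _⟩
  obtain ⟨M, hM⟩ := exists_pole_bound N b
  refine ⟨M, fun P hP => ?_⟩
  have hj0 : jF N ≠ 0 := jF_ne_zero'
  have hu : uF N ∈ P.toValuationSubring :=
    sub_mem (one_mem _) (mul_mem (P.algebraMap_mem' _) hP)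
  rcases lt_or_ge (P.ord (jF N)) 0 with hlt | hge
  · exact mul_mem (pow_mem hu M) (ha.2 P hlt)
  · have h1 : 0 ≤ P.ord (jF N)⁻¹ := ord_nonneg_of_mem P hP
    rw [P.ord_inv] at h1
    have hj : P.ord (jF N) = 0 := le_antisymm (by omega) hge
    have hjm : jF N ∈ P.toValuationSubring := mem_of_ord_nonneg P hj0 hge
    by_cases h2 : P.ord (jF N - algebraMap KK (FF N) 1728) = 0
    · have h3 : (jF N) ^ (-i) ∈ P.toValuationSubring :=
        mem_of_ord_nonneg P (zpow_ne_zero _ hj0) (by rw [P.ord_zpow, hj, mul_zero])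
      exact mul_mem (pow_mem hu M) (mul_mem (pow_mem (ha.1 P ⟨hj, h2⟩) N) h3)
    · have h3 : 0 ≤ P.ord (jF N - algebraMap KK (FF N) 1728) :=
        ord_nonneg_of_mem P (sub_mem hjm (P.algebraMap_mem' _))
      have h4 : jF N - algebraMap KK (FF N) 1728 ≠ 0 := by
        intro h0
        rw [h0, Place.ord_zero] at h2
        exact h2 rfl
      have h5 : uF N = (jF N - algebraMap KK (FF N) 1728) * (jF N)⁻¹ := by
        rw [uF]; field_simp
      have h6 : P.ord (uF N) = P.ord (jF N - algebraMap KK (FF N) 1728) := by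
        rw [h5, P.ord_mul h4 (inv_ne_zero hj0), P.ord_inv, hj, neg_zero, add_zero]
      have hu0 : uF N ≠ 0 := by
        rw [h5]; exact mul_ne_zero h4 (inv_ne_zero hj0)
      have h7 : P.ord (uF N ^ M * b) = (M : ℤ) * P.ord (uF N) + P.ord b := by
        rw [P.ord_mul (pow_ne_zero _ hu0) hb0, ord_pow]
      have h8 : (1 : ℤ) ≤ P.ord (uF N) := by rw [h6]; omega
      have h9 : (M : ℤ) ≤ (M : ℤ) * P.ord (uF N) := by nlinarith
      have h10 := hM P
      exact mem_of_ord_nonneg P (mul_ne_zero (pow_ne_zero _ hu0) hb0) (by rw [h7]; omega)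

end Reg

/-! ### The generators -/

section Gen

variable {A : ValuationSubring KK} {N : ℕ} [NeZero N] {ℓ : ℕ} [Fact ℓ.Prime]

variable (N) in
/-- The series over `A` of the generator `a (w ^ N) * s ^ i`. -/
def genA (α : LaurentSeries A) (i : ℤ) : LaurentSeries A :=
  qExpand A N α * ((sU A N ^ i : (LaurentSeries A)ˣ) : LaurentSeries A)

theorem inc_genA {a : FF N} {α : LaurentSeries A} (hα : inc A α = (a : LaurentSeries KK))
    (i : ℤ) : inc A (genA N α i) = exK N a * sK A N ^ i := by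
  rw [genA, map_mul, map_units_zpow_val, val_sU, exK_apply, ← hα]
  congr 1
  exact ModularCurve.coeffMap_qExpand _ _ _

theorem rd_genA (α : LaurentSeries A) (i : ℤ) :
    rd A (genA N α i) = qExpand (IsLocalRing.ResidueField A) N (rd A α) * sk A N ^ i := by
  rw [genA, map_mul, map_units_zpow_val, val_sU]
  congr 1
  exact ModularCurve.coeffMap_qExpand _ _ _

/-- `qExpand` maps elements integral over `k[1/j̄]` to elements integral over the base. -/
theorem isIntegral_qExpand {z : LaurentSeries (IsLocalRing.ResidueField A)}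
    (hz : IsIntegral (Algebra.adjoin (IsLocalRing.ResidueField A)
      {tL (IsLocalRing.ResidueField A)}) z) (hA : A.LiesOverPrime ℓ) (hℓN : ¬ ℓ ∣ N) :
    IsIntegral (ChartNormal.base (sk A N) (gk A N))
      (qExpand (IsLocalRing.ResidueField A) N z) := by
  let qE := qExpandAlgHomC (IsLocalRing.ResidueField A) N
  have h : ∀ x : Algebra.adjoin (IsLocalRing.ResidueField A)
      {tL (IsLocalRing.ResidueField A)},
      (qE.comp (Subalgebra.val _)) x ∈ ChartNormal.base (sk A N) (gk A N) := by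
    intro x
    have h1 : qE (x : LaurentSeries (IsLocalRing.ResidueField A)) ∈
        (Algebra.adjoin (IsLocalRing.ResidueField A)
          {tL (IsLocalRing.ResidueField A)}).map qE := ⟨x, x.2, rfl⟩
    rw [AlgHom.map_adjoin, Set.image_singleton] at h1
    refine Algebra.adjoin_le ?_ h1
    intro y hy
    rw [Set.mem_singleton_iff] at hy
    rw [hy]
    show qExpand (IsLocalRing.ResidueField A) N (tL (IsLocalRing.ResidueField A)) ∈ _
    rw [← sk_pow hA hℓN]
    exact pow_mem (ChartNormal.mu_mem_base _ _) N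
  let φ : Algebra.adjoin (IsLocalRing.ResidueField A) {tL (IsLocalRing.ResidueField A)} →+*
      ChartNormal.base (sk A N) (gk A N) :=
    ((qE.comp (Subalgebra.val _)).codRestrict _ h).toRingHom
  exact IsIntegral.map_of_comp_eq φ qE.toRingHom (RingHom.ext fun _ => rfl) hz

theorem aeval_gk_ne_zero (hA : A.LiesOverPrime ℓ) (hℓN : ¬ ℓ ∣ N) :
    Polynomial.aeval (sk A N) (gk A N) ≠ 0 := by
  rw [aeval_gk hA hℓN]
  intro h
  have h1 := qExpand_injective (R := IsLocalRing.ResidueField A) N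
    (h.trans (map_zero _).symm)
  have h2 : (1 - 1728 * tL (IsLocalRing.ResidueField A)) * jqModC (IsLocalRing.ResidueField A)
      = jqModC (IsLocalRing.ResidueField A) - 1728 := by
    rw [sub_mul, one_mul, mul_assoc, mul_comm (tL _), jqModC_mul_tL, mul_one]
  rw [h1, zero_mul] at h2
  have h3 : Transcendental (IsLocalRing.ResidueField A) (jqModC (IsLocalRing.ResidueField A)) :=
    Fermat.Agent.S28.PrimeCase.transcendental_jqModC _
  apply h3
  have h4 : jqModC (IsLocalRing.ResidueField A) =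
      algebraMap (IsLocalRing.ResidueField A) _ 1728 := by
    rw [map_ofNat]
    exact (sub_eq_zero.mp h2.symm)
  rw [h4]
  exact isAlgebraic_algebraMap _

set_option maxHeartbeats 1600000 in
/-- **Integrality of the generators.** -/
theorem isIntegral_gen (hA : A.LiesOverPrime ℓ) (hℓN : ¬ ℓ ∣ N) {i : ℤ} {a : FF N}
    (ha : a ∈ V A N i) {α : LaurentSeries A} (hα : inc A α = (a : LaurentSeries KK)) :
    IsIntegral (ChartNormal.base (sk A N) (gk A N))
      (qExpand (IsLocalRing.ResidueField A) N (rd A α) * sk A N ^ i) := by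
  have hN0 : 0 < N := Nat.pos_of_ne_zero (NeZero.ne N)
  refine IsIntegral.of_pow hN0 ?_
  have hxN : (qExpand (IsLocalRing.ResidueField A) N (rd A α) * sk A N ^ i) ^ N =
      qExpand (IsLocalRing.ResidueField A) N
        ((rd A α) ^ N * (tL (IsLocalRing.ResidueField A)) ^ i) := by
    rw [mul_pow, ← zpow_natCast (sk A N ^ i), ← zpow_mul, mul_comm i, zpow_mul, zpow_natCast,
      sk_pow hA hℓN, map_mul, map_pow, map_zpow₀]
  rw [hxN]
  obtain ⟨M, hM⟩ := exists_mul_mem_regAt ha.1
  -- the series of `b = a ^ N * j ^ (-i)`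
  have hyb : inc A (α ^ N * ((jU A ^ (-i) : (LaurentSeries A)ˣ) : LaurentSeries A)) =
      ((a ^ N * (jF N) ^ (-i) : FF N) : LaurentSeries KK) := by
    rw [map_mul, map_pow, map_units_zpow_val, val_jU, hα, ← jqNModC_one (K := A),
      ← DecMod.inc_J (A := A) N]
    show _ = algebraMap (FF N) (LaurentSeries KK) (a ^ N * (jF N) ^ (-i))
    rw [map_mul, map_pow, map_zpow₀]
    rfl
  have hrdb : rd A (α ^ N * ((jU A ^ (-i) : (LaurentSeries A)ˣ) : LaurentSeries A)) =
      (rd A α) ^ N * (tL (IsLocalRing.ResidueField A)) ^ i := by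
    rw [map_mul, map_pow, map_units_zpow_val, val_jU, rd_jqModC, tL_eq_inv, inv_zpow, zpow_neg]
  -- the series of `c = u ^ M * b`
  have hyc : inc A (uA A ^ M * (α ^ N * ((jU A ^ (-i) : (LaurentSeries A)ˣ) : LaurentSeries A)))
      = ((uF N ^ M * (a ^ N * (jF N) ^ (-i)) : FF N) : LaurentSeries KK) := by
    rw [map_mul, map_pow, inc_uA N, hyb]
    rfl
  have hcOO : uF N ^ M * (a ^ N * (jF N) ^ (-i)) ∈ OO A N := ChartGlue.mem_OO_of_inc N hA hℓN hyc
  have hcR2 : redN A N ⟨_, hcOO⟩ ∈ R2 A N :=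
    (mem_redImage A N).mpr ⟨⟨_, hcOO⟩, ⟨hcOO, hM⟩, rfl⟩
  have hint : IsIntegral (Algebra.adjoin (IsLocalRing.ResidueField A)
      {(DegEq.jk (IsLocalRing.ResidueField A) N)⁻¹}) (redN A N ⟨_, hcOO⟩) :=
    IntRedInv.R2_le_B2b N hA hℓN hcR2
  have hint2 := IntRedMod.isIntegral_coe_of_isIntegral (FkN A N) hint
  rw [redN_eq_rd A N hcOO hyc] at hint2
  have hjk : (((DegEq.jk (IsLocalRing.ResidueField A) N)⁻¹ : FkN A N) :
      LaurentSeries (IsLocalRing.ResidueField A)) = tL (IsLocalRing.ResidueField A) := by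
    rw [tL_eq_inv]; rfl
  rw [hjk, map_mul, map_pow, rd_uA, hrdb] at hint2
  have h5 := isIntegral_qExpand hint2 hA hℓN
  rw [map_mul, map_pow, ← aeval_gk hA hℓN] at h5
  -- divide by `g(s̄) ^ M`
  have hg0 := aeval_gk_ne_zero (A := A) (N := N) hA hℓN
  have h6 : IsIntegral (ChartNormal.base (sk A N) (gk A N))
      ((Polynomial.aeval (sk A N) (gk A N))⁻¹) :=
    isIntegral_algebraMap (R := ChartNormal.base (sk A N) (gk A N))
      (x := ⟨_, ChartNormal.inv_mem_base (sk A N) (gk A N)⟩)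
  have h7 := (h6.pow M).mul h5
  have h8 : (Polynomial.aeval (sk A N) (gk A N))⁻¹ ^ M *
      (Polynomial.aeval (sk A N) (gk A N) ^ M *
        qExpand (IsLocalRing.ResidueField A) N
          ((rd A α) ^ N * (tL (IsLocalRing.ResidueField A)) ^ i)) =
      qExpand (IsLocalRing.ResidueField A) N
          ((rd A α) ^ N * (tL (IsLocalRing.ResidueField A)) ^ i) := by
    rw [← mul_assoc, ← mul_pow, inv_mul_cancel₀ hg0, one_pow, one_mul]
  rw [h8] at h7
  exact h7

end Gen

/-! ### The leaf (T4) -/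

section Final

variable {A : ValuationSubring KK} {N : ℕ} [NeZero N] {ℓ : ℕ} [Fact ℓ.Prime]

theorem exists_integral (hA : A.LiesOverPrime ℓ) (hℓN : ¬ ℓ ∣ N) {f : LaurentSeries KK}
    (hf : f ∈ Os A N) :
    ∃ y : LaurentSeries A, inc A y = f ∧
      IsIntegral (ChartNormal.base (sk A N) (gk A N)) (rd A y) := by
  induction hf using Subring.closure_induction with
  | mem f hf =>
    obtain ⟨i, a, ha, rfl⟩ := hf
    obtain ⟨α, hα⟩ := ha.2
    exact ⟨genA N α i, inc_genA hα i, by rw [rd_genA]; exact isIntegral_gen hA hℓN ha hα⟩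
  | zero => exact ⟨0, map_zero _, by rw [map_zero]; exact isIntegral_zero⟩
  | one => exact ⟨1, map_one _, by rw [map_one]; exact isIntegral_one⟩
  | add x y hx hy ihx ihy =>
    obtain ⟨y1, h1, h1'⟩ := ihx
    obtain ⟨y2, h2, h2'⟩ := ihy
    exact ⟨y1 + y2, by rw [map_add, h1, h2], by rw [map_add]; exact h1'.add h2'⟩
  | neg x hx ih =>
    obtain ⟨y1, h1, h1'⟩ := ih
    exact ⟨-y1, by rw [map_neg, h1], by rw [map_neg]; exact h1'.neg⟩
  | mul x y hx hy ihx ihy =>
    obtain ⟨y1, h1, h1'⟩ := ihx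
    obtain ⟨y2, h2, h2'⟩ := ihy
    exact ⟨y1 * y2, by rw [map_mul, h1, h2], by rw [map_mul]; exact h1'.mul h2'⟩

/-- **(T4)** every element of `Rs` is integral over `k[s̄, 1 / g(s̄)]`. -/
theorem isIntegral_Rs (hA : A.LiesOverPrime ℓ) (hℓN : ¬ ℓ ∣ N) :
    ∀ x ∈ Rs A N, IsIntegral (ChartNormal.base (sk A N) (gk A N)) x := by
  intro x hx
  obtain ⟨y, hy, rfl⟩ := mem_Rs.mp hx
  obtain ⟨y', h1, h2⟩ := exists_integral hA hℓN hy
  rw [inc_injective A h1] at h2
  exact h2

/-- **(T4)** the Kummer coordinate lies in `Rs`. -/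
theorem sk_mem_Rs : sk A N ∈ Rs A N := by
  refine mem_Rs.mpr ⟨sA A N, ?_, rfl⟩
  have h := mem_Os_of_mem_V (A := A) (N := N) (i := 1) (a := 1) one_mem_V_one
  rw [map_one, one_mul, zpow_one] at h
  exact h

/-- **(T4)** the constants lie in `Rs`. -/
theorem C_mem_Rs (c : IsLocalRing.ResidueField A) : HahnSeries.C c ∈ Rs A N := by
  obtain ⟨a, rfl⟩ := IsLocalRing.residue_surjective c
  refine mem_Rs.mpr ⟨HahnSeries.C a, ?_, ?_⟩
  · have ha : algebraMap KK (FF N) (a : KK) ∈ V A N 0 :=
      ⟨algebraMap_mem_Vrat _, HahnSeries.C a, by rw [inc_C]; rfl⟩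
    have h := mem_Os_of_mem_V ha
    rw [zpow_zero, mul_one, exK_apply] at h
    have h2 : inc A (HahnSeries.C a) =
        ((algebraMap KK (FF N) (a : KK) : FF N) : LaurentSeries KK) := by rw [inc_C]; rfl
    rw [← h2, inc_C] at h
    have h3 : qExpand KK N (algebraMap KK (LaurentSeries KK) (a : KK)) =
        algebraMap KK (LaurentSeries KK) (a : KK) := (qExpandAlgHomC KK N).commutes _
    rw [h3] at h
    rw [inc_C]
    exact h
  · show coeffMap (IsLocalRing.residue A) (HahnSeries.C a) = _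
    rw [HahnSeries.C_apply, coeffMap_single]
    rfl

end Final

/-! ### `1 / g(s̄)` -/

section Inv

variable (R : Type*) [CommRing R]

/-- `1 - 1728 / j` as a power series. -/
def uP : PowerSeries R := 1 - PowerSeries.C (1728 : R) * (PowerSeries.X * jNumInv R)

theorem constantCoeff_uP : PowerSeries.constantCoeff (uP R) = 1 := by
  simp [uP]

theorem ofPowerSeries_uP :
    HahnSeries.ofPowerSeries ℤ R (uP R) = 1 - HahnSeries.C (1728 : R) * tL R := by
  rw [uP, map_sub, map_one, map_mul, map_mul, HahnSeries.ofPowerSeries_C,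
    HahnSeries.ofPowerSeries_X, tL]

/-- The inverse of `1 - 1728 / j` as a Laurent series. -/
def uInv : LaurentSeries R := HahnSeries.ofPowerSeries ℤ R (PowerSeries.invOfUnit (uP R) 1)

theorem mul_uInv : (1 - HahnSeries.C (1728 : R) * tL R) * uInv R = 1 := by
  rw [← ofPowerSeries_uP, uInv, ← map_mul,
    PowerSeries.mul_invOfUnit _ _ (by rw [constantCoeff_uP]; rfl), map_one]

end Inv

section InvMem

variable {A : ValuationSubring KK} {N : ℕ} [NeZero N] {ℓ : ℕ} [Fact ℓ.Prime]

variable (A N) in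
theorem coe_uF_mul : ((uF N : FF N) : LaurentSeries KK) * inc A (uInv A) = 1 := by
  rw [← inc_uA (A := A) N, ← map_mul, uA, mul_uInv, map_one]

variable (N) in
theorem uF_ne_zero : uF N ≠ 0 := by
  intro h
  have h1 := coe_uF_mul (⊤ : ValuationSubring KK) N
  have h2 : ((uF N : FF N) : LaurentSeries KK) = 0 := by rw [h]; rfl
  rw [h2, zero_mul] at h1
  exact zero_ne_one h1

variable (A N) in
theorem inc_uInv : inc A (uInv A) = (((uF N)⁻¹ : FF N) : LaurentSeries KK) := by
  have h2 : (((uF N)⁻¹ : FF N) : LaurentSeries KK) = ((uF N : FF N) : LaurentSeries KK)⁻¹ := rfl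
  rw [h2]
  exact eq_inv_of_mul_eq_one_right (coe_uF_mul A N)

theorem rd_uInv : rd A (uInv A) = (1 - 1728 * tL (IsLocalRing.ResidueField A))⁻¹ := by
  have h : rd A (uA A) * rd A (uInv A) = 1 := by rw [← map_mul, uA, mul_uInv, map_one]
  rw [rd_uA] at h
  exact eq_inv_of_mul_eq_one_right h

variable (N) in
theorem ord_uF_eq_zero (P : Place KK (FF N))
    (h : P.ord (jF N - algebraMap KK (FF N) 1728) = P.ord (jF N)) : P.ord (uF N) = 0 := by
  have hj0 : jF N ≠ 0 := jF_ne_zero'
  have hu0 := uF_ne_zero N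
  have h5 : uF N = (jF N - algebraMap KK (FF N) 1728) * (jF N)⁻¹ := by
    rw [uF]; field_simp
  have h4 : jF N - algebraMap KK (FF N) 1728 ≠ 0 := by
    intro h0
    rw [h5, h0, zero_mul] at hu0
    exact hu0 rfl
  rw [h5, P.ord_mul h4 (inv_ne_zero hj0), P.ord_inv, h]
  ring

variable (A N) in
theorem uF_inv_mem_V : (uF N)⁻¹ ∈ V A N 0 := by
  have hj0 : jF N ≠ 0 := jF_ne_zero'
  have hu0 := uF_ne_zero N
  have hc0 : algebraMap KK (FF N) 1728 ≠ 0 := by
    rw [Ne, map_eq_zero]
    norm_num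
  refine ⟨⟨fun P hP => ?_, fun c hc => ?_⟩, uInv A, inc_uInv A N⟩
  · have h := ord_uF_eq_zero N P (by rw [hP.1, hP.2])
    exact mem_of_ord_nonneg P (inv_ne_zero hu0) (by rw [P.ord_inv, h, neg_zero])
  · have hc' : c.ord (jF N) < 0 := hc
    have h1 : c.ord (jF N + -algebraMap KK (FF N) 1728) = c.ord (jF N) := by
      apply ord_add_eq_of_lt c hj0 (neg_ne_zero.mpr hc0)
      rw [ord_neg, ord_algebraMap]
      exact hc'
    rw [← sub_eq_add_neg] at h1
    have h := ord_uF_eq_zero N c h1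
    rw [neg_zero, zpow_zero, mul_one]
    exact pow_mem (mem_of_ord_nonneg c (inv_ne_zero hu0) (by rw [c.ord_inv, h, neg_zero])) N

/-- **(T4)** `1 / g(s̄)` lies in `Rs`. -/
theorem inv_gk_mem_Rs (hA : A.LiesOverPrime ℓ) (hℓN : ¬ ℓ ∣ N) :
    (Polynomial.aeval (sk A N) (gk A N))⁻¹ ∈ Rs A N := by
  refine mem_Rs.mpr ⟨qExpand A N (uInv A), ?_, ?_⟩
  · have h := mem_Os_of_mem_V (uF_inv_mem_V A N)
    rw [zpow_zero, mul_one, exK_apply, ← inc_uInv A N] at h
    have h2 : inc A (qExpand A N (uInv A)) = qExpand KK N (inc A (uInv A)) :=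
      ModularCurve.coeffMap_qExpand _ _ _
    rw [h2]
    exact h
  · have h2 : rd A (qExpand A N (uInv A)) =
        qExpand (IsLocalRing.ResidueField A) N (rd A (uInv A)) :=
      ModularCurve.coeffMap_qExpand _ _ _
    rw [h2, rd_uInv, map_inv₀, aeval_gk hA hℓN]

end InvMem

end Fermat.Agent.S18.KummerInt
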