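import Mathlib
import Fermat.Agent.S18.KummerInt

/-!
# S18 infrastructure (Kummer cover, route β, leaf T6): the field of fractions of the chart ring

`Rs A N ⊆ k((w))` is the reduction of the chart ring of the Kummer cover.  Every element `x` of
the reduced function field `FkN A N`, read as a series in `w ^ N`, is a quotient of two elements
of `Rs A N`:

* `exists_pow_mul_mem_Vrat` : a function regular at the finite places, multiplied by a large
  power of `1 / j`, is regular at the generic places and at the cusps;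
* `qExpand_rd_mem_Rs` : the reduction of an element of `V A N 0`, read in `w ^ N`, lies in `Rs`;
* `exists_frac` : **(T6)**.
-/

set_option autoImplicit false
set_option linter.style.haveILetI false
set_option linter.unusedSectionVars false
set_option linter.unusedVariables false
set_option synthInstance.maxHeartbeats 400000

noncomputable section

namespace Fermat.Agent.S18.KummerFrac

open ModularCurve AlgebraicCurve HahnSeries Fermat.Agent.S18.Gauss Fermat.Agent.S18.Lattice
  Fermat.Agent.S24 Fermat.Agent.S24.Eval Fermat.Agent.S18.Charts Fermat.Agent.S18.KummerSeries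
  Fermat.Agent.S18.KummerRing

section Reg

variable (N : ℕ) [NeZero N]

/-- A function regular at the finite places, multiplied by a large power of `1 / j`, is regular
at the generic places and at the cusps. -/
theorem exists_pow_mul_mem_Vrat (f : FF N) (hf : f ∈ regAt N (jF N)) :
    ∃ M₀ : ℕ, ∀ M : ℕ, M₀ ≤ M → (jF N)⁻¹ ^ M * f ∈ Vrat N 0 := by
  obtain ⟨M₀, hM₀⟩ := KummerInt.exists_pole_bound N f
  have hj0 : jF N ≠ 0 := jF_ne_zero'
  refine ⟨M₀, fun M hM => ⟨fun P hP => ?_, fun c hc => ?_⟩⟩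
  · have hjm : jF N ∈ P.toValuationSubring := mem_of_ord_nonneg P hj0 (by rw [hP.1])
    have hjinv : (jF N)⁻¹ ∈ P.toValuationSubring :=
      mem_of_ord_nonneg P (inv_ne_zero hj0) (by rw [P.ord_inv, hP.1, neg_zero])
    exact mul_mem (pow_mem hjinv M) (hf P hjm)
  · rw [neg_zero, zpow_zero, mul_one]
    refine pow_mem ?_ N
    rcases eq_or_ne f 0 with rfl | hf0
    · rw [mul_zero]; exact zero_mem _
    have hc' : c.ord (jF N) < 0 := hc
    refine mem_of_ord_nonneg c (mul_ne_zero (pow_ne_zero _ (inv_ne_zero hj0)) hf0) ?_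
    rw [c.ord_mul (pow_ne_zero _ (inv_ne_zero hj0)) hf0, ord_pow, c.ord_inv]
    have h1 := hM₀ c
    have h2 : (M : ℤ) ≤ (M : ℤ) * (-(c.ord (jF N))) := by nlinarith
    have h3 : (M₀ : ℤ) ≤ (M : ℤ) := by exact_mod_cast hM
    omega

end Reg

section Main

variable {A : ValuationSubring KK} {N : ℕ} [NeZero N]

/-- The reduction of an element of `V A N 0`, read as a series in `w ^ N`, lies in `Rs`. -/
theorem qExpand_rd_mem_Rs {a : FF N} (ha : a ∈ Vrat N 0) {α : LaurentSeries A}
    (hα : inc A α = (a : LaurentSeries KK)) :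
    qExpand (IsLocalRing.ResidueField A) N (rd A α) ∈ Rs A N := by
  refine mem_Rs.mpr ⟨qExpand A N α, ?_, ?_⟩
  · have haV : a ∈ V A N 0 := ⟨ha, α, hα⟩
    have h := mem_Os_of_mem_V haV
    rw [zpow_zero, mul_one, exK_apply, ← hα] at h
    have h2 : inc A (qExpand A N α) = qExpand KK N (inc A α) :=
      ModularCurve.coeffMap_qExpand _ _ _
    rw [h2]
    exact h
  · exact ModularCurve.coeffMap_qExpand _ _ _

theorem tL_ne_zero (R : Type*) [CommRing R] [Nontrivial R] : tL R ≠ 0 := by
  intro h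
  have h1 := jqModC_mul_tL (R := R)
  rw [h, mul_zero] at h1
  exact zero_ne_one h1

/-- **(T6)** Every element of the reduced function field, read as a series in `w ^ N`, is a
quotient of two elements of `Rs`. -/
theorem exists_frac (x : FkN A N) :
    ∃ a ∈ Rs A N, ∃ b ∈ Rs A N, b ≠ 0 ∧
      qExpand (IsLocalRing.ResidueField A) N
        (x : LaurentSeries (IsLocalRing.ResidueField A)) * b = a := by
  obtain ⟨a₁, ha₁, b₁, hb₁, hb₁0, e⟩ := ChartGlue.exists_frac N x
  obtain ⟨n, hn, rfl⟩ := (mem_redImage A N).mp ha₁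
  obtain ⟨d, hd, rfl⟩ := (mem_redImage A N).mp hb₁
  obtain ⟨hnO, hnreg, ν, hν⟩ := (mem_O1int A N).mp hn
  obtain ⟨hdO, hdreg, δ, hδ⟩ := (mem_O1int A N).mp hd
  obtain ⟨M₁, hM₁⟩ := exists_pow_mul_mem_Vrat N (n : FF N) hnreg
  obtain ⟨M₂, hM₂⟩ := exists_pow_mul_mem_Vrat N (d : FF N) hdreg
  have hrn : ((redN A N n : FkN A N) : LaurentSeries (IsLocalRing.ResidueField A)) = rd A ν :=
    redN_eq_rd A N n.2 hν
  have hrd : ((redN A N d : FkN A N) : LaurentSeries (IsLocalRing.ResidueField A)) = rd A δ :=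
    redN_eq_rd A N d.2 hδ
  have e' : (x : LaurentSeries (IsLocalRing.ResidueField A)) * rd A δ = rd A ν := by
    rw [← hrn, ← hrd]
    exact congrArg (fun t : FkN A N => (t : LaurentSeries (IsLocalRing.ResidueField A))) e
  have hrd0 : rd A δ ≠ 0 := by
    rw [← hrd]
    intro h0
    exact hb₁0 (Subtype.ext h0)
  have hinc : ∀ (M : ℕ) (f : FF N) (φ : LaurentSeries A), inc A φ = (f : LaurentSeries KK) →
      inc A (tL A ^ M * φ) = (((jF N)⁻¹ ^ M * f : FF N) : LaurentSeries KK) := by
    intro M f φ hφ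
    rw [map_mul, map_pow, KummerInt.inc_tL (N := N), hφ]
    rfl
  have hτ : rd A (tL A) ≠ 0 := by
    rw [show rd A (tL A) = tL (IsLocalRing.ResidueField A) from coeffMap_tL _]
    exact tL_ne_zero _
  have hmemn := qExpand_rd_mem_Rs (hM₁ (M₁ + M₂) (Nat.le_add_right _ _))
    (hinc (M₁ + M₂) (n : FF N) ν hν)
  have hmemd := qExpand_rd_mem_Rs (hM₂ (M₁ + M₂) (Nat.le_add_left _ _))
    (hinc (M₁ + M₂) (d : FF N) δ hδ)
  refine ⟨_, hmemn, _, hmemd, ?_, ?_⟩
  · intro h0
    have h1 : rd A (tL A ^ (M₁ + M₂) * δ) = 0 := by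
      apply qExpand_injective N
      rw [h0, map_zero]
    rw [map_mul, map_pow] at h1
    exact mul_ne_zero (pow_ne_zero _ hτ) hrd0 h1
  · rw [← map_mul]
    congr 1
    rw [map_mul, map_mul, ← e']
    ring

end Main

end Fermat.Agent.S18.KummerFrac
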