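/-
S18 moonshot, cusps, route (β) (helper9): adapter between the chart `U` of `ChartUnity` and the
conditions `GenCond`, `CuspCond 0` of `KummerRing`:  `NormalStmt2` from `NormalStmt1` and lifts
of the elements of `B2b` which are regular at the generic places and at the cusps.
-/
import Mathlib
import Fermat.Agent.S18.ChartUnity
import Fermat.Agent.S18.KummerRing

set_option autoImplicit false
set_option synthInstance.maxHeartbeats 400000

namespace Fermat.Agent.S18.KummerUnity

open ModularCurve AlgebraicCurve HahnSeries
open Fermat.Agent.S18.Gauss Fermat.Agent.S18.Lattice Fermat.Agent.S24 Fermat.Agent.S24.Eval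
open Fermat.Agent.S18.Charts Fermat.Agent.S18.KummerRing Fermat.Agent.S18.ChartUnity

variable (N : ℕ) [NeZero N]

/-- Regular at the generic places and at the cusps implies regular on the chart `U`. -/
theorem mem_regU_of_genCond {f : FF N} (hg : GenCond N f) (hc : CuspCond N 0 f) :
    f ∈ regU N := by
  intro P hP0 hP1
  rcases lt_or_eq_of_le hP0 with hlt | heq
  · -- a cusp
    have h := hc P hlt
    rw [neg_zero, zpow_zero, mul_one] at h
    rcases eq_or_ne f 0 with rfl | hf
    · exact zero_mem _
    apply mem_of_ord_nonneg P hf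
    have h2 := ord_nonneg_of_mem P h
    rw [ord_pow] at h2
    have hN : (0 : ℤ) < N := by exact_mod_cast Nat.pos_of_ne_zero (NeZero.ne N)
    by_contra hneg
    rw [not_le] at hneg
    have := mul_neg_of_pos_of_neg hN hneg
    omega
  · -- a generic place
    have hj0 : jF N ≠ 0 := RedFibre.jF_ne_zero N
    have hjP : jF N ∈ P.toValuationSubring := mem_of_ord_nonneg P hj0 heq.ge
    have hcP : c1728 N ∈ P.toValuationSubring := P.algebraMap_mem' _
    have h2 : 0 ≤ P.ord (jF N - c1728 N) := ord_nonneg_of_mem P (sub_mem hjP hcP)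
    exact hg P ⟨heq, le_antisymm hP1 h2⟩

variable {A : ValuationSubring KK} {ℓ : ℕ} [Fact ℓ.Prime]

/-- **`NormalStmt2` from route (β)**: chart 1 is normal and every element of `B2b` has a
Gauss-integral lift which is regular at the generic places and at the cusps. -/
theorem normalStmt2_of_lift (hA : A.LiesOverPrime ℓ) (hℓN : ¬ ℓ ∣ N) (h1 : NormalStmt1 A N)
    (hU : ∀ x ∈ B2b A N, ∃ f : OO A N, GenCond N (f : FF N) ∧ CuspCond N 0 (f : FF N) ∧
      redN A N f = x) : NormalStmt2 A N :=
  normalStmt2_of_chartU N hA hℓN h1 fun x hx => by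
    obtain ⟨f, hg, hc, hf⟩ := hU x hx
    exact ⟨f, mem_regU_of_genCond N hg hc, hf⟩

end Fermat.Agent.S18.KummerUnity
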