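import Mathlib
import Fermat.Agent.S18.KummerChart
import Fermat.Agent.S18.KummerFin
import Fermat.Agent.S18.KummerInt
import Fermat.Agent.S18.KummerDer
import Fermat.Agent.S18.KummerUnity
import Fermat.Agent.S18.ChartGlue
import Fermat.Agent.S18.NormGlue
import Fermat.Agent.S18.KummerFrac

/-!
# S18 infrastructure (Kummer cover, route β): normality of the chart at infinity

* `normalStmt1` : `Charts.NormalStmt1 A N` at every level prime to `ℓ` (from the auxiliary
  levels `4 N` resp. `9 N`: `ChartGlue` + `NormGlue`);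
* `normalStmt2_of_frac` : `Charts.NormalStmt2 A N` from the single remaining input (T6), the
  fraction field statement for the reduction of the chart ring of the Kummer cover;
* `normalStmt_of_frac` : `Charts.NormalStmt A N` from (T6);
* `normalStmt2`, `normalStmt` : the unconditional statements, with (T6) = `KummerFrac.exists_frac`:
  **the reductions of both charts of `X₀(N)` are normal at every level `N` prime to `ℓ`.**
-/

set_option autoImplicit false
set_option linter.style.haveILetI false
set_option linter.unusedSectionVars false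
set_option linter.unusedVariables false

noncomputable section

namespace Fermat.Agent.S18.KummerFinal

open ModularCurve AlgebraicCurve HahnSeries Fermat.Agent.S18.Gauss Fermat.Agent.S18.Lattice
  Fermat.Agent.S24 Fermat.Agent.S24.Eval Fermat.Agent.S18.Charts Fermat.Agent.S18.KummerRing

variable {A : ValuationSubring KK} {N : ℕ} [NeZero N] {ℓ : ℕ} [Fact ℓ.Prime]

/-- **Normality of chart 1** at every level prime to `ℓ`. -/
theorem normalStmt1 (hA : A.LiesOverPrime ℓ) (hℓN : ¬ ℓ ∣ N) : NormalStmt1 A N := by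
  have hℓ : ℓ.Prime := Fact.out
  by_cases h2 : ℓ = 2
  · haveI : NeZero (9 * N) := ⟨Nat.mul_ne_zero (by norm_num) (NeZero.ne N)⟩
    have hℓN' : ¬ ℓ ∣ 9 * N := by
      intro h
      rcases (Nat.Prime.dvd_mul hℓ).mp h with h | h
      · rw [h2] at h
        omega
      · exact hℓN h
    exact NormGlue.normalStmt1 hA (dvd_mul_left N 9) hℓN'
      (ChartGlue.normalStmtInt_nine (9 * N) hA hℓN' (dvd_mul_right 9 N))
  · haveI : NeZero (4 * N) := ⟨Nat.mul_ne_zero (by norm_num) (NeZero.ne N)⟩
    have hℓN' : ¬ ℓ ∣ 4 * N := by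
      intro h
      rcases (Nat.Prime.dvd_mul hℓ).mp h with h | h
      · have h4 : ℓ ∣ 2 * 2 := by simpa using h
        rcases (Nat.Prime.dvd_mul hℓ).mp h4 with h' | h' <;>
          exact h2 ((Nat.prime_dvd_prime_iff_eq hℓ Nat.prime_two).mp h')
      · exact hℓN h
    exact NormGlue.normalStmt1 hA (dvd_mul_left N 4) hℓN'
      (ChartGlue.normalStmtInt_four (4 * N) hA hℓN' (dvd_mul_right 4 N))

/-- **Normality of chart 2** from the fraction field statement (T6). -/
theorem normalStmt2_of_frac (hA : A.LiesOverPrime ℓ) (hℓN : ¬ ℓ ∣ N)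
    (hfrac : ∀ x : FkN A N, ∃ a ∈ Rs A N, ∃ b ∈ Rs A N, b ≠ 0 ∧
      qExpand (IsLocalRing.ResidueField A) N
        (x : LaurentSeries (IsLocalRing.ResidueField A)) * b = a) :
    NormalStmt2 A N :=
  KummerUnity.normalStmt2_of_lift N hA hℓN (normalStmt1 hA hℓN)
    (KummerChart.exists_lift_chartU A N hA hℓN (KummerDer.exists_derivative hA hℓN)
      (KummerInt.gk A N) (KummerInt.inv_gk_mem_Rs hA hℓN) (KummerInt.isIntegral_Rs hA hℓN)
      (KummerFin.finiteDimensional_Rs A N hA hℓN) hfrac)

/-- `(N)_N` from (T6). -/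
theorem normalStmt_of_frac (hA : A.LiesOverPrime ℓ) (hℓN : ¬ ℓ ∣ N)
    (hfrac : ∀ x : FkN A N, ∃ a ∈ Rs A N, ∃ b ∈ Rs A N, b ≠ 0 ∧
      qExpand (IsLocalRing.ResidueField A) N
        (x : LaurentSeries (IsLocalRing.ResidueField A)) * b = a) :
    NormalStmt A N :=
  ⟨normalStmt1 hA hℓN, normalStmt2_of_frac hA hℓN hfrac⟩

/-- **Normality of chart 2** (the chart at infinity) at every level prime to `ℓ`. -/
theorem normalStmt2 (hA : A.LiesOverPrime ℓ) (hℓN : ¬ ℓ ∣ N) : NormalStmt2 A N :=
  normalStmt2_of_frac hA hℓN fun x => KummerFrac.exists_frac x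

/-- **`(N)_N`**: the reductions of both charts of level `N` are normal, at every level prime
to `ℓ`. -/
theorem normalStmt (hA : A.LiesOverPrime ℓ) (hℓN : ¬ ℓ ∣ N) : NormalStmt A N :=
  ⟨normalStmt1 hA hℓN, normalStmt2 hA hℓN⟩

end Fermat.Agent.S18.KummerFinal
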