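import Mathlib
import Fermat.Agent.S18.KummerFormula
import Fermat.Agent.S18.HauptParamFF

/-!
# S18, route β (Kummer cover), leaf (T3a-gen): the Euler derivation at the generic places

At a generic place `P` of the modular function field `FF N` (`j(P) ≠ 0, 1728, ∞`) the function
`j - j(P)` is a local parameter, so `d/dj`, hence `θ = - j d/dj`, preserves the valuation ring of
`P`: `GenCond N a → GenCond N (θ a)`.
-/

set_option autoImplicit false
set_option linter.style.haveILetI false
set_option linter.unusedSectionVars false

noncomputable section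

namespace Fermat.Agent.S18.KummerGen

open ModularCurve AlgebraicCurve HahnSeries
open Fermat.Agent.S24 Fermat.Agent.S24.Eval Fermat.Agent.S18.KummerRing
open Fermat.Agent.S18.TaylorQ Fermat.Agent.S18.KummerFormula

variable (N : ℕ) [NeZero N]

/-- At a generic place, `j - j(P)` is a local parameter. -/
theorem exists_ord_sub_eq_one (P : Place KK (FF N)) (hP : IsGen N P) :
    ∃ c : KK, P.ord (jF N - algebraMap KK (FF N) c) = 1 := by
  obtain ⟨c, hc | hc⟩ := Fermat.Agent.S18.HauptParamFF.H1_FF N P (jF N) (by rw [hP.1])
  · exfalso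
    apply Degree.transcendental_jF N
    rw [hc]
    exact isAlgebraic_algebraMap c
  · refine ⟨c, Fermat.Agent.S18.HauptParamFF.ord_eq_one_generic N c ?_ ?_ P hc⟩
    · rintro rfl
      rw [map_zero, sub_zero, hP.1] at hc
      exact lt_irrefl _ hc
    · rintro rfl
      rw [hP.2] at hc
      exact lt_irrefl _ hc

/-- `d/dj` preserves the valuation ring of a generic place. -/
theorem exists_DL_mem (P : Place KK (FF N)) (hP : IsGen N P) (a : FF N)
    (ha : a ∈ P.toValuationSubring) :
    ∃ g : FF N, (g : LaurentSeries KK) = DL (jqModC KK) (a : LaurentSeries KK) ∧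
      g ∈ P.toValuationSubring := by
  haveI := Degree.finiteDimensional_jF N
  obtain ⟨c, hc⟩ := exists_ord_sub_eq_one N P hP
  have e : (⟨jqModC KK, jqModC_mem N⟩ : FF N) = jF N := Subtype.ext (coe_jF_eq_jqModC N).symm
  exact Fermat.Agent.S18.HasseReg.coeff_TL_mem_place isLead_jqModC (modularFunctionFieldBar N)
    (jqModC_mem N) (jF N) (Degree.transcendental_jF N) P c (by rw [e]; exact hc) a ha 1

/-- **`θ` preserves regularity at the generic places.** -/
theorem genCond_theta (a : FF N) (ha : GenCond N a) : GenCond N (theta N a) := by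
  intro P hP
  obtain ⟨g, hg, hgP⟩ := exists_DL_mem N P hP a (ha P hP)
  have e : theta N a = -(jF N) * g := by
    apply Subtype.ext
    rw [coe_theta]
    show _ = -((jF N : FF N) : LaurentSeries KK) * (g : LaurentSeries KK)
    rw [hg, coe_jF_eq_jqModC]
  rw [e]
  have hj : jF N ∈ P.toValuationSubring :=
    mem_of_ord_nonneg P jF_ne_zero' (by rw [hP.1])
  exact mul_mem (neg_mem hj) hgP

/-- **The generic part of (T3a)**: `(N θ + i) a` is regular at the generic places if `a` is. -/
theorem genCond_step (i : ℤ) (a : FF N) (ha : GenCond N a) :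
    GenCond N ((N : FF N) * theta N a + (i : FF N) * a) := by
  intro P hP
  have hN : ((N : ℕ) : FF N) ∈ P.toValuationSubring := natCast_mem _ N
  have hi : ((i : ℤ) : FF N) ∈ P.toValuationSubring := intCast_mem _ i
  exact add_mem (mul_mem hN (genCond_theta N a ha P hP)) (mul_mem hi (ha P hP))

end Fermat.Agent.S18.KummerGen
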