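import Mathlib
import Fermat.Agent.S18.KummerNF
import Fermat.Agent.S18.HasseReg
import Fermat.Agent.S24.Degree
import Fermat.Agent.S18.HauptParamFF

/-!
# S18 infrastructure (Kummer cover, route β): the derivation `d/dj` on `FF N` and the operators
`N θ + i`

* `isLead_jq` : `j = q⁻¹ + ⋯`;
* `Dj N a` : the derivative of `a ∈ FF N` with respect to `j` (`TaylorQ.DL` restricted to
  `FF N`), a derivation of `FF N` over `KK` with `Dj j = 1`;
* `thetaN N i a = - N * j * Dj a + i * a = (N θ + i) a`, `θ = t d/dt`, `t = 1 / j`.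
-/

set_option autoImplicit false
set_option linter.style.haveILetI false
set_option linter.unusedSectionVars false
set_option linter.unusedVariables false

noncomputable section

namespace Fermat.Agent.S18.KummerTheta

open ModularCurve AlgebraicCurve HahnSeries Fermat.Agent.S18.Gauss Fermat.Agent.S18.Lattice
  Fermat.Agent.S24 Fermat.Agent.S24.Eval Fermat.Agent.S18.Charts Fermat.Agent.S18.KummerSeries
  Fermat.Agent.S18.KummerRing Fermat.Agent.S18.KummerNF Fermat.Agent.S18.TaylorQ
  Fermat.Agent.S18.HasseField Fermat.Agent.S18.HasseReg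

variable (N : ℕ) [NeZero N]

theorem isLead_jq : IsLead (jqModC KK) :=
  ⟨ModularCurve.coeff_jqModC_neg_one KK, fun _ hi => coeff_jqModC_of_lt KK hi⟩

theorem jq_mem : jqModC KK ∈ modularFunctionFieldBar N := by
  rw [← KummerNF.coe_jF N]
  exact (jF N).2

theorem mk_jq : (⟨jqModC KK, jq_mem N⟩ : FF N) = jF N := Subtype.ext (KummerNF.coe_jF N).symm

theorem halg_jq : ∀ f ∈ modularFunctionFieldBar N,
    IsAlgebraic (IntermediateField.adjoin KK {jqModC KK}) f :=
  haveI := Degree.finiteDimensional_jF N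
  halg_of_finiteDimensional isLead_jq (modularFunctionFieldBar N) (jq_mem N) (jF N)
    (Degree.transcendental_jF N)

/-- The derivative with respect to `j` on `FF N`. -/
def Dj (a : FF N) : FF N :=
  ⟨DL (jqModC KK) (a : LaurentSeries KK), DL_mem isLead_jq _ (jq_mem N) (halg_jq N) a.2⟩

theorem coe_Dj (a : FF N) :
    ((Dj N a : FF N) : LaurentSeries KK) = DL (jqModC KK) (a : LaurentSeries KK) := rfl

theorem Dj_add (a b : FF N) : Dj N (a + b) = Dj N a + Dj N b :=
  Subtype.ext (map_add (DL (jqModC KK)) _ _)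

theorem Dj_mul (a b : FF N) : Dj N (a * b) = a * Dj N b + b * Dj N a :=
  Subtype.ext (leibniz_mul (DL (jqModC KK)) _ _)

theorem Dj_algebraMap (c : KK) : Dj N (algebraMap KK (FF N) c) = 0 :=
  Subtype.ext (by
    show DL (jqModC KK) (algebraMap KK (LaurentSeries KK) c) = 0
    rw [algebraMap_eq_C, DL_C])

theorem Dj_jF : Dj N (jF N) = 1 :=
  Subtype.ext (by
    show DL (jqModC KK) ((jF N : FF N) : LaurentSeries KK) = 1
    rw [KummerNF.coe_jF, DL_self isLead_jq])

theorem Dj_sub_algebraMap (b : KK) : Dj N (jF N - algebraMap KK (FF N) b) = 1 := by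
  have e : jF N - algebraMap KK (FF N) b = jF N + algebraMap KK (FF N) (-b) := by
    rw [map_neg, sub_eq_add_neg]
  rw [e, Dj_add, Dj_algebraMap, add_zero, Dj_jF]

/-- `Dj` preserves regularity at every place at which `j - b` is a local parameter. -/
theorem Dj_mem_of_ord_eq_one (P : Place KK (FF N)) (b : KK)
    (hb : P.ord (jF N - algebraMap KK (FF N) b) = 1) {a : FF N}
    (ha : a ∈ P.toValuationSubring) : Dj N a ∈ P.toValuationSubring :=
  haveI := Degree.finiteDimensional_jF N
  derivation_mem_valuationSubring (jF N) (Degree.transcendental_jF N) (Dj N) (Dj_add N)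
    (Dj_mul N) (Dj_algebraMap N) P _ hb (Dj_sub_algebraMap N b) ha

/-- `(N θ + i) a`, where `θ = t d/dt = - j d/dj`. -/
def thetaN (i : ℤ) (a : FF N) : FF N :=
  -((N : ℕ) : FF N) * jF N * Dj N a + ((i : ℤ) : FF N) * a

theorem thetaN_def (i : ℤ) (a : FF N) :
    thetaN N i a = -((N : ℕ) : FF N) * jF N * Dj N a + ((i : ℤ) : FF N) * a := rfl

/-! ### Regularity at the generic places (T3a-gen) -/

/-- At a generic place, `j - b` is a local parameter for the value `b` of `j`. -/
theorem exists_ord_eq_one_of_isGen (P : Place KK (FF N)) (hP : IsGen N P) :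
    ∃ b : KK, P.ord (jF N - algebraMap KK (FF N) b) = 1 := by
  obtain ⟨c, hc | hc⟩ := HauptParamFF.H1_FF N P (jF N) (by rw [hP.1])
  · exfalso
    have htr := Degree.transcendental_jF N
    rw [hc] at htr
    exact htr (isAlgebraic_algebraMap c)
  · have h0 : c ≠ 0 := by
      rintro rfl
      rw [map_zero, sub_zero, hP.1] at hc
      exact lt_irrefl _ hc
    have h1 : c ≠ 1728 := by
      rintro rfl
      rw [hP.2] at hc
      exact lt_irrefl _ hc
    exact ⟨c, HauptParamFF.ord_eq_one_generic N c h0 h1 P hc⟩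

theorem genCond_Dj {a : FF N} (ha : GenCond N a) : GenCond N (Dj N a) := by
  intro P hP
  obtain ⟨b, hb⟩ := exists_ord_eq_one_of_isGen N P hP
  exact Dj_mem_of_ord_eq_one N P b hb (ha P hP)

theorem jF_mem_of_isGen (P : Place KK (FF N)) (hP : IsGen N P) :
    jF N ∈ P.toValuationSubring :=
  mem_of_ord_nonneg P jF_ne_zero' (by rw [hP.1])

/-- **(T3a-gen)** `(N θ + i)` preserves regularity at the generic places. -/
theorem genCond_thetaN (i : ℤ) {a : FF N} (ha : GenCond N a) : GenCond N (thetaN N i a) := by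
  intro P hP
  rw [thetaN_def]
  have hN : ((N : ℕ) : FF N) ∈ P.toValuationSubring := by
    have := P.algebraMap_mem' ((N : ℕ) : KK)
    rwa [map_natCast] at this
  have hi : ((i : ℤ) : FF N) ∈ P.toValuationSubring := by
    have := P.algebraMap_mem' ((i : ℤ) : KK)
    rwa [map_intCast] at this
  exact add_mem (mul_mem (mul_mem (neg_mem hN) (jF_mem_of_isGen N P hP)) (genCond_Dj N ha P hP))
    (mul_mem hi (ha P hP))

end Fermat.Agent.S18.KummerTheta
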