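/-
S18 moonshot, sub-lemma (L3) of [I] LOC (helper9): truncated `p`-th roots.  In a commutative
ring in which `p` is invertible, every element `1 + c y` is a `p`-th power modulo `c ^ K`, of an
element congruent to `1` modulo `c` (Newton iteration `ρ' = ρ + c ^ K e / p`).
-/
import Mathlib

set_option autoImplicit false

namespace Fermat.Agent.S18.TruncRoot

variable {R : Type*} [CommRing R]

/-- `c ∣ ρ - 1` implies `c ∣ ρ ^ m - 1`. -/
theorem dvd_pow_sub_one {c ρ : R} (h : c ∣ ρ - 1) (m : ℕ) : c ∣ ρ ^ m - 1 := by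
  have h1 : ρ - 1 ∣ ρ ^ m - 1 ^ m := sub_dvd_pow_sub_pow ρ 1 m
  rw [one_pow] at h1
  exact h.trans h1

/-- **Truncated `p`-th root**, divisibility form. -/
theorem exists_root_dvd (p : ℕ) (hp : IsUnit (p : R)) (c x : R) (hx : c ∣ x) (K : ℕ) :
    ∃ ρ : R, c ∣ ρ - 1 ∧ c ^ K ∣ (1 + x) - ρ ^ p := by
  obtain ⟨u, hu⟩ := hp
  induction K with
  | zero => exact ⟨1, by simp, by simp⟩
  | succ K ih =>
    rcases Nat.eq_zero_or_pos K with hK | hK
    · subst hK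
      refine ⟨1, by simp, ?_⟩
      simpa using hx
    obtain ⟨ρ, hρ, e, he⟩ := ih
    -- Newton step
    set δ : R := (↑u⁻¹ : R) * e with hδ
    have hpδ : (p : R) * δ = e := by
      rw [hδ, ← hu, ← mul_assoc, Units.mul_inv, one_mul]
    obtain ⟨k, hk⟩ := Polynomial.powAddExpansion ρ (c ^ K * δ) p
    obtain ⟨a, ha⟩ := dvd_pow_sub_one hρ (p - 1)
    refine ⟨ρ + c ^ K * δ, ?_, ?_⟩
    · have h1 : c ∣ c ^ K * δ := Dvd.dvd.mul_right (dvd_pow_self c hK.ne') δ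
      have e1 : ρ + c ^ K * δ - 1 = (ρ - 1) + c ^ K * δ := by ring
      rw [e1]
      exact dvd_add hρ h1
    · obtain ⟨K', rfl⟩ : ∃ K', K = K' + 1 := ⟨K - 1, by omega⟩
      refine ⟨-(a * e) - k * c ^ K' * δ ^ 2, ?_⟩
      have e2 : ρ ^ (p - 1) = 1 + c * a := by rw [← ha]; ring
      rw [hk, e2]
      have e3 : (1 : R) + x - (ρ ^ p + ↑p * (1 + c * a) * (c ^ (K' + 1) * δ) +
          k * (c ^ (K' + 1) * δ) ^ 2) =
          ((1 + x) - ρ ^ p) - c ^ (K' + 1) * ((p : R) * δ) -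
            c ^ (K' + 1) * c * a * ((p : R) * δ) -
            k * (c ^ (K' + 1) * δ) ^ 2 := by ring
      rw [e3, he, hpδ]
      ring

/-- **Truncated `p`-th root**: `1 + c y = ρ ^ p + c ^ K e` with `ρ = 1 + c z`. -/
theorem exists_truncated_root (p : ℕ) (hp : IsUnit (p : R)) (c y : R) (K : ℕ) :
    ∃ ρ e z : R, 1 + c * y = ρ ^ p + c ^ K * e ∧ ρ = 1 + c * z := by
  obtain ⟨ρ, ⟨z, hz⟩, ⟨e, he⟩⟩ := exists_root_dvd p hp c (c * y) (dvd_mul_right c y) K
  refine ⟨ρ, e, z, ?_, ?_⟩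
  · rw [← he]; ring
  · rw [← hz]; ring

/-- Variant inside a subring `S` containing `c`, `y` and the inverse of `p`: the root and the
error term lie in `S`. -/
theorem exists_truncated_root_mem {B : Type*} [CommRing B] (S : Subring B) (p : ℕ)
    (hp : ∃ v ∈ S, (p : B) * v = 1) {c y : B} (hc : c ∈ S) (hy : y ∈ S) (K : ℕ) :
    ∃ ρ ∈ S, ∃ e ∈ S, ∃ z ∈ S, 1 + c * y = ρ ^ p + c ^ K * e ∧ ρ = 1 + c * z := by
  obtain ⟨v, hv, hpv⟩ := hp
  have hpS : IsUnit ((p : ℕ) : S) := by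
    refine IsUnit.of_mul_eq_one (⟨v, hv⟩ : S) ?_
    apply Subtype.ext
    push_cast
    exact hpv
  obtain ⟨ρ, e, z, h1, h2⟩ := exists_truncated_root p hpS (⟨c, hc⟩ : S) ⟨y, hy⟩ K
  refine ⟨ρ, ρ.2, e, e.2, z, z.2, ?_, ?_⟩
  · have := congrArg Subtype.val h1
    simpa using this
  · have := congrArg Subtype.val h2
    simpa using this

end Fermat.Agent.S18.TruncRoot
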